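/-
N4: abstract chart algebras.

For a commutative ring `O`, a field `F` with `Algebra O F` and a set `S ⊆ F`, `chartAlg O F S` is the
integral closure of `O[S]` in `F`, as an `O`-subalgebra of `F`.  This is the frozen
`ModularCurve.IgusaScheme.chartAlg` in general clothes (same carrier, same proofs), so that the
N4 blocks can talk about the charts of the `j`-line over an arbitrary base `O`.

Main statements (all elementary):
* `mem_chartAlg_iff`, `adjoin_le_chartAlg`, `subset_chartAlg`, `chartAlg_mono`, `chartIncl`;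
* `isIntegral_chartAlg_iff` : integral over the chart = in the chart (the chart is integrally closed in `F`);
* `exists_pow_mul_mem_chartAlg` : clearing the denominators `s⁻¹`;
* `isLocalization_away_chartIncl` : `chartAlg (insert s⁻¹ S)` is the localisation of `chartAlg S` at `s ∈ S`.
-/
import Mathlib

set_option autoImplicit false

open Polynomial

namespace Fermat.Agent.N4.Chart

variable (O F : Type*) [CommRing O] [Field F] [Algebra O F]

/-- The integral closure of `O[S]` in `F`, as an `O`-subalgebra of `F`. -/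
def chartAlg (S : Set F) : Subalgebra O F where
  carrier := {x | IsIntegral (Algebra.adjoin O S) x}
  mul_mem' ha hb := ha.mul hb
  one_mem' := isIntegral_one
  add_mem' ha hb := ha.add hb
  zero_mem' := isIntegral_zero
  algebraMap_mem' a := by
    have : IsIntegral (Algebra.adjoin O S)
        (algebraMap (Algebra.adjoin O S) F (algebraMap O (Algebra.adjoin O S) a)) :=
      isIntegral_algebraMap
    simpa [← IsScalarTower.algebraMap_apply] using this

variable {O F}

theorem mem_chartAlg_iff {S : Set F} {x : F} :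
    x ∈ chartAlg O F S ↔ IsIntegral (Algebra.adjoin O S) x := Iff.rfl

theorem adjoin_le_chartAlg (S : Set F) : Algebra.adjoin O S ≤ chartAlg O F S := fun x hx => by
  rw [mem_chartAlg_iff]
  exact isIntegral_algebraMap (x := (⟨x, hx⟩ : Algebra.adjoin O S))

theorem subset_chartAlg (S : Set F) : S ⊆ (chartAlg O F S : Set F) := fun _ hx =>
  adjoin_le_chartAlg S (Algebra.subset_adjoin hx)

theorem chartAlg_mono {S S' : Set F} (h : S ⊆ S') : chartAlg O F S ≤ chartAlg O F S' := by
  intro x hx
  rw [mem_chartAlg_iff] at hx ⊢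
  exact hx.map_of_comp_eq
    (Subalgebra.inclusion (Algebra.adjoin_mono h)).toRingHom (RingHom.id F) (by ext; rfl)

/-- The inclusion of charts. -/
abbrev chartIncl {S S' : Set F} (h : S ⊆ S') : chartAlg O F S →ₐ[O] chartAlg O F S' :=
  Subalgebra.inclusion (chartAlg_mono h)

theorem coe_chartIncl {S S' : Set F} (h : S ⊆ S') (x : chartAlg O F S) :
    (chartIncl h x : F) = x :=
  Subalgebra.coe_inclusion _ x

theorem chartIncl_injective {S S' : Set F} (h : S ⊆ S') :
    Function.Injective (chartIncl (O := O) h) :=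
  Subalgebra.inclusion_injective _

/-- The chart is integrally closed in `F`. -/
theorem isIntegral_chartAlg_iff {S : Set F} {x : F} :
    IsIntegral (chartAlg O F S) x ↔ x ∈ chartAlg O F S := by
  constructor
  · intro hx
    rw [mem_chartAlg_iff]
    set T : Subalgebra (Algebra.adjoin O S) F := integralClosure (Algebra.adjoin O S) F with hT
    let φ : chartAlg O F S →+* T :=
      ((chartAlg O F S).val : chartAlg O F S →+* F).codRestrict T fun y => y.2
    have hxT : IsIntegral T x :=
      hx.map_of_comp_eq φ (RingHom.id F) (by ext; rfl)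
    have hmem : x ∈ integralClosure T F := hxT
    rw [hT, integralClosure_idem, Algebra.mem_bot] at hmem
    obtain ⟨y, rfl⟩ := hmem
    exact y.2
  · intro hx
    exact isIntegral_algebraMap (x := (⟨x, hx⟩ : chartAlg O F S))


theorem exists_pow_mul_mem_adjoin {S : Set F} {s : F} (hs : s ∈ S) (hs0 : s ≠ 0) {x : F}
    (hx : x ∈ Algebra.adjoin O (insert s⁻¹ S)) : ∃ n : ℕ, s ^ n * x ∈ Algebra.adjoin O S := by
  have hsA : s ∈ Algebra.adjoin O S := Algebra.subset_adjoin hs
  induction hx using Algebra.adjoin_induction with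
  | mem y hy =>
    rcases hy with rfl | hy
    · exact ⟨1, by rw [pow_one, mul_inv_cancel₀ hs0]; exact one_mem _⟩
    · exact ⟨0, by rw [pow_zero, one_mul]; exact Algebra.subset_adjoin hy⟩
  | algebraMap a => exact ⟨0, by rw [pow_zero, one_mul]; exact Subalgebra.algebraMap_mem _ a⟩
  | add y z _ _ hy hz =>
    obtain ⟨m, hm⟩ := hy
    obtain ⟨n, hn⟩ := hz
    refine ⟨m + n, ?_⟩
    have : s ^ (m + n) * (y + z) = s ^ n * (s ^ m * y) + s ^ m * (s ^ n * z) := by ring
    rw [this]
    exact add_mem (mul_mem (pow_mem hsA n) hm) (mul_mem (pow_mem hsA m) hn)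
  | mul y z _ _ hy hz =>
    obtain ⟨m, hm⟩ := hy
    obtain ⟨n, hn⟩ := hz
    refine ⟨m + n, ?_⟩
    have : s ^ (m + n) * (y * z) = (s ^ m * y) * (s ^ n * z) := by ring
    rw [this]
    exact mul_mem hm hn

theorem exists_pow_mul_mem_chartAlg {S : Set F} {s : F} (hs : s ∈ S) (hs0 : s ≠ 0) {x : F}
    (hx : x ∈ chartAlg O F (insert s⁻¹ S)) : ∃ n : ℕ, s ^ n * x ∈ chartAlg O F S := by
  classical
  obtain ⟨p, hmonic, hroot⟩ := (mem_chartAlg_iff).mp hx
  have hcoeff : ∀ i, ∃ n : ℕ, s ^ n * (p.coeff i : F) ∈ Algebra.adjoin O S :=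
    fun i => exists_pow_mul_mem_adjoin hs hs0 (p.coeff i).2
  choose n hn using hcoeff
  set M : ℕ := ∑ i ∈ Finset.range (p.natDegree + 1), n i with hM
  have hnM : ∀ i ≤ p.natDegree, n i ≤ M := fun i hi =>
    Finset.single_le_sum (f := n) (fun _ _ => Nat.zero_le _)
      (Finset.mem_range.mpr (Nat.lt_succ_of_le hi))
  set q : F[X] := (p.map (algebraMap (Algebra.adjoin O (insert s⁻¹ S)) F)).scaleRoots (s ^ M)
    with hq
  have hqmonic : q.Monic := (Polynomial.monic_scaleRoots_iff _).mpr (hmonic.map _)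
  have hqroot : q.eval (s ^ M * x) = 0 := by
    rw [hq, Polynomial.scaleRoots_eval_mul, Polynomial.eval_map, hroot, mul_zero]
  have hqcoeff : ∀ i, q.coeff i ∈ Algebra.adjoin O S := by
    intro i
    rw [hq, Polynomial.coeff_scaleRoots, Polynomial.coeff_map, hmonic.natDegree_map]
    by_cases hi : i < p.natDegree
    · have hle : n i ≤ M * (p.natDegree - i) := by
        calc n i ≤ M := hnM i hi.le
          _ = M * 1 := (mul_one M).symm
          _ ≤ M * (p.natDegree - i) := Nat.mul_le_mul_left M (Nat.one_le_iff_ne_zero.mpr (by omega))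
      obtain ⟨k, hk⟩ := Nat.exists_eq_add_of_le hle
      have : (s ^ M) ^ (p.natDegree - i) = s ^ k * s ^ n i := by
        rw [← pow_mul, hk, pow_add, mul_comm]
      rw [this, Subalgebra.algebraMap_def, Algebra.algebraMap_self_apply,
        show (p.coeff i : F) * (s ^ k * s ^ n i) = s ^ k * (s ^ n i * (p.coeff i : F)) by ring]
      exact mul_mem (pow_mem (Algebra.subset_adjoin hs) k) (hn i)
    · rcases (not_lt.mp hi).lt_or_eq with hlt | heq
      · rw [Polynomial.coeff_eq_zero_of_natDegree_lt hlt, map_zero, zero_mul]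
        exact zero_mem _
      · rw [← heq, hmonic.coeff_natDegree, map_one, one_mul, Nat.sub_self, pow_zero]
        exact one_mem _
  have hlifts : q ∈ Polynomial.lifts (algebraMap (Algebra.adjoin O S) F) :=
    (Polynomial.lifts_iff_coeff_lifts q).mpr fun i => ⟨⟨q.coeff i, hqcoeff i⟩, rfl⟩
  obtain ⟨q', hq'q, -, hq'monic⟩ := Polynomial.lifts_and_natDegree_eq_and_monic hlifts hqmonic
  refine ⟨M, (mem_chartAlg_iff).mpr ⟨q', hq'monic, ?_⟩⟩
  rw [Polynomial.eval₂_eq_eval_map, hq'q, hqroot]

/-- `s ∈ S` as an element of the chart. -/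
def chartGen {S : Set F} {s : F} (hs : s ∈ S) : chartAlg O F S := ⟨s, subset_chartAlg S hs⟩

@[simp] theorem coe_chartGen {S : Set F} {s : F} (hs : s ∈ S) :
    (chartGen (O := O) hs : F) = s := rfl

theorem isUnit_chartIncl_chartGen {S : Set F} {s : F} (hs : s ∈ S) (hs0 : s ≠ 0) :
    IsUnit (chartIncl (O := O) (Set.subset_insert s⁻¹ S) (chartGen hs)) := by
  refine .of_mul_eq_one ⟨s⁻¹, subset_chartAlg _ (Set.mem_insert _ _)⟩ (Subtype.ext ?_)
  rw [Subalgebra.coe_mul, Subalgebra.coe_one, coe_chartIncl, coe_chartGen]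
  exact mul_inv_cancel₀ hs0

/-- `chartAlg (insert s⁻¹ S)` is the localisation of `chartAlg S` at `s ∈ S`. -/
theorem isLocalization_away_chartIncl {S : Set F} {s : F} (hs : s ∈ S) (hs0 : s ≠ 0) :
    letI := (chartIncl (O := O) (Set.subset_insert s⁻¹ S)).toRingHom.toAlgebra
    IsLocalization.Away (chartGen (O := O) hs) (chartAlg O F (insert s⁻¹ S)) := by
  letI := (chartIncl (O := O) (Set.subset_insert s⁻¹ S)).toRingHom.toAlgebra
  refine (isLocalization_iff _ _).mpr ⟨?_, ?_, ?_⟩
  · rintro ⟨_, n, rfl⟩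
    rw [RingHom.algebraMap_toAlgebra, map_pow]
    exact (isUnit_chartIncl_chartGen hs hs0).pow n
  · intro z
    obtain ⟨n, hn⟩ := exists_pow_mul_mem_chartAlg hs hs0 z.2
    refine ⟨(⟨s ^ n * z, hn⟩, ⟨chartGen hs ^ n, n, rfl⟩), Subtype.ext ?_⟩
    simp only [RingHom.algebraMap_toAlgebra, map_pow, Subalgebra.coe_mul, Subalgebra.coe_pow,
      AlgHom.toRingHom_eq_coe, AlgHom.coe_toRingHom, coe_chartIncl, coe_chartGen]
    exact mul_comm _ _
  · intro x y h
    refine ⟨1, ?_⟩
    rw [RingHom.algebraMap_toAlgebra] at h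
    rw [chartIncl_injective _ h]

end Fermat.Agent.N4.Chart
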