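/-
N4: the common concrete setting of the blocks S28a / Sreg / a / d / S28b, and the INTERFACE
statements (as `Prop`-valued definitions) exchanged between them.

* `K`  : a field algebraic over `ℚ` (`ℚ` for S28; for S18 `K₁(μ_m : ℓ ∤ m) ⊆ ℚ̄`, `K₁` a number field);
* `O`  : a subring of `K` which is a discrete valuation ring with fraction field `K`
         (`GaloisRep.ratLocalizedAt ℓ` for S28, `A ∩ K` for S18), of residue characteristic `ℓ ∤ N`;
* `FF K N`   : the function field `K(j(q^d) : d ∣ N) ⊆ K((q))` (the prelude's `modularFunctionFieldFullC`);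
* `Rfin, Rinf, Rmid` : the integral closures of `O[j]`, `O[j⁻¹]`, `O[j, j⁻¹]` in `FF K N`
         (`Chart.chartAlg`; for `K = ℚ`, `O = ℤ_(ℓ)` they have the same carriers as the prelude's
         `chartAlgFin/Inf/Mid`);
* `fibreIdeal R` : the ideal `𝔪_O R` of a chart `R` (`= π R` for any uniformiser `π`).

Interface statements:
* `HasFibreEmbedding R` : (∗) for the chart `R`: an injective ring homomorphism
      `θ : R / 𝔪_O R → κ((q))` which is compatible with coefficientwise reduction of `q`-expansions
      of elements of `FF K N ∩ O((q))` with nonzero reduction.  (In particular `𝔪_O R` is prime.)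
* `StarStatement`   : `HasFibreEmbedding Rfin ∧ HasFibreEmbedding Rinf`            (output of S28a);
* `SmoothStatement` : `Rfin / 𝔪_O` and `Rinf / 𝔪_O` are Dedekind domains            (output of Sreg).
-/
import Mathlib
import Fermat.Prelude.Def_ModularCurve_X0ModL
import Fermat.Agent.N4.Chart

set_option autoImplicit false

open ModularCurve Fermat.Agent.N4.Chart

noncomputable section

namespace Fermat.Agent.N4.Setting

variable (K : Type) [Field K] (N : ℕ)

/-- The function field `K(j(q^d) : d ∣ N) ⊆ K((q))`. -/
abbrev FF : Type := ↥(modularFunctionFieldFullC K N)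

/-- `j` as an element of the function field. -/
def jF : FF K N := ⟨jqModC K, jqModC_mem_full K N⟩

@[simp] theorem coe_jF : (jF K N : LaurentSeries K) = jqModC K := rfl

/-- `j(q^d)`, `d ∣ N`, as an element of the function field. -/
def jdF {d : ℕ} [NeZero d] (hd : d ∣ N) : FF K N :=
  ⟨qExpand K d (jqModC K), jqModCd_mem_full K N hd⟩

@[simp] theorem coe_jdF {d : ℕ} [NeZero d] (hd : d ∣ N) :
    (jdF K N hd : LaurentSeries K) = qExpand K d (jqModC K) := rfl

theorem jF_ne_zero : jF K N ≠ 0 := fun h =>
  jqModC_ne_zero_of_nontrivial K (by simpa using congrArg Subtype.val h)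

variable (O : Subring K)

instance isScalarTower_base : IsScalarTower ↥O K (FF K N) :=
  IsScalarTower.of_algebraMap_eq fun _ => rfl

/-- The chart `j ≠ ∞` : integral closure of `O[j]` in `FF K N`. -/
abbrev Rfin : Subalgebra ↥O (FF K N) := chartAlg ↥O (FF K N) {jF K N}

/-- The chart `j ≠ 0` : integral closure of `O[j⁻¹]` in `FF K N`. -/
abbrev Rinf : Subalgebra ↥O (FF K N) := chartAlg ↥O (FF K N) {(jF K N)⁻¹}

/-- The intersection of the two charts : integral closure of `O[j, j⁻¹]` in `FF K N`. -/
abbrev Rmid : Subalgebra ↥O (FF K N) := chartAlg ↥O (FF K N) {jF K N, (jF K N)⁻¹}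

/-- `j` as an element of the finite chart. -/
def jFin : Rfin K N O := chartGen (Set.mem_singleton _)

/-- `j⁻¹` as an element of the chart at infinity. -/
def jInvInf : Rinf K N O := chartGen (Set.mem_singleton _)

@[simp] theorem coe_jFin : (jFin K N O : FF K N) = jF K N := rfl
@[simp] theorem coe_jInvInf : (jInvInf K N O : FF K N) = (jF K N)⁻¹ := rfl

theorem sFin_subset : ({jF K N} : Set (FF K N)) ⊆ {jF K N, (jF K N)⁻¹} :=
  Set.singleton_subset_iff.mpr (Set.mem_insert _ _)

theorem sInf_subset : ({(jF K N)⁻¹} : Set (FF K N)) ⊆ {jF K N, (jF K N)⁻¹} :=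
  Set.singleton_subset_iff.mpr (Set.mem_insert_of_mem _ rfl)

/-- `Rfin → Rmid`. -/
abbrev inclFin : Rfin K N O →ₐ[↥O] Rmid K N O := chartIncl (sFin_subset K N)

/-- `Rinf → Rmid`. -/
abbrev inclInf : Rinf K N O →ₐ[↥O] Rmid K N O := chartIncl (sInf_subset K N)

section Fibre

variable [IsLocalRing ↥O]

/-- The ideal `𝔪_O R` of an `O`-subalgebra `R` of the function field: the ideal of the special fibre. -/
def fibreIdeal (R : Subalgebra ↥O (FF K N)) : Ideal R :=
  (IsLocalRing.maximalIdeal ↥O).map (algebraMap ↥O R)

/-- **Interface (∗).**  The special fibre of the chart `R` is integral and its function field embeds in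
`κ((q))`, compatibly with coefficientwise reduction of integral `q`-expansions:
there is an injective ring homomorphism `θ : R / 𝔪_O R → κ((q))` such that every `y ∈ FF K N ∩ O((q))`
with nonzero reduction `ȳ` is a fraction `a / b` with `a, b ∈ R`, `b ∉ 𝔪_O R` and `θ ā = ȳ · θ b̄`. -/
def HasFibreEmbedding (R : Subalgebra ↥O (FF K N)) : Prop :=
  ∃ θ : (R ⧸ fibreIdeal K N O R) →+* LaurentSeries (IsLocalRing.ResidueField ↥O),
    Function.Injective θ ∧
    ∀ (y : LaurentSeries ↥O) (hy : coeffMap O.subtype y ∈ modularFunctionFieldFullC K N),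
      coeffMap (IsLocalRing.residue ↥O) y ≠ 0 →
        ∃ a b : R, b ∉ fibreIdeal K N O R ∧
          (⟨coeffMap O.subtype y, hy⟩ : FF K N) * (b : FF K N) = (a : FF K N) ∧
          θ (Ideal.Quotient.mk _ a) =
            coeffMap (IsLocalRing.residue ↥O) y * θ (Ideal.Quotient.mk _ b)

/-- **(∗)** for both charts: output of block S28a. -/
def StarStatement : Prop :=
  HasFibreEmbedding K N O (Rfin K N O) ∧ HasFibreEmbedding K N O (Rinf K N O)

/-- **(S)** : the special fibres of both charts are Dedekind domains: output of block Sreg. -/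
def SmoothStatement : Prop :=
  IsDedekindDomain (Rfin K N O ⧸ fibreIdeal K N O (Rfin K N O)) ∧
    IsDedekindDomain (Rinf K N O ⧸ fibreIdeal K N O (Rinf K N O))

theorem HasFibreEmbedding.isDomain {R : Subalgebra ↥O (FF K N)} (h : HasFibreEmbedding K N O R) :
    IsDomain (R ⧸ fibreIdeal K N O R) := by
  obtain ⟨θ, hθ, -⟩ := h
  exact hθ.isDomain θ

theorem HasFibreEmbedding.isPrime {R : Subalgebra ↥O (FF K N)} (h : HasFibreEmbedding K N O R) :
    (fibreIdeal K N O R).IsPrime :=
  (Ideal.Quotient.isDomain_iff_prime _).mp h.isDomain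

end Fibre

/-- The standing hypotheses on `(K, O, ℓ, N)` under which S28a and Sreg prove their statements
(together with the instances `[CharZero K] [Algebra.IsAlgebraic ℚ K] [IsDiscreteValuationRing ↥O]`):
`O ⊆ K` has fraction field `K`, its residue characteristic is the prime `ℓ`, and `ℓ ∤ N`.
`K` is NOT assumed to be a number field: for S18 the base is `K = K₁(μ_m : ℓ ∤ m)`, `O = A ∩ K`,
a discrete valuation ring with algebraically closed residue field. -/
structure GoodBase (ℓ : ℕ) : Prop where
  prime : ℓ.Prime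
  not_dvd : ¬ ℓ ∣ N
  frac : IsFractionRing ↥O K
  not_isUnit : ¬ IsUnit ((ℓ : ℕ) : ↥O)

/-- The exact shape of the deliverable of block S28a (to be proved in `N4/Irreducible.lean`). -/
def StarTarget : Prop :=
  ∀ (K : Type) [Field K] [CharZero K] [Algebra.IsAlgebraic ℚ K] (N : ℕ) [NeZero N] (O : Subring K)
    [IsDiscreteValuationRing ↥O] (ℓ : ℕ), GoodBase K N O ℓ → StarStatement K N O

/-- The exact shape of the deliverable of block Sreg (to be proved in `N4/SmoothModel.lean`):
only bases with ALGEBRAICALLY CLOSED residue field (all closed points of the special fibre rational,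
as in the Katz–Mazur quotient lemma L4). -/
def SmoothTarget : Prop :=
  ∀ (K : Type) [Field K] [CharZero K] [Algebra.IsAlgebraic ℚ K] (N : ℕ) [NeZero N] (O : Subring K)
    [IsDiscreteValuationRing ↥O] [IsAlgClosed (IsLocalRing.ResidueField ↥O)] (ℓ : ℕ),
    GoodBase K N O ℓ → SmoothStatement K N O

end Fermat.Agent.N4.Setting

end
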