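/-
N4: the function field `FF K N = K(j(q^d) : d ∣ N)` is algebraic over `K(j)` for every field `K` of
characteristic `0` (descent from `ℂ`, where it is S24's `modularEquationOver_complex`), and the
resulting "denominators": for a subring `O ⊆ K` with fraction field `K` and a transcendental
`s ∈ FF K N` with `K(s) = K(j)`, every `z ∈ FF K N` has a nonzero multiple `b z`, `b ∈ O[s]`, integral
over `O[s]`.
-/
import Fermat.Agent.N4.Setting
import Fermat.Agent.S24.FFBasicsC

set_option autoImplicit false
set_option linter.style.haveILetI false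

open ModularCurve IntermediateField Fermat.Agent.S24.FFBasics
open Fermat.Agent.N4.Chart Fermat.Agent.N4.Setting

namespace Fermat.Agent.N4.FFAlgebraic

section Descent

variable (K : Type*) [Field K] [CharZero K]

/-- `j(q^d)` is algebraic over `ℚ(j)` inside `ℚ((q))`. -/
theorem isAlgebraic_jd_rat (d : ℕ) [NeZero d] :
    IsAlgebraic ℚ⟮jqModC ℚ⟯ (qExpand ℚ d (jqModC ℚ)) := by
  refine isAlgebraic_adjoin_simple_of_coeffMap (L := ℂ) _ _ (transcendental_jqModC ℚ) ?_
  rw [coeffMap_qExpand, coeffMap_jqModC]
  exact modularEquationOver_complex d d dvd_rfl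

/-- Coefficientwise base change `ℚ((q)) → K((q))` as a `ℚ`-algebra homomorphism. -/
noncomputable def coeffAlgHom : LaurentSeries ℚ →ₐ[ℚ] LaurentSeries K :=
  { coeffMap (algebraMap ℚ K) with
    commutes' := fun c => by
      have h : (coeffMap (algebraMap ℚ K)).comp (algebraMap ℚ (LaurentSeries ℚ)) =
          algebraMap ℚ (LaurentSeries K) := Subsingleton.elim _ _
      exact congrArg (fun g : ℚ →+* LaurentSeries K => g c) h }

@[simp] theorem coeffAlgHom_apply (x : LaurentSeries ℚ) :
    coeffAlgHom K x = coeffMap (algebraMap ℚ K) x := rfl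

/-- `j(q^d)` is algebraic over `K(j)` inside `K((q))`, for every field `K` of characteristic `0`. -/
theorem isAlgebraic_jd (d : ℕ) [NeZero d] :
    IsAlgebraic K⟮jqModC K⟯ (qExpand K d (jqModC K)) := by
  rw [isAlgebraic_adjoin_simple_iff _ _ (transcendental_jqModC K)]
  have h := isAlgebraic_jd_rat d
  rw [isAlgebraic_adjoin_simple_iff _ _ (transcendental_jqModC ℚ)] at h
  intro hK
  apply h
  haveI : @IsScalarTower ℚ K (LaurentSeries K) Algebra.toSMul Algebra.toSMul Algebra.toSMul :=
    IsScalarTower.of_algebraMap_eq' (Subsingleton.elim _ _)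
  -- restrict scalars to `ℚ`, then pull back along the `ℚ`-algebra map `coeffMap`
  have h1 : AlgebraicIndependent ℚ
      (optFam (jqModC K) (qExpand K d (jqModC K))) :=
    hK.restrictScalars (algebraMap ℚ K).injective
  refine AlgebraicIndependent.of_comp (coeffAlgHom K) ?_
  rw [comp_optFam, coeffAlgHom_apply, coeffAlgHom_apply, coeffMap_qExpand, coeffMap_jqModC]
  exact h1

end Descent

section FunctionField

variable (K : Type) [Field K] [CharZero K] (N : ℕ)

/-- Every element of `FF K N`, as a Laurent series, is algebraic over `K(j)`. -/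
theorem isAlgebraic_coe (z : FF K N) : IsAlgebraic K⟮jqModC K⟯ (z : LaurentSeries K) := by
  have hle : modularFunctionFieldFullC K N ≤
      (algebraicClosure K⟮jqModC K⟯ (LaurentSeries K)).restrictScalars K := by
    rw [modularFunctionFieldFullC, IntermediateField.adjoin_le_iff]
    rintro x ⟨d, hd, -, rfl⟩
    have := hd
    exact mem_algebraicClosure_iff.mpr (isAlgebraic_jd K d)
  exact mem_algebraicClosure_iff.mp (hle z.2)

omit [CharZero K] in
theorem transcendental_jF : Transcendental K (jF K N) := fun halg =>
  transcendental_jqModC K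
    ((isAlgebraic_algHom_iff (modularFunctionFieldFullC K N).val
      (modularFunctionFieldFullC K N).val.injective).mpr halg)

/-- `FF K N` is algebraic over `K(j)`. -/
theorem isAlgebraic_jF (z : FF K N) : IsAlgebraic K⟮jF K N⟯ z := by
  rw [isAlgebraic_adjoin_simple_iff _ _ (transcendental_jF K N)]
  intro hind
  have h := isAlgebraic_coe K N z
  rw [isAlgebraic_adjoin_simple_iff _ _ (transcendental_jqModC K)] at h
  apply h
  have := hind.map' (f := (modularFunctionFieldFullC K N).val)
    (modularFunctionFieldFullC K N).val.injective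
  rwa [comp_optFam] at this

omit [CharZero K] in
theorem adjoin_jF_inv : K⟮(jF K N)⁻¹⟯ = K⟮jF K N⟯ := by
  apply le_antisymm
  · rw [IntermediateField.adjoin_simple_le_iff]
    exact inv_mem (IntermediateField.mem_adjoin_simple_self K _)
  · rw [IntermediateField.adjoin_simple_le_iff]
    have h := inv_mem (IntermediateField.mem_adjoin_simple_self K (jF K N)⁻¹)
    rwa [inv_inv] at h

omit [CharZero K] in
theorem transcendental_jF_inv : Transcendental K (jF K N)⁻¹ := fun halg =>
  transcendental_jF K N (by simpa using halg.inv)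

/-- `FF K N` is algebraic over `K(j⁻¹)`. -/
theorem isAlgebraic_jF_inv (z : FF K N) : IsAlgebraic K⟮(jF K N)⁻¹⟯ z := by
  rw [adjoin_jF_inv]
  exact isAlgebraic_jF K N z

end FunctionField

section Denominators

variable (K : Type) [Field K] (N : ℕ) (O : Subring K) [IsFractionRing ↥O K]

/-- **Denominators.** If `s ∈ FF K N` is transcendental over `K` and `FF K N` is algebraic over
`K(s)`, every `z ∈ FF K N` has a nonzero multiple `b z`, `b ∈ O[s]`, in the integral closure
`chartAlg O (FF K N) {s}` of `O[s]`. -/
theorem exists_mul_mem_chartAlg (s : FF K N) (hs : Transcendental K s)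
    (halg : ∀ z : FF K N, IsAlgebraic K⟮s⟯ z) (z : FF K N) :
    ∃ b : ↥(Algebra.adjoin ↥O ({s} : Set (FF K N))), b ≠ 0 ∧
      (b : FF K N) * z ∈ chartAlg ↥O (FF K N) {s} := by
  haveI : Algebra.IsAlgebraic ↥O K := IsLocalization.isAlgebraic K (nonZeroDivisors ↥O)
  have h1 := halg z
  rw [isAlgebraic_adjoin_simple_iff _ _ hs] at h1
  rw [← Algebra.IsAlgebraic.algebraicIndependent_iff ↥O K] at h1
  have hsO : AlgebraicIndependent ↥O (fun _ : Unit => s) := by
    have : AlgebraicIndependent K (fun _ : Unit => s) :=
      algebraicIndependent_unique_type_iff.mpr hs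
    exact this.restrictScalars (FaithfulSMul.algebraMap_injective ↥O K)
  have h2 : ¬ Transcendental (Algebra.adjoin ↥O (Set.range fun _ : Unit => s)) z := fun ht =>
    h1 ((hsO.option_iff_transcendental z).mpr ht)
  rw [range_const_unit] at h2
  have h3 : IsAlgebraic (Algebra.adjoin ↥O ({s} : Set (FF K N))) z := not_not.mp h2
  obtain ⟨b, hb0, hb⟩ := h3.exists_integral_multiple
  exact ⟨b, hb0, hb⟩

end Denominators

end Fermat.Agent.N4.FFAlgebraic
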