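/-
N4 / L1 (helper12), part 1: formal Laurent series tools for the Puiseux roots of `Φ_N`.

* `twist u : LaurentSeries R →+* LaurentSeries R`, `f(t) ↦ f(u t)` for a unit `u`;
* `coeffSubring S`: the subring of Laurent series all of whose coefficients lie in a subring `S`;
* `LeadsWith f n c`: `f = c tⁿ + higher order terms`; multiplicativity;
* `rootSeries u e = j(u t^e)`: coefficients, leading terms of the series and of their differences;
* `aeval (jqModC S) P` for `P : S[Y]`: leading term, and the descent lemma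
  `P(j) ∈ coeffSubring R ⇒ P ∈ R[Y]`.
-/
import Mathlib
import Fermat.Prelude.Def_ModularCurve_JqCoeff
import Fermat.Prelude.Def_ModularCurve_LaurentCoeff
import Fermat.Prelude.Thm_ModularCurve_coeff_jqModC_pow_self
import Fermat.Prelude.Thm_ModularCurve_coeff_jqModC_pow_of_lt
import Fermat.Prelude.Thm_ModularCurve_coeff_jqModC_neg_one

set_option autoImplicit false

open HahnSeries ModularCurve

namespace Fermat.Agent.N4.TwistSeries

section Twist

variable {R : Type*} [CommRing R]

/-- The underlying function of `twist`. -/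
noncomputable def twistFun (u : Rˣ) (f : LaurentSeries R) : LaurentSeries R where
  coeff n := ((u ^ n : Rˣ) : R) * f.coeff n
  isPWO_support' := f.isPWO_support.mono (by
    intro n hn
    rw [Function.mem_support] at hn
    rw [HahnSeries.mem_support]
    intro h0
    exact hn (by rw [h0, mul_zero]))

@[simp] theorem twistFun_coeff (u : Rˣ) (f : LaurentSeries R) (n : ℤ) :
    (twistFun u f).coeff n = ((u ^ n : Rˣ) : R) * f.coeff n := rfl

theorem support_twistFun (u : Rˣ) (f : LaurentSeries R) : (twistFun u f).support = f.support := by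
  ext n
  rw [HahnSeries.mem_support, HahnSeries.mem_support, twistFun_coeff]
  constructor
  · intro h h0
    exact h (by rw [h0, mul_zero])
  · intro h h0
    exact h ((Units.mul_right_eq_zero _).mp h0)

/-- `f(t) ↦ f(u t)`: the coefficient of `tⁿ` is multiplied by `uⁿ`. -/
noncomputable def twist (u : Rˣ) : LaurentSeries R →+* LaurentSeries R where
  toFun := twistFun u
  map_zero' := by ext n; simp
  map_one' := by
    ext n
    rw [twistFun_coeff, HahnSeries.coeff_one]
    split_ifs with h
    · subst h; simp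
    · simp
  map_add' x y := by ext n; simp [mul_add]
  map_mul' x y := by
    ext n
    rw [twistFun_coeff, HahnSeries.coeff_mul, HahnSeries.coeff_mul, Finset.mul_sum]
    have hs : Finset.antidiagonal (twistFun u x).isPWO_support (twistFun u y).isPWO_support n =
        Finset.antidiagonal x.isPWO_support y.isPWO_support n := by
      ext ij
      simp only [Finset.mem_antidiagonal, support_twistFun]
    rw [hs]
    refine Finset.sum_congr rfl fun ij hij => ?_
    obtain ⟨-, -, hsum⟩ := Finset.mem_antidiagonal.mp hij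
    rw [twistFun_coeff, twistFun_coeff, ← hsum, zpow_add, Units.val_mul]
    ring

@[simp] theorem twist_coeff (u : Rˣ) (f : LaurentSeries R) (n : ℤ) :
    (twist u f).coeff n = ((u ^ n : Rˣ) : R) * f.coeff n := rfl

theorem twist_one (f : LaurentSeries R) : twist (1 : Rˣ) f = f := by
  ext n; simp

theorem twist_twist (u v : Rˣ) (f : LaurentSeries R) : twist u (twist v f) = twist (u * v) f := by
  ext n
  simp only [twist_coeff, mul_zpow, Units.val_mul]
  ring

theorem twist_injective (u : Rˣ) : Function.Injective (twist (R := R) u) := by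
  intro f g h
  have := congrArg (twist u⁻¹) h
  rwa [twist_twist, twist_twist, inv_mul_cancel, twist_one, twist_one] at this

end Twist

section CoeffSubring

variable {R : Type*} [CommRing R]

/-- Laurent series all of whose coefficients lie in the subring `S`. -/
def coeffSubring (S : Subring R) : Subring (LaurentSeries R) where
  carrier := {f | ∀ n, f.coeff n ∈ S}
  mul_mem' := by
    intro f g hf hg n
    rw [HahnSeries.coeff_mul]
    exact Subring.sum_mem _ fun ij _ => S.mul_mem (hf _) (hg _)
  one_mem' := by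
    intro n
    rw [HahnSeries.coeff_one]
    split_ifs
    · exact S.one_mem
    · exact S.zero_mem
  add_mem' := by
    intro f g hf hg n
    rw [HahnSeries.coeff_add]
    exact S.add_mem (hf n) (hg n)
  zero_mem' := fun n => by simp
  neg_mem' := by
    intro f hf n
    rw [HahnSeries.coeff_neg]
    exact S.neg_mem (hf n)

theorem mem_coeffSubring {S : Subring R} {f : LaurentSeries R} :
    f ∈ coeffSubring S ↔ ∀ n, f.coeff n ∈ S := Iff.rfl

theorem twist_mem_coeffSubring {S : Subring R} (u : Rˣ) (hu : (u : R) ∈ S)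
    (hu' : ((u⁻¹ : Rˣ) : R) ∈ S) {f : LaurentSeries R} (hf : f ∈ coeffSubring S) :
    twist u f ∈ coeffSubring S := by
  intro n
  rw [twist_coeff]
  refine S.mul_mem ?_ (hf n)
  rcases Int.eq_nat_or_neg n with ⟨k, rfl | rfl⟩
  · rw [zpow_natCast, Units.val_pow_eq_pow_val]
    exact S.pow_mem hu k
  · rw [zpow_neg, zpow_natCast, ← inv_pow, Units.val_pow_eq_pow_val]
    exact S.pow_mem hu' k

theorem qExpand_mem_coeffSubring {S : Subring R} (e : ℕ) [NeZero e] {f : LaurentSeries R}
    (hf : f ∈ coeffSubring S) : qExpand R e f ∈ coeffSubring S := by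
  intro n
  by_cases hn : (e : ℤ) ∣ n
  · obtain ⟨k, rfl⟩ := hn
    rw [qExpand_coeff_mul]
    exact hf k
  · rw [qExpand_coeff_of_not_dvd e f hn]
    exact S.zero_mem

theorem coeffMap_mem_coeffSubring {R' : Type*} [CommRing R'] (φ : R' →+* R) {S : Subring R}
    (hφ : ∀ r, φ r ∈ S) (f : LaurentSeries R') : coeffMap φ f ∈ coeffSubring S := fun n => by
  rw [coeffMap_coeff]
  exact hφ _

theorem jqModC_mem_coeffSubring (S : Subring R) : jqModC R ∈ coeffSubring S := by
  rw [jqModC_eq_map_intCast]
  intro n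
  rw [HahnSeries.map_coeff]
  exact intCast_mem S _

end CoeffSubring

section LeadsWith

variable {R : Type*} [CommRing R]

/-- `f = c tⁿ + (higher order terms)`. -/
def LeadsWith (f : LaurentSeries R) (n : ℤ) (c : R) : Prop :=
  (∀ m < n, f.coeff m = 0) ∧ f.coeff n = c

theorem LeadsWith.mul {f g : LaurentSeries R} {n m : ℤ} {c d : R} (hf : LeadsWith f n c)
    (hg : LeadsWith g m d) : LeadsWith (f * g) (n + m) (c * d) := by
  have key : ∀ k ≤ n + m, ∀ ij ∈ Finset.antidiagonal f.isPWO_support g.isPWO_support k,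
      ij = (n, m) := by
    intro k hk ij hij
    obtain ⟨h1, h2, h3⟩ := Finset.mem_antidiagonal.mp hij
    have hi : n ≤ ij.1 := by
      by_contra hlt
      exact h1 (hf.1 _ (not_le.mp hlt))
    have hj : m ≤ ij.2 := by
      by_contra hlt
      exact h2 (hg.1 _ (not_le.mp hlt))
    ext
    · show ij.1 = n
      omega
    · show ij.2 = m
      omega
  constructor
  · intro k hk
    rw [HahnSeries.coeff_mul]
    refine Finset.sum_eq_zero fun ij hij => ?_
    have h := key k hk.le ij hij
    obtain ⟨-, -, h3⟩ := Finset.mem_antidiagonal.mp hij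
    rw [h] at h3
    exact absurd h3 (ne_of_gt hk)
  · rw [HahnSeries.coeff_mul]
    by_cases hmem : (n, m) ∈ Finset.antidiagonal f.isPWO_support g.isPWO_support (n + m)
    · rw [Finset.sum_eq_single_of_mem (n, m) hmem]
      · rw [hf.2, hg.2]
      · intro ij hij hne
        exact absurd (key _ le_rfl ij hij) hne
    · rw [Finset.sum_eq_zero]
      · rw [Finset.mem_antidiagonal] at hmem
        by_contra hcd
        apply hmem
        refine ⟨?_, ?_, rfl⟩
        · rw [HahnSeries.mem_support, hf.2]
          intro h0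
          exact hcd (by rw [h0, zero_mul])
        · rw [HahnSeries.mem_support, hg.2]
          intro h0
          exact hcd (by rw [h0, mul_zero])
      · intro ij hij
        exact absurd (key _ le_rfl ij hij ▸ hij) hmem

theorem leadsWith_one : LeadsWith (1 : LaurentSeries R) 0 1 := by
  constructor
  · intro m hm
    rw [HahnSeries.coeff_one, if_neg (ne_of_lt hm)]
  · rw [HahnSeries.coeff_one, if_pos rfl]

theorem LeadsWith.prod {ι : Type*} (s : Finset ι) (f : ι → LaurentSeries R) (n : ι → ℤ)
    (c : ι → R) (h : ∀ i ∈ s, LeadsWith (f i) (n i) (c i)) :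
    LeadsWith (∏ i ∈ s, f i) (∑ i ∈ s, n i) (∏ i ∈ s, c i) := by
  classical
  induction s using Finset.induction_on with
  | empty => simpa using leadsWith_one
  | insert a s ha ih =>
    rw [Finset.prod_insert ha, Finset.sum_insert ha, Finset.prod_insert ha]
    exact (h a (Finset.mem_insert_self a s)).mul
      (ih fun i hi => h i (Finset.mem_insert_of_mem hi))

theorem LeadsWith.neg {f : LaurentSeries R} {n : ℤ} {c : R} (hf : LeadsWith f n c) :
    LeadsWith (-f) n (-c) :=
  ⟨fun m hm => by rw [HahnSeries.coeff_neg, hf.1 m hm, neg_zero],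
    by rw [HahnSeries.coeff_neg, hf.2]⟩

/-- Sum of two series with different orders. -/
theorem LeadsWith.add_of_lt {f g : LaurentSeries R} {n m : ℤ} {c d : R} (hf : LeadsWith f n c)
    (hg : LeadsWith g m d) (hnm : n < m) : LeadsWith (f + g) n c :=
  ⟨fun k hk => by rw [HahnSeries.coeff_add, hf.1 k hk, hg.1 k (hk.trans hnm), add_zero],
    by rw [HahnSeries.coeff_add, hf.2, hg.1 n hnm, add_zero]⟩

/-- Sum of two series with the same order. -/
theorem LeadsWith.add {f g : LaurentSeries R} {n : ℤ} {c d : R} (hf : LeadsWith f n c)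
    (hg : LeadsWith g n d) : LeadsWith (f + g) n (c + d) :=
  ⟨fun k hk => by rw [HahnSeries.coeff_add, hf.1 k hk, hg.1 k hk, add_zero],
    by rw [HahnSeries.coeff_add, hf.2, hg.2]⟩

theorem LeadsWith.ne_zero {f : LaurentSeries R} {n : ℤ} {c : R} (hf : LeadsWith f n c)
    (hc : c ≠ 0) : f ≠ 0 := by
  rintro rfl
  exact hc (by rw [← hf.2]; rfl)

/-- A series determines its leading term. -/
theorem LeadsWith.unique {f : LaurentSeries R} {n m : ℤ} {c d : R} (hf : LeadsWith f n c)
    (hg : LeadsWith f m d) (hc : c ≠ 0) (hd : d ≠ 0) : n = m ∧ c = d := by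
  have h1 : ¬ n < m := fun h => hc (by rw [← hf.2, hg.1 n h])
  have h2 : ¬ m < n := fun h => hd (by rw [← hg.2, hf.1 m h])
  have hnm : n = m := le_antisymm (not_lt.mp h2) (not_lt.mp h1)
  subst hnm
  exact ⟨rfl, by rw [← hf.2, hg.2]⟩

theorem LeadsWith.qExpand {f : LaurentSeries R} {n : ℤ} {c : R} (hf : LeadsWith f n c) (e : ℕ)
    [NeZero e] : LeadsWith (qExpand R e f) ((e : ℤ) * n) c := by
  have he : (0 : ℤ) < e := by exact_mod_cast NeZero.pos e
  constructor
  · intro m hm
    by_cases hd : (e : ℤ) ∣ m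
    · obtain ⟨k, rfl⟩ := hd
      rw [qExpand_coeff_mul]
      exact hf.1 k (lt_of_mul_lt_mul_left hm he.le)
    · exact qExpand_coeff_of_not_dvd e f hd
  · rw [qExpand_coeff_mul, hf.2]

theorem LeadsWith.twist {f : LaurentSeries R} {n : ℤ} {c : R} (hf : LeadsWith f n c) (u : Rˣ) :
    LeadsWith (twist u f) n (((u ^ n : Rˣ) : R) * c) :=
  ⟨fun m hm => by rw [twist_coeff, hf.1 m hm, mul_zero], by rw [twist_coeff, hf.2]⟩

theorem LeadsWith.coeffMap {R' : Type*} [CommRing R'] {f : LaurentSeries R} {n : ℤ} {c : R}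
    (hf : LeadsWith f n c) (φ : R →+* R') : LeadsWith (coeffMap φ f) n (φ c) :=
  ⟨fun m hm => by rw [coeffMap_coeff, hf.1 m hm, map_zero], by rw [coeffMap_coeff, hf.2]⟩

end LeadsWith

section JSeries

variable (R : Type*) [CommRing R]

theorem leadsWith_jqModC_pow (b : ℕ) : LeadsWith (jqModC R ^ b) (-(b : ℤ)) 1 :=
  ⟨fun _ hm => coeff_jqModC_pow_of_lt R hm, coeff_jqModC_pow_self R b⟩

theorem leadsWith_jqModC : LeadsWith (jqModC R) (-1) 1 := by
  have := leadsWith_jqModC_pow R 1
  simpa using this

end JSeries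

section RootSeries

variable {R : Type*} [CommRing R]

/-- The Puiseux root `j(u t^e)` of the modular polynomial. -/
noncomputable def rootSeries (u : Rˣ) (e : ℕ) [NeZero e] : LaurentSeries R :=
  qExpand R e (twist u (jqModC R))

theorem rootSeries_coeff_mul (u : Rˣ) (e : ℕ) [NeZero e] (n : ℤ) :
    (rootSeries u e).coeff ((e : ℤ) * n) = ((u ^ n : Rˣ) : R) * (jqModC R).coeff n := by
  rw [rootSeries, qExpand_coeff_mul, twist_coeff]

theorem rootSeries_coeff_of_not_dvd (u : Rˣ) (e : ℕ) [NeZero e] {n : ℤ} (hn : ¬ (e : ℤ) ∣ n) :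
    (rootSeries u e).coeff n = 0 :=
  qExpand_coeff_of_not_dvd e _ hn

theorem leadsWith_rootSeries (u : Rˣ) (e : ℕ) [NeZero e] :
    LeadsWith (rootSeries u e) (-(e : ℤ)) ((u⁻¹ : Rˣ) : R) := by
  have h := ((leadsWith_jqModC R).twist u).qExpand e
  rw [mul_neg_one, zpow_neg_one, mul_one] at h
  exact h

theorem rootSeries_mem_coeffSubring {S : Subring R} (u : Rˣ) (hu : (u : R) ∈ S)
    (hu' : ((u⁻¹ : Rˣ) : R) ∈ S) (e : ℕ) [NeZero e] : rootSeries u e ∈ coeffSubring S :=
  qExpand_mem_coeffSubring e (twist_mem_coeffSubring u hu hu' (jqModC_mem_coeffSubring S))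

/-- The leading term of the difference of two Puiseux roots. -/
theorem leadsWith_rootSeries_sub (u u' : Rˣ) (e e' : ℕ) [NeZero e] [NeZero e'] :
    ∃ (n : ℤ) (c : R), LeadsWith (rootSeries u e - rootSeries u' e') n c ∧
      ((e < e' ∧ c = -((u'⁻¹ : Rˣ) : R)) ∨ (e' < e ∧ c = ((u⁻¹ : Rˣ) : R)) ∨
        (e = e' ∧ c = ((u⁻¹ : Rˣ) : R) - ((u'⁻¹ : Rˣ) : R))) := by
  have h1 := leadsWith_rootSeries u e
  have h2 := (leadsWith_rootSeries u' e').neg
  rcases lt_trichotomy e e' with h | h | h
  · refine ⟨-(e' : ℤ), _, ?_, Or.inl ⟨h, rfl⟩⟩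
    rw [sub_eq_add_neg, add_comm]
    exact h2.add_of_lt h1 (by omega)
  · subst h
    refine ⟨-(e : ℤ), _, ?_, Or.inr (Or.inr ⟨rfl, rfl⟩)⟩
    rw [sub_eq_add_neg (rootSeries u e), sub_eq_add_neg ((u⁻¹ : Rˣ) : R)]
    exact h1.add h2
  · refine ⟨-(e : ℤ), _, ?_, Or.inr (Or.inl ⟨h, rfl⟩)⟩
    rw [sub_eq_add_neg]
    exact h1.add_of_lt h2 (by omega)

theorem coeffMap_rootSeries {R' : Type*} [CommRing R'] (φ : R →+* R') (u : Rˣ) (e : ℕ)
    [NeZero e] : coeffMap φ (rootSeries u e) = rootSeries (Units.map φ.toMonoidHom u) e := by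
  ext n
  by_cases hn : (e : ℤ) ∣ n
  · obtain ⟨k, rfl⟩ := hn
    rw [coeffMap_coeff, rootSeries_coeff_mul, rootSeries_coeff_mul, map_mul,
      jqModC_eq_map_intCast R, jqModC_eq_map_intCast R', HahnSeries.map_coeff,
      HahnSeries.map_coeff]
    congr 1
    · rw [← map_zpow]
      rfl
    · exact map_intCast φ _
  · rw [coeffMap_coeff, rootSeries_coeff_of_not_dvd u e hn, rootSeries_coeff_of_not_dvd _ e hn,
      map_zero]

end RootSeries

section JPoly

open Polynomial

variable {S : Type*} [CommRing S]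

theorem algebraMap_eq_C (r : S) : algebraMap S (LaurentSeries S) r = HahnSeries.C r := by
  have h1 : algebraMap S (PowerSeries S) r = PowerSeries.C r := by simp
  rw [HahnSeries.algebraMap_apply', h1, HahnSeries.ofPowerSeries_C]

theorem coeff_algebraMap_mul (a : S) (f : LaurentSeries S) (m : ℤ) :
    (algebraMap S (LaurentSeries S) a * f).coeff m = a * f.coeff m := by
  rw [algebraMap_eq_C, HahnSeries.C_mul_eq_smul, HahnSeries.coeff_smul]
  rfl

theorem aeval_jqModC_coeff (P : S[X]) (m : ℤ) :
    (aeval (jqModC S) P).coeff m =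
      ∑ i ∈ Finset.range (P.natDegree + 1), P.coeff i * ((jqModC S) ^ i).coeff m := by
  rw [aeval_eq_sum_range, HahnSeries.coeff_sum]
  refine Finset.sum_congr rfl fun i _ => ?_
  rw [Algebra.smul_def, coeff_algebraMap_mul]

/-- `P(j) = lc(P) q^{-deg P} + ...`. -/
theorem leadsWith_aeval_jqModC (P : S[X]) :
    LeadsWith (aeval (jqModC S) P) (-(P.natDegree : ℤ)) P.leadingCoeff := by
  constructor
  · intro m hm
    rw [aeval_jqModC_coeff]
    refine Finset.sum_eq_zero fun i hi => ?_
    rw [coeff_jqModC_pow_of_lt S (b := i), mul_zero]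
    have := Finset.mem_range.mp hi
    omega
  · rw [aeval_jqModC_coeff, Finset.sum_eq_single_of_mem P.natDegree
      (Finset.mem_range.mpr (Nat.lt_succ_self _))]
    · rw [coeff_jqModC_pow_self, mul_one]
      rfl
    · intro i hi hne
      rw [coeff_jqModC_pow_of_lt S (b := i), mul_zero]
      have := Finset.mem_range.mp hi
      omega

theorem aeval_jqModC_ne_zero {P : S[X]} (hP : P ≠ 0) : aeval (jqModC S) P ≠ 0 :=
  (leadsWith_aeval_jqModC P).ne_zero (leadingCoeff_ne_zero.mpr hP)

theorem aeval_jqModC_injective : Function.Injective (aeval (R := S) (jqModC S)) := by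
  rw [injective_iff_map_eq_zero]
  intro P hP
  by_contra h
  exact aeval_jqModC_ne_zero h hP

/-- **Descent of coefficients**: if all coefficients of the Laurent series `P(j)` lie in a subring
`R`, then so do the coefficients of `P`. -/
theorem coeff_mem_of_aeval_jqModC_mem (R : Subring S) :
    ∀ (n : ℕ) (P : S[X]), P.natDegree ≤ n → aeval (jqModC S) P ∈ coeffSubring R →
      ∀ i, P.coeff i ∈ R := by
  intro n
  induction n with
  | zero =>
    intro P hP h i
    have hlead := (leadsWith_aeval_jqModC P).2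
    have h0 : P.leadingCoeff ∈ R := by rw [← hlead]; exact h _
    rw [Nat.le_zero] at hP
    rcases Nat.eq_zero_or_pos i with rfl | hi
    · rwa [Polynomial.leadingCoeff, hP] at h0
    · rw [coeff_eq_zero_of_natDegree_lt (by omega)]
      exact R.zero_mem
  | succ n ih =>
    intro P hP h i
    have hlead := (leadsWith_aeval_jqModC P).2
    have h0 : P.leadingCoeff ∈ R := by rw [← hlead]; exact h _
    have hP' : P.eraseLead.natDegree ≤ n := (eraseLead_natDegree_le P).trans (by omega)
    have hmem : aeval (jqModC S) P.eraseLead ∈ coeffSubring R := by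
      have e : aeval (jqModC S) P.eraseLead +
          algebraMap S (LaurentSeries S) P.leadingCoeff * (jqModC S) ^ P.natDegree =
          aeval (jqModC S) P := by
        conv_rhs => rw [← eraseLead_add_C_mul_X_pow P]
        rw [map_add, map_mul, aeval_C, map_pow, aeval_X]
      rw [eq_sub_of_add_eq e]
      refine Subring.sub_mem _ h ?_
      intro k
      rw [coeff_algebraMap_mul]
      exact R.mul_mem h0 ((coeffSubring R).pow_mem (jqModC_mem_coeffSubring R) _ k)
    have := ih P.eraseLead hP' hmem i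
    rw [eraseLead_coeff] at this
    split_ifs at this with hi
    · rw [hi]; exact h0
    · exact this

theorem coeff_mem_of_aeval_jqModC_mem' (R : Subring S) (P : S[X])
    (h : aeval (jqModC S) P ∈ coeffSubring R) (i : ℕ) : P.coeff i ∈ R :=
  coeff_mem_of_aeval_jqModC_mem R P.natDegree P le_rfl h i

/-- `qExpand` commutes with evaluating a polynomial. -/
theorem qExpand_aeval (N : ℕ) [NeZero N] (f : LaurentSeries S) (P : S[X]) :
    qExpand S N (aeval f P) = aeval (qExpand S N f) P := by
  rw [aeval_def, aeval_def, hom_eval₂]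
  congr 1
  refine RingHom.ext fun r => ?_
  rw [RingHom.comp_apply, algebraMap_eq_C, qExpand_C]

end JPoly

end Fermat.Agent.N4.TwistSeries
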