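/-
N4 / L1 (helper12), part 2: `q`-expansions of real translates, and of `z ↦ j((a z + b)/d)`.

* `PM` : the subalgebra of holomorphic `1`-periodic functions on `ℍ` meromorphic at `i∞`, and the
  injective algebra homomorphism `qexpPM : PM →ₐ[ℂ] LaurentSeries ℂ` (from S24's `qexpFun`);
* `trl a f = f (a + ·)` for real `a`; `qexpFun (trl a jInv) = twist (e^{2πi a}) (jqModC ℂ)`;
* `qexpFun_jInv_aff` : the `q`-expansion of `z ↦ j(e z + a)` is `rootSeries (e^{2πi a}) e`.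
-/
import Mathlib
import Fermat.Agent.S24.QExpHom
import Fermat.Agent.S24.QExpFormal
import Fermat.Agent.N4.TwistSeries

set_option autoImplicit false

namespace Fermat.Agent.N4.QExpTranslate

open UpperHalfPlane ModularForm MatrixGroups Filter Function Complex CongruenceSubgroup
open Fermat.Agent.M2 Fermat.Agent.M2.CuspVal Fermat.Agent.S24.QExpHom ModularCurve
open Fermat.Agent.N4.TwistSeries
open scoped Manifold Topology

local notation "Δ" => ModularForm.discriminant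
local notation "𝕢" => Periodic.qParam

/-! ### The algebra of periodic functions meromorphic at `i∞` -/

/-- Holomorphic `1`-periodic functions on `ℍ`, meromorphic at `i∞`. -/
def PM : Subalgebra ℂ (ℍ → ℂ) where
  carrier := {f | IsPerMero 1 f}
  mul_mem' hf hg := IsPerMero.mul hf hg
  add_mem' hf hg := IsPerMero.add hf hg
  algebraMap_mem' c := IsPerMero.const 1 c

theorem mem_PM {f : ℍ → ℂ} : f ∈ PM ↔ IsPerMero 1 f := Iff.rfl

/-- The `q`-expansion homomorphism on `PM`. -/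
noncomputable def qexpPM : PM →ₐ[ℂ] LaurentSeries ℂ where
  toFun f := qexpFun (f : ℍ → ℂ)
  map_one' := by
    have := qexpFun_const 1
    rw [map_one] at this
    exact this
  map_mul' f g := qexpFun_mul f.2 g.2
  map_zero' := (qexpFun_eq_zero_iff (f := (0 : ℍ → ℂ)) (PM.zero_mem)).mpr rfl
  map_add' f g := qexpFun_add f.2 g.2
  commutes' c := qexpFun_const c

theorem qexpPM_apply (f : PM) : qexpPM f = qexpFun (f : ℍ → ℂ) := rfl

theorem qexpPM_injective : Function.Injective qexpPM := by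
  rw [injective_iff_map_eq_zero]
  intro f hf
  rw [qexpPM_apply, qexpFun_eq_zero_iff f.2] at hf
  exact Subtype.ext hf

/-! ### Real translates -/

/-- The translate `z ↦ f (a + z)` by a real number `a`. -/
noncomputable def trl (a : ℝ) (f : ℍ → ℂ) : ℍ → ℂ := fun z => f (a +ᵥ z)

theorem trl_apply (a : ℝ) (f : ℍ → ℂ) (z : ℍ) : trl a f z = f (a +ᵥ z) := rfl

theorem trl_mul (a : ℝ) (f g : ℍ → ℂ) : trl a (f * g) = trl a f * trl a g := rfl

theorem trl_pow (a : ℝ) (f : ℍ → ℂ) (n : ℕ) : trl a (f ^ n) = trl a f ^ n := rfl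

theorem mdiff_trl (a : ℝ) {f : ℍ → ℂ} (hf : MDiff f) : MDiff (trl a f) := by
  rw [UpperHalfPlane.mdifferentiable_iff] at hf ⊢
  have hmaps : Set.MapsTo (fun s : ℂ => (a : ℂ) + s) {s : ℂ | 0 < s.im} {s : ℂ | 0 < s.im} := by
    intro s hs
    simp only [Set.mem_ofPred_eq] at hs ⊢
    simpa using hs
  have hcomp : DifferentiableOn ℂ ((f ∘ ofComplex) ∘ fun s : ℂ => (a : ℂ) + s)
      {s : ℂ | 0 < s.im} :=
    hf.comp (by fun_prop) hmaps
  refine hcomp.congr ?_
  intro s hs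
  simp only [Function.comp_apply, trl]
  congr 1
  apply UpperHalfPlane.ext
  rw [ofComplex_apply_of_im_pos (hmaps hs), UpperHalfPlane.coe_vadd,
    ofComplex_apply_of_im_pos hs]

theorem periodic_trl (a : ℝ) {f : ℍ → ℂ} (hf : Periodic (f ∘ ofComplex) ((1 : ℝ) : ℂ)) :
    Periodic (trl a f ∘ ofComplex) ((1 : ℝ) : ℂ) := by
  apply periodic_of_vadd
  intro z
  rw [trl_apply, trl_apply]
  have h : a +ᵥ ((1 : ℝ) +ᵥ z) = (1 : ℝ) +ᵥ (a +ᵥ z) := by
    apply UpperHalfPlane.ext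
    simp only [UpperHalfPlane.coe_vadd]
    ring
  rw [h]
  exact vadd_of_periodic hf _

theorem isBounded_trl (a : ℝ) {f : ℍ → ℂ} (hf : IsBoundedAtImInfty f) :
    IsBoundedAtImInfty (trl a f) :=
  hf.comp_tendsto (tendsto_vadd_atImInfty a)

theorem isPerMero_trl_of_bounded (a : ℝ) {f : ℍ → ℂ} (hf : IsPerMero 1 f)
    (hb : IsBoundedAtImInfty f) : IsPerMero 1 (trl a f) := by
  refine IsPerMero.of_bounded (mdiff_trl a hf.mdiff) ?_ (isBounded_trl a hb)
  have := periodic_trl a (periodic_one hf)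
  simpa using this

theorem qParam_vadd (a : ℝ) (z : ℍ) :
    𝕢 1 ((a +ᵥ z : ℍ) : ℂ) = 𝕢 1 (a : ℂ) * 𝕢 1 (z : ℂ) := by
  rw [UpperHalfPlane.coe_vadd]
  simp only [Periodic.qParam]
  rw [← Complex.exp_add]
  congr 1
  ring

/-- The unit `e^{2πi a}`. -/
noncomputable def expUnit (a : ℝ) : ℂˣ := Units.mk0 (𝕢 1 (a : ℂ)) (Periodic.qParam_ne_zero _)

@[simp] theorem coe_expUnit (a : ℝ) : ((expUnit a : ℂˣ) : ℂ) = 𝕢 1 (a : ℂ) := rfl

/-- Coefficients of the `q`-expansion of a translate of a bounded function. -/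
theorem qExpansion_trl_coeff (a : ℝ) {f : ℍ → ℂ} (hf : IsPerMero 1 f)
    (hb : IsBoundedAtImInfty f) (n : ℕ) :
    (qExpansion 1 (trl a f)).coeff n = 𝕢 1 (a : ℂ) ^ n * (qExpansion 1 f).coeff n := by
  set c : ℕ → ℂ := fun n => 𝕢 1 (a : ℂ) ^ n * (qExpansion 1 f).coeff n with hc
  have hsum : ∀ τ : ℍ, HasSum (fun m => c m • 𝕢 1 τ ^ m) (trl a f τ) := by
    intro τ
    have h1 := hasSum_qExpansion one_pos (periodic_one hf) hf.mdiff hb (a +ᵥ τ)
    rw [qParam_vadd] at h1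
    rw [trl_apply]
    convert h1 using 2 with m
    simp only [hc, smul_eq_mul, mul_pow]
    ring
  exact (qExpansion_coeff_unique'
    (analyticAt_cusp (isPerMero_trl_of_bounded a hf hb) (isBounded_trl a hb)) hsum n).symm

theorem ofPowerSeries_qExpansion_trl (a : ℝ) {f : ℍ → ℂ} (hf : IsPerMero 1 f)
    (hb : IsBoundedAtImInfty f) :
    HahnSeries.ofPowerSeries ℤ ℂ (qExpansion 1 (trl a f)) =
      twist (expUnit a) (HahnSeries.ofPowerSeries ℤ ℂ (qExpansion 1 f)) := by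
  ext k
  rw [twist_coeff]
  rcases le_or_gt 0 k with hk | hk
  · lift k to ℕ using hk
    rw [HahnSeries.ofPowerSeries_apply_coeff, HahnSeries.ofPowerSeries_apply_coeff,
      qExpansion_trl_coeff a hf hb, zpow_natCast, Units.val_pow_eq_pow_val, coe_expUnit]
  · rw [ofPowerSeries_coeff_of_neg _ hk, ofPowerSeries_coeff_of_neg _ hk, mul_zero]

theorem qexpFun_trl_of_bounded (a : ℝ) {f : ℍ → ℂ} (hf : IsPerMero 1 f)
    (hb : IsBoundedAtImInfty f) : qexpFun (trl a f) = twist (expUnit a) (qexpFun f) := by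
  rw [qexpFun_of_bounded (isPerMero_trl_of_bounded a hf hb) (isBounded_trl a hb),
    qexpFun_of_bounded hf hb, ofPowerSeries_qExpansion_trl a hf hb]

/-! ### Translates of `j` -/

theorem qexpFun_jInv_eq : qexpFun jInv = jqModC ℂ :=
  qexpFun_jInv Fermat.Agent.S24.QExpFormal.jqModC_mul_qExpansion_discriminant

theorem trl_jInv_eq (B : ℤ) (D : ℕ) (hD : 0 < D) :
    trl ((B : ℝ) / D) jInv = fun z => jInv (JN.affH D D hD hD B z) := by
  ext z
  rw [trl_apply]
  congr 1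
  apply UpperHalfPlane.ext
  rw [UpperHalfPlane.coe_vadd, JN.coe_affH]
  have hD' : (D : ℂ) ≠ 0 := Nat.cast_ne_zero.mpr hD.ne'
  push_cast
  field_simp
  ring

theorem isPerMero_trl_jInv (B : ℤ) (D : ℕ) (hD : 0 < D) :
    IsPerMero 1 (trl ((B : ℝ) / D) jInv) := by
  refine ⟨mdiff_trl _ mdiff_jInv, ?_, ⟨D, ?_⟩⟩
  · have := periodic_trl ((B : ℝ) / D) (periodic_one (isPerMero_jInv 1))
    simpa using this
  · have h := JN.isBoundedAtImInfty_jInv_affH D D hD hD B
    rw [trl_jInv_eq B D hD]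
    exact h

/-- The `q`-expansion of `z ↦ j(z + B/D)` is `j(e^{2πi B/D} q)`. -/
theorem qexpFun_trl_jInv (B : ℤ) (D : ℕ) (hD : 0 < D) :
    qexpFun (trl ((B : ℝ) / D) jInv) = twist (expUnit ((B : ℝ) / D)) (jqModC ℂ) := by
  set a : ℝ := (B : ℝ) / D with ha
  have hj : IsPerMero 1 jInv := isPerMero_jInv 1
  have hja : IsPerMero 1 (trl a jInv) := isPerMero_trl_jInv B D hD
  have hΔ : IsPerMero 1 (Δ : ℍ → ℂ) := isPerMero_discriminant
  have hΔb : IsBoundedAtImInfty (Δ : ℍ → ℂ) := isBounded_discriminant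
  have hΔa : IsPerMero 1 (trl a (Δ : ℍ → ℂ)) := isPerMero_trl_of_bounded a hΔ hΔb
  -- the bounded function `G = j Δ = E₄³`
  have hG : IsPerMero 1 (jInv * (Δ : ℍ → ℂ)) := hj.mul hΔ
  have hGe : jInv * (Δ : ℍ → ℂ) = (E₄ : ℍ → ℂ) * ((E₄ : ℍ → ℂ) * (E₄ : ℍ → ℂ)) := by
    ext z
    simp only [Pi.mul_apply, jInv_mul_discriminant]
    ring
  have hGb : IsBoundedAtImInfty (jInv * (Δ : ℍ → ℂ)) := by
    rw [hGe]
    exact isBounded_E₄.mul (isBounded_E₄.mul isBounded_E₄)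
  have h1 : qexpFun (trl a (jInv * (Δ : ℍ → ℂ))) =
      twist (expUnit a) (qexpFun jInv) * twist (expUnit a) (qexpFun (Δ : ℍ → ℂ)) := by
    rw [qexpFun_trl_of_bounded a hG hGb, qexpFun_mul hj hΔ, map_mul]
  have h2 : qexpFun (trl a (jInv * (Δ : ℍ → ℂ))) =
      qexpFun (trl a jInv) * twist (expUnit a) (qexpFun (Δ : ℍ → ℂ)) := by
    rw [trl_mul, qexpFun_mul hja hΔa, qexpFun_trl_of_bounded a hΔ hΔb]
  have hne : twist (expUnit a) (qexpFun (Δ : ℍ → ℂ)) ≠ 0 := by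
    rw [Ne, ← map_zero (twist (expUnit a)), (twist_injective _).eq_iff, qexpFun_discriminant]
    exact DL_ne_zero
  rw [h1] at h2
  rw [← qexpFun_jInv_eq]
  exact (mul_right_cancel₀ hne h2).symm

/-! ### `z ↦ j(e z + B/D)` -/

section Aff

variable (e : ℕ) [NeZero e]

theorem scl_trl_jInv_eq (B : ℤ) (D : ℕ) (hD : 0 < D) :
    scl e (trl ((B : ℝ) / D) jInv) =
      fun z => jInv (JN.affH (e * D) D (Nat.mul_pos (NeZero.pos e) hD) hD B z) := by
  ext z
  rw [scl_apply, trl_apply]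
  congr 1
  apply UpperHalfPlane.ext
  rw [UpperHalfPlane.coe_vadd, JN.coe_affH, JN.coe_scaleH]
  have hD' : (D : ℂ) ≠ 0 := Nat.cast_ne_zero.mpr hD.ne'
  push_cast
  field_simp
  ring

theorem isPerMero_scl_trl_jInv (B : ℤ) (D : ℕ) (hD : 0 < D) :
    IsPerMero 1 (scl e (trl ((B : ℝ) / D) jInv)) := by
  have hja := isPerMero_trl_jInv B D hD
  refine ⟨mdiff_scl e hja.mdiff, ?_, ⟨e * D, ?_⟩⟩
  · have := periodic_scl e (periodic_one hja)
    simpa using this
  · have h := JN.isBoundedAtImInfty_jInv_affH (e * D) D (Nat.mul_pos (NeZero.pos e) hD) hD B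
    rw [scl_trl_jInv_eq e B D hD]
    exact h

/-- **The `q`-expansion of `z ↦ j(e z + B/D)`** is the Puiseux root
`rootSeries (e^{2πi B/D}) e = j(e^{2πi B/D} q^e)`. -/
theorem qexpFun_scl_trl_jInv (B : ℤ) (D : ℕ) (hD : 0 < D) :
    qexpFun (scl e (trl ((B : ℝ) / D) jInv)) = rootSeries (expUnit ((B : ℝ) / D)) e := by
  rw [qexpFun_scl e (isPerMero_trl_jInv B D hD) (isPerMero_scl_trl_jInv e B D hD),
    qexpFun_trl_jInv B D hD, rootSeries]

end Aff

end Fermat.Agent.N4.QExpTranslate
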