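/-
N4 / L1 (helper12), part 3: the roots of the coset polynomial of `j(N z)` and their Puiseux
expansions.

For `c ∈ SL(2,ℤ)/Γ₀(N)` the conjugate `w ↦ j_N(γ_c⁻¹ w)` equals `w ↦ j((A w + B)/D)` with
`A D = N` (Hermite normal form).  Putting `w = N z` gives the `1`-periodic function
`z ↦ j(A² z + B/D)`, whose `q`-expansion is the formal Puiseux root
`cosetRoot N c = rootSeries (e^{2πi B/D}) (A²)`.  Main result:

`exists_cosetPoly_factorization` : there is a monic `Q : ℂ[Y][X]` of `X`-degree `ψ(N)` with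
`Q(j(t^N), X) = ∏_c (X - cosetRoot N c)` in `ℂ((t))[X]`, and the `cosetRoot N c` are pairwise
distinct.
-/
import Mathlib
import Fermat.Agent.M2.CosetPoly
import Fermat.Agent.M2.JN
import Fermat.Agent.M2.P1Psi
import Fermat.Agent.N4.QExpTranslate

set_option autoImplicit false

namespace Fermat.Agent.N4.HeckeRoots

open UpperHalfPlane ModularForm MatrixGroups Filter Function Complex CongruenceSubgroup Polynomial
open Fermat.Agent.M2 Fermat.Agent.M2.CuspVal Fermat.Agent.S24.QExpHom ModularCurve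
open Fermat.Agent.N4.TwistSeries Fermat.Agent.N4.QExpTranslate
open scoped Manifold Topology

local notation "Δ" => ModularForm.discriminant

variable (N : ℕ) [NeZero N]

/-! ### Hermite normal form with `A D = N` -/

/-- Hermite normal form: `diag(N,1) δ = δ' [[A, B], [0, D]]` with `A D = N`
(`JN.exists_decomp` with the extra information on the determinant). -/
lemma exists_decomp_det (δ : SL(2, ℤ)) :
    ∃ (δ' : SL(2, ℤ)) (A D : ℕ) (hA : 0 < A) (hD : 0 < D) (B : ℤ), A * D = N ∧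
      ∀ z : ℍ, JN.scaleH N (δ • z) = δ' • JN.affH A D hA hD B z := by
  set a := δ 0 0 with ha
  set b := δ 0 1 with hb
  set c := δ 1 0 with hc
  set d := δ 1 1 with hd
  have hdet : a * d - b * c = 1 := by
    have := δ.det_coe
    rwa [Matrix.det_fin_two] at this
  have hN0 : (N : ℤ) ≠ 0 := Int.natCast_ne_zero.mpr (NeZero.ne N)
  have hNpos : (0 : ℤ) < N := by exact_mod_cast NeZero.pos N
  set P : ℤ := N * a with hP
  set g : ℤ := (Int.gcd P c : ℤ) with hg
  have hgpos : 0 < g := by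
    rw [hg]
    have : Int.gcd P c ≠ 0 := by
      intro h0
      rw [Int.gcd_eq_zero_iff] at h0
      obtain ⟨h1, h2⟩ := h0
      have ha0 : a = 0 := by
        rcases mul_eq_zero.mp h1 with h | h
        · exact absurd h hN0
        · exact h
      rw [ha0, h2] at hdet
      simp at hdet
    exact_mod_cast Nat.pos_of_ne_zero this
  obtain ⟨p', hp'⟩ : g ∣ P := Int.gcd_dvd_left P c
  obtain ⟨r', hr'⟩ : g ∣ c := Int.gcd_dvd_right P c
  set u := Int.gcdA P c with hu
  set v := Int.gcdB P c with hv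
  have hbez0 : g = P * u + c * v := Int.gcd_eq_gcd_ab P c
  have hbez : p' * u + r' * v = 1 := by
    have : g * (p' * u + r' * v) = g * 1 := by
      rw [mul_one]
      calc g * (p' * u + r' * v) = (g * p') * u + (g * r') * v := by ring
        _ = P * u + c * v := by rw [← hp', ← hr']
        _ = g := hbez0.symm
    exact mul_left_cancel₀ hgpos.ne' this
  set Dz : ℤ := p' * d - r' * (N * b) with hDz
  have hgD : g * Dz = N := by
    calc g * Dz = (g * p') * d - (g * r') * (N * b) := by rw [hDz]; ring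
      _ = P * d - c * (N * b) := by rw [← hp', ← hr']
      _ = N * (a * d - b * c) := by rw [hP]; ring
      _ = N := by rw [hdet, mul_one]
  have hDzpos : 0 < Dz := by
    by_contra hneg
    push Not at hneg
    have : g * Dz ≤ 0 := mul_nonpos_of_nonneg_of_nonpos hgpos.le hneg
    rw [hgD] at this
    exact absurd hNpos (not_lt.mpr this)
  set Bz : ℤ := u * (N * b) + v * d with hBz
  let δ' : SL(2, ℤ) := ⟨!![p', -v; r', u], by
    rw [Matrix.det_fin_two_of]
    linear_combination hbez⟩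
  have hAD : g.toNat * Dz.toNat = N := by
    have h1 : ((g.toNat : ℕ) : ℤ) = g := Int.toNat_of_nonneg hgpos.le
    have h2 : ((Dz.toNat : ℕ) : ℤ) = Dz := Int.toNat_of_nonneg hDzpos.le
    have : ((g.toNat * Dz.toNat : ℕ) : ℤ) = (N : ℤ) := by
      push_cast
      rw [h1, h2, hgD]
    exact_mod_cast this
  refine ⟨δ', g.toNat, Dz.toNat, by omega, by omega, Bz, hAD, fun z => ?_⟩
  apply UpperHalfPlane.ext
  rw [JN.coe_scaleH, Stab.coe_smul_eq, Stab.coe_smul_eq]
  simp only [Stab.nmr, Stab.eps, JN.coe_affH]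
  have hgc : ((g.toNat : ℕ) : ℂ) = (g : ℂ) := by
    have : ((g.toNat : ℕ) : ℤ) = g := Int.toNat_of_nonneg hgpos.le
    exact_mod_cast congrArg (Int.cast : ℤ → ℂ) this
  have hDc : ((Dz.toNat : ℕ) : ℂ) = (Dz : ℂ) := by
    have : ((Dz.toNat : ℕ) : ℤ) = Dz := Int.toNat_of_nonneg hDzpos.le
    exact_mod_cast congrArg (Int.cast : ℤ → ℂ) this
  rw [hgc, hDc]
  have e11 : (δ' 0 0 : ℤ) = p' := rfl
  have e12 : (δ' 0 1 : ℤ) = -v := rfl
  have e21 : (δ' 1 0 : ℤ) = r' := rfl
  have e22 : (δ' 1 1 : ℤ) = u := rfl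
  rw [e11, e12, e21, e22, ← ha, ← hb, ← hc, ← hd]
  have hDne : (Dz : ℂ) ≠ 0 := by exact_mod_cast hDzpos.ne'
  have hcz : (c : ℂ) * z + d ≠ 0 := Stab.eps_ne_zero z δ
  have hpC : (p' : ℂ) * g = N * a := by
    have : p' * g = N * a := by rw [mul_comm, ← hp']
    exact_mod_cast congrArg (Int.cast : ℤ → ℂ) this
  have hrC : (r' : ℂ) * g = c := by
    have : r' * g = c := by rw [mul_comm, ← hr']
    exact_mod_cast congrArg (Int.cast : ℤ → ℂ) this
  have hbezC : (p' : ℂ) * u + r' * v = 1 := by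
    exact_mod_cast congrArg (Int.cast : ℤ → ℂ) hbez
  have hDC : (Dz : ℂ) = p' * d - r' * (N * b) := by
    exact_mod_cast congrArg (Int.cast : ℤ → ℂ) hDz
  have hBC : (Bz : ℂ) = u * (N * b) + v * d := by
    exact_mod_cast congrArg (Int.cast : ℤ → ℂ) hBz
  have hnum : (p' : ℂ) * (((g : ℂ) * z + Bz) / Dz) + ((-v : ℤ) : ℂ) =
      (N : ℂ) * ((a : ℂ) * z + b) / Dz := by
    field_simp
    push_cast
    rw [hBC, hDC]
    linear_combination (z : ℂ) * hpC + (N : ℂ) * b * hbezC
  have hden : (r' : ℂ) * (((g : ℂ) * z + Bz) / Dz) + (u : ℂ) = ((c : ℂ) * z + d) / Dz := by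
    field_simp
    rw [hBC, hDC]
    linear_combination (z : ℂ) * hrC + (d : ℂ) * hbezC
  rw [hnum, hden]
  field_simp

/-! ### The conjugates of `j_N` -/

lemma jN_slash_invariant : ∀ g ∈ Gamma0 N, JN.jN N ∣[(0 : ℤ)] g = JN.jN N := by
  intro g hg
  funext z
  rw [CosetPoly.slash_zero_apply]
  exact JN.jN_smul_of_mem_Gamma0 N g hg z

lemma jN_meroAtInfty (γ : SL(2, ℤ)) : CosetPoly.MeroAtInfty (JN.jN N ∣[(0 : ℤ)] γ) := by
  obtain ⟨m, hm⟩ := (JN.isWH_jN N).2.2 γ
  refine ⟨m, ?_⟩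
  have e : (fun z : ℍ => (JN.jN N ∣[(0 : ℤ)] γ) z * Δ z ^ m) =
      fun z : ℍ => JN.jN N (γ • z) * Δ z ^ m := by
    funext z
    rw [CosetPoly.slash_zero_apply]
  rw [e]
  exact hm

/-- The conjugate of `j_N` attached to the coset `c`. -/
noncomputable def conj (c : SL(2, ℤ) ⧸ Gamma0 N) : ℍ → ℂ :=
  CosetPoly.cosetFun (Gamma0 N) (JN.jN N) (jN_slash_invariant N) c

/-- Each conjugate is of the form `w ↦ j((A w + B)/D)` with `A D = N`. -/
lemma exists_conj_eq (c : SL(2, ℤ) ⧸ Gamma0 N) :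
    ∃ (A D : ℕ) (hA : 0 < A) (hD : 0 < D) (B : ℤ), A * D = N ∧
      ∀ w : ℍ, conj N c w = jInv (JN.affH A D hA hD B w) := by
  induction c using QuotientGroup.induction_on with
  | H γ =>
    obtain ⟨δ', A, D, hA, hD, B, hAD, h⟩ := exists_decomp_det N γ⁻¹
    refine ⟨A, D, hA, hD, B, hAD, fun w => ?_⟩
    rw [conj, CosetPoly.cosetFun_mk, CosetPoly.slash_zero_apply, JN.jN, h w, jInv_smul]

/-- The data `(A, D, B)` of a coset. -/
noncomputable def cA (c : SL(2, ℤ) ⧸ Gamma0 N) : ℕ := (exists_conj_eq N c).choose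

noncomputable def cD (c : SL(2, ℤ) ⧸ Gamma0 N) : ℕ := (exists_conj_eq N c).choose_spec.choose

lemma cA_pos (c : SL(2, ℤ) ⧸ Gamma0 N) : 0 < cA N c :=
  (exists_conj_eq N c).choose_spec.choose_spec.choose

lemma cD_pos (c : SL(2, ℤ) ⧸ Gamma0 N) : 0 < cD N c :=
  (exists_conj_eq N c).choose_spec.choose_spec.choose_spec.choose

noncomputable def cB (c : SL(2, ℤ) ⧸ Gamma0 N) : ℤ :=
  (exists_conj_eq N c).choose_spec.choose_spec.choose_spec.choose_spec.choose

lemma cA_mul_cD (c : SL(2, ℤ) ⧸ Gamma0 N) : cA N c * cD N c = N :=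
  (exists_conj_eq N c).choose_spec.choose_spec.choose_spec.choose_spec.choose_spec.1

lemma conj_eq (c : SL(2, ℤ) ⧸ Gamma0 N) (w : ℍ) :
    conj N c w = jInv (JN.affH (cA N c) (cD N c) (cA_pos N c) (cD_pos N c) (cB N c) w) :=
  (exists_conj_eq N c).choose_spec.choose_spec.choose_spec.choose_spec.choose_spec.2 w

instance neZero_cA_sq (c : SL(2, ℤ) ⧸ Gamma0 N) : NeZero (cA N c ^ 2) :=
  ⟨pow_ne_zero 2 (cA_pos N c).ne'⟩

/-- The formal Puiseux root attached to a coset: `j(e^{2πi B/D} t^{A²})`. -/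
noncomputable def cosetRoot (c : SL(2, ℤ) ⧸ Gamma0 N) : LaurentSeries ℂ :=
  rootSeries (expUnit ((cB N c : ℝ) / cD N c)) (cA N c ^ 2)

/-- `conj c (N z) = j(A² z + B/D)`. -/
lemma conj_scaleH (c : SL(2, ℤ) ⧸ Gamma0 N) :
    (fun z : ℍ => conj N c (JN.scaleH N z)) =
      scl (cA N c ^ 2) (trl ((cB N c : ℝ) / cD N c) jInv) := by
  funext z
  rw [conj_eq, scl_apply, trl_apply]
  congr 1
  apply UpperHalfPlane.ext
  rw [UpperHalfPlane.coe_vadd, JN.coe_affH, JN.coe_scaleH, JN.coe_scaleH]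
  have hD' : (cD N c : ℂ) ≠ 0 := Nat.cast_ne_zero.mpr (cD_pos N c).ne'
  have hN : (N : ℂ) = (cA N c : ℂ) * (cD N c : ℂ) := by
    rw [← Nat.cast_mul, cA_mul_cD]
  rw [hN]
  push_cast
  field_simp
  ring

lemma isPerMero_conj_scaleH (c : SL(2, ℤ) ⧸ Gamma0 N) :
    IsPerMero 1 (fun z : ℍ => conj N c (JN.scaleH N z)) := by
  rw [conj_scaleH]
  exact isPerMero_scl_trl_jInv _ _ _ (cD_pos N c)

/-- The conjugate evaluated at `N z`, as an element of `PM`. -/
noncomputable def conjPM (c : SL(2, ℤ) ⧸ Gamma0 N) : PM :=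
  ⟨fun z : ℍ => conj N c (JN.scaleH N z), isPerMero_conj_scaleH N c⟩

theorem qexpPM_conjPM (c : SL(2, ℤ) ⧸ Gamma0 N) : qexpPM (conjPM N c) = cosetRoot N c := by
  rw [qexpPM_apply]
  show qexpFun (fun z : ℍ => conj N c (JN.scaleH N z)) = _
  rw [conj_scaleH, qexpFun_scl_trl_jInv _ _ _ (cD_pos N c), cosetRoot]

/-- `scaleH N` is surjective. -/
lemma scaleH_surjective : Function.Surjective (JN.scaleH N) := by
  intro w
  have hN : (0 : ℝ) < N := Nat.cast_pos.mpr (NeZero.pos N)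
  refine ⟨⟨(w : ℂ) / N, ?_⟩, ?_⟩
  · have : ((w : ℂ) / N).im = w.im / N := by
      rw [show (w : ℂ) / N = (w : ℂ) * (((N : ℝ)⁻¹ : ℝ) : ℂ) by push_cast; rw [div_eq_mul_inv]]
      rw [Complex.mul_im]
      simp
      rfl
    rw [this]
    exact div_pos w.im_pos hN
  · apply UpperHalfPlane.ext
    rw [JN.coe_scaleH]
    have hN' : (N : ℂ) ≠ 0 := Nat.cast_ne_zero.mpr (NeZero.ne N)
    show (N : ℂ) * ((w : ℂ) / N) = w
    field_simp

/-- Distinct cosets give distinct conjugates. -/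
theorem conj_injective : Function.Injective (conj N) := by
  intro c c' h
  induction c using QuotientGroup.induction_on with
  | H γ =>
    induction c' using QuotientGroup.induction_on with
    | H γ' =>
      rw [QuotientGroup.eq]
      apply (JN.jN_invariant_iff N _).mp
      intro z
      have h1 := congrFun h (γ' • z)
      rw [conj, conj, CosetPoly.cosetFun_mk, CosetPoly.cosetFun_mk, CosetPoly.slash_zero_apply,
        CosetPoly.slash_zero_apply] at h1
      rw [← mul_smul] at h1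
      rw [h1, ← mul_smul, inv_mul_cancel, one_smul]

theorem conjPM_injective : Function.Injective (conjPM N) := by
  intro c c' h
  apply conj_injective N
  funext w
  obtain ⟨z, rfl⟩ := scaleH_surjective N w
  exact congrFun (congrArg Subtype.val h) z

/-- **The Puiseux roots attached to distinct cosets are distinct.** -/
theorem cosetRoot_injective : Function.Injective (cosetRoot N) := by
  intro c c' h
  rw [← qexpPM_conjPM, ← qexpPM_conjPM] at h
  exact conjPM_injective N (qexpPM_injective h)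

/-! ### The factorisation of the coset polynomial over `ℂ((t))` -/

/-- The cosets form a finite type. -/
noncomputable scoped instance instFintypeCosets : Fintype (SL(2, ℤ) ⧸ Gamma0 N) :=
  Subgroup.fintypeQuotientOfFiniteIndex

theorem card_cosets : Fintype.card (SL(2, ℤ) ⧸ Gamma0 N) = dedekindPsi N := by
  rw [← Nat.card_eq_fintype_card, ← Subgroup.index_eq_card, P1.index_Gamma0 N (NeZero.ne N)]

/-- `j(N z)` as an element of `PM`. -/
noncomputable def jNPM : PM :=
  ⟨JN.jN N, IsPerMero.of_isWH (T_pow_one_mem_Gamma0 N) (JN.isWH_jN N)⟩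

theorem qexpPM_jNPM : qexpPM (jNPM N) = qExpand ℂ N (jqModC ℂ) := by
  rw [qexpPM_apply]
  show qexpFun (JN.jN N) = _
  rw [qexpFun_jN, qexpFun_jInv_eq]

/-- Evaluation at a point, as a ring homomorphism on `PM`. -/
def evPM (z : ℍ) : PM →+* ℂ :=
  (Pi.evalRingHom (fun _ : ℍ => ℂ) z).comp PM.val.toRingHom

@[simp] lemma evPM_apply (z : ℍ) (f : PM) : evPM z f = (f : ℍ → ℂ) z := rfl

/-- Polynomials over `PM` are determined by their pointwise evaluations. -/
lemma pm_poly_ext {p q : PM[X]} (h : ∀ z, p.map (evPM z) = q.map (evPM z)) : p = q := by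
  ext k : 1
  apply Subtype.ext
  funext z
  have := congrArg (fun r => Polynomial.coeff r k) (h z)
  simpa only [coeff_map, evPM_apply] using this

/-- The coset polynomial of `j_N`, evaluated along `w = N z`, in `PM[X]`. -/
theorem exists_cosetPoly_PM :
    ∃ Q : ℂ[X][X], Q.Monic ∧ Q.natDegree = dedekindPsi N ∧
      Q.map ((aeval (jNPM N)).toRingHom : ℂ[X] →+* PM) =
        ∏ c : SL(2, ℤ) ⧸ Gamma0 N, (X - C (conjPM N c)) := by
  obtain ⟨Q, hQm, hQd, hQ⟩ := CosetPoly.exists_cosetPoly (Γ := Gamma0 N) (JN.jN N)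
    (jN_slash_invariant N) (JN.mdiff_jN N) (jN_meroAtInfty N)
  refine ⟨Q, hQm, by rw [hQd, P1.index_Gamma0 N (NeZero.ne N)], ?_⟩
  apply pm_poly_ext
  intro z
  rw [Polynomial.map_map]
  have hcomp : (evPM z).comp ((aeval (jNPM N)).toRingHom : ℂ[X] →+* PM) =
      evalRingHom (E₄ (JN.scaleH N z) ^ 3 / Δ (JN.scaleH N z)) := by
    refine Polynomial.ringHom_ext (fun a => ?_) ?_
    · simp only [RingHom.comp_apply, AlgHom.toRingHom_eq_coe, RingHom.coe_coe, aeval_C,
        coe_evalRingHom, eval_C]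
      rfl
    · simp only [RingHom.comp_apply, AlgHom.toRingHom_eq_coe, RingHom.coe_coe, aeval_X,
        coe_evalRingHom, eval_X]
      rfl
  rw [hcomp, hQ (JN.scaleH N z), Polynomial.map_prod]
  refine Finset.prod_congr rfl fun c _ => ?_
  rw [Polynomial.map_sub, Polynomial.map_X, Polynomial.map_C]
  rfl

/-- **Factorisation of the coset polynomial over `ℂ((t))`**: `Q(j(t^N), X) = ∏_c (X - x_c)`. -/
theorem exists_cosetPoly_factorization :
    ∃ Q : ℂ[X][X], Q.Monic ∧ Q.natDegree = dedekindPsi N ∧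
      Q.map ((aeval (qExpand ℂ N (jqModC ℂ))).toRingHom : ℂ[X] →+* LaurentSeries ℂ) =
        ∏ c : SL(2, ℤ) ⧸ Gamma0 N, (X - C (cosetRoot N c)) := by
  obtain ⟨Q, hQm, hQd, hQ⟩ := exists_cosetPoly_PM N
  refine ⟨Q, hQm, hQd, ?_⟩
  have h := congrArg (Polynomial.map (qexpPM : PM →+* LaurentSeries ℂ)) hQ
  rw [Polynomial.map_map, Polynomial.map_prod] at h
  have hcomp : (qexpPM : PM →+* LaurentSeries ℂ).comp
      ((aeval (jNPM N)).toRingHom : ℂ[X] →+* PM) =
      ((aeval (qExpand ℂ N (jqModC ℂ))).toRingHom : ℂ[X] →+* LaurentSeries ℂ) := by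
    rw [← qexpPM_jNPM, aeval_algHom]
    rfl
  rw [hcomp] at h
  rw [h]
  refine Finset.prod_congr rfl fun c _ => ?_
  rw [Polynomial.map_sub, Polynomial.map_X, Polynomial.map_C]
  congr 2
  exact qexpPM_conjPM N c

end Fermat.Agent.N4.HeckeRoots
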