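/-
N4 / L1 (helper12), part 4: the modular polynomial `Φ_N ∈ ℤ[Y][X]`.

* `eq_zero_of_eval₂_eq_zero` (uniqueness): a polynomial `R ∈ ℂ[Y][X]` of `X`-degree `< ψ(N)` with
  `R(j(q), j(q^N)) = 0` vanishes (all `ψ(N)` distinct conjugates are roots).
* `cosetRoot_one`: the root attached to the trivial coset is `j(t^{N²})`, hence the coset
  polynomial kills `(j(q), j(q^N))`.
* descent `ℂ → ℚ` by a `ℚ`-linear retraction `ℂ → ℚ` and uniqueness;
* descent `ℚ → ℤ`: the coefficients of the roots are algebraic integers, and the level one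
  `q`-expansion principle `coeff_mem_of_aeval_jqModC_mem'`.

Main results: `exists_modPoly`, `modPoly`, `modPolyData : ModularPolynomialData N`.
-/
import Mathlib
import Fermat.Agent.N4.HeckeRoots
import Fermat.Prelude.Def_ModularCurve_X0ModL
import Fermat.Prelude.Thm_ModularCurve_coeffMap_qExpand

set_option autoImplicit false

namespace Fermat.Agent.N4.ModPolyDescent

open UpperHalfPlane ModularForm MatrixGroups Filter Function Complex CongruenceSubgroup Polynomial
open Fermat.Agent.M2 Fermat.Agent.M2.CuspVal Fermat.Agent.S24.QExpHom ModularCurve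
open Fermat.Agent.N4.TwistSeries Fermat.Agent.N4.QExpTranslate Fermat.Agent.N4.HeckeRoots
open scoped Fermat.Agent.N4.HeckeRoots

/-! ### Two-variable evaluation -/

section Eval2

variable {k : Type*} [CommRing k]

/-- `ev2 a b : k[Y][X] → A`, `Y ↦ a`, `X ↦ b`. -/
noncomputable def ev2 {A : Type*} [CommRing A] [Algebra k A] (a b : A) : k[X][X] →+* A :=
  eval₂RingHom ((aeval a).toRingHom : k[X] →+* A) b

theorem ev2_apply {A : Type*} [CommRing A] [Algebra k A] (a b : A) (P : k[X][X]) :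
    ev2 a b P = P.eval₂ ((aeval a).toRingHom : k[X] →+* A) b := rfl

theorem ev2_C {A : Type*} [CommRing A] [Algebra k A] (a b : A) (p : k[X]) :
    ev2 a b (C p) = aeval a p := by
  rw [ev2_apply, eval₂_C]; rfl

theorem ev2_X {A : Type*} [CommRing A] [Algebra k A] (a b : A) :
    ev2 a b (X : k[X][X]) = b := by
  rw [ev2_apply, eval₂_X]

theorem ev2_monomial_monomial {A : Type*} [CommRing A] [Algebra k A] (a b : A) (m l : ℕ)
    (c : k) : ev2 a b (monomial m (monomial l c)) = algebraMap k A c * a ^ l * b ^ m := by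
  rw [ev2_apply, eval₂_monomial]
  congr 1
  show aeval a (monomial l c) = _
  rw [aeval_monomial]

/-- Algebra homomorphisms commute with two-variable evaluation. -/
theorem algHom_ev2 {A B : Type*} [CommRing A] [Algebra k A] [CommRing B] [Algebra k B]
    (φ : A →ₐ[k] B) (a b : A) (P : k[X][X]) : φ (ev2 a b P) = ev2 (φ a) (φ b) P := by
  rw [ev2_apply, ev2_apply]
  have h := Polynomial.hom_eval₂ P ((aeval a).toRingHom : k[X] →+* A) (φ : A →+* B) b
  rw [RingHom.coe_coe] at h
  rw [h]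
  congr 1
  rw [aeval_algHom]
  rfl

/-- `(P.map (Y ↦ a)).eval b = P(a, b)`. -/
theorem eval_map_aeval {A : Type*} [CommRing A] [Algebra k A] (a b : A) (P : k[X][X]) :
    (P.map ((aeval a).toRingHom : k[X] →+* A)).eval b = ev2 a b P := by
  rw [eval_map, ev2_apply]

end Eval2

variable (N : ℕ) [NeZero N]

/-! ### Uniqueness -/

/-- `j` as an element of `PM`. -/
noncomputable def jPM : PM := ⟨jInv, isPerMero_jInv 1⟩

theorem qexpPM_jPM : qexpPM jPM = jqModC ℂ := by
  rw [qexpPM_apply]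
  exact qexpFun_jInv_eq

/-- Evaluation at a point, as an algebra homomorphism on `PM`. -/
noncomputable def evPMₐ (z : ℍ) : PM →ₐ[ℂ] ℂ :=
  (Pi.evalAlgHom ℂ (fun _ : ℍ => ℂ) z).comp PM.val

@[simp] lemma evPMₐ_apply (z : ℍ) (f : PM) : evPMₐ z f = (f : ℍ → ℂ) z := rfl

/-- If `R(j(q), j(q^N)) = 0` in `ℂ((q))`, then every Puiseux root `cosetRoot N c` is a root of
`R(j(t^N), X)`. -/
theorem ev2_cosetRoot_eq_zero (R₀ : ℂ[X][X])
    (h : ev2 (jqModC ℂ) (qExpand ℂ N (jqModC ℂ)) R₀ = 0) (c : SL(2, ℤ) ⧸ Gamma0 N) :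
    ev2 (qExpand ℂ N (jqModC ℂ)) (cosetRoot N c) R₀ = 0 := by
  -- step 1: the relation holds in `PM`
  have h1 : ev2 jPM (jNPM N) R₀ = 0 := by
    apply qexpPM_injective
    rw [algHom_ev2, qexpPM_jPM, qexpPM_jNPM, h, map_zero]
  -- step 2: pointwise
  have h2 : ∀ z : ℍ, ev2 (jInv z) (JN.jN N z) R₀ = 0 := by
    intro z
    have := congrArg (evPMₐ z) h1
    rwa [algHom_ev2, map_zero] at this
  -- step 3: all conjugates
  have h3 : ∀ (c : SL(2, ℤ) ⧸ Gamma0 N) (w : ℍ), ev2 (jInv w) (conj N c w) R₀ = 0 := by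
    intro c w
    induction c using QuotientGroup.induction_on with
    | H γ =>
      have := h2 (γ⁻¹ • w)
      rw [jInv_smul] at this
      rw [conj, CosetPoly.cosetFun_mk, CosetPoly.slash_zero_apply]
      exact this
  -- step 4: back to `PM` along `w = N z`
  have h4 : ev2 (jNPM N) (conjPM N c) R₀ = 0 := by
    apply Subtype.ext
    funext z
    have e : ((ev2 (jNPM N) (conjPM N c) R₀ : PM) : ℍ → ℂ) z =
        evPMₐ z (ev2 (jNPM N) (conjPM N c) R₀) := rfl
    rw [e, algHom_ev2]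
    exact h3 c (JN.scaleH N z)
  -- step 5: `q`-expansion
  have h5 := congrArg qexpPM h4
  rwa [algHom_ev2, qexpPM_jNPM, qexpPM_conjPM, map_zero] at h5

theorem aeval_qExpand_jqModC_injective {S : Type*} [CommRing S] (M : ℕ) [NeZero M] :
    Function.Injective (aeval (R := S) (qExpand S M (jqModC S))) := by
  intro P P' h
  rw [← qExpand_aeval, ← qExpand_aeval] at h
  exact aeval_jqModC_injective (qExpand_injective M h)

/-- **Uniqueness**: a polynomial `R ∈ ℂ[Y][X]` with `deg_X R < ψ(N)` and `R(j(q), j(q^N)) = 0`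
is zero. -/
theorem eq_zero_of_ev2_eq_zero (R₀ : ℂ[X][X]) (hdeg : R₀.natDegree < dedekindPsi N)
    (h : ev2 (jqModC ℂ) (qExpand ℂ N (jqModC ℂ)) R₀ = 0) : R₀ = 0 := by
  set φ : ℂ[X] →+* LaurentSeries ℂ := ((aeval (qExpand ℂ N (jqModC ℂ))).toRingHom) with hφ
  have hφinj : Function.Injective φ := aeval_qExpand_jqModC_injective N
  have hP : R₀.map φ = 0 := by
    apply Polynomial.eq_zero_of_natDegree_lt_card_of_eval_eq_zero (R₀.map φ)
      (cosetRoot_injective N)
    · intro c
      rw [hφ, eval_map_aeval]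
      exact ev2_cosetRoot_eq_zero N R₀ h c
    · rw [card_cosets]
      exact lt_of_le_of_lt (natDegree_map_le) hdeg
  exact (Polynomial.map_eq_zero_iff hφinj).mp hP

/-! ### The trivial coset -/

theorem cosetRoot_one :
    cosetRoot N ((1 : SL(2, ℤ)) : SL(2, ℤ) ⧸ Gamma0 N) =
      qExpand ℂ N (qExpand ℂ N (jqModC ℂ)) := by
  rw [← qexpPM_conjPM, qexpPM_apply]
  have hfun : ((conjPM N ((1 : SL(2, ℤ)) : SL(2, ℤ) ⧸ Gamma0 N) : PM) : ℍ → ℂ) =
      scl N (JN.jN N) := by
    funext z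
    show conj N ((1 : SL(2, ℤ)) : SL(2, ℤ) ⧸ Gamma0 N) (JN.scaleH N z) =
      JN.jN N (JN.scaleH N z)
    rw [conj, CosetPoly.cosetFun_one]
  have hper : IsPerMero 1 (scl N (JN.jN N)) := by
    rw [← hfun]
    exact (conjPM N _).2
  rw [hfun, qexpFun_scl N (g := JN.jN N) (jNPM N).2 hper, qexpFun_jN, qexpFun_jInv_eq]

/-- **The coset polynomial over `ℂ`**: monic of degree `ψ(N)`, splits over `ℂ((t))` with roots the
`cosetRoot`s, and kills `(j(q), j(q^N))`. -/
theorem exists_cosetPoly_vanishing :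
    ∃ Q : ℂ[X][X], Q.Monic ∧ Q.natDegree = dedekindPsi N ∧
      Q.map ((aeval (qExpand ℂ N (jqModC ℂ))).toRingHom : ℂ[X] →+* LaurentSeries ℂ) =
        ∏ c : SL(2, ℤ) ⧸ Gamma0 N, (X - C (cosetRoot N c)) ∧
      ev2 (jqModC ℂ) (qExpand ℂ N (jqModC ℂ)) Q = 0 := by
  obtain ⟨Q, hQm, hQd, hQ⟩ := exists_cosetPoly_factorization N
  refine ⟨Q, hQm, hQd, hQ, ?_⟩
  apply qExpand_injective N
  rw [map_zero]
  have hq : (qExpand ℂ N : LaurentSeries ℂ →+* LaurentSeries ℂ)
      (ev2 (jqModC ℂ) (qExpand ℂ N (jqModC ℂ)) Q) =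
      ev2 (qExpand ℂ N (jqModC ℂ)) (qExpand ℂ N (qExpand ℂ N (jqModC ℂ))) Q := by
    rw [ev2_apply, ev2_apply, Polynomial.hom_eval₂]
    congr 1
    refine Polynomial.ringHom_ext (fun a => ?_) ?_
    · simp only [RingHom.comp_apply, AlgHom.toRingHom_eq_coe, RingHom.coe_coe, aeval_C]
      rw [algebraMap_eq_C]
      exact qExpand_C N a
    · simp only [RingHom.comp_apply, AlgHom.toRingHom_eq_coe, RingHom.coe_coe, aeval_X]
  rw [hq, ← cosetRoot_one, ← eval_map_aeval, hQ, eval_prod]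
  apply Finset.prod_eq_zero (Finset.mem_univ ((1 : SL(2, ℤ)) : SL(2, ℤ) ⧸ Gamma0 N))
  rw [eval_sub, eval_X, eval_C, sub_self]

/-- Variant of uniqueness with a coefficient bound instead of `natDegree`. -/
theorem eq_zero_of_ev2_eq_zero' (R₀ : ℂ[X][X]) (hdeg : ∀ m, dedekindPsi N ≤ m → R₀.coeff m = 0)
    (h : ev2 (jqModC ℂ) (qExpand ℂ N (jqModC ℂ)) R₀ = 0) : R₀ = 0 := by
  by_contra hne
  refine hne (eq_zero_of_ev2_eq_zero N R₀ ?_ h)
  by_contra hlt
  exact leadingCoeff_ne_zero.mpr hne (hdeg _ (not_lt.mp hlt))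

/-! ### Base change of two-variable evaluation along a ring homomorphism of coefficients -/

section BaseChange

variable {K L : Type*} [CommRing K] [CommRing L] (ι : K →+* L)

theorem coeffMap_algebraMap' (r : K) :
    coeffMap ι (algebraMap K (LaurentSeries K) r) = algebraMap L (LaurentSeries L) (ι r) := by
  rw [algebraMap_eq_C, algebraMap_eq_C]
  exact coeffMap_single ι 0 r

/-- `(P^ι)(ι a) = ι (P(a))`. -/
theorem aeval_coeffMap_map (a : LaurentSeries K) (p : K[X]) :
    aeval (coeffMap ι a) (p.map ι) = coeffMap ι (aeval a p) := by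
  rw [aeval_def, eval₂_map, aeval_def, hom_eval₂]
  congr 1
  refine RingHom.ext fun r => ?_
  rw [RingHom.comp_apply, RingHom.comp_apply, coeffMap_algebraMap']

/-- `(P^ι)(ι a, ι b) = ι (P(a, b))`. -/
theorem ev2_coeffMap_map (a b : LaurentSeries K) (P : K[X][X]) :
    ev2 (coeffMap ι a) (coeffMap ι b) (P.map (mapRingHom ι)) = coeffMap ι (ev2 a b P) := by
  rw [ev2_apply, eval₂_map, ev2_apply, hom_eval₂]
  congr 1
  refine RingHom.ext fun p => ?_
  rw [RingHom.comp_apply, RingHom.comp_apply]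
  exact aeval_coeffMap_map ι a p

theorem coeffMap_injective (hι : Function.Injective ι) : Function.Injective (coeffMap ι) := by
  intro f g h
  ext n
  apply hι
  rw [← coeffMap_coeff, ← coeffMap_coeff, h]

end BaseChange

/-! ### Applying a linear retraction to coefficients -/

section Retraction

/-- Apply an additive map to every coefficient of a polynomial. -/
noncomputable def pmapAdd {A B : Type*} [Semiring A] [Semiring B] (f : A →+ B) : A[X] →+ B[X] where
  toFun P := P.sum fun i a => monomial i (f a)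
  map_zero' := by simp
  map_add' P P' := by
    rw [Polynomial.sum_add_index]
    · intro i; rw [map_zero, map_zero]
    · intro i a b; rw [map_add, map_add]

theorem pmapAdd_coeff {A B : Type*} [Semiring A] [Semiring B] (f : A →+ B) (P : A[X]) (n : ℕ) :
    (pmapAdd f P).coeff n = f (P.coeff n) := by
  show (P.sum fun i a => monomial i (f a)).coeff n = _
  rw [Polynomial.sum_def, finsetSum_coeff]
  simp only [coeff_monomial]
  rw [Finset.sum_ite_eq']
  split_ifs with h
  · rfl
  · rw [notMem_support_iff.mp h, map_zero]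

theorem pmapAdd_monomial {A B : Type*} [Semiring A] [Semiring B] (f : A →+ B) (i : ℕ) (a : A) :
    pmapAdd f (monomial i a) = monomial i (f a) := by
  ext n
  rw [pmapAdd_coeff, coeff_monomial, coeff_monomial]
  split_ifs
  · rfl
  · rw [map_zero]

theorem pmapAdd_one {A B : Type*} [Semiring A] [Semiring B] (f : A →+ B) (h1 : f 1 = 1) :
    pmapAdd f 1 = 1 := by
  rw [← monomial_zero_one, pmapAdd_monomial, h1, monomial_zero_one]

variable {K L : Type*} [CommRing K] [CommRing L] [Algebra K L] (π : L →ₗ[K] K)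

/-- Apply `π` to every coefficient of a Laurent series. -/
noncomputable def lsMap : LaurentSeries L →+ LaurentSeries K where
  toFun f := f.map π
  map_zero' := by ext n; simp
  map_add' f g := by ext n; simp

@[simp] theorem lsMap_coeff (f : LaurentSeries L) (n : ℤ) :
    (lsMap π f).coeff n = π (f.coeff n) := rfl

/-- `π` is `K`-linear: `lsMap π (c · ι f) = π c · f`. -/
theorem lsMap_algebraMap_mul_coeffMap (c : L) (f : LaurentSeries K) :
    lsMap π (algebraMap L (LaurentSeries L) c * coeffMap (algebraMap K L) f) =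
      algebraMap K (LaurentSeries K) (π c) * f := by
  ext n
  rw [lsMap_coeff, coeff_algebraMap_mul, coeff_algebraMap_mul, coeffMap_coeff, mul_comm c,
    ← Algebra.smul_def, map_smul, smul_eq_mul, mul_comm]

/-- The coefficientwise retraction commutes with two-variable evaluation at series defined
over `K`. -/
theorem lsMap_ev2 (a b : LaurentSeries K) (P : L[X][X]) :
    lsMap π (ev2 (coeffMap (algebraMap K L) a) (coeffMap (algebraMap K L) b) P) =
      ev2 a b (pmapAdd (pmapAdd π.toAddMonoidHom) P) := by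
  induction P using Polynomial.induction_on' with
  | add p q hp hq => rw [map_add, map_add, map_add, map_add, hp, hq]
  | monomial m p =>
    induction p using Polynomial.induction_on' with
    | add p q hp hq =>
      rw [map_add (monomial m), map_add, map_add, map_add, map_add, hp, hq]
    | monomial l c =>
      rw [pmapAdd_monomial, pmapAdd_monomial, ev2_monomial_monomial, ev2_monomial_monomial,
        ← map_pow, ← map_pow, mul_assoc, ← map_mul, lsMap_algebraMap_mul_coeffMap, mul_assoc]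
      rfl

end Retraction

/-! ### Descent to `ℚ` -/

theorem coeffMap_jqModC_rat : coeffMap (algebraMap ℚ ℂ) (jqModC ℚ) = jqModC ℂ :=
  coeffMap_jqModC (algebraMap ℚ ℂ)

theorem coeffMap_qExpand_jqModC_rat :
    coeffMap (algebraMap ℚ ℂ) (qExpand ℚ N (jqModC ℚ)) = qExpand ℂ N (jqModC ℂ) := by
  rw [coeffMap_qExpand, coeffMap_jqModC_rat]

/-- A `ℚ`-linear retraction of `ℚ → ℂ`. -/
theorem exists_retraction : ∃ π : ℂ →ₗ[ℚ] ℚ, π 1 = 1 := by
  obtain ⟨g, hg⟩ := LinearMap.exists_leftInverse_of_injective (Algebra.linearMap ℚ ℂ)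
    (LinearMap.ker_eq_bot.mpr (algebraMap ℚ ℂ).injective)
  refine ⟨g, ?_⟩
  have := LinearMap.congr_fun hg 1
  simpa using this

/-- **The modular polynomial over `ℚ`.** -/
theorem exists_ratPoly :
    ∃ Q : ℚ[X][X], Q.Monic ∧ Q.natDegree = dedekindPsi N ∧
      (Q.map (mapRingHom (algebraMap ℚ ℂ))).map
        ((aeval (qExpand ℂ N (jqModC ℂ))).toRingHom : ℂ[X] →+* LaurentSeries ℂ) =
        ∏ c : SL(2, ℤ) ⧸ Gamma0 N, (X - C (cosetRoot N c)) ∧
      ev2 (jqModC ℚ) (qExpand ℚ N (jqModC ℚ)) Q = 0 := by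
  obtain ⟨Q, hQm, hQd, hQ, hQ0⟩ := exists_cosetPoly_vanishing N
  obtain ⟨π, hπ⟩ := exists_retraction
  set Q' : ℚ[X][X] := pmapAdd (pmapAdd π.toAddMonoidHom) Q with hQ'
  have hπ1 : pmapAdd π.toAddMonoidHom (1 : ℂ[X]) = 1 := pmapAdd_one _ hπ
  have hvan : ev2 (jqModC ℚ) (qExpand ℚ N (jqModC ℚ)) Q' = 0 := by
    rw [hQ', ← lsMap_ev2, coeffMap_jqModC_rat, coeffMap_qExpand_jqModC_rat, hQ0, map_zero]
  have hcoeff_top : Q'.coeff (dedekindPsi N) = 1 := by
    rw [hQ', pmapAdd_coeff, ← hQd]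
    have : Q.coeff Q.natDegree = 1 := hQm
    rw [this, hπ1]
  have hcoeff_high : ∀ m, dedekindPsi N < m → Q'.coeff m = 0 := by
    intro m hm
    rw [hQ', pmapAdd_coeff, coeff_eq_zero_of_natDegree_lt (by rw [hQd]; exact hm), map_zero]
  have hdeg_le : Q'.natDegree ≤ dedekindPsi N :=
    natDegree_le_iff_coeff_eq_zero.mpr hcoeff_high
  have hmonic : Q'.Monic := monic_of_natDegree_le_of_coeff_eq_one _ hdeg_le hcoeff_top
  have hdeg : Q'.natDegree = dedekindPsi N :=
    le_antisymm hdeg_le (le_natDegree_of_ne_zero (by rw [hcoeff_top]; exact one_ne_zero))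
  have heq : Q = Q'.map (mapRingHom (algebraMap ℚ ℂ)) := by
    rw [← sub_eq_zero]
    apply eq_zero_of_ev2_eq_zero' N
    · intro m hm
      rw [coeff_sub, coeff_map]
      rcases hm.eq_or_lt with rfl | hlt
      · rw [hcoeff_top, ← hQd]
        have : Q.coeff Q.natDegree = 1 := hQm
        rw [this, map_one, sub_self]
      · rw [hcoeff_high m hlt, coeff_eq_zero_of_natDegree_lt (by rw [hQd]; exact hlt), map_zero,
          sub_self]
    · rw [map_sub, hQ0, zero_sub, neg_eq_zero, ← coeffMap_qExpand_jqModC_rat,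
        ← coeffMap_jqModC_rat, ev2_coeffMap_map, hvan, map_zero]
  refine ⟨Q', hmonic, hdeg, ?_, hvan⟩
  rw [← heq, hQ]

/-! ### Roots of unity -/

theorem coe_expUnit_eq (a : ℝ) :
    ((expUnit a : ℂˣ) : ℂ) = Complex.exp (2 * Real.pi * Complex.I * a) := by
  rw [coe_expUnit, Periodic.qParam]
  congr 1
  simp

theorem expUnit_int_mul (n : ℤ) (a : ℝ) : expUnit ((n : ℝ) * a) = expUnit a ^ n := by
  apply Units.ext
  rw [Units.val_zpow_eq_zpow_val, coe_expUnit_eq, coe_expUnit_eq, ← Complex.exp_int_mul]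
  congr 1
  push_cast
  ring

theorem expUnit_one : expUnit 1 = 1 := by
  apply Units.ext
  rw [coe_expUnit_eq, Units.val_one]
  push_cast
  rw [mul_one, Complex.exp_two_pi_mul_I]

/-- The primitive `N`-th root of unity `e^{2πi/N}`, as a unit of `ℂ`. -/
noncomputable def zetaC : ℂˣ := expUnit ((1 : ℝ) / N)

theorem zetaC_pow_self : zetaC N ^ N = 1 := by
  have hN : (N : ℝ) ≠ 0 := Nat.cast_ne_zero.mpr (NeZero.ne N)
  have h := expUnit_int_mul (N : ℤ) ((1 : ℝ) / N)
  rw [zpow_natCast] at h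
  rw [zetaC, ← h]
  have : ((N : ℤ) : ℝ) * ((1 : ℝ) / N) = 1 := by
    push_cast
    field_simp
  rw [this, expUnit_one]

theorem isPrimitiveRoot_zetaC : IsPrimitiveRoot ((zetaC N : ℂˣ) : ℂ) N := by
  have h := Complex.isPrimitiveRoot_exp N (NeZero.ne N)
  have e : ((zetaC N : ℂˣ) : ℂ) = Complex.exp (2 * Real.pi * Complex.I / N) := by
    rw [zetaC, coe_expUnit_eq]
    congr 1
    push_cast
    ring
  rw [e]
  exact h

/-- The roots of unity occurring in the Puiseux roots are powers of `ζ_N`. -/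
theorem expUnit_coset_eq (c : SL(2, ℤ) ⧸ Gamma0 N) :
    expUnit ((cB N c : ℝ) / cD N c) = zetaC N ^ ((cA N c : ℤ) * cB N c) := by
  rw [zetaC, ← expUnit_int_mul]
  congr 1
  have hD : (cD N c : ℝ) ≠ 0 := Nat.cast_ne_zero.mpr (cD_pos N c).ne'
  have hA : (cA N c : ℝ) ≠ 0 := Nat.cast_ne_zero.mpr (cA_pos N c).ne'
  have hN : (N : ℝ) = (cA N c : ℝ) * (cD N c : ℝ) := by
    rw [← Nat.cast_mul, cA_mul_cD]
  rw [hN]
  push_cast
  field_simp

theorem cosetRoot_eq_rootSeries_zetaC (c : SL(2, ℤ) ⧸ Gamma0 N) :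
    cosetRoot N c = rootSeries (zetaC N ^ ((cA N c : ℤ) * cB N c)) (cA N c ^ 2) := by
  rw [cosetRoot, expUnit_coset_eq]

/-- The algebraic integers, as a subring of `ℂ`. -/
def intC : Subring ℂ := (integralClosure ℤ ℂ).toSubring

theorem mem_intC {x : ℂ} : x ∈ intC ↔ IsIntegral ℤ x := Iff.rfl

theorem zpow_zetaC_mem_intC (k : ℤ) : (((zetaC N) ^ k : ℂˣ) : ℂ) ∈ intC := by
  rw [mem_intC]
  refine IsIntegral.of_pow (NeZero.pos N) ?_
  have : ((((zetaC N) ^ k : ℂˣ) : ℂ)) ^ N = 1 := by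
    rw [← Units.val_pow_eq_pow_val, ← zpow_natCast, ← zpow_mul, mul_comm, zpow_mul, zpow_natCast,
      zetaC_pow_self, one_zpow, Units.val_one]
  rw [this]
  exact isIntegral_one

theorem cosetRoot_mem_coeffSubring (c : SL(2, ℤ) ⧸ Gamma0 N) :
    cosetRoot N c ∈ coeffSubring intC := by
  rw [cosetRoot_eq_rootSeries_zetaC]
  refine rootSeries_mem_coeffSubring _ (zpow_zetaC_mem_intC N _) ?_ _
  rw [← zpow_neg]
  exact zpow_zetaC_mem_intC N _

/-! ### Descent to `ℤ` -/

theorem coeff_prod_X_sub_C_mem {A : Type*} [CommRing A] (T : Subring A) {ι : Type*}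
    (s : Finset ι) (a : ι → A) (ha : ∀ i ∈ s, a i ∈ T) :
    ∀ k : ℕ, (∏ i ∈ s, (X - C (a i))).coeff k ∈ T := by
  refine Finset.prod_induction (fun i => X - C (a i)) (fun P => ∀ k : ℕ, P.coeff k ∈ T) ?_ ?_ ?_
  · intro P P' hP hP' k
    rw [coeff_mul]
    exact Subring.sum_mem _ fun ij _ => T.mul_mem (hP _) (hP' _)
  · intro k
    rw [coeff_one]
    split_ifs
    · exact T.one_mem
    · exact T.zero_mem
  · intro i hi k
    rw [coeff_sub, coeff_X, coeff_C]
    refine T.sub_mem ?_ ?_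
    · split_ifs
      · exact T.one_mem
      · exact T.zero_mem
    · split_ifs
      · exact ha i hi
      · exact T.zero_mem

theorem ev2_map_algebraMap {k k' A : Type*} [CommRing k] [CommRing k'] [Algebra k k']
    [CommRing A] [Algebra k A] [Algebra k' A] [IsScalarTower k k' A] (a b : A) (P : k[X][X]) :
    ev2 a b (P.map (mapRingHom (algebraMap k k'))) = ev2 a b P := by
  rw [ev2_apply, eval₂_map, ev2_apply]
  congr 1
  refine Polynomial.ringHom_ext (fun r => ?_) ?_
  · simp only [RingHom.comp_apply, coe_mapRingHom, map_C, AlgHom.toRingHom_eq_coe,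
      RingHom.coe_coe, aeval_C]
    exact (IsScalarTower.algebraMap_apply k k' A r).symm
  · simp only [RingHom.comp_apply, coe_mapRingHom, map_X, AlgHom.toRingHom_eq_coe,
      RingHom.coe_coe, aeval_X]

theorem ev2_map_intCast {k A : Type*} [CommRing k] [CommRing A] [Algebra k A] [Algebra ℤ A]
    (a b : A) (P : ℤ[X][X]) :
    ev2 a b (P.map (mapRingHom (Int.castRingHom k))) = ev2 a b P := by
  rw [ev2_apply, eval₂_map, ev2_apply]
  congr 1
  refine Polynomial.ringHom_ext' (RingHom.ext_int _ _) ?_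
  simp only [RingHom.comp_apply, coe_mapRingHom, map_X, AlgHom.toRingHom_eq_coe,
    RingHom.coe_coe, aeval_X]

theorem mapRingHom_intCast_comp {k k' : Type*} [CommRing k] [CommRing k'] (f : k →+* k') :
    (mapRingHom f).comp (mapRingHom (Int.castRingHom k)) = mapRingHom (Int.castRingHom k') := by
  refine Polynomial.ringHom_ext' (RingHom.ext_int _ _) ?_
  simp only [RingHom.comp_apply, coe_mapRingHom, map_X]

/-- **Existence of the modular polynomial `Φ_N ∈ ℤ[Y][X]`**: monic of `X`-degree `ψ(N)`, it splits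
over `ℂ((t))` (`Y ↦ j(t^N)`) with roots the Puiseux series `cosetRoot N c`, and
`Φ_N(j(q), j(q^N)) = 0` in `ℚ((q))`. -/
theorem exists_modPoly :
    ∃ Φ : ℤ[X][X], Φ.Monic ∧ Φ.natDegree = dedekindPsi N ∧
      (Φ.map (mapRingHom (Int.castRingHom ℂ))).map
        ((aeval (qExpand ℂ N (jqModC ℂ))).toRingHom : ℂ[X] →+* LaurentSeries ℂ) =
        ∏ c : SL(2, ℤ) ⧸ Gamma0 N, (X - C (cosetRoot N c)) ∧
      ev2 (jqModC ℚ) (qExpand ℚ N (jqModC ℚ)) Φ = 0 := by
  obtain ⟨Q, hQm, hQd, hQ, hQ0⟩ := exists_ratPoly N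
  have hlift : Q ∈ lifts (mapRingHom (Int.castRingHom ℚ)) := by
    rw [lifts_iff_coeff_lifts]
    intro k
    have hk : Q.coeff k ∈ lifts (Int.castRingHom ℚ) := by
      rw [lifts_iff_coeff_lifts]
      intro i
      have hmem : aeval (jqModC ℚ) (Q.coeff k) ∈ coeffSubring (Int.castRingHom ℚ).range := by
        intro n
        have h1 := coeff_prod_X_sub_C_mem (coeffSubring intC) Finset.univ (cosetRoot N)
          (fun c _ => cosetRoot_mem_coeffSubring N c) k
        rw [← hQ, coeff_map, coeff_map] at h1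
        have h2 : ((aeval (qExpand ℂ N (jqModC ℂ))).toRingHom : ℂ[X] →+* LaurentSeries ℂ)
            (mapRingHom (algebraMap ℚ ℂ) (Q.coeff k)) =
            coeffMap (algebraMap ℚ ℂ) (qExpand ℚ N (aeval (jqModC ℚ) (Q.coeff k))) := by
          rw [qExpand_aeval, ← aeval_coeffMap_map, coeffMap_qExpand_jqModC_rat]
          rfl
        rw [h2] at h1
        have h3 := h1 ((N : ℤ) * n)
        rw [coeffMap_coeff, qExpand_coeff_mul, mem_intC,
          isIntegral_algebraMap_iff (algebraMap ℚ ℂ).injective] at h3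
        obtain ⟨y, hy⟩ := IsIntegrallyClosed.isIntegral_iff.mp h3
        exact ⟨y, hy⟩
      exact coeff_mem_of_aeval_jqModC_mem' (Int.castRingHom ℚ).range (Q.coeff k) hmem i
    exact (mem_lifts _).mp hk
  obtain ⟨Φ, hΦ, hΦd, hΦm⟩ := lifts_and_natDegree_eq_and_monic hlift hQm
  refine ⟨Φ, hΦm, hΦd.trans hQd, ?_, ?_⟩
  · rw [← hQ, ← hΦ, Polynomial.map_map (mapRingHom (Int.castRingHom ℚ)),
      mapRingHom_intCast_comp]
  · rw [← hQ0, ← hΦ]
    exact (ev2_map_intCast _ _ Φ).symm

/-- **The modular polynomial `Φ_N ∈ ℤ[Y][X]`.** -/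
noncomputable def modPoly : ℤ[X][X] := (exists_modPoly N).choose

theorem modPoly_monic : (modPoly N).Monic := (exists_modPoly N).choose_spec.1

theorem modPoly_natDegree : (modPoly N).natDegree = dedekindPsi N :=
  (exists_modPoly N).choose_spec.2.1

theorem modPoly_map_eq_prod :
    ((modPoly N).map (mapRingHom (Int.castRingHom ℂ))).map
        ((aeval (qExpand ℂ N (jqModC ℂ))).toRingHom : ℂ[X] →+* LaurentSeries ℂ) =
        ∏ c : SL(2, ℤ) ⧸ Gamma0 N, (X - C (cosetRoot N c)) :=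
  (exists_modPoly N).choose_spec.2.2.1

theorem ev2_modPoly : ev2 (jqModC ℚ) (qExpand ℚ N (jqModC ℚ)) (modPoly N) = 0 :=
  (exists_modPoly N).choose_spec.2.2.2

/-- The prelude's `ModularPolynomialData N`. -/
noncomputable def modPolyData : ModularPolynomialData N where
  Φ := modPoly N
  monic := modPoly_monic N
  natDegree_eq := modPoly_natDegree N
  eval_eq_zero := ev2_modPoly N

end Fermat.Agent.N4.ModPolyDescent
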