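/-
N4 / L1 (helper12), part 6: `FunctionFieldGeneration N`, i.e. `ℚ(j(q^d) : d ∣ N) = ℚ(j(q), j(q^N))`.

Over `ℂ` this is S24's `FieldIso.FC_eq_modularFunctionFieldC`; we descend a relation
`j(q^d) · B(j, j_N) = A(j, j_N)`, `B(j, j_N) ≠ 0`, from `ℂ` to `ℚ` by applying a `ℚ`-linear form
`π : ℂ → ℚ` to all coefficients, `π` chosen so that `B^π(j, j_N) ≠ 0`.
-/
import Mathlib
import Fermat.Agent.N4.ModPolyDescent
import Fermat.Agent.S24.FieldIsoFinal

set_option autoImplicit false

namespace Fermat.Agent.N4.FunctionFieldGen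

open Polynomial ModularCurve
open Fermat.Agent.N4.TwistSeries Fermat.Agent.N4.ModPolyDescent

section Retraction

variable {K L : Type*} [CommRing K] [CommRing L] [Algebra K L] (π : L →ₗ[K] K)

/-- `lsMap_ev2` with a multiplier defined over `K`. -/
theorem lsMap_mul_ev2 (m a b : LaurentSeries K) (P : L[X][X]) :
    lsMap π (coeffMap (algebraMap K L) m *
        ev2 (coeffMap (algebraMap K L) a) (coeffMap (algebraMap K L) b) P) =
      m * ev2 a b (pmapAdd (pmapAdd π.toAddMonoidHom) P) := by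
  induction P using Polynomial.induction_on' with
  | add p q hp hq => rw [map_add, mul_add, map_add, map_add, map_add, mul_add, hp, hq]
  | monomial k p =>
    induction p using Polynomial.induction_on' with
    | add p q hp hq =>
      have := congrArg₂ (· + ·) hp hq
      simpa only [map_add, mul_add] using this
    | monomial l c =>
      rw [pmapAdd_monomial, pmapAdd_monomial, ev2_monomial_monomial, ev2_monomial_monomial,
        ← map_pow, ← map_pow]
      have e : coeffMap (algebraMap K L) m *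
          (algebraMap L (LaurentSeries L) c * coeffMap (algebraMap K L) (a ^ l) *
            coeffMap (algebraMap K L) (b ^ k)) =
          algebraMap L (LaurentSeries L) c * coeffMap (algebraMap K L) (m * a ^ l * b ^ k) := by
        rw [map_mul, map_mul]
        ring
      rw [e, lsMap_algebraMap_mul_coeffMap]
      show algebraMap K (LaurentSeries K) (π c) * (m * a ^ l * b ^ k) =
        m * (algebraMap K (LaurentSeries K) (π c) * a ^ l * b ^ k)
      ring

end Retraction

section Adjoin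

variable {k A : Type*} [CommRing k] [CommRing A] [Algebra k A]

/-- Every element of `k[a, b]` is of the form `P(a, b)`. -/
theorem exists_ev2_eq_of_mem_adjoin (a b : A) {x : A} (hx : x ∈ Algebra.adjoin k {a, b}) :
    ∃ P : k[X][X], ev2 a b P = x := by
  induction hx using Algebra.adjoin_induction with
  | mem y hy =>
    rcases hy with rfl | hy
    · exact ⟨C X, by rw [ev2_C, aeval_X]⟩
    · rw [Set.mem_singleton_iff] at hy
      subst hy
      exact ⟨X, ev2_X _ _⟩
  | algebraMap r => exact ⟨C (C r), by rw [ev2_C, aeval_C]⟩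
  | add y z _ _ hy hz =>
    obtain ⟨P, rfl⟩ := hy
    obtain ⟨P', rfl⟩ := hz
    exact ⟨P + P', map_add _ _ _⟩
  | mul y z _ _ hy hz =>
    obtain ⟨P, rfl⟩ := hy
    obtain ⟨P', rfl⟩ := hz
    exact ⟨P * P', map_mul _ _ _⟩

/-- `P(a, b) ∈ k[a, b]`. -/
theorem ev2_mem_adjoin (a b : A) (P : k[X][X]) : ev2 a b P ∈ Algebra.adjoin k {a, b} := by
  induction P using Polynomial.induction_on' with
  | add p q hp hq =>
    rw [map_add]
    exact add_mem hp hq
  | monomial m p =>
    rw [ev2_apply, eval₂_monomial]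
    have hb : b ∈ Algebra.adjoin k ({a, b} : Set A) :=
      Algebra.subset_adjoin (Set.mem_insert_of_mem _ (Set.mem_singleton _))
    refine mul_mem ?_ (pow_mem hb m)
    have h1 : aeval a p ∈ Algebra.adjoin k ({a} : Set A) := aeval_mem_adjoin_singleton k a
    exact Algebra.adjoin_mono (Set.singleton_subset_iff.mpr (Set.mem_insert _ _)) h1

end Adjoin

variable (N : ℕ) [NeZero N]

/-- **`FunctionFieldGeneration N`**: for every `d ∣ N`, `j(q^d) ∈ ℚ(j(q), j(q^N))`. -/
theorem functionFieldGeneration : FunctionFieldGeneration N := by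
  intro d hd hne
  haveI := hne
  -- membership over `ℂ`
  have hC : qExpand ℂ d (jqModC ℂ) ∈ modularFunctionFieldC ℂ N := by
    rw [← Fermat.Agent.S24.FieldIso.FC_eq_modularFunctionFieldC]
    exact Fermat.Agent.S24.FieldIso.qExpand_jqModC_mem_FC N hd
  rw [modularFunctionFieldC, IntermediateField.mem_adjoin_iff_div] at hC
  obtain ⟨r, hr, s, hs, hx⟩ := hC
  obtain ⟨A₀, rfl⟩ := exists_ev2_eq_of_mem_adjoin _ _ hr
  obtain ⟨B₀, rfl⟩ := exists_ev2_eq_of_mem_adjoin _ _ hs
  have hb : jqNModC ℂ N = qExpand ℂ N (jqModC ℂ) := rfl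
  rw [hb] at hx
  have hxd_ne : qExpand ℂ d (jqModC ℂ) ≠ 0 := by
    intro h0
    rw [← map_zero (qExpand ℂ d)] at h0
    exact jqModC_ne_zero_of_nontrivial (R := ℂ) (qExpand_injective d h0)
  have hβ : ev2 (jqModC ℂ) (qExpand ℂ N (jqModC ℂ)) B₀ ≠ 0 := by
    intro h0
    rw [h0, div_zero] at hx
    exact hxd_ne hx
  have hrel : qExpand ℂ d (jqModC ℂ) * ev2 (jqModC ℂ) (qExpand ℂ N (jqModC ℂ)) B₀ =
      ev2 (jqModC ℂ) (qExpand ℂ N (jqModC ℂ)) A₀ := by
    rw [hx, div_mul_cancel₀ _ hβ]
  -- choose a coefficient and a linear form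
  obtain ⟨n₀, hn₀⟩ : ∃ n, (ev2 (jqModC ℂ) (qExpand ℂ N (jqModC ℂ)) B₀).coeff n ≠ 0 := by
    by_contra h
    exact hβ (HahnSeries.ext (funext fun n => not_not.mp (not_exists.mp h n)))
  obtain ⟨π, hπ⟩ : ∃ π : ℂ →ₗ[ℚ] ℚ,
      π ((ev2 (jqModC ℂ) (qExpand ℂ N (jqModC ℂ)) B₀).coeff n₀) ≠ 0 := by
    by_contra h
    exact hn₀ ((Module.forall_dual_apply_eq_zero_iff ℚ _).mp
      fun φ => not_not.mp (not_exists.mp h φ))
  -- descend
  have hd' : coeffMap (algebraMap ℚ ℂ) (qExpand ℚ d (jqModC ℚ)) = qExpand ℂ d (jqModC ℂ) := by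
    rw [coeffMap_qExpand, coeffMap_jqModC_rat]
  have h1 := congrArg (lsMap π) hrel
  rw [← hd', ← coeffMap_qExpand_jqModC_rat, ← coeffMap_jqModC_rat, lsMap_mul_ev2, lsMap_ev2] at h1
  have hne' : ev2 (jqModC ℚ) (qExpand ℚ N (jqModC ℚ))
      (pmapAdd (pmapAdd π.toAddMonoidHom) B₀) ≠ 0 := by
    rw [← lsMap_ev2, coeffMap_jqModC_rat, coeffMap_qExpand_jqModC_rat]
    intro h0
    apply hπ
    have := congrArg (fun f => HahnSeries.coeff f n₀) h0
    simpa using this
  show qExpand ℚ d jq ∈ IntermediateField.adjoin ℚ {jq, qExpand ℚ N jq}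
  rw [IntermediateField.mem_adjoin_iff_div]
  exact ⟨_, ev2_mem_adjoin (jqModC ℚ) (qExpand ℚ N (jqModC ℚ)) _, _,
    ev2_mem_adjoin (jqModC ℚ) (qExpand ℚ N (jqModC ℚ)) _, eq_div_of_mul_eq hne' h1⟩

/-- Consequence: the full function field `ℚ(j(q^d) : d ∣ N)` is `ℚ(j(q), j(q^N))`. -/
theorem modularFunctionFieldFull_eq : modularFunctionFieldFull N = modularFunctionField N := by
  apply le_antisymm
  · rw [modularFunctionFieldFull, IntermediateField.adjoin_le_iff]
    rintro x ⟨d, hne, hd, rfl⟩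
    exact functionFieldGeneration N d hd hne
  · exact modularFunctionField_le_full N

/-! ### Any field of characteristic zero -/

section CharZero

variable (K : Type*) [Field K] [CharZero K]

/-- **`FunctionFieldGeneration` over any field of characteristic `0`**: for `d ∣ N`,
`j(q^d) ∈ K(j(q), j(q^N)) ⊆ K((q))`. -/
theorem functionFieldGenerationC {d : ℕ} [NeZero d] (hd : d ∣ N) :
    qExpand K d (jqModC K) ∈ modularFunctionFieldC K N := by
  have hQ : qExpand ℚ d jq ∈ IntermediateField.adjoin ℚ {jq, qExpand ℚ N jq} :=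
    functionFieldGeneration N d hd inferInstance
  rw [IntermediateField.mem_adjoin_iff_div] at hQ
  obtain ⟨r, hr, s, hs, hx⟩ := hQ
  obtain ⟨A₀, rfl⟩ := exists_ev2_eq_of_mem_adjoin _ _ hr
  obtain ⟨B₀, rfl⟩ := exists_ev2_eq_of_mem_adjoin _ _ hs
  have hinj : Function.Injective (coeffMap (algebraMap ℚ K)) :=
    coeffMap_injective _ (algebraMap ℚ K).injective
  have hxd_ne : qExpand ℚ d jq ≠ 0 := by
    intro h0
    rw [← map_zero (qExpand ℚ d)] at h0
    exact jq_ne_zero (qExpand_injective d h0)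
  have hβ : ev2 jq (qExpand ℚ N jq) B₀ ≠ 0 := by
    intro h0
    rw [h0, div_zero] at hx
    exact hxd_ne hx
  have hrel : qExpand ℚ d jq * ev2 jq (qExpand ℚ N jq) B₀ = ev2 jq (qExpand ℚ N jq) A₀ := by
    rw [hx, div_mul_cancel₀ _ hβ]
  have hj : coeffMap (algebraMap ℚ K) jq = jqModC K := coeffMap_jqModC (R := ℚ) (algebraMap ℚ K)
  have hjd : ∀ (e : ℕ) [NeZero e],
      coeffMap (algebraMap ℚ K) (qExpand ℚ e jq) = qExpand K e (jqModC K) := by
    intro e _
    rw [coeffMap_qExpand, hj]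
  have h1 := congrArg (coeffMap (algebraMap ℚ K)) hrel
  rw [map_mul, ← ev2_coeffMap_map, ← ev2_coeffMap_map, hj, hjd, hjd] at h1
  have hne' : ev2 (jqModC K) (qExpand K N (jqModC K)) (B₀.map (mapRingHom (algebraMap ℚ K))) ≠ 0 := by
    have := ev2_coeffMap_map (algebraMap ℚ K) jq (qExpand ℚ N jq) B₀
    rw [hj, hjd] at this
    rw [this]
    intro h0
    rw [← map_zero (coeffMap (algebraMap ℚ K))] at h0
    exact hβ (hinj h0)
  rw [modularFunctionFieldC, IntermediateField.mem_adjoin_iff_div]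
  exact ⟨_, ev2_mem_adjoin (jqModC K) (qExpand K N (jqModC K)) _, _,
    ev2_mem_adjoin (jqModC K) (qExpand K N (jqModC K)) _, eq_div_of_mul_eq hne' h1⟩

/-- `K(j(q^d) : d ∣ N) = K(j(q), j(q^N))` for every field `K` of characteristic zero. -/
theorem modularFunctionFieldFullC_eq :
    modularFunctionFieldFullC K N = modularFunctionFieldC K N := by
  apply le_antisymm
  · rw [modularFunctionFieldFullC, IntermediateField.adjoin_le_iff]
    rintro x ⟨d, hne, hd, rfl⟩
    haveI := hne
    exact functionFieldGenerationC N K hd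
  · exact modularFunctionFieldC_le_full K N

end CharZero

end Fermat.Agent.N4.FunctionFieldGen
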