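/-
N4 block (c): integral-closure toolkit for the charts of the `j`-line, parts (c1) and (c2).

Setting: `O` a domain with fraction field `K`, `F` a field over `K`, `j : F` transcendental over `K`.
`chartAlg O F {j}` (from `N4/Chart.lean`) is the integral closure of `O[j]` in `F`.

* `isIntegrallyClosed_polynomial` : `R[X]` is integrally closed when the domain `R` is
  (`exists_map_eq_of_isIntegralElem`: a polynomial over `Frac R` which is integral over `R[X]` has
  coefficients in `R`; `isIntegrallyClosed_of_closedIn`).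
* `mem_chartAlg_singleton_iff` : `x ∈ chartAlg O F {j}` iff `x` is integral over `O[X]` along `X ↦ j`.
* `isFractionRing_poly` : `K(j) = K⟮j⟯` is the fraction field of `O[X]` (along `X ↦ j`).
* **(c1)** `exists_finset_span_chartAlg` : for `O` integrally closed noetherian, `K` of characteristic
  zero and `F` finite over `K⟮j⟯`, the chart `chartAlg O F {j}` is spanned over `O[j]` by a finite set
  (instance-free form, the shape consumed by `ChartFinite.finite_quotient_chartSum'`);
  `isNoetherianRing_chartAlg` : the chart is a noetherian ring.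
* **(c2)** `mem_range_of_mem_chartAlg_of_mem_chartAlg_inv` (`H⁰ = O`): for `O` integrally closed and `K`
  algebraically closed in `F`, `chartAlg O F {j} ∩ chartAlg O F {j⁻¹} = O`.
-/
import Mathlib
import Fermat.Agent.N4.Chart

set_option autoImplicit false
set_option linter.style.haveILetI false
set_option linter.unusedSectionVars false

open Polynomial

namespace Fermat.Agent.N4.IntClosure

section PolyIntClosed

variable {R : Type*} [CommRing R] [IsDomain R]

/-- A domain which is integrally closed in an integrally closed overdomain is integrally closed. -/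
theorem isIntegrallyClosed_of_closedIn {S : Type*} [CommRing S] [IsDomain S] [Algebra R S]
    (hinj : Function.Injective (algebraMap R S)) [IsIntegrallyClosed S]
    (h : ∀ s : S, IsIntegral R s → ∃ r : R, algebraMap R S r = s) : IsIntegrallyClosed R := by
  rw [isIntegrallyClosed_iff (FractionRing R)]
  intro z hz
  have hinj' : Function.Injective (algebraMap R (FractionRing S)) := by
    rw [IsScalarTower.algebraMap_eq R S (FractionRing S)]
    exact (IsFractionRing.injective S _).comp hinj
  let ψ : FractionRing R →+* FractionRing S := IsFractionRing.lift hinj'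
  have hψ : ∀ r : R, ψ (algebraMap R (FractionRing R) r) = algebraMap R (FractionRing S) r :=
    fun r => IsFractionRing.lift_algebraMap hinj' r
  have h1 : IsIntegral R (ψ z) :=
    hz.map_of_comp_eq (RingHom.id R) ψ (by ext r; simp [hψ])
  have h2 : IsIntegral S (ψ z) := h1.tower_top
  obtain ⟨s, hs⟩ := IsIntegrallyClosed.isIntegral_iff.mp h2
  have h3 : IsIntegral R s := by
    rw [← isIntegral_algebraMap_iff (IsFractionRing.injective S (FractionRing S)), hs]
    exact h1
  obtain ⟨r, rfl⟩ := h s h3
  refine ⟨r, ψ.injective ?_⟩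
  rw [hψ, ← hs, ← IsScalarTower.algebraMap_apply]

variable {K : Type*} [Field K] [Algebra R K] [IsFractionRing R K]

/-- A polynomial over `Frac R` which is integral over `R[X]` has coefficients in `R`, for an
integrally closed domain `R`. -/
theorem exists_map_eq_of_isIntegralElem [IsIntegrallyClosed R] (f : K[X])
    (hf : (mapRingHom (algebraMap R K)).IsIntegralElem f) :
    ∃ g : R[X], g.map (algebraMap R K) = f := by
  classical
  obtain ⟨P, hP, hPf⟩ := hf
  set φ : R[X] →+* K[X] := mapRingHom (algebraMap R K) with hφ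
  -- a large exponent
  set r : ℕ := f.natDegree + 1 + ∑ i ∈ Finset.range (P.natDegree + 1), ((P.coeff i).natDegree + 1)
    with hr
  have hrf : f.natDegree < r := by omega
  have hrP : ∀ i ≤ P.natDegree, (P.coeff i).natDegree < r := by
    intro i hi
    have := Finset.single_le_sum (f := fun i => (P.coeff i).natDegree + 1)
      (fun _ _ => Nat.zero_le _) (Finset.mem_range.mpr (show i < P.natDegree + 1 by omega))
    omega
  -- `q₀ := P(X^r)` is monic
  have hq0 : (P.eval (X ^ r)).Monic := by
    rw [eval_eq_sum_range, Finset.sum_range_succ, hP.coeff_natDegree, one_mul, ← pow_mul,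
      add_comm]
    refine monic_X_pow_add ?_
    rw [← mem_degreeLT]
    refine Submodule.sum_mem _ fun i hi => ?_
    rw [mem_degreeLT]
    have hi' : i < P.natDegree := Finset.mem_range.mp hi
    refine lt_of_le_of_lt degree_le_natDegree ?_
    rw [Nat.cast_lt]
    calc (P.coeff i * (X ^ r) ^ i).natDegree
        ≤ (P.coeff i).natDegree + ((X : R[X]) ^ (r * i)).natDegree := by
          rw [← pow_mul]; exact natDegree_mul_le
      _ ≤ (P.coeff i).natDegree + r * i := Nat.add_le_add_left (natDegree_X_pow_le _) _
      _ < r + r * i := Nat.add_lt_add_right (hrP i hi'.le) _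
      _ = r * (i + 1) := by ring
      _ ≤ r * P.natDegree := Nat.mul_le_mul_left r hi'
  -- `g := X^r - f` is monic and divides the image of `q₀`
  have hg : (X ^ r - f).Monic :=
    monic_X_pow_sub (lt_of_le_of_lt degree_le_natDegree (by exact_mod_cast hrf))
  have hdvd : X ^ r - f ∣ (P.eval (X ^ r)).map (algebraMap R K) := by
    have h1 := sub_dvd_eval_sub (X ^ r) f (P.map φ)
    rw [eval_map, eval_map, hPf, sub_zero] at h1
    have h2 : P.eval₂ φ (X ^ r) = φ (P.eval (X ^ r)) := by
      rw [← eval₂_at_apply, hφ, coe_mapRingHom, Polynomial.map_pow, map_X]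
    rwa [h2, hφ, coe_mapRingHom] at h1
  obtain ⟨g', hg'⟩ := IsIntegrallyClosed.eq_map_mul_C_of_dvd K hq0 hdvd
  rw [hg.leadingCoeff, map_one, mul_one] at hg'
  refine ⟨X ^ r - g', ?_⟩
  rw [Polynomial.map_sub, Polynomial.map_pow, map_X, hg']
  ring

/-- The polynomial ring over an integrally closed domain is integrally closed. -/
theorem isIntegrallyClosed_polynomial [IsIntegrallyClosed R] : IsIntegrallyClosed R[X] := by
  letI : Algebra R[X] (FractionRing R)[X] := (mapRingHom (algebraMap R (FractionRing R))).toAlgebra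
  exact isIntegrallyClosed_of_closedIn (S := (FractionRing R)[X])
    (map_injective _ (IsFractionRing.injective R (FractionRing R)))
    (fun s hs => exists_map_eq_of_isIntegralElem s hs)

end PolyIntClosed

open IntermediateField Fermat.Agent.N4.Chart

section Bridge

variable {O F : Type*} [CommRing O] [Field F] [Algebra O F] (j : F)

/-- `O[X] → O[j]`. -/
noncomputable def toAdjoin : O[X] →ₐ[O] Algebra.adjoin O {j} :=
  (aeval j : O[X] →ₐ[O] F).codRestrict (Algebra.adjoin O {j})
    fun _ => aeval_mem_adjoin_singleton O j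

@[simp] theorem coe_toAdjoin (p : O[X]) : ((toAdjoin j p : Algebra.adjoin O {j}) : F) = aeval j p :=
  rfl

theorem toAdjoin_surjective : Function.Surjective (toAdjoin (O := O) j) := by
  rintro ⟨y, hy⟩
  rw [Algebra.adjoin_singleton_eq_range_aeval] at hy
  obtain ⟨p, hp⟩ := hy
  exact ⟨p, Subtype.ext hp⟩

/-- Membership in the chart `chartAlg O F {j}` = integrality over `O[X]` along `X ↦ j`. -/
theorem mem_chartAlg_singleton_iff {x : F} :
    x ∈ chartAlg O F {j} ↔ ((aeval j : O[X] →ₐ[O] F) : O[X] →+* F).IsIntegralElem x := by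
  have hcomp : (algebraMap (Algebra.adjoin O {j}) F).comp (toAdjoin (O := O) j : O[X] →+* _) =
      ((aeval j : O[X] →ₐ[O] F) : O[X] →+* F) := by
    ext <;> rfl
  constructor
  · rintro ⟨p, hp, hpx⟩
    have hl : p ∈ Polynomial.lifts (toAdjoin (O := O) j : O[X] →+* _) :=
      (Polynomial.lifts_iff_coeff_lifts p).mpr fun i => toAdjoin_surjective j _
    obtain ⟨q, hq, -, hqm⟩ := Polynomial.lifts_and_natDegree_eq_and_monic hl hp
    refine ⟨q, hqm, ?_⟩
    rw [← hcomp, ← eval₂_map, hq]
    exact hpx
  · rintro ⟨q, hqm, hqx⟩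
    refine ⟨q.map (toAdjoin (O := O) j : O[X] →+* _), hqm.map _, ?_⟩
    rw [eval₂_map, hcomp]
    exact hqx

end Bridge

section Frac

variable {O K F : Type*} [CommRing O] [IsDomain O] [Field K] [Algebra O K] [IsFractionRing O K]
  [Field F] [Algebra K F] [Algebra O F] [IsScalarTower O K F] (j : F)

/-- The algebra structure `O[X] → F`, `X ↦ j`. -/
@[reducible] noncomputable def algPolyTop : Algebra O[X] F :=
  ((aeval j : O[X] →ₐ[O] F) : O[X] →+* F).toAlgebra

/-- The algebra structure `O[X] → K(j)`, `X ↦ j`. -/
@[reducible] noncomputable def algPolyMid : Algebra O[X] K⟮j⟯ :=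
  ((aeval (AdjoinSimple.gen K j) : O[X] →ₐ[O] K⟮j⟯) : O[X] →+* K⟮j⟯).toAlgebra

instance isScalarTower_mid : IsScalarTower O K⟮j⟯ F :=
  IsScalarTower.of_algebraMap_eq fun _ => rfl

theorem coe_aeval_gen (p : O[X]) :
    ((aeval (AdjoinSimple.gen K j) p : K⟮j⟯) : F) = aeval j p := by
  have := Polynomial.aeval_algebraMap_apply (R := O) (A := K⟮j⟯) F (AdjoinSimple.gen K j) p
  rw [AdjoinSimple.algebraMap_gen] at this
  exact this.symm

theorem isScalarTower_poly :
    letI := algPolyTop (O := O) j
    letI := algPolyMid (O := O) (K := K) j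
    IsScalarTower O[X] K⟮j⟯ F :=
  letI := algPolyTop (O := O) j
  letI := algPolyMid (O := O) (K := K) j
  IsScalarTower.of_algebraMap_eq fun p => (coe_aeval_gen j p).symm

theorem transcendental_base (hj : Transcendental K j) : Transcendental O j :=
  hj.restrictScalars (IsFractionRing.injective O K)

theorem aeval_injective (hj : Transcendental K j) :
    Function.Injective (aeval j : O[X] →ₐ[O] F) :=
  transcendental_iff_injective.mp (transcendental_base j hj)

theorem exists_clear_denominators (p : K[X]) :
    ∃ (b : O) (P : O[X]), b ≠ 0 ∧ aeval j P = algebraMap O F b * aeval j p := by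
  obtain ⟨b, hb, hP⟩ := IsLocalization.integerNormalization_spec (nonZeroDivisors O) p
  refine ⟨b, IsLocalization.integerNormalization (nonZeroDivisors O) p,
    nonZeroDivisors.ne_zero hb, ?_⟩
  rw [← aeval_map_algebraMap K, hP, ← algebraMap_smul K b p, map_smul, algebraMap_smul,
    Algebra.smul_def]

theorem isFractionRing_poly (hj : Transcendental K j) :
    letI := algPolyMid (O := O) (K := K) j
    IsFractionRing O[X] K⟮j⟯ := by
  letI := algPolyMid (O := O) (K := K) j
  have hinj : Function.Injective (algebraMap O[X] K⟮j⟯) := by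
    intro p q hpq
    apply aeval_injective j hj
    have := congrArg (fun z : K⟮j⟯ => (z : F)) hpq
    simpa only [RingHom.algebraMap_toAlgebra, RingHom.coe_coe, coe_aeval_gen] using this
  haveI : FaithfulSMul O[X] K⟮j⟯ := (faithfulSMul_iff_algebraMap_injective _ _).mpr hinj
  refine IsFractionRing.of_field _ _ fun z => ?_
  obtain ⟨r, s, hz⟩ := (mem_adjoin_simple_iff K (z : F)).mp z.2
  obtain ⟨b, R, hb, hR⟩ := exists_clear_denominators (O := O) j r
  obtain ⟨c, S, hc, hS⟩ := exists_clear_denominators (O := O) j s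
  refine ⟨C c * R, C b * S, Subtype.ext ?_⟩
  have hb' : algebraMap O F b ≠ 0 := by
    rw [IsScalarTower.algebraMap_apply O K F]
    exact (_root_.map_ne_zero _).mpr ((map_ne_zero_iff _ (IsFractionRing.injective O K)).mpr hb)
  have hc' : algebraMap O F c ≠ 0 := by
    rw [IsScalarTower.algebraMap_apply O K F]
    exact (_root_.map_ne_zero _).mpr ((map_ne_zero_iff _ (IsFractionRing.injective O K)).mpr hc)
  rw [hz]
  simp only [RingHom.algebraMap_toAlgebra, RingHom.coe_coe, map_mul, aeval_C]
  push_cast
  rw [coe_aeval_gen, coe_aeval_gen, hR, hS]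
  have e1 : ((algebraMap O K⟮j⟯ c : K⟮j⟯) : F) = algebraMap O F c := rfl
  have e2 : ((algebraMap O K⟮j⟯ b : K⟮j⟯) : F) = algebraMap O F b := rfl
  rw [e1, e2]
  field_simp

end Frac

section Finite

variable {O K F : Type*} [CommRing O] [IsDomain O] [Field K] [Algebra O K] [IsFractionRing O K]
  [Field F] [Algebra K F] [Algebra O F] [IsScalarTower O K F] (j : F)

theorem finite_integralClosure_poly [IsIntegrallyClosed O] [IsNoetherianRing O] [CharZero K]
    (hj : Transcendental K j) [FiniteDimensional K⟮j⟯ F] :
    letI := algPolyTop (O := O) j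
    Module.Finite O[X] (integralClosure O[X] F) ∧ IsNoetherianRing (integralClosure O[X] F) := by
  letI := algPolyTop (O := O) j
  letI := algPolyMid (O := O) (K := K) j
  haveI := isScalarTower_poly (O := O) (K := K) j
  haveI := isFractionRing_poly (O := O) j hj
  haveI : IsIntegrallyClosed O[X] := isIntegrallyClosed_polynomial
  haveI : CharZero K⟮j⟯ := charZero_of_injective_algebraMap (algebraMap K K⟮j⟯).injective
  haveI : Algebra.IsSeparable K⟮j⟯ F := inferInstance
  exact ⟨IsIntegralClosure.finite O[X] K⟮j⟯ F (integralClosure O[X] F),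
    IsIntegralClosure.isNoetherianRing O[X] K⟮j⟯ F (integralClosure O[X] F)⟩

/-- **(c1), finiteness.**  The chart `chartAlg O F {j}` (integral closure of `O[j]` in `F`) is generated
as an `O[j]`-module by a finite set `s`: instance-free form. -/
theorem exists_finset_span_chartAlg [IsIntegrallyClosed O] [IsNoetherianRing O] [CharZero K]
    (hj : Transcendental K j) [FiniteDimensional K⟮j⟯ F] :
    ∃ s : Finset F, (∀ e ∈ s, e ∈ chartAlg O F {j}) ∧
      ∀ x ∈ chartAlg O F {j}, ∃ c : F → F, (∀ e, c e ∈ Algebra.adjoin O {j}) ∧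
        x = ∑ e ∈ s, c e * e := by
  classical
  letI := algPolyTop (O := O) j
  obtain ⟨hfin, -⟩ := finite_integralClosure_poly (O := O) (K := K) j hj
  obtain ⟨S, hS⟩ := hfin.fg_top
  refine ⟨S.image (fun e : integralClosure O[X] F => (e : F)), ?_, ?_⟩
  · intro e he
    obtain ⟨e', -, rfl⟩ := Finset.mem_image.mp he
    exact (mem_chartAlg_singleton_iff j).mpr e'.2
  · intro x hx
    have hx' : (⟨x, (mem_chartAlg_singleton_iff j).mp hx⟩ : integralClosure O[X] F) ∈
        Submodule.span O[X] (S : Set (integralClosure O[X] F)) := by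
      rw [hS]; trivial
    obtain ⟨f, -, hf⟩ := Submodule.mem_span_finset.mp hx'
    refine ⟨fun e => if h : e ∈ integralClosure O[X] F then aeval j (f ⟨e, h⟩) else 0, ?_, ?_⟩
    · intro e
      dsimp only
      split_ifs
      · exact aeval_mem_adjoin_singleton O j
      · exact zero_mem _
    · rw [Finset.sum_image fun a _ b _ hab => Subtype.ext hab]
      have := congrArg (fun z : integralClosure O[X] F => (z : F)) hf
      simp only [AddSubmonoidClass.coe_finsetSum] at this
      rw [← this]
      refine Finset.sum_congr rfl fun a _ => ?_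
      dsimp only
      rw [dif_pos a.2]
      rfl

/-- **(c1), noetherianity.**  The chart `chartAlg O F {j}` is a noetherian ring. -/
theorem isNoetherianRing_chartAlg [IsIntegrallyClosed O] [IsNoetherianRing O] [CharZero K]
    (hj : Transcendental K j) [FiniteDimensional K⟮j⟯ F] :
    IsNoetherianRing (chartAlg O F {j}) := by
  letI := algPolyTop (O := O) j
  obtain ⟨-, hnoeth⟩ := finite_integralClosure_poly (O := O) (K := K) j hj
  let e : integralClosure O[X] F →+* chartAlg O F {j} :=
    RingHom.codRestrict ((integralClosure O[X] F).val : integralClosure O[X] F →+* F)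
      (chartAlg O F {j}) fun x => (mem_chartAlg_singleton_iff j).mpr x.2
  refine isNoetherianRing_of_surjective _ _ e fun y => ?_
  exact ⟨⟨y, (mem_chartAlg_singleton_iff j).mp y.2⟩, Subtype.ext rfl⟩

end Finite


section HZeroField

variable {K F : Type*} [Field K] [Field F] [Algebra K F]

/-- If `x` is integral over `K[t]` (`t` transcendental), the coefficients of its minimal polynomial
over `K(t)` lie in `K[t]`. -/
theorem coeff_minpoly_mem_range_aeval (t : F) (ht : Transcendental K t)
    (L : IntermediateField K F) (hL : L = K⟮t⟯) {x : F}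
    (hx : ((aeval t : K[X] →ₐ[K] F) : K[X] →+* F).IsIntegralElem x) :
    IsIntegral L x ∧ ∀ i : ℕ, ∃ p : K[X], algebraMap L F ((minpoly L x).coeff i) = aeval t p := by
  subst hL
  letI := algPolyTop (O := K) t
  letI := algPolyMid (O := K) (K := K) t
  haveI := isScalarTower_poly (O := K) (K := K) t
  haveI := isFractionRing_poly (O := K) (K := K) t ht
  have hx' : IsIntegral K[X] x := hx
  refine ⟨hx'.tower_top, fun i => ⟨(minpoly K[X] x).coeff i, ?_⟩⟩
  rw [minpoly.isIntegrallyClosed_eq_field_fractions' K⟮t⟯ hx', coeff_map]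
  exact coe_aeval_gen t _

theorem exists_const_of_aeval_eq_aeval_inv (j : F) (hj : Transcendental K j) (p r : K[X])
    (h : aeval j p = aeval j⁻¹ r) : ∃ c : K, aeval j p = algebraMap K F c := by
  have hj0 : j ≠ 0 := fun h0 => hj (h0 ▸ isAlgebraic_zero)
  letI : Invertible j⁻¹ := invertibleOfNonzero (inv_ne_zero hj0)
  set m := r.natDegree with hm
  have h1 : aeval j⁻¹ r * j ^ m = aeval j (reflect m r) := by
    have h2 := eval₂_reflect_mul_pow (algebraMap K F) j⁻¹ m r le_rfl
    rw [invOf_eq_inv, inv_inv] at h2
    rw [aeval_def, ← h2, mul_assoc, inv_pow, inv_mul_cancel₀ (pow_ne_zero m hj0), mul_one,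
      aeval_def]
  have h3 : p * X ^ m = reflect m r := by
    apply transcendental_iff_injective.mp hj
    rw [map_mul, map_pow, aeval_X, h, h1]
  by_cases hp : p = 0
  · exact ⟨0, by rw [hp, map_zero, map_zero]⟩
  · have h4 : (p * X ^ m).natDegree ≤ m := by
      rw [h3]
      exact natDegree_reflect_le.trans (by simp [hm])
    rw [natDegree_mul_X_pow m hp] at h4
    have h5 : p.natDegree = 0 := by omega
    refine ⟨p.coeff 0, ?_⟩
    conv_lhs => rw [eq_C_of_natDegree_eq_zero h5]
    rw [aeval_C]

end HZeroField

section HZero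

variable {O K F : Type*} [CommRing O] [IsDomain O] [Field K] [Algebra O K] [IsFractionRing O K]
  [Field F] [Algebra K F] [Algebra O F] [IsScalarTower O K F]

theorem aeval_comp_mapRingHom (t : F) :
    ((aeval t : K[X] →ₐ[K] F) : K[X] →+* F).comp (mapRingHom (algebraMap O K)) =
      ((aeval t : O[X] →ₐ[O] F) : O[X] →+* F) := by
  ext a
  · simp [← IsScalarTower.algebraMap_apply]
  · simp

/-- Integrality over `O[t]` implies integrality over `K[t]`. -/
theorem isIntegralElem_field_of_mem_chartAlg (t : F) {x : F} (hx : x ∈ chartAlg O F {t}) :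
    ((aeval t : K[X] →ₐ[K] F) : K[X] →+* F).IsIntegralElem x := by
  obtain ⟨P, hP, hPx⟩ := (mem_chartAlg_singleton_iff t).mp hx
  refine ⟨P.map (mapRingHom (algebraMap O K)), hP.map _, ?_⟩
  rw [eval₂_map, aeval_comp_mapRingHom]
  exact hPx

/-- An element of `K` which is integral over `O[j]` (`j` transcendental) is integral over `O`. -/
theorem isIntegral_of_algebraMap_mem_chartAlg (j : F) (hj : Transcendental K j) {y : K}
    (hy : algebraMap K F y ∈ chartAlg O F {j}) : IsIntegral O y := by
  obtain ⟨P, hP, hPx⟩ := (mem_chartAlg_singleton_iff j).mp hy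
  set φ : O[X] →+* K[X] := mapRingHom (algebraMap O K) with hφ
  have h1 : P.eval₂ φ (C y) = 0 := by
    apply transcendental_iff_injective.mp hj
    rw [map_zero]
    have := hom_eval₂ P φ ((aeval j : K[X] →ₐ[K] F) : K[X] →+* F) (C y)
    rw [RingHom.coe_coe] at this
    rw [this, aeval_comp_mapRingHom, aeval_C]
    exact hPx
  have h2 := congrArg (evalRingHom (0 : K)) h1
  rw [hom_eval₂, map_zero, coe_evalRingHom, eval_C] at h2
  have h3 : (evalRingHom (0 : K)).comp φ = (algebraMap O K).comp (evalRingHom (0 : O)) := by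
    ext a
    · simp [hφ]
    · simp [hφ]
  rw [h3, ← eval₂_map] at h2
  exact ⟨P.map (evalRingHom (0 : O)), hP.map _, h2⟩

/-- **(c2), `H⁰`.**  If `O` is integrally closed, `j` is transcendental over `K = Frac O` and `K` is
algebraically closed in `F`, then the two charts `j ≠ ∞`, `j ≠ 0` of the `j`-line meet in the constants
`O`. -/
theorem mem_range_of_mem_chartAlg_of_mem_chartAlg_inv [IsIntegrallyClosed O] (j : F)
    (hj : Transcendental K j) (halg : ∀ x : F, IsAlgebraic K x → x ∈ (algebraMap K F).range)
    {x : F} (hp : x ∈ chartAlg O F {j}) (hm : x ∈ chartAlg O F {j⁻¹}) :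
    x ∈ (algebraMap O F).range := by
  have hj0 : j ≠ 0 := fun h0 => hj (h0 ▸ isAlgebraic_zero)
  have hjinv : Transcendental K j⁻¹ := fun h => hj (by simpa using h.inv)
  have hL : K⟮j⟯ = K⟮j⁻¹⟯ := by
    apply le_antisymm
    · rw [adjoin_simple_le_iff]
      simpa using inv_mem (mem_adjoin_simple_self K j⁻¹)
    · rw [adjoin_simple_le_iff]
      exact inv_mem (mem_adjoin_simple_self K j)
  obtain ⟨hint, hcp⟩ := coeff_minpoly_mem_range_aeval j hj K⟮j⟯ rfl
    (isIntegralElem_field_of_mem_chartAlg (O := O) j hp)
  obtain ⟨-, hcm⟩ := coeff_minpoly_mem_range_aeval j⁻¹ hjinv K⟮j⟯ hL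
    (isIntegralElem_field_of_mem_chartAlg (O := O) j⁻¹ hm)
  -- all coefficients of the minimal polynomial are constants
  have hconst : ∀ i, algebraMap K⟮j⟯ F ((minpoly K⟮j⟯ x).coeff i) ∈ (algebraMap K F).range := by
    intro i
    obtain ⟨p, hp'⟩ := hcp i
    obtain ⟨r, hr'⟩ := hcm i
    obtain ⟨c, hc⟩ := exists_const_of_aeval_eq_aeval_inv j hj p r (hp'.symm.trans hr')
    exact ⟨c, by rw [hp', hc]⟩
  -- hence `x` is algebraic over `K`
  have hl : (minpoly K⟮j⟯ x).map (algebraMap K⟮j⟯ F) ∈ Polynomial.lifts (algebraMap K F) := by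
    rw [Polynomial.lifts_iff_coeff_lifts]
    intro i
    rw [coeff_map]
    exact hconst i
  obtain ⟨q, hq, -, hqm⟩ := Polynomial.lifts_and_natDegree_eq_and_monic hl
    ((minpoly.monic hint).map _)
  have hxK : IsIntegral K x := by
    refine ⟨q, hqm, ?_⟩
    rw [← eval_map, hq, eval_map, ← aeval_def, minpoly.aeval]
  obtain ⟨y, rfl⟩ := halg x hxK.isAlgebraic
  obtain ⟨z, rfl⟩ := IsIntegrallyClosed.isIntegral_iff.mp
    (isIntegral_of_algebraMap_mem_chartAlg (O := O) j hj hp)
  exact ⟨z, by rw [← IsScalarTower.algebraMap_apply]⟩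

end HZero


end Fermat.Agent.N4.IntClosure
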