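/-
N4 / L1 (helper12), part 5: the universal root form of the modular polynomial and its
primitive discriminant.

* `HasRootForm N R u` : over `R((t))`, `Φ_N(j(t^N), X) = ∏_c (X - j(u^{k_c} t^{e_c}))` with
  `e_c = cA c ^ 2`, `k_c = cA c * cB c`.
* `hasRootForm_of_cyclotomic` : this holds in every commutative ring `R` for every unit `u` which
  is a root of the `N`-th cyclotomic polynomial (universal case `ℤ[ζ_N] = AdjoinRoot (cyclotomic N ℤ)`,
  which embeds into `ℂ`).
* `coset_data_injective` : `c ↦ (cA c, cA c * cB c mod N)` is injective.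
-/
import Mathlib
import Fermat.Agent.N4.ModPolyDescent

set_option autoImplicit false

namespace Fermat.Agent.N4.PrimitiveDisc

open UpperHalfPlane ModularForm MatrixGroups Filter Function Complex CongruenceSubgroup Polynomial
open Fermat.Agent.M2 ModularCurve
open Fermat.Agent.N4.TwistSeries Fermat.Agent.N4.QExpTranslate Fermat.Agent.N4.HeckeRoots
open Fermat.Agent.N4.ModPolyDescent
open scoped Fermat.Agent.N4.HeckeRoots

variable (N : ℕ) [NeZero N]

/-! ### The universal root form -/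

section RootForm

/-- Instance-free evaluation `ℤ[Y] → R((t))`, `Y ↦ j(t^N)`. -/
noncomputable def evJ (R : Type*) [CommRing R] : ℤ[X] →+* LaurentSeries R :=
  eval₂RingHom (Int.castRingHom (LaurentSeries R)) (qExpand R N (jqModC R))

@[simp] theorem evJ_X (R : Type*) [CommRing R] : evJ N R X = qExpand R N (jqModC R) := by
  rw [evJ, coe_eval₂RingHom, eval₂_X]

theorem evJ_eq_aeval (R : Type*) [CommRing R] [Algebra ℤ (LaurentSeries R)] :
    evJ N R = ((aeval (qExpand R N (jqModC R))).toRingHom : ℤ[X] →+* LaurentSeries R) := by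
  refine Polynomial.ringHom_ext' (RingHom.ext_int _ _) ?_
  rw [evJ_X]
  simp only [AlgHom.toRingHom_eq_coe, RingHom.coe_coe, aeval_X]

theorem coeffMap_comp_evJ {R R' : Type*} [CommRing R] [CommRing R'] (σ : R →+* R') :
    (coeffMap σ).comp (evJ N R) = evJ N R' := by
  refine Polynomial.ringHom_ext' (RingHom.ext_int _ _) ?_
  rw [RingHom.comp_apply, evJ_X, evJ_X, coeffMap_qExpand, coeffMap_jqModC]

theorem evJ_complex :
    evJ N ℂ = ((aeval (qExpand ℂ N (jqModC ℂ))).toRingHom : ℂ[X] →+* LaurentSeries ℂ).comp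
      (mapRingHom (Int.castRingHom ℂ)) := by
  refine Polynomial.ringHom_ext' (RingHom.ext_int _ _) ?_
  rw [evJ_X]
  simp only [RingHom.comp_apply, coe_mapRingHom, map_X, AlgHom.toRingHom_eq_coe, RingHom.coe_coe,
    aeval_X]

/-- The exponent `e_c = cA c ^ 2` of the Puiseux root attached to the coset `c`. -/
noncomputable def cE (c : SL(2, ℤ) ⧸ Gamma0 N) : ℕ := cA N c ^ 2

instance neZero_cE (c : SL(2, ℤ) ⧸ Gamma0 N) : NeZero (cE N c) := neZero_cA_sq N c

/-- The exponent `k_c = cA c * cB c` of the root of unity attached to the coset `c`. -/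
noncomputable def cK (c : SL(2, ℤ) ⧸ Gamma0 N) : ℤ := (cA N c : ℤ) * cB N c

/-- The Puiseux root `j(u^{k_c} t^{e_c})` over a ring `R` with a unit `u`. -/
noncomputable def rootOf {R : Type*} [CommRing R] (u : Rˣ) (c : SL(2, ℤ) ⧸ Gamma0 N) :
    LaurentSeries R :=
  rootSeries (u ^ cK N c) (cE N c)

theorem coeffMap_rootOf {R R' : Type*} [CommRing R] [CommRing R'] (σ : R →+* R') (u : Rˣ)
    (c : SL(2, ℤ) ⧸ Gamma0 N) :
    coeffMap σ (rootOf N u c) = rootOf N (Units.map σ.toMonoidHom u) c := by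
  rw [rootOf, rootOf, coeffMap_rootSeries, map_zpow]

theorem rootOf_zetaC (c : SL(2, ℤ) ⧸ Gamma0 N) : rootOf N (zetaC N) c = cosetRoot N c :=
  (cosetRoot_eq_rootSeries_zetaC N c).symm

/-- `∏_c (X - j(u^{k_c} t^{e_c}))`. -/
noncomputable def rootProd (R : Type*) [CommRing R] (u : Rˣ) : (LaurentSeries R)[X] :=
  ∏ c : SL(2, ℤ) ⧸ Gamma0 N, (X - C (rootOf N u c))

theorem map_rootProd {R R' : Type*} [CommRing R] [CommRing R'] (σ : R →+* R') (u : Rˣ) :
    (rootProd N R u).map (coeffMap σ) = rootProd N R' (Units.map σ.toMonoidHom u) := by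
  rw [rootProd, rootProd, Polynomial.map_prod]
  refine Finset.prod_congr rfl fun c _ => ?_
  rw [Polynomial.map_sub, Polynomial.map_X, Polynomial.map_C, coeffMap_rootOf]

/-- **Root form** of the modular polynomial over `R((t))` with respect to the unit `u`. -/
def HasRootForm (R : Type*) [CommRing R] (u : Rˣ) : Prop :=
  (modPoly N).map (evJ N R) = rootProd N R u

theorem HasRootForm.map {R R' : Type*} [CommRing R] [CommRing R'] {u : Rˣ}
    (h : HasRootForm N R u) (σ : R →+* R') : HasRootForm N R' (Units.map σ.toMonoidHom u) := by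
  have := congrArg (Polynomial.map (coeffMap σ)) h
  rwa [Polynomial.map_map, coeffMap_comp_evJ, map_rootProd] at this

theorem HasRootForm.of_injective {R R' : Type*} [CommRing R] [CommRing R'] {u : Rˣ}
    (σ : R →+* R') (hσ : Function.Injective σ)
    (h : HasRootForm N R' (Units.map σ.toMonoidHom u)) : HasRootForm N R u := by
  apply Polynomial.map_injective (coeffMap σ) (coeffMap_injective σ hσ)
  rw [Polynomial.map_map, coeffMap_comp_evJ, map_rootProd]
  exact h

theorem hasRootForm_complex : HasRootForm N ℂ (zetaC N) := by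
  rw [HasRootForm, evJ_complex, ← Polynomial.map_map, modPoly_map_eq_prod, rootProd]
  refine Finset.prod_congr rfl fun c _ => ?_
  rw [rootOf_zetaC]

/-- `ℤ[ζ_N]`, as a quotient of `ℤ[X]`. -/
abbrev CycloRing : Type := AdjoinRoot (cyclotomic N ℤ)

theorem root_pow_eq_one : (AdjoinRoot.root (cyclotomic N ℤ)) ^ N = 1 := by
  have h : AdjoinRoot.mk (cyclotomic N ℤ) (X ^ N - 1) = 0 :=
    AdjoinRoot.mk_eq_zero.mpr (cyclotomic.dvd_X_pow_sub_one N ℤ)
  rw [map_sub, map_pow, AdjoinRoot.mk_X, map_one, sub_eq_zero] at h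
  exact h

/-- `ζ_N ∈ ℤ[ζ_N]ˣ`. -/
noncomputable def zetaO : (CycloRing N)ˣ :=
  Units.ofPowEqOne _ N (root_pow_eq_one N) (NeZero.ne N)

@[simp] theorem coe_zetaO : ((zetaO N : (CycloRing N)ˣ) : CycloRing N) =
    AdjoinRoot.root (cyclotomic N ℤ) := rfl

theorem eval₂_zetaC_cyclotomic :
    (cyclotomic N ℤ).eval₂ (Int.castRingHom ℂ) ((zetaC N : ℂˣ) : ℂ) = 0 := by
  rw [eval₂_eq_eval_map, map_cyclotomic_int]
  exact (isPrimitiveRoot_zetaC N).isRoot_cyclotomic (NeZero.pos N)

/-- The embedding `ℤ[ζ_N] → ℂ`. -/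
noncomputable def toC : CycloRing N →+* ℂ :=
  AdjoinRoot.lift (Int.castRingHom ℂ) ((zetaC N : ℂˣ) : ℂ) (eval₂_zetaC_cyclotomic N)

theorem toC_injective : Function.Injective (toC N) := by
  rw [injective_iff_map_eq_zero]
  intro x hx
  induction x using AdjoinRoot.induction_on with
  | ih p =>
    rw [toC, AdjoinRoot.lift_mk] at hx
    rw [AdjoinRoot.mk_eq_zero, cyclotomic_eq_minpoly (isPrimitiveRoot_zetaC N) (NeZero.pos N)]
    apply minpoly.isIntegrallyClosed_dvd ((isPrimitiveRoot_zetaC N).isIntegral (NeZero.pos N))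
    rw [aeval_def]
    exact hx

theorem map_toC_zetaO : Units.map (toC N).toMonoidHom (zetaO N) = zetaC N := by
  apply Units.ext
  show toC N (AdjoinRoot.root (cyclotomic N ℤ)) = _
  rw [toC, AdjoinRoot.lift_root]

theorem hasRootForm_cycloRing : HasRootForm N (CycloRing N) (zetaO N) := by
  apply HasRootForm.of_injective N (toC N) (toC_injective N)
  rw [map_toC_zetaO]
  exact hasRootForm_complex N

/-- **Universal root form**: over any commutative ring `R` with a unit `u` which is a root of the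
`N`-th cyclotomic polynomial, `Φ_N(j(t^N), X) = ∏_c (X - j(u^{k_c} t^{e_c}))` in `R((t))[X]`. -/
theorem hasRootForm_of_cyclotomic (R : Type*) [CommRing R] (u : Rˣ)
    (hu : (cyclotomic N ℤ).eval₂ (Int.castRingHom R) (u : R) = 0) : HasRootForm N R u := by
  have h := (hasRootForm_cycloRing N).map N (AdjoinRoot.lift (Int.castRingHom R) (u : R) hu)
  have e : Units.map (AdjoinRoot.lift (Int.castRingHom R) (u : R) hu).toMonoidHom (zetaO N) = u := by
    apply Units.ext
    show AdjoinRoot.lift (Int.castRingHom R) (u : R) hu (AdjoinRoot.root (cyclotomic N ℤ)) = _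
    rw [AdjoinRoot.lift_root]
  rwa [e] at h

/-- Root form over a domain with a primitive `N`-th root of unity. -/
theorem hasRootForm_of_isPrimitiveRoot (R : Type*) [CommRing R] [IsDomain R] (u : Rˣ)
    (hu : IsPrimitiveRoot (u : R) N) : HasRootForm N R u := by
  apply hasRootForm_of_cyclotomic
  rw [eval₂_eq_eval_map, map_cyclotomic_int]
  exact hu.isRoot_cyclotomic (NeZero.pos N)

end RootForm

/-! ### Injectivity of the coset data -/

theorem zetaC_zpow_eq_of_modEq {k k' : ℤ} (h : k ≡ k' [ZMOD N]) :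
    zetaC N ^ k = zetaC N ^ k' := by
  obtain ⟨m, hm⟩ := (Int.modEq_iff_dvd.mp h.symm)
  have : k = k' + N * m := by linarith
  rw [this, zpow_add, zpow_mul, zpow_natCast, zetaC_pow_self, one_zpow, mul_one]

/-- **The pairs `(cA c, cA c * cB c mod N)` determine the coset.** -/
theorem coset_data_injective (c c' : SL(2, ℤ) ⧸ Gamma0 N) (hA : cA N c = cA N c')
    (hK : cK N c ≡ cK N c' [ZMOD N]) : c = c' := by
  apply cosetRoot_injective N
  rw [← rootOf_zetaC, ← rootOf_zetaC, rootOf, rootOf, zetaC_zpow_eq_of_modEq N hK]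
  congr 1
  rw [cE, cE, hA]

/-! ### Differences of roots -/

section Differences

/-- The canonical map `ℤ[ζ_N] → R`, `ζ_N ↦ u`. -/
noncomputable def liftO {R : Type*} [CommRing R] (u : Rˣ)
    (hu : (cyclotomic N ℤ).eval₂ (Int.castRingHom R) (u : R) = 0) : CycloRing N →+* R :=
  AdjoinRoot.lift (Int.castRingHom R) (u : R) hu

theorem map_liftO_zetaO {R : Type*} [CommRing R] (u : Rˣ)
    (hu : (cyclotomic N ℤ).eval₂ (Int.castRingHom R) (u : R) = 0) :
    Units.map (liftO N u hu).toMonoidHom (zetaO N) = u := by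
  apply Units.ext
  show AdjoinRoot.lift (Int.castRingHom R) (u : R) hu (AdjoinRoot.root (cyclotomic N ℤ)) = _
  rw [AdjoinRoot.lift_root]

theorem isPrimitiveRoot_zetaC_units : IsPrimitiveRoot (zetaC N) N :=
  IsPrimitiveRoot.coe_units_iff.mp (isPrimitiveRoot_zetaC N)

/-- In `ℤ[ζ_N]`: `1 - ζ^m` divides `N` when `N ∤ m`. -/
theorem exists_mul_eq_N_cycloRing (m : ℤ) (hm : ¬ (N : ℤ) ∣ m) :
    ∃ μ : CycloRing N,
      (1 - ((zetaO N ^ m : (CycloRing N)ˣ) : CycloRing N)) * μ = (N : CycloRing N) := by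
  set y : CycloRing N := ((zetaO N ^ m : (CycloRing N)ˣ) : CycloRing N) with hy
  have hyC : toC N y = ((zetaC N ^ m : ℂˣ) : ℂ) := by
    rw [hy, ← map_toC_zetaO, ← map_zpow]
    rfl
  have hne : ((zetaC N ^ m : ℂˣ) : ℂ) ≠ 1 := by
    intro h
    have h' : zetaC N ^ m = 1 := Units.ext h
    exact hm (((isPrimitiveRoot_zetaC_units N).zpow_eq_one_iff_dvd m).mp h')
  have hpow : ((zetaC N ^ m : ℂˣ) : ℂ) ^ N = 1 := by
    rw [← Units.val_pow_eq_pow_val, ← zpow_natCast, ← zpow_mul, mul_comm, zpow_mul, zpow_natCast,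
      zetaC_pow_self, one_zpow, Units.val_one]
  have hsum : ∑ i ∈ Finset.range N, y ^ i = 0 := by
    apply toC_injective N
    rw [map_zero, map_sum]
    simp_rw [map_pow, hyC]
    have := geom_sum_mul (((zetaC N ^ m : ℂˣ) : ℂ)) N
    rw [hpow, sub_self] at this
    exact (mul_eq_zero.mp this).resolve_right (sub_ne_zero.mpr hne)
  refine ⟨∑ i ∈ Finset.range N, ∑ j ∈ Finset.range i, y ^ j, ?_⟩
  rw [Finset.mul_sum]
  simp_rw [mul_neg_geom_sum]
  rw [Finset.sum_sub_distrib, hsum, sub_zero, Finset.sum_const, Finset.card_range, nsmul_eq_mul,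
    mul_one]

/-- In any ring with a unit root `u` of the `N`-th cyclotomic polynomial: `1 - u^m` divides `N`
when `N ∤ m`. -/
theorem exists_mul_eq_N {R : Type*} [CommRing R] (u : Rˣ)
    (hu : (cyclotomic N ℤ).eval₂ (Int.castRingHom R) (u : R) = 0) (m : ℤ) (hm : ¬ (N : ℤ) ∣ m) :
    ∃ μ : R, (1 - ((u ^ m : Rˣ) : R)) * μ = (N : R) := by
  obtain ⟨μ, hμ⟩ := exists_mul_eq_N_cycloRing N m hm
  refine ⟨liftO N u hu μ, ?_⟩
  have h := congrArg (liftO N u hu) hμ
  rw [map_mul, map_sub, map_one, map_natCast] at h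
  rw [← h]
  congr 3
  have e := map_liftO_zetaO N u hu
  have e2 : ((u ^ m : Rˣ) : R) =
      ((Units.map (liftO N u hu).toMonoidHom (zetaO N ^ m) : Rˣ) : R) := by
    rw [map_zpow, e]
  exact e2

/-- The leading term of the difference of two Puiseux roots. -/
theorem leadsWith_rootOf_sub {R : Type*} [CommRing R] (u : Rˣ) (c c' : SL(2, ℤ) ⧸ Gamma0 N) :
    ∃ (n : ℤ) (l : R), LeadsWith (rootOf N u c - rootOf N u c') n l ∧
      ((cA N c < cA N c' ∧ l = -((u ^ (-cK N c') : Rˣ) : R)) ∨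
        (cA N c' < cA N c ∧ l = ((u ^ (-cK N c) : Rˣ) : R)) ∨
        (cA N c = cA N c' ∧ l = ((u ^ (-cK N c) : Rˣ) : R) - ((u ^ (-cK N c') : Rˣ) : R))) := by
  obtain ⟨n, l, hl, hcases⟩ := leadsWith_rootSeries_sub (u ^ cK N c) (u ^ cK N c') (cE N c) (cE N c')
  refine ⟨n, l, hl, ?_⟩
  have hlt : ∀ a b : ℕ, a ^ 2 < b ^ 2 ↔ a < b := fun a b =>
    ⟨fun h => lt_of_pow_lt_pow_left₀ 2 (Nat.zero_le b) h, fun h => Nat.pow_lt_pow_left h two_ne_zero⟩
  rcases hcases with ⟨h1, h2⟩ | ⟨h1, h2⟩ | ⟨h1, h2⟩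
  · left
    exact ⟨(hlt _ _).mp h1, by rw [h2, zpow_neg]⟩
  · right; left
    exact ⟨(hlt _ _).mp h1, by rw [h2, zpow_neg]⟩
  · right; right
    refine ⟨?_, by rw [h2, zpow_neg, zpow_neg]⟩
    exact Nat.pow_left_injective (n := 2) two_ne_zero h1

/-- **The leading coefficient of the difference of two distinct Puiseux roots divides `N`.** -/
theorem leadsWith_rootOf_sub_dvd {R : Type*} [CommRing R] (u : Rˣ)
    (hu : (cyclotomic N ℤ).eval₂ (Int.castRingHom R) (u : R) = 0)
    {c c' : SL(2, ℤ) ⧸ Gamma0 N} (hcc : c ≠ c') :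
    ∃ (n : ℤ) (l μ : R), LeadsWith (rootOf N u c - rootOf N u c') n l ∧ l * μ = (N : R) := by
  obtain ⟨n, l, hl, hcases⟩ := leadsWith_rootOf_sub N u c c'
  rcases hcases with ⟨-, h2⟩ | ⟨-, h2⟩ | ⟨h1, h2⟩
  · refine ⟨n, l, -((u ^ (cK N c') : Rˣ) : R) * N, hl, ?_⟩
    rw [h2, ← mul_assoc, neg_mul_neg, ← Units.val_mul, ← zpow_add, neg_add_cancel, zpow_zero,
      Units.val_one, one_mul]
  · refine ⟨n, l, ((u ^ (cK N c) : Rˣ) : R) * N, hl, ?_⟩
    rw [h2, ← mul_assoc, ← Units.val_mul, ← zpow_add, neg_add_cancel, zpow_zero,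
      Units.val_one, one_mul]
  · have hK : ¬ (N : ℤ) ∣ (cK N c - cK N c') := by
      intro hdvd
      apply hcc
      apply coset_data_injective N c c' h1
      exact (Int.modEq_iff_dvd.mpr hdvd).symm
    obtain ⟨μ, hμ⟩ := exists_mul_eq_N N u hu _ hK
    refine ⟨n, l, ((u ^ (cK N c) : Rˣ) : R) * μ, hl, ?_⟩
    rw [h2, ← hμ]
    have e : ((u ^ (-cK N c') : Rˣ) : R) =
        ((u ^ (-cK N c) : Rˣ) : R) * ((u ^ (cK N c - cK N c') : Rˣ) : R) := by
      rw [← Units.val_mul, ← zpow_add]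
      congr 2
      ring
    rw [e]
    have e2 : ((u ^ (-cK N c) : Rˣ) : R) * ((u ^ (cK N c) : Rˣ) : R) = 1 := by
      rw [← Units.val_mul, ← zpow_add, neg_add_cancel, zpow_zero, Units.val_one]
    linear_combination (1 - ((u ^ (cK N c - cK N c') : Rˣ) : R)) * μ * e2

/-- If moreover `N` is invertible, the leading coefficient of the difference of two distinct
Puiseux roots is a unit. -/
theorem leadsWith_rootOf_sub_isUnit {R : Type*} [CommRing R] (u : Rˣ)
    (hu : (cyclotomic N ℤ).eval₂ (Int.castRingHom R) (u : R) = 0) (hN : IsUnit (N : R))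
    {c c' : SL(2, ℤ) ⧸ Gamma0 N} (hcc : c ≠ c') :
    ∃ (n : ℤ) (l : R), LeadsWith (rootOf N u c - rootOf N u c') n l ∧ IsUnit l := by
  obtain ⟨n, l, μ, hl, hμ⟩ := leadsWith_rootOf_sub_dvd N u hu hcc
  exact ⟨n, l, hl, isUnit_of_mul_isUnit_left (hμ ▸ hN)⟩

/-- **The Puiseux roots are pairwise distinct** as soon as `N` is invertible in `R ≠ 0`. -/
theorem rootOf_injective {R : Type*} [CommRing R] [Nontrivial R] (u : Rˣ)
    (hu : (cyclotomic N ℤ).eval₂ (Int.castRingHom R) (u : R) = 0) (hN : IsUnit (N : R)) :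
    Function.Injective (rootOf N u) := by
  intro c c' h
  by_contra hcc
  obtain ⟨n, l, hl, hunit⟩ := leadsWith_rootOf_sub_isUnit N u hu hN hcc
  rw [h, sub_self] at hl
  have : l = 0 := by rw [← hl.2]; rfl
  rw [this] at hunit
  exact not_isUnit_zero hunit

/-- Over a field in which `N ≠ 0`, containing a root `u` of the `N`-th cyclotomic polynomial,
`Φ_N(j(t^N), X)` is separable. -/
theorem separable_map_modPoly {k : Type*} [Field k] (u : kˣ)
    (hu : (cyclotomic N ℤ).eval₂ (Int.castRingHom k) (u : k) = 0) (hN : (N : k) ≠ 0) :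
    ((modPoly N).map (evJ N k)).Separable := by
  rw [hasRootForm_of_cyclotomic N k u hu, rootProd]
  exact (separable_prod_X_sub_C_iff).mpr (rootOf_injective N u hu (isUnit_iff_ne_zero.mpr hN))

end Differences

end Fermat.Agent.N4.PrimitiveDisc
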