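/-
N4-FULL / block B2 (helper12): the Kronecker congruence
`Φ_ℓ(Y, X) ≡ (X^ℓ - Y)(X - Y^ℓ) mod ℓ`.

It is a corollary of the universal root form (`PrimitiveDisc.hasRootForm_of_cyclotomic`) applied
to `R = 𝔽_ℓ` and the unit `u = 1` (which is a root of the `ℓ`-th cyclotomic polynomial mod `ℓ`):
in `𝔽_ℓ((t))[X]`, `Φ_ℓ(j(t^ℓ), X) = (X - j(t))^ℓ (X - j(t^{ℓ²}))`, and `f^ℓ = f(t^ℓ)`.
-/
import Mathlib
import Fermat.Agent.N4.PrimitiveDisc

set_option autoImplicit false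

namespace Fermat.Agent.N4.Kronecker

open Polynomial ModularCurve MatrixGroups CongruenceSubgroup
open Fermat.Agent.N4.TwistSeries Fermat.Agent.N4.HeckeRoots
open Fermat.Agent.N4.ModPolyDescent Fermat.Agent.N4.PrimitiveDisc
open scoped Fermat.Agent.N4.HeckeRoots

/-! ### Frobenius on Laurent series -/

section Frobenius

variable {R : Type*} [CommRing R]

theorem qExpand_ofPowerSeries (n : ℕ) [NeZero n] (g : PowerSeries R) :
    qExpand R n (HahnSeries.ofPowerSeries ℤ R g) =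
      HahnSeries.ofPowerSeries ℤ R (g.expand n (NeZero.ne n)) := by
  have hn : (0 : ℤ) < n := by exact_mod_cast NeZero.pos n
  ext k
  by_cases hk : (n : ℤ) ∣ k
  · obtain ⟨m, rfl⟩ := hk
    rw [qExpand_coeff_mul]
    rcases lt_or_ge m 0 with hm | hm
    · rw [ofPowerSeries_coeff_of_neg _ hm, ofPowerSeries_coeff_of_neg _ (by nlinarith)]
    · lift m to ℕ using hm
      rw [← Nat.cast_mul, HahnSeries.ofPowerSeries_apply_coeff,
        HahnSeries.ofPowerSeries_apply_coeff, PowerSeries.coeff_expand_mul]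
  · rw [qExpand_coeff_of_not_dvd n _ hk]
    rcases lt_or_ge k 0 with hk0 | hk0
    · rw [ofPowerSeries_coeff_of_neg _ hk0]
    · lift k to ℕ using hk0
      rw [HahnSeries.ofPowerSeries_apply_coeff, PowerSeries.coeff_expand_of_not_dvd]
      exact_mod_cast hk

/-- **Frobenius on Laurent series** in characteristic `p`: `f^p = f^{(p)}(t^p)`. -/
theorem pow_char_eq_qExpand (p : ℕ) [Fact p.Prime] [CharP R p] (f : LaurentSeries R) :
    f ^ p = qExpand R p (coeffMap (frobenius R p) f) := by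
  have hp : p ≠ 0 := (Fact.out : p.Prime).ne_zero
  have hf := LaurentSeries.single_order_mul_powerSeriesPart f
  set g := LaurentSeries.powerSeriesPart f with hg
  set n := f.order with hn
  have h1 : g ^ p = PowerSeries.expand p hp (PowerSeries.map (frobenius R p) g) := by
    rw [← PowerSeries.map_expand]
    exact (MvPowerSeries.map_frobenius_expand (σ := Unit) p hp (f := g)).symm
  have h2 : (HahnSeries.single n (1 : R)) ^ p = HahnSeries.single ((p : ℤ) * n) (1 : R) := by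
    rw [HahnSeries.single_pow, one_pow, nsmul_eq_mul]
  have h3 : coeffMap (frobenius R p) (HahnSeries.single n (1 : R)) = HahnSeries.single n 1 := by
    rw [coeffMap_single, map_one]
  rw [← hf, mul_pow, map_mul, map_mul, h2, h3, qExpand_single, coeffMap_ofPowerSeries,
    qExpand_ofPowerSeries, ← map_pow, h1]

theorem pow_char_eq_qExpand_zmod (p : ℕ) [Fact p.Prime] (f : LaurentSeries (ZMod p)) :
    f ^ p = qExpand (ZMod p) p f := by
  rw [pow_char_eq_qExpand p f, ZMod.frobenius_zmod, coeffMap_id]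

end Frobenius

/-! ### Cosets of `Γ₀(ℓ)` -/

section Cosets

variable (ℓ : ℕ) [Fact ℓ.Prime]

theorem dedekindPsi_prime : dedekindPsi ℓ = ℓ + 1 := by
  have hℓ : ℓ.Prime := Fact.out
  rw [dedekindPsi, hℓ.divisors, Finset.filter_true_of_mem, Finset.sum_pair hℓ.one_lt.ne,
    Nat.div_one, Nat.div_self hℓ.pos]
  intro d hd
  rcases Finset.mem_insert.mp hd with rfl | hd
  · exact squarefree_one
  · rw [Finset.mem_singleton] at hd
    subst hd
    exact hℓ.squarefree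

theorem cA_eq_one_or (c : SL(2, ℤ) ⧸ Gamma0 ℓ) : cA ℓ c = 1 ∨ cA ℓ c = ℓ :=
  (Nat.dvd_prime Fact.out).mp ⟨cD ℓ c, (cA_mul_cD ℓ c).symm⟩

theorem card_filter_cA_eq_self_le :
    (Finset.univ.filter fun c : SL(2, ℤ) ⧸ Gamma0 ℓ => cA ℓ c = ℓ).card ≤ 1 := by
  rw [Finset.card_le_one]
  intro c hc c' hc'
  rw [Finset.mem_filter] at hc hc'
  apply coset_data_injective ℓ c c' (hc.2.trans hc'.2.symm)
  rw [cK, cK, hc.2, hc'.2]
  exact (Int.modEq_zero_iff_dvd.mpr (dvd_mul_right _ _)).trans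
    (Int.modEq_zero_iff_dvd.mpr (dvd_mul_right _ _)).symm

theorem card_filter_cA_eq_one_le :
    (Finset.univ.filter fun c : SL(2, ℤ) ⧸ Gamma0 ℓ => cA ℓ c = 1).card ≤ ℓ := by
  have h := Finset.card_le_card_of_injOn (s := Finset.univ.filter
    fun c : SL(2, ℤ) ⧸ Gamma0 ℓ => cA ℓ c = 1) (t := (Finset.univ : Finset (ZMod ℓ)))
    (fun c => ((cK ℓ c : ℤ) : ZMod ℓ)) (fun _ _ => Finset.mem_univ _) ?_
  · rwa [Finset.card_univ, ZMod.card] at h
  · intro c hc c' hc' hcc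
    rw [Finset.mem_coe, Finset.mem_filter] at hc hc'
    apply coset_data_injective ℓ c c' (hc.2.trans hc'.2.symm)
    exact (ZMod.intCast_eq_intCast_iff _ _ _).mp hcc

theorem card_filter_cA :
    (Finset.univ.filter fun c : SL(2, ℤ) ⧸ Gamma0 ℓ => cA ℓ c = 1).card = ℓ ∧
      (Finset.univ.filter fun c : SL(2, ℤ) ⧸ Gamma0 ℓ => ¬ cA ℓ c = 1).card = 1 := by
  have hℓ : ℓ.Prime := Fact.out
  have htot := Finset.card_filter_add_card_filter_not
    (s := (Finset.univ : Finset (SL(2, ℤ) ⧸ Gamma0 ℓ))) (fun c => cA ℓ c = 1)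
  rw [Finset.card_univ, card_cosets, dedekindPsi_prime] at htot
  have h1 := card_filter_cA_eq_one_le ℓ
  have h2 : (Finset.univ.filter fun c : SL(2, ℤ) ⧸ Gamma0 ℓ => ¬ cA ℓ c = 1).card ≤ 1 := by
    refine le_trans (Finset.card_le_card ?_) (card_filter_cA_eq_self_le ℓ)
    intro c hc
    rw [Finset.mem_filter] at hc ⊢
    exact ⟨hc.1, (cA_eq_one_or ℓ c).resolve_left hc.2⟩
  omega

end Cosets

/-! ### The congruence -/

section Congruence

variable (ℓ : ℕ) [Fact ℓ.Prime]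

theorem eval₂_one_cyclotomic :
    (cyclotomic ℓ ℤ).eval₂ (Int.castRingHom (ZMod ℓ)) (((1 : (ZMod ℓ)ˣ) : ZMod ℓ)) = 0 := by
  rw [eval₂_eq_eval_map, map_cyclotomic_int, Units.val_one, eval_one_cyclotomic_prime]
  exact ZMod.natCast_self ℓ

theorem rootOf_one (c : SL(2, ℤ) ⧸ Gamma0 ℓ) :
    rootOf ℓ (1 : (ZMod ℓ)ˣ) c = qExpand (ZMod ℓ) (cE ℓ c) (jqModC (ZMod ℓ)) := by
  rw [rootOf, one_zpow, rootSeries, twist_one]

/-- `Φ_ℓ(j(t^ℓ), X) = (X - j(t))^ℓ (X - j(t^{ℓ²}))` over `𝔽_ℓ((t))`. -/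
theorem map_evJ_modPoly :
    (modPoly ℓ).map (evJ ℓ (ZMod ℓ)) =
      (X - C (jqModC (ZMod ℓ))) ^ ℓ *
        (X - C (qExpand (ZMod ℓ) ℓ (qExpand (ZMod ℓ) ℓ (jqModC (ZMod ℓ))))) := by
  have hroot := hasRootForm_of_cyclotomic ℓ (ZMod ℓ) 1 (eval₂_one_cyclotomic ℓ)
  rw [HasRootForm, rootProd] at hroot
  rw [hroot, ← Finset.prod_filter_mul_prod_filter_not Finset.univ (fun c => cA ℓ c = 1)]
  obtain ⟨h1, h2⟩ := card_filter_cA ℓ
  congr 1
  · have hconst : ∀ c ∈ Finset.univ.filter (fun c : SL(2, ℤ) ⧸ Gamma0 ℓ => cA ℓ c = 1),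
        (X - C (rootOf ℓ (1 : (ZMod ℓ)ˣ) c)) = X - C (jqModC (ZMod ℓ)) := by
      intro c hc
      rw [Finset.mem_filter] at hc
      rw [rootOf_one]
      have : cE ℓ c = 1 := by rw [cE, hc.2, one_pow]
      rw [qExpand_congr this, qExpand_one_apply]
    rw [Finset.prod_congr rfl hconst, Finset.prod_const, h1]
  · obtain ⟨c₀, hc₀⟩ := Finset.card_eq_one.mp h2
    rw [hc₀, Finset.prod_singleton, rootOf_one]
    have hmem : c₀ ∈ Finset.univ.filter fun c : SL(2, ℤ) ⧸ Gamma0 ℓ => ¬ cA ℓ c = 1 := by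
      rw [hc₀]; exact Finset.mem_singleton_self _
    rw [Finset.mem_filter] at hmem
    have hA : cA ℓ c₀ = ℓ := (cA_eq_one_or ℓ c₀).resolve_left hmem.2
    have : cE ℓ c₀ = ℓ * ℓ := by rw [cE, hA, sq]
    rw [qExpand_congr this, ← qExpand_qExpand]

instance charP_laurentSeries : CharP (LaurentSeries (ZMod ℓ)) ℓ :=
  charP_of_injective_ringHom (f := (HahnSeries.C : ZMod ℓ →+* LaurentSeries (ZMod ℓ)))
    HahnSeries.C_injective ℓ

/-- **Kronecker's congruence**: `Φ_ℓ(Y, X) ≡ (X^ℓ - Y)(X - Y^ℓ) mod ℓ` in `𝔽_ℓ[Y][X]`. -/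
theorem kronecker :
    (modPoly ℓ).map (mapRingHom (Int.castRingHom (ZMod ℓ))) =
      (X ^ ℓ - C (X : (ZMod ℓ)[X])) * (X - C ((X : (ZMod ℓ)[X]) ^ ℓ)) := by
  set ev : (ZMod ℓ)[X] →+* LaurentSeries (ZMod ℓ) :=
    ((aeval (qExpand (ZMod ℓ) ℓ (jqModC (ZMod ℓ)))).toRingHom) with hev
  have hinj : Function.Injective ev := aeval_qExpand_jqModC_injective ℓ
  apply Polynomial.map_injective ev hinj
  have hcomp : ev.comp (mapRingHom (Int.castRingHom (ZMod ℓ))) = evJ ℓ (ZMod ℓ) := by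
    refine Polynomial.ringHom_ext' (RingHom.ext_int _ _) ?_
    rw [evJ_X, hev]
    simp only [RingHom.comp_apply, coe_mapRingHom, map_X, AlgHom.toRingHom_eq_coe,
      RingHom.coe_coe, aeval_X]
  have hX : ev X = qExpand (ZMod ℓ) ℓ (jqModC (ZMod ℓ)) := by
    rw [hev]
    simp only [AlgHom.toRingHom_eq_coe, RingHom.coe_coe, aeval_X]
  rw [Polynomial.map_map, hcomp, map_evJ_modPoly, Polynomial.map_mul, Polynomial.map_sub,
    Polynomial.map_sub, Polynomial.map_pow, Polynomial.map_X, Polynomial.map_C, Polynomial.map_C,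
    map_pow, hX, sub_pow_char, ← C_pow, pow_char_eq_qExpand_zmod, pow_char_eq_qExpand_zmod]

end Congruence

/-! ### Evaluated forms -/

section Evaluated

/-- Instance-free two-variable evaluation of `P ∈ ℤ[Y][X]` at `(a, b)`. -/
noncomputable def evZ {A : Type*} [CommRing A] (a b : A) : ℤ[X][X] →+* A :=
  eval₂RingHom (eval₂RingHom (Int.castRingHom A) a) b

theorem evZ_apply {A : Type*} [CommRing A] (a b : A) (P : ℤ[X][X]) :
    evZ a b P = P.eval₂ (eval₂RingHom (Int.castRingHom A) a) b := rfl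

theorem evZ_eq_ev2 {A : Type*} [CommRing A] [Algebra ℤ A] (a b : A) (P : ℤ[X][X]) :
    evZ a b P = ev2 a b P := by
  rw [evZ_apply, ev2_apply]
  congr 1
  refine Polynomial.ringHom_ext' (RingHom.ext_int _ _) ?_
  simp only [coe_eval₂RingHom, eval₂_X, AlgHom.toRingHom_eq_coe, RingHom.coe_coe, aeval_X]

theorem map_evZ {A B : Type*} [CommRing A] [CommRing B] (φ : A →+* B) (a b : A) (P : ℤ[X][X]) :
    φ (evZ a b P) = evZ (φ a) (φ b) P := by
  rw [evZ_apply, evZ_apply, hom_eval₂]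
  congr 1
  refine Polynomial.ringHom_ext' (RingHom.ext_int _ _) ?_
  simp only [RingHom.comp_apply, coe_eval₂RingHom, eval₂_X]

variable (N : ℕ) [NeZero N]

theorem evZ_modPoly_int : evZ (jqModC ℤ) (qExpand ℤ N (jqModC ℤ)) (modPoly N) = 0 := by
  apply coeffMap_injective (Int.castRingHom ℚ) Int.cast_injective
  rw [map_evZ, map_zero, coeffMap_qExpand, coeffMap_jqModC, evZ_eq_ev2]
  exact ev2_modPoly N

/-- **The modular equation over any ring**: `Φ_N(j(q^d), j(q^{dN})) = 0` in `R((q))`. -/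
theorem evZ_modPoly (R : Type*) [CommRing R] (d : ℕ) [NeZero d] :
    evZ (qExpand R d (jqModC R)) (qExpand R d (qExpand R N (jqModC R))) (modPoly N) = 0 := by
  have h : qExpand R d (coeffMap (Int.castRingHom R)
      (evZ (jqModC ℤ) (qExpand ℤ N (jqModC ℤ)) (modPoly N))) = 0 := by
    rw [evZ_modPoly_int, map_zero, map_zero]
  rwa [map_evZ, map_evZ, coeffMap_qExpand, coeffMap_jqModC] at h

variable (ℓ : ℕ) [Fact ℓ.Prime]

/-- **Kronecker's congruence, evaluated**: in a ring of characteristic `ℓ`,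
`Φ_ℓ(a, b) = (b^ℓ - a)(b - a^ℓ)`. -/
theorem evZ_modPoly_of_charP {A : Type*} [CommRing A] [CharP A ℓ] (a b : A) :
    evZ a b (modPoly ℓ) = (b ^ ℓ - a) * (b - a ^ ℓ) := by
  set φ : ZMod ℓ →+* A := ZMod.castHom (dvd_refl ℓ) A with hφ
  have h1 : evZ a b (modPoly ℓ) =
      ((modPoly ℓ).map (mapRingHom (Int.castRingHom (ZMod ℓ)))).eval₂ (eval₂RingHom φ a) b := by
    rw [evZ_apply, eval₂_map]
    congr 1
    refine Polynomial.ringHom_ext' (RingHom.ext_int _ _) ?_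
    simp only [RingHom.comp_apply, coe_mapRingHom, map_X, coe_eval₂RingHom, eval₂_X]
  rw [h1, kronecker]
  simp only [eval₂_mul, eval₂_sub, eval₂_pow, eval₂_X, eval₂_C, coe_eval₂RingHom]

/-- In characteristic `ℓ`: `(j(q^{dℓ})^ℓ - j(q^d)) (j(q^{dℓ}) - j(q^d)^ℓ) = 0`. -/
theorem kronecker_relation (R : Type*) [CommRing R] [CharP R ℓ] (d : ℕ) [NeZero d] :
    ((qExpand R d (qExpand R ℓ (jqModC R))) ^ ℓ - qExpand R d (jqModC R)) *
      (qExpand R d (qExpand R ℓ (jqModC R)) - (qExpand R d (jqModC R)) ^ ℓ) = 0 := by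
  haveI : CharP (LaurentSeries R) ℓ :=
    charP_of_injective_ringHom (f := (HahnSeries.C : R →+* LaurentSeries R))
      HahnSeries.C_injective ℓ
  rw [← evZ_modPoly_of_charP ℓ, evZ_modPoly]

end Evaluated

end Fermat.Agent.N4.Kronecker
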