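/-
N4 / L1 (helper12), adapters in the language of `N4/Setting.lean`:
in the function field `FF K N = K(j(q^d) : d ∣ N)` over any field `K` of characteristic zero,
`Φ_N(j, j_N) = 0` and `FF K N = K(j, j_N)`.
-/
import Mathlib
import Fermat.Agent.N4.Setting
import Fermat.Agent.N4.Kronecker
import Fermat.Agent.N4.FunctionFieldGen
import Fermat.Agent.N4.FFAlgebraic
import Fermat.Agent.N4.IntClosure

set_option autoImplicit false

namespace Fermat.Agent.N4.ModPolySetting

open ModularCurve Polynomial
open Fermat.Agent.N4.Setting Fermat.Agent.N4.ModPolyDescent Fermat.Agent.N4.Kronecker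
open Fermat.Agent.N4.FunctionFieldGen

variable (K : Type) [Field K] (N : ℕ) [NeZero N]

/-- `j(q^N)` as an element of the function field `FF K N`. -/
noncomputable abbrev jNF : FF K N := jdF K N (dvd_refl N)

/-- **`Φ_N(j, j_N) = 0` in `FF K N`** (any field `K`). -/
theorem evZ_modPoly_FF : evZ (jF K N) (jNF K N) (modPoly N) = 0 := by
  apply Subtype.val_injective
  have h := map_evZ ((modularFunctionFieldFullC K N).val : FF K N →+* LaurentSeries K)
    (jF K N) (jNF K N) (modPoly N)
  have h0 := evZ_modPoly N K 1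
  rw [qExpand_one_apply, qExpand_one_apply] at h0
  exact h.trans h0

/-- The same with the two-variable evaluation `ev2` of `ModPolyDescent` over `K`. -/
theorem ev2_modPoly_FF :
    ev2 (jF K N) (jNF K N) ((modPoly N).map (mapRingHom (Int.castRingHom K))) = 0 := by
  rw [ev2_map_intCast (k := K) (jF K N) (jNF K N) (modPoly N), ← evZ_eq_ev2]
  exact evZ_modPoly_FF K N

/-- **`FF K N = K(j, j_N)`** for every field `K` of characteristic zero. -/
theorem adjoin_jF_jNF_eq_top [CharZero K] :
    IntermediateField.adjoin K {jF K N, jNF K N} = ⊤ := by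
  apply IntermediateField.map_injective (modularFunctionFieldFullC K N).val
  rw [IntermediateField.adjoin_map, Set.image_pair, ← AlgHom.fieldRange_eq_map,
    IntermediateField.fieldRange_val]
  exact (modularFunctionFieldFullC_eq N K).symm

/-! ### Minimality and the degree `[FF K N : K(j)] = ψ(N)` -/

section Degree

open IntermediateField Fermat.Agent.N4.IntClosure

/-- `Φ_N` with coefficients in `K[Y]`. -/
noncomputable def modPolyK : K[X][X] := (modPoly N).map (mapRingHom (Int.castRingHom K))

theorem modPolyK_monic : (modPolyK K N).Monic := (modPoly_monic N).map _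

theorem modPolyK_natDegree : (modPolyK K N).natDegree = dedekindPsi N := by
  rw [modPolyK, (modPoly_monic N).natDegree_map, modPoly_natDegree]

theorem ev2_modPolyK : ev2 (jF K N) (jNF K N) (modPolyK K N) = 0 := ev2_modPoly_FF K N

/-- **Minimality over `K`** (`K` embedded in `ℂ`): a polynomial `R ∈ K[Y][X]` of `X`-degree
`< ψ(N)` with `R(j, j_N) = 0` is zero. -/
theorem eq_zero_of_ev2_FF_eq_zero (ι : K →+* ℂ) (R₀ : K[X][X])
    (hdeg : R₀.natDegree < dedekindPsi N) (h : ev2 (jF K N) (jNF K N) R₀ = 0) : R₀ = 0 := by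
  have h1 : ev2 (jqModC K) (qExpand K N (jqModC K)) R₀ = 0 := by
    have := algHom_ev2 (modularFunctionFieldFullC K N).val (jF K N) (jNF K N) R₀
    rw [h, map_zero] at this
    exact this.symm
  have h2 := congrArg (coeffMap ι) h1
  rw [← ev2_coeffMap_map, map_zero, coeffMap_qExpand, coeffMap_jqModC] at h2
  have h3 := eq_zero_of_ev2_eq_zero N _ (lt_of_le_of_lt natDegree_map_le hdeg) h2
  exact (Polynomial.map_eq_zero_iff (Polynomial.map_injective ι ι.injective)).mp h3

variable [CharZero K]

/-- `FF K N = K(j)(j_N)`, tower form. -/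
theorem adjoin_simple_jNF_eq_top : K⟮jF K N⟯⟮jNF K N⟯ = ⊤ := by
  apply IntermediateField.restrictScalars_injective K
  rw [IntermediateField.restrictScalars_top, IntermediateField.adjoin_simple_adjoin_simple]
  exact adjoin_jF_jNF_eq_top K N

/-- `j_N` is integral over `K(j)`. -/
theorem isIntegral_jNF : IsIntegral K⟮jF K N⟯ (jNF K N) := by
  refine ⟨(modPoly N).map (eval₂RingHom (Int.castRingHom K⟮jF K N⟯) (AdjoinSimple.gen K (jF K N))),
    (modPoly_monic N).map _, ?_⟩
  have hcomp : (algebraMap K⟮jF K N⟯ (FF K N)).comp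
      (eval₂RingHom (Int.castRingHom K⟮jF K N⟯) (AdjoinSimple.gen K (jF K N))) =
      eval₂RingHom (Int.castRingHom (FF K N)) (jF K N) := by
    refine Polynomial.ringHom_ext' (RingHom.ext_int _ _) ?_
    simp only [RingHom.comp_apply, coe_eval₂RingHom, eval₂_X]
    rfl
  rw [eval₂_map, hcomp]
  exact evZ_modPoly_FF K N

/-- `FF K N` is finite over `K(j)`. -/
theorem finiteDimensional_FF : FiniteDimensional K⟮jF K N⟯ (FF K N) := by
  haveI : FiniteDimensional K⟮jF K N⟯ K⟮jF K N⟯⟮jNF K N⟯ :=
    adjoin.finiteDimensional (isIntegral_jNF K N)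
  rw [adjoin_simple_jNF_eq_top] at this
  exact LinearEquiv.finiteDimensional
    (IntermediateField.topEquiv (F := K⟮jF K N⟯) (E := FF K N)).toLinearEquiv

/-- **`[FF K N : K(j)] = ψ(N)`** for `K` of characteristic zero embedded in `ℂ`. -/
theorem finrank_FF (ι : K →+* ℂ) : Module.finrank K⟮jF K N⟯ (FF K N) = dedekindPsi N := by
  have hj : Transcendental K (jF K N) := Fermat.Agent.N4.FFAlgebraic.transcendental_jF K N
  letI := algPolyTop (O := K) (jF K N)
  letI := algPolyMid (O := K) (K := K) (jF K N)
  haveI := isScalarTower_poly (O := K) (K := K) (jF K N)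
  haveI := isFractionRing_poly (O := K) (K := K) (jF K N) hj
  haveI : IsIntegrallyClosed K[X] := isIntegrallyClosed_polynomial
  have haeval : ∀ P : K[X][X], aeval (jNF K N) P = ev2 (jF K N) (jNF K N) P := fun P => rfl
  have hint : IsIntegral K[X] (jNF K N) :=
    ⟨modPolyK K N, modPolyK_monic K N, ev2_modPolyK K N⟩
  have hmin := minpoly.isIntegrallyClosed_eq_field_fractions' K⟮jF K N⟯ hint
  have hdeg : (minpoly K[X] (jNF K N)).natDegree = dedekindPsi N := by
    apply le_antisymm
    · have := minpoly.min K[X] (jNF K N) (modPolyK_monic K N)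
        ((haeval _).trans (ev2_modPolyK K N))
      rw [← modPolyK_natDegree K N]
      exact natDegree_le_natDegree this
    · by_contra hlt
      have h0 := eq_zero_of_ev2_FF_eq_zero K N ι (minpoly K[X] (jNF K N)) (not_le.mp hlt)
        ((haeval _).symm.trans (minpoly.aeval _ _))
      exact minpoly.ne_zero hint h0
  rw [← IntermediateField.finrank_top', ← adjoin_simple_jNF_eq_top K N,
    adjoin.finrank (isIntegral_jNF K N), hmin, (minpoly.monic hint).natDegree_map, hdeg]

/-- For `K` algebraic over `ℚ` (the bases of `N4/Setting.lean`) no embedding has to be chosen. -/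
theorem finrank_FF_of_isAlgebraic [Algebra.IsAlgebraic ℚ K] :
    Module.finrank K⟮jF K N⟯ (FF K N) = dedekindPsi N :=
  finrank_FF K N ((IsAlgClosed.lift (R := ℚ) (M := ℂ) (S := K) : K →ₐ[ℚ] ℂ) : K →+* ℂ)

end Degree

end Fermat.Agent.N4.ModPolySetting
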