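/-
N4 / L1 (helper12), part 8: symmetry and shape of the modular polynomial.

* `cosetRoot_S` : the Puiseux root attached to the coset of `S⁻¹` is `j(t)`.
* `evZ_modPoly_swap R d` : **(Φ1')** the swapped modular equation `Φ_N(j(q^{dN}), j(q^d)) = 0` over
  every commutative ring.
* `swap_modPoly` : `Φ_N(X, Y) = ± Φ_N(Y, X)`; `swap_modPoly_of_one_lt` : `Φ_N` is symmetric for
  `N > 1`.
* `modPoly_shape` : **(Φ3)** writing `Φ_N = ∑ P_i(Y) X^i`, the constant term `P_0` has `Y`-degree
  exactly `ψ(N)` and leading coefficient `± 1`, all other `P_i` have degree `< ψ(N)`.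
* `modPoly_prime_shape` : the prime case (`ψ(ℓ) = ℓ + 1`, `P_0` monic).
-/
import Mathlib
import Fermat.Agent.N4.Kronecker

set_option autoImplicit false

namespace Fermat.Agent.N4.ModPolyShape

open UpperHalfPlane ModularForm MatrixGroups Filter Function Complex CongruenceSubgroup Polynomial
open Fermat.Agent.M2 Fermat.Agent.M2.CuspVal Fermat.Agent.S24.QExpHom ModularCurve
open Fermat.Agent.N4.TwistSeries Fermat.Agent.N4.QExpTranslate Fermat.Agent.N4.HeckeRoots
open Fermat.Agent.N4.ModPolyDescent Fermat.Agent.N4.PrimitiveDisc Fermat.Agent.N4.Kronecker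
open scoped Fermat.Agent.N4.HeckeRoots

/-! ### The swap of the two variables -/

section Swap

/-- Coefficients of the swapped polynomial. -/
theorem coeff_coeff_swap {R : Type*} [CommSemiring R] (P : R[X][X]) (i k : ℕ) :
    ((Bivariate.swap P).coeff i).coeff k = (P.coeff k).coeff i := by
  induction P using Polynomial.induction_on' with
  | add p q hp hq => rw [map_add, coeff_add, coeff_add, coeff_add, coeff_add, hp, hq]
  | monomial n f =>
    induction f using Polynomial.induction_on' with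
    | add p q hp hq =>
      rw [map_add, map_add, coeff_add, coeff_add, coeff_add, coeff_add, hp, hq]
    | monomial m r =>
      rw [Bivariate.swap_monomial_monomial, coeff_monomial, coeff_monomial]
      by_cases h1 : m = i <;> by_cases h2 : n = k
      · rw [if_pos h1, if_pos h2, coeff_monomial, coeff_monomial, if_pos h2, if_pos h1]
      · rw [if_pos h1, if_neg h2, coeff_monomial, if_neg h2, coeff_zero]
      · rw [if_neg h1, if_pos h2, coeff_zero, coeff_monomial, if_neg h1]
      · rw [if_neg h1, if_neg h2, coeff_zero, coeff_zero]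

theorem evZ_swap {A : Type*} [CommRing A] (a b : A) (P : ℤ[X][X]) :
    evZ a b (Bivariate.swap P) = evZ b a P := by
  induction P using Polynomial.induction_on' with
  | add p q hp hq => rw [map_add, map_add, map_add, hp, hq]
  | monomial n f =>
    induction f using Polynomial.induction_on' with
    | add p q hp hq => rw [map_add, map_add, map_add, map_add, hp, hq]
    | monomial m r =>
      rw [Bivariate.swap_monomial_monomial, evZ_apply, evZ_apply, eval₂_monomial, eval₂_monomial,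
        coe_eval₂RingHom, coe_eval₂RingHom, eval₂_monomial, eval₂_monomial]
      ring

end Swap

/-! ### The coset of `S` and the swapped modular equation -/

variable (N : ℕ) [NeZero N]

theorem cosetRoot_S :
    cosetRoot N ((ModularGroup.S⁻¹ : SL(2, ℤ)) : SL(2, ℤ) ⧸ Gamma0 N) = jqModC ℂ := by
  rw [← qexpPM_conjPM, qexpPM_apply]
  have hfun : ((conjPM N ((ModularGroup.S⁻¹ : SL(2, ℤ)) : SL(2, ℤ) ⧸ Gamma0 N) : PM) : ℍ → ℂ) =
      jInv := by
    funext z
    show conj N ((ModularGroup.S⁻¹ : SL(2, ℤ)) : SL(2, ℤ) ⧸ Gamma0 N) (JN.scaleH N z) = jInv z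
    rw [conj, CosetPoly.cosetFun_mk, CosetPoly.slash_zero_apply, inv_inv, JN.jN,
      ← jInv_smul ModularGroup.S z]
    congr 1
    apply UpperHalfPlane.ext
    rw [JN.coe_scaleH, UpperHalfPlane.modular_S_smul, UpperHalfPlane.modular_S_smul]
    simp only [JN.coe_scaleH]
    have hN' : (N : ℂ) ≠ 0 := Nat.cast_ne_zero.mpr (NeZero.ne N)
    have hz : (z : ℂ) ≠ 0 := UpperHalfPlane.ne_zero z
    field_simp
  rw [hfun, qexpFun_jInv_eq]

/-- **The swapped modular equation over `ℂ`**: `Φ_N(j(t^N), j(t)) = 0`. -/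
theorem evZ_modPoly_swap_complex :
    evZ (qExpand ℂ N (jqModC ℂ)) (jqModC ℂ) (modPoly N) = 0 := by
  have h := congrArg (Polynomial.eval (jqModC ℂ)) (hasRootForm_complex N)
  rw [rootProd, eval_prod, eval_map] at h
  rw [evZ_apply]
  refine h.trans ?_
  apply Finset.prod_eq_zero
    (Finset.mem_univ ((ModularGroup.S⁻¹ : SL(2, ℤ)) : SL(2, ℤ) ⧸ Gamma0 N))
  rw [eval_sub, eval_X, eval_C, rootOf_zetaC, cosetRoot_S, sub_self]

theorem evZ_modPoly_swap_int :
    evZ (qExpand ℤ N (jqModC ℤ)) (jqModC ℤ) (modPoly N) = 0 := by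
  apply coeffMap_injective (Int.castRingHom ℂ) Int.cast_injective
  rw [map_evZ, map_zero, coeffMap_qExpand, coeffMap_jqModC]
  exact evZ_modPoly_swap_complex N

/-- **The swapped modular equation over any ring**: `Φ_N(j(q^{dN}), j(q^d)) = 0` in `R((q))`. -/
theorem evZ_modPoly_swap (R : Type*) [CommRing R] (d : ℕ) [NeZero d] :
    evZ (qExpand R d (qExpand R N (jqModC R))) (qExpand R d (jqModC R)) (modPoly N) = 0 := by
  have h : qExpand R d (coeffMap (Int.castRingHom R)
      (evZ (qExpand ℤ N (jqModC ℤ)) (jqModC ℤ) (modPoly N))) = 0 := by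
    rw [evZ_modPoly_swap_int, map_zero, map_zero]
  rwa [map_evZ, map_evZ, coeffMap_qExpand, coeffMap_jqModC] at h

/-! ### Symmetry -/

theorem dedekindPsi_pos : 0 < dedekindPsi N := by
  rw [← card_cosets N]
  exact Fintype.card_pos_iff.mpr ⟨((1 : SL(2, ℤ)) : SL(2, ℤ) ⧸ Gamma0 N)⟩

theorem evZ_modPoly_complex :
    evZ (jqModC ℂ) (qExpand ℂ N (jqModC ℂ)) (modPoly N) = 0 := by
  have h := congrArg (coeffMap (Int.castRingHom ℂ)) (evZ_modPoly_int N)
  rwa [map_evZ, map_zero, coeffMap_qExpand, coeffMap_jqModC] at h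

/-- Minimality over `ℤ`: a polynomial of `X`-degree `< ψ(N)` killing `(j(q), j(q^N))` vanishes. -/
theorem eq_zero_of_evZ_eq_zero (R₀ : ℤ[X][X]) (hdeg : R₀.natDegree < dedekindPsi N)
    (h : evZ (jqModC ℂ) (qExpand ℂ N (jqModC ℂ)) R₀ = 0) : R₀ = 0 := by
  have hinj : Function.Injective (mapRingHom (Int.castRingHom ℂ)) :=
    Polynomial.map_injective _ Int.cast_injective
  apply Polynomial.map_injective _ hinj
  rw [Polynomial.map_zero]
  apply eq_zero_of_ev2_eq_zero N
  · exact lt_of_le_of_lt natDegree_map_le hdeg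
  · rw [ev2_map_intCast, ← evZ_eq_ev2]
    exact h

/-- **Symmetry of the modular polynomial**: `Φ_N(X, Y) = ± Φ_N(Y, X)`. -/
theorem swap_modPoly :
    ∃ ε : ℤ, (ε = 1 ∨ ε = -1) ∧ Bivariate.swap (modPoly N) = C (C ε) * modPoly N := by
  set Φ := modPoly N with hΦ
  have hm : Φ.Monic := modPoly_monic N
  have hdegΦ : Φ.natDegree = dedekindPsi N := modPoly_natDegree N
  have hne1 : Φ ≠ 1 := by
    intro h1
    have := dedekindPsi_pos N
    rw [← hdegΦ, h1, natDegree_one] at this
    exact lt_irrefl _ this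
  have hne0 : Φ ≠ 0 := hm.ne_zero
  set T := Bivariate.swap Φ with hT
  have hdiv := modByMonic_add_div T Φ
  have hR : T %ₘ Φ = 0 := by
    apply eq_zero_of_evZ_eq_zero N
    · rw [← hdegΦ]
      exact natDegree_modByMonic_lt T hm hne1
    · have h1 : evZ (jqModC ℂ) (qExpand ℂ N (jqModC ℂ)) T = 0 := by
        rw [hT, evZ_swap]
        exact evZ_modPoly_swap_complex N
      have h2 := congrArg (evZ (jqModC ℂ) (qExpand ℂ N (jqModC ℂ))) hdiv
      rw [map_add, map_mul, h1, evZ_modPoly_complex N, zero_mul, add_zero] at h2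
      exact h2
  rw [hR, zero_add] at hdiv
  -- `T = Φ * Q`
  set Q := T /ₘ Φ with hQ
  have hsw : Φ = T * Bivariate.swap Q := by
    have := congrArg Bivariate.swap hdiv
    rw [map_mul, hT, Bivariate.swap_swap_apply] at this
    rw [hT]
    exact this.symm
  have hunit : Q * Bivariate.swap Q = 1 := by
    apply mul_left_cancel₀ hne0
    rw [mul_one, ← mul_assoc, hdiv]
    exact hsw.symm
  have hQu : IsUnit Q := IsUnit.of_mul_eq_one _ hunit
  obtain ⟨r, hr, hrQ⟩ := Polynomial.isUnit_iff.mp hQu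
  obtain ⟨ε, hε, hεr⟩ := Polynomial.isUnit_iff.mp hr
  refine ⟨ε, Int.isUnit_iff.mp hε, ?_⟩
  rw [← hdiv, ← hrQ, ← hεr, mul_comm]

/-- Diagonal evaluation is symmetric. -/
theorem eval_X_swap (P : ℤ[X][X]) : (Bivariate.swap P).eval X = P.eval X := by
  have h1 : ∀ Q : ℤ[X][X], Q.eval X = evZ (X : ℤ[X]) X Q := by
    intro Q
    rw [evZ_apply]
    have : (eval₂RingHom (Int.castRingHom ℤ[X]) X : ℤ[X] →+* ℤ[X]) = RingHom.id _ :=
      Polynomial.ringHom_ext' (RingHom.ext_int _ _) (by simp)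
    rw [this, eval₂_id]
  rw [h1, h1, evZ_swap]

theorem one_lt_dedekindPsi (hN : 1 < N) : 1 < dedekindPsi N := by
  have h1 : 1 ∈ (N.divisors.filter Squarefree) :=
    Finset.mem_filter.mpr ⟨Nat.one_mem_divisors.mpr (NeZero.ne N), squarefree_one⟩
  have : N / 1 ≤ dedekindPsi N := by
    rw [dedekindPsi]
    exact Finset.single_le_sum (f := fun d => N / d) (fun _ _ => Nat.zero_le _) h1
  rw [Nat.div_one] at this
  omega

/-- For `N > 1` the modular polynomial is symmetric. -/
theorem swap_modPoly_of_one_lt (hN : 1 < N) : Bivariate.swap (modPoly N) = modPoly N := by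
  obtain ⟨ε, hε, h⟩ := swap_modPoly N
  rcases hε with rfl | rfl
  · rw [h, map_one, map_one, one_mul]
  exfalso
  set Φ := modPoly N with hΦ
  have hm : Φ.Monic := modPoly_monic N
  have hdegΦ : Φ.natDegree = dedekindPsi N := modPoly_natDegree N
  -- `Φ(Y, Y) = 0`
  have hdiag : Φ.eval X = 0 := by
    have h1 := congrArg (Polynomial.eval (X : ℤ[X])) h
    rw [eval_X_swap, eval_mul, eval_C, map_neg, map_one, neg_one_mul] at h1
    have h2 : (2 : ℤ[X]) * Φ.eval X = 0 := by
      rw [two_mul]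
      nth_rewrite 1 [h1]
      exact neg_add_cancel _
    exact (mul_eq_zero.mp h2).resolve_left two_ne_zero
  obtain ⟨G, hG⟩ := Polynomial.dvd_iff_isRoot.mpr hdiag
  have hGm : G.Monic := by
    have := hm
    rw [hG] at this
    exact (monic_X_sub_C _).of_mul_monic_left this
  have hGdeg : G.natDegree + 1 = dedekindPsi N := by
    rw [← hdegΦ, hG, (monic_X_sub_C _).natDegree_mul hGm, natDegree_X_sub_C, add_comm]
  have hG0 : G = 0 := by
    apply eq_zero_of_evZ_eq_zero N
    · omega
    · have h1 := evZ_modPoly_complex N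
      rw [← hΦ, hG, map_mul] at h1
      refine (mul_eq_zero.mp h1).resolve_left ?_
      rw [map_sub, evZ_apply, evZ_apply, eval₂_X, eval₂_C, coe_eval₂RingHom, eval₂_X]
      intro h0
      have hl1 : LeadsWith (qExpand ℂ N (jqModC ℂ)) ((N : ℤ) * (-1)) 1 :=
        (leadsWith_jqModC ℂ).qExpand N
      have hl2 : LeadsWith (jqModC ℂ) (-1) 1 := leadsWith_jqModC ℂ
      rw [sub_eq_zero.mp h0] at hl1
      have := (hl1.unique hl2 one_ne_zero one_ne_zero).1
      have hN' : (1 : ℤ) < N := by exact_mod_cast hN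
      omega
  exact hGm.ne_zero hG0

/-! ### Shape -/

/-- **Shape of the modular polynomial** `Φ_N = ∑ P_i(Y) X^i`: the coefficients are symmetric up to
a sign `ε`; `P_0` has degree exactly `ψ(N)` and leading coefficient `ε = ± 1`; all the other `P_i`
have degree `< ψ(N)`. -/
theorem modPoly_shape :
    ∃ ε : ℤ, (ε = 1 ∨ ε = -1) ∧
      (∀ i k, ((modPoly N).coeff k).coeff i = ε * ((modPoly N).coeff i).coeff k) ∧
      ((modPoly N).coeff 0).natDegree = dedekindPsi N ∧
      ((modPoly N).coeff 0).leadingCoeff = ε ∧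
      ∀ i, i ≠ 0 → ((modPoly N).coeff i).natDegree < dedekindPsi N := by
  obtain ⟨ε, hε, h⟩ := swap_modPoly N
  set Φ := modPoly N with hΦ
  have hm : Φ.Monic := modPoly_monic N
  have hdegΦ : Φ.natDegree = dedekindPsi N := modPoly_natDegree N
  have hε0 : ε ≠ 0 := by rcases hε with rfl | rfl <;> norm_num
  have hsym : ∀ i k, (Φ.coeff k).coeff i = ε * (Φ.coeff i).coeff k := by
    intro i k
    rw [← coeff_coeff_swap, h, coeff_C_mul, coeff_C_mul]
  have htop : Φ.coeff (dedekindPsi N) = 1 := by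
    rw [← hdegΦ]
    exact hm.coeff_natDegree
  have hbig : ∀ k, dedekindPsi N < k → Φ.coeff k = 0 := fun k hk =>
    coeff_eq_zero_of_natDegree_lt (by rw [hdegΦ]; exact hk)
  have h0top : (Φ.coeff 0).coeff (dedekindPsi N) = ε := by
    rw [hsym, htop, coeff_one_zero, mul_one]
  have h0big : ∀ k, dedekindPsi N < k → (Φ.coeff 0).coeff k = 0 := fun k hk => by
    rw [hsym, hbig k hk, coeff_zero, mul_zero]
  have hdeg0 : (Φ.coeff 0).natDegree = dedekindPsi N := by
    apply le_antisymm
    · exact natDegree_le_iff_coeff_eq_zero.mpr h0big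
    · exact le_natDegree_of_ne_zero (by rw [h0top]; exact hε0)
  refine ⟨ε, hε, hsym, hdeg0, ?_, ?_⟩
  · rw [leadingCoeff, hdeg0, h0top]
  · intro i hi
    have hitop : ∀ k, dedekindPsi N ≤ k → (Φ.coeff i).coeff k = 0 := by
      intro k hk
      rcases hk.eq_or_lt with rfl | hk
      · rw [hsym, htop, coeff_one, if_neg hi, mul_zero]
      · rw [hsym, hbig k hk, coeff_zero, mul_zero]
    by_contra hlt
    rw [not_lt] at hlt
    by_cases hz : Φ.coeff i = 0
    · rw [hz, natDegree_zero] at hlt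
      exact absurd (dedekindPsi_pos N) (by omega)
    · exact leadingCoeff_ne_zero.mpr hz (hitop _ hlt)

/-- All coefficients of `Φ_N` have `Y`-degree `≤ ψ(N)`. -/
theorem natDegree_coeff_modPoly_le (i : ℕ) :
    ((modPoly N).coeff i).natDegree ≤ dedekindPsi N := by
  obtain ⟨ε, -, -, h0, -, hi⟩ := modPoly_shape N
  rcases Nat.eq_zero_or_pos i with rfl | hpos
  · exact h0.le
  · exact (hi i hpos.ne').le

/-- For `N > 1`: `P_0` is monic of degree `ψ(N)`. -/
theorem modPoly_coeff_zero_monic (hN : 1 < N) : ((modPoly N).coeff 0).Monic := by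
  obtain ⟨ε, -, hsym, h0, hl, -⟩ := modPoly_shape N
  have hs := swap_modPoly_of_one_lt N hN
  have htop : (modPoly N).coeff (dedekindPsi N) = 1 := by
    rw [← modPoly_natDegree N]
    exact (modPoly_monic N).coeff_natDegree
  rw [Monic, leadingCoeff, h0, ← coeff_coeff_swap, hs, htop, coeff_one_zero]

section Prime

variable (ℓ : ℕ) [Fact ℓ.Prime]

/-- **(Φ3)** for a prime level: `Φ_ℓ = X^{ℓ+1} + ∑_{i ≤ ℓ} P_i(Y) X^i` with `P_0` monic of degree
`ℓ + 1` and `deg P_i ≤ ℓ` for `1 ≤ i`. -/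
theorem modPoly_prime_shape :
    ((modPoly ℓ).coeff 0).natDegree = ℓ + 1 ∧ ((modPoly ℓ).coeff 0).Monic ∧
      (∀ i, 1 ≤ i → ((modPoly ℓ).coeff i).natDegree ≤ ℓ) ∧
      Bivariate.swap (modPoly ℓ) = modPoly ℓ := by
  have hℓ : ℓ.Prime := Fact.out
  obtain ⟨ε, -, -, h0, -, hi⟩ := modPoly_shape ℓ
  rw [dedekindPsi_prime] at h0 hi
  refine ⟨h0, modPoly_coeff_zero_monic ℓ hℓ.one_lt, fun i h1 => ?_,
    swap_modPoly_of_one_lt ℓ hℓ.one_lt⟩
  have := hi i (by omega)
  omega

end Prime

end Fermat.Agent.N4.ModPolyShape
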