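/-
N4 block (b): the two-chart Čech / formal-functions lemma over a discrete valuation ring.

Abstract form of Zariski's connectedness theorem for a "curve" covered by two affine charts
`Spec A₊`, `Spec A₋` with intersection `Spec A₀` over a DVR `O` with uniformiser `π`:

* `H⁰ = O`      : a pair `(x, y) ∈ A₊ × A₋` with the same image in `A₀` is a constant;
* `H¹` finite   : `A₀ / (A₊ + A₋)` is a finitely generated `O`-module.

Then every idempotent of the special fibre (a pair `(e₊, e₋)`, idempotent modulo `π`, with the same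
image in `A₀ / π`) is the image of a constant `a : O`; if moreover `1 ∉ π A₊`, it is `0` or `1`
(`idempotent_mod_eq_zero_or_one`): the special fibre is connected.

The finiteness of `H¹` for the concrete two-chart cover of the `j`-line (charts finite over `O[j]`,
`O[1/j]`) is proved separately in `Fermat/Agent/N4/ChartFinite.lean`.
-/
import Mathlib

set_option autoImplicit false

namespace Fermat.Agent.N4.FormalFunctions

section Newton

variable {A : Type*} [CommRing A]

/-- One Newton step for idempotents. -/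
def newton (e : A) : A := 3 * e ^ 2 - 2 * e ^ 3

lemma newton_sub (e : A) : newton e - e = (e ^ 2 - e) * (1 - 2 * e) := by
  unfold newton; ring

lemma newton_sq_sub (e : A) :
    newton e ^ 2 - newton e = (e ^ 2 - e) ^ 2 * (4 * e ^ 2 - 4 * e - 3) := by
  unfold newton; ring

/-- Iterated Newton steps. -/
def newtonIter (e : A) : ℕ → A
  | 0 => e
  | n + 1 => newton (newtonIter e n)

lemma newtonIter_sq_sub_mem (I : Ideal A) (e : A) (he : e ^ 2 - e ∈ I) (n : ℕ) :
    newtonIter e n ^ 2 - newtonIter e n ∈ I ^ (2 ^ n) := by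
  induction n with
  | zero => simpa [newtonIter] using he
  | succ n ih =>
    rw [newtonIter, newton_sq_sub, pow_succ, pow_mul]
    exact Ideal.mul_mem_right _ _ (Ideal.pow_mem_pow ih 2)

lemma newtonIter_sub_mem (I : Ideal A) (e : A) (he : e ^ 2 - e ∈ I) (n : ℕ) :
    newtonIter e n - e ∈ I := by
  induction n with
  | zero => simp [newtonIter]
  | succ n ih =>
    have h1 : newtonIter e n ^ 2 - newtonIter e n ∈ I := by
      have := newtonIter_sq_sub_mem I e he n
      exact Ideal.pow_le_self (by positivity) this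
    have h2 : newtonIter e (n + 1) - newtonIter e n ∈ I := by
      rw [newtonIter, newton_sub]
      exact Ideal.mul_mem_right _ _ h1
    have : newtonIter e (n + 1) - e = (newtonIter e (n + 1) - newtonIter e n) +
        (newtonIter e n - e) := by ring
    rw [this]
    exact I.add_mem h2 ih

/-- Idempotents modulo `I` lift to idempotents modulo `I ^ n`, without changing the class
modulo `I`. -/
theorem exists_lift_idempotent (I : Ideal A) (e : A) (he : e ^ 2 - e ∈ I) (n : ℕ) :
    ∃ e' : A, e' - e ∈ I ∧ e' ^ 2 - e' ∈ I ^ n := by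
  refine ⟨newtonIter e n, newtonIter_sub_mem I e he n, ?_⟩
  have h := newtonIter_sq_sub_mem I e he n
  exact Ideal.pow_le_pow_right (Nat.lt_two_pow_self).le h

/-- Uniqueness of idempotent lifts: two elements which are idempotent modulo `I ^ n` and congruent
modulo `I` are congruent modulo `I ^ n`. -/
theorem sub_mem_pow_of_idempotent (I : Ideal A) (n : ℕ) (u w : A)
    (hu : u ^ 2 - u ∈ I ^ n) (hw : w ^ 2 - w ∈ I ^ n) (huw : u - w ∈ I) :
    u - w ∈ I ^ n := by
  set q := Ideal.Quotient.mk (I ^ n) with hq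
  have h1 : IsIdempotentElem (q u) := by
    have : q (u ^ 2 - u) = 0 := Ideal.Quotient.eq_zero_iff_mem.2 hu
    rw [map_sub, map_pow, sub_eq_zero] at this
    rw [IsIdempotentElem, ← sq]; exact this
  have h2 : IsIdempotentElem (q w) := by
    have : q (w ^ 2 - w) = 0 := Ideal.Quotient.eq_zero_iff_mem.2 hw
    rw [map_sub, map_pow, sub_eq_zero] at this
    rw [IsIdempotentElem, ← sq]; exact this
  have h3 : IsNilpotent (q u - q w) := by
    refine ⟨n, ?_⟩
    rw [← map_sub, ← map_pow]
    exact Ideal.Quotient.eq_zero_iff_mem.2 (Ideal.pow_mem_pow huw n)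
  have := eq_of_isNilpotent_sub_of_isIdempotentElem h1 h2 h3
  rw [← sub_eq_zero, ← map_sub] at this
  exact Ideal.Quotient.eq_zero_iff_mem.1 this

end Newton

section Torsion

variable {O : Type*} [CommRing O] [IsDomain O] [IsDiscreteValuationRing O]
variable {M : Type*} [AddCommGroup M] [Module O M]

/-- In a finitely generated module over a DVR the `π`-power torsion is bounded. -/
theorem exists_pow_smul_eq_zero_of_finite [Module.Finite O M] (π : O) :
    ∃ c : ℕ, ∀ (n : ℕ) (m : M), π ^ n • m = 0 → π ^ c • m = 0 := by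
  have : IsNoetherian O M := isNoetherian_of_isNoetherianRing_of_finite O M
  let K : ℕ →o Submodule O M :=
    { toFun := fun n => LinearMap.ker (LinearMap.lsmul O M (π ^ n))
      monotone' := by
        intro a b hab m hm
        simp only [LinearMap.mem_ker, LinearMap.lsmul_apply] at hm ⊢
        obtain ⟨d, rfl⟩ := Nat.exists_eq_add_of_le hab
        rw [pow_add, mul_comm, mul_smul, hm, smul_zero] }
  obtain ⟨c, hc⟩ := monotone_stabilizes_iff_noetherian.2 this K
  refine ⟨c, fun n m hm => ?_⟩
  rcases le_total n c with h | h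
  · have : m ∈ K c := K.monotone h (by simpa [K] using hm)
    simpa [K] using this
  · have : m ∈ K n := by simpa [K] using hm
    rw [← hc n h] at this
    simpa [K] using this

end Torsion

section Main

variable {O : Type*} [CommRing O] [IsDomain O] [IsDiscreteValuationRing O]
variable {Ap Am A0 : Type*} [CommRing Ap] [CommRing Am] [CommRing A0]
  [Algebra O Ap] [Algebra O Am] [Algebra O A0]

/-- The submodule `A₊ + A₋` of `A₀`. -/
def chartSum (ip : Ap →ₐ[O] A0) (im : Am →ₐ[O] A0) : Submodule O A0 :=
  LinearMap.range ip.toLinearMap ⊔ LinearMap.range im.toLinearMap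

omit [IsDomain O] [IsDiscreteValuationRing O] in
lemma mem_chartSum_iff (ip : Ap →ₐ[O] A0) (im : Am →ₐ[O] A0) (z : A0) :
    z ∈ chartSum ip im ↔ ∃ u w, z = ip u - im w := by
  constructor
  · intro hz
    obtain ⟨a, ⟨u, rfl⟩, b, ⟨w, rfl⟩, rfl⟩ := Submodule.mem_sup.1 hz
    exact ⟨u, -w, by simp⟩
  · rintro ⟨u, w, rfl⟩
    exact Submodule.sub_mem _ (Submodule.mem_sup_left ⟨u, rfl⟩) (Submodule.mem_sup_right ⟨w, rfl⟩)

/-- **Formal functions / Zariski connectedness, two-chart form.**  If `H⁰ = O` and `H¹` is finitely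
generated, an idempotent of the special fibre is the image of a constant. -/
theorem exists_const_of_idempotent (π : O)
    (ip : Ap →ₐ[O] A0) (im : Am →ₐ[O] A0)
    (h0 : ∀ x y, ip x = im y → ∃ a : O, x = algebraMap O Ap a ∧ y = algebraMap O Am a)
    (h1 : Module.Finite O (A0 ⧸ chartSum ip im))
    (ep : Ap) (em : Am)
    (hep : ep ^ 2 - ep ∈ Ideal.span {algebraMap O Ap π})
    (hem : em ^ 2 - em ∈ Ideal.span {algebraMap O Am π})
    (hcompat : ip ep - im em ∈ Ideal.span {algebraMap O A0 π}) :
    ∃ a : O, ep - algebraMap O Ap a ∈ Ideal.span {algebraMap O Ap π} ∧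
      em - algebraMap O Am a ∈ Ideal.span {algebraMap O Am π} := by
  classical
  set Ip : Ideal Ap := Ideal.span {algebraMap O Ap π} with hIp
  set Im : Ideal Am := Ideal.span {algebraMap O Am π} with hIm
  set I0 : Ideal A0 := Ideal.span {algebraMap O A0 π} with hI0
  obtain ⟨c, hc⟩ := exists_pow_smul_eq_zero_of_finite (O := O) (M := A0 ⧸ chartSum ip im) π
  -- lift the idempotents modulo `π ^ (c + 1)`
  obtain ⟨x, hx1, hx2⟩ := exists_lift_idempotent Ip ep hep (c + 1)
  obtain ⟨y, hy1, hy2⟩ := exists_lift_idempotent Im em hem (c + 1)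
  have hmapp : Ip.map ip.toRingHom ≤ I0 := by
    rw [hIp, Ideal.map_span, Ideal.span_le]
    rintro _ ⟨_, rfl, rfl⟩
    simp only [AlgHom.toRingHom_eq_coe, RingHom.coe_coe, AlgHom.commutes]
    exact Ideal.subset_span rfl
  have hmapm : Im.map im.toRingHom ≤ I0 := by
    rw [hIm, Ideal.map_span, Ideal.span_le]
    rintro _ ⟨_, rfl, rfl⟩
    simp only [AlgHom.toRingHom_eq_coe, RingHom.coe_coe, AlgHom.commutes]
    exact Ideal.subset_span rfl
  have hpow_p : ∀ n, ∀ t ∈ Ip ^ n, ip t ∈ I0 ^ n := fun n t ht =>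
    Ideal.pow_right_mono hmapp n (by
      rw [← Ideal.map_pow]; exact Ideal.mem_map_of_mem ip.toRingHom ht)
  have hpow_m : ∀ n, ∀ t ∈ Im ^ n, im t ∈ I0 ^ n := fun n t ht =>
    Ideal.pow_right_mono hmapm n (by
      rw [← Ideal.map_pow]; exact Ideal.mem_map_of_mem im.toRingHom ht)
  -- the two lifts agree modulo `π ^ (c + 1)` in `A₀`
  have hu : ip x ^ 2 - ip x ∈ I0 ^ (c + 1) := by
    have := hpow_p (c + 1) _ hx2
    simpa using this
  have hw : im y ^ 2 - im y ∈ I0 ^ (c + 1) := by
    have := hpow_m (c + 1) _ hy2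
    simpa using this
  have huw : ip x - im y ∈ I0 := by
    have e1 : ip x - im y = ip (x - ep) - im (y - em) + (ip ep - im em) := by
      simp only [map_sub]; ring
    rw [e1]
    refine I0.add_mem (I0.sub_mem ?_ ?_) hcompat
    · have := hpow_p 1 (x - ep) (by simpa using hx1)
      simpa using this
    · have := hpow_m 1 (y - em) (by simpa using hy1)
      simpa using this
  have hdiff : ip x - im y ∈ I0 ^ (c + 1) := sub_mem_pow_of_idempotent I0 (c + 1) _ _ hu hw huw
  -- write the difference as `π ^ (c + 1) * z`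
  rw [hI0, Ideal.span_singleton_pow, Ideal.mem_span_singleton'] at hdiff
  obtain ⟨z, hz⟩ := hdiff
  -- the class of `z` in `H¹` is torsion, hence killed by `π ^ c`
  have hz0 : (π ^ (c + 1)) • (Submodule.Quotient.mk z : A0 ⧸ chartSum ip im) = 0 := by
    rw [← Submodule.Quotient.mk_smul, Submodule.Quotient.mk_eq_zero, mem_chartSum_iff]
    refine ⟨x, y, ?_⟩
    rw [← hz, Algebra.smul_def, map_pow, mul_comm]
  have hz1 := hc (c + 1) _ hz0
  rw [← Submodule.Quotient.mk_smul, Submodule.Quotient.mk_eq_zero, mem_chartSum_iff] at hz1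
  obtain ⟨u, w, huw'⟩ := hz1
  -- correct the lifts by `π u`, `π w`
  have hkey : ip (x - algebraMap O Ap π * u) = im (y - algebraMap O Am π * w) := by
    have h3 : ip x - im y = algebraMap O A0 π * (ip u - im w) := by
      rw [← huw', ← hz, Algebra.smul_def, map_pow, pow_succ]
      ring
    simp only [map_sub, map_mul, AlgHom.commutes]
    linear_combination h3
  obtain ⟨a, ha1, ha2⟩ := h0 _ _ hkey
  refine ⟨a, ?_, ?_⟩
  · have : ep - algebraMap O Ap a = -(x - ep) + algebraMap O Ap π * u := by
      rw [← ha1]; ring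
    rw [this]
    exact Ip.add_mem (Ip.neg_mem hx1) (Ideal.mul_mem_right _ _ (Ideal.subset_span rfl))
  · have : em - algebraMap O Am a = -(y - em) + algebraMap O Am π * w := by
      rw [← ha2]; ring
    rw [this]
    exact Im.add_mem (Im.neg_mem hy1) (Ideal.mul_mem_right _ _ (Ideal.subset_span rfl))

/-- **Connectedness of the special fibre.**  Under the hypotheses of `exists_const_of_idempotent`,
if `π` is a uniformiser and the special fibre of the chart `A₊` is nonempty, an idempotent of the
special fibre is `0` or `1`. -/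
theorem idempotent_mod_eq_zero_or_one {π : O} (hπ : Irreducible π)
    (ip : Ap →ₐ[O] A0) (im : Am →ₐ[O] A0)
    (h0 : ∀ x y, ip x = im y → ∃ a : O, x = algebraMap O Ap a ∧ y = algebraMap O Am a)
    (h1 : Module.Finite O (A0 ⧸ chartSum ip im))
    (hne : (1 : Ap) ∉ Ideal.span {algebraMap O Ap π})
    (ep : Ap) (em : Am)
    (hep : ep ^ 2 - ep ∈ Ideal.span {algebraMap O Ap π})
    (hem : em ^ 2 - em ∈ Ideal.span {algebraMap O Am π})
    (hcompat : ip ep - im em ∈ Ideal.span {algebraMap O A0 π}) :
    (ep ∈ Ideal.span {algebraMap O Ap π} ∧ em ∈ Ideal.span {algebraMap O Am π}) ∨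
      (ep - 1 ∈ Ideal.span {algebraMap O Ap π} ∧ em - 1 ∈ Ideal.span {algebraMap O Am π}) := by
  obtain ⟨a, ha1, ha2⟩ := exists_const_of_idempotent π ip im h0 h1 ep em hep hem hcompat
  set Ip : Ideal Ap := Ideal.span {algebraMap O Ap π} with hIp
  set Im : Ideal Am := Ideal.span {algebraMap O Am π} with hIm
  -- `a ^ 2 - a` maps into `π A₊`
  have h2 : algebraMap O Ap (a ^ 2 - a) ∈ Ip := by
    have e : algebraMap O Ap (a ^ 2 - a) =
        (ep ^ 2 - ep) - (ep - algebraMap O Ap a) * (ep + algebraMap O Ap a - 1) := by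
      simp only [map_sub, map_pow]; ring
    rw [e]
    exact Ip.sub_mem hep (Ideal.mul_mem_right _ _ ha1)
  -- hence `π ∣ a ^ 2 - a`
  have hdvd : π ∣ a ^ 2 - a := by
    by_contra hnd
    have hunit : IsUnit (a ^ 2 - a) := by
      by_contra hnu
      have hmem : a ^ 2 - a ∈ IsLocalRing.maximalIdeal O := (IsLocalRing.mem_maximalIdeal _).2 hnu
      rw [hπ.maximalIdeal_eq, Ideal.mem_span_singleton] at hmem
      exact hnd hmem
    apply hne
    have : (1 : Ap) = algebraMap O Ap (↑hunit.unit⁻¹) * algebraMap O Ap (a ^ 2 - a) := by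
      rw [← map_mul, ← map_one (algebraMap O Ap)]
      congr 1
      exact (IsUnit.val_inv_mul hunit).symm
    rw [this]
    exact Ideal.mul_mem_left _ _ h2
  have hprime : Prime π := hπ.prime
  have hfac : a ^ 2 - a = a * (a - 1) := by ring
  rw [hfac] at hdvd
  have hmemp : ∀ b : O, π ∣ b → algebraMap O Ap b ∈ Ip := by
    rintro b ⟨t, rfl⟩
    rw [map_mul]
    exact Ideal.mul_mem_right _ _ (Ideal.subset_span rfl)
  have hmemm : ∀ b : O, π ∣ b → algebraMap O Am b ∈ Im := by
    rintro b ⟨t, rfl⟩
    rw [map_mul]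
    exact Ideal.mul_mem_right _ _ (Ideal.subset_span rfl)
  rcases hprime.dvd_or_dvd hdvd with h | h
  · left
    refine ⟨?_, ?_⟩
    · have : ep = (ep - algebraMap O Ap a) + algebraMap O Ap a := by ring
      rw [this]; exact Ip.add_mem ha1 (hmemp a h)
    · have : em = (em - algebraMap O Am a) + algebraMap O Am a := by ring
      rw [this]; exact Im.add_mem ha2 (hmemm a h)
  · right
    refine ⟨?_, ?_⟩
    · have : ep - 1 = (ep - algebraMap O Ap a) + algebraMap O Ap (a - 1) := by
        simp only [map_sub, map_one]; ring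
      rw [this]; exact Ip.add_mem ha1 (hmemp _ h)
    · have : em - 1 = (em - algebraMap O Am a) + algebraMap O Am (a - 1) := by
        simp only [map_sub, map_one]; ring
      rw [this]; exact Im.add_mem ha2 (hmemm _ h)

end Main

end Fermat.Agent.N4.FormalFunctions
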