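/-
N4 block S28a, generic part: "the fibre is reduced and locally irreducible".

For an ideal `I` of a commutative ring `R` (in the applications `I = π R`):

* `UniBranch I` : every prime ideal of `R` contains at most one prime minimal over `I`
  (equivalently: distinct minimal primes over `I` are comaximal);
* `LD I`        : `I` is radical and `UniBranch I`  (`R/I` is reduced and locally a domain).

Permanence:
* `LD.of_sup_eq_top`        : the output shape of the étale normalisation lemma (L2);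
* `LD.descent`              : `LD` descends along ring maps with going-down and lying-over
                              (e.g. integral extensions of integrally closed domains), for contracted ideals;
* `LD.map_localization`     : `LD` passes to localisations;
* `LD.of_cover`             : `LD` can be checked on a cover by basic open sets;
* `comap_map_span_singleton`: principal ideals of an integrally closed domain are contracted from
                              integral extension domains.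

Gluing: `isPrime_span_of_glue` : two charts `R₊, R₋ ⊆ R₀` of a "curve" over a DVR `O` with
`H⁰ = O`, `H¹` finite, both fibres `LD` and noetherian  ⇒  `π R₊` is prime
(connectedness by the formal-functions lemma of `FormalFunctions.lean`).
-/
import Mathlib
import Fermat.Agent.N4.FormalFunctions

set_option autoImplicit false

namespace Fermat.Agent.N4.FibreComponents

section Defs

variable {R : Type*} [CommRing R]

/-- Every prime ideal contains at most one prime minimal over `I`. -/
def UniBranch (I : Ideal R) : Prop :=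
  ∀ 𝔭 : Ideal R, 𝔭.IsPrime → ∀ P ∈ I.minimalPrimes, ∀ Q ∈ I.minimalPrimes,
    P ≤ 𝔭 → Q ≤ 𝔭 → P = Q

/-- `R/I` is reduced and locally a domain. -/
structure LD (I : Ideal R) : Prop where
  isRadical : I.IsRadical
  uniBranch : UniBranch I

theorem uniBranch_of_sup_eq_top {I : Ideal R}
    (h : ∀ P ∈ I.minimalPrimes, ∀ Q ∈ I.minimalPrimes, P ≠ Q → P ⊔ Q = ⊤) : UniBranch I := by
  intro 𝔭 h𝔭 P hP Q hQ hP𝔭 hQ𝔭
  by_contra hne
  have := h P hP Q hQ hne
  exact h𝔭.ne_top (top_le_iff.mp (this ▸ sup_le hP𝔭 hQ𝔭))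

theorem UniBranch.sup_eq_top {I : Ideal R} (h : UniBranch I) {P Q : Ideal R}
    (hP : P ∈ I.minimalPrimes) (hQ : Q ∈ I.minimalPrimes) (hne : P ≠ Q) : P ⊔ Q = ⊤ := by
  by_contra htop
  obtain ⟨𝔪, h𝔪, hle⟩ := Ideal.exists_le_maximal _ htop
  exact hne (h 𝔪 h𝔪.isPrime P hP Q hQ (le_sup_left.trans hle) (le_sup_right.trans hle))

theorem LD.of_sup_eq_top {I : Ideal R} (hrad : I.IsRadical)
    (h : ∀ P ∈ I.minimalPrimes, ∀ Q ∈ I.minimalPrimes, P ≠ Q → P ⊔ Q = ⊤) : LD I :=
  ⟨hrad, uniBranch_of_sup_eq_top h⟩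

end Defs

section Descent

variable {R S : Type*} [CommRing R] [CommRing S] [Algebra R S]

/-- `UniBranch` descends along a ring map with going-down and lying-over. -/
theorem UniBranch.descent [Algebra.HasGoingDown R S]
    (hlo : ∀ 𝔭 : Ideal R, 𝔭.IsPrime → ∃ 𝔮 : Ideal S, 𝔮.IsPrime ∧ 𝔮.under R = 𝔭)
    {I : Ideal R} (h : UniBranch (I.map (algebraMap R S))) : UniBranch I := by
  intro 𝔭 h𝔭 P hP Q hQ hP𝔭 hQ𝔭
  obtain ⟨𝔮, h𝔮, h𝔮𝔭⟩ := hlo 𝔭 h𝔭
  have hPp := hP.isPrime
  have hQp := hQ.isPrime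
  have : 𝔮.LiesOver 𝔭 := ⟨h𝔮𝔭.symm⟩
  obtain ⟨P', hP'𝔮, hP'p, hP'o⟩ := Ideal.exists_ideal_le_liesOver_of_le (p := P) (q := 𝔭) 𝔮 hP𝔭
  obtain ⟨Q', hQ'𝔮, hQ'p, hQ'o⟩ := Ideal.exists_ideal_le_liesOver_of_le (p := Q) (q := 𝔭) 𝔮 hQ𝔭
  have hIP' : I.map (algebraMap R S) ≤ P' := by
    rw [Ideal.map_le_iff_le_comap]
    have := hP'o.over
    exact hP.le.trans_eq this
  have hIQ' : I.map (algebraMap R S) ≤ Q' := by
    rw [Ideal.map_le_iff_le_comap]
    have := hQ'o.over
    exact hQ.le.trans_eq this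
  obtain ⟨P'', hP'', hP''le⟩ := Ideal.exists_minimalPrimes_le hIP'
  obtain ⟨Q'', hQ'', hQ''le⟩ := Ideal.exists_minimalPrimes_le hIQ'
  have heq : P'' = Q'' := h 𝔮 h𝔮 P'' hP'' Q'' hQ'' (hP''le.trans hP'𝔮) (hQ''le.trans hQ'𝔮)
  have hP''p := hP''.isPrime
  have hQ''p := hQ''.isPrime
  -- contract
  have h1 : P''.under R = P := by
    have hle : P''.under R ≤ P := by
      have : P''.under R ≤ P'.under R := Ideal.comap_mono hP''le
      exact this.trans_eq hP'o.over.symm
    have hI : I ≤ P''.under R := Ideal.map_le_iff_le_comap.mp hP''.le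
    exact le_antisymm hle (hP.2 ⟨inferInstance, hI⟩ hle)
  have h2 : Q''.under R = Q := by
    have hle : Q''.under R ≤ Q := by
      have : Q''.under R ≤ Q'.under R := Ideal.comap_mono hQ''le
      exact this.trans_eq hQ'o.over.symm
    have hI : I ≤ Q''.under R := Ideal.map_le_iff_le_comap.mp hQ''.le
    exact le_antisymm hle (hQ.2 ⟨inferInstance, hI⟩ hle)
  rw [← h1, ← h2, heq]

/-- Radicality descends for contracted ideals. -/
theorem isRadical_of_map {I : Ideal R}
    (hc : (I.map (algebraMap R S)).comap (algebraMap R S) ≤ I)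
    (h : (I.map (algebraMap R S)).IsRadical) : I.IsRadical := by
  intro x hx
  obtain ⟨n, hn⟩ := hx
  apply hc
  rw [Ideal.mem_comap]
  apply h
  exact ⟨n, by rw [← map_pow]; exact Ideal.mem_map_of_mem _ hn⟩

/-- **Descent of `LD`.** -/
theorem LD.descent [Algebra.HasGoingDown R S]
    (hlo : ∀ 𝔭 : Ideal R, 𝔭.IsPrime → ∃ 𝔮 : Ideal S, 𝔮.IsPrime ∧ 𝔮.under R = 𝔭)
    {I : Ideal R} (hc : (I.map (algebraMap R S)).comap (algebraMap R S) ≤ I)
    (h : LD (I.map (algebraMap R S))) : LD I :=
  ⟨isRadical_of_map hc h.isRadical, h.uniBranch.descent hlo⟩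

/-- Lying-over for integral extensions, in the shape used by `LD.descent`. -/
theorem exists_under_eq_of_isIntegral [Algebra.IsIntegral R S] [FaithfulSMul R S]
    (𝔭 : Ideal R) (h𝔭 : 𝔭.IsPrime) : ∃ 𝔮 : Ideal S, 𝔮.IsPrime ∧ 𝔮.under R = 𝔭 := by
  obtain ⟨⟨𝔮, h𝔮p, h𝔮o⟩⟩ := Ideal.nonempty_primesOver (S := S) 𝔭
  exact ⟨𝔮, h𝔮p, h𝔮o.over.symm⟩

/-- Principal ideals of an integrally closed domain are contracted from integral extension
domains. -/
theorem comap_map_span_singleton [IsDomain R] [IsIntegrallyClosed R] [IsDomain S]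
    [Algebra.IsIntegral R S] [FaithfulSMul R S] (π : R) :
    ((Ideal.span {π}).map (algebraMap R S)).comap (algebraMap R S) ≤ Ideal.span {π} := by
  intro x hx
  rw [Ideal.mem_comap, Ideal.map_span, Set.image_singleton, Ideal.mem_span_singleton] at hx
  obtain ⟨s, hs⟩ := hx
  rw [Ideal.mem_span_singleton]
  by_cases hπ : π = 0
  · subst hπ
    rw [map_zero, zero_mul] at hs
    have : x = 0 := FaithfulSMul.algebraMap_injective R S (by rw [hs, map_zero])
    rw [this]
  -- work in the fraction fields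
  let K := FractionRing R
  let L := FractionRing S
  have hinj : Function.Injective (algebraMap R S) := FaithfulSMul.algebraMap_injective R S
  have hinjL : Function.Injective (algebraMap R L) := by
    rw [IsScalarTower.algebraMap_eq R S L]
    exact (IsFractionRing.injective S L).comp hinj
  have : FaithfulSMul R L := (faithfulSMul_iff_algebraMap_injective R L).mpr hinjL
  let _ : Algebra K L := FractionRing.liftAlgebra R L
  have : IsScalarTower R K L := FractionRing.isScalarTower_liftAlgebra R L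
  -- `s` is integral over `R`, and `s = x / π` in `L`
  have hsint : IsIntegral R s := Algebra.IsIntegral.isIntegral s
  have hπK : algebraMap R K π ≠ 0 := by
    simpa using (IsFractionRing.injective R K).ne hπ
  -- the element `x / π` of `K` is integral over `R`
  have hint : IsIntegral R (algebraMap R K x / algebraMap R K π) := by
    have hsL : IsIntegral R (algebraMap S L s) := hsint.map (IsScalarTower.toAlgHom R S L)
    have heq : algebraMap K L (algebraMap R K x / algebraMap R K π) = algebraMap S L s := by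
      have hne : algebraMap S L (algebraMap R S π) ≠ 0 := by
        rw [← IsScalarTower.algebraMap_apply R S L]
        exact fun h => hπ (hinjL (by rw [h, map_zero]))
      rw [map_div₀, ← IsScalarTower.algebraMap_apply R K L, ← IsScalarTower.algebraMap_apply R K L,
        IsScalarTower.algebraMap_apply R S L x, IsScalarTower.algebraMap_apply R S L π, hs,
        map_mul, mul_div_cancel_left₀ _ hne]
    rw [← heq] at hsL
    exact (isIntegral_algHom_iff (IsScalarTower.toAlgHom R K L)
      (algebraMap K L).injective).mp hsL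
  obtain ⟨y, hy⟩ := IsIntegrallyClosed.algebraMap_eq_of_integral hint
  refine ⟨y, ?_⟩
  apply IsFractionRing.injective R K
  rw [map_mul, hy, mul_div_cancel₀ _ hπK]

end Descent

section Localization

variable {R : Type*} [CommRing R] (M : Submonoid R) (A : Type*) [CommRing A] [Algebra R A]
  [IsLocalization M A]

include M

/-- `UniBranch` passes to localisations. -/
theorem UniBranch.map_localization {I : Ideal R} (h : UniBranch I) :
    UniBranch (I.map (algebraMap R A)) := by
  intro 𝔭 h𝔭 P hP Q hQ hP𝔭 hQ𝔭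
  rw [IsLocalization.minimalPrimes_map M A I] at hP hQ
  have := h (𝔭.under R) (Ideal.IsPrime.under R 𝔭) (P.under R) hP (Q.under R) hQ
    (Ideal.comap_mono hP𝔭) (Ideal.comap_mono hQ𝔭)
  rw [← IsLocalization.map_under M A P, ← IsLocalization.map_under M A Q]
  exact congrArg (Ideal.map (algebraMap R A)) this

/-- Radicality passes to localisations. -/
theorem isRadical_map_localization {I : Ideal R} (h : I.IsRadical) :
    (I.map (algebraMap R A)).IsRadical := by
  intro x hx
  obtain ⟨n, hn⟩ := hx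
  rcases n with _ | n
  · rw [pow_zero] at hn
    rw [(Ideal.eq_top_iff_one _).mpr hn]
    exact Submodule.mem_top
  obtain ⟨⟨a, s⟩, hxs⟩ := IsLocalization.surj M x
  simp only at hxs
  -- `a ^ (n+1) / 1 ∈ I A`
  have h1 : algebraMap R A (a ^ (n + 1)) ∈ I.map (algebraMap R A) := by
    rw [map_pow, ← hxs, mul_pow]
    exact Ideal.mul_mem_right _ _ hn
  rw [IsLocalization.algebraMap_mem_map_algebraMap_iff M] at h1
  obtain ⟨t, ht, hta⟩ := h1
  have h2 : (t * a) ^ (n + 1) ∈ I := by
    rw [mul_pow, pow_succ t, mul_assoc]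
    exact Ideal.mul_mem_left _ _ hta
  have h3 : t * a ∈ I := h ⟨n + 1, h2⟩
  have h4 : algebraMap R A a ∈ I.map (algebraMap R A) := by
    rw [IsLocalization.algebraMap_mem_map_algebraMap_iff M]
    exact ⟨t, ht, h3⟩
  have hs : IsUnit (algebraMap R A s) := IsLocalization.map_units A s
  have : x = algebraMap R A a * ↑hs.unit⁻¹ := by
    rw [← hxs, mul_assoc, IsUnit.mul_val_inv, mul_one]
  rw [this]
  exact Ideal.mul_mem_right _ _ h4

/-- `LD` passes to localisations. -/
theorem LD.map_localization {I : Ideal R} (h : LD I) : LD (I.map (algebraMap R A)) :=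
  ⟨isRadical_map_localization M A h.isRadical, h.uniBranch.map_localization M A⟩

end Localization

section Cover

universe u v

variable {R : Type u} [CommRing R]

/-- `UniBranch` can be checked on a cover by basic open sets. -/
theorem UniBranch.of_cover {I : Ideal R}
    (h : ∀ 𝔭 : Ideal R, 𝔭.IsPrime → ∃ f : R, f ∉ 𝔭 ∧
      ∃ (A : Type v) (_ : CommRing A) (_ : Algebra R A) (_ : IsLocalization.Away f A),
        UniBranch (I.map (algebraMap R A))) : UniBranch I := by
  intro 𝔭 h𝔭 P hP Q hQ hP𝔭 hQ𝔭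
  obtain ⟨f, hf, A, _, _, _, hA⟩ := h 𝔭 h𝔭
  have hPp := hP.isPrime
  have hQp := hQ.isPrime
  have hdisj : ∀ J : Ideal R, J ≤ 𝔭 → Disjoint (Submonoid.powers f : Set R) (J : Set R) := by
    intro J hJ
    rw [Set.disjoint_left]
    rintro _ ⟨n, rfl⟩ hn
    exact hf (h𝔭.mem_of_pow_mem n (hJ hn))
  have hPu : (P.map (algebraMap R A)).under R = P :=
    IsLocalization.under_map_of_isPrime_disjoint (Submonoid.powers f) A hPp (hdisj P hP𝔭)
  have hQu : (Q.map (algebraMap R A)).under R = Q :=
    IsLocalization.under_map_of_isPrime_disjoint (Submonoid.powers f) A hQp (hdisj Q hQ𝔭)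
  have h𝔭' : (𝔭.map (algebraMap R A)).IsPrime :=
    IsLocalization.isPrime_of_isPrime_disjoint (Submonoid.powers f) A 𝔭 h𝔭 (hdisj 𝔭 le_rfl)
  have hP' : P.map (algebraMap R A) ∈ (I.map (algebraMap R A)).minimalPrimes := by
    rw [IsLocalization.minimalPrimes_map (Submonoid.powers f) A I, Set.mem_preimage, hPu]
    exact hP
  have hQ' : Q.map (algebraMap R A) ∈ (I.map (algebraMap R A)).minimalPrimes := by
    rw [IsLocalization.minimalPrimes_map (Submonoid.powers f) A I, Set.mem_preimage, hQu]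
    exact hQ
  have := hA _ h𝔭' _ hP' _ hQ' (Ideal.map_mono hP𝔭) (Ideal.map_mono hQ𝔭)
  rw [← hPu, ← hQu, this]

/-- Radicality can be checked on a cover by basic open sets. -/
theorem isRadical_of_cover {I : Ideal R}
    (h : ∀ 𝔭 : Ideal R, 𝔭.IsPrime → ∃ f : R, f ∉ 𝔭 ∧
      ∃ (A : Type v) (_ : CommRing A) (_ : Algebra R A) (_ : IsLocalization.Away f A),
        (I.map (algebraMap R A)).IsRadical) : I.IsRadical := by
  intro x hx
  obtain ⟨n, hn⟩ := hx
  apply Ideal.mem_of_localization_maximal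
  intro 𝔪 h𝔪
  obtain ⟨f, hf, A, _, _, _, hA⟩ := h 𝔪 h𝔪.isPrime
  have h1 : algebraMap R A x ∈ I.map (algebraMap R A) :=
    hA ⟨n, by rw [← map_pow]; exact Ideal.mem_map_of_mem _ hn⟩
  rw [IsLocalization.algebraMap_mem_map_algebraMap_iff (Submonoid.powers f)] at h1
  obtain ⟨m, ⟨k, rfl⟩, hm⟩ := h1
  rw [IsLocalization.algebraMap_mem_map_algebraMap_iff 𝔪.primeCompl]
  exact ⟨f ^ k, fun hmem => hf (h𝔪.isPrime.mem_of_pow_mem k hmem), hm⟩

/-- **`LD` can be checked on a cover by basic open sets.** -/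
theorem LD.of_cover {I : Ideal R}
    (h : ∀ 𝔭 : Ideal R, 𝔭.IsPrime → ∃ f : R, f ∉ 𝔭 ∧
      ∃ (A : Type v) (_ : CommRing A) (_ : Algebra R A) (_ : IsLocalization.Away f A),
        LD (I.map (algebraMap R A))) : LD I := by
  refine ⟨isRadical_of_cover.{u, v} fun 𝔭 h𝔭 => ?_, UniBranch.of_cover.{u, v} fun 𝔭 h𝔭 => ?_⟩
  · obtain ⟨f, hf, A, i1, i2, i3, hA⟩ := h 𝔭 h𝔭
    exact ⟨f, hf, A, i1, i2, i3, hA.isRadical⟩
  · obtain ⟨f, hf, A, i1, i2, i3, hA⟩ := h 𝔭 h𝔭
    exact ⟨f, hf, A, i1, i2, i3, hA.uniBranch⟩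

end Cover

section Glue

open Fermat.Agent.N4.FormalFunctions

variable {O : Type*} [CommRing O] [IsDomain O] [IsDiscreteValuationRing O]
variable {Rp Rm R0 : Type*} [CommRing Rp] [CommRing Rm] [CommRing R0]
  [Algebra O Rp] [Algebra O Rm] [Algebra O R0]

/-- In a noetherian ring, an `LD` ideal admits idempotents modulo `I` with prescribed values
`0, 1` on the minimal primes over `I`. -/
theorem LD.exists_idempotent {R : Type*} [CommRing R] [IsNoetherianRing R] {I : Ideal R}
    (h : LD I) (g : I.minimalPrimes → Prop) :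
    ∃ e : R, e ^ 2 - e ∈ I ∧ (∀ Q : I.minimalPrimes, g Q → e - 1 ∈ (Q : Ideal R)) ∧
      (∀ Q : I.minimalPrimes, ¬ g Q → e ∈ (Q : Ideal R)) := by
  classical
  have hfin := Ideal.finite_minimalPrimes_of_isNoetherianRing R I
  have : Finite ↥I.minimalPrimes := hfin.to_subtype
  have hcop : Pairwise (Function.onFun IsCoprime fun i : ↥I.minimalPrimes => (i : Ideal R)) := by
    intro i j hij
    rw [Function.onFun, Ideal.isCoprime_iff_sup_eq]
    exact h.uniBranch.sup_eq_top i.2 j.2 (fun h => hij (Subtype.ext h))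
  obtain ⟨e, he⟩ := Ideal.exists_forall_sub_mem_ideal hcop (fun i => if g i then 1 else 0)
  have h1 : ∀ Q : I.minimalPrimes, g Q → e - 1 ∈ (Q : Ideal R) := fun Q hQ => by
    simpa [hQ] using he Q
  have h2 : ∀ Q : I.minimalPrimes, ¬ g Q → e ∈ (Q : Ideal R) := fun Q hQ => by
    simpa [hQ] using he Q
  refine ⟨e, ?_, h1, h2⟩
  rw [← h.isRadical.radical, ← Ideal.sInf_minimalPrimes, Ideal.mem_sInf]
  intro Q hQ
  by_cases hg : g ⟨Q, hQ⟩
  · have : e ^ 2 - e = (e - 1) * e := by ring
    rw [this]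
    exact Ideal.mul_mem_right _ _ (h1 ⟨Q, hQ⟩ hg)
  · have : e ^ 2 - e = (e - 1) * e := by ring
    rw [this]
    exact Ideal.mul_mem_left _ _ (h2 ⟨Q, hQ⟩ hg)

/-- An element lying in all minimal primes over a radical ideal lies in the ideal. -/
theorem LD.mem_of_forall_mem {R : Type*} [CommRing R] {I : Ideal R} (h : LD I) {x : R}
    (hx : ∀ Q ∈ I.minimalPrimes, x ∈ Q) : x ∈ I := by
  rw [← h.isRadical.radical, ← Ideal.sInf_minimalPrimes, Ideal.mem_sInf]
  exact fun Q hQ => hx Q hQ

/-- **Gluing.**  Two charts `R₊ → R₀ ← R₋` over a DVR `O` with `H⁰ = O` and `H¹` finite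
(`h0`, `h1`), `R₀ = R₋[1/j₋]` with `j₋` a nonzerodivisor modulo `π`; both charts noetherian with
`LD` special fibre.  Then `π R₊` is a prime ideal. -/
theorem isPrime_span_of_glue [IsNoetherianRing Rp] [IsNoetherianRing Rm]
    {π : O} (hπ : Irreducible π)
    (ip : Rp →ₐ[O] R0) (im : Rm →ₐ[O] R0) (him : Function.Injective im)
    (h0 : ∀ x y, ip x = im y → ∃ a : O, x = algebraMap O Rp a ∧ y = algebraMap O Rm a)
    (h1 : Module.Finite O (R0 ⧸ chartSum ip im))
    (hne : (1 : Rp) ∉ Ideal.span {algebraMap O Rp π})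
    (jm : Rm) (hjm : IsUnit (im jm))
    (hsurj : ∀ z : R0, ∃ (n : ℕ) (y : Rm), im y = im jm ^ n * z)
    (hreg : ∀ x : Rm, jm * x ∈ Ideal.span {algebraMap O Rm π} →
      x ∈ Ideal.span {algebraMap O Rm π})
    (hLDp : LD (Ideal.span {algebraMap O Rp π}))
    (hLDm : LD (Ideal.span {algebraMap O Rm π})) :
    (Ideal.span {algebraMap O Rp π}).IsPrime := by
  classical
  set Ip : Ideal Rp := Ideal.span {algebraMap O Rp π} with hIp
  set Im : Ideal Rm := Ideal.span {algebraMap O Rm π} with hIm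
  set I0 : Ideal R0 := Ideal.span {algebraMap O R0 π} with hI0
  have hIp_ne : Ip ≠ ⊤ := (Ideal.ne_top_iff_one _).mpr hne
  obtain ⟨𝔪, h𝔪, h𝔪le⟩ := Ideal.exists_le_maximal Ip hIp_ne
  have := h𝔪.isPrime
  obtain ⟨P, hP, -⟩ := Ideal.exists_minimalPrimes_le h𝔪le
  have hPp := hP.isPrime
  suffices hall : ∀ Q ∈ Ip.minimalPrimes, Q = P by
    have hs : Ip.minimalPrimes = {P} := Set.eq_singleton_iff_unique_mem.mpr ⟨hP, hall⟩
    have : Ip = P := by
      rw [← hLDp.isRadical.radical, ← Ideal.sInf_minimalPrimes, hs, sInf_singleton]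
    rw [this]
    exact hPp
  intro Q hQ
  by_contra hQP
  -- the idempotent `e₊` which is `1` on `P` and `0` on the other components
  obtain ⟨ep, hep, hep1, hep0⟩ := hLDp.exists_idempotent (fun i => (i : Ideal Rp) = P)
  have hepP : ep - 1 ∈ P := hep1 ⟨P, hP⟩ rfl
  have hepQ : ep ∈ Q := hep0 ⟨Q, hQ⟩ hQP
  -- images of `π`-multiples
  have hipI : ∀ x ∈ Ip, ip x ∈ I0 := by
    intro x hx
    rw [hIp, Ideal.mem_span_singleton'] at hx
    obtain ⟨a, rfl⟩ := hx
    rw [map_mul, AlgHom.commutes]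
    exact Ideal.mul_mem_left _ _ (Ideal.subset_span rfl)
  have himI : ∀ x ∈ Im, im x ∈ I0 := by
    intro x hx
    rw [hIm, Ideal.mem_span_singleton'] at hx
    obtain ⟨a, rfl⟩ := hx
    rw [map_mul, AlgHom.commutes]
    exact Ideal.mul_mem_left _ _ (Ideal.subset_span rfl)
  -- `π R₀ ∩ R₋ = π R₋`
  have hregpow : ∀ (k : ℕ) (x : Rm), jm ^ k * x ∈ Im → x ∈ Im := by
    intro k
    induction k with
    | zero => intro x hx; simpa using hx
    | succ k ih =>
      intro x hx
      apply ih
      apply hreg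
      rwa [← mul_assoc, ← pow_succ']
  have hmem0 : ∀ x : Rm, im x ∈ I0 → x ∈ Im := by
    intro x hx
    rw [hI0, Ideal.mem_span_singleton'] at hx
    obtain ⟨z, hz⟩ := hx
    obtain ⟨k, w, hw⟩ := hsurj z
    apply hregpow k
    have : jm ^ k * x = w * algebraMap O Rm π := by
      apply him
      rw [map_mul, map_pow, ← hz, map_mul, AlgHom.commutes, hw]
      ring
    rw [this]
    exact Ideal.mul_mem_left _ _ (Ideal.subset_span rfl)
  -- transport `e₊` to `R₋`
  obtain ⟨n, y, hy⟩ := hsurj (ip ep)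
  have hyy : y * (y - jm ^ n) ∈ Im := by
    apply hmem0
    have : im (y * (y - jm ^ n)) = im jm ^ (2 * n) * ip (ep ^ 2 - ep) := by
      rw [map_mul, map_sub, map_pow, hy, map_sub, map_pow]
      ring
    rw [this]
    exact Ideal.mul_mem_left _ _ (hipI _ hep)
  obtain ⟨em, hem, hem1, hem0⟩ := hLDm.exists_idempotent (fun i => y ∉ (i : Ideal Rm))
  have hcong : jm ^ n * em - y ∈ Im := by
    apply hLDm.mem_of_forall_mem
    intro Q' hQ'
    have hQ'p := hQ'.isPrime
    by_cases hyQ : y ∈ Q'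
    · have : em ∈ Q' := hem0 ⟨Q', hQ'⟩ (by simpa using hyQ)
      exact Ideal.sub_mem _ (Ideal.mul_mem_left _ _ this) hyQ
    · have h1' : em - 1 ∈ Q' := hem1 ⟨Q', hQ'⟩ hyQ
      have h2' : y - jm ^ n ∈ Q' := (hQ'p.mem_or_mem (hQ'.1.2 hyy)).resolve_left hyQ
      have : jm ^ n * em - y = jm ^ n * (em - 1) - (y - jm ^ n) := by ring
      rw [this]
      exact Ideal.sub_mem _ (Ideal.mul_mem_left _ _ h1') h2'
  have hcompat : ip ep - im em ∈ I0 := by
    have h3 := himI _ hcong
    have : im (jm ^ n * em - y) = im jm ^ n * (im em - ip ep) := by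
      rw [map_sub, map_mul, map_pow, hy]
      ring
    rw [this, Ideal.unit_mul_mem_iff_mem _ (hjm.pow n)] at h3
    have : ip ep - im em = -(im em - ip ep) := by ring
    rw [this]
    exact Ideal.neg_mem_iff _ |>.mpr h3
  rcases idempotent_mod_eq_zero_or_one hπ ip im h0 h1 hne ep em hep hem hcompat with
    ⟨h, -⟩ | ⟨h, -⟩
  · apply hPp.ne_top
    rw [Ideal.eq_top_iff_one]
    have : (1 : Rp) = ep - (ep - 1) := by ring
    rw [this]
    exact Ideal.sub_mem _ (hP.1.2 h) hepP
  · apply hQ.isPrime.ne_top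
    rw [Ideal.eq_top_iff_one]
    have : (1 : Rp) = ep - (ep - 1) := by ring
    rw [this]
    exact Ideal.sub_mem _ hepQ (hQ.1.2 h)

end Glue

end Fermat.Agent.N4.FibreComponents
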