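/-
N4 block S28a, chart level (abstract): from the étale normalisation lemma (L2) to the primality
of the fibre ideals of the two charts of the `j`-line.

* `LD_span_of_hyp`     : L2 + descent.  `R` an integrally closed domain, `L ⊇ R` a field,
                         `B ⊆ L` with `EtaleNormalization.Hyp B E L π` such that the integral closures
                         of `R` and `B` in `L` coincide  ⇒  `LD (π R)`.
-/
import Mathlib
import Fermat.Agent.N4.Chart
import Fermat.Agent.N4.FibreComponents
import Fermat.Agent.N4.EtaleNormalization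

set_option autoImplicit false

namespace Fermat.Agent.N4.FibreCharts

open Fermat.Agent.N4.FibreComponents Fermat.Agent.N4.EtaleNormalization Fermat.Agent.N4.Chart

section HypToLD

variable {R B E L : Type*} [CommRing R] [IsDomain R] [IsIntegrallyClosed R]
  [CommRing B] [IsDomain B] [IsIntegrallyClosed B] [IsNoetherianRing B]
  [Field E] [Algebra B E] [IsFractionRing B E]
  [Field L] [Algebra E L] [Algebra B L] [IsScalarTower B E L] [FiniteDimensional E L]
  [Algebra.IsSeparable E L] [Algebra R L] [FaithfulSMul R L]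

/-- **L2 + descent.** If the integral closures of `R` and `B` in `L` coincide and `(B, E, L, π)`
satisfies the hypotheses of the étale normalisation lemma, then `R/π` is reduced and locally a
domain. -/
theorem LD_span_of_hyp {πB : B} {πR : R} (hππ : algebraMap B L πB = algebraMap R L πR)
    [IsPrincipalIdealRing (B ⧸ Ideal.span {πB})] (h : Hyp B E L πB)
    (hRB : ∀ x : L, IsIntegral R x ↔ IsIntegral B x) :
    LD (Ideal.span {πR}) := by
  let S := integralClosure R L
  let f : B →+* S := (algebraMap B L).codRestrict S (fun b => (hRB _).mpr isIntegral_algebraMap)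
  let _ : Algebra B S := f.toAlgebra
  have : IsScalarTower B S L := IsScalarTower.of_algebraMap_eq (fun b => rfl)
  have : IsIntegralClosure S B L :=
    ⟨Subtype.val_injective, fun {x} => ⟨fun hx => ⟨⟨x, (hRB x).mpr hx⟩, rfl⟩, by
      rintro ⟨y, rfl⟩
      exact (hRB _).mp y.2⟩⟩
  have : Module.Finite B S := IsIntegralClosure.finite B E L S
  have hLDS : LD (Ideal.span {algebraMap B S πB}) :=
    LD.of_sup_eq_top (h.isRadical S)
      (fun P hP Q hQ hne => h.sup_eq_top_of_mem_minimalPrimes S hP hQ hne)
  have heq : algebraMap B S πB = algebraMap R S πR := Subtype.ext hππ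
  have hmap : (Ideal.span {πR}).map (algebraMap R S) = Ideal.span {algebraMap B S πB} := by
    rw [Ideal.map_span, Set.image_singleton, heq]
  have hinj : Function.Injective (algebraMap R S) := by
    intro a b hab
    apply FaithfulSMul.algebraMap_injective R L
    exact congrArg Subtype.val hab
  have : FaithfulSMul R S := (faithfulSMul_iff_algebraMap_injective R S).mpr hinj
  exact LD.descent (exists_under_eq_of_isIntegral) (comap_map_span_singleton πR) (hmap ▸ hLDS)

end HypToLD

section ChartLemmas

variable {O F : Type*} [CommRing O] [Field F] [Algebra O F]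

/-- A chart is an integrally closed domain. -/
instance isIntegrallyClosed_chartAlg (S : Set F) : IsIntegrallyClosed (chartAlg O F S) := by
  have : IsIntegrallyClosedIn (chartAlg O F S) F := by
    refine isIntegrallyClosedIn_iff.mpr ⟨Subtype.val_injective, fun {x} hx => ?_⟩
    exact ⟨⟨x, isIntegral_chartAlg_iff.mp hx⟩, rfl⟩
  exact IsIntegrallyClosed.of_isIntegrallyClosedIn (chartAlg O F S) F

/-- Adjoining an element of the chart to the generating set does not change the chart. -/
theorem chartAlg_insert_of_mem {S : Set F} {s : F} (hs : s ∈ chartAlg O F S) :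
    chartAlg O F (insert s S) = chartAlg O F S := by
  refine le_antisymm (fun x hx => ?_) (chartAlg_mono (Set.subset_insert s S))
  rw [mem_chartAlg_iff] at hx
  have hle : Algebra.adjoin O (insert s S) ≤ chartAlg O F S := by
    apply Algebra.adjoin_le
    rintro y (rfl | hy)
    · exact hs
    · exact subset_chartAlg S hy
  have : IsIntegral (chartAlg O F S) x :=
    hx.map_of_comp_eq (Subalgebra.inclusion hle).toRingHom (RingHom.id F) (by ext; rfl)
  exact isIntegral_chartAlg_iff.mp this

theorem exists_pow_mul_mem_chartAlg' {S : Set F} {s : F} (hs : s ∈ chartAlg O F S) (hs0 : s ≠ 0)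
    {x : F} (hx : x ∈ chartAlg O F (insert s⁻¹ S)) : ∃ n : ℕ, s ^ n * x ∈ chartAlg O F S := by
  have hx' : x ∈ chartAlg O F (insert s⁻¹ (insert s S)) :=
    chartAlg_mono (Set.insert_subset_insert (Set.subset_insert s S)) hx
  obtain ⟨n, hn⟩ := exists_pow_mul_mem_chartAlg (Set.mem_insert s S) hs0 hx'
  exact ⟨n, chartAlg_insert_of_mem hs ▸ hn⟩

theorem isUnit_chartIncl' {S : Set F} (s : chartAlg O F S) (hs0 : (s : F) ≠ 0) :
    IsUnit (chartIncl (O := O) (Set.subset_insert (s : F)⁻¹ S) s) := by
  refine .of_mul_eq_one ⟨(s : F)⁻¹, subset_chartAlg _ (Set.mem_insert _ _)⟩ (Subtype.ext ?_)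
  rw [Subalgebra.coe_mul, Subalgebra.coe_one, coe_chartIncl]
  exact mul_inv_cancel₀ hs0

/-- `chartAlg (insert s⁻¹ S)` is the localisation of `chartAlg S` at any nonzero element `s` of
`chartAlg S`. -/
theorem isLocalization_away_chartIncl' {S : Set F} (s : chartAlg O F S) (hs0 : (s : F) ≠ 0) :
    letI := (chartIncl (O := O) (Set.subset_insert (s : F)⁻¹ S)).toRingHom.toAlgebra
    IsLocalization.Away s (chartAlg O F (insert (s : F)⁻¹ S)) := by
  letI := (chartIncl (O := O) (Set.subset_insert (s : F)⁻¹ S)).toRingHom.toAlgebra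
  refine (isLocalization_iff _ _).mpr ⟨?_, ?_, ?_⟩
  · rintro ⟨_, n, rfl⟩
    rw [RingHom.algebraMap_toAlgebra, map_pow]
    exact (isUnit_chartIncl' s hs0).pow n
  · intro z
    obtain ⟨n, hn⟩ := exists_pow_mul_mem_chartAlg' s.2 hs0 z.2
    refine ⟨(⟨(s : F) ^ n * z, hn⟩, ⟨s ^ n, n, rfl⟩), Subtype.ext ?_⟩
    simp only [RingHom.algebraMap_toAlgebra, map_pow, Subalgebra.coe_mul, Subalgebra.coe_pow,
      AlgHom.toRingHom_eq_coe, AlgHom.coe_toRingHom, coe_chartIncl]
    exact mul_comm _ _
  · intro x y h
    refine ⟨1, ?_⟩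
    rw [RingHom.algebraMap_toAlgebra] at h
    rw [chartIncl_injective _ h]

/-- The fibre ideal of a chart depends only on the generating set. -/
theorem LD_chart_congr {S T : Set F} (h : S = T) (π : O)
    (hLD : LD (Ideal.span {algebraMap O (chartAlg O F S) π})) :
    LD (Ideal.span {algebraMap O (chartAlg O F T) π}) := by
  subst h; exact hLD

end ChartLemmas

section FieldExt

open Polynomial

variable {O F L : Type*} [CommRing O] [Field F] [Algebra O F] [Field L] [Algebra O L]
  [Algebra F L] [IsScalarTower O F L]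

theorem algebraMap_mem_chartAlg {S : Set F} {x : F} (hx : x ∈ chartAlg O F S) :
    algebraMap F L x ∈ chartAlg O L (algebraMap F L '' S) := by
  rw [mem_chartAlg_iff] at hx ⊢
  let φ : F →ₐ[O] L := IsScalarTower.toAlgHom O F L
  have hmem : ∀ a : Algebra.adjoin O S, φ a ∈ Algebra.adjoin O (algebraMap F L '' S) := by
    intro a
    have : (Algebra.adjoin O S).map φ = Algebra.adjoin O (φ '' S) := AlgHom.map_adjoin φ S
    have h2 : φ a ∈ (Algebra.adjoin O S).map φ := Subalgebra.mem_map.mpr ⟨a, a.2, rfl⟩
    rw [this] at h2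
    exact h2
  let g : Algebra.adjoin O S →ₐ[O] Algebra.adjoin O (algebraMap F L '' S) :=
    (φ.comp (Algebra.adjoin O S).val).codRestrict _ hmem
  exact hx.map_of_comp_eq g.toRingHom φ.toRingHom (by ext; rfl)

/-- The map of charts induced by a field extension. -/
def chartMap (S : Set F) : chartAlg O F S →ₐ[O] chartAlg O L (algebraMap F L '' S) :=
  ((IsScalarTower.toAlgHom O F L).comp (chartAlg O F S).val).codRestrict _
    (fun x => algebraMap_mem_chartAlg x.2)

@[simp] theorem coe_chartMap (S : Set F) (x : chartAlg O F S) :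
    (chartMap (L := L) S x : L) = algebraMap F L x := rfl

theorem chartMap_injective (S : Set F) : Function.Injective (chartMap (O := O) (L := L) S) := by
  intro x y h
  apply Subtype.ext
  apply (algebraMap F L).injective
  exact congrArg Subtype.val h

/-- The upper chart is integral over the lower one. -/
theorem isIntegral_chartMap (S : Set F) (y : chartAlg O L (algebraMap F L '' S)) :
    (chartMap (O := O) (L := L) S).toRingHom.IsIntegralElem y := by
  classical
  let φ : F →ₐ[O] L := IsScalarTower.toAlgHom O F L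
  have hy := y.2
  rw [mem_chartAlg_iff] at hy
  obtain ⟨p, hp, hpy⟩ := hy
  -- the surjection `O[S] → O[φ S]`
  have hmem : ∀ a : Algebra.adjoin O S, φ a ∈ Algebra.adjoin O (algebraMap F L '' S) := by
    intro a
    have : (Algebra.adjoin O S).map φ = Algebra.adjoin O (φ '' S) := AlgHom.map_adjoin φ S
    have h2 : φ a ∈ (Algebra.adjoin O S).map φ := Subalgebra.mem_map.mpr ⟨a, a.2, rfl⟩
    rw [this] at h2
    exact h2
  let g : Algebra.adjoin O S →ₐ[O] Algebra.adjoin O (algebraMap F L '' S) :=
    (φ.comp (Algebra.adjoin O S).val).codRestrict _ hmem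
  have hg : Function.Surjective g := by
    rintro ⟨b, hb⟩
    have : (Algebra.adjoin O S).map φ = Algebra.adjoin O (φ '' S) := AlgHom.map_adjoin φ S
    have hb' : b ∈ (Algebra.adjoin O S).map φ := by rw [this]; exact hb
    obtain ⟨a, ha, rfl⟩ := Subalgebra.mem_map.mp hb'
    exact ⟨⟨a, ha⟩, Subtype.ext rfl⟩
  have hlifts : p ∈ Polynomial.lifts g.toRingHom := by
    rw [Polynomial.mem_lifts]
    exact Polynomial.map_surjective g.toRingHom hg p
  obtain ⟨q, hqp, -, hq⟩ := Polynomial.lifts_and_degree_eq_and_monic hlifts hp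
  -- push `q` to the lower chart
  let ι : Algebra.adjoin O S →+* chartAlg O F S :=
    (Subalgebra.inclusion (adjoin_le_chartAlg S)).toRingHom
  refine ⟨q.map ι, hq.map ι, ?_⟩
  apply Subtype.val_injective
  have h1 : ((Polynomial.eval₂ (chartMap (O := O) (L := L) S).toRingHom y (q.map ι) :
      chartAlg O L (algebraMap F L '' S)) : L) =
      Polynomial.eval₂ ((chartAlg O L (algebraMap F L '' S)).val.toRingHom.comp
        ((chartMap (O := O) (L := L) S).toRingHom.comp ι)) (y : L) q := by
    rw [Polynomial.eval₂_map]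
    exact Polynomial.hom_eval₂ q _ (chartAlg O L (algebraMap F L '' S)).val.toRingHom y
  have h2 : Polynomial.eval₂ (algebraMap (Algebra.adjoin O (algebraMap F L '' S)) L) (y : L) p
      = Polynomial.eval₂ ((algebraMap (Algebra.adjoin O (algebraMap F L '' S)) L).comp
        g.toRingHom) (y : L) q := by
    rw [← hqp, Polynomial.eval₂_map]
  rw [h1]
  have h3 : ((chartAlg O L (algebraMap F L '' S)).val.toRingHom.comp
        ((chartMap (O := O) (L := L) S).toRingHom.comp ι)) =
      (algebraMap (Algebra.adjoin O (algebraMap F L '' S)) L).comp g.toRingHom := by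
    ext a; rfl
  rw [h3, ← h2, hpy]
  rfl

/-- **Descent of `LD` from the chart of a bigger field.** -/
theorem LD_chart_descent (S : Set F) (π : O)
    (h : LD (Ideal.span {algebraMap O (chartAlg O L (algebraMap F L '' S)) π})) :
    LD (Ideal.span {algebraMap O (chartAlg O F S) π}) := by
  letI : Algebra (chartAlg O F S) (chartAlg O L (algebraMap F L '' S)) :=
    (chartMap (O := O) (L := L) S).toRingHom.toAlgebra
  have hint : Algebra.IsIntegral (chartAlg O F S) (chartAlg O L (algebraMap F L '' S)) :=
    ⟨fun y => isIntegral_chartMap S y⟩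
  have hfaith : FaithfulSMul (chartAlg O F S) (chartAlg O L (algebraMap F L '' S)) :=
    (faithfulSMul_iff_algebraMap_injective _ _).mpr (chartMap_injective S)
  have hmap : (Ideal.span {algebraMap O (chartAlg O F S) π}).map
      (algebraMap (chartAlg O F S) (chartAlg O L (algebraMap F L '' S))) =
      Ideal.span {algebraMap O (chartAlg O L (algebraMap F L '' S)) π} := by
    rw [Ideal.map_span, Set.image_singleton]
    congr 2
    exact (chartMap (O := O) (L := L) S).commutes π
  exact LD.descent exists_under_eq_of_isIntegral (comap_map_span_singleton _) (hmap ▸ h)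

end FieldExt

section Main

open Fermat.Agent.N4.FormalFunctions

variable {O F : Type*} [CommRing O] [IsDomain O] [IsDiscreteValuationRing O]
  [Field F] [Algebra O F]

/-- Gluing for two charts `{a}`, `{b}` with `a b = 1`. -/
theorem isPrime_of_glue_charts {π : O} (hπ : Irreducible π) {a b : F} (hab : a * b = 1)
    {T : Set F} (ha : {a} ⊆ T) (hb : {b} ⊆ T) (hT : T ⊆ {a, b})
    [IsNoetherianRing (chartAlg O F {a})] [IsNoetherianRing (chartAlg O F {b})]
    (h0 : ∀ x : F, x ∈ chartAlg O F {a} → x ∈ chartAlg O F {b} → x ∈ (algebraMap O F).range)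
    (h1 : Module.Finite O (chartAlg O F T ⧸ chartSum (chartIncl (O := O) ha) (chartIncl hb)))
    (hne : (1 : chartAlg O F {a}) ∉ Ideal.span {algebraMap O (chartAlg O F {a}) π})
    (hreg : ∀ x : chartAlg O F {b},
      chartGen (O := O) (Set.mem_singleton b) * x ∈ Ideal.span {algebraMap O (chartAlg O F {b}) π} →
        x ∈ Ideal.span {algebraMap O (chartAlg O F {b}) π})
    (hLDa : LD (Ideal.span {algebraMap O (chartAlg O F {a}) π}))
    (hLDb : LD (Ideal.span {algebraMap O (chartAlg O F {b}) π})) :
    (Ideal.span {algebraMap O (chartAlg O F {a}) π}).IsPrime := by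
  have hb0 : b ≠ 0 := right_ne_zero_of_mul_eq_one hab
  have hainv : a = b⁻¹ := eq_inv_of_mul_eq_one_left hab
  refine isPrime_span_of_glue hπ (chartIncl ha) (chartIncl hb) (chartIncl_injective hb) ?_ h1 hne
    (chartGen (Set.mem_singleton b)) ?_ ?_ hreg hLDa hLDb
  · intro x y hxy
    have hxy' : (x : F) = y := by
      have := congrArg Subtype.val hxy
      rwa [coe_chartIncl, coe_chartIncl] at this
    obtain ⟨c, hc⟩ := h0 x x.2 (hxy' ▸ y.2)
    refine ⟨c, Subtype.ext hc.symm, Subtype.ext ?_⟩
    rw [← hxy']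
    exact hc.symm
  · refine .of_mul_eq_one ⟨a, subset_chartAlg T (ha rfl)⟩ (Subtype.ext ?_)
    rw [Subalgebra.coe_mul, Subalgebra.coe_one, coe_chartIncl, coe_chartGen, mul_comm]
    exact hab
  · intro z
    have hz : (z : F) ∈ chartAlg O F (insert b⁻¹ {b}) := by
      rw [← hainv]
      exact chartAlg_mono hT z.2
    obtain ⟨n, hn⟩ := exists_pow_mul_mem_chartAlg (Set.mem_singleton b) hb0 hz
    refine ⟨n, ⟨b ^ n * z, hn⟩, Subtype.ext ?_⟩
    rw [coe_chartIncl, Subalgebra.coe_mul, Subalgebra.coe_pow, coe_chartIncl, coe_chartGen]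

end Main

section MainThm

open Fermat.Agent.N4.FormalFunctions

universe u

variable {O : Type*} {F L : Type u} [CommRing O] [IsDomain O] [IsDiscreteValuationRing O]
  [Field F] [Algebra O F] [Field L] [Algebra O L] [Algebra F L] [IsScalarTower O F L]

omit [IsDomain O] [IsDiscreteValuationRing O] in
theorem chartSum_comm {Ap Am A0 : Type*} [CommRing Ap] [CommRing Am] [CommRing A0]
    [Algebra O Ap] [Algebra O Am] [Algebra O A0] (ip : Ap →ₐ[O] A0) (im : Am →ₐ[O] A0) :
    chartSum im ip = chartSum ip im := sup_comm _ _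

omit [IsDomain O] [IsDiscreteValuationRing O] [Algebra O F] in
theorem sub_left (j : F) : ({j} : Set F) ⊆ {j, j⁻¹} :=
  Set.singleton_subset_iff.mpr (Set.mem_insert _ _)

omit [IsDomain O] [IsDiscreteValuationRing O] [Algebra O F] in
theorem sub_right (j : F) : ({j⁻¹} : Set F) ⊆ {j, j⁻¹} :=
  Set.singleton_subset_iff.mpr (Set.mem_insert_of_mem _ rfl)

omit [IsDomain O] [IsDiscreteValuationRing O] in
/-- The fibre ideal of a localised chart. -/
theorem map_span_chartIncl {S S' : Set L} (h : S ⊆ S') (π : O) :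
    (Ideal.span {algebraMap O (chartAlg O L S) π}).map (chartIncl (O := O) h).toRingHom =
      Ideal.span {algebraMap O (chartAlg O L S') π} := by
  rw [Ideal.map_span, Set.image_singleton, AlgHom.toRingHom_eq_coe, RingHom.coe_coe,
    AlgHom.commutes]

omit [IsDomain O] [IsDiscreteValuationRing O] in
/-- **The cusp chart upstairs is `LD`** as soon as the finite chart is and every point over
`j = ∞` has a basic open neighbourhood which is. -/
theorem LD_cusp_chart {π : O} (j' : L) (hj' : j' ≠ 0)
    (hLD0 : LD (Ideal.span {algebraMap O (chartAlg O L {j'}) π}))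
    (hcusp : ∀ 𝔭 : Ideal (chartAlg O L {j'⁻¹}), 𝔭.IsPrime →
      chartGen (O := O) (Set.mem_singleton j'⁻¹) ∈ 𝔭 →
      ∃ f : chartAlg O L {j'⁻¹}, f ∉ 𝔭 ∧
        LD (Ideal.span {algebraMap O (chartAlg O L {(f : L)⁻¹, j'⁻¹}) π})) :
    LD (Ideal.span {algebraMap O (chartAlg O L {j'⁻¹}) π}) := by
  apply LD.of_cover.{u, u}
  intro 𝔭 h𝔭
  by_cases hg : chartGen (O := O) (Set.mem_singleton j'⁻¹) ∈ 𝔭
  · obtain ⟨f, hf, hLDf⟩ := hcusp 𝔭 h𝔭 hg
    have hf0 : (f : L) ≠ 0 := by
      intro h0
      apply hf
      have : f = 0 := Subtype.ext h0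
      rw [this]
      exact 𝔭.zero_mem
    letI alg : Algebra (chartAlg O L {j'⁻¹}) (chartAlg O L (insert (f : L)⁻¹ {j'⁻¹})) :=
      (chartIncl (O := O) (Set.subset_insert (f : L)⁻¹ {j'⁻¹})).toRingHom.toAlgebra
    have loc : IsLocalization.Away f (chartAlg O L (insert (f : L)⁻¹ {j'⁻¹})) :=
      isLocalization_away_chartIncl' f hf0
    refine ⟨f, hf, _, inferInstance, alg, loc, ?_⟩
    have := map_span_chartIncl (O := O) (Set.subset_insert (f : L)⁻¹ {j'⁻¹}) π
    rw [RingHom.algebraMap_toAlgebra, this]
    exact hLDf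
  · set g := chartGen (O := O) (Set.mem_singleton j'⁻¹) with hgdef
    letI alg : Algebra (chartAlg O L {j'⁻¹}) (chartAlg O L (insert (j'⁻¹)⁻¹ {j'⁻¹})) :=
      (chartIncl (O := O) (Set.subset_insert (j'⁻¹)⁻¹ {j'⁻¹})).toRingHom.toAlgebra
    have loc : IsLocalization.Away g (chartAlg O L (insert (j'⁻¹)⁻¹ {j'⁻¹})) :=
      isLocalization_away_chartIncl (Set.mem_singleton j'⁻¹) (inv_ne_zero hj')
    refine ⟨g, hg, _, inferInstance, alg, loc, ?_⟩
    have := map_span_chartIncl (O := O) (Set.subset_insert (j'⁻¹)⁻¹ {j'⁻¹}) π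
    rw [RingHom.algebraMap_toAlgebra, this]
    -- localise the finite chart at `j'`
    have h2 : LD (Ideal.span {algebraMap O (chartAlg O L (insert j'⁻¹ {j'})) π}) := by
      letI alg0 : Algebra (chartAlg O L {j'}) (chartAlg O L (insert j'⁻¹ {j'})) :=
        (chartIncl (O := O) (Set.subset_insert j'⁻¹ {j'})).toRingHom.toAlgebra
      have loc0 : IsLocalization.Away (chartGen (O := O) (Set.mem_singleton j'))
          (chartAlg O L (insert j'⁻¹ {j'})) :=
        isLocalization_away_chartIncl (Set.mem_singleton j') hj'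
      have h3 := hLD0.map_localization
        (Submonoid.powers (chartGen (O := O) (Set.mem_singleton j')))
        (chartAlg O L (insert j'⁻¹ {j'}))
      have h4 := map_span_chartIncl (O := O) (Set.subset_insert j'⁻¹ {j'}) π
      rw [RingHom.algebraMap_toAlgebra, h4] at h3
      exact h3
    refine LD_chart_congr ?_ π h2
    rw [inv_inv, Set.pair_comm]

/-- **Primality of the fibre ideals of both charts of the `j`-line**, from the local structure
(`LD`) of the fibres of the finite chart and of the charts of an auxiliary field `L ⊇ F`,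
plus connectedness (`h0`, `h1`). -/
theorem isPrime_fibre_of_LD {π : O} (hπ : Irreducible π) (j : F) (hj : j ≠ 0)
    [IsNoetherianRing (chartAlg O F {j})] [IsNoetherianRing (chartAlg O F {j⁻¹})]
    (h0 : ∀ x : F, x ∈ chartAlg O F {j} → x ∈ chartAlg O F {j⁻¹} → x ∈ (algebraMap O F).range)
    (h1 : Module.Finite O (chartAlg O F {j, j⁻¹} ⧸
      chartSum (chartIncl (O := O) (sub_left j)) (chartIncl (sub_right j))))
    (hnep : (1 : chartAlg O F {j}) ∉ Ideal.span {algebraMap O (chartAlg O F {j}) π})
    (hnem : (1 : chartAlg O F {j⁻¹}) ∉ Ideal.span {algebraMap O (chartAlg O F {j⁻¹}) π})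
    (hregp : ∀ x : chartAlg O F {j},
      chartGen (O := O) (Set.mem_singleton j) * x ∈ Ideal.span {algebraMap O (chartAlg O F {j}) π} →
        x ∈ Ideal.span {algebraMap O (chartAlg O F {j}) π})
    (hregm : ∀ x : chartAlg O F {j⁻¹},
      chartGen (O := O) (Set.mem_singleton j⁻¹) * x ∈
          Ideal.span {algebraMap O (chartAlg O F {j⁻¹}) π} →
        x ∈ Ideal.span {algebraMap O (chartAlg O F {j⁻¹}) π})
    (hLDp : LD (Ideal.span {algebraMap O (chartAlg O F {j}) π}))
    (hLD0 : LD (Ideal.span {algebraMap O (chartAlg O L {algebraMap F L j}) π}))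
    (hcusp : ∀ 𝔭 : Ideal (chartAlg O L {(algebraMap F L j)⁻¹}), 𝔭.IsPrime →
      chartGen (O := O) (Set.mem_singleton (algebraMap F L j)⁻¹) ∈ 𝔭 →
      ∃ f : chartAlg O L {(algebraMap F L j)⁻¹}, f ∉ 𝔭 ∧
        LD (Ideal.span {algebraMap O (chartAlg O L {(f : L)⁻¹, (algebraMap F L j)⁻¹}) π})) :
    (Ideal.span {algebraMap O (chartAlg O F {j}) π}).IsPrime ∧
      (Ideal.span {algebraMap O (chartAlg O F {j⁻¹}) π}).IsPrime := by
  have hj' : algebraMap F L j ≠ 0 := by simpa using hj
  have hLDup := LD_cusp_chart (algebraMap F L j) hj' hLD0 hcusp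
  have hset : ({(algebraMap F L j)⁻¹} : Set L) = algebraMap F L '' {j⁻¹} := by
    rw [Set.image_singleton, map_inv₀]
  have hLDm : LD (Ideal.span {algebraMap O (chartAlg O F {j⁻¹}) π}) :=
    LD_chart_descent (L := L) {j⁻¹} π (LD_chart_congr hset π hLDup)
  refine ⟨?_, ?_⟩
  · exact isPrime_of_glue_charts hπ (mul_inv_cancel₀ hj) (sub_left j) (sub_right j) subset_rfl
      h0 h1 hnep hregm hLDp hLDm
  · have h1' : Module.Finite O (chartAlg O F {j, j⁻¹} ⧸
        chartSum (chartIncl (O := O) (sub_right j)) (chartIncl (sub_left j))) := by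
      rw [chartSum_comm]
      exact h1
    have hT : ({j, j⁻¹} : Set F) ⊆ {j⁻¹, j} := by rw [Set.pair_comm]
    have h0' : ∀ x : F, x ∈ chartAlg O F {j⁻¹} → x ∈ chartAlg O F {j} →
        x ∈ (algebraMap O F).range := fun x hx hy => h0 x hy hx
    exact isPrime_of_glue_charts (a := j⁻¹) (b := j) (T := {j, j⁻¹}) hπ (inv_mul_cancel₀ hj)
      (sub_right j) (sub_left j) hT h0' h1' hnem hregp hLDm hLDp

end MainThm

end Fermat.Agent.N4.FibreCharts
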