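/-
N4 block (b/c4): finiteness of `H¹` of the two-chart cover of the `j`-line.

If the chart `A₊ = chartAlg O F {j}` is spanned over `O` by the elements `j ^ n * e`, `e` in a finite
set `s` (i.e. `A₊` is a finitely generated `O[j]`-module), then
`H¹ = A₀ / (A₊ + A₋)` is a finitely generated `O`-module, where `A₋ = chartAlg O F {j⁻¹}` and
`A₀ = chartAlg O F {j, j⁻¹}`:  the classes of `j⁻ᵃ e`, `0 < a < c`, `e ∈ s` generate.
This is hypothesis `h1` of `FormalFunctions.exists_const_of_idempotent`.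
-/
import Mathlib
import Fermat.Agent.N4.Chart
import Fermat.Agent.N4.FormalFunctions

set_option autoImplicit false

open Fermat.Agent.N4.Chart Fermat.Agent.N4.FormalFunctions

namespace Fermat.Agent.N4.ChartFinite

variable {O F : Type*} [CommRing O] [Field F] [Algebra O F]

theorem subset_pair_left (j : F) : ({j} : Set F) ⊆ {j, j⁻¹} :=
  Set.singleton_subset_iff.mpr (Set.mem_insert _ _)

theorem subset_pair_right (j : F) : ({j⁻¹} : Set F) ⊆ {j, j⁻¹} :=
  Set.singleton_subset_iff.mpr (Set.mem_insert_of_mem _ rfl)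

/-- The monomials `j ^ n * e`, `e ∈ s`. -/
def monomials (j : F) (s : Finset F) : Set F := {y | ∃ (n : ℕ) (e : F), e ∈ s ∧ y = j ^ n * e}

/-- `z ∈ A₀` lies in `A₊ + A₋` as soon as `z = x + y` in `F` with `x ∈ A₊`, `y ∈ A₋`. -/
theorem mem_chartSum_of_eq_add (j : F) (z : chartAlg O F {j, j⁻¹}) (x y : F)
    (hx : x ∈ chartAlg O F {j}) (hy : y ∈ chartAlg O F {j⁻¹}) (h : (z : F) = x + y) :
    z ∈ chartSum (chartIncl (O := O) (subset_pair_left j)) (chartIncl (O := O) (subset_pair_right j)) := by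
  rw [mem_chartSum_iff]
  refine ⟨⟨x, hx⟩, ⟨-y, neg_mem hy⟩, Subtype.ext ?_⟩
  simp only [Subalgebra.coe_sub, coe_chartIncl]
  rw [h]; ring


/-- The Laurent monomials `j ^ m * e`, `m : ℤ`, `e ∈ s`. -/
def zmonomials (j : F) (s : Finset F) : Set F := {y | ∃ (m : ℤ) (e : F), e ∈ s ∧ y = j ^ m * e}

theorem inv_pow_mul_mem_span_zmonomials (j : F) (hj : j ≠ 0) (s : Finset F) (n : ℕ) {x : F}
    (hx : x ∈ Submodule.span O (monomials j s)) :
    (j⁻¹) ^ n * x ∈ Submodule.span O (zmonomials j s) := by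
  induction hx using Submodule.span_induction with
  | mem y hy =>
    obtain ⟨k, e, he, rfl⟩ := hy
    refine Submodule.subset_span ⟨(k : ℤ) - n, e, he, ?_⟩
    rw [zpow_sub₀ hj, zpow_natCast, zpow_natCast, inv_pow]
    field_simp
  | zero => simp
  | add x y _ _ hx hy => rw [mul_add]; exact add_mem hx hy
  | smul a x _ hx => rw [mul_smul_comm]; exact Submodule.smul_mem _ a hx


/-- **Finiteness of `H¹`.**  If `A₊ = chartAlg O F {j}` is spanned over `O` by the monomials `j ^ n * e`,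
`e ∈ s` (`s` finite), then `A₀ / (A₊ + A₋)` is a finitely generated `O`-module. -/
theorem finite_quotient_chartSum (j : F) (hj : j ≠ 0) (s : Finset F)
    (hs : ∀ e ∈ s, e ∈ chartAlg O F {j})
    (hspan : ∀ x ∈ chartAlg O F {j}, x ∈ Submodule.span O (monomials j s)) :
    Module.Finite O (chartAlg O F {j, j⁻¹} ⧸
      chartSum (chartIncl (O := O) (subset_pair_left j))
        (chartIncl (O := O) (subset_pair_right j))) := by
  classical
  set CS := chartSum (chartIncl (O := O) (subset_pair_left j))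
    (chartIncl (O := O) (subset_pair_right j)) with hCS
  have hjm : j⁻¹ ∈ chartAlg O F {j⁻¹} := subset_chartAlg _ (Set.mem_singleton _)
  have hjp : j ∈ chartAlg O F {j} := subset_chartAlg _ (Set.mem_singleton _)
  -- Step 1: a uniform exponent `c`
  have h1 : ∀ e ∈ s, ∃ n : ℕ, (j⁻¹) ^ n * e ∈ chartAlg O F {j⁻¹} := by
    intro e he
    have he0 : e ∈ chartAlg O F (insert (j⁻¹)⁻¹ {j⁻¹}) := by
      rw [inv_inv]
      exact chartAlg_mono (subset_pair_left j) (hs e he)
    exact exists_pow_mul_mem_chartAlg (Set.mem_singleton _) (inv_ne_zero hj) he0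
  choose! n hn using h1
  set c := s.sup n with hc_def
  have hc : ∀ e ∈ s, ∀ m, c ≤ m → (j⁻¹) ^ m * e ∈ chartAlg O F {j⁻¹} := by
    intro e he m hm
    have hle : n e ≤ m := (Finset.le_sup he).trans hm
    obtain ⟨d, rfl⟩ := Nat.exists_eq_add_of_le hle
    have : (j⁻¹) ^ (n e + d) * e = (j⁻¹) ^ d * ((j⁻¹) ^ n e * e) := by ring
    rw [this]
    exact mul_mem (pow_mem hjm d) (hn e he)
  -- the generators
  have hgen : ∀ p ∈ Finset.range c ×ˢ s, (j⁻¹) ^ p.1 * p.2 ∈ chartAlg O F {j, j⁻¹} := by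
    intro p hp
    obtain ⟨-, hp2⟩ := Finset.mem_product.1 hp
    exact mul_mem (pow_mem (subset_chartAlg _ (by simp)) _)
      (chartAlg_mono (subset_pair_left j) (hs _ hp2))
  let T : Finset (chartAlg O F {j, j⁻¹}) :=
    (Finset.range c ×ˢ s).attach.image fun p => ⟨(j⁻¹) ^ p.1.1 * p.1.2, hgen p.1 p.2⟩
  set W : Submodule O (chartAlg O F {j, j⁻¹}) := Submodule.span O (T : Set _) with hW
  set V : Submodule O F := (W ⊔ CS).map (chartAlg O F {j, j⁻¹}).val.toLinearMap with hV
  have hVp : ∀ x ∈ chartAlg O F {j}, x ∈ V := by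
    intro x hx
    refine ⟨⟨x, chartAlg_mono (subset_pair_left j) hx⟩, Submodule.mem_sup_right ?_, rfl⟩
    exact Submodule.mem_sup_left ⟨⟨x, hx⟩, rfl⟩
  have hVm : ∀ x ∈ chartAlg O F {j⁻¹}, x ∈ V := by
    intro x hx
    refine ⟨⟨x, chartAlg_mono (subset_pair_right j) hx⟩, Submodule.mem_sup_right ?_, rfl⟩
    exact Submodule.mem_sup_right ⟨⟨x, hx⟩, rfl⟩
  -- all Laurent monomials lie in `V`
  have hz : Submodule.span O (zmonomials j s) ≤ V := by
    rw [Submodule.span_le]
    rintro _ ⟨m, e, he, rfl⟩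
    rcases le_or_gt 0 m with hm | hm
    · -- `m ≥ 0`
      lift m to ℕ using hm
      rw [zpow_natCast]
      exact hVp _ (mul_mem (pow_mem hjp m) (hs e he))
    · obtain ⟨a, rfl⟩ : ∃ a : ℕ, m = -(a : ℤ) := ⟨(-m).toNat, by omega⟩
      have hrew : j ^ (-(a : ℤ)) * e = (j⁻¹) ^ a * e := by
        rw [zpow_neg, zpow_natCast, inv_pow]
      rw [hrew]
      rcases le_or_gt c a with hca | hca
      · exact hVm _ (hc e he a hca)
      · refine ⟨⟨(j⁻¹) ^ a * e, hgen (a, e) (Finset.mem_product.2 ⟨Finset.mem_range.2 hca, he⟩)⟩,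
          Submodule.mem_sup_left (Submodule.subset_span ?_), rfl⟩
        rw [Finset.mem_coe, Finset.mem_image]
        exact ⟨⟨(a, e), Finset.mem_product.2 ⟨Finset.mem_range.2 hca, he⟩⟩,
          Finset.mem_attach _ _, rfl⟩
  -- hence `W ⊔ CS = ⊤`
  have htop : W ⊔ CS = ⊤ := by
    rw [eq_top_iff]
    rintro z -
    have hz0 : (z : F) ∈ chartAlg O F (insert j⁻¹ {j}) := by
      rw [show insert j⁻¹ ({j} : Set F) = {j, j⁻¹} from Set.pair_comm _ _]
      exact z.2
    obtain ⟨k, hk⟩ := exists_pow_mul_mem_chartAlg (Set.mem_singleton _) hj hz0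
    have h2 := inv_pow_mul_mem_span_zmonomials (O := O) j hj s k (hspan _ hk)
    have h3 : (j⁻¹) ^ k * (j ^ k * (z : F)) = z := by
      rw [inv_pow, ← mul_assoc, inv_mul_cancel₀ (pow_ne_zero k hj), one_mul]
    rw [h3] at h2
    obtain ⟨z', hz', hzz⟩ := hz h2
    have : z' = z := Subtype.ext hzz
    rwa [this] at hz'
  -- finiteness
  have hfg : (⊤ : Submodule O (chartAlg O F {j, j⁻¹} ⧸ CS)).FG := by
    have h4 : (⊤ : Submodule O (chartAlg O F {j, j⁻¹} ⧸ CS)) = W.map CS.mkQ := by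
      rw [← Submodule.range_mkQ CS, ← Submodule.map_top, ← htop, Submodule.map_sup,
        Submodule.mkQ_map_self, sup_bot_eq]
    rw [h4]
    exact (Submodule.fg_span (Finset.finite_toSet T)).map _
  exact ⟨hfg⟩


/-- Adapter: an `O[j]`-linear combination of the elements of `s` is an `O`-linear combination of the
monomials `j ^ n * e`. -/
theorem sum_mul_mem_span_monomials (j : F) (s : Finset F) (c : F → F)
    (hc : ∀ e, c e ∈ Algebra.adjoin O {j}) :
    ∑ e ∈ s, c e * e ∈ Submodule.span O (monomials j s) := by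
  classical
  refine Submodule.sum_mem _ fun e he => ?_
  have h := hc e
  rw [Algebra.adjoin_singleton_eq_range_aeval] at h
  obtain ⟨P, hP⟩ := h
  rw [← hP]
  show Polynomial.aeval j P * e ∈ _
  rw [Polynomial.aeval_eq_sum_range, Finset.sum_mul]
  refine Submodule.sum_mem _ fun k _ => ?_
  rw [smul_mul_assoc]
  exact Submodule.smul_mem _ _ (Submodule.subset_span ⟨k, e, he, rfl⟩)

/-- `finite_quotient_chartSum` with the finiteness hypothesis in the form
"`A₊` is generated by `s` as a module over `O[j]`". -/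
theorem finite_quotient_chartSum' (j : F) (hj : j ≠ 0) (s : Finset F)
    (hs : ∀ e ∈ s, e ∈ chartAlg O F {j})
    (hspan : ∀ x ∈ chartAlg O F {j}, ∃ c : F → F, (∀ e, c e ∈ Algebra.adjoin O {j}) ∧
      x = ∑ e ∈ s, c e * e) :
    Module.Finite O (chartAlg O F {j, j⁻¹} ⧸
      chartSum (chartIncl (O := O) (subset_pair_left j))
        (chartIncl (O := O) (subset_pair_right j))) := by
  refine finite_quotient_chartSum j hj s hs fun x hx => ?_
  obtain ⟨c, hc, rfl⟩ := hspan x hx
  exact sum_mul_mem_span_monomials j s c hc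

end Fermat.Agent.N4.ChartFinite
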