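/-
N4 block (c): the hypotheses `h0`, `h1` of `FormalFunctions.idempotent_mod_eq_zero_or_one` for the
two-chart cover `A₊ = chartAlg O F {j}`, `A₋ = chartAlg O F {j⁻¹}`, `A₀ = chartAlg O F {j, j⁻¹}` of the
`j`-line, for every finite extension `F` of `K(j)` in which `K = Frac O` is algebraically closed
(`O` integrally closed noetherian, `char K = 0`), and the resulting connectedness statement.

* `cech_h0` : pairs `(x, y) ∈ A₊ × A₋` agreeing in `A₀` are constants (from (c2));
* `cech_h1` : `A₀ / (A₊ + A₋)` is a finite `O`-module (from (c1) + `ChartFinite`);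
* `idempotent_mod_eq_zero_or_one_chart` : over a discrete valuation ring `O` with uniformiser `π`, an
  idempotent pair of the special fibres of the two charts which agrees on the overlap is `0` or `1`.
-/
import Mathlib
import Fermat.Agent.N4.Chart
import Fermat.Agent.N4.FormalFunctions
import Fermat.Agent.N4.ChartFinite
import Fermat.Agent.N4.IntClosure

set_option autoImplicit false
set_option linter.style.haveILetI false
set_option linter.unusedSectionVars false

open Polynomial IntermediateField Fermat.Agent.N4.Chart Fermat.Agent.N4.FormalFunctions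
  Fermat.Agent.N4.ChartFinite Fermat.Agent.N4.IntClosure

namespace Fermat.Agent.N4.IntClosureCech

variable {O K F : Type*} [CommRing O] [IsDomain O] [Field K] [Algebra O K] [IsFractionRing O K]
  [Field F] [Algebra K F] [Algebra O F] [IsScalarTower O K F] (j : F)

/-- `H⁰ = O` in the shape of hypothesis `h0` of `FormalFunctions.exists_const_of_idempotent`. -/
theorem cech_h0 [IsIntegrallyClosed O] (hj : Transcendental K j)
    (halg : ∀ x : F, IsAlgebraic K x → x ∈ (algebraMap K F).range)
    (x : chartAlg O F {j}) (y : chartAlg O F {j⁻¹})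
    (hxy : chartIncl (O := O) (subset_pair_left j) x = chartIncl (O := O) (subset_pair_right j) y) :
    ∃ a : O, x = algebraMap O (chartAlg O F {j}) a ∧ y = algebraMap O (chartAlg O F {j⁻¹}) a := by
  have hF : (x : F) = (y : F) := by
    have := congrArg (fun z : chartAlg O F {j, j⁻¹} => (z : F)) hxy
    simpa only [coe_chartIncl] using this
  obtain ⟨a, ha⟩ := mem_range_of_mem_chartAlg_of_mem_chartAlg_inv (O := O) (K := K) j hj halg x.2
    (hF ▸ y.2)
  exact ⟨a, Subtype.ext ha.symm, Subtype.ext (hF ▸ ha.symm)⟩

/-- `H¹` is finite, in the shape of hypothesis `h1` of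
`FormalFunctions.exists_const_of_idempotent`. -/
theorem cech_h1 [IsIntegrallyClosed O] [IsNoetherianRing O] [CharZero K]
    (hj : Transcendental K j) [FiniteDimensional K⟮j⟯ F] :
    Module.Finite O (chartAlg O F {j, j⁻¹} ⧸
      chartSum (chartIncl (O := O) (subset_pair_left j))
        (chartIncl (O := O) (subset_pair_right j))) := by
  have hj0 : j ≠ 0 := fun h0 => hj (h0 ▸ isAlgebraic_zero)
  obtain ⟨s, hs, hspan⟩ := exists_finset_span_chartAlg (O := O) (K := K) j hj
  exact finite_quotient_chartSum' j hj0 s hs hspan

/-- **Connectedness of the special fibre of the two-chart model of `F`.**  `O` a discrete valuation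
ring with uniformiser `π` and fraction field `K` of characteristic zero, `F` a finite extension of
`K(j)` in which `K` is algebraically closed, and the special fibre of the chart `j ≠ ∞` nonempty:
an idempotent pair of the special fibres agreeing on the overlap is `0` or `1`. -/
theorem idempotent_mod_eq_zero_or_one_chart [IsDiscreteValuationRing O] [CharZero K]
    (hj : Transcendental K j) [FiniteDimensional K⟮j⟯ F]
    (halg : ∀ x : F, IsAlgebraic K x → x ∈ (algebraMap K F).range)
    {π : O} (hπ : Irreducible π)
    (hne : (1 : chartAlg O F {j}) ∉ Ideal.span {algebraMap O (chartAlg O F {j}) π})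
    (ep : chartAlg O F {j}) (em : chartAlg O F {j⁻¹})
    (hep : ep ^ 2 - ep ∈ Ideal.span {algebraMap O (chartAlg O F {j}) π})
    (hem : em ^ 2 - em ∈ Ideal.span {algebraMap O (chartAlg O F {j⁻¹}) π})
    (hcompat : chartIncl (O := O) (subset_pair_left j) ep -
        chartIncl (O := O) (subset_pair_right j) em ∈
      Ideal.span {algebraMap O (chartAlg O F {j, j⁻¹}) π}) :
    (ep ∈ Ideal.span {algebraMap O (chartAlg O F {j}) π} ∧
        em ∈ Ideal.span {algebraMap O (chartAlg O F {j⁻¹}) π}) ∨
      (ep - 1 ∈ Ideal.span {algebraMap O (chartAlg O F {j}) π} ∧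
        em - 1 ∈ Ideal.span {algebraMap O (chartAlg O F {j⁻¹}) π}) :=
  idempotent_mod_eq_zero_or_one hπ _ _ (cech_h0 (K := K) j hj halg) (cech_h1 (K := K) j hj) hne
    ep em hep hem hcompat

end Fermat.Agent.N4.IntClosureCech
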