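/-
N4 block **dU**: constant-field extensions are unramified (characteristic 0), existence form.

`K ⊆ L` algebraic fields of characteristic 0, `F₀/K` and `F/L` fields, `φ : F₀ →ₐ[K] F` with `F = L(φ F₀)`;
`V` ANY discrete valuation ring with fraction field `F₀` containing `K`.  Then there is a place `w` of
`F/L` (prelude `AlgebraicCurve.Place L F`) with `φ(V) ⊆ O_w` and `ord_w (φ ϖ) = 1` for every uniformiser
`ϖ` of `V` (`exists_place_above`).  No rationality assumption on `V`.

Proof: Chevalley gives a valuation subring `w ⊇ φ(V)` of `F` in which `φ(𝔪_V)` consists of nonunits; it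
contains `L` (integral over `K`), and `w ∩ F₀ = V`.  Every `y ∈ F` lies in `F₀(α)`, `α ∈ L` (primitive
element); `α` is a root of its minimal polynomial `p` over `K ⊆ V`, and `p'(α) ∈ Lˣ ⊆ wˣ`, so the different
of `F₀(α)/F₀` is prime to the centre of `w` and `w ∩ F₀(α)` is a discrete valuation ring with the
uniformiser of `V` (`tower_step_sep`).  Hence every nonzero `y ∈ w` is a unit times a power of `φ ϖ`.
-/
import Mathlib
import Fermat.Prelude.Def_AlgebraicCurve_DivisorClassGroup
import Fermat.Agent.N4.BigDVR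

set_option autoImplicit false
set_option linter.style.haveILetI false
set_option linter.unusedSectionVars false
set_option linter.overlappingInstances false

open Polynomial IntermediateField
open Fermat.Agent.N4.BigDVR

namespace Fermat.Agent.N4.ConstExtPlace

section Different

variable (A K L : Type*) {B : Type*} [CommRing A] [Field K] [CommRing B] [Field L]
  [Algebra A K] [Algebra B L] [Algebra A B] [Algebra K L] [Algebra A L]
  [IsScalarTower A K L] [IsScalarTower A B L] [IsDomain A] [IsFractionRing A K]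
  [FiniteDimensional K L] [Algebra.IsSeparable K L] [IsIntegralClosure B A L]
  [IsDedekindDomain A] [IsDedekindDomain B] [Module.IsTorsionFree A B]

/-- If `L = K(x)` and the derivative of the minimal polynomial of `x` does not vanish at the prime `P`,
then `P` is unramified. -/
theorem not_sq_dvd_map_of_derivative_notMem [IsFractionRing B L] [Module.Finite A B]
    (x : B) (hx : Algebra.adjoin K {algebraMap B L x} = ⊤)
    {p : Ideal A} [p.IsMaximal] (hp : p ≠ ⊥) (P : Ideal B) [P.IsPrime]
    (hder : aeval x (derivative (minpoly A x)) ∉ P) :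
    ¬ P ^ 2 ∣ p.map (algebraMap A B) := by
  intro h
  have h1 := pow_sub_one_dvd_differentIdeal_aux A K L P (e := 2) (by norm_num) hp h
  simp only [Nat.add_one_sub_one, pow_one] at h1
  rw [Ideal.dvd_iff_le] at h1
  exact hder (h1 (aeval_derivative_mem_differentIdeal A K L x hx))

end Different

section Factorisation

/-- A domain in which every nonzero element is associated to a power of a fixed nonzero nonunit `ϖ`
is a discrete valuation ring with uniformiser `ϖ`. -/
theorem irreducible_of_forall_associated_pow {R : Type*} [CommRing R] [IsDomain R] {ϖ : R}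
    (hϖ0 : ϖ ≠ 0) (hϖnu : ¬ IsUnit ϖ) (hfac : ∀ y : R, y ≠ 0 → ∃ n : ℕ, Associated (ϖ ^ n) y) :
    Irreducible ϖ := by
  refine ⟨hϖnu, fun a b hab => ?_⟩
  have ha0 : a ≠ 0 := fun h => hϖ0 (by rw [hab, h, zero_mul])
  have hb0 : b ≠ 0 := fun h => hϖ0 (by rw [hab, h, mul_zero])
  obtain ⟨i, u, hu⟩ := hfac a ha0
  obtain ⟨k, w, hw⟩ := hfac b hb0
  have h1 : ϖ = ϖ ^ (i + k) * (u * w : Rˣ) := by
    have : a * b = ϖ ^ (i + k) * (u * w : Rˣ) := by
      rw [← hu, ← hw, pow_add, Units.val_mul]
      ring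
    rw [← this, ← hab]
  rcases Nat.lt_or_ge (i + k) 2 with hlt | hge
  · rcases Nat.eq_zero_or_pos i with hi | hi
    · left
      rw [← hu, hi, pow_zero, one_mul]
      exact u.isUnit
    · right
      have hk : k = 0 := by omega
      rw [← hw, hk, pow_zero, one_mul]
      exact w.isUnit
  · exfalso
    obtain ⟨c, hc⟩ := Nat.exists_eq_add_of_le hge
    have h2 : ϖ * (1 - ϖ ^ (c + 1) * (u * w : Rˣ)) = 0 := by
      have : ϖ ^ (i + k) = ϖ * ϖ ^ (c + 1) := by rw [hc, ← pow_succ']; congr 1; omega
      rw [this] at h1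
      linear_combination h1
    rcases mul_eq_zero.mp h2 with h3 | h3
    · exact hϖ0 h3
    · apply hϖnu
      have h4 : ϖ * (ϖ ^ c * (u * w : Rˣ)) = 1 := by
        rw [pow_succ'] at h3
        linear_combination -h3
      exact IsUnit.of_mul_eq_one _ h4

theorem isDiscreteValuationRing_of_forall_associated_pow {R : Type*} [CommRing R] [IsDomain R]
    {ϖ : R} (hϖ0 : ϖ ≠ 0) (hϖnu : ¬ IsUnit ϖ)
    (hfac : ∀ y : R, y ≠ 0 → ∃ n : ℕ, Associated (ϖ ^ n) y) : IsDiscreteValuationRing R :=
  IsDiscreteValuationRing.ofHasUnitMulPowIrreducibleFactorization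
    ⟨ϖ, irreducible_of_forall_associated_pow hϖ0 hϖnu hfac, fun {y} hy => hfac y hy⟩

end Factorisation

section TowerStep

variable {Ω : Type*} [Field Ω] (𝔸 : ValuationSubring Ω)
variable (K L : Type*) [Field K] [Field L] [Algebra K Ω] [Algebra K L] [Algebra L Ω]
  [IsScalarTower K L Ω] [FiniteDimensional K L] [CharZero K]

/-- **Tower step, separable form.**  If `𝔸 ∩ K` is a discrete valuation ring with uniformiser `π`, and
`L = K(x)` where `x` is a root of a monic polynomial `g` over `𝔸 ∩ K` with `g'(x)` a unit of `𝔸`,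
then `𝔸 ∩ L` is a discrete valuation ring with the same uniformiser. -/
theorem tower_step_sep [IsDiscreteValuationRing (tr 𝔸 K)]
    {π : K} (hπ : π ∈ tr 𝔸 K) (hπirr : Irreducible (⟨π, hπ⟩ : tr 𝔸 K))
    (x : L) (hxgen : Algebra.adjoin K {x} = ⊤) :
    ∀ (g : Polynomial (tr 𝔸 K)), g.Monic →
    aeval x (g.map (algebraMap (tr 𝔸 K) K)) = 0 →
    algebraMap L Ω (aeval x (derivative (g.map (algebraMap (tr 𝔸 K) K)))) ∉ 𝔸.nonunits →
    IsDiscreteValuationRing (tr 𝔸 L) ∧
      ∃ h : algebraMap K L π ∈ tr 𝔸 L, Irreducible (⟨algebraMap K L π, h⟩ : tr 𝔸 L) := by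
  classical
  set A := tr 𝔸 K with hA
  intro g hg hgx hder
  letI algAL : Algebra A L := ((algebraMap K L).comp (algebraMap A K)).toAlgebra
  haveI : IsScalarTower A K L := IsScalarTower.of_algebraMap_eq fun _ => rfl
  haveI : Algebra.IsSeparable K L := inferInstance
  set B := integralClosure A L with hB
  haveI : IsDedekindDomain B := integralClosure.isDedekindDomain A K L
  haveI : IsFractionRing B L := IsIntegralClosure.isFractionRing_of_finite_extension A K L B
  haveI : Module.Finite A B := IsIntegralClosure.finite A K L B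
  haveI : Module.IsTorsionFree A L := by
    rw [Module.isTorsionFree_iff_algebraMap_injective]
    exact (algebraMap K L).injective.comp (IsFractionRing.injective A K)
  haveI : Module.IsTorsionFree A B := IsIntegralClosure.isTorsionFree A L
  set V := tr 𝔸 L with hV
  -- `A → 𝔸`
  have hAΩ : ∀ a : A, algebraMap L Ω (algebraMap A L a) ∈ 𝔸 := by
    intro a
    have : algebraMap L Ω (algebraMap A L a) = algebraMap K Ω (a : K) := by
      show algebraMap L Ω (algebraMap K L (a : K)) = _
      rw [← IsScalarTower.algebraMap_apply]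
    rw [this]
    exact (mem_tr_iff 𝔸 K).mp a.2
  -- `B ⊆ V`
  have hBV : ∀ b : B, algebraMap B L b ∈ V := by
    intro b
    rw [hV, mem_tr_iff]
    letI : Algebra A Ω := ((algebraMap L Ω).comp (algebraMap A L)).toAlgebra
    haveI : IsScalarTower A L Ω := IsScalarTower.of_algebraMap_eq fun _ => rfl
    have hb : IsIntegral A (algebraMap B L b) := b.2
    exact mem_of_isIntegral 𝔸 (R := A) hAΩ (hb.map (IsScalarTower.toAlgHom A L Ω))
  -- the uniformiser
  set ϖ : A := ⟨π, hπ⟩ with hϖ
  have hϖ0 : ϖ ≠ 0 := hπirr.ne_zero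
  set ϖB : B := algebraMap A B ϖ with hϖB
  have hϖB0 : ϖB ≠ 0 := by
    rw [hϖB, Ne, map_eq_zero_iff _ (FaithfulSMul.algebraMap_injective A B)]
    exact hϖ0
  have hϖBL : algebraMap B L ϖB = algebraMap K L π := by
    rw [hϖB, ← IsScalarTower.algebraMap_apply A B L]
    rfl
  have hπnon : algebraMap K Ω π ∈ 𝔸.nonunits := by
    rw [← mem_tr_nonunits_iff, ← hA]
    exact (ValuationSubring.coe_mem_nonunits_iff (a := ϖ)).mpr
      ((IsLocalRing.mem_maximalIdeal _).mpr hπirr.not_isUnit)
  have hϖBcentre : ϖB ∈ centre V hBV := by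
    rw [mem_centre_iff, hϖBL, hV, mem_tr_nonunits_iff, ← IsScalarTower.algebraMap_apply]
    exact hπnon
  have hne : centre V hBV ≠ ⊥ := fun h => hϖB0 ((Submodule.mem_bot B).mp (h ▸ hϖBcentre))
  have hDVR : IsDiscreteValuationRing V := isDiscreteValuationRing_of_centre_ne_bot V hBV hne
  refine ⟨hDVR, ?_⟩
  have hπV : algebraMap K L π ∈ V := hϖBL ▸ hBV ϖB
  refine ⟨hπV, ?_⟩
  letI := (toV V hBV).toAlgebra
  haveI := isLocalization_atPrime_centre V hBV hne
  set P := centre V hBV with hP
  -- `x` as an element of `B`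
  have hgxA : aeval x g = 0 := by rwa [aeval_map_algebraMap] at hgx
  have hxint : IsIntegral A x := ⟨g, hg, hgxA⟩
  set xB : B := ⟨x, hxint⟩ with hxB
  have hxBint : IsIntegral A xB := IsIntegralClosure.isIntegral A L xB
  have hgxB : aeval xB g = 0 := by
    apply Subtype.ext
    have := (aeval_algebraMap_apply L xB g).symm
    rw [show algebraMap B L xB = x from rfl, hgxA] at this
    simpa using this
  obtain ⟨h, hh⟩ := minpoly.isIntegrallyClosed_dvd hxBint hgxB
  have hderB : aeval xB (derivative g) =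
      aeval xB (derivative (minpoly A xB)) * aeval xB h := by
    rw [hh, derivative_mul, map_add, map_mul, map_mul, minpoly.aeval, zero_mul, add_zero]
  have hderP : aeval xB (derivative (minpoly A xB)) ∉ P := by
    intro hmem
    have h1 : aeval xB (derivative g) ∈ P := by
      rw [hderB]
      exact Ideal.mul_mem_right _ _ hmem
    rw [hP, mem_centre_iff, hV, mem_tr_nonunits_iff] at h1
    apply hder
    have h2 : algebraMap B L (aeval xB (derivative g)) =
        aeval x (derivative (g.map (algebraMap A K))) := by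
      rw [← aeval_algebraMap_apply, derivative_map, aeval_map_algebraMap]
      rfl
    rwa [h2] at h1
  have hp : IsLocalRing.maximalIdeal A ≠ ⊥ := IsDiscreteValuationRing.not_a_field A
  have hnot := not_sq_dvd_map_of_derivative_notMem A K L xB (by simpa [hxB] using hxgen) hp P hderP
  -- `𝔪_A B = P Q`
  have hmax : IsLocalRing.maximalIdeal A = Ideal.span {ϖ} := hπirr.maximalIdeal_eq
  have hmap : (IsLocalRing.maximalIdeal A).map (algebraMap A B) = Ideal.span {ϖB} := by
    rw [hmax, Ideal.map_span, Set.image_singleton]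
  have hle : Ideal.span {ϖB} ≤ P := (Ideal.span_singleton_le_iff_mem _).mpr hϖBcentre
  obtain ⟨Q, hQ⟩ := Ideal.dvd_iff_le.mpr hle
  have hQP : ¬ Q ≤ P := by
    intro hQP
    apply hnot
    rw [hmap, hQ, pow_two]
    exact mul_dvd_mul_left P (Ideal.dvd_iff_le.mpr hQP)
  obtain ⟨q, hqQ, hqP⟩ := SetLike.not_le_iff_exists.mp hQP
  have hqunit : IsUnit (toV V hBV q) := by
    have : toV V hBV q ∉ IsLocalRing.maximalIdeal V := hqP
    exact IsLocalRing.notMem_maximalIdeal.mp this
  have huniform : IsLocalRing.maximalIdeal V = Ideal.span {toV V hBV ϖB} := by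
    apply le_antisymm
    · rw [← IsLocalization.AtPrime.map_eq_maximalIdeal P V, Ideal.map_le_iff_le_comap]
      intro c hc
      have hcq : c * q ∈ Ideal.span {ϖB} := by
        rw [hQ]
        exact Ideal.mul_mem_mul hc hqQ
      obtain ⟨b, hb⟩ := Ideal.mem_span_singleton'.mp hcq
      rw [Ideal.mem_comap, RingHom.algebraMap_toAlgebra]
      have h1 : toV V hBV c * toV V hBV q = toV V hBV b * toV V hBV ϖB := by
        rw [← map_mul, ← map_mul, hb]
      have h2 : toV V hBV c = toV V hBV b * toV V hBV ϖB * ↑hqunit.unit⁻¹ := by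
        rw [← h1, mul_assoc, IsUnit.mul_val_inv, mul_one]
      rw [h2, Ideal.mem_span_singleton']
      exact ⟨toV V hBV b * ↑hqunit.unit⁻¹, by ring⟩
    · rw [Ideal.span_singleton_le_iff_mem]
      exact hϖBcentre
  have hirr : Irreducible (toV V hBV ϖB) :=
    (IsDiscreteValuationRing.irreducible_iff_uniformizer _).mpr huniform
  have heq : toV V hBV ϖB = ⟨algebraMap K L π, hπV⟩ := Subtype.ext hϖBL
  rwa [heq] at hirr

end TowerStep

end Fermat.Agent.N4.ConstExtPlace

open Polynomial IntermediateField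
open Fermat.Agent.N4.BigDVR

namespace Fermat.Agent.N4.ConstExtPlace

section Core

variable {K L F₀ F : Type*} [Field K] [CharZero K] [Field L] [Algebra K L]
  [Algebra.IsAlgebraic K L] [Field F₀] [Algebra K F₀] [Field F] [Algebra L F] [Algebra K F]
  [IsScalarTower K L F] [Algebra F₀ F] [IsScalarTower K F₀ F]

omit [CharZero K] [Algebra.IsAlgebraic K L] in
/-- `F = L(F₀)` implies `F = F₀(L)`. -/
theorem adjoin_range_eq_top
    (hgen : IntermediateField.adjoin L (Set.range (algebraMap F₀ F)) = ⊤) :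
    IntermediateField.adjoin F₀ (Set.range (algebraMap L F)) = ⊤ := by
  set M := IntermediateField.adjoin F₀ (Set.range (algebraMap L F)) with hM
  have hLM : ∀ c : L, algebraMap L F c ∈ M.toSubfield := fun c =>
    IntermediateField.subset_adjoin F₀ _ ⟨c, rfl⟩
  set M' : IntermediateField L F := Subfield.toIntermediateField M.toSubfield hLM with hM'
  have hle : IntermediateField.adjoin L (Set.range (algebraMap F₀ F)) ≤ M' := by
    rw [IntermediateField.adjoin_le_iff]
    rintro _ ⟨z, rfl⟩
    exact M.algebraMap_mem z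
  rw [hgen] at hle
  rw [eq_top_iff]
  intro y _
  exact hle (IntermediateField.mem_top (x := y))

variable (K) in
include K in
/-- Every element of `F = L(F₀)` lies in `F₀(α)` for a single constant `α ∈ L`. -/
theorem exists_simple_of_adjoin_eq_top
    (hgen : IntermediateField.adjoin L (Set.range (algebraMap F₀ F)) = ⊤) (y : F) :
    ∃ α : L, y ∈ F₀⟮algebraMap L F α⟯ := by
  classical
  have hy : y ∈ IntermediateField.adjoin F₀ (Set.range (algebraMap L F)) := by
    rw [adjoin_range_eq_top hgen]
    exact IntermediateField.mem_top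
  obtain ⟨T, hTS, hyT⟩ := exists_finset_of_mem_adjoin hy
  have hT : ∀ t ∈ T, ∃ c : L, algebraMap L F c = t := fun t ht => hTS ht
  choose! c hc using hT
  set T' : Finset L := T.image c with hT'
  set K₁ : IntermediateField K L := IntermediateField.adjoin K (T' : Set L) with hK₁
  haveI : FiniteDimensional K K₁ :=
    IntermediateField.finiteDimensional_adjoin fun x _ =>
      (Algebra.IsAlgebraic.isAlgebraic (R := K) x).isIntegral
  obtain ⟨α, hα⟩ := Field.exists_primitive_element K K₁
  refine ⟨(α : L), ?_⟩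
  have hαint : IsIntegral K α := (Algebra.IsAlgebraic.isAlgebraic (R := K) α).isIntegral
  have hle : IntermediateField.adjoin F₀ (T : Set F) ≤ F₀⟮algebraMap L F (α : L)⟯ := by
    rw [IntermediateField.adjoin_le_iff]
    intro t ht
    have htT : t ∈ T := Finset.mem_coe.mp ht
    have hcK₁ : c t ∈ K₁ :=
      IntermediateField.subset_adjoin K _ (Finset.mem_coe.mpr (Finset.mem_image_of_mem c htT))
    have hmem : (⟨c t, hcK₁⟩ : K₁) ∈ (K⟮α⟯ : IntermediateField K K₁) := by
      rw [hα]
      exact IntermediateField.mem_top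
    have hmem' : (⟨c t, hcK₁⟩ : K₁) ∈ Algebra.adjoin K {α} := by
      rw [← IntermediateField.adjoin_simple_toSubalgebra_of_isAlgebraic hαint.isAlgebraic]
      exact hmem
    rw [Algebra.adjoin_singleton_eq_range_aeval] at hmem'
    obtain ⟨p, hp⟩ := hmem'
    have h1 : c t = aeval (α : L) p := by
      have := congrArg (fun z : K₁ => (z : L)) hp
      simp only at this
      rw [← this]
      exact (IntermediateField.aeval_coe K₁ α p).symm ▸ rfl
    have h2 : t = aeval (algebraMap L F (α : L)) p := by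
      rw [← hc t htT, h1, aeval_algebraMap_apply]
    rw [h2, ← aeval_map_algebraMap F₀]
    exact (IntermediateField.algebra_adjoin_le_adjoin F₀ _) (aeval_mem_adjoin_singleton _ _)
  exact hle hyT

end Core

end Fermat.Agent.N4.ConstExtPlace

open Polynomial IntermediateField
open Fermat.Agent.N4.BigDVR

namespace Fermat.Agent.N4.ConstExtPlace

section Limit

variable {K L F₀ F : Type*} [Field K] [CharZero K] [Field L] [Algebra K L]
  [Algebra.IsAlgebraic K L] [Field F₀] [Algebra K F₀] [Field F] [Algebra L F] [Algebra K F]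
  [IsScalarTower K L F] [Algebra F₀ F] [IsScalarTower K F₀ F]

variable (K) in
include K in
/-- **Limit step.**  If the valuation subring `w` of `F = L(F₀)` contains the constants `L` and
`w ∩ F₀` is a discrete valuation ring with uniformiser `π₀`, every nonzero element of `w` is
associated to a power of `π₀`. -/
theorem exists_associated_pow (w : ValuationSubring F) (hL : ∀ c : L, algebraMap L F c ∈ w)
    (hgen : IntermediateField.adjoin L (Set.range (algebraMap F₀ F)) = ⊤)
    [IsDiscreteValuationRing (tr w F₀)] {π₀ : F₀} (hπ₀ : π₀ ∈ tr w F₀)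
    (hirr : Irreducible (⟨π₀, hπ₀⟩ : tr w F₀)) (y : w) (hy : y ≠ 0) :
    ∃ n : ℕ, Associated ((⟨algebraMap F₀ F π₀, (mem_tr_iff w F₀).mp hπ₀⟩ : w) ^ n) y := by
  classical
  haveI : CharZero F₀ := charZero_of_injective_algebraMap (algebraMap K F₀).injective
  obtain ⟨α, hα⟩ := exists_simple_of_adjoin_eq_top K hgen (y : F)
  set a : F := algebraMap L F α with ha
  have hαint : IsIntegral K α := (Algebra.IsAlgebraic.isAlgebraic (R := K) α).isIntegral
  have haintK : IsIntegral K a := hαint.map (IsScalarTower.toAlgHom K L F)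
  have haint : IsIntegral F₀ a := haintK.tower_top
  set L₁ : IntermediateField F₀ F := F₀⟮a⟯ with hL₁
  haveI : FiniteDimensional F₀ L₁ := IntermediateField.adjoin.finiteDimensional haint
  have hgen₁ : Algebra.adjoin F₀ {AdjoinSimple.gen F₀ a} = ⊤ := by
    have := (IntermediateField.adjoin.powerBasis haint).adjoin_gen_eq_top
    rwa [IntermediateField.adjoin.powerBasis_gen] at this
  -- the constants inside `w ∩ F₀`
  have hKw : ∀ b : K, algebraMap K F₀ b ∈ tr w F₀ := by
    intro b
    rw [mem_tr_iff, ← IsScalarTower.algebraMap_apply, IsScalarTower.algebraMap_apply K L F]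
    exact hL _
  let ι : K →+* tr w F₀ := (algebraMap K F₀).codRestrict (tr w F₀) hKw
  have hι : (algebraMap (tr w F₀) F₀).comp ι = algebraMap K F₀ := RingHom.ext fun _ => rfl
  set p := minpoly K α with hp
  have hpmonic : p.Monic := minpoly.monic hαint
  have hcoe : ∀ q : K[X], ((aeval (AdjoinSimple.gen F₀ a) q : L₁) : F) =
      algebraMap L F (aeval α q) := by
    intro q
    rw [← IntermediateField.aeval_coe, AdjoinSimple.coe_gen, ha, aeval_algebraMap_apply]
  have hgx : aeval (AdjoinSimple.gen F₀ a) ((p.map ι).map (algebraMap (tr w F₀) F₀)) = 0 := by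
    rw [Polynomial.map_map, hι, aeval_map_algebraMap]
    apply Subtype.ext
    rw [hcoe, hp, minpoly.aeval, map_zero]
    rfl
  have hsep : p.Separable := (minpoly.irreducible hαint).separable
  have hd0 : aeval α (derivative p) ≠ 0 := hsep.aeval_derivative_ne_zero (minpoly.aeval K α)
  have hder : algebraMap L₁ F (aeval (AdjoinSimple.gen F₀ a)
      (derivative ((p.map ι).map (algebraMap (tr w F₀) F₀)))) ∉ w.nonunits := by
    rw [Polynomial.map_map, hι, derivative_map, aeval_map_algebraMap]
    have : algebraMap L₁ F (aeval (AdjoinSimple.gen F₀ a) (derivative p)) =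
        algebraMap L F (aeval α (derivative p)) := hcoe _
    rw [this, ValuationSubring.mem_nonunits_iff_or, not_or]
    refine ⟨fun h0 => hd0 ((map_eq_zero _).mp h0), fun h => h ?_⟩
    rw [← map_inv₀]
    exact hL _
  obtain ⟨hDVR, hπL, hirrL⟩ :=
    tower_step_sep w F₀ L₁ hπ₀ hirr (AdjoinSimple.gen F₀ a) hgen₁ (p.map ι) (hpmonic.map ι)
      hgx hder
  -- transport along `w ∩ L₁ → w`
  set yL : L₁ := ⟨(y : F), hα⟩ with hyL
  have hyLmem : yL ∈ tr w L₁ := by
    rw [mem_tr_iff]
    exact y.2
  set yL' : tr w L₁ := ⟨yL, hyLmem⟩ with hyL'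
  have hjy : trIncl w L₁ yL' = y := Subtype.ext rfl
  have hjπ : trIncl w L₁ ⟨algebraMap F₀ L₁ π₀, hπL⟩ =
      (⟨algebraMap F₀ F π₀, (mem_tr_iff w F₀).mp hπ₀⟩ : w) := Subtype.ext rfl
  have hyL0 : yL' ≠ 0 := by
    intro h0
    apply hy
    rw [← hjy, h0, map_zero]
  obtain ⟨n, hn⟩ := IsDiscreteValuationRing.associated_pow_irreducible hyL0 hirrL
  refine ⟨n, ?_⟩
  have := (hn.map (trIncl w L₁)).symm
  rwa [map_pow, hjy, hjπ] at this

variable (K) in
include K in
/-- In the situation of `exists_associated_pow`, `w` is a discrete valuation ring with uniformiser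
`π₀`. -/
theorem isDiscreteValuationRing_and_irreducible (w : ValuationSubring F)
    (hL : ∀ c : L, algebraMap L F c ∈ w)
    (hgen : IntermediateField.adjoin L (Set.range (algebraMap F₀ F)) = ⊤)
    [IsDiscreteValuationRing (tr w F₀)] {π₀ : F₀} (hπ₀ : π₀ ∈ tr w F₀)
    (hirr : Irreducible (⟨π₀, hπ₀⟩ : tr w F₀)) :
    IsDiscreteValuationRing w ∧
      Irreducible (⟨algebraMap F₀ F π₀, (mem_tr_iff w F₀).mp hπ₀⟩ : w) := by
  set ϖ : w := ⟨algebraMap F₀ F π₀, (mem_tr_iff w F₀).mp hπ₀⟩ with hϖ
  have hϖnu : ¬ IsUnit ϖ := by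
    have hmem : ϖ ∈ IsLocalRing.maximalIdeal w := by
      rw [← ValuationSubring.coe_mem_nonunits_iff, hϖ]
      show algebraMap F₀ F π₀ ∈ w.nonunits
      rw [← mem_tr_nonunits_iff]
      exact (ValuationSubring.coe_mem_nonunits_iff (a := (⟨π₀, hπ₀⟩ : tr w F₀))).mpr
        ((IsLocalRing.mem_maximalIdeal _).mpr hirr.not_isUnit)
    exact (IsLocalRing.mem_maximalIdeal _).mp hmem
  have hϖ0 : ϖ ≠ 0 := by
    intro h0
    have h1 : algebraMap F₀ F π₀ = 0 := congrArg (fun z : w => (z : F)) h0
    rw [map_eq_zero] at h1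
    exact hirr.ne_zero (Subtype.ext h1)
  have hfac := exists_associated_pow K w hL hgen hπ₀ hirr
  exact ⟨isDiscreteValuationRing_of_forall_associated_pow hϖ0 hϖnu hfac,
    irreducible_of_forall_associated_pow hϖ0 hϖnu hfac⟩

end Limit

end Fermat.Agent.N4.ConstExtPlace

open Polynomial IntermediateField
open Fermat.Agent.N4.BigDVR

namespace Fermat.Agent.N4.ConstExtPlace

section Chevalley

variable {K L F₀ F : Type*} [Field K] [Field L] [Algebra K L]
  [Algebra.IsAlgebraic K L] [Field F₀] [Algebra K F₀] [Field F] [Algebra L F] [Algebra K F]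
  [IsScalarTower K L F] [Algebra F₀ F] [IsScalarTower K F₀ F]
  (V : Type*) [CommRing V] [IsDomain V] [IsDiscreteValuationRing V] [Algebra V F₀]
  [IsFractionRing V F₀]

/-- **Chevalley.**  A valuation subring of `F` containing the constants `L` and dominating `V`. -/
theorem exists_valuationSubring_above
    (hK : ∀ a : K, algebraMap K F₀ a ∈ (algebraMap V F₀).range) :
    ∃ w : ValuationSubring F, (∀ c : L, algebraMap L F c ∈ w) ∧
      (∀ v : V, algebraMap F₀ F (algebraMap V F₀ v) ∈ w) ∧
      ∀ v : V, ¬ IsUnit v → algebraMap F₀ F (algebraMap V F₀ v) ∈ w.nonunits := by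
  classical
  set ψ : V →+* F := (algebraMap F₀ F).comp (algebraMap V F₀) with hψ
  have hψinj : Function.Injective ψ :=
    (algebraMap F₀ F).injective.comp (IsFractionRing.injective V F₀)
  set A₀ : Subring F := ψ.range with hA₀
  set I : Ideal A₀ := (IsLocalRing.maximalIdeal V).map ψ.rangeRestrict with hI
  have hIne : I ≠ ⊤ := by
    intro htop
    have h1 : (1 : A₀) ∈ I := htop ▸ Submodule.mem_top
    rw [hI, Ideal.mem_map_iff_of_surjective _ ψ.rangeRestrict_surjective] at h1
    obtain ⟨v, hv, hv1⟩ := h1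
    have h2 : ψ v = ψ 1 := by
      have := congrArg (fun z : A₀ => (z : F)) hv1
      simpa using this
    rw [hψinj h2] at hv
    exact (IsLocalRing.mem_maximalIdeal _).mp hv isUnit_one
  obtain ⟨w, hAw, hIw⟩ := Ideal.image_subset_nonunits_valuationSubring I hIne
  have hVw : ∀ v : V, algebraMap F₀ F (algebraMap V F₀ v) ∈ w := fun v => hAw ⟨v, rfl⟩
  refine ⟨w, fun c => ?_, hVw, fun v hv => ?_⟩
  · refine mem_of_isIntegral w (R := K) (fun a => ?_)
      ((Algebra.IsIntegral.isIntegral (R := K) c).map (IsScalarTower.toAlgHom K L F))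
    obtain ⟨v, hv⟩ := hK a
    rw [IsScalarTower.algebraMap_apply K F₀ F, ← hv]
    exact hVw v
  · exact hIw ⟨ψ.rangeRestrict v, Ideal.mem_map_of_mem _ ((IsLocalRing.mem_maximalIdeal _).mpr hv),
      rfl⟩

/-- A valuation subring `w` of `F` dominating `V` traces `V` on `F₀`. -/
theorem exists_ringEquiv_tr (w : ValuationSubring F)
    (hVw : ∀ v : V, algebraMap F₀ F (algebraMap V F₀ v) ∈ w)
    (hnon : ∀ v : V, ¬ IsUnit v → algebraMap F₀ F (algebraMap V F₀ v) ∈ w.nonunits) :
    ∃ e : V ≃+* tr w F₀, ∀ v : V, ((e v : tr w F₀) : F₀) = algebraMap V F₀ v := by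
  have hmem : ∀ v : V, algebraMap V F₀ v ∈ tr w F₀ := fun v => (mem_tr_iff w F₀).mpr (hVw v)
  let f : V →+* tr w F₀ := (algebraMap V F₀).codRestrict (tr w F₀) hmem
  have hf : Function.Bijective f := by
    refine ⟨fun a b hab => IsFractionRing.injective V F₀ (congrArg (fun z : tr w F₀ => (z : F₀)) hab),
      fun z => ?_⟩
    obtain ⟨r, hr⟩ := exists_algebraMap_eq_of_mem (R := V) (tr w F₀)
      (fun r hr => (mem_tr_nonunits_iff w F₀).mpr (hnon r hr)) z.2
    exact ⟨r, Subtype.ext hr⟩
  exact ⟨RingEquiv.ofBijective f hf, fun v => rfl⟩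

end Chevalley

section Main

variable {K L F₀ F : Type*} [Field K] [CharZero K] [Field L] [Algebra K L]
  [Algebra.IsAlgebraic K L] [Field F₀] [Algebra K F₀] [Field F] [Algebra L F] [Algebra K F]
  [IsScalarTower K L F]

/-- Instance form of `exists_place_above`: `F₀ → F` is given by an `Algebra` instance. -/
theorem exists_place_above_of_algebra [Algebra F₀ F] [IsScalarTower K F₀ F]
    (hgen : IntermediateField.adjoin L (Set.range (algebraMap F₀ F)) = ⊤)
    (V : Type*) [CommRing V] [IsDomain V] [IsDiscreteValuationRing V] [Algebra V F₀]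
    [IsFractionRing V F₀] (hK : ∀ a : K, algebraMap K F₀ a ∈ (algebraMap V F₀).range) :
    ∃ w : AlgebraicCurve.Place L F,
      (∀ v : V, algebraMap F₀ F (algebraMap V F₀ v) ∈ w.toValuationSubring) ∧
      (∀ v : V, ¬ IsUnit v → algebraMap F₀ F (algebraMap V F₀ v) ∈ w.toValuationSubring.nonunits) ∧
      ∀ ϖ : V, Irreducible ϖ → w.ord (algebraMap F₀ F (algebraMap V F₀ ϖ)) = 1 := by
  classical
  obtain ⟨w, hL, hVw, hnon⟩ := exists_valuationSubring_above (K := K) (L := L) (F := F) V hK
  obtain ⟨e, he⟩ := exists_ringEquiv_tr V w hVw hnon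
  haveI : IsDiscreteValuationRing (tr w F₀) := IsDiscreteValuationRing.RingEquivClass.isDiscreteValuationRing e
  have hirr : ∀ ϖ : V, Irreducible ϖ →
      Irreducible (⟨algebraMap V F₀ ϖ, (mem_tr_iff w F₀).mpr (hVw ϖ)⟩ : tr w F₀) := by
    intro ϖ hϖ
    have h1 : Irreducible (e ϖ) := (MulEquiv.irreducible_iff e.toMulEquiv).mpr hϖ
    have h2 : e ϖ = ⟨algebraMap V F₀ ϖ, (mem_tr_iff w F₀).mpr (hVw ϖ)⟩ := Subtype.ext (he ϖ)
    rwa [h2] at h1
  obtain ⟨ϖ₀, hϖ₀⟩ := IsDiscreteValuationRing.exists_irreducible V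
  obtain ⟨hDVR, hirr₀⟩ := isDiscreteValuationRing_and_irreducible K w hL hgen
    ((mem_tr_iff w F₀).mpr (hVw ϖ₀)) (hirr ϖ₀ hϖ₀)
  have hne : w ≠ ⊤ := by
    intro htop
    have h1 := hnon ϖ₀ hϖ₀.not_isUnit
    rw [ValuationSubring.mem_nonunits_iff_or] at h1
    rcases h1 with h1 | h1
    · rw [map_eq_zero, map_eq_zero_iff _ (IsFractionRing.injective V F₀)] at h1
      exact hϖ₀.ne_zero h1
    · exact h1 (htop ▸ ValuationSubring.mem_top _)
  refine ⟨⟨w, hL, hne, inferInstance⟩, hVw, hnon, fun ϖ hϖ => ?_⟩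
  obtain ⟨-, hirrϖ⟩ := isDiscreteValuationRing_and_irreducible K w hL hgen
    ((mem_tr_iff w F₀).mpr (hVw ϖ)) (hirr ϖ hϖ)
  exact AlgebraicCurve.Place.ord_coe_irreducible (⟨w, hL, hne, inferInstance⟩ : AlgebraicCurve.Place L F)
    hirrϖ

/-- **Block dU, strong form**: also records that the nonunits of `V` stay nonunits (so that
`O_w ∩ F₀ = V`, see `exists_ringEquiv_tr`). -/
theorem exists_place_above' (φ : F₀ →ₐ[K] F)
    (hgen : IntermediateField.adjoin L (Set.range φ) = ⊤)
    (V : Type*) [CommRing V] [IsDomain V] [IsDiscreteValuationRing V] [Algebra V F₀]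
    [IsFractionRing V F₀] (hK : ∀ a : K, algebraMap K F₀ a ∈ (algebraMap V F₀).range) :
    ∃ w : AlgebraicCurve.Place L F,
      (∀ v : V, φ (algebraMap V F₀ v) ∈ w.toValuationSubring) ∧
      (∀ v : V, ¬ IsUnit v → φ (algebraMap V F₀ v) ∈ w.toValuationSubring.nonunits) ∧
      ∀ ϖ : V, Irreducible ϖ → w.ord (φ (algebraMap V F₀ ϖ)) = 1 := by
  letI : Algebra F₀ F := φ.toRingHom.toAlgebra
  haveI : IsScalarTower K F₀ F := IsScalarTower.of_algebraMap_eq fun a => (φ.commutes a).symm
  exact exists_place_above_of_algebra (K := K) (L := L) (F₀ := F₀) (F := F) hgen V hK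

/-- **Block dU: constant-field extensions are unramified (characteristic 0), existence form.**
`K ⊆ L` algebraic, `F₀/K` and `F/L` fields, `φ : F₀ → F` with `F = L(φ F₀)`, `V` a discrete valuation
ring with fraction field `F₀` containing `K`.  Then there is a place `w` of `F/L` dominating `V` in
which every uniformiser of `V` stays a uniformiser.  No rationality assumption. -/
theorem exists_place_above (φ : F₀ →ₐ[K] F)
    (hgen : IntermediateField.adjoin L (Set.range φ) = ⊤)
    (V : Type*) [CommRing V] [IsDomain V] [IsDiscreteValuationRing V] [Algebra V F₀]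
    [IsFractionRing V F₀] (hK : ∀ a : K, algebraMap K F₀ a ∈ (algebraMap V F₀).range) :
    ∃ w : AlgebraicCurve.Place L F,
      (∀ v : V, φ (algebraMap V F₀ v) ∈ w.toValuationSubring) ∧
      ∀ ϖ : V, Irreducible ϖ → w.ord (φ (algebraMap V F₀ ϖ)) = 1 := by
  obtain ⟨w, h1, -, h3⟩ := exists_place_above' (K := K) φ hgen V hK
  exact ⟨w, h1, h3⟩

end Main

end Fermat.Agent.N4.ConstExtPlace
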