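/-
N4: the interface statement (∗) `Setting.HasFibreEmbedding` for the two charts of the `j`-line over a
general base `(K, O)`, from the primality of the special fibre.

For a discrete valuation ring `O ⊆ K` with fraction field `K` (char `0`) and residue field `κ`, the
function field `FF K N ⊆ K((q))` lies in the Gauss field `Frac O((q))`; the elements lying in the Gauss
ring form an `O`-subalgebra `gaussSubalgebra` with a reduction map `theta` to `κ((q))`.  The charts
`Rfin`, `Rinf` (integral closures of `O[j]`, `O[j⁻¹]`) lie in it (the Gauss ring is integrally closed).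
If `𝔪_O R` is prime (`R` one of the two charts) then the kernel of the reduction map on `R` is exactly
`𝔪_O R` (incomparability), so `R / 𝔪_O R` embeds into `κ((q))`; the compatibility clause of
`HasFibreEmbedding` follows from `FF K N` being algebraic over `K(j)` (`FFAlgebraic`).

Main statements:
* `hasFibreEmbedding_fin`, `hasFibreEmbedding_inf`, `starStatement_of_isPrime`,
  `starStatement_of_goodBase`.
-/
import Fermat.Agent.S28.GaussRing
import Fermat.Agent.N4.FFAlgebraic

set_option autoImplicit false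
set_option linter.unusedSectionVars false
set_option linter.style.haveILetI false

namespace Fermat.Agent.N4.FibreEmbedding

open ModularCurve Fermat.Agent.S28.Gauss Fermat.Agent.N4.Chart Fermat.Agent.N4.Setting

variable (K : Type) [Field K] (N : ℕ) (O : Subring K) [IsDiscreteValuationRing ↥O]
  [IsFractionRing ↥O K]

set_option quotPrecheck false in
local notation "κ" => IsLocalRing.ResidueField ↥O

theorem emb_eq (y : LaurentSeries ↥O) : emb ↥O K y = coeffMap O.subtype y := rfl

theorem red_eq (y : LaurentSeries ↥O) : red ↥O y = coeffMap (IsLocalRing.residue ↥O) y := rfl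

theorem emb_jqModC : emb ↥O K (jqModC ↥O) = jqModC K := by
  unfold emb
  rw [coeffMap_jqModC]

theorem red_jqModC : red ↥O (jqModC ↥O) = jqModC κ := by
  unfold red
  rw [coeffMap_jqModC]

theorem emb_jd (d : ℕ) [NeZero d] :
    emb ↥O K (qExpand ↥O d (jqModC ↥O)) = qExpand K d (jqModC K) := by
  unfold emb
  rw [coeffMap_qExpand, coeffMap_jqModC]

/-- The function field lies in the Gauss field. -/
theorem full_le_gaussField : modularFunctionFieldFullC K N ≤ gaussField ↥O K := by
  rw [modularFunctionFieldFullC, IntermediateField.adjoin_le_iff]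
  rintro x ⟨d, hd, -, rfl⟩
  have := hd
  rw [← emb_jd K O d]
  exact emb_mem_gaussField _

theorem coe_algebraMap (a : ↥O) :
    ((algebraMap ↥O (FF K N) a : FF K N) : LaurentSeries K) = emb ↥O K (HahnSeries.C a) := by
  have h1 : ((algebraMap ↥O (FF K N) a : FF K N) : LaurentSeries K) =
      algebraMap K (LaurentSeries K) (a : K) := rfl
  rw [h1, algebraMap_laurentSeries_eq_single]
  exact (coeffMap_single (algebraMap ↥O K) 0 a).symm

/-- The elements of the function field lying in the Gauss ring. -/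
def gaussSubalgebra : Subalgebra ↥O (FF K N) where
  carrier := {x | (x : LaurentSeries K) ∈ gaussRing ↥O K}
  mul_mem' ha hb := (gaussRing ↥O K).mul_mem ha hb
  one_mem' := (gaussRing ↥O K).one_mem
  add_mem' ha hb := (gaussRing ↥O K).add_mem ha hb
  zero_mem' := (gaussRing ↥O K).zero_mem
  algebraMap_mem' a := by
    show ((algebraMap ↥O (FF K N) a : FF K N) : LaurentSeries K) ∈ gaussRing ↥O K
    rw [coe_algebraMap]
    exact emb_mem_gaussRing _

theorem mem_gaussSubalgebra_iff {x : FF K N} :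
    x ∈ gaussSubalgebra K N O ↔ (x : LaurentSeries K) ∈ gaussRing ↥O K := Iff.rfl

/-- The inclusion of `gaussSubalgebra` into the Gauss ring. -/
def toGaussRing : gaussSubalgebra K N O →+* gaussRing ↥O K where
  toFun x := ⟨((x : FF K N) : LaurentSeries K), x.2⟩
  map_one' := rfl
  map_mul' _ _ := rfl
  map_zero' := rfl
  map_add' _ _ := rfl

/-- A chart generated by elements of the Gauss ring lies in the Gauss ring. -/
theorem chartAlg_le_gaussSubalgebra {S : Set (FF K N)}
    (hS : S ⊆ (gaussSubalgebra K N O : Set (FF K N))) :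
    chartAlg ↥O (FF K N) S ≤ gaussSubalgebra K N O := by
  intro x hx
  rw [mem_chartAlg_iff] at hx
  have hadj : Algebra.adjoin ↥O S ≤ gaussSubalgebra K N O := Algebra.adjoin_le hS
  rw [mem_gaussSubalgebra_iff]
  apply mem_gaussRing_of_isIntegral (full_le_gaussField K N O x.2)
  let φ : ↥(Algebra.adjoin ↥O S) →+* gaussRing ↥O K :=
    (toGaussRing K N O).comp (Subalgebra.inclusion hadj).toRingHom
  exact hx.map_of_comp_eq φ (SubringClass.subtype (modularFunctionFieldFullC K N)) (by ext; rfl)

theorem jF_mem_gaussSubalgebra : jF K N ∈ gaussSubalgebra K N O := by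
  rw [mem_gaussSubalgebra_iff, coe_jF, ← emb_jqModC K O]
  exact emb_mem_gaussRing _

/-- The reduction map on `gaussSubalgebra`. -/
noncomputable def theta : gaussSubalgebra K N O →+* LaurentSeries κ :=
  (gaussRed (A := ↥O) (Q := K)).comp (toGaussRing K N O)

theorem theta_apply (x : gaussSubalgebra K N O) :
    theta K N O x = gaussRed (⟨((x : FF K N) : LaurentSeries K), x.2⟩ : gaussRing ↥O K) := rfl

/-- The reduction of (the image in `K((q))` of) a Laurent series over `O` is its coefficientwise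
reduction. -/
theorem theta_of_emb (x : gaussSubalgebra K N O) (y : LaurentSeries ↥O)
    (h : ((x : FF K N) : LaurentSeries K) = emb ↥O K y) : theta K N O x = red ↥O y := by
  rw [theta_apply, ← gaussRed_emb (A := ↥O) (Q := K) y]
  congr 1
  exact Subtype.ext h

theorem theta_algebraMap (a : ↥O) :
    theta K N O (algebraMap ↥O (gaussSubalgebra K N O) a) =
      HahnSeries.C (IsLocalRing.residue ↥O a) := by
  rw [theta_of_emb K N O _ (HahnSeries.C a) (coe_algebraMap K N O a)]
  exact coeffMap_single (IsLocalRing.residue ↥O) 0 a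

theorem theta_jF :
    theta K N O ⟨jF K N, jF_mem_gaussSubalgebra K N O⟩ = jqModC κ := by
  rw [theta_of_emb K N O _ (jqModC ↥O) (by rw [emb_jqModC]; rfl), red_jqModC]

theorem jF_inv_mem_gaussSubalgebra : (jF K N)⁻¹ ∈ gaussSubalgebra K N O := by
  rw [mem_gaussSubalgebra_iff]
  have hne : gaussRed (⟨((jF K N : FF K N) : LaurentSeries K), jF_mem_gaussSubalgebra K N O⟩ :
      gaussRing ↥O K) ≠ 0 := by
    have h := theta_jF K N O
    rw [theta_apply] at h
    rw [h]
    exact jqModC_ne_zero_of_nontrivial _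
  have h' := inv_mem_gaussRing_of_gaussRed_ne_zero hne
  have hc : (((jF K N)⁻¹ : FF K N) : LaurentSeries K) = ((jF K N : FF K N) : LaurentSeries K)⁻¹ :=
    IntermediateField.coe_inv _ _
  rw [hc]
  exact h'

theorem theta_jF_inv :
    theta K N O ⟨(jF K N)⁻¹, jF_inv_mem_gaussSubalgebra K N O⟩ = (jqModC κ)⁻¹ := by
  apply eq_inv_of_mul_eq_one_left
  rw [← theta_jF K N O, ← map_mul]
  have h : (⟨(jF K N)⁻¹, jF_inv_mem_gaussSubalgebra K N O⟩ : gaussSubalgebra K N O) *
      ⟨jF K N, jF_mem_gaussSubalgebra K N O⟩ = 1 :=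
    Subtype.ext (inv_mul_cancel₀ (jF_ne_zero K N))
  rw [h, map_one]

/-- The reduction of `aeval s P` is `aeval s̄ P̄`. -/
theorem theta_aeval (s : gaussSubalgebra K N O) (P : Polynomial ↥O) :
    theta K N O (Polynomial.aeval s P) =
      Polynomial.aeval (theta K N O s) (P.map (IsLocalRing.residue ↥O)) := by
  rw [Polynomial.aeval_def, Polynomial.hom_eval₂, Polynomial.aeval_def, Polynomial.eval₂_map]
  congr 1
  ext a : 1
  rw [RingHom.comp_apply, RingHom.comp_apply, theta_algebraMap,
    algebraMap_laurentSeries_eq_single]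
  rfl

/-- If the reduction of `s` is transcendental over the residue field, an element of `O[s]` with
zero reduction is divisible by the uniformiser in `O[s]`. -/
theorem exists_eq_C_mul_of_theta_eq_zero {ϖ : ↥O} (hϖ : Irreducible ϖ) (s : gaussSubalgebra K N O)
    (hs : Transcendental κ (theta K N O s)) (P : Polynomial ↥O)
    (h : theta K N O (Polynomial.aeval s P) = 0) :
    ∃ P' : Polynomial ↥O, P = Polynomial.C ϖ * P' := by
  rw [theta_aeval] at h
  have h0 : P.map (IsLocalRing.residue ↥O) = 0 := by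
    by_contra hne
    exact (transcendental_iff.mp hs) _ h |> hne
  have hdvd : Polynomial.C ϖ ∣ P := by
    rw [Polynomial.C_dvd_iff_dvd_coeff]
    intro i
    have hi : IsLocalRing.residue ↥O (P.coeff i) = 0 := by
      rw [← Polynomial.coeff_map, h0, Polynomial.coeff_zero]
    rw [IsLocalRing.residue_eq_zero_iff, hϖ.maximalIdeal_eq, Ideal.mem_span_singleton] at hi
    exact hi
  exact hdvd

theorem residue_irreducible {ϖ : ↥O} (hϖ : Irreducible ϖ) : IsLocalRing.residue ↥O ϖ = 0 := by
  rw [IsLocalRing.residue_eq_zero_iff, hϖ.maximalIdeal_eq]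
  exact Ideal.mem_span_singleton_self _

theorem fibreIdeal_eq_span {ϖ : ↥O} (hϖ : Irreducible ϖ) (R : Subalgebra ↥O (FF K N)) :
    fibreIdeal K N O R = Ideal.span {algebraMap ↥O R ϖ} := by
  unfold fibreIdeal
  rw [hϖ.maximalIdeal_eq, Ideal.map_span, Set.image_singleton]

/-- The reduction map on a chart generated by elements of the Gauss ring. -/
noncomputable def rho {S : Set (FF K N)} (hS : S ⊆ (gaussSubalgebra K N O : Set (FF K N))) :
    chartAlg ↥O (FF K N) S →+* LaurentSeries κ :=
  (theta K N O).comp (Subalgebra.inclusion (chartAlg_le_gaussSubalgebra K N O hS)).toRingHom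

theorem rho_eq_theta {S : Set (FF K N)} (hS : S ⊆ (gaussSubalgebra K N O : Set (FF K N)))
    (x : chartAlg ↥O (FF K N) S) :
    rho K N O hS x = theta K N O ⟨x, chartAlg_le_gaussSubalgebra K N O hS x.2⟩ := rfl

theorem rho_algebraMap {S : Set (FF K N)} (hS : S ⊆ (gaussSubalgebra K N O : Set (FF K N)))
    (a : ↥O) :
    rho K N O hS (algebraMap ↥O (chartAlg ↥O (FF K N) S) a) =
      HahnSeries.C (IsLocalRing.residue ↥O a) := by
  rw [rho_eq_theta, ← theta_algebraMap K N O a]
  rfl

theorem fibreIdeal_le_ker_rho {S : Set (FF K N)}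
    (hS : S ⊆ (gaussSubalgebra K N O : Set (FF K N))) :
    fibreIdeal K N O (chartAlg ↥O (FF K N) S) ≤ RingHom.ker (rho K N O hS) := by
  obtain ⟨ϖ, hϖ⟩ := IsDiscreteValuationRing.exists_irreducible ↥O
  rw [fibreIdeal_eq_span K N O hϖ, Ideal.span_le, Set.singleton_subset_iff]
  show rho K N O hS _ = 0
  rw [rho_algebraMap, residue_irreducible K O hϖ, map_zero]

/-- **The kernel of the reduction map.** If `𝔪_O R` is a prime ideal of the chart
`R = chartAlg O (FF K N) {s}` and the reduction of `s` is transcendental over the residue field, the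
kernel of the reduction map on `R` is `𝔪_O R`. -/
theorem ker_rho_eq {s : FF K N} (hs : s ∈ gaussSubalgebra K N O)
    (htr : Transcendental κ (theta K N O ⟨s, hs⟩))
    (hprime : (fibreIdeal K N O (chartAlg ↥O (FF K N) {s})).IsPrime) :
    RingHom.ker (rho K N O (S := {s}) (Set.singleton_subset_iff.mpr hs)) =
      fibreIdeal K N O (chartAlg ↥O (FF K N) {s}) := by
  obtain ⟨ϖ, hϖ⟩ := IsDiscreteValuationRing.exists_irreducible ↥O
  set hS : ({s} : Set (FF K N)) ⊆ (gaussSubalgebra K N O : Set (FF K N)) :=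
    Set.singleton_subset_iff.mpr hs
  set 𝔮 : Ideal (chartAlg ↥O (FF K N) {s}) := fibreIdeal K N O (chartAlg ↥O (FF K N) {s}) with h𝔮
  have le₁ : 𝔮 ≤ RingHom.ker (rho K N O hS) := fibreIdeal_le_ker_rho K N O hS
  refine le_antisymm ?_ le₁
  by_contra hnot
  obtain ⟨x, hxker, hxq⟩ := SetLike.not_le_iff_exists.mp hnot
  let f : ↥(Algebra.adjoin ↥O ({s} : Set (FF K N))) →+* ↥(chartAlg ↥O (FF K N) {s}) :=
    (Subalgebra.inclusion (adjoin_le_chartAlg {s})).toRingHom
  obtain ⟨p, hp, hpx⟩ := (mem_chartAlg_iff).mp x.2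
  have hpx' : p.eval₂ f x = 0 := by
    apply Subtype.ext
    have h1 := Polynomial.hom_eval₂ p f (SubringClass.subtype (chartAlg ↥O (FF K N) {s})) x
    exact h1.trans hpx
  have : (𝔮.comap f).IsPrime := Ideal.IsPrime.comap f
  have hp0 : p.map (Ideal.Quotient.mk (𝔮.comap f)) ≠ 0 := Polynomial.map_monic_ne_zero hp
  have hlt := Ideal.comap_lt_comap_of_root_mem_sdiff (f := f) le₁ ⟨hxker, hxq⟩ hp0
    (by rw [hpx']; exact 𝔮.zero_mem)
  obtain ⟨b, hbker, hbq⟩ := SetLike.exists_of_lt hlt
  apply hbq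
  have hbmem : (b : FF K N) ∈ (Polynomial.aeval (R := ↥O) s).range := by
    rw [← Algebra.adjoin_singleton_eq_range_aeval]
    exact b.2
  obtain ⟨P, hP⟩ := hbmem
  replace hP : Polynomial.aeval s P = (b : FF K N) := hP
  have hθ : theta K N O (Polynomial.aeval (⟨s, hs⟩ : gaussSubalgebra K N O) P) = 0 := by
    have h1 : rho K N O hS (f b) = 0 := hbker
    rw [rho_eq_theta] at h1
    rw [← h1]
    congr 1
    apply Subtype.ext
    rw [Polynomial.aeval_subalgebra_coe]
    exact hP
  obtain ⟨P', rfl⟩ := exists_eq_C_mul_of_theta_eq_zero K N O hϖ ⟨s, hs⟩ htr P hθ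
  have hb' : Polynomial.aeval s P' ∈ Algebra.adjoin ↥O ({s} : Set (FF K N)) := by
    rw [Algebra.adjoin_singleton_eq_range_aeval]
    exact ⟨P', rfl⟩
  have hfb : f b = algebraMap ↥O (chartAlg ↥O (FF K N) {s}) ϖ * f ⟨_, hb'⟩ := by
    apply Subtype.ext
    show (b : FF K N) = algebraMap ↥O (FF K N) ϖ * Polynomial.aeval s P'
    rw [← hP, map_mul, Polynomial.aeval_C]
  show f b ∈ 𝔮
  rw [hfb, h𝔮, fibreIdeal_eq_span K N O hϖ]
  exact Ideal.mul_mem_right _ _ (Ideal.mem_span_singleton_self _)

/-- Extraction of the content of a polynomial over a discrete valuation ring. -/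
theorem exists_C_pow_mul_eq {ϖ : ↥O} (hϖ : Irreducible ϖ) {P : Polynomial ↥O} (hP : P ≠ 0) :
    ∃ (m : ℕ) (P₁ : Polynomial ↥O), P = Polynomial.C (ϖ ^ m) * P₁ ∧
      P₁.map (IsLocalRing.residue ↥O) ≠ 0 := by
  have hnu : ¬ IsUnit (Polynomial.C ϖ : Polynomial ↥O) := by
    rw [Polynomial.isUnit_C]
    exact hϖ.not_isUnit
  obtain ⟨m, P₁, hnd, hP₁⟩ := WfDvdMonoid.max_power_factor' hP hnu
  refine ⟨m, P₁, by rw [hP₁, map_pow], ?_⟩
  intro h0
  apply hnd
  rw [Polynomial.C_dvd_iff_dvd_coeff]
  intro i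
  have hi : IsLocalRing.residue ↥O (P₁.coeff i) = 0 := by
    rw [← Polynomial.coeff_map, h0, Polynomial.coeff_zero]
  rw [IsLocalRing.residue_eq_zero_iff, hϖ.maximalIdeal_eq, Ideal.mem_span_singleton] at hi
  exact hi

theorem algebraMap_ne_zero {a : ↥O} (ha : a ≠ 0) : algebraMap ↥O (FF K N) a ≠ 0 := by
  have h1 : algebraMap ↥O (FF K N) a = algebraMap K (FF K N) (a : K) := rfl
  rw [h1, Ne, map_eq_zero_iff _ (algebraMap K (FF K N)).injective]
  exact fun h => ha (Subtype.ext h)

section Embedding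

variable {s : FF K N} (hs : s ∈ gaussSubalgebra K N O)

/-- The map induced by reduction on the special fibre of the chart `chartAlg O (FF K N) {s}`. -/
noncomputable def thetaBar :
    (chartAlg ↥O (FF K N) {s} ⧸ fibreIdeal K N O (chartAlg ↥O (FF K N) {s})) →+*
      LaurentSeries κ :=
  Ideal.Quotient.lift _ (rho K N O (S := {s}) (Set.singleton_subset_iff.mpr hs))
    (fun _ ha => fibreIdeal_le_ker_rho K N O _ ha)

theorem thetaBar_mk (x : chartAlg ↥O (FF K N) {s}) :
    thetaBar K N O hs (Ideal.Quotient.mk _ x) =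
      rho K N O (S := {s}) (Set.singleton_subset_iff.mpr hs) x := rfl

theorem thetaBar_injective (htr : Transcendental κ (theta K N O ⟨s, hs⟩))
    (hprime : (fibreIdeal K N O (chartAlg ↥O (FF K N) {s})).IsPrime) :
    Function.Injective (thetaBar K N O hs) := by
  unfold thetaBar
  exact RingHom.lift_injective_of_ker_le_ideal _ _ (ker_rho_eq K N O hs htr hprime).le

/-- An element `w` of the Gauss ring with `ϖ^m w` in the chart lies in the chart (when the kernel of
the reduction on the chart is `𝔪_O R`). -/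
theorem mem_chartAlg_of_pow_mul_mem
    (hker : RingHom.ker (rho K N O (S := {s}) (Set.singleton_subset_iff.mpr hs)) =
      fibreIdeal K N O (chartAlg ↥O (FF K N) {s}))
    {ϖ : ↥O} (hϖ : Irreducible ϖ) (m : ℕ) (w : FF K N) (hw : w ∈ gaussSubalgebra K N O)
    (h : algebraMap ↥O (FF K N) (ϖ ^ m) * w ∈ chartAlg ↥O (FF K N) {s}) :
    w ∈ chartAlg ↥O (FF K N) {s} := by
  induction m with
  | zero => rwa [pow_zero, map_one, one_mul] at h
  | succ m ih =>
    apply ih
    set hS : ({s} : Set (FF K N)) ⊆ (gaussSubalgebra K N O : Set (FF K N)) :=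
      Set.singleton_subset_iff.mpr hs
    have hr : (⟨_, h⟩ : chartAlg ↥O (FF K N) {s}) ∈ RingHom.ker (rho K N O hS) := by
      show rho K N O hS _ = 0
      rw [rho_eq_theta]
      have h1 : (⟨algebraMap ↥O (FF K N) (ϖ ^ (m + 1)) * w,
          chartAlg_le_gaussSubalgebra K N O hS h⟩ : gaussSubalgebra K N O) =
          algebraMap ↥O (gaussSubalgebra K N O) (ϖ ^ (m + 1)) * ⟨w, hw⟩ := Subtype.ext rfl
      rw [h1, map_mul, theta_algebraMap, map_pow, residue_irreducible K O hϖ, zero_pow m.succ_ne_zero,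
        map_zero, zero_mul]
    rw [hker, fibreIdeal_eq_span K N O hϖ, Ideal.mem_span_singleton'] at hr
    obtain ⟨r', hr'⟩ := hr
    have h2 : (r' : FF K N) * algebraMap ↥O (FF K N) ϖ =
        algebraMap ↥O (FF K N) (ϖ ^ (m + 1)) * w := congrArg Subtype.val hr'
    have h3 : algebraMap ↥O (FF K N) (ϖ ^ m) * w = (r' : FF K N) := by
      apply mul_right_cancel₀ (algebraMap_ne_zero K N O hϖ.ne_zero)
      rw [h2, pow_succ, map_mul]
      ring
    rw [h3]
    exact r'.2

/-- **The compatibility clause of `HasFibreEmbedding`.** -/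
theorem compat (htr : Transcendental κ (theta K N O ⟨s, hs⟩))
    (hprime : (fibreIdeal K N O (chartAlg ↥O (FF K N) {s})).IsPrime)
    (hfrac : ∀ z : FF K N, ∃ b : ↥(Algebra.adjoin ↥O ({s} : Set (FF K N))), b ≠ 0 ∧
      (b : FF K N) * z ∈ chartAlg ↥O (FF K N) {s})
    (y : LaurentSeries ↥O) (hy : coeffMap O.subtype y ∈ modularFunctionFieldFullC K N) :
    ∃ a b : chartAlg ↥O (FF K N) {s}, b ∉ fibreIdeal K N O (chartAlg ↥O (FF K N) {s}) ∧
      (⟨coeffMap O.subtype y, hy⟩ : FF K N) * (b : FF K N) = (a : FF K N) ∧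
      thetaBar K N O hs (Ideal.Quotient.mk _ a) =
        coeffMap (IsLocalRing.residue ↥O) y * thetaBar K N O hs (Ideal.Quotient.mk _ b) := by
  obtain ⟨ϖ, hϖ⟩ := IsDiscreteValuationRing.exists_irreducible ↥O
  set hS : ({s} : Set (FF K N)) ⊆ (gaussSubalgebra K N O : Set (FF K N)) :=
    Set.singleton_subset_iff.mpr hs
  have hker := ker_rho_eq K N O hs htr hprime
  set z : FF K N := ⟨coeffMap O.subtype y, hy⟩ with hz
  have hzG : z ∈ gaussSubalgebra K N O := by
    rw [mem_gaussSubalgebra_iff]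
    exact emb_mem_gaussRing y
  have hθz : theta K N O ⟨z, hzG⟩ = coeffMap (IsLocalRing.residue ↥O) y :=
    theta_of_emb K N O _ y rfl
  obtain ⟨b₀, hb₀, hb₀z⟩ := hfrac z
  have hbmem : (b₀ : FF K N) ∈ (Polynomial.aeval (R := ↥O) s).range := by
    rw [← Algebra.adjoin_singleton_eq_range_aeval]
    exact b₀.2
  obtain ⟨P₀, hP₀⟩ := hbmem
  replace hP₀ : Polynomial.aeval s P₀ = (b₀ : FF K N) := hP₀
  have hP₀ne : P₀ ≠ 0 := by
    rintro rfl
    rw [map_zero] at hP₀
    exact hb₀ (Subtype.ext hP₀.symm)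
  obtain ⟨m, P₁, rfl, hP₁⟩ := exists_C_pow_mul_eq K O hϖ hP₀ne
  have hb₁A : Polynomial.aeval s P₁ ∈ Algebra.adjoin ↥O ({s} : Set (FF K N)) := by
    rw [Algebra.adjoin_singleton_eq_range_aeval]
    exact ⟨P₁, rfl⟩
  have hb₁R : Polynomial.aeval s P₁ ∈ chartAlg ↥O (FF K N) {s} := adjoin_le_chartAlg {s} hb₁A
  have hb₁G : Polynomial.aeval s P₁ ∈ gaussSubalgebra K N O :=
    chartAlg_le_gaussSubalgebra K N O hS hb₁R
  have hθb : theta K N O ⟨Polynomial.aeval s P₁, hb₁G⟩ ≠ 0 := by
    have h1 : (⟨Polynomial.aeval s P₁, hb₁G⟩ : gaussSubalgebra K N O) =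
        Polynomial.aeval (⟨s, hs⟩ : gaussSubalgebra K N O) P₁ := by
      apply Subtype.ext
      rw [Polynomial.aeval_subalgebra_coe]
    rw [h1, theta_aeval]
    exact fun h0 => hP₁ ((transcendental_iff.mp htr) _ h0)
  have hwG : Polynomial.aeval s P₁ * z ∈ gaussSubalgebra K N O :=
    (gaussSubalgebra K N O).mul_mem hb₁G hzG
  have hwR : Polynomial.aeval s P₁ * z ∈ chartAlg ↥O (FF K N) {s} := by
    apply mem_chartAlg_of_pow_mul_mem K N O hs hker hϖ m _ hwG
    rw [← mul_assoc]
    rw [← hP₀, map_mul, Polynomial.aeval_C] at hb₀z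
    exact hb₀z
  refine ⟨⟨_, hwR⟩, ⟨_, hb₁R⟩, ?_, mul_comm _ _, ?_⟩
  · rw [← hker]
    show ¬ rho K N O hS _ = 0
    rw [rho_eq_theta]
    exact hθb
  · rw [thetaBar_mk, thetaBar_mk, rho_eq_theta, rho_eq_theta, ← hθz, ← map_mul]
    congr 1
    exact Subtype.ext (mul_comm _ _)

/-- **(∗) for the chart `chartAlg O (FF K N) {s}`**, from the primality of its special fibre. -/
theorem hasFibreEmbedding_of_isPrime (htr : Transcendental κ (theta K N O ⟨s, hs⟩))
    (hfrac : ∀ z : FF K N, ∃ b : ↥(Algebra.adjoin ↥O ({s} : Set (FF K N))), b ≠ 0 ∧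
      (b : FF K N) * z ∈ chartAlg ↥O (FF K N) {s})
    (hprime : (fibreIdeal K N O (chartAlg ↥O (FF K N) {s})).IsPrime) :
    HasFibreEmbedding K N O (chartAlg ↥O (FF K N) {s}) :=
  ⟨thetaBar K N O hs, thetaBar_injective K N O hs htr hprime,
    fun y hy _ => compat K N O hs htr hprime hfrac y hy⟩

end Embedding

section Main

variable [CharZero K]

/-- **(∗) for the finite chart**, from the primality of its special fibre. -/
theorem hasFibreEmbedding_fin (h : (fibreIdeal K N O (Rfin K N O)).IsPrime) :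
    HasFibreEmbedding K N O (Rfin K N O) := by
  refine hasFibreEmbedding_of_isPrime K N O (jF_mem_gaussSubalgebra K N O) ?_ ?_ h
  · rw [theta_jF]
    exact Fermat.Agent.S24.FFBasics.transcendental_jqModC _
  · exact FFAlgebraic.exists_mul_mem_chartAlg K N O _ (FFAlgebraic.transcendental_jF K N)
      (FFAlgebraic.isAlgebraic_jF K N)

/-- **(∗) for the chart at infinity**, from the primality of its special fibre. -/
theorem hasFibreEmbedding_inf (h : (fibreIdeal K N O (Rinf K N O)).IsPrime) :
    HasFibreEmbedding K N O (Rinf K N O) := by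
  refine hasFibreEmbedding_of_isPrime K N O (jF_inv_mem_gaussSubalgebra K N O) ?_ ?_ h
  · rw [theta_jF_inv]
    intro halg
    exact Fermat.Agent.S24.FFBasics.transcendental_jqModC _ (by simpa using halg.inv)
  · exact FFAlgebraic.exists_mul_mem_chartAlg K N O _ (FFAlgebraic.transcendental_jF_inv K N)
      (FFAlgebraic.isAlgebraic_jF_inv K N)

/-- **(∗) for both charts** from the primality of the two special fibres. -/
theorem starStatement_of_isPrime (hfin : (fibreIdeal K N O (Rfin K N O)).IsPrime)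
    (hinf : (fibreIdeal K N O (Rinf K N O)).IsPrime) : StarStatement K N O :=
  ⟨hasFibreEmbedding_fin K N O hfin, hasFibreEmbedding_inf K N O hinf⟩

omit [IsFractionRing ↥O K] in
/-- The same, in the language of `Setting.GoodBase` (which carries `IsFractionRing O K` as a field). -/
theorem starStatement_of_goodBase {ℓ : ℕ} (hG : GoodBase K N O ℓ)
    (hfin : (fibreIdeal K N O (Rfin K N O)).IsPrime)
    (hinf : (fibreIdeal K N O (Rinf K N O)).IsPrime) : StarStatement K N O := by
  haveI := hG.frac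
  exact starStatement_of_isPrime K N O hfin hinf

end Main

end Fermat.Agent.N4.FibreEmbedding
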