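/-
N4 block **dE**: constants of the Kummer cover.

`K ⊆ L` fields with `L` algebraically closed, `F₀/K` a field in which `K` is algebraically closed,
`φ : F₀ →ₐ[K] F` with `F/L` a field, `p` a prime and `f ∈ F₀` such that `X ^ p - φ f` is irreducible over
`F`.  Then `K` is still algebraically closed in the Kummer extension `F' = F₀(t)`, `t ^ p = f`
(`algClosed_in_kummer`).

Proof: write `x = ∑_{i<p} c_i t^i`; in `F(r)`, `r ^ p = φ f`, the element `y = ∑ φ(c_i) r^i` is algebraic
over `K`, hence lies in `L ⊆ F`; uniqueness of the coefficients in the basis `r^i` gives `c_i = 0` for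
`i ≥ 1`, so `x = c₀ ∈ F₀` is algebraic over `K`, hence in `K`.
-/
import Mathlib
import Fermat.Agent.N4.Cover.KummerClosure

set_option autoImplicit false
set_option linter.style.haveILetI false
set_option linter.unusedSectionVars false

open Polynomial IntermediateField

namespace Fermat.Agent.N4.KummerConst

/-- An element of a field extension of an algebraically closed field `L` which is algebraic over `L`
lies in `L`. -/
theorem mem_range_of_isAlgebraic {L E : Type*} [Field L] [IsAlgClosed L] [Field E] [Algebra L E]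
    {y : E} (hy : IsAlgebraic L y) : y ∈ (algebraMap L E).range :=
  minpoly.mem_range_of_degree_eq_one L y
    (IsAlgClosed.degree_eq_one_of_irreducible L (minpoly.irreducible hy.isIntegral))

theorem algClosed_in_kummer {K L F₀ F F' : Type*} [Field K] [Field L] [IsAlgClosed L]
    [Algebra K L] [Field F₀] [Algebra K F₀] [Field F] [Algebra L F] [Algebra K F]
    [IsScalarTower K L F] (φ : F₀ →ₐ[K] F)
    (hK : ∀ x : F₀, IsAlgebraic K x → x ∈ (algebraMap K F₀).range) {p : ℕ} (hp : p.Prime)
    (f : F₀) (hirr : Irreducible (X ^ p - C (φ f) : F[X])) [Field F'] [Algebra F₀ F']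
    [Algebra K F'] [IsScalarTower K F₀ F'] (t : F') (ht : t ^ p = algebraMap F₀ F' f)
    (htop : F₀⟮t⟯ = ⊤) : ∀ x : F', IsAlgebraic K x → x ∈ (algebraMap K F').range := by
  classical
  intro x hx
  set g : F[X] := X ^ p - C (φ f) with hg
  haveI : Fact (Irreducible g) := ⟨hirr⟩
  set E := AdjoinRoot g with hE
  set r : E := AdjoinRoot.root g with hr
  have hgmap : (X ^ p - C f : F₀[X]).map (φ : F₀ →+* F) = g := by
    rw [hg, Polynomial.map_sub, Polynomial.map_pow, map_X, map_C]
    rfl
  have hmonic₀ : (X ^ p - C f : F₀[X]).Monic := monic_X_pow_sub_C f hp.ne_zero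
  have hirr₀ : Irreducible (X ^ p - C f : F₀[X]) :=
    hmonic₀.irreducible_of_irreducible_map (φ : F₀ →+* F) _ (by rw [hgmap]; exact hirr)
  have hrg : aeval r g = 0 := by
    rw [hr, AdjoinRoot.aeval_eq, AdjoinRoot.mk_self]
  have htr : r ^ p = algebraMap F E (φ f) := by
    have h0 : aeval r (X ^ p - C (φ f) : F[X]) = 0 := hrg
    rw [map_sub, map_pow, aeval_X, aeval_C, sub_eq_zero] at h0
    exact h0
  -- `x = P(t)`
  obtain ⟨P, hPdeg, hxP⟩ := Cover.KummerClosure.exists_eq_aeval hp ht htop x
  set Pφ : F[X] := P.map (φ : F₀ →+* F) with hPφ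
  set y : E := aeval r Pφ with hy
  -- `y` is algebraic over `K`
  obtain ⟨q, hq0, hqx⟩ := hx
  have h1 : aeval t ((q.map (algebraMap K F₀)).comp P) = 0 := by
    rw [aeval_comp, ← hxP, aeval_map_algebraMap, hqx]
  have h2 : (X ^ p - C f : F₀[X]) ∣ (q.map (algebraMap K F₀)).comp P := by
    rw [← Cover.KummerClosure.minpoly_eq hp ht hirr₀]
    exact minpoly.dvd F₀ t h1
  have h3 : g ∣ (q.map (algebraMap K F)).comp Pφ := by
    have := Polynomial.map_dvd (φ : F₀ →+* F) h2
    rw [hgmap, Polynomial.map_comp, Polynomial.map_map] at this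
    have hcomp : (φ : F₀ →+* F).comp (algebraMap K F₀) = algebraMap K F :=
      RingHom.ext fun a => φ.commutes a
    rwa [hcomp] at this
  have hyK : IsAlgebraic K y := by
    refine ⟨q, hq0, ?_⟩
    obtain ⟨s, hs⟩ := h3
    have h4 : aeval r ((q.map (algebraMap K F)).comp Pφ) = 0 := by
      rw [hs, map_mul, hrg, zero_mul]
    rw [aeval_comp, aeval_map_algebraMap] at h4
    exact h4
  have hyL : IsAlgebraic L y := hyK.tower_top L
  obtain ⟨c, hc⟩ := mem_range_of_isAlgebraic hyL
  set d : F := algebraMap L F c with hd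
  have hyd : y = aeval r (C d) := by
    rw [aeval_C, ← hc, hd, ← IsScalarTower.algebraMap_apply]
  have h5 : aeval r (Pφ - C d) = 0 := by
    rw [map_sub, ← hy, hyd, sub_self]
  have hdeg : (Pφ - C d).natDegree < p := by
    refine lt_of_le_of_lt (natDegree_sub_le _ _) ?_
    rw [natDegree_C, max_eq_left (Nat.zero_le _)]
    exact lt_of_le_of_lt natDegree_map_le hPdeg
  have h6 : Pφ - C d = 0 :=
    Cover.KummerClosure.eq_zero_of_aeval_eq_zero hp htr hirr hdeg h5
  have h7 : ∀ i, i ≠ 0 → P.coeff i = 0 := by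
    intro i hi
    have := congrArg (fun Q : F[X] => Q.coeff i) h6
    simp only [coeff_sub, coeff_C, if_neg hi, sub_zero, coeff_zero] at this
    rw [hPφ, coeff_map] at this
    exact (map_eq_zero (φ : F₀ →+* F)).mp this
  have hPC : P = C (P.coeff 0) := by
    ext i
    rcases Nat.eq_zero_or_pos i with rfl | hi
    · simp
    · rw [h7 i hi.ne', coeff_C, if_neg hi.ne']
  have hx0 : x = algebraMap F₀ F' (P.coeff 0) := by
    rw [hxP, hPC, aeval_C]
    simp
  have hc₀ : IsAlgebraic K (P.coeff 0) := by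
    have : IsAlgebraic K (algebraMap F₀ F' (P.coeff 0)) := hx0 ▸ ⟨q, hq0, hqx⟩
    exact (isAlgebraic_algebraMap_iff (algebraMap F₀ F').injective).mp this
  obtain ⟨a, ha⟩ := hK _ hc₀
  exact ⟨a, by rw [hx0, ← ha, ← IsScalarTower.algebraMap_apply]⟩

end Fermat.Agent.N4.KummerConst
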