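/-
N4: descent of the primality of the special fibre along an unramified integral extension of the base.

For a homomorphism of fields `f : K → K'`, subrings `O ⊆ K`, `O' ⊆ K'` (discrete valuation rings) with
`f O ⊆ O'`, `O'` integral over `O`, and a uniformiser `ϖ` of `O` which stays irreducible in `O'`:
if `𝔪_{O'} R'` is prime in a chart `R'` of the `j`-line over `O'`, then `𝔪_O R` is prime in the
corresponding chart `R` over `O`.  (Used for `ℤ_(2) ⊆ ℤ_(2)[ω]`.)

Proof: coefficientwise base change `FF K N → FF K' N` maps `R` into `R'`, and the preimage of `ϖ R'` is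
`ϖ R`: if `x = ϖ y'` with `y' ∈ R'` then `y := x / ϖ ∈ FF K N` is integral over `O'[s]`, hence over `O[s]`.
-/
import Fermat.Agent.N4.Setting

set_option autoImplicit false
set_option linter.unusedSectionVars false
set_option linter.style.haveILetI false

namespace Fermat.Agent.N4.BaseDescent

open ModularCurve Fermat.Agent.N4.Chart Fermat.Agent.N4.Setting

/-- Abstract descent of integrality along a commutative square
`A₀ → B₀`, `A₁ → B₁`, `φ : A₀ → A₁` integral, `ψ : B₀ → B₁` injective. -/
theorem isIntegral_of_square {A₀ A₁ B₀ B₁ : Type*} [CommRing A₀] [CommRing A₁] [CommRing B₀]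
    [CommRing B₁] [Algebra A₀ B₀] [Algebra A₁ B₁] (φ : A₀ →+* A₁) (ψ : B₀ →+* B₁)
    (hψ : Function.Injective ψ)
    (hcomm : (algebraMap A₁ B₁).comp φ = ψ.comp (algebraMap A₀ B₀)) (hφ : φ.IsIntegral)
    {y : B₀} (hy : IsIntegral A₁ (ψ y)) : IsIntegral A₀ y := by
  letI : Algebra A₀ A₁ := φ.toAlgebra
  letI : Algebra A₀ B₁ := ((algebraMap A₁ B₁).comp φ).toAlgebra
  haveI : IsScalarTower A₀ A₁ B₁ := IsScalarTower.of_algebraMap_eq (fun _ => rfl)
  haveI : Algebra.IsIntegral A₀ A₁ := ⟨hφ⟩
  have h2 : IsIntegral A₀ (ψ y) := isIntegral_trans (A := A₁) _ hy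
  obtain ⟨p, hp, hpy⟩ := h2
  refine ⟨p, hp, ?_⟩
  have h3 : Polynomial.eval₂ ((algebraMap A₁ B₁).comp φ) (ψ y) p = 0 := hpy
  rw [hcomm, ← Polynomial.hom_eval₂] at h3
  exact (map_eq_zero_iff _ hψ).mp h3

variable {K K' : Type} [Field K] [Field K'] (f : K →+* K') (N : ℕ)

/-- Coefficientwise base change maps the function field into the function field. -/
theorem coeffMap_mem_full {x : LaurentSeries K} (hx : x ∈ modularFunctionFieldFullC K N) :
    coeffMap f x ∈ modularFunctionFieldFullC K' N := by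
  rw [modularFunctionFieldFullC] at hx
  induction hx using IntermediateField.adjoin_induction with
  | mem y hy =>
    obtain ⟨d, hd, hdN, rfl⟩ := hy
    have := hd
    rw [coeffMap_qExpand, coeffMap_jqModC]
    exact jqModCd_mem_full K' N hdN
  | algebraMap c =>
    have : coeffMap f (algebraMap K (LaurentSeries K) c) =
        algebraMap K' (LaurentSeries K') (f c) := by
      rw [algebraMap_laurentSeries_eq_single, algebraMap_laurentSeries_eq_single, coeffMap_single]
    rw [this]
    exact IntermediateField.algebraMap_mem _ _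
  | add x y _ _ hx hy => rw [map_add]; exact add_mem hx hy
  | inv x _ hx => rw [map_inv₀]; exact inv_mem hx
  | mul x y _ _ hx hy => rw [map_mul]; exact mul_mem hx hy

/-- Coefficientwise base change of function fields. -/
noncomputable def ffMap : FF K N →+* FF K' N where
  toFun x := ⟨coeffMap f x, coeffMap_mem_full f N x.2⟩
  map_one' := Subtype.ext (map_one _)
  map_mul' _ _ := Subtype.ext (map_mul _ _ _)
  map_zero' := Subtype.ext (map_zero _)
  map_add' _ _ := Subtype.ext (map_add _ _ _)

@[simp] theorem coe_ffMap (x : FF K N) :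
    ((ffMap f N x : FF K' N) : LaurentSeries K') = coeffMap f (x : LaurentSeries K) := rfl

theorem ffMap_injective : Function.Injective (ffMap f N) := (ffMap f N).injective

theorem ffMap_jF : ffMap f N (jF K N) = jF K' N := by
  apply Subtype.ext
  rw [coe_ffMap, coe_jF, coe_jF, coeffMap_jqModC]

theorem ffMap_algebraMap (c : K) :
    ffMap f N (algebraMap K (FF K N) c) = algebraMap K' (FF K' N) (f c) := by
  apply Subtype.ext
  show coeffMap f (algebraMap K (LaurentSeries K) c) = algebraMap K' (LaurentSeries K') (f c)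
  rw [algebraMap_laurentSeries_eq_single, algebraMap_laurentSeries_eq_single, coeffMap_single]

section Subrings

variable (O : Subring K) (O' : Subring K') (hOO' : ∀ a ∈ O, f a ∈ O')

include hOO'

/-- The restriction `O → O'` of `f`. -/
def oMap : ↥O →+* ↥O' := (f.comp O.subtype).codRestrict O' (fun a => hOO' a a.2)

@[simp] theorem coe_oMap (a : ↥O) : ((oMap f O O' hOO' a : ↥O') : K') = f (a : K) := rfl

theorem ffMap_algebraMap_base (a : ↥O) :
    ffMap f N (algebraMap ↥O (FF K N) a) = algebraMap ↥O' (FF K' N) (oMap f O O' hOO' a) :=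
  ffMap_algebraMap f N (a : K)

variable {O} in
theorem ffMap_mem_adjoin {s x : FF K N} (hx : x ∈ Algebra.adjoin ↥O ({s} : Set (FF K N))) :
    ffMap f N x ∈ Algebra.adjoin ↥O' ({ffMap f N s} : Set (FF K' N)) := by
  induction hx using Algebra.adjoin_induction with
  | mem y hy =>
    rw [Set.mem_singleton_iff] at hy
    rw [hy]
    exact Algebra.subset_adjoin rfl
  | algebraMap a =>
    rw [ffMap_algebraMap_base f N O O' hOO']
    exact Subalgebra.algebraMap_mem _ _
  | add y z _ _ hy hz => rw [map_add]; exact add_mem hy hz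
  | mul y z _ _ hy hz => rw [map_mul]; exact mul_mem hy hz

/-- Base change of `O[s]`. -/
noncomputable def adjoinMap (s : FF K N) :
    ↥(Algebra.adjoin ↥O ({s} : Set (FF K N))) →+*
      ↥(Algebra.adjoin ↥O' ({ffMap f N s} : Set (FF K' N))) :=
  ((ffMap f N).comp (algebraMap ↥(Algebra.adjoin ↥O ({s} : Set (FF K N))) (FF K N))).codRestrict
    (Algebra.adjoin ↥O' ({ffMap f N s} : Set (FF K' N)))
    (fun a => ffMap_mem_adjoin f N O' hOO' a.2)

variable {O} in
/-- Base change maps the chart over `O` into the chart over `O'`. -/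
theorem ffMap_mem_chartAlg {s x : FF K N} (hx : x ∈ chartAlg ↥O (FF K N) {s}) :
    ffMap f N x ∈ chartAlg ↥O' (FF K' N) {ffMap f N s} := by
  rw [mem_chartAlg_iff] at hx ⊢
  exact hx.map_of_comp_eq (adjoinMap f N O O' hOO' s) (ffMap f N) (by ext; rfl)

/-- Base change of charts. -/
noncomputable def chartMap (s : FF K N) :
    ↥(chartAlg ↥O (FF K N) {s}) →+* ↥(chartAlg ↥O' (FF K' N) {ffMap f N s}) :=
  ((ffMap f N).comp (algebraMap ↥(chartAlg ↥O (FF K N) {s}) (FF K N))).codRestrict
    (chartAlg ↥O' (FF K' N) {ffMap f N s})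
    (fun a => ffMap_mem_chartAlg f N O' hOO' a.2)

@[simp] theorem coe_chartMap (s : FF K N) (x : chartAlg ↥O (FF K N) {s}) :
    ((chartMap f N O O' hOO' s x : chartAlg ↥O' (FF K' N) {ffMap f N s}) : FF K' N) =
      ffMap f N (x : FF K N) := rfl

/-- If `O'` is integral over `O` then `O'[s']` is integral over `O[s]`. -/
theorem adjoinMap_isIntegral (hint : (oMap f O O' hOO').IsIntegral) (s : FF K N) :
    (adjoinMap f N O O' hOO' s).IsIntegral := by
  rintro ⟨z, hz⟩
  induction hz using Algebra.adjoin_induction with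
  | mem w hw =>
    have h : (⟨w, Algebra.subset_adjoin hw⟩ :
        ↥(Algebra.adjoin ↥O' ({ffMap f N s} : Set (FF K' N)))) =
        adjoinMap f N O O' hOO' s ⟨s, Algebra.subset_adjoin rfl⟩ :=
      Subtype.ext (Set.mem_singleton_iff.mp hw)
    rw [h]
    exact RingHom.isIntegralElem_map _
  | algebraMap b =>
    obtain ⟨p, hp, hpb⟩ := hint b
    refine ⟨p.map (algebraMap ↥O ↥(Algebra.adjoin ↥O ({s} : Set (FF K N)))), hp.map _, ?_⟩
    have hcomp : (adjoinMap f N O O' hOO' s).comp
        (algebraMap ↥O ↥(Algebra.adjoin ↥O ({s} : Set (FF K N)))) =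
        (algebraMap ↥O' ↥(Algebra.adjoin ↥O' ({ffMap f N s} : Set (FF K' N)))).comp
          (oMap f O O' hOO') := by
      ext a : 1
      exact Subtype.ext (ffMap_algebraMap_base f N O O' hOO' a)
    rw [Polynomial.eval₂_map, hcomp]
    have h := Polynomial.hom_eval₂ p (oMap f O O' hOO')
      (algebraMap ↥O' ↥(Algebra.adjoin ↥O' ({ffMap f N s} : Set (FF K' N)))) b
    rw [hpb, map_zero] at h
    exact h.symm
  | add w z hw' hz' hw hz =>
    exact RingHom.IsIntegralElem.add (adjoinMap f N O O' hOO' s)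
      (x := (⟨w, hw'⟩ : ↥(Algebra.adjoin ↥O' ({ffMap f N s} : Set (FF K' N)))))
      (y := (⟨z, hz'⟩ : ↥(Algebra.adjoin ↥O' ({ffMap f N s} : Set (FF K' N))))) hw hz
  | mul w z hw' hz' hw hz =>
    exact RingHom.IsIntegralElem.mul (adjoinMap f N O O' hOO' s)
      (x := (⟨w, hw'⟩ : ↥(Algebra.adjoin ↥O' ({ffMap f N s} : Set (FF K' N)))))
      (y := (⟨z, hz'⟩ : ↥(Algebra.adjoin ↥O' ({ffMap f N s} : Set (FF K' N))))) hw hz

variable {O} in
/-- **Descent of integrality**: if `O'` is integral over `O`, an element of `FF K N` whose base change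
lies in the chart over `O'` lies in the chart over `O`. -/
theorem mem_chartAlg_of_ffMap_mem (hint : (oMap f O O' hOO').IsIntegral) {s y : FF K N}
    (hy : ffMap f N y ∈ chartAlg ↥O' (FF K' N) {ffMap f N s}) :
    y ∈ chartAlg ↥O (FF K N) {s} := by
  rw [mem_chartAlg_iff] at hy ⊢
  exact isIntegral_of_square (adjoinMap f N O O' hOO' s) (ffMap f N) (ffMap_injective f N)
    (by ext; rfl) (adjoinMap_isIntegral f N O O' hOO' hint s) hy

section Prime

variable [IsDiscreteValuationRing ↥O] [IsDiscreteValuationRing ↥O']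

omit hOO' in
theorem fibreIdeal_eq_span' {ϖ : ↥O} (hϖ : Irreducible ϖ) (R : Subalgebra ↥O (FF K N)) :
    fibreIdeal K N O R = Ideal.span {algebraMap ↥O R ϖ} := by
  unfold fibreIdeal
  rw [hϖ.maximalIdeal_eq, Ideal.map_span, Set.image_singleton]

omit hOO' [IsDiscreteValuationRing ↥O] [IsDiscreteValuationRing ↥O'] in
theorem algebraMap_base_ne_zero {a : ↥O} (ha : a ≠ 0) : algebraMap ↥O (FF K N) a ≠ 0 := by
  have h1 : algebraMap ↥O (FF K N) a = algebraMap K (FF K N) (a : K) := rfl
  rw [h1, Ne, map_eq_zero_iff _ (algebraMap K (FF K N)).injective]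
  exact fun h => ha (Subtype.ext h)

/-- The special fibre of the chart over `O` is the preimage of the special fibre of the chart over
`O'`, for an integral extension `O ⊆ O'` of discrete valuation rings in which a uniformiser of `O`
stays a uniformiser. -/
theorem comap_fibreIdeal (hint : (oMap f O O' hOO').IsIntegral) {ϖ : ↥O} (hϖ : Irreducible ϖ)
    (hϖ' : Irreducible (oMap f O O' hOO' ϖ)) (s : FF K N) :
    (fibreIdeal K' N O' (chartAlg ↥O' (FF K' N) {ffMap f N s})).comap (chartMap f N O O' hOO' s) =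
      fibreIdeal K N O (chartAlg ↥O (FF K N) {s}) := by
  rw [fibreIdeal_eq_span' N O hϖ, fibreIdeal_eq_span' N O' hϖ']
  have hmap : chartMap f N O O' hOO' s (algebraMap ↥O ↥(chartAlg ↥O (FF K N) {s}) ϖ) =
      algebraMap ↥O' ↥(chartAlg ↥O' (FF K' N) {ffMap f N s}) (oMap f O O' hOO' ϖ) :=
    Subtype.ext (ffMap_algebraMap_base f N O O' hOO' ϖ)
  apply le_antisymm
  · intro x hx
    rw [Ideal.mem_comap, Ideal.mem_span_singleton'] at hx
    obtain ⟨y', hy'⟩ := hx
    have hne := algebraMap_base_ne_zero N O hϖ.ne_zero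
    have hne' := algebraMap_base_ne_zero N O' hϖ'.ne_zero
    -- `y := x / ϖ`
    set y : FF K N := (x : FF K N) * (algebraMap ↥O (FF K N) ϖ)⁻¹ with hy
    have hy1 : ffMap f N y = (y' : FF K' N) := by
      have h1 : (y' : FF K' N) * algebraMap ↥O' (FF K' N) (oMap f O O' hOO' ϖ) =
          ffMap f N (x : FF K N) := congrArg Subtype.val hy'
      rw [hy, map_mul, map_inv₀, ffMap_algebraMap_base f N O O' hOO', ← h1,
        mul_assoc, mul_inv_cancel₀ hne', mul_one]
    have hyR : y ∈ chartAlg ↥O (FF K N) {s} := by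
      apply mem_chartAlg_of_ffMap_mem f N O' hOO' hint
      rw [hy1]
      exact y'.2
    rw [Ideal.mem_span_singleton']
    refine ⟨⟨y, hyR⟩, Subtype.ext ?_⟩
    show y * algebraMap ↥O (FF K N) ϖ = (x : FF K N)
    rw [hy, mul_assoc, inv_mul_cancel₀ hne, mul_one]
  · rw [Ideal.span_le, Set.singleton_subset_iff]
    rw [SetLike.mem_coe, Ideal.mem_comap, hmap]
    exact Ideal.mem_span_singleton_self _

/-- **Descent of primality of the special fibre.** -/
theorem isPrime_fibreIdeal_of_isPrime (hint : (oMap f O O' hOO').IsIntegral) {ϖ : ↥O}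
    (hϖ : Irreducible ϖ) (hϖ' : Irreducible (oMap f O O' hOO' ϖ)) (s : FF K N)
    (h : (fibreIdeal K' N O' (chartAlg ↥O' (FF K' N) {ffMap f N s})).IsPrime) :
    (fibreIdeal K N O (chartAlg ↥O (FF K N) {s})).IsPrime := by
  rw [← comap_fibreIdeal f N O O' hOO' hint hϖ hϖ' s]
  exact Ideal.IsPrime.comap _

/-- Descent of primality of the special fibre of the finite chart. -/
theorem isPrime_fibreIdeal_Rfin (hint : (oMap f O O' hOO').IsIntegral) {ϖ : ↥O}
    (hϖ : Irreducible ϖ) (hϖ' : Irreducible (oMap f O O' hOO' ϖ))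
    (h : (fibreIdeal K' N O' (Rfin K' N O')).IsPrime) :
    (fibreIdeal K N O (Rfin K N O)).IsPrime := by
  apply isPrime_fibreIdeal_of_isPrime f N O O' hOO' hint hϖ hϖ' (jF K N)
  rw [ffMap_jF]
  exact h

/-- Descent of primality of the special fibre of the chart at infinity. -/
theorem isPrime_fibreIdeal_Rinf (hint : (oMap f O O' hOO').IsIntegral) {ϖ : ↥O}
    (hϖ : Irreducible ϖ) (hϖ' : Irreducible (oMap f O O' hOO' ϖ))
    (h : (fibreIdeal K' N O' (Rinf K' N O')).IsPrime) :
    (fibreIdeal K N O (Rinf K N O)).IsPrime := by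
  apply isPrime_fibreIdeal_of_isPrime f N O O' hOO' hint hϖ hϖ' (jF K N)⁻¹
  rw [map_inv₀, ffMap_jF]
  exact h

end Prime

end Subrings

end Fermat.Agent.N4.BaseDescent
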