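/-
N4 block **Onr** ("big DVR"): for a valuation subring `A` of `Q̄ = AlgebraicClosure ℚ` lying over the
prime `ℓ` and a finite set `T ⊆ Q̄` there is a subfield `K ⊆ Q̄`, `T ⊆ K`, such that `O := A ∩ K` is a
DISCRETE valuation ring, `ℓ` is not a unit of `O`, the residue field of `O` is algebraically closed and
maps isomorphically onto the residue field of `A`.  (`K = ℚ(T)(μ_m : ℓ ∤ m)`.)

Main results (namespace `Fermat.Agent.N4.BigDVR`):
* `isDiscreteValuationRing_of_centre_ne_bot` : a valuation subring `V ⊇ D` of `Frac D`, `D` Dedekind, with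
  nonzero centre is the localisation of `D` at its centre, a DVR;
* `tower_step` : adjoining a root of unity of order invertible in `𝔸` keeps `𝔸 ∩ K` a DVR with the SAME
  uniformiser (different ideal computation);
* `bigField_dvr` : `𝔸 ∩ K₁(μ_m : m ∈ 𝔸ˣ)` is a DVR with the uniformiser of `𝔸 ∩ K₁`;
* `isAlgClosed_residueField`, `exists_goodRoot_sub_mem_nonunits`, `bijective_residueField_map`;
* `exists_bigDVR`, and the consumer form `exists_goodBase` (+ `isAlgebraic_rat`, `trSubring`) for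
  `N4/Setting.lean`'s `StarTarget` / `SmoothTarget`.
-/
import Mathlib
import Fermat.Prelude.Def_FLTPrelim_Ramification
import Fermat.Agent.N4.Setting

set_option autoImplicit false
set_option linter.style.haveILetI false
set_option linter.unusedSectionVars false
set_option linter.overlappingInstances false

namespace Fermat.Agent.N4.BigDVR

section Maximal

variable {R L : Type*} [CommRing R] [IsDomain R] [ValuationRing R] [Field L] [Algebra R L]
  [IsFractionRing R L]

/-- A valuation ring `R` of `L` which maps to the valuation subring `V` of `L` by a local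
homomorphism is all of `V`. -/
theorem exists_algebraMap_eq_of_mem (V : ValuationSubring L)
    (hloc : ∀ r : R, ¬ IsUnit r → algebraMap R L r ∈ V.nonunits) {y : L} (hy : y ∈ V) :
    ∃ r : R, algebraMap R L r = y := by
  rcases ValuationRing.isInteger_or_isInteger R y with ⟨r, hr⟩ | ⟨r, hr⟩
  · exact ⟨r, hr⟩
  · by_cases hu : IsUnit r
    · refine ⟨↑hu.unit⁻¹, ?_⟩
      have h1 : algebraMap R L (↑hu.unit⁻¹) * algebraMap R L r = 1 := by
        rw [← map_mul, ← map_one (algebraMap R L)]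
        congr 1
        exact IsUnit.val_inv_mul hu
      rw [hr] at h1
      by_cases hy0 : y = 0
      · rw [hy0, inv_zero, mul_zero] at h1
        exact absurd h1 zero_ne_one
      · field_simp at h1
        exact h1
    · have h1 := hloc r hu
      rw [hr, ValuationSubring.mem_nonunits_iff] at h1
      by_cases hy0 : y = 0
      · exact ⟨0, by rw [hy0, map_zero]⟩
      · exfalso
        have h2 : V.valuation y ≤ 1 := (ValuationSubring.valuation_le_one_iff V y).mpr hy
        have h3 : V.valuation (y⁻¹ * y) < 1 := by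
          rw [map_mul]
          exact mul_lt_one_of_lt_of_le h1 h2
        rw [inv_mul_cancel₀ hy0, map_one] at h3
        exact lt_irrefl _ h3

end Maximal

section Centre

variable {D L : Type*} [CommRing D] [IsDedekindDomain D] [Field L] [Algebra D L]
  [IsFractionRing D L] (V : ValuationSubring L) (hDV : ∀ d : D, algebraMap D L d ∈ V)

/-- `D → V`. -/
def toV : D →+* V := (algebraMap D L).codRestrict V hDV

@[simp] theorem coe_toV (d : D) : ((toV V hDV d : V) : L) = algebraMap D L d := rfl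

theorem toV_injective : Function.Injective (toV V hDV) := fun a b h =>
  IsFractionRing.injective D L (congrArg (fun z : V => (z : L)) h)

/-- The centre of `V` on `Spec D`. -/
def centre : Ideal D := (IsLocalRing.maximalIdeal V).comap (toV V hDV)

instance centre_isPrime : (centre V hDV).IsPrime := Ideal.IsPrime.comap _

theorem mem_centre_iff (d : D) : d ∈ centre V hDV ↔ algebraMap D L d ∈ V.nonunits := by
  rw [centre, Ideal.mem_comap, IsLocalRing.mem_maximalIdeal, mem_nonunits_iff,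
    ValuationSubring.mem_nonunits_iff_exists_mem_maximalIdeal]
  constructor
  · intro h
    exact ⟨(toV V hDV d).2, (IsLocalRing.mem_maximalIdeal _).mpr h⟩
  · rintro ⟨h1, h2⟩
    exact (IsLocalRing.mem_maximalIdeal _).mp h2

/-- **A valuation subring of the fraction field of a Dedekind domain `D`, containing `D` and with
nonzero centre `𝔓`, is the localisation `D_𝔓`.** -/
theorem isLocalization_atPrime_centre (hne : centre V hDV ≠ ⊥) :
    letI := (toV V hDV).toAlgebra
    IsLocalization.AtPrime V (centre V hDV) := by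
  letI := (toV V hDV).toAlgebra
  set P := centre V hDV with hP
  set Lc := Localization.AtPrime P with hLc
  haveI : IsDiscreteValuationRing Lc :=
    IsLocalization.AtPrime.isDiscreteValuationRing_of_dedekind_domain D hne Lc
  have hunits : ∀ y : P.primeCompl, IsUnit (algebraMap D L y) := by
    intro y
    refine IsUnit.mk0 _ ?_
    rw [Ne, map_eq_zero_iff _ (IsFractionRing.injective D L)]
    rintro h0
    exact y.2 (h0 ▸ P.zero_mem)
  let φ : Lc →+* L := IsLocalization.lift (M := P.primeCompl) (g := algebraMap D L) hunits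
  letI : Algebra Lc L := φ.toAlgebra
  haveI : IsScalarTower D Lc L := IsScalarTower.of_algebraMap_eq fun d =>
    (IsLocalization.lift_eq (M := P.primeCompl) hunits d).symm
  haveI : IsFractionRing Lc L :=
    IsFractionRing.isFractionRing_of_isDomain_of_isLocalization P.primeCompl Lc L
  have hval_s : ∀ s : P.primeCompl, V.valuation (algebraMap D L s) = 1 := by
    intro s
    have h1 : V.valuation (algebraMap D L s) ≤ 1 :=
      (ValuationSubring.valuation_le_one_iff V _).mpr (hDV s)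
    have h2 : ¬ V.valuation (algebraMap D L s) < 1 := by
      rw [← ValuationSubring.mem_nonunits_iff, ← mem_centre_iff]
      exact s.2
    exact le_antisymm h1 (not_lt.mp h2)
  have hloc : ∀ r : Lc, ¬ IsUnit r → algebraMap Lc L r ∈ V.nonunits := by
    intro r hr
    obtain ⟨d, s, rfl⟩ := IsLocalization.exists_mk'_eq P.primeCompl r
    have hd : d ∈ P := by
      have := (IsLocalRing.mem_maximalIdeal _).mpr hr
      rwa [IsLocalization.AtPrime.mk'_mem_maximal_iff (S := Lc) P] at this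
    have hφ : algebraMap Lc L (IsLocalization.mk' Lc d s) =
        algebraMap D L d / algebraMap D L s := by
      show φ _ = _
      rw [IsLocalization.lift_mk'_spec, mul_div_cancel₀]
      exact (hunits s).ne_zero
    rw [hφ, ValuationSubring.mem_nonunits_iff, map_div₀, hval_s s, div_one,
      ← ValuationSubring.mem_nonunits_iff, ← mem_centre_iff]
    exact hd
  refine (isLocalization_iff _ _).mpr ⟨?_, ?_, ?_⟩
  · intro s
    rw [RingHom.algebraMap_toAlgebra]
    have : toV V hDV s ∉ IsLocalRing.maximalIdeal V := s.2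
    exact (IsLocalRing.notMem_maximalIdeal).mp this
  · intro y
    obtain ⟨r, hr⟩ := exists_algebraMap_eq_of_mem (R := Lc) V hloc y.2
    obtain ⟨d, s, rfl⟩ := IsLocalization.exists_mk'_eq P.primeCompl r
    refine ⟨(d, s), Subtype.ext ?_⟩
    have h1 : algebraMap Lc L (IsLocalization.mk' Lc d s) * algebraMap Lc L (algebraMap D Lc s) =
        algebraMap Lc L (algebraMap D Lc d) := by
      rw [← map_mul, IsLocalization.mk'_spec]
    rw [hr, ← IsScalarTower.algebraMap_apply, ← IsScalarTower.algebraMap_apply] at h1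
    simpa [RingHom.algebraMap_toAlgebra] using h1
  · intro x y hxy
    rw [RingHom.algebraMap_toAlgebra] at hxy
    exact ⟨1, by rw [toV_injective V hDV hxy]⟩

/-- A valuation subring of the fraction field of a Dedekind domain `D` containing `D`, with nonzero
centre, is a discrete valuation ring. -/
theorem isDiscreteValuationRing_of_centre_ne_bot (hne : centre V hDV ≠ ⊥) :
    IsDiscreteValuationRing V := by
  letI := (toV V hDV).toAlgebra
  haveI := isLocalization_atPrime_centre V hDV hne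
  exact IsLocalization.AtPrime.isDiscreteValuationRing_of_dedekind_domain D hne V

end Centre

section Different

open Polynomial

variable (A K L : Type*) {B : Type*} [CommRing A] [Field K] [CommRing B] [Field L]
  [Algebra A K] [Algebra B L] [Algebra A B] [Algebra K L] [Algebra A L]
  [IsScalarTower A K L] [IsScalarTower A B L] [IsDomain A] [IsFractionRing A K]
  [FiniteDimensional K L] [Algebra.IsSeparable K L] [IsIntegralClosure B A L]
  [IsDedekindDomain A] [IsDedekindDomain B] [Module.IsTorsionFree A B]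

/-- If `L = K(x)` with `x ^ m = 1` and `m` a unit of `A`, the different of the integral closure `B`
of `A` in `L` is trivial. -/
theorem differentIdeal_eq_top_of_pow_eq_one (x : B) (hx : Algebra.adjoin K {algebraMap B L x} = ⊤)
    {m : ℕ} (hm : IsUnit ((m : ℕ) : A)) (hxm : x ^ m = 1) : differentIdeal A B = ⊤ := by
  have hint : IsIntegral A x := IsIntegralClosure.isIntegral A L x
  have hdvd : minpoly A x ∣ (X ^ m - 1 : A[X]) :=
    minpoly.isIntegrallyClosed_dvd hint (by simp [hxm])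
  obtain ⟨h, hh⟩ := hdvd
  have hder := congrArg (fun p : A[X] => aeval x (derivative p)) hh
  simp only [derivative_sub, derivative_X_pow, derivative_one, sub_zero, derivative_mul, map_add,
    map_mul, minpoly.aeval, zero_mul, add_zero, map_natCast, map_pow, aeval_X, aeval_C] at hder
  have hmem := aeval_derivative_mem_differentIdeal A K L x hx
  have hxunit : IsUnit x := by
    rcases Nat.eq_zero_or_pos m with h0 | hpos
    · subst h0
      have : IsUnit ((0 : ℕ) : A) := hm
      simp only [Nat.cast_zero, isUnit_zero_iff] at this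
      exact absurd this zero_ne_one
    · exact IsUnit.of_pow_eq_one hxm hpos.ne'
  have hunit : IsUnit (aeval x (derivative (minpoly A x))) := by
    have hlhs : IsUnit ((m : B) * x ^ (m - 1)) := by
      have : (m : B) = algebraMap A B m := by simp
      rw [this]
      exact (hm.map (algebraMap A B)).mul (hxunit.pow _)
    rw [hder] at hlhs
    exact isUnit_of_mul_isUnit_left hlhs
  exact Ideal.eq_top_of_isUnit_mem _ hmem hunit

/-- In the situation of `differentIdeal_eq_top_of_pow_eq_one`, no prime of `B` is ramified over `A`. -/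
theorem not_sq_dvd_map_of_pow_eq_one [IsFractionRing B L] [Module.Finite A B]
    (x : B) (hx : Algebra.adjoin K {algebraMap B L x} = ⊤)
    {m : ℕ} (hm : IsUnit ((m : ℕ) : A)) (hxm : x ^ m = 1)
    {p : Ideal A} [p.IsMaximal] (hp : p ≠ ⊥) (P : Ideal B) [P.IsPrime] :
    ¬ P ^ 2 ∣ p.map (algebraMap A B) := by
  intro h
  have h1 := pow_sub_one_dvd_differentIdeal_aux A K L P (e := 2) (by norm_num) hp h
  rw [differentIdeal_eq_top_of_pow_eq_one A K L x hx hm hxm] at h1
  simp only [Nat.add_one_sub_one, pow_one] at h1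
  have : P = ⊤ := by
    rw [Ideal.dvd_iff_le] at h1
    exact top_le_iff.mp h1
  exact (Ideal.IsPrime.ne_top inferInstance) this

end Different

end Fermat.Agent.N4.BigDVR

namespace Fermat.Agent.N4.BigDVR

section Comap

variable {Ω : Type*} [Field Ω] (𝔸 : ValuationSubring Ω)

/-- Elements of `Ω` integral over a ring mapping into `𝔸` lie in `𝔸`. -/
theorem mem_of_isIntegral {R : Type*} [CommRing R] [Algebra R Ω]
    (hR : ∀ r : R, algebraMap R Ω r ∈ 𝔸) {y : Ω} (hy : IsIntegral R y) : y ∈ 𝔸 := by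
  let f : R →+* 𝔸 := (algebraMap R Ω).codRestrict 𝔸 hR
  have h1 : IsIntegral 𝔸 y :=
    hy.map_of_comp_eq f (RingHom.id Ω) (by ext r; rfl)
  obtain ⟨z, hz⟩ := IsIntegrallyClosed.isIntegral_iff.mp h1
  rw [← hz]
  exact z.2

variable (K : Type*) [Field K] [Algebra K Ω]

/-- The trace of `𝔸` on `K`. -/
abbrev tr : ValuationSubring K := 𝔸.comap (algebraMap K Ω)

theorem mem_tr_iff {x : K} : x ∈ tr 𝔸 K ↔ algebraMap K Ω x ∈ 𝔸 := ValuationSubring.mem_comap

theorem mem_tr_nonunits_iff {x : K} : x ∈ (tr 𝔸 K).nonunits ↔ algebraMap K Ω x ∈ 𝔸.nonunits := by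
  rw [ValuationSubring.mem_nonunits_iff_or, ValuationSubring.mem_nonunits_iff_or, mem_tr_iff,
    map_inv₀, map_eq_zero]

end Comap

section TowerStep

variable {Ω : Type*} [Field Ω] (𝔸 : ValuationSubring Ω)
variable (K L : Type*) [Field K] [Field L] [Algebra K Ω] [Algebra K L] [Algebra L Ω]
  [IsScalarTower K L Ω] [FiniteDimensional K L] [CharZero K]

/-- **Tower step.**  If `𝔸 ∩ K` is a discrete valuation ring with uniformiser `π`, and `L = K(x)` with
`x ^ m = 1`, `m` a unit of `𝔸`, then `𝔸 ∩ L` is a discrete valuation ring with the same uniformiser. -/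
theorem tower_step [IsDiscreteValuationRing (tr 𝔸 K)]
    {π : K} (hπ : π ∈ tr 𝔸 K) (hπirr : Irreducible (⟨π, hπ⟩ : tr 𝔸 K))
    (x : L) (hxgen : Algebra.adjoin K {x} = ⊤) {m : ℕ} (hm0 : m ≠ 0) (hxm : x ^ m = 1)
    (hm : (m : Ω) ∉ 𝔸.nonunits) :
    IsDiscreteValuationRing (tr 𝔸 L) ∧
      ∃ h : algebraMap K L π ∈ tr 𝔸 L, Irreducible (⟨algebraMap K L π, h⟩ : tr 𝔸 L) := by
  classical
  set A := tr 𝔸 K with hA
  letI algAL : Algebra A L := ((algebraMap K L).comp (algebraMap A K)).toAlgebra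
  haveI : IsScalarTower A K L := IsScalarTower.of_algebraMap_eq fun _ => rfl
  haveI : Algebra.IsSeparable K L := inferInstance
  set B := integralClosure A L with hB
  haveI : IsDedekindDomain B := integralClosure.isDedekindDomain A K L
  haveI : IsFractionRing B L := IsIntegralClosure.isFractionRing_of_finite_extension A K L B
  haveI : Module.Finite A B := IsIntegralClosure.finite A K L B
  haveI : Module.IsTorsionFree A L := by
    rw [Module.isTorsionFree_iff_algebraMap_injective]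
    exact (algebraMap K L).injective.comp (IsFractionRing.injective A K)
  haveI : Module.IsTorsionFree A B := IsIntegralClosure.isTorsionFree A L
  set V := tr 𝔸 L with hV
  -- `A → 𝔸`
  have hAΩ : ∀ a : A, algebraMap L Ω (algebraMap A L a) ∈ 𝔸 := by
    intro a
    have : algebraMap L Ω (algebraMap A L a) = algebraMap K Ω (a : K) := by
      show algebraMap L Ω (algebraMap K L (a : K)) = _
      rw [← IsScalarTower.algebraMap_apply]
    rw [this]
    exact (mem_tr_iff 𝔸 K).mp a.2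
  -- `B ⊆ V`
  have hBV : ∀ b : B, algebraMap B L b ∈ V := by
    intro b
    rw [hV, mem_tr_iff]
    letI : Algebra A Ω := ((algebraMap L Ω).comp (algebraMap A L)).toAlgebra
    haveI : IsScalarTower A L Ω := IsScalarTower.of_algebraMap_eq fun _ => rfl
    have hb : IsIntegral A (algebraMap B L b) := b.2
    exact mem_of_isIntegral 𝔸 (R := A) hAΩ (hb.map (IsScalarTower.toAlgHom A L Ω))
  -- the uniformiser
  set ϖ : A := ⟨π, hπ⟩ with hϖ
  have hϖ0 : ϖ ≠ 0 := hπirr.ne_zero
  set ϖB : B := algebraMap A B ϖ with hϖB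
  have hϖB0 : ϖB ≠ 0 := by
    rw [hϖB, Ne, map_eq_zero_iff _ (FaithfulSMul.algebraMap_injective A B)]
    exact hϖ0
  have hϖBL : algebraMap B L ϖB = algebraMap K L π := by
    rw [hϖB, ← IsScalarTower.algebraMap_apply A B L]
    rfl
  have hπnon : algebraMap K Ω π ∈ 𝔸.nonunits := by
    rw [← mem_tr_nonunits_iff, ← hA]
    exact (ValuationSubring.coe_mem_nonunits_iff (a := ϖ)).mpr
      ((IsLocalRing.mem_maximalIdeal _).mpr hπirr.not_isUnit)
  have hϖBcentre : ϖB ∈ centre V hBV := by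
    rw [mem_centre_iff, hϖBL, hV, mem_tr_nonunits_iff, ← IsScalarTower.algebraMap_apply]
    exact hπnon
  have hne : centre V hBV ≠ ⊥ := fun h => hϖB0 ((Submodule.mem_bot B).mp (h ▸ hϖBcentre))
  have hDVR : IsDiscreteValuationRing V := isDiscreteValuationRing_of_centre_ne_bot V hBV hne
  refine ⟨hDVR, ?_⟩
  have hπV : algebraMap K L π ∈ V := hϖBL ▸ hBV ϖB
  refine ⟨hπV, ?_⟩
  letI := (toV V hBV).toAlgebra
  haveI := isLocalization_atPrime_centre V hBV hne
  set P := centre V hBV with hP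
  -- `x` as an element of `B`
  have hxint : IsIntegral A x := by
    refine ⟨Polynomial.X ^ m - 1, Polynomial.monic_X_pow_sub_C (1 : A) hm0, ?_⟩
    simp [hxm]
  set xB : B := ⟨x, hxint⟩ with hxB
  have hxBm : xB ^ m = 1 := Subtype.ext (by simpa using hxm)
  have hmunit : IsUnit ((m : ℕ) : A) := by
    have hmΩ : 𝔸.valuation (m : Ω) = 1 := by
      have h1 : 𝔸.valuation (m : Ω) ≤ 1 :=
        (ValuationSubring.valuation_le_one_iff 𝔸 _).mpr (natCast_mem 𝔸 m)
      have h2 : ¬ 𝔸.valuation (m : Ω) < 1 := by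
        rwa [← ValuationSubring.mem_nonunits_iff]
      exact le_antisymm h1 (not_lt.mp h2)
    have hminv : ((m : K))⁻¹ ∈ A := by
      rw [hA, mem_tr_iff, map_inv₀, map_natCast]
      apply ValuationSubring.mem_of_valuation_le_one
      rw [map_inv₀, hmΩ, inv_one]
    refine IsUnit.of_mul_eq_one ⟨(m : K)⁻¹, hminv⟩ (Subtype.ext ?_)
    have hmK : (m : K) ≠ 0 := Nat.cast_ne_zero.mpr hm0
    simp [hmK]
  have hp : IsLocalRing.maximalIdeal A ≠ ⊥ := IsDiscreteValuationRing.not_a_field A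
  have hnot := not_sq_dvd_map_of_pow_eq_one A K L xB (by simpa [hxB] using hxgen) hmunit hxBm hp P
  -- `𝔪_A B = P Q`
  have hmax : IsLocalRing.maximalIdeal A = Ideal.span {ϖ} := hπirr.maximalIdeal_eq
  have hmap : (IsLocalRing.maximalIdeal A).map (algebraMap A B) = Ideal.span {ϖB} := by
    rw [hmax, Ideal.map_span, Set.image_singleton]
  have hle : Ideal.span {ϖB} ≤ P := (Ideal.span_singleton_le_iff_mem _).mpr hϖBcentre
  obtain ⟨Q, hQ⟩ := Ideal.dvd_iff_le.mpr hle
  have hQP : ¬ Q ≤ P := by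
    intro hQP
    apply hnot
    rw [hmap, hQ, pow_two]
    exact mul_dvd_mul_left P (Ideal.dvd_iff_le.mpr hQP)
  obtain ⟨q, hqQ, hqP⟩ := SetLike.not_le_iff_exists.mp hQP
  have hqunit : IsUnit (toV V hBV q) := by
    have : toV V hBV q ∉ IsLocalRing.maximalIdeal V := hqP
    exact IsLocalRing.notMem_maximalIdeal.mp this
  have huniform : IsLocalRing.maximalIdeal V = Ideal.span {toV V hBV ϖB} := by
    apply le_antisymm
    · rw [← IsLocalization.AtPrime.map_eq_maximalIdeal P V, Ideal.map_le_iff_le_comap]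
      intro c hc
      have hcq : c * q ∈ Ideal.span {ϖB} := by
        rw [hQ]
        exact Ideal.mul_mem_mul hc hqQ
      obtain ⟨b, hb⟩ := Ideal.mem_span_singleton'.mp hcq
      rw [Ideal.mem_comap, RingHom.algebraMap_toAlgebra]
      have h1 : toV V hBV c * toV V hBV q = toV V hBV b * toV V hBV ϖB := by
        rw [← map_mul, ← map_mul, hb]
      have h2 : toV V hBV c = toV V hBV b * toV V hBV ϖB * ↑hqunit.unit⁻¹ := by
        rw [← h1, mul_assoc, IsUnit.mul_val_inv, mul_one]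
      rw [h2, Ideal.mem_span_singleton']
      exact ⟨toV V hBV b * ↑hqunit.unit⁻¹, by ring⟩
    · rw [Ideal.span_singleton_le_iff_mem]
      exact hϖBcentre
  have hirr : Irreducible (toV V hBV ϖB) :=
    (IsDiscreteValuationRing.irreducible_iff_uniformizer _).mpr huniform
  have heq : toV V hBV ϖB = ⟨algebraMap K L π, hπV⟩ := Subtype.ext hϖBL
  rwa [heq] at hirr

end TowerStep

end Fermat.Agent.N4.BigDVR

open IntermediateField

namespace Fermat.Agent.N4.BigDVR

section Base

variable {Ω : Type*} [Field Ω] [CharZero Ω] (𝔸 : ValuationSubring Ω)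

/-- **Base step.**  The trace of `𝔸` on a number field is a discrete valuation ring, as soon as
some prime number is a nonunit of `𝔸`. -/
theorem isDiscreteValuationRing_tr_of_numberField (K : Type*) [Field K] [NumberField K]
    [Algebra K Ω] {ℓ : ℕ} (hℓ0 : ℓ ≠ 0) (hℓ : (ℓ : Ω) ∈ 𝔸.nonunits) :
    IsDiscreteValuationRing (tr 𝔸 K) := by
  have hDV : ∀ d : NumberField.RingOfIntegers K,
      algebraMap (NumberField.RingOfIntegers K) K d ∈ tr 𝔸 K := by
    intro d
    rw [mem_tr_iff]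
    refine mem_of_isIntegral 𝔸 (R := ℤ) (fun n => ?_)
      ((NumberField.RingOfIntegers.isIntegral_coe d).map ((algebraMap K Ω).toIntAlgHom))
    rw [eq_intCast]
    exact intCast_mem 𝔸 n
  refine isDiscreteValuationRing_of_centre_ne_bot (tr 𝔸 K) hDV fun h => ?_
  have h1 : ((ℓ : ℕ) : NumberField.RingOfIntegers K) ∈ centre (tr 𝔸 K) hDV := by
    rw [mem_centre_iff, mem_tr_nonunits_iff, map_natCast, map_natCast]
    exact hℓ
  rw [h, Ideal.mem_bot] at h1
  exact hℓ0 (Nat.cast_eq_zero.mp h1)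

end Base

section TrMap

variable {Ω : Type*} [Field Ω] (𝔸 : ValuationSubring Ω)
variable {L K : Type*} [Field L] [Field K] [Algebra L Ω] [Algebra K Ω]

/-- Functoriality of `tr 𝔸 ·` for maps of fields over `Ω`. -/
def trMap (ι : L →+* K) (hι : ∀ z, algebraMap K Ω (ι z) = algebraMap L Ω z) :
    tr 𝔸 L →+* tr 𝔸 K :=
  (ι.comp (tr 𝔸 L).subtype).codRestrict (tr 𝔸 K) fun z => by
    rw [mem_tr_iff, RingHom.comp_apply, hι]
    exact (mem_tr_iff 𝔸 L).mp z.2

@[simp] theorem coe_trMap (ι : L →+* K) (hι : ∀ z, algebraMap K Ω (ι z) = algebraMap L Ω z)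
    (z : tr 𝔸 L) : ((trMap 𝔸 ι hι z : tr 𝔸 K) : K) = ι (z : L) := rfl

end TrMap

section Union

variable {Ω : Type*} [Field Ω] [CharZero Ω] [IsAlgClosed Ω] (𝔸 : ValuationSubring Ω)
variable (K₁ : Type*) [Field K₁] [Algebra K₁ Ω]

/-- The roots of unity of `Ω` whose order is a unit of `𝔸`. -/
def goodRoots : Set Ω := {ζ | ∃ m : ℕ, (m : Ω) ∉ 𝔸.nonunits ∧ ζ ^ m = 1}

/-- `K₁(μ_m : m ∈ 𝔸ˣ)`. -/
def bigField : IntermediateField K₁ Ω := IntermediateField.adjoin K₁ (goodRoots 𝔸)

variable {𝔸}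

omit [CharZero Ω] [IsAlgClosed Ω] in
theorem valuation_natCast_eq_one {a : ℕ} (ha : (a : Ω) ∉ 𝔸.nonunits) :
    𝔸.valuation (a : Ω) = 1 := by
  have h1 : 𝔸.valuation (a : Ω) ≤ 1 :=
    (ValuationSubring.valuation_le_one_iff 𝔸 _).mpr (natCast_mem 𝔸 a)
  have h2 : ¬ 𝔸.valuation (a : Ω) < 1 := by
    rwa [← ValuationSubring.mem_nonunits_iff]
  exact le_antisymm h1 (not_lt.mp h2)

omit [CharZero Ω] [IsAlgClosed Ω] in
theorem natCast_mul_not_mem {a b : ℕ} (ha : (a : Ω) ∉ 𝔸.nonunits) (hb : (b : Ω) ∉ 𝔸.nonunits) :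
    ((a * b : ℕ) : Ω) ∉ 𝔸.nonunits := by
  rw [ValuationSubring.mem_nonunits_iff, Nat.cast_mul, map_mul, valuation_natCast_eq_one ha,
    valuation_natCast_eq_one hb, one_mul]
  exact lt_irrefl _

variable (𝔸)

/-- Every element of `bigField` lies in `K₁(ζ)` for a single primitive root of unity `ζ` of good
order. -/
theorem exists_primitiveRoot_of_mem_bigField {y : Ω} (hy : y ∈ bigField 𝔸 K₁) :
    ∃ (m : ℕ) (ζ : Ω), (m : Ω) ∉ 𝔸.nonunits ∧ IsPrimitiveRoot ζ m ∧ y ∈ K₁⟮ζ⟯ := by
  classical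
  obtain ⟨T, hTS, hyT⟩ := exists_finset_of_mem_adjoin hy
  have hT : ∀ t ∈ T, ∃ m : ℕ, (m : Ω) ∉ 𝔸.nonunits ∧ t ^ m = 1 := fun t ht => hTS ht
  choose! mt hmt using hT
  set M : ℕ := ∏ t ∈ T, mt t with hM
  have hMgood : (M : Ω) ∉ 𝔸.nonunits := by
    rw [hM]
    refine Finset.prod_induction mt (fun n : ℕ => (n : Ω) ∉ 𝔸.nonunits)
      (fun a b ha hb => natCast_mul_not_mem ha hb) ?_ fun t ht => (hmt t ht).1
    rw [Nat.cast_one, ValuationSubring.mem_nonunits_iff, map_one]
    exact lt_irrefl _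
  have hM0 : (M : Ω) ≠ 0 := fun h0 => hMgood (h0 ▸ 𝔸.nonunits.zero_mem)
  haveI : NeZero (M : Ω) := ⟨hM0⟩
  haveI : NeZero M := ⟨fun h0 => hM0 (by rw [h0, Nat.cast_zero])⟩
  obtain ⟨ζ, hζ⟩ := HasEnoughRootsOfUnity.exists_primitiveRoot Ω M
  refine ⟨M, ζ, hMgood, hζ, ?_⟩
  have hle : IntermediateField.adjoin K₁ (T : Set Ω) ≤ K₁⟮ζ⟯ := by
    rw [IntermediateField.adjoin_le_iff]
    intro t ht
    have htM : t ^ M = 1 := by
      obtain ⟨c, hc⟩ := Finset.dvd_prod_of_mem mt (Finset.mem_coe.mp ht)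
      rw [hM, hc, pow_mul, (hmt t ht).2, one_pow]
    obtain ⟨i, -, hi⟩ := hζ.eq_pow_of_pow_eq_one htM
    rw [← hi]
    exact pow_mem (mem_adjoin_simple_self K₁ ζ) i
  exact hle hyT

/-- **The big DVR.**  If `𝔸 ∩ K₁` is a discrete valuation ring with uniformiser `π₁`, then so is
`𝔸 ∩ K₁(μ_m : m ∈ 𝔸ˣ)`, with the same uniformiser. -/
theorem bigField_dvr [IsDiscreteValuationRing (tr 𝔸 K₁)]
    {π₁ : K₁} (hπ₁ : π₁ ∈ tr 𝔸 K₁) (hirr : Irreducible (⟨π₁, hπ₁⟩ : tr 𝔸 K₁)) :
    IsDiscreteValuationRing (tr 𝔸 (bigField 𝔸 K₁)) ∧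
      ∃ h : algebraMap K₁ (bigField 𝔸 K₁) π₁ ∈ tr 𝔸 (bigField 𝔸 K₁),
        Irreducible (⟨algebraMap K₁ (bigField 𝔸 K₁) π₁, h⟩ : tr 𝔸 (bigField 𝔸 K₁)) := by
  classical
  haveI : CharZero K₁ := (algebraMap K₁ Ω).charZero
  set K := bigField 𝔸 K₁ with hK
  have hπΩ : algebraMap K₁ Ω π₁ ∈ 𝔸 := (mem_tr_iff 𝔸 K₁).mp hπ₁
  have hπK : algebraMap K₁ K π₁ ∈ tr 𝔸 K := by
    rw [mem_tr_iff, ← IsScalarTower.algebraMap_apply]
    exact hπΩ
  set ϖ : tr 𝔸 K := ⟨algebraMap K₁ K π₁, hπK⟩ with hϖ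
  have hπnon : algebraMap K₁ Ω π₁ ∈ 𝔸.nonunits := by
    rw [← mem_tr_nonunits_iff]
    exact (ValuationSubring.coe_mem_nonunits_iff (a := (⟨π₁, hπ₁⟩ : tr 𝔸 K₁))).mpr
      ((IsLocalRing.mem_maximalIdeal _).mpr hirr.not_isUnit)
  have hϖnu : ¬ IsUnit ϖ := by
    have hmem : ϖ ∈ IsLocalRing.maximalIdeal (tr 𝔸 K) := by
      rw [← ValuationSubring.coe_mem_nonunits_iff, mem_tr_nonunits_iff, hϖ]
      show algebraMap K Ω (algebraMap K₁ K π₁) ∈ 𝔸.nonunits
      rw [← IsScalarTower.algebraMap_apply]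
      exact hπnon
    exact (IsLocalRing.mem_maximalIdeal _).mp hmem
  have hϖ0 : ϖ ≠ 0 := by
    intro h0
    have h1 : algebraMap K₁ K π₁ = 0 := congrArg (fun z : tr 𝔸 K => (z : K)) h0
    rw [map_eq_zero] at h1
    exact hirr.ne_zero (Subtype.ext h1)
  -- factorisation
  have hfac : ∀ y : tr 𝔸 K, y ≠ 0 → ∃ n : ℕ, Associated (ϖ ^ n) y := by
    intro y hy0
    obtain ⟨m, ζ, hmgood, hζ, hyζ⟩ := exists_primitiveRoot_of_mem_bigField 𝔸 K₁ (y : K).2
    have hm0 : m ≠ 0 := by
      rintro rfl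
      exact hmgood (by rw [Nat.cast_zero]; exact 𝔸.nonunits.zero_mem)
    have hζint : IsIntegral K₁ ζ :=
      ⟨Polynomial.X ^ m - 1, Polynomial.monic_X_pow_sub_C (1 : K₁) hm0, by simp [hζ.pow_eq_one]⟩
    set L := K₁⟮ζ⟯ with hL
    haveI : FiniteDimensional K₁ L := IntermediateField.adjoin.finiteDimensional hζint
    have hgen : Algebra.adjoin K₁ {AdjoinSimple.gen K₁ ζ} = ⊤ := by
      have := (IntermediateField.adjoin.powerBasis hζint).adjoin_gen_eq_top
      rwa [IntermediateField.adjoin.powerBasis_gen] at this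
    have hgenm : (AdjoinSimple.gen K₁ ζ) ^ m = 1 := Subtype.ext (by simpa using hζ.pow_eq_one)
    obtain ⟨hDVR, hπL, hirrL⟩ :=
      tower_step 𝔸 K₁ L hπ₁ hirr (AdjoinSimple.gen K₁ ζ) hgen hm0 hgenm hmgood
    -- the inclusion `L → K`
    have hLK : L ≤ K := by
      rw [hL, adjoin_simple_le_iff]
      exact IntermediateField.subset_adjoin K₁ _ ⟨m, hmgood, hζ.pow_eq_one⟩
    let ι : L →+* K := (IntermediateField.inclusion hLK).toRingHom
    have hι : ∀ z, algebraMap K Ω (ι z) = algebraMap L Ω z := fun z => rfl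
    let j := trMap 𝔸 ι hι
    -- `y` comes from `L`
    set yL : L := ⟨((y : K) : Ω), hyζ⟩ with hyL
    have hyLmem : yL ∈ tr 𝔸 L := by
      rw [mem_tr_iff]
      exact (mem_tr_iff 𝔸 K).mp y.2
    set yL' : tr 𝔸 L := ⟨yL, hyLmem⟩ with hyL'
    have hjy : j yL' = y := Subtype.ext (Subtype.ext rfl)
    have hjπ : j ⟨algebraMap K₁ L π₁, hπL⟩ = ϖ := Subtype.ext (Subtype.ext rfl)
    have hyL0 : yL' ≠ 0 := by
      intro h0
      apply hy0
      rw [← hjy, h0, map_zero]
    obtain ⟨n, hn⟩ := IsDiscreteValuationRing.associated_pow_irreducible hyL0 hirrL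
    refine ⟨n, ?_⟩
    have := (hn.map j).symm
    rwa [map_pow, hjy, hjπ] at this
  -- irreducibility
  have hϖirr : Irreducible ϖ := by
    refine ⟨hϖnu, fun a b hab => ?_⟩
    have ha0 : a ≠ 0 := fun h => hϖ0 (by rw [hab, h, zero_mul])
    have hb0 : b ≠ 0 := fun h => hϖ0 (by rw [hab, h, mul_zero])
    obtain ⟨i, u, hu⟩ := hfac a ha0
    obtain ⟨k, w, hw⟩ := hfac b hb0
    have h1 : ϖ = ϖ ^ (i + k) * (u * w : (tr 𝔸 K)ˣ) := by
      have : a * b = ϖ ^ (i + k) * (u * w : (tr 𝔸 K)ˣ) := by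
        rw [← hu, ← hw, pow_add, Units.val_mul]
        ring
      rw [← this, ← hab]
    rcases Nat.lt_or_ge (i + k) 2 with hlt | hge
    · rcases Nat.eq_zero_or_pos i with hi | hi
      · left
        rw [← hu, hi, pow_zero, one_mul]
        exact u.isUnit
      · right
        have hk : k = 0 := by omega
        rw [← hw, hk, pow_zero, one_mul]
        exact w.isUnit
    · exfalso
      obtain ⟨c, hc⟩ := Nat.exists_eq_add_of_le hge
      have h2 : ϖ * (1 - ϖ ^ (c + 1) * (u * w : (tr 𝔸 K)ˣ)) = 0 := by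
        have : ϖ ^ (i + k) = ϖ * ϖ ^ (c + 1) := by rw [hc, ← pow_succ']; congr 1; omega
        rw [this] at h1
        linear_combination h1
      rcases mul_eq_zero.mp h2 with h3 | h3
      · exact hϖ0 h3
      · apply hϖnu
        have h4 : ϖ * (ϖ ^ c * (u * w : (tr 𝔸 K)ˣ)) = 1 := by
          rw [pow_succ'] at h3
          linear_combination -h3
        exact IsUnit.of_mul_eq_one _ h4
  refine ⟨?_, hπK, hϖirr⟩
  exact IsDiscreteValuationRing.ofHasUnitMulPowIrreducibleFactorization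
    ⟨ϖ, hϖirr, fun {y} hy => hfac y hy⟩

end Union

end Fermat.Agent.N4.BigDVR

open IntermediateField Polynomial

namespace Fermat.Agent.N4.BigDVR

section ResidueClosed

variable {Ω : Type*} [Field Ω] [IsAlgClosed Ω] (𝔸 : ValuationSubring Ω)

/-- The residue field of a valuation ring of an algebraically closed field is algebraically
closed. -/
theorem isAlgClosed_residueField : IsAlgClosed (IsLocalRing.ResidueField 𝔸) := by
  refine IsAlgClosed.of_exists_root _ fun p hp hirr => ?_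
  have hl : p ∈ Polynomial.lifts (IsLocalRing.residue 𝔸) :=
    (Polynomial.lifts_iff_coeff_lifts p).mpr fun i => IsLocalRing.residue_surjective _
  obtain ⟨P, hP, hdeg, hPm⟩ := Polynomial.lifts_and_natDegree_eq_and_monic hl hp
  have hPΩ : (P.map (algebraMap 𝔸 Ω)).degree ≠ 0 := by
    rw [Polynomial.degree_eq_natDegree (hPm.map _).ne_zero, hPm.natDegree_map, hdeg,
      ← Polynomial.degree_eq_natDegree hp.ne_zero]
    exact ne_of_gt (degree_pos_of_irreducible hirr)
  obtain ⟨z, hz⟩ := IsAlgClosed.exists_root _ hPΩ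
  have hzint : IsIntegral 𝔸 z := ⟨P, hPm, by rwa [IsRoot.def, eval_map] at hz⟩
  obtain ⟨z', rfl⟩ := IsIntegrallyClosed.isIntegral_iff.mp hzint
  refine ⟨IsLocalRing.residue 𝔸 z', ?_⟩
  rw [← hP, eval_map, Polynomial.eval₂_at_apply]
  have h0 : P.eval z' = 0 := by
    apply Subtype.val_injective
    have : ((P.eval z' : 𝔸) : Ω) = algebraMap 𝔸 Ω (P.eval z') := rfl
    rw [this, ← Polynomial.eval₂_at_apply, ← eval_map]
    exact hz
  rw [h0, map_zero]

end ResidueClosed

section Teichmuller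

variable {Ω : Type*} [Field Ω] [CharZero Ω] [IsAlgClosed Ω] [Algebra.IsAlgebraic ℚ Ω]
  (𝔸 : ValuationSubring Ω) {ℓ : ℕ} (hℓ : ℓ.Prime) (hℓA : (ℓ : Ω) ∈ 𝔸.nonunits)

include hℓ hℓA in
/-- Every unit residue class of `𝔸` (residue characteristic `ℓ`, `Ω` algebraic over `ℚ`) is the class of
a root of unity of order prime to `ℓ`. -/
theorem exists_goodRoot_sub_mem_nonunits {y : Ω} (hy : y ∈ 𝔸) (hy1 : y ∉ 𝔸.nonunits) :
    ∃ ξ ∈ goodRoots 𝔸, y - ξ ∈ 𝔸.nonunits := by
  classical
  haveI : Fact ℓ.Prime := ⟨hℓ⟩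
  set k := IsLocalRing.ResidueField 𝔸 with hk
  set res := IsLocalRing.residue 𝔸 with hres
  set y' : 𝔸 := ⟨y, hy⟩ with hy'
  have hℓk : ((ℓ : ℕ) : k) = 0 := by
    have h1 : ((ℓ : ℕ) : 𝔸) ∈ IsLocalRing.maximalIdeal 𝔸 := by
      rw [← ValuationSubring.coe_mem_nonunits_iff]
      simpa using hℓA
    have h2 : res ((ℓ : ℕ) : 𝔸) = 0 := (IsLocalRing.residue_eq_zero_iff _).mpr h1
    simpa using h2
  haveI : CharP k ℓ := (CharP.charP_iff_prime_eq_zero hℓ).mpr hℓk
  letI : Algebra (ZMod ℓ) k := ZMod.algebra k ℓ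
  have hybar0 : res y' ≠ 0 := by
    intro h0
    rw [IsLocalRing.residue_eq_zero_iff, ← ValuationSubring.coe_mem_nonunits_iff] at h0
    exact hy1 h0
  -- `res y'` is algebraic over `𝔽_ℓ`
  have halg : IsAlgebraic (ZMod ℓ) (res y') := by
    have hyalg : IsAlgebraic ℤ y :=
      (IsFractionRing.isAlgebraic_iff ℤ ℚ Ω).mpr (Algebra.IsAlgebraic.isAlgebraic y)
    obtain ⟨p, hp0, hpy⟩ := hyalg
    have hq : aeval y p.primPart = 0 := aeval_primPart_eq_zero hp0 hpy
    have hqprim := p.isPrimitive_primPart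
    set q := p.primPart with hqdef
    refine ⟨q.map (Int.castRingHom (ZMod ℓ)), ?_, ?_⟩
    · intro h0
      have hdvd : C ((ℓ : ℕ) : ℤ) ∣ q := by
        rw [Polynomial.C_dvd_iff_dvd_coeff]
        intro i
        have := congrArg (fun r => r.coeff i) h0
        simp only [coeff_map, coeff_zero, eq_intCast] at this
        exact (ZMod.intCast_zmod_eq_zero_iff_dvd _ _).mp this
      have := hqprim _ hdvd
      rw [Int.isUnit_iff] at this
      have h2 := hℓ.two_le
      omega
    · rw [aeval_def, eval₂_map]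
      have hcomp : (algebraMap (ZMod ℓ) k).comp (Int.castRingHom (ZMod ℓ)) =
          res.comp (Int.castRingHom 𝔸) := RingHom.ext_int _ _
      rw [hcomp, ← Polynomial.hom_eval₂]
      have h0 : q.eval₂ (Int.castRingHom 𝔸) y' = 0 := by
        apply Subtype.val_injective
        have h1 := Polynomial.hom_eval₂ q (Int.castRingHom 𝔸) (algebraMap 𝔸 Ω) y'
        have h2 : (algebraMap 𝔸 Ω).comp (Int.castRingHom 𝔸) = algebraMap ℤ Ω := RingHom.ext_int _ _
        rw [h2] at h1
        show algebraMap 𝔸 Ω (q.eval₂ (Int.castRingHom 𝔸) y') = _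
        rw [h1]
        exact hq
      rw [h0, map_zero]
  -- a finite field containing `res y'`
  set F := (ZMod ℓ)⟮res y'⟯ with hF
  haveI : FiniteDimensional (ZMod ℓ) F :=
    IntermediateField.adjoin.finiteDimensional halg.isIntegral
  haveI : Finite F := Module.finite_of_finite (ZMod ℓ)
  letI : Fintype F := Fintype.ofFinite F
  haveI : CharP F ℓ := charP_of_injective_algebraMap (algebraMap (ZMod ℓ) F).injective ℓ
  obtain ⟨n, -, hcard⟩ := FiniteField.card F ℓ
  have hgen0 : AdjoinSimple.gen (ZMod ℓ) (res y') ≠ 0 := by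
    intro h0
    apply hybar0
    have := congrArg (fun z : F => (z : k)) h0
    simpa using this
  have hpow := FiniteField.pow_card_sub_one_eq_one _ hgen0
  rw [hcard] at hpow
  set m : ℕ := ℓ ^ (n : ℕ) - 1 with hm
  have hybarm : res y' ^ m = 1 := by
    have := congrArg (fun z : F => (z : k)) hpow
    simpa using this
  have hℓn1 : 1 ≤ ℓ ^ (n : ℕ) := Nat.one_le_pow _ _ hℓ.pos
  have hmΩ : (m : Ω) = (ℓ : Ω) ^ (n : ℕ) - 1 := by
    rw [hm, Nat.cast_sub hℓn1, Nat.cast_pow, Nat.cast_one]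
  have hvℓ : 𝔸.valuation ((ℓ : Ω) ^ (n : ℕ)) < 1 := by
    rw [map_pow]
    exact pow_lt_one₀ zero_le' ((ValuationSubring.mem_nonunits_iff 𝔸).mp hℓA) n.ne_zero
  have hmgood : (m : Ω) ∉ 𝔸.nonunits := by
    rw [ValuationSubring.mem_nonunits_iff, hmΩ, ← Valuation.map_neg, neg_sub,
      Valuation.map_one_sub_of_lt _ hvℓ]
    exact lt_irrefl _
  have hm0Ω : (m : Ω) ≠ 0 := fun h0 => hmgood (h0 ▸ 𝔸.nonunits.zero_mem)
  have hm0 : m ≠ 0 := fun h0 => hm0Ω (by rw [h0, Nat.cast_zero])
  haveI : NeZero (m : Ω) := ⟨hm0Ω⟩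
  obtain ⟨ζ, hζ⟩ := HasEnoughRootsOfUnity.exists_primitiveRoot Ω m
  have hprod := congrArg (fun p : Polynomial Ω => p.eval y)
    (X_pow_sub_one_eq_prod (Nat.pos_of_ne_zero hm0) hζ)
  simp only [eval_sub, eval_pow, eval_X, eval_one, eval_prod, eval_C] at hprod
  -- `y ^ m - 1` is a nonunit
  have hnon : y ^ m - 1 ∈ 𝔸.nonunits := by
    have h1 : y' ^ m - 1 ∈ IsLocalRing.maximalIdeal 𝔸 := by
      rw [← IsLocalRing.residue_eq_zero_iff, map_sub, map_pow, map_one, hybarm, sub_self]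
    have := (ValuationSubring.coe_mem_nonunits_iff (a := y' ^ m - 1)).mpr h1
    simpa using this
  rw [hprod, ValuationSubring.mem_nonunits_iff, map_prod] at hnon
  by_contra hcon
  simp only [not_exists, not_and] at hcon
  have hall : ∀ ξ ∈ nthRootsFinset m (1 : Ω), 𝔸.valuation (y - ξ) = 1 := by
    intro ξ hξ
    have hξm : ξ ^ m = 1 := (mem_nthRootsFinset (Nat.pos_of_ne_zero hm0) (1 : Ω)).mp hξ
    have hξgood : ξ ∈ goodRoots 𝔸 := ⟨m, hmgood, hξm⟩
    have hξA : ξ ∈ 𝔸 := by
      refine mem_of_isIntegral 𝔸 (R := ℤ) (fun z => ?_)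
        ⟨X ^ m - 1, monic_X_pow_sub_C (1 : ℤ) hm0, by simp [hξm]⟩
      rw [eq_intCast]
      exact intCast_mem 𝔸 z
    have h1 : 𝔸.valuation (y - ξ) ≤ 1 :=
      (ValuationSubring.valuation_le_one_iff 𝔸 _).mpr (sub_mem hy hξA)
    have h2 : ¬ 𝔸.valuation (y - ξ) < 1 := by
      rw [← ValuationSubring.mem_nonunits_iff]
      exact hcon ξ hξgood
    exact le_antisymm h1 (not_lt.mp h2)
  rw [Finset.prod_congr rfl hall, Finset.prod_const_one] at hnon
  exact lt_irrefl _ hnon

end Teichmuller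

end Fermat.Agent.N4.BigDVR

open IntermediateField Polynomial

namespace Fermat.Agent.N4.BigDVR

universe u

section ResidueCompare

variable {Ω : Type u} [Field Ω] (𝔸 : ValuationSubring Ω) (K : Type u) [Field K] [Algebra K Ω]

/-- `𝔸 ∩ K → 𝔸`. -/
def trIncl : tr 𝔸 K →+* 𝔸 :=
  ((algebraMap K Ω).comp (tr 𝔸 K).subtype).codRestrict 𝔸 fun z => (mem_tr_iff 𝔸 K).mp z.2

@[simp] theorem coe_trIncl (z : tr 𝔸 K) : ((trIncl 𝔸 K z : 𝔸) : Ω) = algebraMap K Ω (z : K) := rfl

theorem isUnit_trIncl_iff (z : tr 𝔸 K) : IsUnit (trIncl 𝔸 K z) ↔ IsUnit z := by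
  rw [← not_iff_not, ← mem_nonunits_iff, ← mem_nonunits_iff, ← IsLocalRing.mem_maximalIdeal,
    ← IsLocalRing.mem_maximalIdeal, ← ValuationSubring.coe_mem_nonunits_iff,
    ← ValuationSubring.coe_mem_nonunits_iff, mem_tr_nonunits_iff]
  rfl

instance isLocalHom_trIncl : IsLocalHom (trIncl 𝔸 K) :=
  ⟨fun z hz => (isUnit_trIncl_iff 𝔸 K z).mp hz⟩

variable [CharZero Ω] [IsAlgClosed Ω] [Algebra.IsAlgebraic ℚ Ω]
  {ℓ : ℕ} (hℓ : ℓ.Prime) (hℓA : (ℓ : Ω) ∈ 𝔸.nonunits)

include hℓ hℓA in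
/-- If `K` contains all roots of unity of order prime to `ℓ`, the residue fields of `𝔸 ∩ K` and `𝔸`
coincide. -/
theorem bijective_residueField_map (hK : ∀ ξ ∈ goodRoots 𝔸, ξ ∈ (algebraMap K Ω).range) :
    Function.Bijective (IsLocalRing.ResidueField.map (trIncl 𝔸 K)) := by
  refine ⟨RingHom.injective _, fun z => ?_⟩
  obtain ⟨y', rfl⟩ := IsLocalRing.residue_surjective z
  by_cases hy : (y' : Ω) ∈ 𝔸.nonunits
  · refine ⟨0, ?_⟩
    rw [map_zero, eq_comm]
    exact (IsLocalRing.residue_eq_zero_iff _).mpr (ValuationSubring.coe_mem_nonunits_iff.mp hy)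
  · obtain ⟨ξ, hξgood, hsub⟩ := exists_goodRoot_sub_mem_nonunits 𝔸 hℓ hℓA y'.2 hy
    obtain ⟨x, rfl⟩ := hK ξ hξgood
    have hxA : algebraMap K Ω x ∈ 𝔸 := by
      have h1 : (y' : Ω) - algebraMap K Ω x ∈ 𝔸 := ValuationSubring.nonunits_subset hsub
      have : algebraMap K Ω x = (y' : Ω) - ((y' : Ω) - algebraMap K Ω x) := by ring
      rw [this]
      exact sub_mem y'.2 h1
    set x' : tr 𝔸 K := ⟨x, (mem_tr_iff 𝔸 K).mpr hxA⟩ with hx'
    refine ⟨IsLocalRing.residue _ x', ?_⟩
    rw [IsLocalRing.ResidueField.map_residue, eq_comm, ← sub_eq_zero, ← map_sub,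
      IsLocalRing.residue_eq_zero_iff, ← ValuationSubring.coe_mem_nonunits_iff]
    exact hsub

include hℓ hℓA in
theorem isAlgClosed_residueField_tr (hK : ∀ ξ ∈ goodRoots 𝔸, ξ ∈ (algebraMap K Ω).range) :
    IsAlgClosed (IsLocalRing.ResidueField (tr 𝔸 K)) := by
  haveI := isAlgClosed_residueField 𝔸
  exact IsAlgClosed.of_ringEquiv _ _
    (RingEquiv.ofBijective _ (bijective_residueField_map 𝔸 K hℓ hℓA hK)).symm

end ResidueCompare

section Final

local notation "Qbar" => AlgebraicClosure ℚ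

/-- **Block Onr.**  For a valuation subring `A` of `Q̄` over the prime `ℓ` and a finite set `T ⊆ Q̄`
there is a subfield `K ⊆ Q̄` containing `T` such that `A ∩ K` is a discrete valuation ring whose
residue field is algebraically closed and equal to the residue field of `A`. -/
theorem exists_bigDVR (A : ValuationSubring Qbar) {ℓ : ℕ} (hℓ : ℓ.Prime) (hA : A.LiesOverPrime ℓ)
    (T : Finset Qbar) :
    ∃ K : IntermediateField ℚ Qbar, (∀ t ∈ T, t ∈ K) ∧
      IsDiscreteValuationRing (tr A K) ∧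
      ¬ IsUnit ((ℓ : ℕ) : tr A K) ∧
      IsAlgClosed (IsLocalRing.ResidueField (tr A K)) ∧
      Function.Bijective (IsLocalRing.ResidueField.map (trIncl A K)) ∧
      (∀ ξ ∈ goodRoots A, ξ ∈ K) := by
  classical
  haveI : Algebra.IsAlgebraic ℚ Qbar := AlgebraicClosure.isAlgebraic ℚ
  have hℓA : ((ℓ : ℕ) : Qbar) ∈ A.nonunits := hA
  set K₁ : IntermediateField ℚ Qbar := IntermediateField.adjoin ℚ (T : Set Qbar) with hK₁
  haveI : FiniteDimensional ℚ K₁ :=
    IntermediateField.finiteDimensional_adjoin fun x _ =>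
      (Algebra.IsAlgebraic.isAlgebraic (R := ℚ) x).isIntegral
  haveI : NumberField K₁ := ⟨⟩
  haveI hDVR₁ : IsDiscreteValuationRing (tr A K₁) :=
    isDiscreteValuationRing_tr_of_numberField A K₁ hℓ.ne_zero hℓA
  obtain ⟨ϖ, hϖ⟩ := IsDiscreteValuationRing.exists_irreducible (tr A K₁)
  obtain ⟨hDVR, -, -⟩ := bigField_dvr A K₁ ϖ.2 hϖ
  set big : IntermediateField K₁ Qbar := bigField A K₁ with hbig
  have hgood : ∀ ξ ∈ goodRoots A, ξ ∈ (algebraMap (big.restrictScalars ℚ) Qbar).range :=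
    fun ξ hξ => ⟨⟨ξ, IntermediateField.subset_adjoin K₁ _ hξ⟩, rfl⟩
  refine ⟨big.restrictScalars ℚ, ?_, ?_, ?_, ?_, ?_, ?_⟩
  · intro t ht
    have h1 : t ∈ K₁ := IntermediateField.subset_adjoin ℚ _ (Finset.mem_coe.mpr ht)
    exact big.algebraMap_mem ⟨t, h1⟩
  · exact hDVR
  · have hmem : ((ℓ : ℕ) : tr A (big.restrictScalars ℚ)) ∈
        IsLocalRing.maximalIdeal (tr A (big.restrictScalars ℚ)) := by
      rw [← ValuationSubring.coe_mem_nonunits_iff, mem_tr_nonunits_iff]
      simpa using hℓA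
    exact (IsLocalRing.mem_maximalIdeal _).mp hmem
  · exact isAlgClosed_residueField_tr A (big.restrictScalars ℚ) hℓ hℓA hgood
  · exact bijective_residueField_map A (big.restrictScalars ℚ) hℓ hℓA hgood
  · exact fun ξ hξ => IntermediateField.subset_adjoin K₁ _ hξ

/-- The subring `A ∩ K` of `K`, in the shape consumed by `N4/Setting.lean`. -/
noncomputable abbrev trSubring (A : ValuationSubring Qbar) (K : IntermediateField ℚ Qbar) : Subring ↥K :=
  (tr A K).toSubring

instance isFractionRing_trSubring (A : ValuationSubring Qbar) (K : IntermediateField ℚ Qbar) :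
    IsFractionRing ↥(trSubring A K) ↥K :=
  inferInstanceAs (IsFractionRing ↥(tr A K) ↥K)

open Fermat.Agent.N4.Setting in
/-- **Block Onr, consumer form.**  The base `(K, O) = (K, A ∩ K)` satisfies all standing hypotheses
of `StarTarget` / `SmoothTarget` in `N4/Setting.lean`. -/
theorem exists_goodBase (A : ValuationSubring Qbar) {ℓ : ℕ} (hℓ : ℓ.Prime)
    (hA : A.LiesOverPrime ℓ) (T : Finset Qbar) (N : ℕ) (hN : ¬ ℓ ∣ N) :
    ∃ K : IntermediateField ℚ Qbar, (∀ t ∈ T, t ∈ K) ∧
      ∃ (_ : IsDiscreteValuationRing ↥(trSubring A K))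
        (_ : IsAlgClosed (IsLocalRing.ResidueField ↥(trSubring A K))),
        GoodBase ↥K N (trSubring A K) ℓ ∧
        Function.Bijective (IsLocalRing.ResidueField.map (trIncl A K)) ∧
        (∀ ξ ∈ goodRoots A, ξ ∈ K) := by
  obtain ⟨K, hT, hDVR, hnu, hAC, hbij, hgood⟩ := exists_bigDVR A hℓ hA T
  refine ⟨K, hT, hDVR, hAC, ⟨hℓ, hN, ?_, hnu⟩, hbij, hgood⟩
  exact isFractionRing_trSubring A K

/-- Instance search does not find this one by itself. -/
theorem isAlgebraic_rat (K : IntermediateField ℚ Qbar) : Algebra.IsAlgebraic ℚ ↥K := by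
  haveI : Algebra.IsAlgebraic ℚ Qbar := AlgebraicClosure.isAlgebraic ℚ
  refine ⟨fun x => ?_⟩
  have h1 : IsAlgebraic ℚ (x : Qbar) := Algebra.IsAlgebraic.isAlgebraic _
  exact (isAlgebraic_algebraMap_iff (algebraMap ↥K Qbar).injective).mp h1

example (K : IntermediateField ℚ Qbar) : CharZero ↥K := inferInstance

open Fermat.Agent.N4.Setting in
/-- Usage check: the two targets of `N4/Setting.lean` apply to the base produced here. -/
theorem statements_of_targets (hStar : StarTarget) (hSmooth : SmoothTarget)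
    (A : ValuationSubring Qbar) {ℓ : ℕ} (hℓ : ℓ.Prime)
    (hA : A.LiesOverPrime ℓ) (T : Finset Qbar) (N : ℕ) [NeZero N] (hN : ¬ ℓ ∣ N) :
    ∃ K : IntermediateField ℚ Qbar, (∀ t ∈ T, t ∈ K) ∧
      ∃ (_ : IsDiscreteValuationRing ↥(trSubring A K)),
        StarStatement ↥K N (trSubring A K) ∧ SmoothStatement ↥K N (trSubring A K) := by
  obtain ⟨K, hT, hDVR, hAC, hGB, -, -⟩ := exists_goodBase A hℓ hA T N hN
  haveI := isAlgebraic_rat K
  exact ⟨K, hT, hDVR, hStar ↥K N (trSubring A K) ℓ hGB, hSmooth ↥K N (trSubring A K) ℓ hGB⟩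

end Final

end Fermat.Agent.N4.BigDVR
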