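/- Block Onr in the exact shape asked by block C (helper9, moonshots #30 §0): `exists_isLevel`. -/
import Mathlib
import Fermat.Agent.N4.BigDVR

set_option autoImplicit false

open Fermat.Agent.N4.Setting Fermat.Agent.N4.BigDVR

namespace Fermat.Agent.N4.BigDVR

local notation "Qbar" => AlgebraicClosure ℚ

theorem trSubring_eq (A : ValuationSubring Qbar) (K : IntermediateField ℚ Qbar) :
    trSubring A K = A.toSubring.comap (algebraMap ↥K Qbar) := rfl

/-- Block C's shape (helper9, moonshots #30 §0). -/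
theorem exists_isLevel (A : ValuationSubring Qbar) {ℓ : ℕ} (hℓ : ℓ.Prime)
    (hA : A.LiesOverPrime ℓ) {N : ℕ} (hℓN : ¬ ℓ ∣ N) (T : Finset Qbar) :
    ∃ K : IntermediateField ℚ Qbar, (∀ t ∈ T, t ∈ K) ∧
      ∃ _ : IsDiscreteValuationRing ↥(A.toSubring.comap (algebraMap ↥K Qbar)),
        GoodBase ↥K N (A.toSubring.comap (algebraMap ↥K Qbar)) ℓ ∧
        IsAlgClosed (IsLocalRing.ResidueField ↥(A.toSubring.comap (algebraMap ↥K Qbar))) := by
  obtain ⟨K, hT, hDVR, hAC, hGB, -, -⟩ := exists_goodBase A hℓ hA T N hℓN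
  exact ⟨K, hT, hDVR, hGB, hAC⟩

end Fermat.Agent.N4.BigDVR
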