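/-
N4, block M (helper10), part (M4a): Hensel's lemma for arbitrary (not necessarily monic)
polynomials over an `I`-adically complete ring (Newton iteration; the proof is the one of Mathlib's
`IsAdicComplete.henselianRing`, which never uses monicity), the special case of `N`-th roots of
`1`-units, and the solution of the `λ`-sextic near the cusp.
-/
import Mathlib

set_option autoImplicit false

namespace Fermat.Agent.N4.Hensel

open Polynomial

variable {R : Type*} [CommRing R] (I : Ideal R) [IsAdicComplete I R]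

/-- **Hensel's lemma** over an `I`-adically complete ring, for an arbitrary polynomial. -/
theorem exists_root (f : R[X]) (a₀ : R) (h₁ : f.eval a₀ ∈ I)
    (h₂ : IsUnit (Ideal.Quotient.mk I (f.derivative.eval a₀))) :
    ∃ a : R, f.IsRoot a ∧ a - a₀ ∈ I := by
  classical
  let f' := derivative f
  let c : ℕ → R := fun n => Nat.recOn n a₀ fun _ b => b - f.eval b * Ring.inverse (f'.eval b)
  have hc : ∀ n, c (n + 1) = c n - f.eval (c n) * Ring.inverse (f'.eval (c n)) := by
    intro n
    simp only [c]
  have hc_mod : ∀ n, c n ≡ a₀ [SMOD I] := by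
    intro n
    induction n with
    | zero => rfl
    | succ n ih => ?_
    rw [hc, sub_eq_add_neg, ← add_zero a₀]
    refine ih.add ?_
    rw [SModEq.zero, Ideal.neg_mem_iff]
    refine I.mul_mem_right _ ?_
    rw [← SModEq.zero] at h₁ ⊢
    exact (ih.eval f).trans h₁
  have hf'c : ∀ n, IsUnit (f'.eval (c n)) := by
    intro n
    have := isLocalHom_of_le_jacobson_bot I (IsAdicComplete.le_jacobson_bot I)
    apply IsUnit.of_map (Ideal.Quotient.mk I)
    convert h₂ using 1
    exact SModEq.def.mp ((hc_mod n).eval _)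
  have hfcI : ∀ n, f.eval (c n) ∈ I ^ (n + 1) := by
    intro n
    induction n with
    | zero =>
      have h0 : c 0 = a₀ := rfl
      rw [h0, zero_add, pow_one]
      exact h₁
    | succ n ih => ?_
    rw [← taylor_eval_sub (c n), hc, sub_eq_add_neg, sub_eq_add_neg,
      add_neg_cancel_comm]
    rw [eval_eq_sum, sum_over_range' _ _ _ (lt_add_of_pos_right _ zero_lt_two), ←
      Finset.sum_range_add_sum_Ico _ (Nat.le_add_left _ _)]
    swap
    · intro i
      rw [zero_mul]
    refine Ideal.add_mem _ ?_ ?_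
    · rw [← one_add_one_eq_two, Finset.sum_range_succ, Finset.range_one, Finset.sum_singleton,
        taylor_coeff_zero, taylor_coeff_one, pow_zero, pow_one, mul_one, mul_neg,
        mul_left_comm, Ring.mul_inverse_cancel _ (hf'c n), mul_one, add_neg_cancel]
      exact Ideal.zero_mem _
    · refine Submodule.sum_mem _ ?_
      simp only [Finset.mem_Ico]
      rintro i ⟨h2i, _⟩
      have aux : n + 2 ≤ i * (n + 1) := by trans 2 * (n + 1) <;> nlinarith only [h2i]
      refine Ideal.mul_mem_left _ _ (Ideal.pow_le_pow_right aux ?_)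
      rw [pow_mul']
      exact Ideal.pow_mem_pow ((Ideal.neg_mem_iff _).2 <| Ideal.mul_mem_right _ _ ih) _
  have aux : ∀ m n, m ≤ n → c m ≡ c n [SMOD (I ^ m • ⊤ : Ideal R)] := by
    intro m n hmn
    rw [← Ideal.one_eq_top, Ideal.smul_eq_mul, mul_one]
    obtain ⟨k, rfl⟩ := Nat.exists_eq_add_of_le hmn
    clear hmn
    induction k with
    | zero => rw [add_zero]
    | succ k ih => ?_
    rw [← add_assoc, hc, ← add_zero (c m), sub_eq_add_neg]
    refine ih.add ?_
    symm
    rw [SModEq.zero, Ideal.neg_mem_iff]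
    refine Ideal.mul_mem_right _ _ (Ideal.pow_le_pow_right ?_ (hfcI _))
    rw [add_assoc]
    exact le_self_add
  obtain ⟨a, ha⟩ := IsPrecomplete.prec' c (aux _ _)
  refine ⟨a, ?_, ?_⟩
  · show f.IsRoot a
    suffices ∀ n, f.eval a ≡ 0 [SMOD (I ^ n • ⊤ : Ideal R)] by exact IsHausdorff.haus' _ this
    intro n
    specialize ha n
    rw [← Ideal.one_eq_top, Ideal.smul_eq_mul, mul_one] at ha ⊢
    refine (ha.symm.eval f).trans ?_
    rw [SModEq.zero]
    exact Ideal.pow_le_pow_right le_self_add (hfcI _)
  · show a - a₀ ∈ I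
    specialize ha (0 + 1)
    rw [hc, pow_one, ← Ideal.one_eq_top, Ideal.smul_eq_mul, mul_one, sub_eq_add_neg] at ha
    rw [← SModEq.sub_mem, ← add_zero a₀]
    refine ha.symm.trans (SModEq.rfl.add ?_)
    rw [SModEq.zero, Ideal.neg_mem_iff]
    exact Ideal.mul_mem_right _ _ h₁

/-- `N`-th roots of `1`-units, `N` invertible. -/
theorem exists_pow_eq (N : ℕ) (hN : IsUnit ((N : ℕ) : R)) (z : R) (hz : z - 1 ∈ I) :
    ∃ e : R, e ^ N = z ∧ e - 1 ∈ I := by
  obtain ⟨e, he, he1⟩ := exists_root I (X ^ N - C z) 1 (by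
      rw [eval_sub, eval_pow, eval_X, eval_C, one_pow, ← neg_sub]
      exact I.neg_mem hz) (by
      rw [derivative_sub, derivative_C, sub_zero, derivative_X_pow, eval_mul, eval_pow, eval_X,
        one_pow, mul_one, eval_C]
      exact hN.map (Ideal.Quotient.mk I))
  refine ⟨e, ?_, he1⟩
  rw [IsRoot, eval_sub, eval_pow, eval_X, eval_C] at he
  exact sub_eq_zero.mp he

/-- **The `λ`-sextic near the cusp**, in an `I`-adically complete ring with `2` invertible: for
`a ∈ I` and `v ≡ 1` there is `z ≡ 1` with `z² (a z − 1)² = v (a² z² − a z + 1)³`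
(then `λ = a z` solves `λ² (λ − 1)² = a² v (λ² − λ + 1)³`). -/
theorem exists_lam (h2 : IsUnit (2 : R)) (a v : R) (ha : a ∈ I) (hv : v - 1 ∈ I) :
    ∃ z : R, z - 1 ∈ I ∧ z ^ 2 * (a * z - 1) ^ 2 = v * (a ^ 2 * z ^ 2 - a * z + 1) ^ 3 := by
  have ha' : Ideal.Quotient.mk I a = 0 := Ideal.Quotient.eq_zero_iff_mem.mpr ha
  have hv' : Ideal.Quotient.mk I v = 1 := by
    have := Ideal.Quotient.eq_zero_iff_mem.mpr hv
    rw [map_sub, map_one, sub_eq_zero] at this
    exact this
  obtain ⟨z, hz, hz1⟩ := exists_root I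
    (X ^ 2 * (C a * X - 1) ^ 2 - C v * (C (a ^ 2) * X ^ 2 - C a * X + 1) ^ 3) 1 (by
      rw [← Ideal.Quotient.eq_zero_iff_mem]
      simp only [eval_sub, eval_mul, eval_pow, eval_X, eval_C, eval_add, eval_one, map_sub,
        map_mul, map_pow, map_add, map_one, ha', hv']
      ring) (by
      have : Ideal.Quotient.mk I (eval 1 (derivative
          (X ^ 2 * (C a * X - 1) ^ 2 - C v * (C (a ^ 2) * X ^ 2 - C a * X + 1) ^ 3))) = 2 := by
        simp only [derivative_mul, derivative_pow, derivative_X, derivative_C,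
          derivative_one, eval_sub, eval_mul, eval_pow, eval_X, eval_C, eval_add,
          eval_one, map_sub, map_mul, map_pow, map_add, map_one, ha', hv', eval_natCast,
          map_natCast, eval_zero, map_zero]
        norm_num
      rw [this]
      have := h2.map (Ideal.Quotient.mk I)
      rwa [map_ofNat] at this)
  refine ⟨z, hz1, ?_⟩
  rw [IsRoot] at hz
  simp only [eval_sub, eval_mul, eval_pow, eval_X, eval_C, eval_add, eval_one] at hz
  exact sub_eq_zero.mp hz

end Fermat.Agent.N4.Hensel
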