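/-
N4, block L3 (helper6), part 2: the formal lifting lemma for covers of the `j`-line.

Let `k` be an algebraically closed field of characteristic `0`, `A, B ∈ k[X]`, `t₀ ∈ k` with
`B(t₀) ≠ 0`, `j₀ = A(t₀)/B(t₀)`, and suppose `A - j₀ B = (X - t₀)^e D` with `D(t₀) ≠ 0`
(the rational function `J = A/B` takes the value `j₀` at `t₀` with multiplicity `e`).
Let `js = j₀ + s^e u ∈ k⟦s⟧`, `u(0) ≠ 0` (a power series taking the value `j₀` with the same
multiplicity `e`).  Then there is `x = t₀ + s y ∈ k⟦s⟧`, `y(0) ≠ 0`, with `A(x) = js · B(x)`: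
the equation `J(x) = js` can be solved by a power series of order exactly one.

Proof: blow-up `x = t₀ + s y`; the equation becomes `s^e (y^e D(x) - u B(x)) = 0`, and
`y^e D(t₀ + s y) - u B(t₀ + s y)` has the simple root `y₀ = (u(0) B(t₀) / D(t₀))^{1/e}` modulo `s`;
Hensel's lemma (helper10's `Hensel.exists_root`, for non-monic polynomials).
-/
import Fermat.Agent.N4.HenselPoly

set_option autoImplicit false

namespace Fermat.Agent.N4.Char0

open Polynomial

section

variable {k : Type*} [Field k]

local notation "cc" => (PowerSeries.constantCoeff : PowerSeries k →+* k)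

theorem constantCoeff_comp_algebraMap :
    (PowerSeries.constantCoeff : PowerSeries k →+* k).comp (algebraMap k (PowerSeries k)) =
      RingHom.id k := by
  ext a
  simp

/-- The constant coefficient of `P(x)` is `P(x(0))`. -/
theorem constantCoeff_aeval (P : k[X]) (x : PowerSeries k) :
    PowerSeries.constantCoeff (aeval x P) = P.eval (PowerSeries.constantCoeff x) := by
  rw [aeval_def, hom_eval₂, constantCoeff_comp_algebraMap, eval₂_id]

end

section Lift

variable {k : Type*} [Field k] [IsAlgClosed k] [CharZero k]

local notation "R" => PowerSeries k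

/-- **Formal lifting through a cover of the `j`-line** with matching ramification. -/
theorem exists_series_lift (A B D : k[X]) (t₀ j₀ : k) {e : ℕ} (he : e ≠ 0)
    (hB : B.eval t₀ ≠ 0) (hD : A - C j₀ * B = (X - C t₀) ^ e * D) (hD0 : D.eval t₀ ≠ 0)
    (js u : PowerSeries k) (hjs : js = PowerSeries.C j₀ + PowerSeries.X ^ e * u)
    (hu : PowerSeries.constantCoeff u ≠ 0) :
    ∃ y : PowerSeries k, PowerSeries.constantCoeff y ≠ 0 ∧
      aeval (PowerSeries.C t₀ + PowerSeries.X * y) A =
        js * aeval (PowerSeries.C t₀ + PowerSeries.X * y) B := by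
  classical
  let φ : k →+* R := algebraMap k R
  -- the auxiliary linear polynomial `t₀ + s Y`
  let q : R[X] := C (PowerSeries.C t₀) + C (PowerSeries.X : R) * X
  -- the blown-up equation
  let H : R[X] := X ^ e * (D.map φ).comp q - C u * (B.map φ).comp q
  have hq_map : q.map (PowerSeries.constantCoeff : R →+* k) = C t₀ := by
    simp [q]
  have hDmap : (D.map φ).map (PowerSeries.constantCoeff : R →+* k) = D := by
    rw [Polynomial.map_map, constantCoeff_comp_algebraMap, Polynomial.map_id]
  have hBmap : (B.map φ).map (PowerSeries.constantCoeff : R →+* k) = B := by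
    rw [Polynomial.map_map, constantCoeff_comp_algebraMap, Polynomial.map_id]
  have hHmap : H.map (PowerSeries.constantCoeff : R →+* k) =
      X ^ e * C (D.eval t₀) - C (PowerSeries.constantCoeff u) * C (B.eval t₀) := by
    simp only [H, Polynomial.map_sub, Polynomial.map_mul, Polynomial.map_pow, Polynomial.map_X,
      Polynomial.map_C, Polynomial.map_comp, hq_map, hDmap, hBmap, comp_C]
  -- the root modulo `s`
  obtain ⟨y₀, hy₀⟩ := IsAlgClosed.exists_pow_nat_eq
    (PowerSeries.constantCoeff u * B.eval t₀ / D.eval t₀) (Nat.pos_of_ne_zero he)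
  have hy₀0 : y₀ ≠ 0 := by
    rintro rfl
    rw [zero_pow he] at hy₀
    exact div_ne_zero (mul_ne_zero hu hB) hD0 hy₀.symm
  have hcc_eval : ∀ a : R, PowerSeries.constantCoeff (H.eval a) =
      (H.map (PowerSeries.constantCoeff : R →+* k)).eval (PowerSeries.constantCoeff a) := by
    intro a
    rw [eval_map, eval₂_at_apply]
  have hcc_deriv : ∀ a : R, PowerSeries.constantCoeff (H.derivative.eval a) =
      (H.map (PowerSeries.constantCoeff : R →+* k)).derivative.eval
        (PowerSeries.constantCoeff a) := by
    intro a
    rw [derivative_map, eval_map, eval₂_at_apply]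
  have h₁ : H.eval (PowerSeries.C y₀) ∈ Ideal.span {(PowerSeries.X : R)} := by
    rw [Ideal.mem_span_singleton, PowerSeries.X_dvd_iff, hcc_eval, hHmap]
    simp only [PowerSeries.constantCoeff_C, eval_sub, eval_mul, eval_pow, eval_X, eval_C, hy₀]
    field_simp
    ring
  have h₂ : IsUnit (Ideal.Quotient.mk (Ideal.span {(PowerSeries.X : R)})
      (H.derivative.eval (PowerSeries.C y₀))) := by
    refine IsUnit.map _ ?_
    rw [PowerSeries.isUnit_iff_constantCoeff, hcc_deriv, hHmap, isUnit_iff_ne_zero]
    simp only [PowerSeries.constantCoeff_C, derivative_sub, derivative_mul, derivative_C,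
      derivative_X_pow, mul_zero, add_zero, eval_mul, eval_pow, eval_X, eval_C,
      sub_zero, zero_mul]
    refine mul_ne_zero (mul_ne_zero ?_ (pow_ne_zero _ hy₀0)) hD0
    exact_mod_cast he
  obtain ⟨y, hyroot, hymem⟩ :=
    Hensel.exists_root (Ideal.span {(PowerSeries.X : R)}) H (PowerSeries.C y₀) h₁ h₂
  have hyc : PowerSeries.constantCoeff y = y₀ := by
    rw [Ideal.mem_span_singleton, PowerSeries.X_dvd_iff, map_sub,
      PowerSeries.constantCoeff_C, sub_eq_zero] at hymem
    exact hymem
  refine ⟨y, by rwa [hyc], ?_⟩
  · set x : R := PowerSeries.C t₀ + PowerSeries.X * y with hx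
    have hqx : q.eval y = x := by simp [q, hx]
    have hHy : H.eval y = y ^ e * aeval x D - u * aeval x B := by
      simp only [H, eval_sub, eval_mul, eval_pow, eval_X, eval_C, eval_comp, hqx, φ]
      rw [eval_map_algebraMap, eval_map_algebraMap]
    have hAB : aeval x A - PowerSeries.C j₀ * aeval x B =
        (PowerSeries.X * y) ^ e * aeval x D := by
      have h := congrArg (aeval x) hD
      simp only [map_sub, map_mul, map_pow, aeval_X, aeval_C, PowerSeries.algebraMap_apply,
        Algebra.algebraMap_self, RingHom.id_apply] at h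
      rw [h, hx]
      ring
    have hfin : aeval x A - js * aeval x B = PowerSeries.X ^ e * H.eval y := by
      rw [hHy, hjs]
      linear_combination hAB
    rw [IsRoot.def] at hyroot
    rw [hyroot, mul_zero, sub_eq_zero] at hfin
    exact hfin

end Lift

end Fermat.Agent.N4.Char0
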