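/-
N4, block L3 (helper6), part 3: Taylor expansion at a point as a ring homomorphism, and the Taylor
expansion of the `j`-function at a point `z₀ : ℍ`:
`T_{z₀} j = j(z₀) + s^e u`, `u(0) ≠ 0`, with `e = 3, 2, 1` according to `j(z₀) = 0, 1728`, other.
-/
import Fermat.Agent.S24.QExpTaylor
import Fermat.Agent.M2.JOrder
import Fermat.Agent.M2.Elliptic
import Fermat.Agent.M2.FibreOrbits
import Fermat.Agent.M2.OrdVal

set_option autoImplicit false

namespace Fermat.Agent.N4.Char0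

open Filter Topology Polynomial UpperHalfPlane
open Fermat.Agent.S24.QExp

/-! ### Taylor expansion at a point -/

/-- The formal Taylor series of `F` at `z₀`. -/
noncomputable def taylorAt (z₀ : ℂ) (F : ℂ → ℂ) : PowerSeries ℂ :=
  taylor0 (fun s => F (z₀ + s))

lemma analyticAt_shift {z₀ : ℂ} {F : ℂ → ℂ} (hF : AnalyticAt ℂ F z₀) :
    AnalyticAt ℂ (fun s => F (z₀ + s)) 0 := by
  have h1 : AnalyticAt ℂ (fun s : ℂ => z₀ + s) 0 := analyticAt_const.add analyticAt_id
  exact hF.comp_of_eq h1 (by simp)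

lemma taylorAt_congr {z₀ : ℂ} {F G : ℂ → ℂ} (h : F =ᶠ[𝓝 z₀] G) : taylorAt z₀ F = taylorAt z₀ G := by
  apply taylor0_congr
  have ht : Tendsto (fun s : ℂ => z₀ + s) (𝓝 0) (𝓝 z₀) := by
    have : Continuous (fun s : ℂ => z₀ + s) := continuous_const.add continuous_id
    simpa using this.tendsto 0
  exact ht.eventually h

lemma taylor0_add {F G : ℂ → ℂ} (hF : AnalyticAt ℂ F 0) (hG : AnalyticAt ℂ G 0) :
    taylor0 (F + G) = taylor0 F + taylor0 G := by
  ext m
  simp only [coeff_taylor0, map_add, iteratedDeriv_add hF.contDiffAt hG.contDiffAt, mul_add]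

lemma taylor0_const (c : ℂ) : taylor0 (fun _ => c) = PowerSeries.C c := by
  have h := taylor0_eval (Polynomial.C c)
  simpa using h

lemma taylor0_id : taylor0 (fun s : ℂ => s) = PowerSeries.X := by
  have h := taylor0_eval (Polynomial.X)
  simpa using h

lemma constantCoeff_taylor0 (F : ℂ → ℂ) : PowerSeries.constantCoeff (taylor0 F) = F 0 := by
  rw [← PowerSeries.coeff_zero_eq_constantCoeff_apply, coeff_taylor0]
  simp

lemma taylorAt_add {z₀ : ℂ} {F G : ℂ → ℂ} (hF : AnalyticAt ℂ F z₀) (hG : AnalyticAt ℂ G z₀) :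
    taylorAt z₀ (F + G) = taylorAt z₀ F + taylorAt z₀ G :=
  taylor0_add (analyticAt_shift hF) (analyticAt_shift hG)

lemma taylorAt_mul {z₀ : ℂ} {F G : ℂ → ℂ} (hF : AnalyticAt ℂ F z₀) (hG : AnalyticAt ℂ G z₀) :
    taylorAt z₀ (F * G) = taylorAt z₀ F * taylorAt z₀ G :=
  taylor0_mul (analyticAt_shift hF) (analyticAt_shift hG)

lemma taylorAt_pow {z₀ : ℂ} {F : ℂ → ℂ} (hF : AnalyticAt ℂ F z₀) (n : ℕ) :
    taylorAt z₀ (F ^ n) = taylorAt z₀ F ^ n :=
  taylor0_pow (analyticAt_shift hF) n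

lemma taylorAt_const (z₀ c : ℂ) : taylorAt z₀ (fun _ => c) = PowerSeries.C c :=
  taylor0_const c

lemma taylorAt_sub_const (z₀ : ℂ) : taylorAt z₀ (fun z => z - z₀) = PowerSeries.X := by
  unfold taylorAt
  simp only [add_sub_cancel_left]
  exact taylor0_id

lemma constantCoeff_taylorAt (z₀ : ℂ) (F : ℂ → ℂ) :
    PowerSeries.constantCoeff (taylorAt z₀ F) = F z₀ := by
  rw [taylorAt, constantCoeff_taylor0, add_zero]

/-- The Taylor series of a function with `F - F z₀` of order exactly `e` at `z₀`. -/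
theorem taylorAt_eq_of_order {z₀ : ℂ} {F : ℂ → ℂ} (hF : AnalyticAt ℂ F z₀) {e : ℕ}
    (he : analyticOrderAt (fun z => F z - F z₀) z₀ = e) :
    ∃ u : PowerSeries ℂ, PowerSeries.constantCoeff u ≠ 0 ∧
      taylorAt z₀ F = PowerSeries.C (F z₀) + PowerSeries.X ^ e * u := by
  obtain ⟨g, hg, hg0, hfg⟩ := (hF.sub analyticAt_const).analyticOrderAt_eq_natCast.mp he
  refine ⟨taylorAt z₀ g, by rwa [constantCoeff_taylorAt], ?_⟩
  have hcongr : F =ᶠ[𝓝 z₀] (fun _ => F z₀) + (fun z => z - z₀) ^ e * g := by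
    filter_upwards [hfg] with z hz
    simp only [Pi.add_apply, Pi.mul_apply, Pi.pow_apply]
    rw [smul_eq_mul, Pi.sub_apply] at hz
    rw [← hz]
    ring
  have hid : AnalyticAt ℂ (fun z : ℂ => z - z₀) z₀ := analyticAt_id.sub analyticAt_const
  rw [taylorAt_congr hcongr, taylorAt_add analyticAt_const ((hid.pow e).mul hg),
    taylorAt_mul (hid.pow e) hg, taylorAt_pow hid, taylorAt_const, taylorAt_sub_const]

/-! ### The algebra of functions analytic at a point -/

/-- Functions `ℂ → ℂ` analytic at `z₀`. -/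
def analyticAlg (z₀ : ℂ) : Subalgebra ℂ (ℂ → ℂ) where
  carrier := {F | AnalyticAt ℂ F z₀}
  mul_mem' := fun hF hG => hF.mul hG
  add_mem' := fun hF hG => hF.add hG
  algebraMap_mem' := fun _ => analyticAt_const

/-- Taylor expansion at `z₀` as an algebra homomorphism. -/
noncomputable def taylorHom (z₀ : ℂ) : analyticAlg z₀ →ₐ[ℂ] PowerSeries ℂ where
  toFun F := taylorAt z₀ F.1
  map_one' := taylorAt_const z₀ 1
  map_mul' F G := taylorAt_mul F.2 G.2
  map_zero' := by
    have := taylorAt_const z₀ 0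
    simpa using! this
  map_add' F G := taylorAt_add F.2 G.2
  commutes' c := by
    rw [PowerSeries.algebraMap_apply, Algebra.algebraMap_self, RingHom.id_apply]
    exact taylorAt_const z₀ c

@[simp] lemma taylorHom_apply (z₀ : ℂ) (F : analyticAlg z₀) : taylorHom z₀ F = taylorAt z₀ F.1 :=
  rfl

/-- Evaluation at a point, on `analyticAlg z₀`. -/
def evalAlg (z₀ s : ℂ) : analyticAlg z₀ →+* ℂ :=
  (Pi.evalRingHom (fun _ : ℂ => ℂ) s).comp (analyticAlg z₀).val.toRingHom

@[simp] lemma evalAlg_apply (z₀ s : ℂ) (F : analyticAlg z₀) : evalAlg z₀ s F = F.1 s := rfl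

/-- Polynomials over `analyticAlg z₀` are determined by their pointwise evaluations. -/
lemma analyticAlg_poly_ext {z₀ : ℂ} {p q : (analyticAlg z₀)[X]}
    (h : ∀ s, p.map (evalAlg z₀ s) = q.map (evalAlg z₀ s)) : p = q := by
  ext k : 1
  apply Subtype.ext
  funext s
  have := congrArg (fun r => Polynomial.coeff r k) (h s)
  simpa only [coeff_map, evalAlg_apply] using this

/-! ### The order of `j - j(z₀)` in terms of the value `j(z₀)` -/

open Fermat.Agent.M2 Fermat.Agent.M2.JOrder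
open ModularGroup MulAction
open scoped MatrixGroups Modular

/-- The ramification index of `j : ℍ → ℂ` over the value `c`: `3` over `0`, `2` over `1728`,
`1` elsewhere. -/
noncomputable def eJ (c : ℂ) : ℕ := if c = 0 then 3 else if c = 1728 then 2 else 1

lemma eJ_ne_zero (c : ℂ) : eJ c ≠ 0 := by
  unfold eJ
  split_ifs <;> norm_num

lemma eJ_zero : eJ 0 = 3 := by simp [eJ]

lemma eJ_1728 : eJ 1728 = 2 := by norm_num [eJ]

lemma eJ_of_ne {c : ℂ} (h0 : c ≠ 0) (h1 : c ≠ 1728) : eJ c = 1 := by simp [eJ, h0, h1]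

lemma jH_I : jH I = 1728 := FibreOrbits.jInv_I

lemma jH_rho : jH ρ = 0 := FibreOrbits.jInv_rho

/-- The order of vanishing of `j - j(z₀)` at `z₀` is `eJ (j z₀)`. -/
theorem analyticOrderAt_jC_sub_eq_eJ (z₀ : ℍ) :
    analyticOrderAt (fun s => jC s - jC z₀) (z₀ : ℂ) = ((eJ (jH z₀) : ℕ) : ℕ∞) := by
  rw [analyticOrderAt_jC_sub]
  congr 1
  rcases Elliptic.trichotomy z₀ with ⟨γ, hγ⟩ | ⟨γ, hγ⟩ | h
  · have hj : jH z₀ = 1728 := by rw [← jH_smul γ z₀, hγ, jH_I]
    rw [Elliptic.card_stabilizer_of_smul_eq_I hγ, hj, eJ_1728]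
  · have hj : jH z₀ = 0 := by rw [← jH_smul γ z₀, hγ, jH_rho]
    rw [Elliptic.card_stabilizer_of_smul_eq_rho hγ, hj, eJ_zero]
  · have hcard := Elliptic.card_stabilizer_of_forall h
    have h0 : jH z₀ ≠ 0 := by
      intro hj
      obtain ⟨γ, hγ⟩ := (jH_eq_iff z₀ ρ).mp (hj.trans jH_rho.symm)
      have := Elliptic.card_stabilizer_of_smul_eq_rho hγ.symm
      omega
    have h1 : jH z₀ ≠ 1728 := by
      intro hj
      obtain ⟨γ, hγ⟩ := (jH_eq_iff z₀ I).mp (hj.trans jH_I.symm)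
      have := Elliptic.card_stabilizer_of_smul_eq_I hγ.symm
      omega
    rw [hcard, eJ_of_ne h0 h1]

/-- **Taylor expansion of `j` at `z₀ : ℍ`**: `j(z₀) + s^e u`, `u(0) ≠ 0`, `e = eJ (j z₀)`. -/
theorem taylorAt_jC (z₀ : ℍ) :
    ∃ u : PowerSeries ℂ, PowerSeries.constantCoeff u ≠ 0 ∧
      taylorAt (z₀ : ℂ) jC = PowerSeries.C (jH z₀) + PowerSeries.X ^ eJ (jH z₀) * u := by
  have h := taylorAt_eq_of_order (analyticAt_jC z₀) (analyticOrderAt_jC_sub_eq_eJ z₀)
  rwa [jC_coe] at h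

/-! ### Splitting over holomorphic functions and its Taylor expansion -/

open scoped Manifold

/-- `Φ(j(z), X) ∈ ℂ[X]` (outer variable `X ↔ j_N`, inner variable `↔ j`) splits into linear
factors whose roots are holomorphic functions of `z ∈ ℍ`.  This is exactly the conclusion of
`M2.CosetPoly.exists_cosetPoly` (`jH z = E₄ z ^ 3 / Δ z` by `rfl`). -/
def SplitsOverHol (Φ : ℂ[X][X]) : Prop :=
  ∃ (I : Type) (_ : Fintype I) (g : I → ℍ → ℂ), (∀ i, MDiff (g i)) ∧
    ∀ z : ℍ, Φ.map (evalRingHom (jH z)) = ∏ i, (X - C (g i z))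

/-- If `Φ(j(z), X)` splits over holomorphic functions then `Φ(T_{z₀} j, X)` splits over `ℂ⟦s⟧`,
`T_{z₀}` the Taylor expansion at `z₀ : ℍ`. -/
theorem SplitsOverHol.map_taylorAt {Φ : ℂ[X][X]} (h : SplitsOverHol Φ) (z₀ : ℍ) :
    ∃ (I : Type) (_ : Fintype I) (r : I → PowerSeries ℂ),
      Φ.map ((aeval (taylorAt (z₀ : ℂ) jC)).toRingHom : ℂ[X] →+* PowerSeries ℂ) =
        ∏ i, (X - C (r i)) := by
  obtain ⟨I, hI, g, hg, hΦ⟩ := h
  let J₀ : analyticAlg (z₀ : ℂ) := ⟨jC, analyticAt_jC z₀⟩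
  let G : I → analyticAlg (z₀ : ℂ) := fun i =>
    ⟨g i ∘ ofComplex, OrdVal.analyticAt_comp_ofComplex (hg i) z₀⟩
  have hid : Φ.map ((aeval J₀).toRingHom : ℂ[X] →+* analyticAlg (z₀ : ℂ)) =
      ∏ i, (X - C (G i)) := by
    apply analyticAlg_poly_ext
    intro s
    rw [Polynomial.map_map, Polynomial.map_prod]
    have hcomp : (evalAlg (z₀ : ℂ) s).comp
        ((aeval J₀).toRingHom : ℂ[X] →+* analyticAlg (z₀ : ℂ)) =
        evalRingHom (jH (ofComplex s)) := by
      refine Polynomial.ringHom_ext (fun a => ?_) ?_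
      · simp only [RingHom.comp_apply, AlgHom.toRingHom_eq_coe, RingHom.coe_coe, aeval_C,
          coe_evalRingHom, eval_C]
        rfl
      · simp only [RingHom.comp_apply, AlgHom.toRingHom_eq_coe, RingHom.coe_coe, aeval_X,
          coe_evalRingHom, eval_X]
        rfl
    rw [hcomp, hΦ (ofComplex s)]
    refine Finset.prod_congr rfl fun i _ => ?_
    rw [Polynomial.map_sub, Polynomial.map_X, Polynomial.map_C]
    rfl
  refine ⟨I, hI, fun i => taylorAt (z₀ : ℂ) (g i ∘ ofComplex), ?_⟩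
  have h2 := congrArg (Polynomial.map ((taylorHom (z₀ : ℂ)).toRingHom)) hid
  rw [Polynomial.map_map, Polynomial.map_prod] at h2
  have hcomp2 : ((taylorHom (z₀ : ℂ)).toRingHom).comp
      ((aeval J₀).toRingHom : ℂ[X] →+* analyticAlg (z₀ : ℂ)) =
      ((aeval (taylorAt (z₀ : ℂ) jC)).toRingHom : ℂ[X] →+* PowerSeries ℂ) := by
    refine Polynomial.ringHom_ext (fun a => ?_) ?_
    · simp only [RingHom.comp_apply, AlgHom.toRingHom_eq_coe, RingHom.coe_coe, aeval_C,
        AlgHom.commutes]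
    · simp only [RingHom.comp_apply, AlgHom.toRingHom_eq_coe, RingHom.coe_coe, aeval_X]
      rfl
  rw [hcomp2] at h2
  rw [h2]
  refine Finset.prod_congr rfl fun i _ => ?_
  rw [Polynomial.map_sub, Polynomial.map_X, Polynomial.map_C]
  rfl

end Fermat.Agent.N4.Char0
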