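/-
N4, block L3 (helper6), part 1: an abstract criterion for a prime of an integral closure to be
unramified (residue characteristic `0`), in "embedding form".

Let `A` be a Dedekind domain containing `ℚ`, `E = Frac A`, `L/E` finite, `C` the integral closure
of `A` in `L`, `P ≠ ⊥` a prime of `C`.  Suppose there are a valued field `(M, v)` and an embedding
`ι : E → M` such that `ι A ⊆ 𝒪_v`, `ι (P ∩ A) ⊆ 𝔪_v`, some `π ∈ P ∩ A` is a uniformiser of `𝒪_v`
(`𝔪_v = ι π · 𝒪_v`), and `L = E(θ)` where the minimal polynomial of `θ` splits in `M`.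
Then `C` is unramified at `P` over `A`.

Proof: if all conjugates `σ x` (`σ : L →ₐ[E] M`) of `x ∈ C` lie in `𝔪_v`, then all conjugates of
`x / π` lie in `𝒪_v`, so the minimal polynomial of `x / π` has coefficients in `ι⁻¹ 𝒪_v = A_𝔭`,
hence `x ∈ 𝔭 C`.  So `𝔭 C` is a radical ideal, i.e. `e = 1`.
-/
import Mathlib

set_option autoImplicit false

namespace Fermat.Agent.N4.Char0

open Polynomial IntermediateField

section Conj

variable {E L M : Type*} [Field E] [Field L] [Field M] [Algebra E L] [Algebra E M]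
  [FiniteDimensional E L]

/-- If `L = E(θ)` and the minimal polynomial of `θ` splits in `M`, all minimal polynomials of
elements of `L` split in `M`. -/
theorem splits_minpoly_of_adjoin_eq_top {θ : L} (hθ : E⟮θ⟯ = ⊤)
    (hs : ((minpoly E θ).map (algebraMap E M)).Splits) (x : L) :
    ((minpoly E x).map (algebraMap E M)).Splits := by
  refine splits_of_mem_adjoin E L (S := {θ}) (fun y hy => ?_) (hθ ▸ mem_top)
  rw [Set.mem_singleton_iff] at hy
  subst hy
  exact ⟨Algebra.IsIntegral.isIntegral y, hs⟩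

/-- If all conjugates of `y` in `M` are `v`-integral, so are the coefficients of the minimal
polynomial of `y`. -/
theorem coeff_minpoly_mem_integer {Γ₀ : Type*} [LinearOrderedCommGroupWithZero Γ₀]
    (v : Valuation M Γ₀)
    (hall : ∀ x : L, ((minpoly E x).map (algebraMap E M)).Splits) (y : L)
    (hy : ∀ σ : L →ₐ[E] M, v (σ y) ≤ 1) (k : ℕ) :
    v (algebraMap E M ((minpoly E y).coeff k)) ≤ 1 := by
  have hint : IsIntegral E y := Algebra.IsIntegral.isIntegral y
  have hmon : ((minpoly E y).map (algebraMap E M)).Monic := (minpoly.monic hint).map _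
  have hroots : ∀ a ∈ ((minpoly E y).map (algebraMap E M)).roots,
      a ∈ (v.integer.subtype).range := by
    intro a ha
    have ha' : aeval a (minpoly E y) = 0 := by
      rw [mem_roots hmon.ne_zero, IsRoot.def, eval_map_algebraMap] at ha
      exact ha
    obtain ⟨σ, hσ⟩ := exists_algHom_of_splits_of_aeval
      (fun x => ⟨Algebra.IsIntegral.isIntegral x, hall x⟩) ha'
    refine ⟨⟨a, ?_⟩, rfl⟩
    rw [Valuation.mem_integer_iff, ← hσ]
    exact hy σ
  have hl := (hall y).mem_lift_of_roots_mem_range hmon v.integer.subtype hroots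
  rw [lifts_iff_coeff_lifts] at hl
  obtain ⟨c, hc⟩ := hl k
  rw [coeff_map] at hc
  rw [← hc]
  exact c.2

end Conj

section Denominator

open scoped nonZeroDivisors

variable {A E M Γ₀ : Type*} [CommRing A] [IsDedekindDomain A] [Field E] [Algebra A E]
  [IsFractionRing A E] [Field M] [LinearOrderedCommGroupWithZero Γ₀]
  (v : Valuation M Γ₀) (ι : E →+* M) (𝔭 : Ideal A)

/-- `ι⁻¹ 𝒪_v ⊆ A_𝔭` when `ι A ⊆ 𝒪_v` and `ι 𝔭 ⊆ 𝔪_v`: every `z` with `v (ι z) ≤ 1` has a
denominator outside `𝔭`. -/
theorem exists_denominator_notMem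
    (hA : ∀ a : A, v (ι (algebraMap A E a)) ≤ 1)
    (hp : ∀ a ∈ 𝔭, v (ι (algebraMap A E a)) < 1)
    (z : E) (hz : v (ι z) ≤ 1) :
    ∃ s : A, s ∉ 𝔭 ∧ ∃ a : A, algebraMap A E s * z = algebraMap A E a := by
  classical
  by_contra hcon
  push Not at hcon
  let I : FractionalIdeal A⁰ E := 1 + FractionalIdeal.spanSingleton A⁰ z
  have h1I : (1 : E) ∈ I := by
    have : (1 : E) ∈ (1 : FractionalIdeal A⁰ E) := FractionalIdeal.one_mem_one _
    exact (FractionalIdeal.mem_coe).mp (by
      rw [FractionalIdeal.coe_add]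
      exact Submodule.mem_sup_left this)
  have hzI : z ∈ I := by
    have : z ∈ FractionalIdeal.spanSingleton A⁰ z := FractionalIdeal.mem_spanSingleton_self _ _
    exact (FractionalIdeal.mem_coe).mp (by
      rw [FractionalIdeal.coe_add]
      exact Submodule.mem_sup_right this)
  have hI : I ≠ 0 := by
    intro h0
    rw [h0] at h1I
    exact one_ne_zero ((FractionalIdeal.mem_zero_iff A⁰).mp h1I)
  have h1 : (1 : E) ∈ I * I⁻¹ := by
    rw [mul_inv_cancel₀ hI]
    exact FractionalIdeal.one_mem_one _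
  have key : v (ι 1) < 1 := by
    refine FractionalIdeal.mul_induction_on h1 ?_ ?_
    · intro i hi j hj
      have hi' : v (ι i) ≤ 1 := by
        have hi2 : i ∈ ((1 : FractionalIdeal A⁰ E) : Submodule A E) ⊔
            (FractionalIdeal.spanSingleton A⁰ z : Submodule A E) := by
          have hi3 : i ∈ (I : Submodule A E) := hi
          rwa [FractionalIdeal.coe_add] at hi3
        obtain ⟨x, hx, y, hy, rfl⟩ := Submodule.mem_sup.mp hi2
        obtain ⟨a, rfl⟩ := (FractionalIdeal.mem_one_iff A⁰).mp hx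
        obtain ⟨b, rfl⟩ := (FractionalIdeal.mem_spanSingleton A⁰).mp hy
        rw [map_add]
        refine (v.map_add _ _).trans (max_le (hA a) ?_)
        rw [Algebra.smul_def, map_mul, map_mul]
        exact mul_le_one' (hA b) hz
      have hj' : v (ι j) < 1 := by
        rw [FractionalIdeal.mem_inv_iff hI] at hj
        obtain ⟨d, hd⟩ := (FractionalIdeal.mem_one_iff A⁰).mp (hj 1 h1I)
        obtain ⟨a, ha⟩ := (FractionalIdeal.mem_one_iff A⁰).mp (hj z hzI)
        rw [mul_one] at hd
        have hd𝔭 : d ∈ 𝔭 := by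
          by_contra hdn
          exact hcon d hdn a (by rw [hd, ha])
        rw [← hd]
        exact hp d hd𝔭
      rw [map_mul, map_mul]
      exact mul_lt_one_of_nonneg_of_lt_one_right hi' zero_le hj'
    · intro x y hx hy
      rw [map_add]
      exact lt_of_le_of_lt (v.map_add _ _) (max_lt hx hy)
  rw [map_one, map_one] at key
  exact lt_irrefl _ key

end Denominator

section Key

variable {A E L C M Γ₀ : Type*} [CommRing A] [IsDedekindDomain A] [Field E] [Algebra A E]
  [IsFractionRing A E] [Field L] [Algebra E L] [FiniteDimensional E L] [Algebra A L]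
  [IsScalarTower A E L] [CommRing C] [Algebra A C] [Algebra C L] [IsScalarTower A C L]
  [IsIntegralClosure C A L] [Field M] [Algebra E M] [LinearOrderedCommGroupWithZero Γ₀]
  (v : Valuation M Γ₀) (𝔭 : Ideal A) [𝔭.IsPrime]

omit [Algebra A C] [IsScalarTower A C L] in
/-- **Key lemma.** If all conjugates of `y ∈ L` in `M` are `v`-integral then `y ∈ C_𝔭`: some
multiple `s y`, `s ∉ 𝔭`, lies in the integral closure `C`. -/
theorem exists_mul_eq_algebraMap_of_conj
    (hA : ∀ a : A, v (algebraMap E M (algebraMap A E a)) ≤ 1)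
    (hp : ∀ a ∈ 𝔭, v (algebraMap E M (algebraMap A E a)) < 1)
    (hall : ∀ x : L, ((minpoly E x).map (algebraMap E M)).Splits) (y : L)
    (hy : ∀ σ : L →ₐ[E] M, v (σ y) ≤ 1) :
    ∃ s : A, s ∉ 𝔭 ∧ ∃ c : C, algebraMap A L s * y = algebraMap C L c := by
  classical
  set f := minpoly E y with hf
  have hint : IsIntegral E y := Algebra.IsIntegral.isIntegral y
  have hmon : f.Monic := minpoly.monic hint
  have hden : ∀ k, ∃ s : A, s ∉ 𝔭 ∧ ∃ a : A,
      algebraMap A E s * f.coeff k = algebraMap A E a := fun k =>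
    exists_denominator_notMem v (algebraMap E M) 𝔭 hA hp _
      (coeff_minpoly_mem_integer v hall y hy k)
  choose s hs a ha using hden
  set d := f.natDegree with hd
  set S := ∏ k ∈ Finset.range d, s k with hSdef
  have hS : S ∉ 𝔭 := by
    rw [Ideal.IsPrime.prod_mem_iff]
    push Not
    exact fun k _ => hs k
  refine ⟨S, hS, ?_⟩
  have hlift : f.scaleRoots (algebraMap A E S) ∈ lifts (algebraMap A E) := by
    rw [lifts_iff_coeff_lifts]
    intro k
    rw [coeff_scaleRoots]
    rcases lt_trichotomy k d with hk | hk | hk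
    · obtain ⟨t, ht⟩ : s k ∣ S := Finset.dvd_prod_of_mem _ (Finset.mem_range.mpr hk)
      have hSE : algebraMap A E S = algebraMap A E (s k) * algebraMap A E t := by
        rw [← map_mul, ← ht]
      obtain ⟨m, hm⟩ : ∃ m, f.natDegree - k = m + 1 := ⟨d - k - 1, by omega⟩
      refine ⟨a k * t * S ^ m, ?_⟩
      rw [hm, pow_succ, map_mul, map_mul, map_pow, ← ha k]
      linear_combination (-(f.coeff k * algebraMap A E S ^ m)) * hSE
    · refine ⟨1, ?_⟩
      rw [hk, hd, tsub_self, pow_zero, mul_one, map_one]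
      exact hmon.coeff_natDegree.symm
    · exact ⟨0, by rw [coeff_eq_zero_of_natDegree_lt hk, zero_mul, map_zero]⟩
  obtain ⟨q, hq, -, hqm⟩ :=
    lifts_and_degree_eq_and_monic hlift ((monic_scaleRoots_iff _).mpr hmon)
  have hroot : eval₂ (algebraMap A L) (algebraMap A L S * y) q = 0 := by
    have h0 : aeval (algebraMap E L (algebraMap A E S) * y)
        (f.scaleRoots (algebraMap A E S)) = 0 :=
      scaleRoots_aeval_eq_zero (minpoly.aeval E y)
    rw [← hq, aeval_def, eval₂_map, ← IsScalarTower.algebraMap_eq,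
      ← IsScalarTower.algebraMap_apply] at h0
    exact h0
  have hI : IsIntegral A (algebraMap A L S * y) := ⟨q, hqm, hroot⟩
  obtain ⟨c, hc⟩ := (IsIntegralClosure.isIntegral_iff (A := C)).mp hI
  exact ⟨c, hc.symm⟩

end Key

section Integral

variable {A M Γ₀ : Type*} [CommRing A] [Field M] [LinearOrderedCommGroupWithZero Γ₀]
  (v : Valuation M Γ₀)

/-- A root of a monic polynomial with `v`-integral coefficients is `v`-integral. -/
theorem val_le_one_of_eval₂_eq_zero (φ : A →+* M) (hφ : ∀ a, v (φ a) ≤ 1) {x : M} {p : A[X]}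
    (hpm : p.Monic) (hpx : eval₂ φ x p = 0) : v x ≤ 1 := by
  by_cases hn : p.natDegree = 0
  · rw [Polynomial.natDegree_eq_zero] at hn
    obtain ⟨c, rfl⟩ := hn
    have hc : c = 1 := by simpa using hpm.leadingCoeff
    simp [hc] at hpx
  simp only [eval₂_eq_sum_range, Finset.sum_range_succ, hpm.coeff_natDegree, map_one, one_mul,
    add_eq_zero_iff_eq_neg] at hpx
  apply_fun v at hpx
  rw [Valuation.map_neg, map_pow] at hpx
  contrapose! hpx
  refine ne_of_lt (v.map_sum_lt ?_ ?_)
  · simp [hn, (hpx.trans' zero_lt_one).ne']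
  · simp only [Finset.mem_range, map_mul, map_pow]
    intro _ hi
    exact mul_lt_of_le_one_of_lt (hφ _) <| pow_lt_pow_right₀ hpx hi

end Integral

section Dedekind

variable {C : Type*} [CommRing C] [IsDedekindDomain C]

/-- In a Dedekind domain, a nonzero radical ideal is not contained in the square of a prime. -/
theorem not_le_sq_of_radical {I P : Ideal C} [hP : P.IsPrime] (hI0 : I ≠ ⊥) (hIP : I ≤ P)
    (hrad : ∀ x : C, x ^ 2 ∈ I → x ∈ I) : ¬ I ≤ P ^ 2 := by
  intro hle
  obtain ⟨a, ha⟩ : P ∣ I := Ideal.dvd_iff_le.mpr hIP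
  have hP0 : P ≠ ⊥ := by
    rintro rfl
    exact hI0 (le_bot_iff.mp hIP)
  have ha0 : a ≠ ⊥ := by
    rintro rfl
    exact hI0 (by rw [ha, Ideal.mul_bot])
  have haP : a ≤ P := by
    have h1 : P ^ 2 ∣ P * a := ha ▸ Ideal.dvd_iff_le.mpr hle
    rw [pow_two] at h1
    exact Ideal.dvd_iff_le.mp ((mul_dvd_mul_iff_left hP0).mp h1)
  have haI : a ≤ I := by
    intro x hx
    apply hrad
    rw [pow_two, ha]
    exact Ideal.mul_mem_mul (haP hx) hx
  have h2 : P * a ∣ 1 * a := by
    rw [one_mul, ← ha]
    exact Ideal.dvd_iff_le.mpr haI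
  have h3 : P ∣ 1 := (mul_dvd_mul_iff_right ha0).mp h2
  have h4 : (1 : Ideal C) ≤ P := Ideal.dvd_iff_le.mp h3
  exact hP.ne_top (top_le_iff.mp (by rwa [Ideal.one_eq_top] at h4))

end Dedekind

section Main

variable {A E L C M Γ₀ : Type*} [CommRing A] [IsDedekindDomain A] [Field E] [Algebra A E]
  [IsFractionRing A E] [Field L] [Algebra E L] [FiniteDimensional E L] [Algebra A L]
  [IsScalarTower A E L] [CommRing C] [Algebra A C] [Algebra C L] [IsScalarTower A C L]
  [IsIntegralClosure C A L] [Field M] [Algebra E M] [LinearOrderedCommGroupWithZero Γ₀]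
  (v : Valuation M Γ₀) (𝔭 : Ideal A)

omit [IsDedekindDomain A] [IsFractionRing A E] [FiniteDimensional E L]
  [IsIntegralClosure C A L] in
theorem comp_algebraMap_eq (σ : L →ₐ[E] M) :
    ((σ : L →+* M).comp (algebraMap C L)).comp (algebraMap A C) =
      (algebraMap E M).comp (algebraMap A E) := by
  ext a
  simp only [RingHom.comp_apply, RingHom.coe_coe]
  rw [← IsScalarTower.algebraMap_apply A C L, IsScalarTower.algebraMap_apply A E L,
    AlgHom.commutes]

omit [IsDedekindDomain A] [IsFractionRing A E] [FiniteDimensional E L] in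
/-- Conjugates of elements of `C` are `v`-integral. -/
theorem val_conj_le_one (hA : ∀ a : A, v (algebraMap E M (algebraMap A E a)) ≤ 1)
    (σ : L →ₐ[E] M) (c : C) : v (σ (algebraMap C L c)) ≤ 1 := by
  obtain ⟨p, hpm, hpc⟩ := IsIntegralClosure.isIntegral A L c
  refine val_le_one_of_eval₂_eq_zero v ((algebraMap E M).comp (algebraMap A E)) hA hpm ?_
  have h := Polynomial.hom_eval₂ p (algebraMap A C) ((σ : L →+* M).comp (algebraMap C L)) c
  rw [hpc, map_zero, comp_algebraMap_eq] at h
  exact h.symm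

omit [IsDedekindDomain A] [IsFractionRing A E] [FiniteDimensional E L] in
/-- Conjugates of elements of `𝔭 C` lie in the maximal ideal of `v`. -/
theorem val_conj_lt_one (hA : ∀ a : A, v (algebraMap E M (algebraMap A E a)) ≤ 1)
    (hp : ∀ a ∈ 𝔭, v (algebraMap E M (algebraMap A E a)) < 1)
    (σ : L →ₐ[E] M) {c : C} (hc : c ∈ 𝔭.map (algebraMap A C)) :
    v (σ (algebraMap C L c)) < 1 := by
  unfold Ideal.map at hc
  refine Submodule.span_induction (p := fun c _ => v (σ (algebraMap C L c)) < 1)
    ?_ ?_ ?_ ?_ hc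
  · rintro _ ⟨a, ha, rfl⟩
    have h := congrArg (fun f : A →+* M => f a) (comp_algebraMap_eq (C := C) σ)
    simp only [RingHom.comp_apply, RingHom.coe_coe] at h
    rw [h]
    exact hp a ha
  · simp
  · intro x y _ _ hx hy
    rw [map_add, map_add]
    exact lt_of_le_of_lt (v.map_add _ _) (max_lt hx hy)
  · intro r x _ hx
    rw [smul_eq_mul, map_mul, map_mul, map_mul]
    exact mul_lt_one_of_nonneg_of_lt_one_right (val_conj_le_one v hA σ r) zero_le hx

/-- **`𝔭 C` is a radical ideal** (in the presence of a splitting valued field in which a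
uniformiser of `𝔭` stays a uniformiser). -/
theorem mem_map_of_sq_mem [h𝔭 : 𝔭.IsMaximal]
    (hA : ∀ a : A, v (algebraMap E M (algebraMap A E a)) ≤ 1)
    (hp : ∀ a ∈ 𝔭, v (algebraMap E M (algebraMap A E a)) < 1)
    {π : A} (hπ𝔭 : π ∈ 𝔭) (hπ0 : π ≠ 0)
    (hπ : ∀ m : M, v m < 1 → v m ≤ v (algebraMap E M (algebraMap A E π)))
    (hall : ∀ x : L, ((minpoly E x).map (algebraMap E M)).Splits)
    {x : C} (hx : x ^ 2 ∈ 𝔭.map (algebraMap A C)) : x ∈ 𝔭.map (algebraMap A C) := by
  have hπE : algebraMap A E π ≠ 0 := by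
    rw [Ne, map_eq_zero_iff _ (IsFractionRing.injective A E)]
    exact hπ0
  have hπM0 : algebraMap E M (algebraMap A E π) ≠ 0 := by
    rw [Ne, map_eq_zero]
    exact hπE
  have hπL : algebraMap A L π ≠ 0 := by
    rw [IsScalarTower.algebraMap_apply A E L, Ne, map_eq_zero]
    exact hπE
  have hvπ : 0 < v (algebraMap E M (algebraMap A E π)) :=
    lt_of_le_of_ne zero_le ((Valuation.ne_zero_iff v).mpr hπM0).symm
  have hy : ∀ σ : L →ₐ[E] M, v (σ (algebraMap C L x / algebraMap A L π)) ≤ 1 := by
    intro σ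
    have h1 : v (σ (algebraMap C L x)) < 1 := by
      have h2 := val_conj_lt_one v 𝔭 hA hp σ hx
      rw [map_pow, map_pow, map_pow] at h2
      by_contra hge
      push Not at hge
      exact absurd h2 (not_lt.mpr (one_le_pow₀ hge))
    have h3 := hπ _ h1
    have hσπ : σ (algebraMap A L π) = algebraMap E M (algebraMap A E π) := by
      rw [IsScalarTower.algebraMap_apply A E L, AlgHom.commutes]
    rw [map_div₀, hσπ, map_div₀]
    exact (div_le_one₀ hvπ).mpr h3
  obtain ⟨s, hs, c, hc⟩ := exists_mul_eq_algebraMap_of_conj (C := C) v 𝔭 hA hp hall _ hy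
  have hsx : algebraMap A C s * x = algebraMap A C π * c := by
    apply IsIntegralClosure.algebraMap_injective C A L
    rw [map_mul, map_mul, ← IsScalarTower.algebraMap_apply, ← IsScalarTower.algebraMap_apply,
      ← hc]
    field_simp
  obtain ⟨a, b, hb, hab⟩ := h𝔭.exists_inv hs
  have hx' : x = algebraMap A C a * (algebraMap A C π * c) + algebraMap A C b * x := by
    rw [← hsx, ← mul_assoc, ← add_mul, ← map_mul, ← map_add, hab, map_one, one_mul]
  rw [hx']
  refine Ideal.add_mem _ (Ideal.mul_mem_left _ _ (Ideal.mul_mem_right _ _ ?_))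
    (Ideal.mul_mem_right _ _ ?_)
  · exact Ideal.mem_map_of_mem _ hπ𝔭
  · exact Ideal.mem_map_of_mem _ hb

/-- Basic instances for the integral closure `C` of a Dedekind `ℚ`-algebra `A` in a finite
extension `L` of its fraction field `E`. -/
theorem closure_instances [Algebra ℚ A] :
    CharZero E ∧ Algebra.IsSeparable E L ∧ IsDomain C ∧ IsDedekindDomain C ∧ Module.Finite A C ∧
      Module.IsTorsionFree A C ∧ Algebra.IsIntegral A C := by
  have hE : CharZero E :=
    charZero_of_injective_ringHom (((algebraMap A E).comp (algebraMap ℚ A)).injective)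
  have hsep : Algebra.IsSeparable E L := inferInstance
  have hdom : IsDomain C := (IsIntegralClosure.algebraMap_injective C A L).isDomain
  have hded : IsDedekindDomain C := IsIntegralClosure.isDedekindDomain A E L C
  have hfin : Module.Finite A C := IsIntegralClosure.finite A E L C
  have hinj : Function.Injective (algebraMap A L) := by
    rw [IsScalarTower.algebraMap_eq A E L]
    exact (algebraMap E L).injective.comp (IsFractionRing.injective A E)
  have hfs : FaithfulSMul A L := (faithfulSMul_iff_algebraMap_injective A L).mpr hinj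
  have htfL : Module.IsTorsionFree A L := inferInstance
  have htf : Module.IsTorsionFree A C := IsIntegralClosure.isTorsionFree A L
  exact ⟨hE, hsep, hdom, hded, hfin, htf, IsIntegralClosure.isIntegral_algebra A L⟩

/-- **(TS), ramification-index form.** `𝔭 C ⊄ P²` for `𝔭 = P ∩ A`. -/
theorem not_map_le_sq_of_splits [Algebra ℚ A] (P : Ideal C) [hP : P.IsPrime] (hP0 : P ≠ ⊥)
    (hA : ∀ a : A, v (algebraMap E M (algebraMap A E a)) ≤ 1)
    (hp : ∀ a : A, algebraMap A C a ∈ P → v (algebraMap E M (algebraMap A E a)) < 1)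
    {π : A} (hπP : algebraMap A C π ∈ P) (hπ0 : π ≠ 0)
    (hπ : ∀ m : M, v m < 1 → v m ≤ v (algebraMap E M (algebraMap A E π)))
    {θ : L} (hθ : E⟮θ⟯ = ⊤) (hsplit : ((minpoly E θ).map (algebraMap E M)).Splits) :
    ¬ (P.under A).map (algebraMap A C) ≤ P ^ 2 := by
  obtain ⟨-, -, hdom, hded, -, htf, hint⟩ := closure_instances (A := A) (E := E) (L := L) (C := C)
  have h𝔭0 : P.under A ≠ ⊥ := mt Ideal.eq_bot_of_comap_eq_bot hP0
  have h𝔭max : (P.under A).IsMaximal := Ideal.IsPrime.isMaximal inferInstance h𝔭0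
  have hmap0 : (P.under A).map (algebraMap A C) ≠ ⊥ :=
    (Ideal.map_eq_bot_iff_of_injective (FaithfulSMul.algebraMap_injective A C)).not.mpr h𝔭0
  refine not_le_sq_of_radical hmap0 Ideal.map_comap_le fun x hx => ?_
  exact mem_map_of_sq_mem v (P.under A) hA (fun a ha => hp a ha) (π := π) hπP hπ0 hπ
    (splits_minpoly_of_adjoin_eq_top hθ hsplit) hx

attribute [local instance] Ideal.Quotient.field in
/-- **(TS)** The abstract unramifiedness criterion in embedding form. -/
theorem isUnramifiedAt_of_splits [Algebra ℚ A] (P : Ideal C) [hP : P.IsPrime] (hP0 : P ≠ ⊥)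
    (hA : ∀ a : A, v (algebraMap E M (algebraMap A E a)) ≤ 1)
    (hp : ∀ a : A, algebraMap A C a ∈ P → v (algebraMap E M (algebraMap A E a)) < 1)
    {π : A} (hπP : algebraMap A C π ∈ P) (hπ0 : π ≠ 0)
    (hπ : ∀ m : M, v m < 1 → v m ≤ v (algebraMap E M (algebraMap A E π)))
    {θ : L} (hθ : E⟮θ⟯ = ⊤) (hsplit : ((minpoly E θ).map (algebraMap E M)).Splits) :
    Algebra.IsUnramifiedAt A P := by
  obtain ⟨-, -, hdom, hded, hfin, htf, hint⟩ :=
    closure_instances (A := A) (E := E) (L := L) (C := C)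
  have hsq := not_map_le_sq_of_splits v P hP0 hA hp hπP hπ0 hπ hθ hsplit
  have h𝔭0 : P.under A ≠ ⊥ := mt Ideal.eq_bot_of_comap_eq_bot hP0
  have h𝔭max : (P.under A).IsMaximal := Ideal.IsPrime.isMaximal inferInstance h𝔭0
  have hPmax : P.IsMaximal := Ideal.IsPrime.isMaximal inferInstance hP0
  let _ := Localization.AtPrime.algebraOfLiesOver (P.under A) P
  rw [Algebra.isUnramifiedAt_iff_map_eq (p := P.under A)]
  constructor
  · suffices Algebra.IsSeparable (A ⧸ P.under A) (C ⧸ P) by infer_instance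
    have hchar : CharZero (A ⧸ P.under A) := algebraRat.charZero _
    have halg : Algebra.IsAlgebraic (A ⧸ P.under A) (C ⧸ P) := inferInstance
    infer_instance
  · rw [← Ideal.IsDedekindDomain.ramificationIdx'_eq_one_iff hP0 Ideal.map_comap_le]
    apply Ideal.ramificationIdx'_spec
    · simp [Ideal.map_le_iff_le_comap]
    · exact hsq

attribute [local instance] FractionRing.liftAlgebra FractionRing.isScalarTower_liftAlgebra

variable (E L) in
include E L in
/-- If every nonzero prime of `C` is unramified over `A`, the different ideal is trivial. -/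
theorem differentIdeal_eq_top_of_forall_isUnramifiedAt [Algebra ℚ A] [IsDedekindDomain C]
    [Module.IsTorsionFree A C]
    (h : ∀ (P : Ideal C) [P.IsPrime], P ≠ ⊥ → Algebra.IsUnramifiedAt A P) :
    differentIdeal A C = ⊤ := by
  obtain ⟨hE, -, -, -, hfin, -, hint⟩ :=
    closure_instances (A := A) (E := E) (L := L) (C := C)
  have hA0 : CharZero A := algebraRat.charZero _
  have hFA : CharZero (FractionRing A) :=
    charZero_of_injective_algebraMap (IsFractionRing.injective A (FractionRing A))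
  have hsep : Algebra.IsSeparable (FractionRing A) (FractionRing C) := inferInstance
  by_contra hne
  obtain ⟨P, hPmax, hle⟩ := Ideal.exists_le_maximal _ hne
  have hPprime : P.IsPrime := hPmax.isPrime
  have hP0 : P ≠ ⊥ := by
    rintro rfl
    exact differentIdeal_ne_bot (A := A) (B := C) (le_bot_iff.mp hle)
  have hun := h P hP0
  exact (not_dvd_differentIdeal_iff (A := A)).mpr hun (Ideal.dvd_iff_le.mpr hle)

end Main

section RingHomForm

variable {A E L C M Γ₀ : Type*} [CommRing A] [IsDedekindDomain A] [Field E] [Algebra A E]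
  [IsFractionRing A E] [Field L] [Algebra E L] [FiniteDimensional E L] [Algebra A L]
  [IsScalarTower A E L] [CommRing C] [Algebra A C] [Algebra C L] [IsScalarTower A C L]
  [IsIntegralClosure C A L] [Field M] [LinearOrderedCommGroupWithZero Γ₀]

/-- **(TS)**, with the embedding `ι : E →+* M` given as a ring homomorphism. -/
theorem isUnramifiedAt_of_splits' [Algebra ℚ A] (v : Valuation M Γ₀) (ι : E →+* M)
    (P : Ideal C) [hP : P.IsPrime] (hP0 : P ≠ ⊥)
    (hA : ∀ a : A, v (ι (algebraMap A E a)) ≤ 1)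
    (hp : ∀ a : A, algebraMap A C a ∈ P → v (ι (algebraMap A E a)) < 1)
    {π : A} (hπP : algebraMap A C π ∈ P) (hπ0 : π ≠ 0)
    (hπ : ∀ m : M, v m < 1 → v m ≤ v (ι (algebraMap A E π)))
    {θ : L} (hθ : E⟮θ⟯ = ⊤) (hsplit : ((minpoly E θ).map ι).Splits) :
    Algebra.IsUnramifiedAt A P := by
  let _ : Algebra E M := ι.toAlgebra
  exact isUnramifiedAt_of_splits (E := E) (L := L) v P hP0 hA hp hπP hπ0 hπ hθ hsplit

end RingHomForm

end Fermat.Agent.N4.Char0
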