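/-
N4, block L3 (helper6), part 4: characteristic-`0` ramification of covers of the `j`-line.

Let `K` be a field with an embedding `κ : K → ℂ`, `J = A/B ∈ K(T)` a rational function which is an
"orbifold-étale" cover of the `j`-line away from a finite set of points (`IsJCover`: at every good
point `t₀ ∈ ℂ` the multiplicity of `J - J(t₀)` at `t₀` is `3, 2, 1` according to
`J(t₀) = 0, 1728`, other — e.g. the Legendre `λ`-line `256 (λ² - λ + 1)³ / (λ² (λ - 1)²)`),
`A₀ = S⁻¹ K[T]` a localisation of `K[T]`, `E = K(T)`, `L = E(θ)` a finite extension where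
`Φ(J, θ) = 0` for a polynomial `Φ ∈ K[j][X]` such that `Φ(j(z), X)` splits over the holomorphic
functions on `ℍ` (`SplitsOverHol`, e.g. the modular polynomial `Φ_N`).  Then the integral closure
`C₀` of `A₀` in `L` is unramified over `A₀` at every prime lying over a good point.

Proof: for a prime `(p)` of `A₀` choose a root `t₀ ∈ ℂ` of `p`, a point `z₀ ∈ ℍ` with
`j(z₀) = J(t₀)`, expand everything in Taylor series at `z₀` (`M = ℂ((s))`), lift `T` to a power
series `x = t₀ + s·unit` with `J(x) = T_{z₀} j` (`exists_series_lift`), and apply the abstract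
criterion `isUnramifiedAt_of_splits'`.
-/
import Fermat.Agent.N4.UnramCriterion
import Fermat.Agent.N4.HenselCover
import Fermat.Agent.N4.TaylorHol
import Fermat.Agent.M2.JSurj

set_option autoImplicit false

namespace Fermat.Agent.N4.Char0

open Polynomial

/-! ### The `X`-adic valuation on Laurent series -/

section LaurentVal

open PowerSeries LaurentSeries WithZero
open scoped LaurentSeries WithZero

variable {k : Type*} [Field k]

theorem val_coe_le_one (F : k⟦X⟧) : Valued.v (F : k⸨X⸩) ≤ (1 : ℤᵐ⁰) :=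
  (val_le_one_iff_eq_coe k _).mpr ⟨F, rfl⟩

theorem val_coe_X : Valued.v ((PowerSeries.X : k⟦X⟧) : k⸨X⸩) = exp (-1 : ℤ) := by
  have := valuation_X_pow k 1
  simpa using this

theorem val_coe_of_constantCoeff_ne_zero {F : k⟦X⟧} (hF : constantCoeff F ≠ 0) :
    Valued.v (F : k⸨X⸩) = (1 : ℤᵐ⁰) := by
  have hu : IsUnit F := by
    rw [PowerSeries.isUnit_iff_constantCoeff]
    exact isUnit_iff_ne_zero.mpr hF
  obtain ⟨G, hG⟩ := hu.exists_right_inv
  have h1 := val_coe_le_one F
  have h2 := val_coe_le_one G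
  have h3 : Valued.v (F : k⸨X⸩) * Valued.v (G : k⸨X⸩) = 1 := by
    rw [← map_mul, ← PowerSeries.coe_mul, hG, PowerSeries.coe_one, map_one]
  refine le_antisymm h1 ?_
  calc (1 : ℤᵐ⁰) = Valued.v (F : k⸨X⸩) * Valued.v (G : k⸨X⸩) := h3.symm
    _ ≤ Valued.v (F : k⸨X⸩) * 1 := by gcongr
    _ = _ := mul_one _

theorem val_coe_X_mul {F : k⟦X⟧} (hF : constantCoeff F ≠ 0) :
    Valued.v ((PowerSeries.X * F : k⟦X⟧) : k⸨X⸩) = exp (-1 : ℤ) := by
  rw [PowerSeries.coe_mul, map_mul, val_coe_X, val_coe_of_constantCoeff_ne_zero hF, mul_one]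

theorem val_coe_lt_one {F : k⟦X⟧} (hF : constantCoeff F = 0) :
    Valued.v (F : k⸨X⸩) < (1 : ℤᵐ⁰) := by
  obtain ⟨G, rfl⟩ := PowerSeries.X_dvd_iff.mpr hF
  rw [PowerSeries.coe_mul, map_mul, val_coe_X]
  calc exp (-1 : ℤ) * Valued.v (G : k⸨X⸩) ≤ exp (-1 : ℤ) * 1 := by
        gcongr
        exact val_coe_le_one G
    _ < 1 := by
        rw [mul_one, ← exp_zero, exp_lt_exp]
        norm_num

theorem lt_one_iff_le_exp_neg_one (x : ℤᵐ⁰) : x < 1 ↔ x ≤ exp (-1 : ℤ) := by
  rcases eq_or_ne x 0 with rfl | hx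
  · simp
  · obtain ⟨n, rfl⟩ : ∃ n : ℤ, x = exp n := ⟨log x, (exp_log hx).symm⟩
    rw [← exp_zero, exp_lt_exp, exp_le_exp]
    omega

end LaurentVal

/-! ### Substituting a power series of order one -/

section Subst

variable {k : Type*} [Field k]

/-- `Q(t₀ + s y) = Q(t₀) + s · (Q'(t₀) y + s (…))`. -/
theorem aeval_add_X_mul (Q : k[X]) (t₀ : k) (y : PowerSeries k) :
    ∃ w : PowerSeries k, aeval (PowerSeries.C t₀ + PowerSeries.X * y) Q =
      PowerSeries.C (Q.eval t₀) +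
        PowerSeries.X * (PowerSeries.C (Q.derivative.eval t₀) * y + PowerSeries.X * w) := by
  obtain ⟨c, hc⟩ := Polynomial.binomExpansion (Q.map (algebraMap k (PowerSeries k)))
    (PowerSeries.C t₀) (PowerSeries.X * y)
  refine ⟨c * y ^ 2, ?_⟩
  rw [eval_map_algebraMap] at hc
  rw [hc, derivative_map]
  have h1 : eval (PowerSeries.C t₀) (Q.map (algebraMap k (PowerSeries k))) =
      PowerSeries.C (Q.eval t₀) := by
    rw [eval_map]
    exact eval₂_at_apply (PowerSeries.C : k →+* PowerSeries k) t₀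
  have h2 : eval (PowerSeries.C t₀) (Q.derivative.map (algebraMap k (PowerSeries k))) =
      PowerSeries.C (Q.derivative.eval t₀) := by
    rw [eval_map]
    exact eval₂_at_apply (PowerSeries.C : k →+* PowerSeries k) t₀
  rw [h1, h2]
  ring

variable [IsAlgClosed k]

/-- A power series with nonzero linear coefficient is transcendental over the constants. -/
theorem eq_zero_of_aeval_eq_zero {x : PowerSeries k} (hx : PowerSeries.coeff 1 x ≠ 0) {P : k[X]}
    (hP : aeval x P = 0) : P = 0 := by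
  by_contra hP0
  have hs := IsAlgClosed.splits P
  rw [hs.eq_prod_roots, map_mul, aeval_C, map_multiset_prod, Multiset.map_map] at hP
  rcases mul_eq_zero.mp hP with h | h
  · rw [PowerSeries.algebraMap_apply, Algebra.algebraMap_self, RingHom.id_apply,
      map_eq_zero_iff _ PowerSeries.C_injective] at h
    exact hP0 (leadingCoeff_eq_zero.mp h)
  · rw [Multiset.prod_eq_zero_iff] at h
    obtain ⟨r, -, h0⟩ := Multiset.mem_map.mp h
    simp only [Function.comp_apply, map_sub, aeval_X, aeval_C, PowerSeries.algebraMap_apply,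
      Algebra.algebraMap_self, RingHom.id_apply] at h0
    apply hx
    rw [sub_eq_zero.mp h0, PowerSeries.coeff_C]
    simp

end Subst

/-! ### Covers of the `j`-line -/

section Cover

open UpperHalfPlane
open Fermat.Agent.M2 Fermat.Agent.M2.JOrder

/-- `J = A/B` is an orbifold-étale cover of the `j`-line at the good points: the multiplicity of
`J - J(t₀)` at a good point `t₀` is `eJ (J t₀)` (`3` over `0`, `2` over `1728`, `1` elsewhere). -/
structure IsJCover (A B : ℂ[X]) (good : ℂ → Prop) : Prop where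
  den_ne : ∀ t₀, good t₀ → B.eval t₀ ≠ 0
  mult : ∀ t₀, good t₀ →
    (A - C (A.eval t₀ / B.eval t₀) * B).rootMultiplicity t₀ = eJ (A.eval t₀ / B.eval t₀)

/-- **Local uniformisation at a good point**: a power series `x = t₀ + s y`, `y(0) ≠ 0`, and a
power series `js` (the Taylor expansion of `j` at a point `z₀ : ℍ` above `J(t₀)`) with
`A(x) = js · B(x)` such that `Φ(js, X)` splits over `ℂ⟦s⟧`. -/
theorem exists_good_series {A B : ℂ[X]} {good : ℂ → Prop} (hJ : IsJCover A B good)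
    {Φ : ℂ[X][X]} (hΦ : SplitsOverHol Φ) {t₀ : ℂ} (ht₀ : good t₀) :
    ∃ y js : PowerSeries ℂ, PowerSeries.constantCoeff y ≠ 0 ∧
      aeval (PowerSeries.C t₀ + PowerSeries.X * y) A =
        js * aeval (PowerSeries.C t₀ + PowerSeries.X * y) B ∧
      ∃ (I : Type) (_ : Fintype I) (r : I → PowerSeries ℂ),
        Φ.map ((aeval js).toRingHom : ℂ[X] →+* PowerSeries ℂ) = ∏ i, (X - C (r i)) := by
  have hB := hJ.den_ne t₀ ht₀
  have hm := hJ.mult t₀ ht₀
  set j₀ := A.eval t₀ / B.eval t₀ with hj₀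
  obtain ⟨z₀, hz₀⟩ := JSurj.exists_j_eq j₀
  have hz₀' : jH z₀ = j₀ := hz₀
  obtain ⟨u, hu, hjs⟩ := taylorAt_jC z₀
  rw [hz₀'] at hjs
  have hne : A - C j₀ * B ≠ 0 := by
    intro h0
    rw [h0, rootMultiplicity_zero] at hm
    exact eJ_ne_zero j₀ hm.symm
  obtain ⟨D, hD, hDn⟩ := exists_eq_pow_rootMultiplicity_mul_and_not_dvd _ hne t₀
  rw [hm] at hD
  have hD0 : D.eval t₀ ≠ 0 := fun h => hDn (dvd_iff_isRoot.mpr h)
  obtain ⟨y, hy, hxy⟩ := exists_series_lift A B D t₀ j₀ (eJ_ne_zero j₀) hB hD hD0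
    (taylorAt (z₀ : ℂ) jC) u hjs hu
  exact ⟨y, taylorAt (z₀ : ℂ) jC, hy, hxy, hΦ.map_taylorAt z₀⟩

end Cover

/-! ### The plug: an embedding of the `T`-line into a Laurent series field -/

section Plug

open WithZero IntermediateField
open scoped LaurentSeries WithZero PowerSeries

variable {K : Type*} [Field K] [CharZero K]
  (A B : K[X]) (S : Submonoid K[X]) (Φ : K[X][X])
  {A₀ E L C₀ : Type*} [CommRing A₀] [IsDedekindDomain A₀] [Algebra K[X] A₀] [IsLocalization S A₀]
  [Field E] [Algebra A₀ E] [IsFractionRing A₀ E]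
  [Field L] [Algebra E L] [FiniteDimensional E L] [Algebra A₀ L] [IsScalarTower A₀ E L]
  [CommRing C₀] [Algebra A₀ C₀] [Algebra C₀ L] [IsScalarTower A₀ C₀ L]
  [IsIntegralClosure C₀ A₀ L]

/-- **(PLUG)** Let `P ≠ ⊥` be a prime of the normalisation `C₀` of `A₀ = S⁻¹ K[T]` in
`L = K(T)(θ)`, `Φ(J(T), θ) = 0`, `J = A/B`, lying over the prime `(p)` of `K[T]`.  If there is an
injective ring homomorphism `ι₀ : K[T] → k⟦s⟧` mapping `S` to units and `p` to a uniformiser, such
that `Φ(ι₀ J, X)` splits over `k((s))`, then `C₀` is unramified over `A₀` at `P`. -/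
theorem isUnramifiedAt_of_seriesHom
    (hS : S ≤ nonZeroDivisors K[X])
    (θ jL : L) (hθ : E⟮θ⟯ = ⊤)
    (hjL : algebraMap A₀ L (algebraMap K[X] A₀ A) =
      jL * algebraMap A₀ L (algebraMap K[X] A₀ B))
    (hΦθ : eval₂ (eval₂RingHom
      (((algebraMap A₀ L).comp (algebraMap K[X] A₀)).comp C) jL) θ Φ = 0)
    (P : Ideal C₀) [hP : P.IsPrime] (hP0 : P ≠ ⊥)
    {p : K[X]} (hp𝔮 : Ideal.span {p} = (P.under A₀).comap (algebraMap K[X] A₀))
    {k : Type*} [Field k] (ι₀ : K[X] →+* k⟦X⟧) (hι₀inj : Function.Injective ι₀)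
    (hunit : ∀ s : S, IsUnit (ι₀ s))
    (hpF : ∃ F : k⟦X⟧, PowerSeries.constantCoeff F ≠ 0 ∧ ι₀ p = PowerSeries.X * F)
    (jser : k⸨X⸩) (hB : ι₀ B ≠ 0)
    (hj : ((ι₀ A : k⟦X⟧) : k⸨X⸩) = jser * ((ι₀ B : k⟦X⟧) : k⸨X⸩))
    (hΦne : Φ.map (eval₂RingHom
      (((HahnSeries.ofPowerSeries ℤ k).comp ι₀).comp C) jser) ≠ 0)
    (hsplit : (Φ.map (eval₂RingHom
      (((HahnSeries.ofPowerSeries ℤ k).comp ι₀).comp C) jser)).Splits) :
    Algebra.IsUnramifiedAt A₀ P := by
  classical
  let φ : K[X] →+* A₀ := algebraMap K[X] A₀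
  have hφinj : Function.Injective φ := IsLocalization.injective A₀ hS
  let _ : Algebra ℚ A₀ := (φ.comp (C.comp (algebraMap ℚ K))).toAlgebra
  have h𝔭map : ((P.under A₀).comap φ).map φ = P.under A₀ :=
    IsLocalization.map_under S A₀ (P.under A₀)
  have hpmem : p ∈ (P.under A₀).comap φ := by
    rw [← hp𝔮]
    exact Ideal.mem_span_singleton_self p
  -- the ring homomorphisms
  let ι₁ : A₀ →+* k⟦X⟧ := IsLocalization.lift hunit
  have hι₁ : ∀ q : K[X], ι₁ (φ q) = ι₀ q := IsLocalization.lift_eq hunit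
  have hι₁inj : Function.Injective ι₁ := by
    rw [IsLocalization.lift_injective_iff]
    intro a b
    exact ⟨fun h => by rw [hφinj h], fun h => by rw [hι₀inj h]⟩
  let coe : k⟦X⟧ →+* k⸨X⸩ := HahnSeries.ofPowerSeries ℤ k
  have hcoe : ∀ F : k⟦X⟧, coe F = (F : k⸨X⸩) := fun F => rfl
  have hι₂inj : Function.Injective (coe.comp ι₁) :=
    HahnSeries.ofPowerSeries_injective.comp hι₁inj
  let ι : E →+* k⸨X⸩ := IsFractionRing.lift hι₂inj
  have hι : ∀ a : A₀, ι (algebraMap A₀ E a) = ((ι₁ a : k⟦X⟧) : k⸨X⸩) :=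
    IsFractionRing.lift_algebraMap hι₂inj
  obtain ⟨F, hF, hpF⟩ := hpF
  have hp0 : p ≠ 0 := by
    rintro rfl
    rw [map_zero] at hpF
    have h1 := congrArg (PowerSeries.coeff 1) hpF
    rw [PowerSeries.coeff_succ_X_mul, PowerSeries.coeff_zero_eq_constantCoeff_apply,
      map_zero] at h1
    exact hF h1.symm
  -- apply the abstract criterion
  refine isUnramifiedAt_of_splits' (E := E) (L := L) (Valued.v : Valuation k⸨X⸩ ℤᵐ⁰) ι P hP0
    ?_ ?_ (π := φ p) hpmem ?_ ?_ hθ ?_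
  · intro a
    rw [hι]
    exact val_coe_le_one _
  · intro a ha
    rw [hι]
    apply val_coe_lt_one
    have ha' : a ∈ Ideal.span {φ p} := by
      have : a ∈ ((P.under A₀).comap φ).map φ := by rw [h𝔭map]; exact ha
      rwa [← hp𝔮, Ideal.map_span, Set.image_singleton] at this
    obtain ⟨a', rfl⟩ := Ideal.mem_span_singleton'.mp ha'
    rw [map_mul, map_mul, hι₁, hpF]
    simp
  · exact fun h => hp0 (hφinj (by rw [h, map_zero]))
  · intro m hm
    rw [hι, hι₁, hpF, val_coe_X_mul hF]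
    exact (lt_one_iff_le_exp_neg_one _).mp hm
  · -- the splitting
    let φE : K[X] →+* E := (algebraMap A₀ E).comp φ
    let φL : K[X] →+* L := (algebraMap A₀ L).comp φ
    have hφL : ∀ q : K[X], algebraMap E L (φE q) = φL q := fun q =>
      (IsScalarTower.algebraMap_apply A₀ E L (φ q)).symm
    have hφEinj : Function.Injective φE := (IsFractionRing.injective A₀ E).comp hφinj
    have hB0 : B ≠ 0 := by
      rintro rfl
      exact hB (map_zero _)
    have hφEB : φE B ≠ 0 := fun h => hB0 (hφEinj (by rw [h, map_zero]))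
    have hφLB : φL B ≠ 0 := by
      rw [← hφL]
      exact fun h => hφEB ((algebraMap E L).injective (by rw [h, map_zero]))
    have hJE : algebraMap E L (φE A / φE B) = jL := by
      rw [map_div₀, hφL, hφL]
      have : φL A = jL * φL B := hjL
      rw [this, mul_div_cancel_right₀ _ hφLB]
    let σ : K[X] →+* E := eval₂RingHom (φE.comp C) (φE A / φE B)
    have hgθ : aeval θ (Φ.map σ) = 0 := by
      rw [aeval_def, eval₂_map]
      have hcomp : (algebraMap E L).comp σ = eval₂RingHom (φL.comp C) jL := by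
        refine Polynomial.ringHom_ext (fun a => ?_) ?_
        · simp only [RingHom.comp_apply, σ, coe_eval₂RingHom, Polynomial.eval₂_C, hφL]
        · simp only [RingHom.comp_apply, σ, coe_eval₂RingHom, Polynomial.eval₂_X, hJE]
      rw [hcomp]
      exact hΦθ
    have hιcomp : ι.comp σ = eval₂RingHom ((coe.comp ι₀).comp C) jser := by
      refine Polynomial.ringHom_ext (fun a => ?_) ?_
      · simp only [RingHom.comp_apply, σ, coe_eval₂RingHom, Polynomial.eval₂_C, φE]
        rw [hι, hι₁]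
      · simp only [RingHom.comp_apply, σ, coe_eval₂RingHom, Polynomial.eval₂_X, φE]
        rw [map_div₀, hι, hι, hι₁, hι₁, hj]
        have hBx : ((ι₀ B : k⟦X⟧) : k⸨X⸩) ≠ 0 := by
          intro h0
          exact hB (HahnSeries.ofPowerSeries_injective (by rw [h0]; exact (map_zero _).symm))
        rw [mul_div_cancel_right₀ _ hBx]
    have hgι : (Φ.map σ).map ι = Φ.map (eval₂RingHom ((coe.comp ι₀).comp C) jser) := by
      rw [Polynomial.map_map, hιcomp]
    have hg0 : (Φ.map σ).map ι ≠ 0 := by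
      rw [hgι]
      exact hΦne
    rw [← hgι] at hsplit
    exact Splits.of_dvd hsplit hg0 (Polynomial.map_dvd ι (minpoly.dvd E θ hgθ))

end Plug

/-! ### The main theorem at the finite good points -/

section Main

open WithZero IntermediateField
open scoped LaurentSeries WithZero PowerSeries

variable {K : Type*} [Field K] [CharZero K] (κ : K →+* ℂ)
  (A B : K[X]) (S : Submonoid K[X]) (h' : K[X]) (Φ : K[X][X])
  {A₀ E L C₀ : Type*} [CommRing A₀] [IsDedekindDomain A₀] [Algebra K[X] A₀] [IsLocalization S A₀]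
  [Field E] [Algebra A₀ E] [IsFractionRing A₀ E]
  [Field L] [Algebra E L] [FiniteDimensional E L] [Algebra A₀ L] [IsScalarTower A₀ E L]
  [CommRing C₀] [Algebra A₀ C₀] [Algebra C₀ L] [IsScalarTower A₀ C₀ L]
  [IsIntegralClosure C₀ A₀ L]

/-- **(FIN)** Let `J = A/B ∈ K(T)` be an orbifold-étale cover of the `j`-line at all points `t₀`
where no element of `S` and not `h'` vanishes, `A₀ = S⁻¹ K[T]`, `L = K(T)(θ)` with
`Φ(J(T), θ) = 0` where `Φ(j(z), X)` splits over the holomorphic functions on `ℍ`.  Then the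
normalisation `C₀` of `A₀` in `L` is unramified over `A₀` at every prime `P ≠ ⊥` not containing
`h'`. -/
theorem isUnramifiedAt_of_isJCover
    (hS : S ≤ nonZeroDivisors K[X])
    (hJ : IsJCover (A.map κ) (B.map κ)
      (fun t₀ => (∀ s ∈ S, (s.map κ).eval t₀ ≠ 0) ∧ (h'.map κ).eval t₀ ≠ 0))
    (hΦ : SplitsOverHol (Φ.map (mapRingHom κ)))
    (θ jL : L) (hθ : E⟮θ⟯ = ⊤)
    (hjL : algebraMap A₀ L (algebraMap K[X] A₀ A) =
      jL * algebraMap A₀ L (algebraMap K[X] A₀ B))
    (hΦθ : eval₂ (eval₂RingHom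
      (((algebraMap A₀ L).comp (algebraMap K[X] A₀)).comp C) jL) θ Φ = 0)
    (P : Ideal C₀) [hP : P.IsPrime] (hP0 : P ≠ ⊥)
    (hh' : algebraMap A₀ C₀ (algebraMap K[X] A₀ h') ∉ P) :
    Algebra.IsUnramifiedAt A₀ P := by
  classical
  let φ : K[X] →+* A₀ := algebraMap K[X] A₀
  have hφinj : Function.Injective φ := IsLocalization.injective A₀ hS
  let _ : Algebra ℚ A₀ := (φ.comp (C.comp (algebraMap ℚ K))).toAlgebra
  obtain ⟨-, -, hdom, -, -, -, hint⟩ :=
    closure_instances (A := A₀) (E := E) (L := L) (C := C₀)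
  -- the prime of `K[T]` below `P`
  have h𝔭0 : P.under A₀ ≠ ⊥ := mt Ideal.eq_bot_of_comap_eq_bot hP0
  have h𝔭map : ((P.under A₀).comap φ).map φ = P.under A₀ :=
    IsLocalization.map_under S A₀ (P.under A₀)
  have h𝔮prime : ((P.under A₀).comap φ).IsPrime := Ideal.comap_isPrime φ _
  have h𝔮0 : (P.under A₀).comap φ ≠ ⊥ := by
    intro h
    apply h𝔭0
    rw [← h𝔭map, h, Ideal.map_bot]
  obtain ⟨p, hp⟩ : ∃ p : K[X], (P.under A₀).comap φ = Ideal.span {p} :=
    (IsPrincipalIdealRing.principal _).principal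
  have hp0 : p ≠ 0 := by
    rintro rfl
    apply h𝔮0
    rw [hp, Ideal.span_singleton_eq_bot]
  have hpprime : Prime p := by
    rw [← Ideal.span_singleton_prime hp0, ← hp]
    exact h𝔮prime
  have hpirr : Irreducible p := hpprime.irreducible
  -- a root `t₀` of `p` in `ℂ`
  have hdeg : (p.map κ).degree ≠ 0 := by
    rw [degree_map]
    exact fun h => hpirr.not_isUnit (isUnit_iff_degree_eq_zero.mpr h)
  obtain ⟨t₀, ht₀r⟩ := IsAlgClosed.exists_root (p.map κ) hdeg
  have ht₀ : (p.map κ).eval t₀ = 0 := ht₀r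
  have hmem : ∀ q : K[X], (q.map κ).eval t₀ = 0 → q ∈ (P.under A₀).comap φ := by
    intro q hq
    rcases dvd_or_isCoprime p q hpirr with hdvd | hcop
    · rw [hp]
      exact Ideal.mem_span_singleton.mpr hdvd
    · exfalso
      obtain ⟨a, b, hab⟩ := hcop
      have h1 := congrArg (fun r : K[X] => (r.map κ).eval t₀) hab
      simp only [Polynomial.map_add, Polynomial.map_mul, eval_add, eval_mul, hq,
        ht₀, Polynomial.map_one, eval_one, mul_zero, add_zero] at h1
      exact zero_ne_one h1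
  have hgood : (∀ s ∈ S, (s.map κ).eval t₀ ≠ 0) ∧ (h'.map κ).eval t₀ ≠ 0 := by
    refine ⟨fun s hs h0 => ?_, fun h0 => hh' (hmem h' h0)⟩
    have h1 : φ s ∈ P.under A₀ := hmem s h0
    have h2 : IsUnit (φ s) := IsLocalization.map_units A₀ (⟨s, hs⟩ : S)
    exact (inferInstance : (P.under A₀).IsPrime).ne_top (Ideal.eq_top_of_isUnit_mem _ h1 h2)
  -- the local uniformisation
  obtain ⟨y, js, hy, hxy, I, _, r, hr⟩ := exists_good_series hJ hΦ hgood
  let ι₀ : K[X] →+* ℂ⟦X⟧ :=
    (aeval (PowerSeries.C t₀ + PowerSeries.X * y)).toRingHom.comp (mapRingHom κ)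
  have hι₀ : ∀ q : K[X], ι₀ q = aeval (PowerSeries.C t₀ + PowerSeries.X * y) (q.map κ) :=
    fun q => rfl
  have hcc : ∀ q : K[X], PowerSeries.constantCoeff (ι₀ q) = (q.map κ).eval t₀ := by
    intro q
    rw [hι₀, constantCoeff_aeval]
    simp
  have hx1 : PowerSeries.coeff 1 (PowerSeries.C t₀ + PowerSeries.X * y) ≠ 0 := by
    rw [map_add, PowerSeries.coeff_C, if_neg one_ne_zero, zero_add,
      PowerSeries.coeff_succ_X_mul, PowerSeries.coeff_zero_eq_constantCoeff_apply]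
    exact hy
  have hι₀inj : Function.Injective ι₀ := by
    rw [injective_iff_map_eq_zero]
    intro q hq
    have h1 : q.map κ = 0 := eq_zero_of_aeval_eq_zero hx1 hq
    exact (Polynomial.map_eq_zero_iff κ.injective).mp h1
  have hunit : ∀ s : S, IsUnit (ι₀ s) := by
    intro s
    rw [PowerSeries.isUnit_iff_constantCoeff, hcc]
    exact isUnit_iff_ne_zero.mpr (hgood.1 s s.2)
  have hpF : ∃ F : ℂ⟦X⟧, PowerSeries.constantCoeff F ≠ 0 ∧ ι₀ p = PowerSeries.X * F := by
    obtain ⟨w, hw⟩ := aeval_add_X_mul (p.map κ) t₀ y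
    refine ⟨PowerSeries.C ((p.map κ).derivative.eval t₀) * y + PowerSeries.X * w, ?_, ?_⟩
    · have hsep : (p.map κ).Separable := hpirr.separable.map
      have hd : (p.map κ).derivative.eval t₀ ≠ 0 := by
        intro h0
        obtain ⟨a, b, hab⟩ := hsep
        have h1 := congrArg (eval t₀) hab
        simp only [eval_add, eval_mul, ht₀, h0, mul_zero, add_zero, eval_one] at h1
        exact zero_ne_one h1
      simp only [map_add, map_mul, PowerSeries.constantCoeff_C, PowerSeries.constantCoeff_X,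
        zero_mul, add_zero]
      exact mul_ne_zero hd hy
    · rw [hι₀, hw, ht₀, map_zero, zero_add]
  have hBne : ι₀ B ≠ 0 := by
    intro h0
    have h1 := hcc B
    rw [h0, map_zero] at h1
    exact hJ.den_ne t₀ hgood h1.symm
  have hj : ((ι₀ A : ℂ⟦X⟧) : ℂ⸨X⸩) = ((js : ℂ⟦X⟧) : ℂ⸨X⸩) * ((ι₀ B : ℂ⟦X⟧) : ℂ⸨X⸩) := by
    rw [← PowerSeries.coe_mul, hι₀, hι₀, hxy]
  have hcomp : eval₂RingHom (((HahnSeries.ofPowerSeries ℤ ℂ).comp ι₀).comp C)
      ((js : ℂ⟦X⟧) : ℂ⸨X⸩) =
      (HahnSeries.ofPowerSeries ℤ ℂ).comp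
        (((aeval js).toRingHom : ℂ[X] →+* ℂ⟦X⟧).comp (mapRingHom κ)) := by
    refine Polynomial.ringHom_ext (fun a => ?_) ?_
    · simp only [RingHom.comp_apply, coe_eval₂RingHom, Polynomial.eval₂_C, coe_mapRingHom,
        Polynomial.map_C, AlgHom.toRingHom_eq_coe, RingHom.coe_coe, aeval_C, ι₀]
    · simp only [RingHom.comp_apply, coe_eval₂RingHom, Polynomial.eval₂_X, coe_mapRingHom,
        Polynomial.map_X, AlgHom.toRingHom_eq_coe, RingHom.coe_coe, aeval_X]
  have himg : Φ.map (eval₂RingHom (((HahnSeries.ofPowerSeries ℤ ℂ).comp ι₀).comp C)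
      ((js : ℂ⟦X⟧) : ℂ⸨X⸩)) = ∏ i, (X - C ((r i : ℂ⟦X⟧) : ℂ⸨X⸩)) := by
    rw [hcomp, ← Polynomial.map_map, ← Polynomial.map_map, hr, Polynomial.map_prod]
    refine Finset.prod_congr rfl fun i _ => ?_
    rw [Polynomial.map_sub, Polynomial.map_X, Polynomial.map_C]
  refine isUnramifiedAt_of_seriesHom A B S Φ hS θ jL hθ hjL hΦθ P hP0 (p := p) hp.symm ι₀ hι₀inj
    hunit hpF ((js : ℂ⟦X⟧) : ℂ⸨X⸩) hBne hj ?_ ?_
  · rw [himg]
    exact (monic_prod_of_monic _ _ fun i _ => monic_X_sub_C _).ne_zero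
  · rw [himg]
    exact Splits.prod fun i _ => Splits.X_sub_C _

/-- **(FIN), different-ideal form.** If `J = A/B` is an orbifold-étale cover of the `j`-line at all
points of `Spec A₀` (i.e. all `t₀ ∈ ℂ` where no element of `S` vanishes), the different ideal of
the normalisation `C₀` of `A₀ = S⁻¹ K[T]` in `L = K(T)(θ)` is trivial. -/
theorem differentIdeal_eq_top_of_isJCover [IsDedekindDomain C₀] [Module.IsTorsionFree A₀ C₀]
    (hS : S ≤ nonZeroDivisors K[X])
    (hJ : IsJCover (A.map κ) (B.map κ) (fun t₀ => ∀ s ∈ S, (s.map κ).eval t₀ ≠ 0))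
    (hΦ : SplitsOverHol (Φ.map (mapRingHom κ)))
    (θ jL : L) (hθ : E⟮θ⟯ = ⊤)
    (hjL : algebraMap A₀ L (algebraMap K[X] A₀ A) =
      jL * algebraMap A₀ L (algebraMap K[X] A₀ B))
    (hΦθ : eval₂ (eval₂RingHom
      (((algebraMap A₀ L).comp (algebraMap K[X] A₀)).comp C) jL) θ Φ = 0) :
    differentIdeal A₀ C₀ = ⊤ := by
  let _ : Algebra ℚ A₀ :=
    ((algebraMap K[X] A₀).comp (C.comp (algebraMap ℚ K))).toAlgebra
  refine differentIdeal_eq_top_of_forall_isUnramifiedAt E L fun P _ hP0 => ?_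
  have hJ' : IsJCover (A.map κ) (B.map κ)
      (fun t₀ => (∀ s ∈ S, (s.map κ).eval t₀ ≠ 0) ∧ ((1 : K[X]).map κ).eval t₀ ≠ 0) :=
    ⟨fun t₀ h => hJ.den_ne t₀ h.1, fun t₀ h => hJ.mult t₀ h.1⟩
  refine isUnramifiedAt_of_isJCover κ A B S 1 Φ hS hJ' hΦ θ jL hθ hjL hΦθ P hP0 ?_
  rw [map_one, map_one]
  exact fun h => (inferInstance : P.IsPrime).ne_top ((Ideal.eq_top_iff_one P).mpr h)

end Main

end Fermat.Agent.N4.Char0
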