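/-
N4, block M (helper10), part (M5-A): the Hesse `μ`-line as a cover of the `j`-line — element level
(used for `ℓ = 2`, where the `λ`-line is not available).

For an element `m` of a commutative ring put `jNumH m = 27 m³ (m³ + 8)³`, `jDenH m = (m³ − 1)³`, so
that the Hesse cubic `x³ + y³ + z³ = 3 m x y z` has `j = jNumH m / jDenH m`.  The cover has degree
`12`, group `A₄` generated by `m ↦ ζ₃ m` and `m ↦ (m + 2)/(m − 1)`, and ramification `3, 2, 3` over
`j = 0, 1728, ∞`: `j = (m (m³ + 8))³ · unit`, `j − 1728 = (m⁶ − 20 m³ − 8)² · unit`,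
`1/j = (m³ − 1)³ · unit`.  Everything is proved by `ring`.
-/
import Mathlib

set_option autoImplicit false

namespace Fermat.Agent.N4.Hesse

open Polynomial

variable {A : Type*} [CommRing A]

/-- The numerator `27 m³ (m³ + 8)³` of `j(m)`. -/
def jNumH (m : A) : A := 27 * m ^ 3 * (m ^ 3 + 8) ^ 3

/-- The denominator `(m³ − 1)³` of `j(m)`. -/
def jDenH (m : A) : A := (m ^ 3 - 1) ^ 3

theorem jNumH_def (m : A) : jNumH m = 27 * m ^ 3 * (m ^ 3 + 8) ^ 3 := rfl

theorem jDenH_def (m : A) : jDenH m = (m ^ 3 - 1) ^ 3 := rfl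

/-! ### Invariance under `A₄` -/

/-- `m ↦ ζ m`, `ζ³ = 1`, on the numerator. -/
theorem jNumH_mul_root {z : A} (hz : z ^ 3 = 1) (m : A) : jNumH (z * m) = jNumH m := by
  rw [jNumH_def, jNumH_def, mul_pow, hz, one_mul]

/-- `m ↦ ζ m`, `ζ³ = 1`, on the denominator. -/
theorem jDenH_mul_root {z : A} (hz : z ^ 3 = 1) (m : A) : jDenH (z * m) = jDenH m := by
  rw [jDenH_def, jDenH_def, mul_pow, hz, one_mul]

/-- `m ↦ (m + 2)/(m − 1)` on the numerator: if `b (a − 1) = a + 2` then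
`jNumH b · (a − 1)¹² = 3⁶ · jNumH a`. -/
theorem jNumH_moebius {a b : A} (h : b * (a - 1) = a + 2) :
    jNumH b * (a - 1) ^ 12 = 729 * jNumH a := by
  calc jNumH b * (a - 1) ^ 12
      = 27 * (b * (a - 1)) ^ 3 * ((b * (a - 1)) ^ 3 + 8 * (a - 1) ^ 3) ^ 3 := by
        rw [jNumH_def]; ring
    _ = 729 * jNumH a := by rw [h, jNumH_def]; ring

/-- `m ↦ (m + 2)/(m − 1)` on the denominator: if `b (a − 1) = a + 2` then
`jDenH b · (a − 1)¹² = 3⁶ · jDenH a`. -/
theorem jDenH_moebius {a b : A} (h : b * (a - 1) = a + 2) :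
    jDenH b * (a - 1) ^ 12 = 729 * jDenH a := by
  calc jDenH b * (a - 1) ^ 12
      = ((b * (a - 1)) ^ 3 - (a - 1) ^ 3) ^ 3 * (a - 1) ^ 3 := by
        rw [jDenH_def]; ring
    _ = 729 * jDenH a := by rw [h, jDenH_def]; ring

/-- `j((m + 2)/(m − 1)) = j(m)`, cross-multiplied (up to the factor `(a − 1)¹²`). -/
theorem crossH_moebius {a b : A} (h : b * (a - 1) = a + 2) :
    (jNumH b * jDenH a) * (a - 1) ^ 12 = (jNumH a * jDenH b) * (a - 1) ^ 12 := by
  calc (jNumH b * jDenH a) * (a - 1) ^ 12 = (jNumH b * (a - 1) ^ 12) * jDenH a := by ring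
    _ = jNumH a * (729 * jDenH a) := by rw [jNumH_moebius h]; ring
    _ = jNumH a * (jDenH b * (a - 1) ^ 12) := by rw [jDenH_moebius h]
    _ = (jNumH a * jDenH b) * (a - 1) ^ 12 := by ring

/-! ### The values `0`, `1728`, `∞` -/

/-- `j − 1728 = 27 (m⁶ − 20 m³ − 8)² / (m³ − 1)³`. -/
theorem jNumH_sub_jDenH (m : A) :
    jNumH m - 1728 * jDenH m = 27 * (m ^ 6 - 20 * m ^ 3 - 8) ^ 2 := by
  rw [jNumH_def, jDenH_def]; ring

/-- The three points over the cusp orbit and the factor `m³ + 8 = (m + 2)(m² − 2m + 4)`. -/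
theorem cube_add_eight (m : A) : m ^ 3 + 8 = (m + 2) * (m ^ 2 - 2 * m + 4) := by ring

theorem cube_sub_one (m : A) : m ^ 3 - 1 = (m - 1) * (m ^ 2 + m + 1) := by ring

/-! ### Polynomial forms -/

/-- `27 X³ (X³ + 8)³ ∈ A[X]`. -/
noncomputable def jNumHPoly (A : Type*) [CommRing A] : A[X] := jNumH (X : A[X])

/-- `(X³ − 1)³ ∈ A[X]`. -/
noncomputable def jDenHPoly (A : Type*) [CommRing A] : A[X] := jDenH (X : A[X])

theorem eval_jNumHPoly (a : A) : (jNumHPoly A).eval a = jNumH a := by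
  simp [jNumHPoly, jNumH_def]

theorem eval_jDenHPoly (a : A) : (jDenHPoly A).eval a = jDenH a := by
  simp [jDenHPoly, jDenH_def]

theorem aeval_jNumHPoly {B : Type*} [CommRing B] [Algebra A B] (b : B) :
    aeval b (jNumHPoly A) = jNumH b := by
  simp [jNumHPoly, jNumH_def, map_ofNat]

theorem aeval_jDenHPoly {B : Type*} [CommRing B] [Algebra A B] (b : B) :
    aeval b (jDenHPoly A) = jDenH b := by
  simp [jDenHPoly, jDenH_def]

/-- The derivative of `j`: `jNumH' · jDenH − jNumH · jDenH' =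
81 X² (X³ + 8)² (X³ − 1)² (X⁶ − 20 X³ − 8)`, so
`dj/dm = 81 m² (m³ + 8)² (m⁶ − 20 m³ − 8) / (m³ − 1)⁴`. -/
theorem wronskianH :
    derivative (jNumHPoly A) * jDenHPoly A - jNumHPoly A * derivative (jDenHPoly A) =
      81 * X ^ 2 * (X ^ 3 + 8) ^ 2 * (X ^ 3 - 1) ^ 2 * (X ^ 6 - 20 * X ^ 3 - 8) := by
  have h1 : derivative (jNumHPoly A) =
      81 * X ^ 2 * (X ^ 3 + 8) ^ 3 + 243 * X ^ 5 * (X ^ 3 + 8) ^ 2 := by
    simp only [jNumHPoly, jNumH_def, derivative_mul, derivative_pow, derivative_add,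
      derivative_X, derivative_ofNat, Nat.cast_ofNat, map_ofNat]
    ring
  have h2 : derivative (jDenHPoly A) = 9 * X ^ 2 * (X ^ 3 - 1) ^ 2 := by
    simp only [jDenHPoly, jDenH_def, derivative_pow, derivative_sub,
      derivative_X, derivative_one, Nat.cast_ofNat, map_ofNat]
    ring
  rw [h1, h2, jNumHPoly, jDenHPoly, jNumH_def, jDenH_def]
  ring

end Fermat.Agent.N4.Hesse
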