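/-
N4, block M (helper10), part A: the Legendre `λ`-line as a cover of the `j`-line — element level.

For an element `a` of a commutative ring put
`jNum a = 256 (a² − a + 1)³`, `jDen a = a² (a − 1)²`, so that `j(λ) = jNum λ / jDen λ`.
This file contains the denominator-free identities behind
* the invariance of `j(λ)` under the anharmonic group `S₃ = ⟨λ ↦ 1 − λ, λ ↦ 1/λ⟩`;
* the orbit polynomial `jDen a · jNum X − jNum a · jDen X = −256 ∏_{g ∈ S₃} (…)` (degree `6`, its
  roots are the six conjugates of `a`): integrality of `λ` over `ℤ[1/2][j]`, description of fibres;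
* the ramification `3, 2, 2` over `j = 0, 1728, ∞`:
  `j = (λ² − λ + 1)³ · unit`, `j − 1728 = ((λ + 1)(λ − 2)(2λ − 1))² · unit`, `1/j = λ² · unit`;
* the derivative of `j(λ)`.
Everything is proved by `ring`; no hypothesis on the characteristic.
-/
import Mathlib

set_option autoImplicit false

namespace Fermat.Agent.N4.Lambda

open Polynomial

variable {A : Type*} [CommRing A]

/-- The numerator `256 (a² − a + 1)³` of `j(a)`. -/
def jNum (a : A) : A := 256 * (a ^ 2 - a + 1) ^ 3

/-- The denominator `a² (a − 1)²` of `j(a)`. -/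
def jDen (a : A) : A := a ^ 2 * (a - 1) ^ 2

theorem jNum_def (a : A) : jNum a = 256 * (a ^ 2 - a + 1) ^ 3 := rfl

theorem jDen_def (a : A) : jDen a = a ^ 2 * (a - 1) ^ 2 := rfl

theorem jDen_eq_sq (a : A) : jDen a = (a * (a - 1)) ^ 2 := by
  rw [jDen_def]; ring

/-! ### Invariance under the anharmonic group -/

theorem jNum_one_sub (a : A) : jNum (1 - a) = jNum a := by
  rw [jNum_def, jNum_def]; ring

theorem jDen_one_sub (a : A) : jDen (1 - a) = jDen a := by
  rw [jDen_def, jDen_def]; ring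

/-- `a ↦ 1/a` on the numerator. -/
theorem jNum_inv {a b : A} (h : a * b = 1) : jNum b * a ^ 6 = jNum a := by
  rw [jNum_def, jNum_def]
  have e : (b ^ 2 - b + 1) * a ^ 2 = a ^ 2 - a + 1 := by
    have h2 : (a * b) ^ 2 = 1 := by rw [h, one_pow]
    calc (b ^ 2 - b + 1) * a ^ 2 = (a * b) ^ 2 - a * (a * b) + a ^ 2 := by ring
      _ = a ^ 2 - a + 1 := by rw [h2, h]; ring
  calc 256 * (b ^ 2 - b + 1) ^ 3 * a ^ 6 = 256 * ((b ^ 2 - b + 1) * a ^ 2) ^ 3 := by ring
    _ = 256 * (a ^ 2 - a + 1) ^ 3 := by rw [e]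

/-- `a ↦ 1/a` on the denominator. -/
theorem jDen_inv {a b : A} (h : a * b = 1) : jDen b * a ^ 6 = jDen a := by
  rw [jDen_def, jDen_def]
  have e : b * (b - 1) * a ^ 2 = -(a - 1) := by
    calc b * (b - 1) * a ^ 2 = (a * b) ^ 2 - a * (a * b) := by ring
      _ = -(a - 1) := by rw [h]; ring
  calc b ^ 2 * (b - 1) ^ 2 * a ^ 6 = (b * (b - 1) * a ^ 2) ^ 2 * a ^ 2 := by ring
    _ = a ^ 2 * (a - 1) ^ 2 := by rw [e]; ring

/-- `j(1 − a) = j(a)`, cross-multiplied. -/
theorem cross_one_sub (a : A) : jNum (1 - a) * jDen a = jNum a * jDen (1 - a) := by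
  rw [jNum_one_sub, jDen_one_sub]

/-- `j(1/a) = j(a)`, cross-multiplied. -/
theorem cross_inv {a b : A} (h : a * b = 1) : jNum b * jDen a = jNum a * jDen b := by
  calc jNum b * jDen a = jNum b * (jDen b * a ^ 6) := by rw [jDen_inv h]
    _ = (jNum b * a ^ 6) * jDen b := by ring
    _ = jNum a * jDen b := by rw [jNum_inv h]

/-! ### The values `0`, `1728`, `∞` -/

/-- `j − 1728 = 64 ((λ + 1)(λ − 2)(2λ − 1))² / (λ² (λ − 1)²)`. -/
theorem jNum_sub_jDen (a : A) :
    jNum a - 1728 * jDen a = 64 * ((a + 1) * (a - 2) * (2 * a - 1)) ^ 2 := by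
  rw [jNum_def, jDen_def]; ring

/-! ### The orbit polynomial -/

/-- **The orbit polynomial**: `jDen a · jNum x − jNum a · jDen x` is `−256` times the product of the
six linear forms vanishing at the conjugates `a, 1 − a, 1/a, 1/(1 − a), (a − 1)/a, a/(a − 1)` of
`a`. -/
theorem orbit_identity (a x : A) :
    jDen a * jNum x - jNum a * jDen x =
      -256 * ((x - a) * (x - (1 - a)) * (a * x - 1) * ((1 - a) * x - 1) * (a * x - (a - 1)) *
        ((a - 1) * x - a)) := by
  rw [jNum_def, jDen_def, jNum_def, jDen_def]; ring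

/-- In a domain where `2 ≠ 0`: the fibre of `j` through `a` consists of the six conjugates of
`a`. -/
theorem eq_conj_of_cross [IsDomain A] (h2 : (2 : A) ≠ 0) {a x : A}
    (h : jNum x * jDen a = jNum a * jDen x) :
    x = a ∨ x = 1 - a ∨ a * x = 1 ∨ (1 - a) * x = 1 ∨ a * x = a - 1 ∨ (a - 1) * x = a := by
  have h0 : jDen a * jNum x - jNum a * jDen x = 0 := by rw [mul_comm, h, sub_self]
  rw [orbit_identity] at h0
  have h256 : (-256 : A) ≠ 0 := by
    have : (-256 : A) = -(2 ^ 8) := by norm_num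
    rw [this]
    exact neg_ne_zero.mpr (pow_ne_zero 8 h2)
  rcases mul_eq_zero.mp h0 with h1 | h1
  · exact absurd h1 h256
  rcases mul_eq_zero.mp h1 with h1 | h6
  swap
  · exact Or.inr (Or.inr (Or.inr (Or.inr (Or.inr (sub_eq_zero.mp h6)))))
  rcases mul_eq_zero.mp h1 with h1 | h5
  swap
  · exact Or.inr (Or.inr (Or.inr (Or.inr (Or.inl (sub_eq_zero.mp h5)))))
  rcases mul_eq_zero.mp h1 with h1 | h4
  swap
  · exact Or.inr (Or.inr (Or.inr (Or.inl (sub_eq_zero.mp h4))))
  rcases mul_eq_zero.mp h1 with h1 | h3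
  swap
  · exact Or.inr (Or.inr (Or.inl (sub_eq_zero.mp h3)))
  rcases mul_eq_zero.mp h1 with h1 | h2'
  · exact Or.inl (sub_eq_zero.mp h1)
  · exact Or.inr (Or.inl (sub_eq_zero.mp h2'))

/-! ### Polynomial forms -/

/-- `256 (X² − X + 1)³ ∈ A[X]`. -/
noncomputable def jNumPoly (A : Type*) [CommRing A] : A[X] := jNum (X : A[X])

/-- `X² (X − 1)² ∈ A[X]`. -/
noncomputable def jDenPoly (A : Type*) [CommRing A] : A[X] := jDen (X : A[X])

theorem eval_jNumPoly (a : A) : (jNumPoly A).eval a = jNum a := by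
  simp [jNumPoly, jNum_def]

theorem eval_jDenPoly (a : A) : (jDenPoly A).eval a = jDen a := by
  simp [jDenPoly, jDen_def]

theorem aeval_jNumPoly {B : Type*} [CommRing B] [Algebra A B] (b : B) :
    aeval b (jNumPoly A) = jNum b := by
  simp [jNumPoly, jNum_def, map_ofNat]

theorem aeval_jDenPoly {B : Type*} [CommRing B] [Algebra A B] (b : B) :
    aeval b (jDenPoly A) = jDen b := by
  simp [jDenPoly, jDen_def]

/-- The derivative of `j`: `jNum' · jDen − jNum · jDen' = 256 u² v (2X − 1)(X − 2)(X + 1)` with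
`u = X² − X + 1`, `v = X (X − 1)`; so
`dj/dλ = 256 (λ² − λ + 1)² (2λ − 1)(λ − 2)(λ + 1) / (λ (λ − 1))³`. -/
theorem wronskian :
    derivative (jNumPoly A) * jDenPoly A - jNumPoly A * derivative (jDenPoly A) =
      256 * (X ^ 2 - X + 1) ^ 2 * (X * (X - 1)) * ((2 * X - 1) * (X - 2) * (X + 1)) := by
  have h1 : derivative (jNumPoly A) = 768 * (X ^ 2 - X + 1) ^ 2 * (2 * X - 1) := by
    simp only [jNumPoly, jNum_def, derivative_mul, derivative_pow, derivative_add, derivative_sub,
      derivative_X, derivative_one, derivative_ofNat, Nat.cast_ofNat, map_ofNat]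
    ring
  have h2 : derivative (jDenPoly A) = 2 * (X * (X - 1)) * (2 * X - 1) := by
    simp only [jDenPoly, jDen_def, derivative_mul, derivative_pow, derivative_sub,
      derivative_X, derivative_one, Nat.cast_ofNat, map_ofNat]
    ring
  rw [h1, h2, jNumPoly, jDenPoly, jNum_def, jDen_def]
  ring

end Fermat.Agent.N4.Lambda
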