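/-
N4, block L3 (helper6), part 6: the `IsJCover` instances.

* a criterion for `IsJCover` (`A - j₀ B = U · G^e` with `G` having a simple root at `t₀`);
* stability under composition with a polynomial which is étale at the good points;
* the Legendre `λ`-line `j = 256 (λ² - λ + 1)³ / (λ² (λ - 1)²)` away from `λ = 0, 1`;
* the `t`-line `λ = 16 t^N` away from `t = 0`, `λ = 1`;
* the Hesse `m`-line `j = 27 m³ (m³ + 8)³ / (m³ - 1)³` away from `m³ = 1`;
* its cusp line `n = 1/m`, `j = 27 (1 + 8 n³)³ / (n³ (1 - n³)³)` away from `n = 0`, `n³ = 1`, and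
  the `t`-line `n = 3 t^N`.
-/
import Fermat.Agent.N4.Char0Ramification
import Fermat.Agent.N4.LambdaLine
import Fermat.Agent.N4.HesseLine

set_option autoImplicit false

namespace Fermat.Agent.N4.Char0

open Polynomial

/-! ### A criterion -/

section Criterion

variable {k : Type*} [Field k]

/-- The multiplicity of `U · G^e` at a simple root of `G` which is not a root of `U`. -/
theorem rootMultiplicity_mul_pow_of_simple {U G : k[X]} {t₀ : k} (e : ℕ) (hU : U.eval t₀ ≠ 0)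
    (hG : G.eval t₀ = 0) (hG' : G.derivative.eval t₀ ≠ 0) :
    (U * G ^ e).rootMultiplicity t₀ = e := by
  set G₁ := G /ₘ (X - C t₀) with hG₁
  have hfac : (X - C t₀) * G₁ = G := mul_divByMonic_eq_iff_isRoot.mpr hG
  have hG₁0 : G₁.eval t₀ ≠ 0 := by
    have h1 := congrArg (fun p => (derivative p).eval t₀) hfac
    simp only [derivative_mul, derivative_sub, derivative_X, derivative_C, sub_zero, one_mul,
      eval_add, eval_mul, eval_sub, eval_X, eval_C, sub_self, zero_mul, add_zero] at h1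
    rw [h1]
    exact hG'
  have hp : (U * G₁ ^ e).eval t₀ ≠ 0 := by
    rw [eval_mul, eval_pow]
    exact mul_ne_zero hU (pow_ne_zero e hG₁0)
  have hp0 : U * G₁ ^ e ≠ 0 := by
    intro h
    rw [h, eval_zero] at hp
    exact hp rfl
  have hrw : U * G ^ e = (U * G₁ ^ e) * (X - C t₀) ^ e := by
    rw [← hfac, mul_pow]
    ring
  rw [hrw, rootMultiplicity_mul_X_sub_C_pow hp0, rootMultiplicity_eq_zero hp, zero_add]

end Criterion

open Fermat.Agent.M2 Fermat.Agent.M2.JOrder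

theorem IsJCover.of_simple {A B : ℂ[X]} {good : ℂ → Prop}
    (hden : ∀ t₀, good t₀ → B.eval t₀ ≠ 0)
    (h : ∀ t₀, good t₀ → ∃ U G : ℂ[X],
      A - C (A.eval t₀ / B.eval t₀) * B = U * G ^ eJ (A.eval t₀ / B.eval t₀) ∧
        U.eval t₀ ≠ 0 ∧ G.eval t₀ = 0 ∧ G.derivative.eval t₀ ≠ 0) :
    IsJCover A B good := by
  refine ⟨hden, fun t₀ ht₀ => ?_⟩
  obtain ⟨U, G, hUG, hU, hG, hG'⟩ := h t₀ ht₀
  rw [hUG]
  exact rootMultiplicity_mul_pow_of_simple _ hU hG hG'

theorem IsJCover.mono {A B : ℂ[X]} {good good' : ℂ → Prop} (hJ : IsJCover A B good)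
    (h : ∀ t₀, good' t₀ → good t₀) : IsJCover A B good' :=
  ⟨fun t₀ ht₀ => hJ.den_ne t₀ (h t₀ ht₀), fun t₀ ht₀ => hJ.mult t₀ (h t₀ ht₀)⟩

/-- Composition with a polynomial which is étale at the good points. -/
theorem IsJCover.comp {A B : ℂ[X]} {good good' : ℂ → Prop} (hJ : IsJCover A B good) (ψ : ℂ[X])
    (hψ : ∀ t₀, good' t₀ → good (ψ.eval t₀) ∧ ψ.derivative.eval t₀ ≠ 0) :
    IsJCover (A.comp ψ) (B.comp ψ) good' := by
  refine ⟨fun t₀ ht₀ => ?_, fun t₀ ht₀ => ?_⟩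
  · rw [eval_comp]
    exact hJ.den_ne _ (hψ t₀ ht₀).1
  · obtain ⟨hg, hd⟩ := hψ t₀ ht₀
    have hm := hJ.mult _ hg
    rw [eval_comp, eval_comp]
    set l₀ := ψ.eval t₀ with hl₀
    set j₀ := A.eval l₀ / B.eval l₀ with hj₀
    have hne : A - C j₀ * B ≠ 0 := by
      intro h0
      rw [h0, rootMultiplicity_zero] at hm
      exact eJ_ne_zero j₀ hm.symm
    obtain ⟨D, hD, hDn⟩ := exists_eq_pow_rootMultiplicity_mul_and_not_dvd _ hne l₀
    rw [hm] at hD
    have hD0 : D.eval l₀ ≠ 0 := fun h => hDn (dvd_iff_isRoot.mpr h)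
    have hcomp : A.comp ψ - C j₀ * B.comp ψ = D.comp ψ * (ψ - C l₀) ^ eJ j₀ := by
      have h1 := congrArg (fun p : ℂ[X] => p.comp ψ) hD
      simp only [sub_comp, mul_comp, C_comp, pow_comp, X_comp] at h1
      rw [h1]
      ring
    rw [hcomp]
    refine rootMultiplicity_mul_pow_of_simple _ ?_ ?_ ?_
    · rw [eval_comp]
      exact hD0
    · rw [eval_sub, eval_C, sub_self]
    · rw [derivative_sub, derivative_C, sub_zero]
      exact hd

/-! ### The Legendre `λ`-line -/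

section LambdaLine

open Fermat.Agent.N4.Lambda

theorem jNumPoly_eq : jNumPoly ℂ = C 256 * (X ^ 2 - X + 1) ^ 3 := by
  rw [jNumPoly, jNum_def, map_ofNat]

theorem jNumPoly_sub_jDenPoly :
    jNumPoly ℂ - C 1728 * jDenPoly ℂ = C 64 * ((X + 1) * (X - 2) * (2 * X - 1)) ^ 2 := by
  rw [jNumPoly, jDenPoly, map_ofNat, map_ofNat]
  exact jNum_sub_jDen (X : ℂ[X])

/-- **The `λ`-line is an orbifold-étale cover of the `j`-line away from `λ = 0, 1`.** -/
theorem isJCover_lambda :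
    IsJCover (jNumPoly ℂ) (jDenPoly ℂ) (fun t₀ => t₀ ≠ 0 ∧ t₀ ≠ 1) := by
  have hden : ∀ t₀ : ℂ, t₀ ≠ 0 ∧ t₀ ≠ 1 → (jDenPoly ℂ).eval t₀ ≠ 0 := by
    rintro t₀ ⟨h0, h1⟩
    rw [eval_jDenPoly, jDen_def]
    exact mul_ne_zero (pow_ne_zero 2 h0) (pow_ne_zero 2 (sub_ne_zero.mpr h1))
  refine IsJCover.of_simple hden fun t₀ ht₀ => ?_
  have hB := hden t₀ ht₀
  obtain ⟨h0, h1⟩ := ht₀
  rw [eval_jNumPoly, eval_jDenPoly] at *
  set j₀ := jNum t₀ / jDen t₀ with hj₀
  have hj₀' : jNum t₀ = j₀ * jDen t₀ := by rw [hj₀, div_mul_cancel₀ _ hB]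
  by_cases hc0 : j₀ = 0
  · -- `j₀ = 0`: `t₀² - t₀ + 1 = 0`, multiplicity `3`
    have hq : t₀ ^ 2 - t₀ + 1 = 0 := by
      have h2 : jNum t₀ = 0 := by rw [hj₀', hc0, zero_mul]
      rw [jNum_def] at h2
      have h3 := (mul_eq_zero.mp h2).resolve_left (by norm_num)
      exact pow_eq_zero_iff (by norm_num) |>.mp h3
    refine ⟨C 256, X ^ 2 - X + 1, ?_, ?_, ?_, ?_⟩
    · rw [hc0, eJ_zero, map_zero, zero_mul, sub_zero, jNumPoly_eq]
    · rw [eval_C]
      norm_num
    · simp only [eval_add, eval_sub, eval_pow, eval_X, eval_one]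
      exact hq
    · simp only [derivative_add, derivative_sub, derivative_X_pow, derivative_X, derivative_one,
        eval_sub, eval_mul, eval_pow, eval_X, eval_one, eval_C, add_zero, Nat.cast_ofNat]
      intro h2
      have h3 : (2 * t₀ - 1) ^ 2 = -3 := by linear_combination 4 * hq
      have h4 : (2 * t₀ - 1) = 0 := by linear_combination h2
      rw [h4] at h3
      norm_num at h3
  by_cases hc1 : j₀ = 1728
  · -- `j₀ = 1728`: multiplicity `2`
    have hG : (t₀ + 1) * (t₀ - 2) * (2 * t₀ - 1) = 0 := by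
      have h2 : jNum t₀ - 1728 * jDen t₀ = 0 := by rw [hj₀', hc1, sub_self]
      rw [jNum_sub_jDen] at h2
      have h3 := (mul_eq_zero.mp h2).resolve_left (by norm_num)
      exact pow_eq_zero_iff (by norm_num) |>.mp h3
    refine ⟨C 64, (X + 1) * (X - 2) * (2 * X - 1), ?_, ?_, ?_, ?_⟩
    · rw [hc1, eJ_1728, jNumPoly_sub_jDenPoly]
    · rw [eval_C]
      norm_num
    · simp only [eval_add, eval_sub, eval_mul, eval_X, eval_one, eval_ofNat]
      exact hG
    · simp only [derivative_mul, derivative_add, derivative_sub, derivative_X, derivative_one,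
        derivative_ofNat, eval_add, eval_sub, eval_mul, eval_X, eval_one, eval_ofNat, eval_zero,
        add_zero, sub_zero, one_mul, mul_one, zero_mul]
      rcases mul_eq_zero.mp hG with h2 | h2
      · rcases mul_eq_zero.mp h2 with h3 | h3
        · have : t₀ = -1 := by linear_combination h3
          subst this
          norm_num
        · have : t₀ = 2 := by linear_combination h3
          subst this
          norm_num
      · have : t₀ = 1 / 2 := by linear_combination (1 / 2 : ℂ) * h2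
        subst this
        norm_num
  · -- generic point: multiplicity `1`
    have hq : t₀ ^ 2 - t₀ + 1 ≠ 0 := by
      intro hq
      apply hc0
      rw [hj₀, jNum_def, hq]
      simp
    have hG : (t₀ + 1) * (t₀ - 2) * (2 * t₀ - 1) ≠ 0 := by
      intro hG
      apply hc1
      have h2 := jNum_sub_jDen t₀
      rw [hG] at h2
      rw [hj₀, div_eq_iff hB]
      linear_combination h2
    refine ⟨1, jNumPoly ℂ - C j₀ * jDenPoly ℂ, ?_, ?_, ?_, ?_⟩
    · rw [eJ_of_ne hc0 hc1, pow_one, one_mul]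
    · rw [eval_one]
      exact one_ne_zero
    · rw [eval_sub, eval_mul, eval_C, eval_jNumPoly, eval_jDenPoly, hj₀', sub_self]
    · rw [derivative_sub, derivative_mul, derivative_C, zero_mul, zero_add, eval_sub, eval_mul,
        eval_C]
      intro h2
      have hW := congrArg (eval t₀) (wronskian (A := ℂ))
      simp only [eval_sub, eval_mul, eval_jNumPoly, eval_jDenPoly, eval_pow, eval_add, eval_X,
        eval_one, eval_ofNat] at hW
      have h3 : eval t₀ (derivative (jNumPoly ℂ)) * jDen t₀ -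
          jNum t₀ * eval t₀ (derivative (jDenPoly ℂ)) = 0 := by
        rw [hj₀']
        linear_combination jDen t₀ * h2
      rw [h3] at hW
      have h4 : (256 : ℂ) * (t₀ ^ 2 - t₀ + 1) ^ 2 * (t₀ * (t₀ - 1)) *
          ((2 * t₀ - 1) * (t₀ - 2) * (t₀ + 1)) ≠ 0 := by
        refine mul_ne_zero (mul_ne_zero (mul_ne_zero (by norm_num) (pow_ne_zero 2 hq))
          (mul_ne_zero h0 (sub_ne_zero.mpr h1))) ?_
        intro h5
        apply hG
        linear_combination h5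
      exact h4 hW.symm

end LambdaLine

/-! ### The `t`-line `λ = 16 t^N` -/

section TLine

open Fermat.Agent.N4.Lambda

theorem eval_derivative_C_mul_X_pow (c t₀ : ℂ) (N : ℕ) :
    (derivative (C c * X ^ N : ℂ[X])).eval t₀ = c * (N * t₀ ^ (N - 1)) := by
  simp only [derivative_mul, derivative_C, zero_mul, zero_add, derivative_X_pow, eval_mul,
    eval_C, eval_pow, eval_X]

/-- **The `t`-line `λ = 16 t^N` is an orbifold-étale cover of the `j`-line away from `t = 0`,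
`λ = 1`.** -/
theorem isJCover_lambda_t (N : ℕ) (hN : N ≠ 0) :
    IsJCover ((jNumPoly ℂ).comp (C 16 * X ^ N)) ((jDenPoly ℂ).comp (C 16 * X ^ N))
      (fun t₀ => t₀ ≠ 0 ∧ 16 * t₀ ^ N ≠ 1) := by
  refine isJCover_lambda.comp _ ?_
  rintro t₀ ⟨h0, h1⟩
  refine ⟨⟨?_, ?_⟩, ?_⟩
  · rw [eval_mul, eval_C, eval_pow, eval_X]
    exact mul_ne_zero (by norm_num) (pow_ne_zero N h0)
  · rw [eval_mul, eval_C, eval_pow, eval_X]
    exact h1
  · rw [eval_derivative_C_mul_X_pow]
    exact mul_ne_zero (by norm_num)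
      (mul_ne_zero (Nat.cast_ne_zero.mpr hN) (pow_ne_zero _ h0))

end TLine

/-! ### The Hesse `m`-line -/

section HesseLine

open Fermat.Agent.N4.Hesse

theorem jNumHPoly_eq : jNumHPoly ℂ = C 27 * (X * (X ^ 3 + 8)) ^ 3 := by
  rw [jNumHPoly, jNumH_def, map_ofNat]
  ring

theorem jNumHPoly_sub_jDenHPoly :
    jNumHPoly ℂ - C 1728 * jDenHPoly ℂ = C 27 * (X ^ 6 - 20 * X ^ 3 - 8) ^ 2 := by
  rw [jNumHPoly, jDenHPoly, map_ofNat, map_ofNat]
  exact jNumH_sub_jDenH (X : ℂ[X])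

/-- **The Hesse `m`-line is an orbifold-étale cover of the `j`-line away from `m³ = 1`.** -/
theorem isJCover_hesse :
    IsJCover (jNumHPoly ℂ) (jDenHPoly ℂ) (fun t₀ => t₀ ^ 3 ≠ 1) := by
  have hden : ∀ t₀ : ℂ, t₀ ^ 3 ≠ 1 → (jDenHPoly ℂ).eval t₀ ≠ 0 := by
    intro t₀ h1
    rw [eval_jDenHPoly, jDenH_def]
    exact pow_ne_zero 3 (sub_ne_zero.mpr h1)
  refine IsJCover.of_simple hden fun t₀ ht₀ => ?_
  have hB := hden t₀ ht₀
  have h1 : t₀ ^ 3 - 1 ≠ 0 := sub_ne_zero.mpr ht₀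
  rw [eval_jNumHPoly, eval_jDenHPoly] at *
  set j₀ := jNumH t₀ / jDenH t₀ with hj₀
  have hj₀' : jNumH t₀ = j₀ * jDenH t₀ := by rw [hj₀, div_mul_cancel₀ _ hB]
  by_cases hc0 : j₀ = 0
  · -- `j₀ = 0`: `m (m³ + 8) = 0`, multiplicity `3`
    have hq : t₀ * (t₀ ^ 3 + 8) = 0 := by
      have h2 : jNumH t₀ = 0 := by rw [hj₀', hc0, zero_mul]
      rw [jNumH_def] at h2
      have h3 : (t₀ * (t₀ ^ 3 + 8)) ^ 3 = 0 := by
        have : (27 : ℂ) * (t₀ * (t₀ ^ 3 + 8)) ^ 3 = 0 := by linear_combination h2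
        exact (mul_eq_zero.mp this).resolve_left (by norm_num)
      exact pow_eq_zero_iff (by norm_num) |>.mp h3
    refine ⟨C 27, X * (X ^ 3 + 8), ?_, ?_, ?_, ?_⟩
    · rw [hc0, eJ_zero, map_zero, zero_mul, sub_zero, jNumHPoly_eq]
    · rw [eval_C]
      norm_num
    · simp only [eval_add, eval_mul, eval_pow, eval_X, eval_ofNat]
      exact hq
    · simp only [derivative_mul, derivative_add, derivative_X_pow, derivative_X, derivative_ofNat,
        eval_add, eval_mul, eval_pow, eval_X, eval_C, eval_ofNat, add_zero, one_mul,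
        Nat.cast_ofNat]
      intro h2
      rcases mul_eq_zero.mp hq with h3 | h3
      · rw [h3] at h2
        norm_num at h2
      · have h4 : t₀ ^ 3 = -8 := by linear_combination h3
        have h5 : t₀ * (3 * t₀ ^ 2) = 3 * t₀ ^ 3 := by ring
        rw [h5, h4] at h2
        norm_num at h2
  by_cases hc1 : j₀ = 1728
  · -- `j₀ = 1728`: multiplicity `2`
    have hG : t₀ ^ 6 - 20 * t₀ ^ 3 - 8 = 0 := by
      have h2 : jNumH t₀ - 1728 * jDenH t₀ = 0 := by rw [hj₀', hc1, sub_self]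
      rw [jNumH_sub_jDenH] at h2
      have h3 := (mul_eq_zero.mp h2).resolve_left (by norm_num)
      exact pow_eq_zero_iff (by norm_num) |>.mp h3
    refine ⟨C 27, X ^ 6 - 20 * X ^ 3 - 8, ?_, ?_, ?_, ?_⟩
    · rw [hc1, eJ_1728, jNumHPoly_sub_jDenHPoly]
    · rw [eval_C]
      norm_num
    · simp only [eval_sub, eval_mul, eval_pow, eval_X, eval_ofNat]
      exact hG
    · simp only [derivative_sub, derivative_mul, derivative_X_pow, derivative_ofNat,
        eval_sub, eval_mul, eval_pow, eval_X, eval_C, eval_ofNat, zero_mul,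
        zero_add, sub_zero, Nat.cast_ofNat]
      intro h2
      have h3 : 6 * t₀ ^ 2 * (t₀ ^ 3 - 10) = 0 := by
        have e5 : (6 : ℕ) - 1 = 5 := rfl
        have e2 : (3 : ℕ) - 1 = 2 := rfl
        rw [e5, e2] at h2
        linear_combination h2
      rcases mul_eq_zero.mp h3 with h4 | h4
      · have h5 : t₀ = 0 := by
          have := (mul_eq_zero.mp h4).resolve_left (by norm_num)
          exact pow_eq_zero_iff (by norm_num) |>.mp this
        rw [h5] at hG
        norm_num at hG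
      · have h5 : t₀ ^ 3 = 10 := by linear_combination h4
        have h6 : t₀ ^ 6 = (t₀ ^ 3) ^ 2 := by ring
        rw [h6, h5] at hG
        norm_num at hG
  · -- generic point: multiplicity `1`
    have hq : t₀ * (t₀ ^ 3 + 8) ≠ 0 := by
      intro hq
      apply hc0
      rw [hj₀, jNumH_def]
      have : (27 : ℂ) * t₀ ^ 3 * (t₀ ^ 3 + 8) ^ 3 = 27 * (t₀ * (t₀ ^ 3 + 8)) ^ 3 := by ring
      rw [this, hq]
      simp
    have hG : t₀ ^ 6 - 20 * t₀ ^ 3 - 8 ≠ 0 := by
      intro hG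
      apply hc1
      have h2 := jNumH_sub_jDenH t₀
      rw [hG] at h2
      rw [hj₀, div_eq_iff hB]
      linear_combination h2
    refine ⟨1, jNumHPoly ℂ - C j₀ * jDenHPoly ℂ, ?_, ?_, ?_, ?_⟩
    · rw [eJ_of_ne hc0 hc1, pow_one, one_mul]
    · rw [eval_one]
      exact one_ne_zero
    · rw [eval_sub, eval_mul, eval_C, eval_jNumHPoly, eval_jDenHPoly, hj₀', sub_self]
    · rw [derivative_sub, derivative_mul, derivative_C, zero_mul, zero_add, eval_sub, eval_mul,
        eval_C]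
      intro h2
      have hW := congrArg (eval t₀) (wronskianH (A := ℂ))
      simp only [eval_sub, eval_mul, eval_jNumHPoly, eval_jDenHPoly, eval_pow, eval_add, eval_X,
        eval_one, eval_ofNat] at hW
      have h3 : eval t₀ (derivative (jNumHPoly ℂ)) * jDenH t₀ -
          jNumH t₀ * eval t₀ (derivative (jDenHPoly ℂ)) = 0 := by
        rw [hj₀']
        linear_combination jDenH t₀ * h2
      rw [h3] at hW
      have h4 : (81 : ℂ) * t₀ ^ 2 * (t₀ ^ 3 + 8) ^ 2 * (t₀ ^ 3 - 1) ^ 2 *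
          (t₀ ^ 6 - 20 * t₀ ^ 3 - 8) ≠ 0 := by
        have ht : t₀ ≠ 0 := left_ne_zero_of_mul hq
        have h8 : t₀ ^ 3 + 8 ≠ 0 := right_ne_zero_of_mul hq
        exact mul_ne_zero (mul_ne_zero (mul_ne_zero (mul_ne_zero (by norm_num)
          (pow_ne_zero 2 ht)) (pow_ne_zero 2 h8)) (pow_ne_zero 2 h1)) hG
      exact h4 hW.symm

end HesseLine

/-! ### The Hesse cusp line `n = 1/m` and the `t`-line `n = 3 t^N` -/

section HesseCusp

open Fermat.Agent.N4.Hesse

variable {R : Type*} [CommRing R]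

/-- The numerator `27 (1 + 8 n³)³` of `j` as a function of `n = 1/m`. -/
def jNumC (n : R) : R := 27 * (1 + 8 * n ^ 3) ^ 3

/-- The denominator `n³ (1 - n³)³` of `j` as a function of `n = 1/m`. -/
def jDenC (n : R) : R := n ^ 3 * (1 - n ^ 3) ^ 3

theorem jNumC_def (n : R) : jNumC n = 27 * (1 + 8 * n ^ 3) ^ 3 := rfl

theorem jDenC_def (n : R) : jDenC n = n ^ 3 * (1 - n ^ 3) ^ 3 := rfl

theorem jNumH_mul_pow {m n : R} (h : m * n = 1) : jNumH m * n ^ 12 = jNumC n := by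
  have h3 : m ^ 3 * n ^ 3 = 1 := by rw [← mul_pow, h, one_pow]
  have e : (m ^ 3 + 8) * n ^ 3 = 1 + 8 * n ^ 3 := by linear_combination h3
  calc jNumH m * n ^ 12 = 27 * (m ^ 3 * n ^ 3) * ((m ^ 3 + 8) * n ^ 3) ^ 3 := by
        rw [jNumH_def]; ring
    _ = jNumC n := by rw [h3, e, jNumC_def]; ring

theorem jDenH_mul_pow {m n : R} (h : m * n = 1) : jDenH m * n ^ 12 = jDenC n := by
  have h3 : m ^ 3 * n ^ 3 = 1 := by rw [← mul_pow, h, one_pow]
  have e : (m ^ 3 - 1) * n ^ 3 = 1 - n ^ 3 := by linear_combination h3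
  calc jDenH m * n ^ 12 = ((m ^ 3 - 1) * n ^ 3) ^ 3 * n ^ 3 := by
        rw [jDenH_def]; ring
    _ = jDenC n := by rw [e, jDenC_def]; ring

theorem jNumC_sub_jDenC (n : R) :
    jNumC n - 1728 * jDenC n = 27 * (1 - 20 * n ^ 3 - 8 * n ^ 6) ^ 2 := by
  rw [jNumC_def, jDenC_def]; ring

/-- `27 (1 + 8 X³)³`. -/
noncomputable def jNumCPoly (R : Type*) [CommRing R] : R[X] := jNumC (X : R[X])

/-- `X³ (1 - X³)³`. -/
noncomputable def jDenCPoly (R : Type*) [CommRing R] : R[X] := jDenC (X : R[X])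

theorem eval_jNumCPoly (a : R) : (jNumCPoly R).eval a = jNumC a := by
  simp [jNumCPoly, jNumC_def]

theorem eval_jDenCPoly (a : R) : (jDenCPoly R).eval a = jDenC a := by
  simp [jDenCPoly, jDenC_def]

theorem aeval_jNumCPoly {B : Type*} [CommRing B] [Algebra R B] (b : B) :
    aeval b (jNumCPoly R) = jNumC b := by
  simp [jNumCPoly, jNumC_def, map_ofNat]

theorem aeval_jDenCPoly {B : Type*} [CommRing B] [Algebra R B] (b : B) :
    aeval b (jDenCPoly R) = jDenC b := by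
  simp [jDenCPoly, jDenC_def]

theorem wronskianC :
    derivative (jNumCPoly R) * jDenCPoly R - jNumCPoly R * derivative (jDenCPoly R) =
      -81 * X ^ 2 * (1 + 8 * X ^ 3) ^ 2 * (1 - X ^ 3) ^ 2 * (1 - 20 * X ^ 3 - 8 * X ^ 6) := by
  have h1 : derivative (jNumCPoly R) = 1944 * X ^ 2 * (1 + 8 * X ^ 3) ^ 2 := by
    simp only [jNumCPoly, jNumC_def, derivative_mul, derivative_pow, derivative_add,
      derivative_X, derivative_one, derivative_ofNat, Nat.cast_ofNat, map_ofNat]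
    ring
  have h2 : derivative (jDenCPoly R) = 3 * X ^ 2 * (1 - X ^ 3) ^ 2 * (1 - 4 * X ^ 3) := by
    simp only [jDenCPoly, jDenC_def, derivative_mul, derivative_pow, derivative_sub,
      derivative_X, derivative_one, Nat.cast_ofNat, map_ofNat]
    ring
  rw [h1, h2, jNumCPoly, jDenCPoly, jNumC_def, jDenC_def]
  ring

theorem jNumCPoly_eq : jNumCPoly ℂ = C 27 * (1 + 8 * X ^ 3) ^ 3 := by
  rw [jNumCPoly, jNumC_def, map_ofNat]

theorem jNumCPoly_sub_jDenCPoly :
    jNumCPoly ℂ - C 1728 * jDenCPoly ℂ = C 27 * (1 - 20 * X ^ 3 - 8 * X ^ 6) ^ 2 := by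
  rw [jNumCPoly, jDenCPoly, map_ofNat, map_ofNat]
  exact jNumC_sub_jDenC (X : ℂ[X])

/-- **The Hesse cusp line `n = 1/m` is an orbifold-étale cover of the `j`-line away from `n = 0`,
`n³ = 1`.** -/
theorem isJCover_hesseC :
    IsJCover (jNumCPoly ℂ) (jDenCPoly ℂ) (fun t₀ => t₀ ≠ 0 ∧ t₀ ^ 3 ≠ 1) := by
  have hden : ∀ t₀ : ℂ, t₀ ≠ 0 ∧ t₀ ^ 3 ≠ 1 → (jDenCPoly ℂ).eval t₀ ≠ 0 := by
    rintro t₀ ⟨h0, h1⟩
    rw [eval_jDenCPoly, jDenC_def]
    exact mul_ne_zero (pow_ne_zero 3 h0) (pow_ne_zero 3 (sub_ne_zero.mpr (Ne.symm h1)))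
  refine IsJCover.of_simple hden fun t₀ ht₀ => ?_
  have hB := hden t₀ ht₀
  obtain ⟨h0, h1'⟩ := ht₀
  have h1 : 1 - t₀ ^ 3 ≠ 0 := sub_ne_zero.mpr (Ne.symm h1')
  rw [eval_jNumCPoly, eval_jDenCPoly] at *
  set j₀ := jNumC t₀ / jDenC t₀ with hj₀
  have hj₀' : jNumC t₀ = j₀ * jDenC t₀ := by rw [hj₀, div_mul_cancel₀ _ hB]
  by_cases hc0 : j₀ = 0
  · -- `j₀ = 0`: `1 + 8 n³ = 0`, multiplicity `3`
    have hq : 1 + 8 * t₀ ^ 3 = 0 := by
      have h2 : jNumC t₀ = 0 := by rw [hj₀', hc0, zero_mul]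
      rw [jNumC_def] at h2
      have h3 := (mul_eq_zero.mp h2).resolve_left (by norm_num)
      exact pow_eq_zero_iff (by norm_num) |>.mp h3
    refine ⟨C 27, 1 + 8 * X ^ 3, ?_, ?_, ?_, ?_⟩
    · rw [hc0, eJ_zero, map_zero, zero_mul, sub_zero, jNumCPoly_eq]
    · rw [eval_C]
      norm_num
    · simp only [eval_add, eval_mul, eval_pow, eval_X, eval_ofNat, eval_one]
      exact hq
    · simp only [derivative_mul, derivative_add, derivative_X_pow, derivative_one,
        derivative_ofNat, eval_mul, eval_pow, eval_X, eval_C, eval_ofNat, zero_add,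
        zero_mul, Nat.cast_ofNat]
      exact mul_ne_zero (by norm_num) (mul_ne_zero (by norm_num) (pow_ne_zero _ h0))
  by_cases hc1 : j₀ = 1728
  · -- `j₀ = 1728`: multiplicity `2`
    have hG : 1 - 20 * t₀ ^ 3 - 8 * t₀ ^ 6 = 0 := by
      have h2 : jNumC t₀ - 1728 * jDenC t₀ = 0 := by rw [hj₀', hc1, sub_self]
      rw [jNumC_sub_jDenC] at h2
      have h3 := (mul_eq_zero.mp h2).resolve_left (by norm_num)
      exact pow_eq_zero_iff (by norm_num) |>.mp h3
    refine ⟨C 27, 1 - 20 * X ^ 3 - 8 * X ^ 6, ?_, ?_, ?_, ?_⟩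
    · rw [hc1, eJ_1728, jNumCPoly_sub_jDenCPoly]
    · rw [eval_C]
      norm_num
    · simp only [eval_sub, eval_mul, eval_pow, eval_X, eval_ofNat, eval_one]
      exact hG
    · simp only [derivative_sub, derivative_mul, derivative_X_pow, derivative_ofNat,
        derivative_one, eval_sub, eval_mul, eval_pow, eval_X, eval_C, eval_ofNat, zero_mul,
        zero_add, zero_sub, Nat.cast_ofNat, eval_neg]
      intro h2
      have h3 : t₀ ^ 2 * (5 + 4 * t₀ ^ 3) = 0 := by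
        have e5 : (6 : ℕ) - 1 = 5 := rfl
        have e2 : (3 : ℕ) - 1 = 2 := rfl
        rw [e5, e2] at h2
        linear_combination (-1 / 12 : ℂ) * h2
      have h4 : 5 + 4 * t₀ ^ 3 = 0 := (mul_eq_zero.mp h3).resolve_left (pow_ne_zero 2 h0)
      have h5 : (216 : ℂ) = 0 := by
        linear_combination 16 * hG + (40 + 32 * t₀ ^ 3) * h4
      norm_num at h5
  · -- generic point: multiplicity `1`
    have hq : 1 + 8 * t₀ ^ 3 ≠ 0 := by
      intro hq
      apply hc0
      rw [hj₀, jNumC_def, hq]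
      simp
    have hG : 1 - 20 * t₀ ^ 3 - 8 * t₀ ^ 6 ≠ 0 := by
      intro hG
      apply hc1
      have h2 := jNumC_sub_jDenC t₀
      rw [hG] at h2
      rw [hj₀, div_eq_iff hB]
      linear_combination h2
    refine ⟨1, jNumCPoly ℂ - C j₀ * jDenCPoly ℂ, ?_, ?_, ?_, ?_⟩
    · rw [eJ_of_ne hc0 hc1, pow_one, one_mul]
    · rw [eval_one]
      exact one_ne_zero
    · rw [eval_sub, eval_mul, eval_C, eval_jNumCPoly, eval_jDenCPoly, hj₀', sub_self]
    · rw [derivative_sub, derivative_mul, derivative_C, zero_mul, zero_add, eval_sub, eval_mul,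
        eval_C]
      intro h2
      have hW := congrArg (eval t₀) (wronskianC (R := ℂ))
      simp only [eval_sub, eval_mul, eval_jNumCPoly, eval_jDenCPoly, eval_pow, eval_add, eval_X,
        eval_one, eval_ofNat, eval_neg] at hW
      have h3 : eval t₀ (derivative (jNumCPoly ℂ)) * jDenC t₀ -
          jNumC t₀ * eval t₀ (derivative (jDenCPoly ℂ)) = 0 := by
        rw [hj₀']
        linear_combination jDenC t₀ * h2
      rw [h3] at hW
      have h4 : (-81 : ℂ) * t₀ ^ 2 * (1 + 8 * t₀ ^ 3) ^ 2 * (1 - t₀ ^ 3) ^ 2 *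
          (1 - 20 * t₀ ^ 3 - 8 * t₀ ^ 6) ≠ 0 :=
        mul_ne_zero (mul_ne_zero (mul_ne_zero (mul_ne_zero (by norm_num)
          (pow_ne_zero 2 h0)) (pow_ne_zero 2 hq)) (pow_ne_zero 2 h1)) hG
      exact h4 hW.symm

/-- **The Hesse cusp `t`-line `n = 3 t^N`.** -/
theorem isJCover_hesseC_t (N : ℕ) (hN : N ≠ 0) :
    IsJCover ((jNumCPoly ℂ).comp (C 3 * X ^ N)) ((jDenCPoly ℂ).comp (C 3 * X ^ N))
      (fun t₀ => t₀ ≠ 0 ∧ (3 * t₀ ^ N) ^ 3 ≠ 1) := by
  refine isJCover_hesseC.comp _ ?_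
  rintro t₀ ⟨h0, h1⟩
  refine ⟨⟨?_, ?_⟩, ?_⟩
  · rw [eval_mul, eval_C, eval_pow, eval_X]
    exact mul_ne_zero (by norm_num) (pow_ne_zero N h0)
  · rw [eval_mul, eval_C, eval_pow, eval_X]
    exact h1
  · rw [eval_derivative_C_mul_X_pow]
    exact mul_ne_zero (by norm_num)
      (mul_ne_zero (Nat.cast_ne_zero.mpr hN) (pow_ne_zero _ h0))

end HesseCusp

end Fermat.Agent.N4.Char0
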