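/-
N4, block M (helper10), part (M5-B): the Hesse `μ`-line inside a field (`ℓ = 2`).

`Ω` is a field, `j m : Ω` satisfy the Hesse equation `27 m³ (m³ + 8)³ = j (m³ − 1)³`
(`HesseEq j m`).  We prove:
* `ζ m` (`ζ³ = 1`) and `(m + 2)/(m − 1)` satisfy the same equation;
* `m`, `1/(m³ − 1)` are integral over `O[j]` for every base ring `O → Ω` in which `3` is
  invertible, `1/m` is integral over `O[1/j]`; `m` is transcendental over `O` when `j` is;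
* the cusp functions `u_∞ = 9/(m³ + 8)` (zero at the cusp `m = ∞`) and
  `U = (m³ − 1)³/(m³ (m³ + 8)²)` (zero at the cusps `m³ = 1`): `u_∞ U = 3⁵/j`,
  `u_∞ (u_∞ − 1)³ = (216 u_∞ − 243)/j`, `U = 216/j − (u_∞ − 1)³` (so `U ≡ 1` modulo a prime
  containing `1/j` and `u_∞`), `U = u₁(m) u₁(ζ m) u₁(ζ² m)` with
  `u₁(m) = (m − 1)³/(m (m² − 2m + 4)) = u_∞((m + 2)/(m − 1))`.
-/
import Fermat.Agent.N4.HesseLine

set_option autoImplicit false

namespace Fermat.Agent.N4.Hesse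

open Polynomial

section Eq

variable {Ω : Type*} [Field Ω]

/-- The Hesse relation `27 m³ (m³ + 8)³ = j (m³ − 1)³` between `j` and `m`. -/
def HesseEq (j m : Ω) : Prop := jNumH m = j * jDenH m

variable {j m : Ω}

theorem hesseEq_iff : HesseEq j m ↔ jNumH m = j * jDenH m := Iff.rfl

theorem pow_three_ne_zero (h3 : (3 : Ω) ≠ 0) (n : ℕ) : (3 : Ω) ^ n ≠ 0 := pow_ne_zero n h3

theorem HesseEq.cube_sub_one_ne_zero (h : HesseEq j m) (h3 : (3 : Ω) ≠ 0) : m ^ 3 - 1 ≠ 0 := by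
  intro h0
  have h1 : jNumH m = 0 := by
    rw [show jNumH m = j * jDenH m from h, jDenH_def, h0]; ring
  have hm : m ^ 3 = 1 := sub_eq_zero.mp h0
  rw [jNumH_def, hm] at h1
  have : (27 * 1 * (1 + 8) ^ 3 : Ω) = 3 ^ 9 := by norm_num
  rw [this] at h1
  exact pow_three_ne_zero h3 9 h1

theorem HesseEq.jDenH_ne_zero (h : HesseEq j m) (h3 : (3 : Ω) ≠ 0) : jDenH m ≠ 0 := by
  rw [jDenH_def]
  exact pow_ne_zero 3 (h.cube_sub_one_ne_zero h3)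

theorem HesseEq.sub_one_ne_zero (h : HesseEq j m) (h3 : (3 : Ω) ≠ 0) : m - 1 ≠ 0 := by
  intro h0
  apply h.cube_sub_one_ne_zero h3
  rw [cube_sub_one, h0, zero_mul]

theorem HesseEq.j_eq (h : HesseEq j m) (h3 : (3 : Ω) ≠ 0) : j = jNumH m / jDenH m := by
  rw [eq_div_iff (h.jDenH_ne_zero h3)]
  exact h.symm

theorem hesseEq_of_j_eq (h0 : jDenH m ≠ 0) (h : j = jNumH m / jDenH m) : HesseEq j m := by
  rw [HesseEq, h, div_mul_cancel₀ _ h0]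

theorem HesseEq.jNumH_ne_zero (h : HesseEq j m) (h3 : (3 : Ω) ≠ 0) (hj : j ≠ 0) :
    jNumH m ≠ 0 := by
  rw [show jNumH m = j * jDenH m from h]
  exact mul_ne_zero hj (h.jDenH_ne_zero h3)

theorem HesseEq.ne_zero (h : HesseEq j m) (h3 : (3 : Ω) ≠ 0) (hj : j ≠ 0) : m ≠ 0 := by
  intro h0
  apply h.jNumH_ne_zero h3 hj
  rw [jNumH_def, h0]; ring

theorem HesseEq.cube_add_eight_ne_zero (h : HesseEq j m) (h3 : (3 : Ω) ≠ 0) (hj : j ≠ 0) :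
    m ^ 3 + 8 ≠ 0 := by
  intro h0
  apply h.jNumH_ne_zero h3 hj
  rw [jNumH_def, h0]; ring

/-- `m ↦ ζ m` preserves the Hesse equation. -/
theorem HesseEq.mul_root (h : HesseEq j m) {z : Ω} (hz : z ^ 3 = 1) : HesseEq j (z * m) := by
  rw [HesseEq, jNumH_mul_root hz, jDenH_mul_root hz]
  exact h

/-- `m ↦ (m + 2)/(m − 1)` preserves the Hesse equation. -/
theorem HesseEq.moebius (h : HesseEq j m) (h3 : (3 : Ω) ≠ 0) :
    HesseEq j ((m + 2) / (m - 1)) := by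
  have h1 := h.sub_one_ne_zero h3
  have hb : (m + 2) / (m - 1) * (m - 1) = m + 2 := div_mul_cancel₀ _ h1
  have h12 : (m - 1) ^ 12 ≠ 0 := pow_ne_zero 12 h1
  rw [HesseEq]
  apply mul_right_cancel₀ h12
  rw [jNumH_moebius hb, mul_assoc, jDenH_moebius hb, show jNumH m = j * jDenH m from h]
  ring

/-- The Möbius transformation `m ↦ (m + 2)/(m − 1)` is an involution. -/
theorem moebius_moebius (h1 : m - 1 ≠ 0) (h3 : (3 : Ω) ≠ 0) :
    ((m + 2) / (m - 1) + 2) / ((m + 2) / (m - 1) - 1) = m := by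
  have e1 : (m + 2) / (m - 1) + 2 = 3 * m / (m - 1) := by
    rw [eq_div_iff h1, add_mul, div_mul_cancel₀ _ h1]; ring
  have e2 : (m + 2) / (m - 1) - 1 = 3 / (m - 1) := by
    rw [eq_div_iff h1, sub_mul, div_mul_cancel₀ _ h1]; ring
  rw [e1, e2, div_div_div_cancel_right₀ h1, mul_div_cancel_left₀ _ h3]

end Eq

section Integral

variable {O Ω : Type*} [CommRing O] [Field Ω] [Algebra O Ω] {j m : Ω}

/-- `27` is a unit when `3` is. -/
theorem exists_inv_27 (h3 : IsUnit (3 : O)) : ∃ c : O, 27 * c = 1 := by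
  obtain ⟨u, hu⟩ := h3.exists_right_inv
  refine ⟨u ^ 3, ?_⟩
  have : (27 : O) = 3 ^ 3 := by norm_num
  rw [this, ← mul_pow, hu, one_pow]

theorem isUnit_three_field (h3 : IsUnit (3 : O)) : (3 : Ω) ≠ 0 := by
  have := (h3.map (algebraMap O Ω)).ne_zero
  rwa [map_ofNat] at this

/-- A solution `m` of the Hesse equation is integral over every subalgebra containing `j`, as soon
as `3 ∈ Oˣ`. -/
theorem HesseEq.isIntegral_subalgebra (h : HesseEq j m) (h3 : IsUnit (3 : O))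
    {A : Subalgebra O Ω} (hjmem : j ∈ A) : IsIntegral A m := by
  obtain ⟨c, hc⟩ := exists_inv_27 h3
  let jA : A := ⟨j, hjmem⟩
  let cA : A := algebraMap O A c
  have hcΩ : (27 : Ω) * algebraMap O Ω c = 1 := by
    have := congrArg (algebraMap O Ω) hc
    rwa [map_mul, map_ofNat, map_one] at this
  have hcA : algebraMap A Ω cA = algebraMap O Ω c := rfl
  have hjA : algebraMap A Ω jA = j := rfl
  refine ⟨X ^ 12 + (C (24 - cA * jA) * X ^ 9 + C (192 + 3 * cA * jA) * X ^ 6 +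
    C (512 - 3 * cA * jA) * X ^ 3 + C (cA * jA)), by monicity!, ?_⟩
  simp only [eval₂_add, eval₂_mul, eval₂_pow, eval₂_X, eval₂_C]
  simp only [map_sub, map_add, map_mul, map_ofNat, hcA, hjA]
  have hs : jNumH m = j * jDenH m := h
  rw [jNumH_def, jDenH_def] at hs
  linear_combination (algebraMap O Ω c) * hs - (m ^ 3 * (m ^ 3 + 8) ^ 3) * hcΩ

theorem HesseEq.isIntegral (h : HesseEq j m) (h3 : IsUnit (3 : O)) :
    IsIntegral (Algebra.adjoin O {j}) m :=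
  h.isIntegral_subalgebra h3 (Algebra.subset_adjoin rfl)

/-- `1/(m³ − 1)` is integral over every subalgebra containing `j`, as soon as `3 ∈ Oˣ`. -/
theorem HesseEq.isIntegral_cube_sub_one_inv_subalgebra (h : HesseEq j m) (h3 : IsUnit (3 : O))
    {A : Subalgebra O Ω} (hjmem : j ∈ A) : IsIntegral A (m ^ 3 - 1)⁻¹ := by
  have h3' := isUnit_three_field (Ω := Ω) h3
  have hy := h.cube_sub_one_ne_zero h3'
  obtain ⟨c, hc⟩ := exists_inv_27 h3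
  let jA : A := ⟨j, hjmem⟩
  let cA : A := algebraMap O A c
  have hcΩ : (27 : Ω) * algebraMap O Ω c = 1 := by
    have := congrArg (algebraMap O Ω) hc
    rwa [map_mul, map_ofNat, map_one] at this
  have hcA : algebraMap A Ω cA = algebraMap O Ω c := rfl
  have hjA : algebraMap A Ω jA = j := rfl
  refine ⟨X ^ 4 + (C (36 * cA) * X ^ 3 + C (10 * cA) * X ^ 2 +
    C (28 * cA ^ 2 - cA ^ 3 * jA) * X + C (cA ^ 2)), by monicity!, ?_⟩
  simp only [eval₂_add, eval₂_mul, eval₂_pow, eval₂_X, eval₂_C]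
  simp only [map_sub, map_mul, map_pow, map_ofNat, hcA, hjA]
  have hs : jNumH m = j * jDenH m := h
  rw [jNumH_def, jDenH_def] at hs
  -- with `y = m³ − 1`, `w = 1/y`: `27 (y + 1)(y + 9)³ = j y³`
  set y : Ω := m ^ 3 - 1 with hy_def
  have hm : m ^ 3 = y + 1 := by rw [hy_def]; ring
  rw [hm] at hs
  have hw : y * y⁻¹ = 1 := mul_inv_cancel₀ hy
  set w : Ω := y⁻¹ with hw_def
  set d : Ω := algebraMap O Ω c with hd_def
  -- multiply `hs` by `w⁴ d³` and use `y w = 1`, `27 d = 1`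
  have key : 27 * (1 + w) * (1 + 9 * w) ^ 3 = j * w := by
    have e1 : 27 * (1 + w) * (1 + 9 * w) ^ 3 = (27 * (y + 1) * (y + 1 + 8) ^ 3) * w ^ 4 := by
      have : ∀ a b : Ω, (y + a) * w = 1 + a * w := by
        intro a b; rw [add_mul, hw]
      calc 27 * (1 + w) * (1 + 9 * w) ^ 3
          = 27 * ((y + 1) * w) * ((y + 9) * w) ^ 3 := by rw [this 1 0, this 9 0, one_mul]
        _ = (27 * (y + 1) * (y + 1 + 8) ^ 3) * w ^ 4 := by ring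
    rw [e1, hs]
    calc j * y ^ 3 * w ^ 4 = j * (y * w) ^ 3 * w := by ring
      _ = j * w := by rw [hw, one_pow, mul_one]
  linear_combination (d ^ 3) * key - (w ^ 4 * (1 + 27 * d + 729 * d ^ 2)
    + 36 * d * w ^ 3 * (1 + 27 * d) + 10 * d * w ^ 2 * (1 + 27 * d) + 28 * d ^ 2 * w + d ^ 2) * hcΩ

theorem HesseEq.isIntegral_cube_sub_one_inv (h : HesseEq j m) (h3 : IsUnit (3 : O)) :
    IsIntegral (Algebra.adjoin O {j}) (m ^ 3 - 1)⁻¹ :=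
  h.isIntegral_cube_sub_one_inv_subalgebra h3 (Algebra.subset_adjoin rfl)

/-- `1/m` is integral over every subalgebra containing `1/j` (no condition on `3`). -/
theorem HesseEq.isIntegral_inv_subalgebra (h : HesseEq j m) (h3 : (3 : Ω) ≠ 0) (hj : j ≠ 0)
    {A : Subalgebra O Ω} (hw : j⁻¹ ∈ A) : IsIntegral A m⁻¹ := by
  have hm := h.ne_zero h3 hj
  let wA : A := ⟨j⁻¹, hw⟩
  have hwA : algebraMap A Ω wA = j⁻¹ := rfl
  refine ⟨X ^ 12 + (C (-3 + 13824 * wA) * X ^ 9 + C (3 + 5184 * wA) * X ^ 6 +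
    C (-1 + 648 * wA) * X ^ 3 + C (27 * wA)), by monicity!, ?_⟩
  simp only [eval₂_add, eval₂_mul, eval₂_pow, eval₂_X, eval₂_C]
  simp only [map_add, map_neg, map_one, map_mul, map_ofNat, hwA]
  have hs : jNumH m = j * jDenH m := h
  rw [jNumH_def, jDenH_def] at hs
  have hms : m * m⁻¹ = 1 := mul_inv_cancel₀ hm
  have hjw : j * j⁻¹ = 1 := mul_inv_cancel₀ hj
  set s : Ω := m⁻¹ with hs_def
  set w : Ω := j⁻¹ with hw_def
  -- `27 (1 + 8 s³)³ = j s³ (1 − s³)³`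
  have key : 27 * (1 + 8 * s ^ 3) ^ 3 = j * (s ^ 3 * (1 - s ^ 3) ^ 3) := by
    have e1 : 27 * (1 + 8 * s ^ 3) ^ 3 = (27 * m ^ 3 * (m ^ 3 + 8) ^ 3) * s ^ 12 := by
      have : (m ^ 3 + 8) * s ^ 3 = 1 + 8 * s ^ 3 := by
        rw [add_mul, ← mul_pow, hms, one_pow]
      calc 27 * (1 + 8 * s ^ 3) ^ 3 = 27 * (m * s) ^ 3 * ((m ^ 3 + 8) * s ^ 3) ^ 3 := by
            rw [this, hms, one_pow, mul_one]
        _ = (27 * m ^ 3 * (m ^ 3 + 8) ^ 3) * s ^ 12 := by ring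
    have e2 : (m ^ 3 - 1) * s ^ 3 = 1 - s ^ 3 := by
      rw [sub_mul, ← mul_pow, hms, one_pow, one_mul]
    rw [e1, hs]
    calc j * (m ^ 3 - 1) ^ 3 * s ^ 12 = j * (s ^ 3 * ((m ^ 3 - 1) * s ^ 3) ^ 3) := by ring
      _ = j * (s ^ 3 * (1 - s ^ 3) ^ 3) := by rw [e2]
  linear_combination w * key + (s ^ 3 * (1 - s ^ 3) ^ 3) * hjw

/-- `m` is transcendental over `O` when `j` is. -/
theorem HesseEq.transcendental [IsDomain O] (h : HesseEq j m) (h3 : (3 : Ω) ≠ 0)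
    (hj : Transcendental O j) : Transcendental O m := by
  intro halg
  apply hj
  rw [h.j_eq h3, div_eq_mul_inv]
  have hmem : m ∈ Subalgebra.algebraicClosure O Ω := halg
  have h27 : (27 : Ω) ∈ Subalgebra.algebraicClosure O Ω := by
    exact_mod_cast (Subalgebra.algebraicClosure O Ω).natCast_mem 27
  have h8 : (8 : Ω) ∈ Subalgebra.algebraicClosure O Ω := by
    exact_mod_cast (Subalgebra.algebraicClosure O Ω).natCast_mem 8
  have hN : jNumH m ∈ Subalgebra.algebraicClosure O Ω := by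
    rw [jNumH_def]
    exact mul_mem (mul_mem h27 (pow_mem hmem 3)) (pow_mem (add_mem (pow_mem hmem 3) h8) 3)
  have hD : jDenH m ∈ Subalgebra.algebraicClosure O Ω := by
    rw [jDenH_def]
    exact pow_mem (sub_mem (pow_mem hmem 3) (one_mem _)) 3
  exact IsAlgebraic.mul hN (IsAlgebraic.inv hD)

end Integral

/-! ### The cusp functions -/

section Cusp

variable {Ω : Type*} [Field Ω] {j m : Ω}

/-- `u_∞ = 9/(m³ + 8)`: vanishes (to order `3`) at the cusp `m = ∞`, equals `1` at `m³ = 1`. -/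
noncomputable def uInfH (m : Ω) : Ω := 9 / (m ^ 3 + 8)

/-- `U = (m³ − 1)³/(m³ (m³ + 8)²)`: vanishes at the three cusps `m³ = 1`, equals `1` at `m = ∞`. -/
noncomputable def UH (m : Ω) : Ω := (m ^ 3 - 1) ^ 3 / (m ^ 3 * (m ^ 3 + 8) ^ 2)

/-- `u₁ = (m − 1)³/(m (m² − 2m + 4))`: vanishes at the cusp `m = 1`. -/
noncomputable def u1H (m : Ω) : Ω := (m - 1) ^ 3 / (m * (m ^ 2 - 2 * m + 4))

theorem uInfH_mul_root {z : Ω} (hz : z ^ 3 = 1) (m : Ω) : uInfH (z * m) = uInfH m := by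
  rw [uInfH, uInfH, mul_pow, hz, one_mul]

theorem UH_mul_root {z : Ω} (hz : z ^ 3 = 1) (m : Ω) : UH (z * m) = UH m := by
  rw [UH, UH, mul_pow, hz, one_mul]

theorem HesseEq.cube_sub_one_pow_eq (h : HesseEq j m) (hj : j ≠ 0) :
    (m ^ 3 - 1) ^ 3 = j⁻¹ * (27 * m ^ 3 * (m ^ 3 + 8) ^ 3) := by
  have hs : jNumH m = j * jDenH m := h
  rw [jNumH_def, jDenH_def] at hs
  rw [hs, ← mul_assoc, inv_mul_cancel₀ hj, one_mul]

/-- `u_∞ U = 3⁵/j`. -/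
theorem HesseEq.uInfH_mul_UH (h : HesseEq j m) (h3 : (3 : Ω) ≠ 0) (hj : j ≠ 0) :
    uInfH m * UH m = 243 * j⁻¹ := by
  have hm := h.ne_zero h3 hj
  have h8 := h.cube_add_eight_ne_zero h3 hj
  have hs := h.cube_sub_one_pow_eq hj
  rw [uInfH, UH, div_mul_div_comm, div_eq_iff (mul_ne_zero h8 (mul_ne_zero (pow_ne_zero 3 hm)
    (pow_ne_zero 2 h8)))]
  linear_combination (9 : Ω) * hs

/-- `u_∞` is a root of `X (X − 1)³ = (216 X − 243)/j`. -/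
theorem HesseEq.uInfH_quartic (h : HesseEq j m) (h3 : (3 : Ω) ≠ 0) (hj : j ≠ 0) :
    uInfH m * (uInfH m - 1) ^ 3 = (216 * uInfH m - 243) * j⁻¹ := by
  have hm := h.ne_zero h3 hj
  have h8 := h.cube_add_eight_ne_zero h3 hj
  have hs := h.cube_sub_one_pow_eq hj
  have e1 : uInfH m - 1 = -(m ^ 3 - 1) / (m ^ 3 + 8) := by
    rw [uInfH, eq_div_iff h8, sub_mul, div_mul_cancel₀ _ h8]; ring
  have e2 : 216 * uInfH m - 243 = -(243 * m ^ 3) / (m ^ 3 + 8) := by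
    rw [uInfH, eq_div_iff h8, sub_mul, mul_assoc, div_mul_cancel₀ _ h8]; ring
  rw [e1, e2, uInfH, div_pow, div_mul_div_comm, div_mul_eq_mul_div,
    div_eq_div_iff (mul_ne_zero h8 (pow_ne_zero 3 h8)) h8]
  linear_combination (-9 * (m ^ 3 + 8)) * hs

/-- `U = 216/j − (u_∞ − 1)³`; in particular `U ≡ 1` modulo an ideal containing `1/j` and `u_∞`. -/
theorem HesseEq.UH_eq (h : HesseEq j m) (h3 : (3 : Ω) ≠ 0) (hj : j ≠ 0) :
    UH m = 216 * j⁻¹ - (uInfH m - 1) ^ 3 := by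
  have h8 := h.cube_add_eight_ne_zero h3 hj
  have hu : uInfH m ≠ 0 := by
    rw [uInfH]; exact div_ne_zero (by
      have : (9 : Ω) = 3 ^ 2 := by norm_num
      rw [this]; exact pow_ne_zero 2 h3) h8
  apply mul_left_cancel₀ hu
  rw [h.uInfH_mul_UH h3 hj, mul_sub, h.uInfH_quartic h3 hj]
  ring

/-- `u₁(m) = u_∞((m + 2)/(m − 1))`. -/
theorem uInfH_moebius (h3 : (3 : Ω) ≠ 0) (h1 : m - 1 ≠ 0) :
    uInfH ((m + 2) / (m - 1)) = u1H m := by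
  have e : ((m + 2) / (m - 1)) ^ 3 + 8 = 9 * (m * (m ^ 2 - 2 * m + 4)) / (m - 1) ^ 3 := by
    rw [div_pow, eq_div_iff (pow_ne_zero 3 h1), add_mul, div_mul_cancel₀ _ (pow_ne_zero 3 h1)]
    ring
  have h9 : (9 : Ω) ≠ 0 := by
    have : (9 : Ω) = 3 ^ 2 := by norm_num
    rw [this]; exact pow_ne_zero 2 h3
  rw [uInfH, u1H, e, div_div_eq_mul_div, mul_div_mul_left _ _ h9]

theorem quad_ne_zero_of_cube_add_eight (h8 : m ^ 3 + 8 ≠ 0) : m ^ 2 - 2 * m + 4 ≠ 0 := by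
  intro h0
  apply h8
  rw [cube_add_eight, h0, mul_zero]

theorem add_two_ne_zero_of_cube_add_eight (h8 : m ^ 3 + 8 ≠ 0) : m + 2 ≠ 0 := by
  intro h0
  apply h8
  rw [cube_add_eight, h0, zero_mul]

/-- `u₁(m) = (m − 1)³ (m + 2)/(m (m³ + 8))`. -/
theorem u1H_eq (h8 : m ^ 3 + 8 ≠ 0) : u1H m = (m - 1) ^ 3 * (m + 2) / (m * (m ^ 3 + 8)) := by
  have h2 := add_two_ne_zero_of_cube_add_eight h8
  rw [u1H, cube_add_eight m, ← mul_div_mul_right _ _ h2]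
  congr 1; ring

/-- `U = u₁(m) u₁(ζ m) u₁(ζ² m)` for a primitive cube root of unity `ζ`. -/
theorem UH_eq_prod {z : Ω} (hz : z ^ 2 + z + 1 = 0) (h8 : m ^ 3 + 8 ≠ 0) :
    UH m = u1H m * u1H (z * m) * u1H (z ^ 2 * m) := by
  have hz3 : z ^ 3 = 1 := by linear_combination (z - 1) * hz
  have hz0 : z ≠ 0 := by
    intro h0; rw [h0] at hz3; norm_num at hz3
  have hz6 : (z ^ 2) ^ 3 = 1 := by rw [← pow_mul, show 2 * 3 = 3 * 2 from rfl, pow_mul, hz3, one_pow]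
  have h8a : (z * m) ^ 3 + 8 ≠ 0 := by rw [mul_pow, hz3, one_mul]; exact h8
  have h8b : (z ^ 2 * m) ^ 3 + 8 ≠ 0 := by rw [mul_pow, hz6, one_mul]; exact h8
  have hza : (z * m) ^ 3 = m ^ 3 := by rw [mul_pow, hz3, one_mul]
  have hzb : (z ^ 2 * m) ^ 3 = m ^ 3 := by rw [mul_pow, hz6, one_mul]
  rw [u1H_eq h8, u1H_eq h8a, u1H_eq h8b, hza, hzb, div_mul_div_comm, div_mul_div_comm, UH]
  have p1 : (m - 1) * (z * m - 1) * (z ^ 2 * m - 1) = m ^ 3 - 1 := by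
    linear_combination ((z - 1) * m ^ 3 - z * m ^ 2 + m) * hz
  have p2 : (m + 2) * (z * m + 2) * (z ^ 2 * m + 2) = m ^ 3 + 8 := by
    linear_combination ((z - 1) * m ^ 3 + 2 * z * m ^ 2 + 4 * m) * hz
  have p3 : m * (z * m) * (z ^ 2 * m) = m ^ 3 := by
    linear_combination ((z - 1) * m ^ 3) * hz
  have num : (m - 1) ^ 3 * (m + 2) * ((z * m - 1) ^ 3 * (z * m + 2)) *
      ((z ^ 2 * m - 1) ^ 3 * (z ^ 2 * m + 2)) = (m ^ 3 - 1) ^ 3 * (m ^ 3 + 8) := by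
    rw [← p1, ← p2]; ring
  have den : m * (m ^ 3 + 8) * (z * m * (m ^ 3 + 8)) * (z ^ 2 * m * (m ^ 3 + 8)) =
      m ^ 3 * (m ^ 3 + 8) ^ 2 * (m ^ 3 + 8) := by
    calc m * (m ^ 3 + 8) * (z * m * (m ^ 3 + 8)) * (z ^ 2 * m * (m ^ 3 + 8))
        = (m * (z * m) * (z ^ 2 * m)) * (m ^ 3 + 8) ^ 2 * (m ^ 3 + 8) := by ring
      _ = m ^ 3 * (m ^ 3 + 8) ^ 2 * (m ^ 3 + 8) := by rw [p3]
  rw [num, den, mul_div_mul_right _ _ h8]

theorem uInfH_ne_zero (h3 : (3 : Ω) ≠ 0) (h8 : m ^ 3 + 8 ≠ 0) : uInfH m ≠ 0 := by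
  rw [uInfH]
  refine div_ne_zero ?_ h8
  have : (9 : Ω) = 3 ^ 2 := by norm_num
  rw [this]; exact pow_ne_zero 2 h3

/-- `1/(1 + 8 s³) = 1 − (8/9) u_∞` for `s = 1/m`. -/
theorem one_sub_uInfH (h3 : (3 : Ω) ≠ 0) (hm : m ≠ 0) (h8 : m ^ 3 + 8 ≠ 0) :
    9 * (1 + 8 * m⁻¹ ^ 3)⁻¹ = 9 - 8 * uInfH m := by
  have h9 : (9 : Ω) ≠ 0 := by
    have : (9 : Ω) = 3 ^ 2 := by norm_num
    rw [this]; exact pow_ne_zero 2 h3
  have e : 1 + 8 * m⁻¹ ^ 3 = (m ^ 3 + 8) / m ^ 3 := by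
    rw [eq_div_iff (pow_ne_zero 3 hm), add_mul, mul_assoc, ← mul_pow, inv_mul_cancel₀ hm]; ring
  rw [e, inv_div, uInfH, mul_div_assoc', mul_div_assoc', eq_sub_iff_add_eq, ← add_div,
    div_eq_iff h8]
  ring

/-- `U` in terms of `s = 1/m`: `U = (1 − s³)³/(1 + 8 s³)²`. -/
theorem UH_inv (hm : m ≠ 0) : UH m = (1 - m⁻¹ ^ 3) ^ 3 / (1 + 8 * m⁻¹ ^ 3) ^ 2 := by
  have e1 : 1 - m⁻¹ ^ 3 = (m ^ 3 - 1) / m ^ 3 := by
    rw [eq_div_iff (pow_ne_zero 3 hm), sub_mul, ← mul_pow, inv_mul_cancel₀ hm]; ring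
  have e2 : 1 + 8 * m⁻¹ ^ 3 = (m ^ 3 + 8) / m ^ 3 := by
    rw [eq_div_iff (pow_ne_zero 3 hm), add_mul, mul_assoc, ← mul_pow, inv_mul_cancel₀ hm]; ring
  rw [e1, e2, UH, div_pow, div_pow, div_div_div_eq, ← pow_mul, ← pow_mul]
  have h9 : (m ^ 3) ^ 2 ≠ 0 := pow_ne_zero 2 (pow_ne_zero 3 hm)
  rw [show (m ^ (3 * 3) : Ω) = m ^ 3 * (m ^ 3) ^ 2 by ring,
    show (m ^ (3 * 2) : Ω) = (m ^ 3) ^ 2 by ring]
  rw [show (m ^ 3 - 1) ^ 3 * (m ^ 3) ^ 2 = ((m ^ 3 - 1) ^ 3) * (m ^ 3) ^ 2 from rfl,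
    show m ^ 3 * (m ^ 3) ^ 2 * (m ^ 3 + 8) ^ 2 = (m ^ 3 * (m ^ 3 + 8) ^ 2) * (m ^ 3) ^ 2 by ring,
    mul_div_mul_right _ _ h9]

/-- `1/j` in terms of `s = 1/m`: `27/j = s³ (1 − s³)³/(1 + 8 s³)³`. -/
theorem HesseEq.inv_j_eq (h : HesseEq j m) (h3 : (3 : Ω) ≠ 0) (hj : j ≠ 0) :
    27 * j⁻¹ * (1 + 8 * m⁻¹ ^ 3) ^ 3 = m⁻¹ ^ 3 * (1 - m⁻¹ ^ 3) ^ 3 := by
  have hm := h.ne_zero h3 hj
  have hs := h.cube_sub_one_pow_eq hj
  have hms : m * m⁻¹ = 1 := mul_inv_cancel₀ hm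
  set s : Ω := m⁻¹ with hs_def
  have e1 : (m ^ 3 + 8) * s ^ 3 = 1 + 8 * s ^ 3 := by
    rw [add_mul, ← mul_pow, hms, one_pow]
  have e2 : (m ^ 3 - 1) * s ^ 3 = 1 - s ^ 3 := by
    rw [sub_mul, ← mul_pow, hms, one_pow, one_mul]
  calc 27 * j⁻¹ * (1 + 8 * s ^ 3) ^ 3 = j⁻¹ * (27 * (m * s) ^ 3 * ((m ^ 3 + 8) * s ^ 3) ^ 3) := by
        rw [e1, hms]; ring
    _ = (j⁻¹ * (27 * m ^ 3 * (m ^ 3 + 8) ^ 3)) * s ^ 12 := by ring
    _ = (m ^ 3 - 1) ^ 3 * s ^ 12 := by rw [hs]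
    _ = s ^ 3 * ((m ^ 3 - 1) * s ^ 3) ^ 3 := by ring
    _ = s ^ 3 * (1 - s ^ 3) ^ 3 := by rw [e2]

variable {O : Type*} [CommRing O] [Algebra O Ω]

/-- A root of the quartic `X (X − 1)³ = (216 X − 243)/j` is integral over every subalgebra
containing `1/j`. -/
theorem isIntegral_of_quartic_subalgebra {u : Ω}
    (hu : u * (u - 1) ^ 3 = (216 * u - 243) * j⁻¹) {A : Subalgebra O Ω} (hw : j⁻¹ ∈ A) :
    IsIntegral A u := by
  let wA : A := ⟨j⁻¹, hw⟩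
  have hwA : algebraMap A Ω wA = j⁻¹ := rfl
  refine ⟨X ^ 4 + (C (-3) * X ^ 3 + C 3 * X ^ 2 + C (-1 - 216 * wA) * X + C (243 * wA)),
    by monicity!, ?_⟩
  simp only [eval₂_add, eval₂_mul, eval₂_pow, eval₂_X, eval₂_C]
  simp only [map_neg, map_sub, map_one, map_mul, map_ofNat, hwA]
  linear_combination hu

theorem HesseEq.isIntegral_uInfH_subalgebra (h : HesseEq j m) (h3 : (3 : Ω) ≠ 0) (hj : j ≠ 0)
    {A : Subalgebra O Ω} (hw : j⁻¹ ∈ A) : IsIntegral A (uInfH m) :=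
  isIntegral_of_quartic_subalgebra (h.uInfH_quartic h3 hj) hw

theorem HesseEq.isIntegral_u1H_subalgebra (h : HesseEq j m) (h3 : (3 : Ω) ≠ 0) (hj : j ≠ 0)
    {A : Subalgebra O Ω} (hw : j⁻¹ ∈ A) : IsIntegral A (u1H m) := by
  rw [← uInfH_moebius h3 (h.sub_one_ne_zero h3)]
  exact (h.moebius h3).isIntegral_uInfH_subalgebra h3 hj hw

end Cusp

section CuspPrime

variable {S : Type*} [CommRing S]

/-- **At the cusp `∞` the other cusp functions are `≡ 1`.** If `U = 216 w − (u − 1)³` and the ideal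
`p` contains `w` (`= 1/j`) and `u` (`= u_∞`), then `U − 1 ∈ p`. -/
theorem UH_sub_one_mem {u U w : S} (hU : U = 216 * w - (u - 1) ^ 3) (p : Ideal S) (hw : w ∈ p)
    (hu : u ∈ p) : U - 1 ∈ p := by
  have : U - 1 = 216 * w - u * (u ^ 2 - 3 * u + 3) := by rw [hU]; ring
  rw [this]
  exact p.sub_mem (p.mul_mem_left _ hw) (p.mul_mem_right _ hu)

/-- A prime containing `u U = 3⁵ w` contains `u` or `U`. -/
theorem mem_or_mem_of_mul_eq {u U w : S} (hUu : u * U = 243 * w) (p : Ideal S) [hp : p.IsPrime]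
    (hw : w ∈ p) : u ∈ p ∨ U ∈ p :=
  hp.mem_or_mem (by rw [hUu]; exact p.mul_mem_left _ hw)

end CuspPrime

end Fermat.Agent.N4.Hesse
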