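/-
N4, block M (helper10): homomorphisms out of the dihedral group `DihedralGroup n` from a rotation
`ρ` and a reflection `σ` satisfying `ρⁿ = 1`, `σ² = 1`, `σ ρ σ = ρ⁻¹`.
-/
import Mathlib

set_option autoImplicit false

namespace Fermat.Agent.N4.DihedralLift

open DihedralGroup

variable {G : Type*} [Group G] {n : ℕ} [NeZero n] (ρ σ : G)

/-- `i ↦ ρ ^ i` on `ZMod n`. -/
def rotPow (i : ZMod n) : G := ρ ^ i.val

variable {ρ σ}

theorem rotPow_add (h1 : ρ ^ n = 1) (i j : ZMod n) :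
    rotPow ρ (i + j) = rotPow ρ i * rotPow ρ j := by
  unfold rotPow
  rw [ZMod.val_add, ← pow_add, ← pow_eq_pow_mod _ h1]

omit [NeZero n] in
theorem rotPow_zero : rotPow ρ (0 : ZMod n) = 1 := by
  unfold rotPow
  rw [ZMod.val_zero, pow_zero]

theorem rotPow_neg (h1 : ρ ^ n = 1) (i : ZMod n) : rotPow ρ (-i) = (rotPow ρ i)⁻¹ := by
  apply eq_inv_of_mul_eq_one_left
  rw [← rotPow_add h1, neg_add_cancel, rotPow_zero]

theorem rotPow_sub (h1 : ρ ^ n = 1) (i j : ZMod n) :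
    rotPow ρ (j - i) = (rotPow ρ i)⁻¹ * rotPow ρ j := by
  rw [sub_eq_add_neg, add_comm, rotPow_add h1, rotPow_neg h1]

omit [NeZero n] in
theorem rotPow_mul_refl (h2 : σ * σ = 1) (h3 : σ * ρ * σ = ρ⁻¹) (i : ZMod n) :
    rotPow ρ i * σ = σ * (rotPow ρ i)⁻¹ := by
  unfold rotPow
  have hσ : σ⁻¹ = σ := inv_eq_of_mul_eq_one_left h2
  have hk : ∀ k : ℕ, σ * ρ ^ k * σ = (ρ ^ k)⁻¹ := by
    intro k
    induction k with
    | zero => rw [pow_zero, mul_one, h2, inv_one]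
    | succ k ih =>
      calc σ * ρ ^ (k + 1) * σ = (σ * ρ ^ k * σ) * (σ * ρ * σ) := by
            rw [pow_succ]
            calc σ * (ρ ^ k * ρ) * σ = σ * ρ ^ k * 1 * ρ * σ := by group
              _ = σ * ρ ^ k * (σ * σ) * ρ * σ := by rw [h2]
              _ = (σ * ρ ^ k * σ) * (σ * ρ * σ) := by group
        _ = (ρ ^ k)⁻¹ * ρ⁻¹ := by rw [ih, h3]
        _ = (ρ ^ (k + 1))⁻¹ := by rw [pow_succ, mul_inv_rev]; group
  have := hk i.val
  calc ρ ^ i.val * σ = (σ * σ) * ρ ^ i.val * σ := by rw [h2, one_mul]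
    _ = σ * (σ * ρ ^ i.val * σ) := by group
    _ = σ * (ρ ^ i.val)⁻¹ := by rw [this]

/-- **Homomorphisms out of the dihedral group.** -/
def lift (ρ σ : G) (h1 : ρ ^ n = 1) (h2 : σ * σ = 1) (h3 : σ * ρ * σ = ρ⁻¹) :
    DihedralGroup n →* G where
  toFun
    | r i => rotPow ρ i
    | sr i => σ * rotPow ρ i
  map_one' := by
    rw [one_def]
    exact rotPow_zero
  map_mul' := by
    rintro (i | i) (j | j)
    · rw [r_mul_r]
      exact rotPow_add h1 i j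
    · rw [r_mul_sr]
      show σ * rotPow ρ (j - i) = rotPow ρ i * (σ * rotPow ρ j)
      rw [← mul_assoc, rotPow_mul_refl h2 h3, rotPow_sub h1, mul_assoc]
    · rw [sr_mul_r]
      show σ * rotPow ρ (i + j) = σ * rotPow ρ i * rotPow ρ j
      rw [rotPow_add h1, mul_assoc]
    · rw [sr_mul_sr]
      show rotPow ρ (j - i) = σ * rotPow ρ i * (σ * rotPow ρ j)
      rw [rotPow_sub h1]
      calc (rotPow ρ i)⁻¹ * rotPow ρ j = (σ * σ) * (rotPow ρ i)⁻¹ * rotPow ρ j := by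
            rw [h2, one_mul]
        _ = σ * (σ * (rotPow ρ i)⁻¹) * rotPow ρ j := by group
        _ = σ * (rotPow ρ i * σ) * rotPow ρ j := by rw [rotPow_mul_refl h2 h3]
        _ = σ * rotPow ρ i * (σ * rotPow ρ j) := by group

@[simp] theorem lift_r (h1 : ρ ^ n = 1) (h2 : σ * σ = 1) (h3 : σ * ρ * σ = ρ⁻¹) (i : ZMod n) :
    lift ρ σ h1 h2 h3 (r i) = ρ ^ i.val := rfl

@[simp] theorem lift_sr (h1 : ρ ^ n = 1) (h2 : σ * σ = 1) (h3 : σ * ρ * σ = ρ⁻¹) (i : ZMod n) :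
    lift ρ σ h1 h2 h3 (sr i) = σ * ρ ^ i.val := rfl

theorem lift_r_one (h1 : ρ ^ n = 1) (h2 : σ * σ = 1) (h3 : σ * ρ * σ = ρ⁻¹) (hn : 1 < n) :
    lift ρ σ h1 h2 h3 (r 1) = ρ := by
  have : Fact (1 < n) := ⟨hn⟩
  rw [lift_r, ZMod.val_one, pow_one]

theorem lift_sr_zero (h1 : ρ ^ n = 1) (h2 : σ * σ = 1) (h3 : σ * ρ * σ = ρ⁻¹) :
    lift ρ σ h1 h2 h3 (sr 0) = σ := by
  rw [lift_sr, ZMod.val_zero, pow_zero, mul_one]

end Fermat.Agent.N4.DihedralLift
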