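/-
N4, block M (helper10), part B: the coordinate ring `B = R[λ, 1/(λ(λ − 1))]` of the `λ`-line minus
`{0, 1, ∞}` over an arbitrary base ring `R`, its universal property, the anharmonic automorphisms
`λ ↦ 1 − λ`, `λ ↦ 1/λ`, the function `j(λ) ∈ B` (for `2 ∈ Rˣ`) and the map `R[j] → B`.
-/
import Fermat.Agent.N4.LambdaLine
import Fermat.Agent.N4.DihedralLift

set_option autoImplicit false

namespace Fermat.Agent.N4.Lambda

open Polynomial

section Ring

variable (R : Type*) [CommRing R]

/-- `X (X − 1) ∈ R[X]`. -/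
noncomputable def lamDen : R[X] := X * (X - 1)

/-- `B = R[λ, 1/(λ(λ − 1))]`. -/
abbrev Blam : Type _ := Localization.Away (lamDen R)

/-- The coordinate `λ ∈ B`. -/
noncomputable def lam : Blam R := algebraMap R[X] (Blam R) X

theorem algebraMap_lamDen : algebraMap R[X] (Blam R) (lamDen R) = lam R * (lam R - 1) := by
  calc algebraMap R[X] (Blam R) (lamDen R) = algebraMap R[X] (Blam R) (X * (X - 1)) := rfl
    _ = lam R * (lam R - 1) := by rw [map_mul, map_sub, map_one]; rfl

theorem isUnit_lam_mul : IsUnit (lam R * (lam R - 1)) := by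
  rw [← algebraMap_lamDen]
  exact IsLocalization.Away.algebraMap_isUnit (lamDen R)

theorem isUnit_lam : IsUnit (lam R) := isUnit_of_mul_isUnit_left (isUnit_lam_mul R)

theorem isUnit_lam_sub_one : IsUnit (lam R - 1) := isUnit_of_mul_isUnit_right (isUnit_lam_mul R)

/-- `1/λ ∈ B`. -/
noncomputable def lamInv : Blam R := ((isUnit_lam R).unit⁻¹ : (Blam R)ˣ)

/-- `1/(λ − 1) ∈ B`. -/
noncomputable def lamSubOneInv : Blam R := ((isUnit_lam_sub_one R).unit⁻¹ : (Blam R)ˣ)

@[simp] theorem lam_mul_lamInv : lam R * lamInv R = 1 := (isUnit_lam R).mul_val_inv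

@[simp] theorem lamInv_mul_lam : lamInv R * lam R = 1 := (isUnit_lam R).val_inv_mul

@[simp] theorem lam_sub_one_mul_inv : (lam R - 1) * lamSubOneInv R = 1 :=
  (isUnit_lam_sub_one R).mul_val_inv

@[simp] theorem inv_mul_lam_sub_one : lamSubOneInv R * (lam R - 1) = 1 :=
  (isUnit_lam_sub_one R).val_inv_mul

theorem aeval_lam (f : R[X]) : aeval (lam R) f = algebraMap R[X] (Blam R) f := by
  have h : (aeval (lam R) : R[X] →ₐ[R] Blam R) = IsScalarTower.toAlgHom R R[X] (Blam R) := by
    apply Polynomial.algHom_ext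
    simp [lam]
  rw [h]
  rfl

section Lift

variable {R} {P : Type*} [CommRing P] [Algebra R P]

theorem isUnit_aeval_lamDen {b : P} (hb : IsUnit (b * (b - 1))) :
    IsUnit ((aeval b : R[X] →ₐ[R] P) (lamDen R)) := by
  have : (aeval b : R[X] →ₐ[R] P) (lamDen R) = b * (b - 1) := by
    calc (aeval b : R[X] →ₐ[R] P) (lamDen R) = (aeval b : R[X] →ₐ[R] P) (X * (X - 1)) := rfl
      _ = b * (b - 1) := by rw [map_mul, map_sub, aeval_X, map_one]
  rw [this]
  exact hb

/-- **Universal property of `B`**: an `R`-algebra homomorphism `B → P` is the choice of `b ∈ P` with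
`b (b − 1)` invertible. -/
noncomputable def lift (b : P) (hb : IsUnit (b * (b - 1))) : Blam R →ₐ[R] P :=
  IsLocalization.Away.liftAlgHom (lamDen R) (f := (aeval b : R[X] →ₐ[R] P))
    (isUnit_aeval_lamDen hb)

@[simp] theorem lift_algebraMap (b : P) (hb : IsUnit (b * (b - 1))) (f : R[X]) :
    lift b hb (algebraMap R[X] (Blam R) f) = aeval b f := by
  rw [lift, IsLocalization.Away.liftAlgHom_apply, IsLocalization.Away.lift_eq]
  rfl

@[simp] theorem lift_lam (b : P) (hb : IsUnit (b * (b - 1))) : lift b hb (lam R) = b := by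
  rw [lam, lift_algebraMap, aeval_X]

/-- `R`-algebra homomorphisms out of `B` are determined by the image of `λ`. -/
theorem algHom_ext {f g : Blam R →ₐ[R] P} (h : f (lam R) = g (lam R)) : f = g := by
  have h1 : f.toRingHom.comp (algebraMap R[X] (Blam R)) =
      g.toRingHom.comp (algebraMap R[X] (Blam R)) := by
    apply Polynomial.ringHom_ext
    · intro r
      simp only [RingHom.comp_apply, AlgHom.toRingHom_eq_coe, RingHom.coe_coe]
      have : algebraMap R[X] (Blam R) (C r) = algebraMap R (Blam R) r := by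
        rw [IsScalarTower.algebraMap_apply R R[X] (Blam R)]
        rfl
      rw [this, f.commutes, g.commutes]
    · simpa [lam] using h
  have h2 : f.toRingHom = g.toRingHom :=
    IsLocalization.ringHom_ext (Submonoid.powers (lamDen R)) h1
  exact AlgHom.ext fun x => RingHom.congr_fun h2 x

theorem lift_comp {Q : Type*} [CommRing Q] [Algebra R Q] (b : P) (hb : IsUnit (b * (b - 1)))
    (φ : P →ₐ[R] Q) :
    φ.comp (lift b hb) = lift (φ b) (by
      have := hb.map φ
      rwa [map_mul, map_sub, map_one] at this) := by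
  apply algHom_ext
  simp

end Lift

section Auto

theorem isUnit_one_sub_lam_mul : IsUnit ((1 - lam R) * ((1 - lam R) - 1)) := by
  have : (1 - lam R) * ((1 - lam R) - 1) = lam R * (lam R - 1) := by ring
  rw [this]
  exact isUnit_lam_mul R

/-- The endomorphism `λ ↦ 1 − λ` of `B`. -/
noncomputable def swHom : Blam R →ₐ[R] Blam R := lift (1 - lam R) (isUnit_one_sub_lam_mul R)

@[simp] theorem swHom_lam : swHom R (lam R) = 1 - lam R := lift_lam _ _

theorem swHom_comp_swHom : (swHom R).comp (swHom R) = AlgHom.id R (Blam R) := by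
  apply algHom_ext
  simp

/-- The automorphism `λ ↦ 1 − λ` of `B`. -/
noncomputable def sw : Blam R ≃ₐ[R] Blam R :=
  AlgEquiv.ofAlgHom (swHom R) (swHom R) (swHom_comp_swHom R) (swHom_comp_swHom R)

@[simp] theorem sw_lam : sw R (lam R) = 1 - lam R := swHom_lam R

theorem lamInv_mul_sub_one : lamInv R * (lamInv R - 1) = -(lamInv R ^ 2 * (lam R - 1)) := by
  have h := lamInv_mul_lam R
  calc lamInv R * (lamInv R - 1) = lamInv R * (lamInv R - lamInv R * lam R) := by rw [h]
    _ = -(lamInv R ^ 2 * (lam R - 1)) := by ring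

theorem isUnit_lamInv : IsUnit (lamInv R) := ((isUnit_lam R).unit⁻¹).isUnit

theorem isUnit_lamInv_mul : IsUnit (lamInv R * (lamInv R - 1)) := by
  rw [lamInv_mul_sub_one]
  exact (((isUnit_lamInv R).pow 2).mul (isUnit_lam_sub_one R)).neg

/-- The endomorphism `λ ↦ 1/λ` of `B`. -/
noncomputable def invHom : Blam R →ₐ[R] Blam R := lift (lamInv R) (isUnit_lamInv_mul R)

@[simp] theorem invHom_lam : invHom R (lam R) = lamInv R := lift_lam _ _

@[simp] theorem invHom_lamInv : invHom R (lamInv R) = lam R := by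
  have h : invHom R (lam R) * invHom R (lamInv R) = 1 := by
    rw [← map_mul, lam_mul_lamInv, map_one]
  rw [invHom_lam] at h
  calc invHom R (lamInv R) = (lam R * lamInv R) * invHom R (lamInv R) := by
        rw [lam_mul_lamInv, one_mul]
    _ = lam R * (lamInv R * invHom R (lamInv R)) := by ring
    _ = lam R := by rw [h, mul_one]

theorem invHom_comp_invHom : (invHom R).comp (invHom R) = AlgHom.id R (Blam R) := by
  apply algHom_ext
  simp

/-- The automorphism `λ ↦ 1/λ` of `B`. -/
noncomputable def inv : Blam R ≃ₐ[R] Blam R :=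
  AlgEquiv.ofAlgHom (invHom R) (invHom R) (invHom_comp_invHom R) (invHom_comp_invHom R)

@[simp] theorem inv_lam : inv R (lam R) = lamInv R := invHom_lam R

@[simp] theorem inv_lamInv : inv R (lamInv R) = lam R := invHom_lamInv R

/-- Automorphisms of `B` over `R` are determined by the image of `λ`. -/
theorem algEquiv_ext {e₁ e₂ : Blam R ≃ₐ[R] Blam R} (h : e₁ (lam R) = e₂ (lam R)) : e₁ = e₂ := by
  have h1 : (e₁ : Blam R →ₐ[R] Blam R) = (e₂ : Blam R →ₐ[R] Blam R) := algHom_ext h
  exact AlgEquiv.ext fun x => AlgHom.congr_fun h1 x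

theorem sw_mul_sw : sw R * sw R = 1 := by
  apply algEquiv_ext
  simp [AlgEquiv.mul_apply]

theorem inv_mul_inv : inv R * inv R = 1 := by
  apply algEquiv_ext
  simp [AlgEquiv.mul_apply]

@[simp] theorem sw_lamInv : sw R (lamInv R) * (1 - lam R) = 1 := by
  rw [← sw_lam, ← map_mul, lamInv_mul_lam, map_one]

/-- The rotation `ρ = sw ∘ inv : λ ↦ 1/(1 − λ)` of order `3`. -/
noncomputable def rot : Blam R ≃ₐ[R] Blam R := sw R * inv R

theorem rot_lam_mul : rot R (lam R) * (1 - lam R) = 1 := by
  rw [rot, AlgEquiv.mul_apply, inv_lam]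
  exact sw_lamInv R

theorem rot_lam : rot R (lam R) = -lamSubOneInv R := by
  have h := rot_lam_mul R
  calc rot R (lam R) = rot R (lam R) * ((lam R - 1) * lamSubOneInv R) := by
        rw [lam_sub_one_mul_inv, mul_one]
    _ = -(rot R (lam R) * (1 - lam R)) * lamSubOneInv R := by ring
    _ = -lamSubOneInv R := by rw [h]; ring

theorem rot_lamInv : rot R (lamInv R) = 1 - lam R := by
  have h : rot R (lamInv R) * rot R (lam R) = 1 := by
    rw [← map_mul, lamInv_mul_lam, map_one]
  calc rot R (lamInv R) = rot R (lamInv R) * (rot R (lam R) * (1 - lam R)) := by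
        rw [rot_lam_mul, mul_one]
    _ = (rot R (lamInv R) * rot R (lam R)) * (1 - lam R) := by ring
    _ = 1 - lam R := by rw [h, one_mul]

theorem rot_rot_lam : rot R (rot R (lam R)) = (lam R - 1) * lamInv R := by
  have h1 : rot R (rot R (lam R)) * (1 - rot R (lam R)) = 1 := by
    have := congrArg (rot R) (rot_lam_mul R)
    rwa [map_mul, map_sub, map_one] at this
  have h2 : 1 - rot R (lam R) = -(lam R * rot R (lam R)) := by
    have := rot_lam_mul R
    calc 1 - rot R (lam R) = rot R (lam R) * (1 - lam R) - rot R (lam R) := by rw [this]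
      _ = -(lam R * rot R (lam R)) := by ring
  rw [h2] at h1
  calc rot R (rot R (lam R))
      = rot R (rot R (lam R)) * ((rot R (lam R) * (1 - lam R)) * (lam R * lamInv R)) := by
        rw [rot_lam_mul, lam_mul_lamInv]; ring
    _ = (rot R (rot R (lam R)) * -(lam R * rot R (lam R))) * ((lam R - 1) * lamInv R) := by ring
    _ = (lam R - 1) * lamInv R := by rw [h1, one_mul]

theorem rot_rot_rot_lam : rot R (rot R (rot R (lam R))) = lam R := by
  rw [rot_rot_lam, map_mul, map_sub, map_one, rot_lamInv]
  have := rot_lam_mul R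
  calc (rot R (lam R) - 1) * (1 - lam R) = rot R (lam R) * (1 - lam R) - (1 - lam R) := by ring
    _ = lam R := by rw [this]; ring

theorem rot_pow_three : rot R ^ 3 = 1 := by
  apply algEquiv_ext
  rw [pow_succ, pow_two, AlgEquiv.mul_apply, AlgEquiv.mul_apply, AlgEquiv.one_apply]
  exact rot_rot_rot_lam R

theorem sw_mul_rot : sw R * rot R = inv R := by
  rw [rot, ← mul_assoc, sw_mul_sw, one_mul]

theorem rot_mul_inv : rot R * inv R = sw R := by
  rw [rot, mul_assoc, inv_mul_inv, mul_one]

theorem rot_inv_eq : (rot R)⁻¹ = inv R * sw R := by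
  rw [rot, mul_inv_rev, inv_eq_of_mul_eq_one_left (inv_mul_inv R),
    inv_eq_of_mul_eq_one_left (sw_mul_sw R)]

theorem sw_mul_rot_mul_sw : sw R * rot R * sw R = (rot R)⁻¹ := by
  rw [sw_mul_rot, rot_inv_eq]

/-- **The anharmonic group acts on `B`**: the homomorphism `S₃ = D₃ → Aut_R(B)`, `r 1 ↦ ρ`
(`λ ↦ 1/(1 − λ)`), `sr 0 ↦ (λ ↦ 1 − λ)`. -/
noncomputable def act : DihedralGroup 3 →* (Blam R ≃ₐ[R] Blam R) :=
  DihedralLift.lift (rot R) (sw R) (rot_pow_three R) (sw_mul_sw R) (sw_mul_rot_mul_sw R)

theorem act_r_one : act R (DihedralGroup.r 1) = rot R :=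
  DihedralLift.lift_r_one _ _ _ (by norm_num)

theorem act_sr_zero : act R (DihedralGroup.sr 0) = sw R :=
  DihedralLift.lift_sr_zero _ _ _

noncomputable instance : MulSemiringAction (DihedralGroup 3) (Blam R) :=
  MulSemiringAction.compHom (Blam R) (act R)

theorem smul_def (g : DihedralGroup 3) (b : Blam R) : g • b = act R g b := rfl

instance : SMulCommClass (DihedralGroup 3) R (Blam R) where
  smul_comm g r b := by
    rw [smul_def, smul_def, map_smul]

/-- Every element of the anharmonic group is a word in `sw` and `inv`; a property of elements of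
`B` stable under both is stable under the group. -/
theorem act_induction {P : (Blam R ≃ₐ[R] Blam R) → Prop} (h1 : P 1)
    (hsw : ∀ e, P e → P (sw R * e)) (hinv : ∀ e, P e → P (inv R * e)) (g : DihedralGroup 3) :
    P (act R g) := by
  have hrot : ∀ e, P e → P (rot R * e) := fun e he => by
    rw [rot, mul_assoc]
    exact hsw _ (hinv _ he)
  have hpow : ∀ k : ℕ, P (rot R ^ k) := by
    intro k
    induction k with
    | zero => rw [pow_zero]; exact h1
    | succ k ih => rw [pow_succ']; exact hrot _ ih
  cases g with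
  | r i => exact hpow _
  | sr i => exact hsw _ (hpow _)

end Auto

section J

theorem isUnit_jDen_lam : IsUnit (jDen (lam R)) := by
  rw [jDen_eq_sq]
  exact (isUnit_lam_mul R).pow 2

/-- `1 / (λ² (λ − 1)²) ∈ B`. -/
noncomputable def jDenInv : Blam R := ((isUnit_jDen_lam R).unit⁻¹ : (Blam R)ˣ)

@[simp] theorem jDen_mul_jDenInv : jDen (lam R) * jDenInv R = 1 := (isUnit_jDen_lam R).mul_val_inv

@[simp] theorem jDenInv_mul_jDen : jDenInv R * jDen (lam R) = 1 := (isUnit_jDen_lam R).val_inv_mul

/-- **`j(λ) = 256 (λ² − λ + 1)³ / (λ² (λ − 1)²) ∈ B`.** -/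
noncomputable def jlam : Blam R := jNum (lam R) * jDenInv R

theorem jlam_mul_jDen : jlam R * jDen (lam R) = jNum (lam R) := by
  rw [jlam, mul_assoc, jDenInv_mul_jDen, mul_one]

/-- `j(λ)` is characterised by `x · jDen λ = jNum λ`. -/
theorem eq_jlam_of_mul {x : Blam R} (h : x * jDen (lam R) = jNum (lam R)) : x = jlam R := by
  rw [jlam, ← h, mul_assoc, jDen_mul_jDenInv, mul_one]

theorem sw_jlam : sw R (jlam R) = jlam R := by
  apply eq_jlam_of_mul
  have h := congrArg (sw R) (jlam_mul_jDen R)
  rw [map_mul] at h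
  have h1 : sw R (jDen (lam R)) = jDen (lam R) := by
    rw [jDen_def, map_mul, map_pow, map_pow, map_sub, map_one, sw_lam, ← jDen_def,
      ← jDen_def, jDen_one_sub]
  have h2 : sw R (jNum (lam R)) = jNum (lam R) := by
    rw [jNum_def, map_mul, map_pow, map_add, map_sub, map_pow, map_one, sw_lam, map_ofNat,
      ← jNum_def, ← jNum_def, jNum_one_sub]
  rw [h1, h2] at h
  exact h

theorem inv_jlam : inv R (jlam R) = jlam R := by
  apply eq_jlam_of_mul
  have h := congrArg (inv R) (jlam_mul_jDen R)
  rw [map_mul] at h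
  have h1 : inv R (jDen (lam R)) = jDen (lamInv R) := by
    rw [jDen_def, map_mul, map_pow, map_pow, map_sub, map_one, inv_lam, ← jDen_def]
  have h2 : inv R (jNum (lam R)) = jNum (lamInv R) := by
    rw [jNum_def, map_mul, map_pow, map_add, map_sub, map_pow, map_one, inv_lam, map_ofNat,
      ← jNum_def]
  rw [h1, h2] at h
  have h3 := jNum_inv (lam_mul_lamInv R)
  have h4 := jDen_inv (lam_mul_lamInv R)
  calc inv R (jlam R) * jDen (lam R) = inv R (jlam R) * (jDen (lamInv R) * lam R ^ 6) := by
        rw [h4]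
    _ = (inv R (jlam R) * jDen (lamInv R)) * lam R ^ 6 := by ring
    _ = jNum (lam R) := by rw [h, h3]

theorem act_jlam (g : DihedralGroup 3) : act R g (jlam R) = jlam R := by
  refine act_induction R (P := fun e => e (jlam R) = jlam R) rfl (fun e he => ?_)
    (fun e he => ?_) g
  · rw [AlgEquiv.mul_apply, he, sw_jlam]
  · rw [AlgEquiv.mul_apply, he, inv_jlam]

theorem smul_jlam (g : DihedralGroup 3) : g • jlam R = jlam R := act_jlam R g

end J

end Ring

/-! ### The `j`-line and the map `R[j] → B` -/

/-- The coordinate ring `R[j]` of the `j`-line: a type synonym of `R[X]`, which carries the algebra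
structure `j ↦ j(λ)` on `B` (the polynomial ring `R[X]` itself acts on `B` through `X ↦ λ`). -/
def JLine (R : Type*) [CommRing R] : Type _ := R[X]

section JLine

variable (R : Type*) [CommRing R]

noncomputable instance : CommRing (JLine R) := inferInstanceAs (CommRing R[X])

noncomputable instance : Algebra R (JLine R) := inferInstanceAs (Algebra R R[X])

/-- The identification `R[j] = R[X]`. -/
noncomputable def JLine.equiv : JLine R ≃ₐ[R] R[X] := AlgEquiv.refl

/-- The coordinate `j` of the `j`-line. -/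
noncomputable def JLine.j : JLine R := (X : R[X])

/-- The map `R[j] → B`, `j ↦ j(λ)`. -/
noncomputable def jHom : JLine R →ₐ[R] Blam R := (aeval (jlam R) : R[X] →ₐ[R] Blam R)

@[simp] theorem jHom_j : jHom R (JLine.j R) = jlam R := aeval_X _

noncomputable instance : Algebra (JLine R) (Blam R) := (jHom R).toRingHom.toAlgebra

theorem algebraMap_jLine (f : JLine R) : algebraMap (JLine R) (Blam R) f = jHom R f := rfl

@[simp] theorem algebraMap_j : algebraMap (JLine R) (Blam R) (JLine.j R) = jlam R := jHom_j R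

instance : IsScalarTower R (JLine R) (Blam R) :=
  IsScalarTower.of_algebraMap_eq fun r => ((jHom R).commutes r).symm

/-- `R`-algebra homomorphisms out of `R[j]` are determined by the image of `j`. -/
theorem JLine.algHom_ext {P : Type*} [CommRing P] [Algebra R P] {f g : JLine R →ₐ[R] P}
    (h : f (JLine.j R) = g (JLine.j R)) : f = g :=
  Polynomial.algHom_ext (f := (f : R[X] →ₐ[R] P)) (g := g) h

theorem act_jHom (g : DihedralGroup 3) (f : JLine R) : act R g (jHom R f) = jHom R f := by
  have : ((act R g : Blam R ≃ₐ[R] Blam R) : Blam R →ₐ[R] Blam R).comp (jHom R) = jHom R := by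
    apply JLine.algHom_ext
    simp [act_jlam]
  exact AlgHom.congr_fun this f

instance : SMulCommClass (DihedralGroup 3) (JLine R) (Blam R) where
  smul_comm g f b := by
    rw [smul_def, smul_def, Algebra.smul_def, Algebra.smul_def, map_mul, algebraMap_jLine,
      act_jHom]

end JLine



end Fermat.Agent.N4.Lambda
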