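/-
N4, block M (helper10), part B2: `B = R[λ, 1/(λ(λ − 1))]` is integral over `R[j]` when `2 ∈ Rˣ`
(the six conjugates of `λ` are the roots of the monic polynomial
`(1/256) (256 (Y² − Y + 1)³ − j Y² (Y − 1)²) ∈ R[j][Y]`).
-/
import Fermat.Agent.N4.LambdaRing

set_option autoImplicit false

namespace Fermat.Agent.N4.Lambda

open Polynomial

variable (R : Type*) [CommRing R]

/-- The orbit polynomial `256 (Y² − Y + 1)³ − j Y² (Y − 1)² ∈ R[j][Y]`. -/
noncomputable def orbitPoly : (JLine R)[X] :=
  jNumPoly (JLine R) - C (JLine.j R) * jDenPoly (JLine R)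

theorem aeval_orbitPoly (b : Blam R) :
    aeval b (orbitPoly R) = jNum b - jlam R * jDen b := by
  rw [orbitPoly, map_sub, map_mul, aeval_jNumPoly, aeval_jDenPoly, aeval_C, algebraMap_j]

theorem aeval_lam_orbitPoly : aeval (lam R) (orbitPoly R) = 0 := by
  rw [aeval_orbitPoly, jlam_mul_jDen, sub_self]

/-- Every conjugate of `λ` is a root of the orbit polynomial. -/
theorem aeval_act_lam_orbitPoly (g : DihedralGroup 3) :
    aeval (act R g (lam R)) (orbitPoly R) = 0 := by
  rw [aeval_orbitPoly]
  have h := congrArg (act R g) (jlam_mul_jDen R)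
  rw [map_mul, act_jlam] at h
  have h1 : act R g (jDen (lam R)) = jDen (act R g (lam R)) := by
    rw [jDen_def, map_mul, map_pow, map_pow, map_sub, map_one, ← jDen_def]
  have h2 : act R g (jNum (lam R)) = jNum (act R g (lam R)) := by
    rw [jNum_def, map_mul, map_pow, map_add, map_sub, map_pow, map_one, map_ofNat, ← jNum_def]
  rw [h1, h2] at h
  rw [h, sub_self]

variable {R}

/-- The monic normalisation of the orbit polynomial, for `c = 1/256`. -/
noncomputable def orbitPolyMonic (c : R) : (JLine R)[X] :=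
  X ^ 6 + (C (-3) * X ^ 5 + C (6 - algebraMap R (JLine R) c * JLine.j R) * X ^ 4 +
    C (2 * algebraMap R (JLine R) c * JLine.j R - 7) * X ^ 3 +
    C (6 - algebraMap R (JLine R) c * JLine.j R) * X ^ 2 + C (-3) * X + 1)

theorem orbitPolyMonic_monic [Nontrivial R] (c : R) : (orbitPolyMonic c).Monic := by
  have : Nontrivial (JLine R) := inferInstanceAs (Nontrivial R[X])
  unfold orbitPolyMonic
  monicity!

theorem orbitPolyMonic_eq {c : R} (hc : 256 * c = 1) :
    orbitPolyMonic c = C (algebraMap R (JLine R) c) * orbitPoly R := by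
  have h : (256 : JLine R) * algebraMap R (JLine R) c = 1 := by
    have := congrArg (algebraMap R (JLine R)) hc
    rwa [map_mul, map_ofNat, map_one] at this
  have hC : (256 : (JLine R)[X]) * C (algebraMap R (JLine R) c) = 1 := by
    have := congrArg (C : JLine R → (JLine R)[X]) h
    rwa [map_mul, map_ofNat, map_one] at this
  rw [orbitPoly, orbitPolyMonic, jNumPoly, jDenPoly, jNum_def, jDen_def]
  simp only [map_sub, map_mul, map_neg, map_ofNat]
  linear_combination (-(X ^ 2 - X + 1) ^ 3) * hC

/-- `256` is a unit when `2` is. -/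
theorem exists_inv_256 (h2 : IsUnit (2 : R)) : ∃ c : R, 256 * c = 1 := by
  obtain ⟨u, hu⟩ := h2.exists_right_inv
  refine ⟨u ^ 8, ?_⟩
  have : (256 : R) = 2 ^ 8 := by norm_num
  rw [this, ← mul_pow, hu, one_pow]

variable (R)

/-- The conjugates of `λ` are integral over `R[j]` when `2 ∈ Rˣ`. -/
theorem isIntegral_act_lam (h2 : IsUnit (2 : R)) (g : DihedralGroup 3) :
    IsIntegral (JLine R) (act R g (lam R)) := by
  rcases subsingleton_or_nontrivial R with hR | hR
  · have : Subsingleton (Blam R) := by
      refine ⟨fun a b => ?_⟩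
      have h01 : (1 : Blam R) = 0 := by
        rw [← map_one (algebraMap R (Blam R)), ← map_zero (algebraMap R (Blam R)),
          Subsingleton.elim (1 : R) 0]
      rw [← mul_one a, ← mul_one b, h01, mul_zero, mul_zero]
    exact ⟨X, monic_X, Subsingleton.elim _ _⟩
  obtain ⟨c, hc⟩ := exists_inv_256 h2
  refine ⟨orbitPolyMonic c, orbitPolyMonic_monic c, ?_⟩
  rw [orbitPolyMonic_eq hc]
  show aeval (act R g (lam R)) (C (algebraMap R (JLine R) c) * orbitPoly R) = 0
  rw [map_mul, aeval_act_lam_orbitPoly, mul_zero]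

theorem isIntegral_lam (h2 : IsUnit (2 : R)) : IsIntegral (JLine R) (lam R) := by
  have := isIntegral_act_lam R h2 1
  rwa [map_one, AlgEquiv.one_apply] at this

theorem isIntegral_lamInv (h2 : IsUnit (2 : R)) : IsIntegral (JLine R) (lamInv R) := by
  have := isIntegral_act_lam R h2 (DihedralGroup.sr 0 * DihedralGroup.r 1)
  rwa [map_mul, act_sr_zero, act_r_one, rot, ← mul_assoc, sw_mul_sw, one_mul, inv_lam] at this

theorem isIntegral_lamSubOneInv (h2 : IsUnit (2 : R)) :
    IsIntegral (JLine R) (lamSubOneInv R) := by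
  have := isIntegral_act_lam R h2 (DihedralGroup.r 1)
  rw [act_r_one, rot_lam] at this
  have h := this.neg
  rwa [neg_neg] at h

/-- **`B` is integral over `R[j]`** (for `2 ∈ Rˣ`). -/
theorem isIntegral_jLine (h2 : IsUnit (2 : R)) : Algebra.IsIntegral (JLine R) (Blam R) := by
  refine ⟨fun b => ?_⟩
  obtain ⟨f, s, hb⟩ := IsLocalization.exists_mk'_eq (Submonoid.powers (lamDen R)) b
  obtain ⟨n, hn⟩ := s.2
  have hn' : lamDen R ^ n = (s : R[X]) := hn
  have hb' : b * algebraMap R[X] (Blam R) (lamDen R) ^ n = algebraMap R[X] (Blam R) f := by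
    rw [← hb, ← map_pow, hn']
    exact IsLocalization.mk'_spec _ _ _
  have hunit : algebraMap R[X] (Blam R) (lamDen R) * (lamInv R * lamSubOneInv R) = 1 := by
    rw [algebraMap_lamDen]
    calc lam R * (lam R - 1) * (lamInv R * lamSubOneInv R)
        = (lam R * lamInv R) * ((lam R - 1) * lamSubOneInv R) := by ring
      _ = 1 := by rw [lam_mul_lamInv, lam_sub_one_mul_inv, one_mul]
  have hb'' : b = algebraMap R[X] (Blam R) f * (lamInv R * lamSubOneInv R) ^ n := by
    calc b = b * (algebraMap R[X] (Blam R) (lamDen R) * (lamInv R * lamSubOneInv R)) ^ n := by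
          rw [hunit, one_pow, mul_one]
      _ = (b * algebraMap R[X] (Blam R) (lamDen R) ^ n) * (lamInv R * lamSubOneInv R) ^ n := by
          ring
      _ = algebraMap R[X] (Blam R) f * (lamInv R * lamSubOneInv R) ^ n := by rw [hb']
  rw [hb'']
  refine IsIntegral.mul ?_ (((isIntegral_lamInv R h2).mul (isIntegral_lamSubOneInv R h2)).pow n)
  rw [← aeval_lam]
  have hmem : aeval (lam R) f ∈ Algebra.adjoin R {lam R} := aeval_mem_adjoin_singleton R (lam R)
  have hle : Algebra.adjoin R {lam R} ≤
      (integralClosure (JLine R) (Blam R)).restrictScalars R := by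
    apply Algebra.adjoin_le
    intro x hx
    rw [Set.mem_singleton_iff] at hx
    rw [hx]
    exact isIntegral_lam R h2
  exact hle hmem

end Fermat.Agent.N4.Lambda
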