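/-
N4, block M (helper10), parts (M1), (M3): the `λ`-line inside a field.

`Ω` is a field, `j lam : Ω` satisfy the sextic `256 (λ² − λ + 1)³ = j λ² (λ − 1)²`
(`Sextic j lam`).  We prove:
* (M1) `λ`, `1/λ`, `1/(λ − 1)` (all six conjugates) satisfy the same sextic and are integral over
  `O[j]` for every base ring `O → Ω` in which `2` is invertible; `λ` is transcendental over `O` when
  `j` is;
* (M3) the three functions `u₀ = λ²/(λ² − λ + 1)`, `u₁ = (λ − 1)²/(λ² − λ + 1)`,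
  `u_∞ = 1/(λ² − λ + 1)` are the roots of the cubic `X (X − 1)² = 2⁸/j`; they are integral over
  `O[1/j]`; a prime containing `2⁸/j` contains exactly one of them and the other two are `≡ 1`.
-/
import Fermat.Agent.N4.LambdaIntegral

set_option autoImplicit false

namespace Fermat.Agent.N4.Lambda

open Polynomial

section Sextic

variable {Ω : Type*} [Field Ω]

/-- The sextic relation `256 (λ² − λ + 1)³ = j λ² (λ − 1)²` between `j` and `λ`. -/
def Sextic (j lam : Ω) : Prop := jNum lam = j * jDen lam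

variable {j lam : Ω}

theorem sextic_iff : Sextic j lam ↔ jNum lam = j * jDen lam := Iff.rfl

theorem two_pow_ne_zero (h2 : (2 : Ω) ≠ 0) : (256 : Ω) ≠ 0 := by
  have : (256 : Ω) = 2 ^ 8 := by norm_num
  rw [this]
  exact pow_ne_zero 8 h2

theorem Sextic.jDen_ne_zero (h : Sextic j lam) (h2 : (2 : Ω) ≠ 0) : jDen lam ≠ 0 := by
  intro h0
  have h1 : jNum lam = 0 := by rw [h, h0, mul_zero]
  have h3 : lam * (lam - 1) = 0 := by
    rw [jDen_eq_sq] at h0
    exact pow_eq_zero_iff (two_ne_zero) |>.mp h0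
  have h4 : lam ^ 2 - lam + 1 = 1 := by
    calc lam ^ 2 - lam + 1 = lam * (lam - 1) + 1 := by ring
      _ = 1 := by rw [h3, zero_add]
  rw [jNum_def, h4, one_pow, mul_one] at h1
  exact two_pow_ne_zero h2 h1

theorem Sextic.lam_ne_zero (h : Sextic j lam) (h2 : (2 : Ω) ≠ 0) : lam ≠ 0 := by
  intro h0
  apply h.jDen_ne_zero h2
  rw [jDen_def, h0]; ring

theorem Sextic.lam_sub_one_ne_zero (h : Sextic j lam) (h2 : (2 : Ω) ≠ 0) : lam - 1 ≠ 0 := by
  intro h0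
  apply h.jDen_ne_zero h2
  rw [jDen_def, h0]; ring

theorem Sextic.lam_ne_one (h : Sextic j lam) (h2 : (2 : Ω) ≠ 0) : lam ≠ 1 :=
  fun h0 => h.lam_sub_one_ne_zero h2 (by rw [h0, sub_self])

theorem Sextic.j_eq (h : Sextic j lam) (h2 : (2 : Ω) ≠ 0) : j = jNum lam / jDen lam := by
  rw [eq_div_iff (h.jDen_ne_zero h2)]
  exact h.symm

theorem sextic_of_j_eq (h0 : jDen lam ≠ 0) (h : j = jNum lam / jDen lam) : Sextic j lam := by
  rw [Sextic, h, div_mul_cancel₀ _ h0]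

/-- `λ² − λ + 1 ≠ 0` when `j ≠ 0`. -/
theorem Sextic.quad_ne_zero (h : Sextic j lam) (h2 : (2 : Ω) ≠ 0) (hj : j ≠ 0) :
    lam ^ 2 - lam + 1 ≠ 0 := by
  intro h0
  have h1 : jNum lam = 0 := by rw [jNum_def, h0]; ring
  rw [h] at h1
  rcases mul_eq_zero.mp h1 with h3 | h3
  · exact hj h3
  · exact h.jDen_ne_zero h2 h3

/-- `λ ↦ 1 − λ` preserves the sextic. -/
theorem Sextic.one_sub (h : Sextic j lam) : Sextic j (1 - lam) := by
  rw [Sextic, jNum_one_sub, jDen_one_sub]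
  exact h

/-- `λ ↦ 1/λ` preserves the sextic. -/
theorem Sextic.inv (h : Sextic j lam) (h2 : (2 : Ω) ≠ 0) : Sextic j lam⁻¹ := by
  have hl := h.lam_ne_zero h2
  have hm : lam * lam⁻¹ = 1 := mul_inv_cancel₀ hl
  have h6 : lam ^ 6 ≠ 0 := pow_ne_zero 6 hl
  rw [Sextic]
  apply mul_right_cancel₀ h6
  rw [jNum_inv hm, mul_assoc, jDen_inv hm]
  exact h

/-- `λ ↦ 1/(1 − λ)`. -/
theorem Sextic.inv_one_sub (h : Sextic j lam) (h2 : (2 : Ω) ≠ 0) : Sextic j (1 - lam)⁻¹ :=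
  h.one_sub.inv h2

/-- `λ ↦ (λ − 1)/λ = 1 − 1/λ`. -/
theorem Sextic.one_sub_inv (h : Sextic j lam) (h2 : (2 : Ω) ≠ 0) : Sextic j (1 - lam⁻¹) :=
  (h.inv h2).one_sub

/-- `λ ↦ λ/(λ − 1) = 1 − 1/(1 − λ)`. -/
theorem Sextic.one_sub_inv_one_sub (h : Sextic j lam) (h2 : (2 : Ω) ≠ 0) :
    Sextic j (1 - (1 - lam)⁻¹) :=
  (h.inv_one_sub h2).one_sub

/-- The solutions of the sextic for a given `j` are the six conjugates of one of them. -/
theorem Sextic.eq_conj (h : Sextic j lam) (h2 : (2 : Ω) ≠ 0) {x : Ω} (hx : Sextic j x) :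
    x = lam ∨ x = 1 - lam ∨ x = lam⁻¹ ∨ x = (1 - lam)⁻¹ ∨ x = 1 - lam⁻¹ ∨
      x = 1 - (1 - lam)⁻¹ := by
  have hl := h.lam_ne_zero h2
  have hl1 := h.lam_sub_one_ne_zero h2
  have hl1' : 1 - lam ≠ 0 := fun h0 => hl1 (by rw [← neg_sub, h0, neg_zero])
  have hc : jNum x * jDen lam = jNum lam * jDen x := by
    rw [show jNum x = j * jDen x from hx, show jNum lam = j * jDen lam from h]; ring
  rcases eq_conj_of_cross h2 hc with h1 | h1 | h1 | h1 | h1 | h1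
  · exact Or.inl h1
  · exact Or.inr (Or.inl h1)
  · exact Or.inr (Or.inr (Or.inl (eq_inv_of_mul_eq_one_right h1)))
  · exact Or.inr (Or.inr (Or.inr (Or.inl (eq_inv_of_mul_eq_one_right h1))))
  · refine Or.inr (Or.inr (Or.inr (Or.inr (Or.inl ?_))))
    field_simp
    linear_combination h1
  · refine Or.inr (Or.inr (Or.inr (Or.inr (Or.inr ?_))))
    field_simp
    linear_combination (-1 : Ω) * h1

end Sextic

section Integral

variable {O Ω : Type*} [CommRing O] [Field Ω] [Algebra O Ω] {j lam : Ω}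

/-- **(M1)** A solution `λ` of the sextic is integral over every subalgebra containing `j`, as
soon as `2 ∈ Oˣ`. -/
theorem Sextic.isIntegral_subalgebra (h : Sextic j lam) (h2 : IsUnit (2 : O))
    {A : Subalgebra O Ω} (hjmem : j ∈ A) : IsIntegral A lam := by
  obtain ⟨c, hc⟩ := exists_inv_256 h2
  let jA : A := ⟨j, hjmem⟩
  let cA : A := algebraMap O A c
  have hcΩ : (256 : Ω) * algebraMap O Ω c = 1 := by
    have := congrArg (algebraMap O Ω) hc
    rwa [map_mul, map_ofNat, map_one] at this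
  have hcA : algebraMap A Ω cA = algebraMap O Ω c := rfl
  have hjA : algebraMap A Ω jA = j := rfl
  refine ⟨X ^ 6 + (C (-3) * X ^ 5 + C (6 - cA * jA) * X ^ 4 + C (2 * cA * jA - 7) * X ^ 3 +
    C (6 - cA * jA) * X ^ 2 + C (-3) * X + 1), by monicity!, ?_⟩
  simp only [eval₂_add, eval₂_mul, eval₂_pow, eval₂_X, eval₂_C, eval₂_one]
  simp only [map_neg, map_sub, map_mul, map_ofNat, hcA, hjA]
  have hs : jNum lam = j * jDen lam := h
  rw [jNum_def, jDen_def] at hs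
  linear_combination (algebraMap O Ω c) * hs - (lam ^ 2 - lam + 1) ^ 3 * hcΩ

/-- **(M1)** A solution `λ` of the sextic is integral over `O[j]` as soon as `2 ∈ Oˣ`. -/
theorem Sextic.isIntegral (h : Sextic j lam) (h2 : IsUnit (2 : O)) :
    IsIntegral (Algebra.adjoin O {j}) lam :=
  h.isIntegral_subalgebra h2 (Algebra.subset_adjoin rfl)

theorem isUnit_two_field (h2 : IsUnit (2 : O)) : (2 : Ω) ≠ 0 := by
  have := (h2.map (algebraMap O Ω)).ne_zero
  rwa [map_ofNat] at this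

theorem Sextic.isIntegral_inv (h : Sextic j lam) (h2 : IsUnit (2 : O)) :
    IsIntegral (Algebra.adjoin O {j}) lam⁻¹ :=
  (h.inv (isUnit_two_field h2)).isIntegral h2

theorem Sextic.isIntegral_sub_one_inv (h : Sextic j lam) (h2 : IsUnit (2 : O)) :
    IsIntegral (Algebra.adjoin O {j}) (lam - 1)⁻¹ := by
  have h1 := ((h.inv_one_sub (isUnit_two_field h2)).isIntegral h2).neg
  have : -(1 - lam)⁻¹ = (lam - 1)⁻¹ := by rw [← inv_neg, neg_sub]
  rwa [this] at h1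

/-- `λ` is transcendental over `O` when `j` is. -/
theorem Sextic.transcendental [IsDomain O] (h : Sextic j lam) (h2 : (2 : Ω) ≠ 0)
    (hj : Transcendental O j) : Transcendental O lam := by
  intro halg
  apply hj
  rw [h.j_eq h2, div_eq_mul_inv]
  have hmem : lam ∈ Subalgebra.algebraicClosure O Ω := halg
  have hN : jNum lam ∈ Subalgebra.algebraicClosure O Ω := by
    rw [jNum_def]
    exact mul_mem (by exact_mod_cast (Subalgebra.algebraicClosure O Ω).natCast_mem 256)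
      (pow_mem (add_mem (sub_mem (pow_mem hmem 2) hmem) (one_mem _)) 3)
  have hD : jDen lam ∈ Subalgebra.algebraicClosure O Ω := by
    rw [jDen_def]
    exact mul_mem (pow_mem hmem 2) (pow_mem (sub_mem hmem (one_mem _)) 2)
  exact IsAlgebraic.mul hN (IsAlgebraic.inv hD)

end Integral

/-! ### (M3) The cubic `X (X − 1)² = 2⁸/j` -/

section Cubic

variable {Ω : Type*} [Field Ω]

/-- `u₀ = λ²/(λ² − λ + 1)`: vanishes at the cusp `λ = 0`. -/
noncomputable def u0 (lam : Ω) : Ω := lam ^ 2 / (lam ^ 2 - lam + 1)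

/-- `u₁ = (λ − 1)²/(λ² − λ + 1)`: vanishes at the cusp `λ = 1`. -/
noncomputable def u1 (lam : Ω) : Ω := (lam - 1) ^ 2 / (lam ^ 2 - lam + 1)

/-- `u_∞ = 1/(λ² − λ + 1)`: vanishes at the cusp `λ = ∞`. -/
noncomputable def uInf (lam : Ω) : Ω := 1 / (lam ^ 2 - lam + 1)

variable {j lam : Ω}

theorem quad_one_sub (lam : Ω) : (1 - lam) ^ 2 - (1 - lam) + 1 = lam ^ 2 - lam + 1 := by ring

theorem u0_one_sub (lam : Ω) : u0 (1 - lam) = u1 lam := by
  rw [u0, u1, quad_one_sub]; congr 1; ring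

theorem u1_one_sub (lam : Ω) : u1 (1 - lam) = u0 lam := by
  rw [u0, u1, quad_one_sub]; congr 1; ring

theorem uInf_one_sub (lam : Ω) : uInf (1 - lam) = uInf lam := by
  rw [uInf, uInf, quad_one_sub]

theorem u0_inv (hl : lam ≠ 0) : u0 lam⁻¹ = uInf lam := by
  by_cases hq : lam ^ 2 - lam + 1 = 0
  · have : lam⁻¹ ^ 2 - lam⁻¹ + 1 = 0 := by
      field_simp
      linear_combination hq
    rw [u0, uInf, hq, this, div_zero, div_zero]
  · have hq' : lam⁻¹ ^ 2 - lam⁻¹ + 1 ≠ 0 := by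
      intro h0
      apply hq
      field_simp at h0
      linear_combination h0
    rw [u0, uInf, div_eq_div_iff hq' hq]
    field_simp
    ring

theorem uInf_inv (hl : lam ≠ 0) : uInf lam⁻¹ = u0 lam := by
  have := u0_inv (lam := lam⁻¹) (inv_ne_zero hl)
  rw [inv_inv] at this
  exact this.symm

theorem u1_inv (hl : lam ≠ 0) : u1 lam⁻¹ = u1 lam := by
  by_cases hq : lam ^ 2 - lam + 1 = 0
  · have : lam⁻¹ ^ 2 - lam⁻¹ + 1 = 0 := by
      field_simp
      linear_combination hq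
    rw [u1, u1, hq, this, div_zero, div_zero]
  · have hq' : lam⁻¹ ^ 2 - lam⁻¹ + 1 ≠ 0 := by
      intro h0
      apply hq
      field_simp at h0
      linear_combination h0
    rw [u1, u1, div_eq_div_iff hq' hq]
    field_simp
    ring

theorem u0_sub_one (hq : lam ^ 2 - lam + 1 ≠ 0) : u0 lam - 1 = (lam - 1) / (lam ^ 2 - lam + 1) := by
  rw [u0, eq_div_iff hq, sub_mul, div_mul_cancel₀ _ hq]; ring

theorem u1_sub_one (hq : lam ^ 2 - lam + 1 ≠ 0) : u1 lam - 1 = -lam / (lam ^ 2 - lam + 1) := by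
  rw [u1, eq_div_iff hq, sub_mul, div_mul_cancel₀ _ hq]; ring

theorem uInf_sub_one (hq : lam ^ 2 - lam + 1 ≠ 0) :
    uInf lam - 1 = -(lam * (lam - 1)) / (lam ^ 2 - lam + 1) := by
  rw [uInf, eq_div_iff hq, sub_mul, div_mul_cancel₀ _ hq]; ring

/-- `u₀ + u₁ + u_∞ = 2`. -/
theorem u_sum (hq : lam ^ 2 - lam + 1 ≠ 0) : u0 lam + u1 lam + uInf lam = 2 := by
  rw [u0, u1, uInf, ← add_div, ← add_div, div_eq_iff hq]; ring

/-- `u₀ u₁ + u₀ u_∞ + u₁ u_∞ = 1`. -/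
theorem u_pair (hq : lam ^ 2 - lam + 1 ≠ 0) :
    u0 lam * u1 lam + u0 lam * uInf lam + u1 lam * uInf lam = 1 := by
  rw [u0, u1, uInf, div_mul_div_comm, div_mul_div_comm, div_mul_div_comm, ← add_div, ← add_div,
    div_eq_iff (mul_ne_zero hq hq)]
  ring

/-- `u₀ u₁ u_∞ = λ² (λ − 1)²/(λ² − λ + 1)³`. -/
theorem u_prod_eq (lam : Ω) :
    u0 lam * u1 lam * uInf lam = jDen lam / (lam ^ 2 - lam + 1) ^ 3 := by
  rw [u0, u1, uInf, jDen_def, div_mul_div_comm, div_mul_div_comm, mul_one]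
  congr 1; ring

theorem Sextic.jDen_div (h : Sextic j lam) (h2 : (2 : Ω) ≠ 0) (hj : j ≠ 0) :
    jDen lam / (lam ^ 2 - lam + 1) ^ 3 = 256 * j⁻¹ := by
  have hq := h.quad_ne_zero h2 hj
  have hs : jNum lam = j * jDen lam := h
  rw [jNum_def] at hs
  rw [div_eq_iff (pow_ne_zero 3 hq)]
  field_simp
  linear_combination (-1 : Ω) * hs

/-- `u₀ u₁ u_∞ = 2⁸/j`. -/
theorem Sextic.u_prod (h : Sextic j lam) (h2 : (2 : Ω) ≠ 0) (hj : j ≠ 0) :
    u0 lam * u1 lam * uInf lam = 256 * j⁻¹ := by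
  rw [u_prod_eq, h.jDen_div h2 hj]

/-- `u₀` is a root of `X (X − 1)² = 2⁸/j`. -/
theorem Sextic.u0_cubic (h : Sextic j lam) (h2 : (2 : Ω) ≠ 0) (hj : j ≠ 0) :
    u0 lam * (u0 lam - 1) ^ 2 = 256 * j⁻¹ := by
  have hq := h.quad_ne_zero h2 hj
  rw [u0_sub_one hq, ← h.jDen_div h2 hj, u0, jDen_def]
  field_simp

/-- `u₁` is a root of `X (X − 1)² = 2⁸/j`. -/
theorem Sextic.u1_cubic (h : Sextic j lam) (h2 : (2 : Ω) ≠ 0) (hj : j ≠ 0) :
    u1 lam * (u1 lam - 1) ^ 2 = 256 * j⁻¹ := by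
  have hq := h.quad_ne_zero h2 hj
  rw [u1_sub_one hq, ← h.jDen_div h2 hj, u1, jDen_def]
  field_simp

/-- `u_∞` is a root of `X (X − 1)² = 2⁸/j`. -/
theorem Sextic.uInf_cubic (h : Sextic j lam) (h2 : (2 : Ω) ≠ 0) (hj : j ≠ 0) :
    uInf lam * (uInf lam - 1) ^ 2 = 256 * j⁻¹ := by
  have hq := h.quad_ne_zero h2 hj
  rw [uInf_sub_one hq, ← h.jDen_div h2 hj, uInf, jDen_def]
  field_simp

/-- `λ² = u₀/u_∞`. -/
theorem u0_div_uInf (hq : lam ^ 2 - lam + 1 ≠ 0) : u0 lam / uInf lam = lam ^ 2 := by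
  rw [u0, uInf, div_div_div_cancel_right₀ hq, div_one]

/-- `(λ − 1)² = u₁/u_∞`. -/
theorem u1_div_uInf (hq : lam ^ 2 - lam + 1 ≠ 0) : u1 lam / uInf lam = (lam - 1) ^ 2 := by
  rw [u1, uInf, div_div_div_cancel_right₀ hq, div_one]

/-- `λ² − λ + 1 = 1/u_∞`. -/
theorem inv_uInf (lam : Ω) : (uInf lam)⁻¹ = lam ^ 2 - lam + 1 := by
  rw [uInf, one_div, inv_inv]

theorem uInf_ne_zero (hq : lam ^ 2 - lam + 1 ≠ 0) : uInf lam ≠ 0 := by
  rw [uInf]; exact one_div_ne_zero hq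

theorem u1_ne_zero (hq : lam ^ 2 - lam + 1 ≠ 0) (hl : lam - 1 ≠ 0) : u1 lam ≠ 0 := by
  rw [u1]; exact div_ne_zero (pow_ne_zero 2 hl) hq

theorem u0_ne_zero (hq : lam ^ 2 - lam + 1 ≠ 0) (hl : lam ≠ 0) : u0 lam ≠ 0 := by
  rw [u0]; exact div_ne_zero (pow_ne_zero 2 hl) hq

/-- `1/u₁ = (λ² − λ + 1)/(λ − 1)²`. -/
theorem inv_u1 (lam : Ω) : (u1 lam)⁻¹ = (lam ^ 2 - lam + 1) * ((lam - 1)⁻¹) ^ 2 := by
  rw [u1, inv_div, div_eq_mul_inv, inv_pow]

/-- `1/u₀ = (λ² − λ + 1)/λ²`. -/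
theorem inv_u0 (lam : Ω) : (u0 lam)⁻¹ = (lam ^ 2 - lam + 1) * (lam⁻¹) ^ 2 := by
  rw [u0, inv_div, div_eq_mul_inv, inv_pow]

/-- `1/j = λ² (λ − 1)² u_∞³ / 2⁸`. -/
theorem Sextic.inv_j_eq (h : Sextic j lam) (h2 : (2 : Ω) ≠ 0) (hj : j ≠ 0) :
    256 * j⁻¹ = lam ^ 2 * (lam - 1) ^ 2 * uInf lam ^ 3 := by
  rw [← h.jDen_div h2 hj, jDen_def, uInf, div_pow, one_pow, div_eq_mul_one_div]

variable {O : Type*} [CommRing O] [Algebra O Ω]

/-- A root of the cubic `X (X − 1)² = 2⁸/j` is integral over every subalgebra containing `1/j`. -/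
theorem isIntegral_of_cubic_subalgebra {u : Ω} (hu : u * (u - 1) ^ 2 = 256 * j⁻¹)
    {A : Subalgebra O Ω} (hw : j⁻¹ ∈ A) : IsIntegral A u := by
  let wA : A := ⟨j⁻¹, hw⟩
  have hwA : algebraMap A Ω wA = j⁻¹ := rfl
  refine ⟨X ^ 3 + (C (-2) * X ^ 2 + X + C (-256 * wA)), by monicity!, ?_⟩
  simp only [eval₂_add, eval₂_mul, eval₂_pow, eval₂_X, eval₂_C]
  simp only [map_neg, map_mul, map_ofNat, hwA]
  linear_combination hu

/-- A root of the cubic `X (X − 1)² = 2⁸/j` is integral over `O[1/j]`. -/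
theorem isIntegral_of_cubic {u : Ω} (hu : u * (u - 1) ^ 2 = 256 * j⁻¹) :
    IsIntegral (Algebra.adjoin O {j⁻¹}) u :=
  isIntegral_of_cubic_subalgebra hu (Algebra.subset_adjoin rfl)

theorem Sextic.isIntegral_u0 (h : Sextic j lam) (h2 : (2 : Ω) ≠ 0) (hj : j ≠ 0) :
    IsIntegral (Algebra.adjoin O {j⁻¹}) (u0 lam) := isIntegral_of_cubic (h.u0_cubic h2 hj)

theorem Sextic.isIntegral_u1 (h : Sextic j lam) (h2 : (2 : Ω) ≠ 0) (hj : j ≠ 0) :
    IsIntegral (Algebra.adjoin O {j⁻¹}) (u1 lam) := isIntegral_of_cubic (h.u1_cubic h2 hj)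

theorem Sextic.isIntegral_uInf (h : Sextic j lam) (h2 : (2 : Ω) ≠ 0) (hj : j ≠ 0) :
    IsIntegral (Algebra.adjoin O {j⁻¹}) (uInf lam) := isIntegral_of_cubic (h.uInf_cubic h2 hj)

end Cubic

section CubicPrime

variable {S : Type*} [CommRing S]

/-- **Exactly one cusp function vanishes.** If `a + b + c = 2`, `ab + ac + bc = 1` (the three roots
of `X (X − 1)² = abc`) and `a` lies in an ideal `p`, then `(b − 1)(c − 1) ∈ p`. -/
theorem sub_one_mul_sub_one_mem {a b c : S} (hsum : a + b + c = 2)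
    (hpair : a * b + a * c + b * c = 1) (p : Ideal S) (ha : a ∈ p) : (b - 1) * (c - 1) ∈ p := by
  have : (b - 1) * (c - 1) = a * (1 - b - c) := by
    linear_combination hpair - hsum
  rw [this]
  exact p.mul_mem_right _ ha

theorem sub_one_mem_of_mem {a b c : S} (hsum : a + b + c = 2)
    (hpair : a * b + a * c + b * c = 1) (p : Ideal S) [p.IsPrime] (ha : a ∈ p) :
    b - 1 ∈ p ∧ c - 1 ∈ p := by
  have hc_of_b : ∀ {b c : S}, a + b + c = 2 → b - 1 ∈ p → c - 1 ∈ p := by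
    intro b c hs hb
    have : c - 1 = -a - (b - 1) := by linear_combination hs
    rw [this]
    exact p.sub_mem (p.neg_mem ha) hb
  rcases Ideal.IsPrime.mem_or_mem ‹p.IsPrime› (sub_one_mul_sub_one_mem hsum hpair p ha) with h | h
  · exact ⟨h, hc_of_b hsum h⟩
  · exact ⟨hc_of_b (by linear_combination hsum) h, h⟩

/-- A prime containing the product of the three roots of `X (X − 1)² = abc` contains exactly one of
them; the other two are `≡ 1`. -/
theorem cubic_prime_cases {a b c : S} (hsum : a + b + c = 2)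
    (hpair : a * b + a * c + b * c = 1) (p : Ideal S) [hp : p.IsPrime] (hprod : a * b * c ∈ p) :
    (a ∈ p ∧ b - 1 ∈ p ∧ c - 1 ∈ p) ∨ (b ∈ p ∧ a - 1 ∈ p ∧ c - 1 ∈ p) ∨
      (c ∈ p ∧ a - 1 ∈ p ∧ b - 1 ∈ p) := by
  rcases hp.mem_or_mem hprod with hab | hc
  · rcases hp.mem_or_mem hab with ha | hb
    · exact Or.inl ⟨ha, sub_one_mem_of_mem hsum hpair p ha⟩
    · exact Or.inr (Or.inl ⟨hb, sub_one_mem_of_mem (a := b) (b := a) (c := c)
        (by linear_combination hsum) (by linear_combination hpair) p hb⟩)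
  · exact Or.inr (Or.inr ⟨hc, sub_one_mem_of_mem (a := c) (b := a) (c := b)
      (by linear_combination hsum) (by linear_combination hpair) p hc⟩)

theorem not_mem_of_sub_one_mem {b : S} (p : Ideal S) [hp : p.IsPrime] (hb : b - 1 ∈ p) : b ∉ p := by
  intro h
  apply hp.ne_top
  rw [Ideal.eq_top_iff_one]
  have : (1 : S) = b - (b - 1) := by ring
  rw [this]
  exact p.sub_mem h hb

end CubicPrime

end Fermat.Agent.N4.Lambda
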