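/-
N4, block M (helper10), part (M2): ring-theoretic properties of `B = R[X][1/f]`
(`Localization.Away (f : R[X])`) over a base ring `R` with a prime element `π`:
domain, integrally closed, noetherian, `π B` prime, `B/π B` a PID (when `R/π` is a field),
and the embedding of `B` into a field `Ω` at a transcendental point `x`, with image
`R[x, 1/f(x)]`.
-/
import Mathlib

set_option autoImplicit false

namespace Fermat.Agent.N4.PolyAway

open Polynomial

section Generic

variable {R : Type*} [CommRing R] (M : Submonoid R) (S : Type*) [CommRing S] [Algebra R S]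
  [IsLocalization M S]

include M in
/-- A localization of a principal ideal ring is a principal ideal ring. -/
theorem isPrincipalIdealRing_of_isLocalization [IsPrincipalIdealRing R] :
    IsPrincipalIdealRing S := by
  refine ⟨fun J => ?_⟩
  obtain ⟨a, ha⟩ := (IsPrincipalIdealRing.principal (J.under R)).principal
  refine ⟨⟨algebraMap R S a, ?_⟩⟩
  have h := IsLocalization.map_under M S J
  rw [ha, Ideal.submodule_span_eq, Ideal.map_span, Set.image_singleton] at h
  rw [Ideal.submodule_span_eq, h]

end Generic

section Away

variable {R : Type*} [CommRing R] (f : R[X])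

theorem powers_le [IsDomain R] (hf : f ≠ 0) : Submonoid.powers f ≤ nonZeroDivisors R[X] :=
  powers_le_nonZeroDivisors_of_noZeroDivisors hf

theorem isDomain_away [IsDomain R] (hf : f ≠ 0) : IsDomain (Localization.Away f) :=
  IsLocalization.isDomain_of_le_nonZeroDivisors _ (powers_le f hf)

theorem isIntegrallyClosed_away [IsDomain R] [IsIntegrallyClosed R] (hf : f ≠ 0) :
    IsIntegrallyClosed (Localization.Away f) :=
  isIntegrallyClosed_of_isLocalization _ (Submonoid.powers f) (powers_le f hf)

theorem isNoetherianRing_away [IsNoetherianRing R] : IsNoetherianRing (Localization.Away f) :=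
  IsLocalization.isNoetherianRing (Submonoid.powers f) _ inferInstance

theorem algebraMap_C (r : R) :
    algebraMap R[X] (Localization.Away f) (C r) = algebraMap R (Localization.Away f) r := by
  rw [IsScalarTower.algebraMap_apply R R[X] (Localization.Away f)]
  rfl

theorem map_map_C_span (π : R) :
    ((Ideal.span {π}).map (C : R →+* R[X])).map (algebraMap R[X] (Localization.Away f)) =
      Ideal.span {algebraMap R (Localization.Away f) π} := by
  rw [Ideal.map_span, Set.image_singleton, Ideal.map_span, Set.image_singleton, algebraMap_C]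

/-- If `π R` is prime and `f ∉ π R[X]` then `π B` is prime in `B = R[X][1/f]`. -/
theorem span_isPrime_away {π : R} (hπ : (Ideal.span {π}).IsPrime)
    (hf : f ∉ (Ideal.span {π}).map (C : R →+* R[X])) :
    (Ideal.span {algebraMap R (Localization.Away f) π}).IsPrime := by
  have hP : ((Ideal.span {π}).map (C : R →+* R[X])).IsPrime := Ideal.isPrime_map_C_of_isPrime
  have hd : Disjoint (Submonoid.powers f : Set R[X])
      ((Ideal.span {π}).map (C : R →+* R[X]) : Set R[X]) := by
    rw [Set.disjoint_left]
    rintro _ ⟨n, rfl⟩ hn
    exact hf (hP.mem_of_pow_mem n hn)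
  have := IsLocalization.isPrime_of_isPrime_disjoint (Submonoid.powers f) (Localization.Away f)
    _ hP hd
  rwa [map_map_C_span] at this

theorem algebraMap_injective_away [IsDomain R] (hf0 : f ≠ 0) :
    Function.Injective (algebraMap R (Localization.Away f)) := by
  rw [IsScalarTower.algebraMap_eq R R[X] (Localization.Away f)]
  exact (IsLocalization.injective _ (powers_le f hf0)).comp C_injective

/-- `π` is a prime element of `B = R[X][1/f]`. -/
theorem prime_algebraMap_away [IsDomain R] {π : R} (hπ : (Ideal.span {π}).IsPrime) (hπ0 : π ≠ 0)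
    (hf : f ∉ (Ideal.span {π}).map (C : R →+* R[X])) :
    Prime (algebraMap R (Localization.Away f) π) := by
  have hf0 : f ≠ 0 := fun h => hf (by rw [h]; exact Ideal.zero_mem _)
  have h0 : algebraMap R (Localization.Away f) π ≠ 0 := fun h =>
    hπ0 (algebraMap_injective_away f hf0 (by rw [h, map_zero]))
  exact (Ideal.span_singleton_prime h0).mp (span_isPrime_away f hπ hf)

/-- `B/π B` is a domain. -/
theorem isDomain_quotient_away {π : R} (hπ : (Ideal.span {π}).IsPrime)
    (hf : f ∉ (Ideal.span {π}).map (C : R →+* R[X])) :
    IsDomain (Localization.Away f ⧸ Ideal.span {algebraMap R (Localization.Away f) π}) :=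
  have := span_isPrime_away f hπ hf
  Ideal.Quotient.isDomain _

/-- `f ∉ π R[X]` iff the reduction of `f` modulo `π` is nonzero. -/
theorem not_mem_map_C_iff (π : R) :
    f ∉ (Ideal.span {π}).map (C : R →+* R[X]) ↔
      f.map (Ideal.Quotient.mk (Ideal.span {π})) ≠ 0 := by
  rw [Ideal.mem_map_C_iff, Ne, Polynomial.ext_iff]
  simp only [coeff_map, coeff_zero, Ideal.Quotient.eq_zero_iff_mem]

/-- If `R/π` is a field then `B/π B` is a principal ideal ring, `B = R[X][1/f]`. -/
theorem isPrincipalIdealRing_quotient_away {π : R} (hπ : (Ideal.span {π}).IsMaximal) :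
    IsPrincipalIdealRing
      (Localization.Away f ⧸ Ideal.span {algebraMap R (Localization.Away f) π}) := by
  let _ := Ideal.Quotient.field (Ideal.span {π})
  set I : Ideal R[X] := (Ideal.span {π}).map (C : R →+* R[X]) with hI
  have h1 : IsPrincipalIdealRing (R[X] ⧸ I) :=
    IsPrincipalIdealRing.of_surjective
      (Ideal.polynomialQuotientEquivQuotientPolynomial (Ideal.span {π})).toRingHom
      (Ideal.polynomialQuotientEquivQuotientPolynomial (Ideal.span {π})).surjective
  have h2 : IsPrincipalIdealRing
      (Localization.Away f ⧸ I.map (algebraMap R[X] (Localization.Away f))) :=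
    isPrincipalIdealRing_of_isLocalization
      (Algebra.algebraMapSubmonoid (R[X] ⧸ I) (Submonoid.powers f)) _
  have h3 : I.map (algebraMap R[X] (Localization.Away f)) =
      Ideal.span {algebraMap R (Localization.Away f) π} := map_map_C_span f π
  exact IsPrincipalIdealRing.of_surjective (Ideal.quotEquivOfEq h3).toRingHom
    (Ideal.quotEquivOfEq h3).surjective

end Away

section Embed

variable {R : Type*} [CommRing R] (f : R[X]) {Ω : Type*} [Field Ω] [Algebra R Ω]

/-- Evaluation at a point `x` of a field with `f(x) ≠ 0`, as a map `R[X][1/f] → Ω`. -/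
noncomputable def liftField (x : Ω) (hx : aeval x f ≠ 0) : Localization.Away f →ₐ[R] Ω :=
  IsLocalization.Away.liftAlgHom f (f := (aeval x : R[X] →ₐ[R] Ω)) (isUnit_iff_ne_zero.mpr hx)

@[simp] theorem liftField_algebraMap (x : Ω) (hx : aeval x f ≠ 0) (g : R[X]) :
    liftField f x hx (algebraMap R[X] (Localization.Away f) g) = aeval x g := by
  rw [liftField, IsLocalization.Away.liftAlgHom_apply, IsLocalization.Away.lift_eq]
  rfl

theorem liftField_injective [IsDomain R] (x : Ω) (hx : aeval x f ≠ 0)
    (htr : Transcendental R x) : Function.Injective (liftField f x hx) := by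
  have hf : f ≠ 0 := fun h => hx (by rw [h, map_zero])
  have hinj : Function.Injective (aeval x : R[X] →ₐ[R] Ω) :=
    transcendental_iff_injective.mp htr
  have key : Function.Injective ((liftField f x hx : Localization.Away f →ₐ[R] Ω) :
      Localization.Away f →+* Ω) := by
    rw [IsLocalization.injective_iff_map_algebraMap_eq (Submonoid.powers f)]
    intro a b
    rw [RingHom.coe_coe, liftField_algebraMap, liftField_algebraMap]
    constructor
    · intro h
      rw [(IsLocalization.injective _ (powers_le f hf)) h]
    · intro h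
      rw [hinj h]
  exact key

theorem liftField_invSelf (x : Ω) (hx : aeval x f ≠ 0) :
    liftField f x hx (IsLocalization.Away.invSelf f) = (aeval x f)⁻¹ := by
  have h := IsLocalization.Away.mul_invSelf (S := Localization.Away f) f
  have h' := congrArg (liftField f x hx) h
  rw [map_mul, liftField_algebraMap, map_one] at h'
  exact eq_inv_of_mul_eq_one_right h'

/-- The image of `R[X][1/f] → Ω`, `X ↦ x`, is `R[x, 1/f(x)]`. -/
theorem range_liftField (x : Ω) (hx : aeval x f ≠ 0) :
    (liftField f x hx).range = Algebra.adjoin R {x, (aeval x f)⁻¹} := by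
  apply le_antisymm
  · rintro _ ⟨b, rfl⟩
    obtain ⟨n, a, hb⟩ := IsLocalization.Away.surj f b
    have h' := congrArg (liftField f x hx) hb
    rw [map_mul, map_pow, liftField_algebraMap, liftField_algebraMap] at h'
    have hb' : liftField f x hx b = aeval x a * ((aeval x f)⁻¹) ^ n := by
      rw [← h', mul_assoc, ← mul_pow, mul_inv_cancel₀ hx, one_pow, mul_one]
    show liftField f x hx b ∈ _
    rw [hb']
    refine mul_mem ?_ (pow_mem (Algebra.subset_adjoin (by simp)) n)
    have hmono : Algebra.adjoin R {x} ≤ Algebra.adjoin R {x, (aeval x f)⁻¹} :=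
      Algebra.adjoin_mono (by simp)
    exact hmono (aeval_mem_adjoin_singleton R x)
  · apply Algebra.adjoin_le
    rintro y hy
    rcases hy with rfl | hy
    · exact ⟨algebraMap R[X] _ X, by
        show liftField f y hx _ = y
        rw [liftField_algebraMap, aeval_X]⟩
    · rw [Set.mem_singleton_iff] at hy
      rw [hy]
      exact ⟨IsLocalization.Away.invSelf f, liftField_invSelf f x hx⟩

/-- `R[X][1/f] ≃ R[x, 1/f(x)]` for `x` transcendental over the domain `R`. -/
noncomputable def equivAdjoin [IsDomain R] (x : Ω) (hx : aeval x f ≠ 0)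
    (htr : Transcendental R x) :
    Localization.Away f ≃ₐ[R] Algebra.adjoin R {x, (aeval x f)⁻¹} :=
  (AlgEquiv.ofInjective (liftField f x hx) (liftField_injective f x hx htr)).trans
    (Subalgebra.equivOfEq _ _ (range_liftField f x hx))

@[simp] theorem coe_equivAdjoin [IsDomain R] (x : Ω) (hx : aeval x f ≠ 0)
    (htr : Transcendental R x) (b : Localization.Away f) :
    ((equivAdjoin f x hx htr b : Algebra.adjoin R {x, (aeval x f)⁻¹}) : Ω) =
      liftField f x hx b := rfl

end Embed

section Transfer

variable {R : Type*} [CommRing R] (f : R[X]) {A : Type*} [CommRing A] [Algebra R A]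

/-- The ring-theoretic properties of `R[X][1/f]` transported to any `R`-algebra isomorphic
to it. -/
theorem props_of_equiv [IsDomain R] [IsIntegrallyClosed R] [IsNoetherianRing R]
    (e : Localization.Away f ≃ₐ[R] A) (hf0 : f ≠ 0) {π : R} (hπ : (Ideal.span {π}).IsMaximal)
    (hf : f ∉ (Ideal.span {π}).map (C : R →+* R[X])) :
    IsDomain A ∧ IsIntegrallyClosed A ∧ IsNoetherianRing A ∧
      (Ideal.span {algebraMap R A π}).IsPrime ∧
      IsPrincipalIdealRing (A ⧸ Ideal.span {algebraMap R A π}) := by
  have hdom : IsDomain (Localization.Away f) := isDomain_away f hf0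
  have hA : IsDomain A := e.toMulEquiv.symm.isDomain
  have h1 : IsIntegrallyClosed (Localization.Away f) := isIntegrallyClosed_away f hf0
  have h2 : IsNoetherianRing (Localization.Away f) := isNoetherianRing_away f
  have h3 := span_isPrime_away f hπ.isPrime hf
  have h4 := isPrincipalIdealRing_quotient_away f hπ
  have hmap : (Ideal.span {algebraMap R (Localization.Away f) π}).map (e : Localization.Away f →+* A)
      = Ideal.span {algebraMap R A π} := by
    rw [Ideal.map_span, Set.image_singleton]
    congr 2
    exact e.commutes π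
  refine ⟨hA, IsIntegrallyClosed.of_equiv e.toRingEquiv,
    isNoetherianRing_of_ringEquiv _ e.toRingEquiv, ?_, ?_⟩
  · rw [← hmap]
    exact Ideal.map_isPrime_of_equiv (e : Localization.Away f ≃+* A)
  · have q : (Localization.Away f ⧸ Ideal.span {algebraMap R (Localization.Away f) π}) ≃+*
        (A ⧸ Ideal.span {algebraMap R A π}) :=
      Ideal.quotientEquiv _ _ (e : Localization.Away f ≃+* A) hmap.symm
    exact IsPrincipalIdealRing.of_surjective q.toRingHom q.surjective

end Transfer

section Subalgebra

variable {R : Type*} [CommRing R] (f : R[X]) {Ω : Type*} [Field Ω] [Algebra R Ω]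

/-- **(M2), generic form.** `R` a noetherian integrally closed domain, `π R` maximal, `f ∈ R[X]`
nonzero modulo `π`, `x ∈ Ω` transcendental over `R`: the subalgebra `A = R[x, 1/f(x)]` of the field
`Ω` is an integrally closed noetherian domain, `π A` is prime and `A/π A` is a principal ideal
ring. -/
theorem subalgebra_props [IsDomain R] [IsIntegrallyClosed R] [IsNoetherianRing R] (x : Ω)
    (htr : Transcendental R x) {π : R} (hπ : (Ideal.span {π}).IsMaximal)
    (hf : f ∉ (Ideal.span {π}).map (C : R →+* R[X]))
    (A : Subalgebra R Ω) (hA : A = Algebra.adjoin R {x, (aeval x f)⁻¹}) :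
    IsIntegrallyClosed A ∧ IsNoetherianRing A ∧ (Ideal.span {algebraMap R A π}).IsPrime ∧
      IsPrincipalIdealRing (A ⧸ Ideal.span {algebraMap R A π}) := by
  subst hA
  have hf0 : f ≠ 0 := fun h => hf (by rw [h]; exact Ideal.zero_mem _)
  have hx : aeval x f ≠ 0 := fun h =>
    hf0 ((transcendental_iff_injective.mp htr) (by rw [h, map_zero]))
  exact (props_of_equiv f (equivAdjoin f x hx htr) hf0 hπ hf).2

end Subalgebra

end Fermat.Agent.N4.PolyAway
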