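/-
N4, block M (helper10), part (M2): the two base rings of the étale charts as subalgebras of a
field `Ω`:
* `Bplus O lam = O[λ, 1/λ, 1/(λ − 1)]` (`λ`-line minus the cusps),
* `Bt O t N = O[t, 1/(λ − 1), 1/(λ² − λ + 1)]`, `λ = 16 t^N` (neighbourhood of the cusp `λ = 0`
  with the `N`-th root `t` of `λ/16` adjoined, elliptic point `j = 0` removed).
For `λ` (resp. `t`) transcendental over the noetherian integrally closed domain `O` with `π O`
maximal they are integrally closed noetherian domains, `π` is prime in them and the quotient by `π`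
is a principal ideal ring.  Moreover `Bplus` is integral over `O[j]` and `Bt` is integral over
`O[1/j, 1/u₁, 1/u_∞]`, which it contains.
-/
import Fermat.Agent.N4.LambdaField
import Fermat.Agent.N4.PolyAway

set_option autoImplicit false

namespace Fermat.Agent.N4.Lambda

open Polynomial

section Bplus

variable (O : Type*) {Ω : Type*} [CommRing O] [Field Ω] [Algebra O Ω]

/-- `B₊ = O[λ, 1/λ, 1/(λ − 1)] ⊆ Ω`. -/
def Bplus (lam : Ω) : Subalgebra O Ω := Algebra.adjoin O {lam, lam⁻¹, (lam - 1)⁻¹}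

variable {O} {lam : Ω}

theorem lam_mem_Bplus : lam ∈ Bplus O lam := Algebra.subset_adjoin (by simp)

theorem inv_mem_Bplus : lam⁻¹ ∈ Bplus O lam := Algebra.subset_adjoin (by simp)

theorem sub_one_inv_mem_Bplus : (lam - 1)⁻¹ ∈ Bplus O lam := Algebra.subset_adjoin (by simp)

theorem aeval_lamDen (lam : Ω) : aeval lam (lamDen O) = lam * (lam - 1) := by
  calc (aeval lam : O[X] →ₐ[O] Ω) (lamDen O) = (aeval lam : O[X] →ₐ[O] Ω) (X * (X - 1)) := rfl
    _ = lam * (lam - 1) := by rw [map_mul, map_sub, aeval_X, map_one]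

theorem Bplus_eq (hl : lam ≠ 0) (hl1 : lam - 1 ≠ 0) :
    Bplus O lam = Algebra.adjoin O {lam, (aeval lam (lamDen O))⁻¹} := by
  rw [aeval_lamDen, mul_inv]
  apply le_antisymm
  · apply Algebra.adjoin_le
    have hx : lam ∈ Algebra.adjoin O {lam, lam⁻¹ * (lam - 1)⁻¹} :=
      Algebra.subset_adjoin (by simp)
    have hy : lam⁻¹ * (lam - 1)⁻¹ ∈ Algebra.adjoin O {lam, lam⁻¹ * (lam - 1)⁻¹} :=
      Algebra.subset_adjoin (by simp)
    intro y hy'
    simp only [Set.mem_insert_iff, Set.mem_singleton_iff] at hy'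
    rcases hy' with h | h | h
    · rw [h]; exact hx
    · rw [h]
      have hm := mul_mem hy (sub_mem hx (one_mem _))
      rwa [mul_assoc, inv_mul_cancel₀ hl1, mul_one] at hm
    · rw [h]
      have hm := mul_mem hx hy
      rwa [← mul_assoc, mul_inv_cancel₀ hl, one_mul] at hm
  · apply Algebra.adjoin_le
    intro y hy'
    simp only [Set.mem_insert_iff, Set.mem_singleton_iff] at hy'
    rcases hy' with h | h
    · rw [h]; exact lam_mem_Bplus
    · rw [h]
      exact mul_mem inv_mem_Bplus sub_one_inv_mem_Bplus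

theorem lamDen_not_mem (π : O) (hπ : Ideal.span {π} ≠ ⊤) :
    lamDen O ∉ (Ideal.span {π}).map (C : O →+* O[X]) := by
  intro h
  rw [Ideal.mem_map_C_iff] at h
  have h2 := h 2
  have : (lamDen O).coeff 2 = 1 := by
    have : lamDen O = X ^ 2 - X := by rw [lamDen]; ring
    rw [this, coeff_sub, coeff_X_pow, coeff_X]
    norm_num
  rw [this] at h2
  exact hπ ((Ideal.eq_top_iff_one _).mpr h2)

theorem ne_zero_of_transcendental [Nontrivial O] (htr : Transcendental O lam) : lam ≠ 0 := by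
  intro h
  exact htr (h ▸ isAlgebraic_zero)

theorem sub_one_ne_zero_of_transcendental [Nontrivial O] (htr : Transcendental O lam) :
    lam - 1 ≠ 0 := by
  intro h
  apply htr
  rw [sub_eq_zero.mp h]
  exact isAlgebraic_one

/-- **(M2) for `B₊`.** -/
theorem Bplus_props [IsDomain O] [IsIntegrallyClosed O] [IsNoetherianRing O]
    (htr : Transcendental O lam) {π : O} (hπ : (Ideal.span {π}).IsMaximal) :
    IsIntegrallyClosed (Bplus O lam) ∧ IsNoetherianRing (Bplus O lam) ∧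
      (Ideal.span {algebraMap O (Bplus O lam) π}).IsPrime ∧
      IsPrincipalIdealRing (Bplus O lam ⧸ Ideal.span {algebraMap O (Bplus O lam) π}) :=
  PolyAway.subalgebra_props (lamDen O) lam htr hπ (lamDen_not_mem π hπ.ne_top) _
    (Bplus_eq (ne_zero_of_transcendental htr) (sub_one_ne_zero_of_transcendental htr))

/-- `j ∈ B₊`. -/
theorem Sextic.j_mem_Bplus {j : Ω} (h : Sextic j lam) (h2 : (2 : Ω) ≠ 0) : j ∈ Bplus O lam := by
  have hl := h.lam_ne_zero h2
  have hl1 := h.lam_sub_one_ne_zero h2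
  have : j = jNum lam * (lam⁻¹ ^ 2 * (lam - 1)⁻¹ ^ 2) := by
    rw [h.j_eq h2, jDen_def, div_eq_mul_inv, mul_inv, inv_pow, inv_pow]
  rw [this, jNum_def]
  have hlam : lam ∈ Bplus O lam := lam_mem_Bplus
  refine mul_mem (mul_mem ?_ (pow_mem (add_mem (sub_mem (pow_mem hlam 2) hlam) (one_mem _)) 3))
    (mul_mem (pow_mem inv_mem_Bplus 2) (pow_mem sub_one_inv_mem_Bplus 2))
  exact_mod_cast (Bplus O lam).natCast_mem 256

theorem Sextic.adjoin_j_le_Bplus {j : Ω} (h : Sextic j lam) (h2 : (2 : Ω) ≠ 0) :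
    Algebra.adjoin O {j} ≤ Bplus O lam :=
  Algebra.adjoin_le (by
    intro y hy
    rw [Set.mem_singleton_iff] at hy
    rw [hy]
    exact h.j_mem_Bplus h2)

/-- **(M1)** `B₊` is integral over `O[j]` when `2 ∈ Oˣ`. -/
theorem Sextic.isIntegral_of_mem_Bplus {j : Ω} (h : Sextic j lam) (h2 : IsUnit (2 : O)) {x : Ω}
    (hx : x ∈ Bplus O lam) : IsIntegral (Algebra.adjoin O {j}) x := by
  have hle : Bplus O lam ≤ (integralClosure (Algebra.adjoin O {j}) Ω).restrictScalars O := by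
    apply Algebra.adjoin_le
    intro y hy'
    simp only [Set.mem_insert_iff, Set.mem_singleton_iff] at hy'
    rcases hy' with e | e | e
    · rw [e]; exact h.isIntegral h2
    · rw [e]; exact h.isIntegral_inv h2
    · rw [e]; exact h.isIntegral_sub_one_inv h2
  exact hle hx

end Bplus

/-! ### The cusp chart `B_t` -/

section Bt

variable (O : Type*) {Ω : Type*} [CommRing O] [Field Ω] [Algebra O Ω]

/-- `λ = 16 t^N`. -/
def lamOf (t : Ω) (N : ℕ) : Ω := 16 * t ^ N

/-- The polynomial `(16 X^N − 1)((16 X^N)² − 16 X^N + 1)`. -/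
noncomputable def cuspDen (N : ℕ) : O[X] :=
  (16 * X ^ N - 1) * ((16 * X ^ N) ^ 2 - 16 * X ^ N + 1)

/-- `B_t = O[t, 1/(λ − 1), 1/(λ² − λ + 1)] ⊆ Ω`, `λ = 16 t^N`. -/
def Bt (t : Ω) (N : ℕ) : Subalgebra O Ω :=
  Algebra.adjoin O {t, (lamOf t N - 1)⁻¹, (lamOf t N ^ 2 - lamOf t N + 1)⁻¹}

variable {O} {t : Ω} {N : ℕ}

theorem lamOf_def (t : Ω) (N : ℕ) : lamOf t N = 16 * t ^ N := rfl

theorem t_mem_Bt : t ∈ Bt O t N := Algebra.subset_adjoin (by simp)

theorem sub_one_inv_mem_Bt : (lamOf t N - 1)⁻¹ ∈ Bt O t N := Algebra.subset_adjoin (by simp)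

theorem quad_inv_mem_Bt : (lamOf t N ^ 2 - lamOf t N + 1)⁻¹ ∈ Bt O t N :=
  Algebra.subset_adjoin (by simp)

theorem lamOf_mem_Bt : lamOf t N ∈ Bt O t N := by
  rw [lamOf_def]
  exact mul_mem (by exact_mod_cast (Bt O t N).natCast_mem 16) (pow_mem t_mem_Bt N)

theorem aeval_cuspDen (t : Ω) (N : ℕ) :
    aeval t (cuspDen O N) = (lamOf t N - 1) * (lamOf t N ^ 2 - lamOf t N + 1) := by
  simp only [cuspDen, lamOf_def, map_mul, map_sub, map_add, map_pow, aeval_X, map_one, map_ofNat]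

theorem adjoin_pair_inv_eq (x a b : Ω) (ha : a ∈ Algebra.adjoin O {x})
    (hb : b ∈ Algebra.adjoin O {x}) (ha0 : a ≠ 0) (hb0 : b ≠ 0) :
    Algebra.adjoin O {x, a⁻¹, b⁻¹} = Algebra.adjoin O {x, (a * b)⁻¹} := by
  rw [mul_inv]
  have hmono1 : Algebra.adjoin O {x} ≤ Algebra.adjoin O {x, a⁻¹ * b⁻¹} :=
    Algebra.adjoin_mono (by simp)
  apply le_antisymm
  · apply Algebra.adjoin_le
    have hy : a⁻¹ * b⁻¹ ∈ Algebra.adjoin O {x, a⁻¹ * b⁻¹} := Algebra.subset_adjoin (by simp)
    intro y hy'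
    simp only [Set.mem_insert_iff, Set.mem_singleton_iff] at hy'
    rcases hy' with h | h | h
    · rw [h]; exact Algebra.subset_adjoin (by simp)
    · rw [h]
      have hm := mul_mem hy (hmono1 hb)
      rwa [mul_assoc, inv_mul_cancel₀ hb0, mul_one] at hm
    · rw [h]
      have hm := mul_mem (hmono1 ha) hy
      rwa [← mul_assoc, mul_inv_cancel₀ ha0, one_mul] at hm
  · apply Algebra.adjoin_le
    intro y hy'
    simp only [Set.mem_insert_iff, Set.mem_singleton_iff] at hy'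
    rcases hy' with h | h
    · rw [h]; exact Algebra.subset_adjoin (by simp)
    · rw [h]
      exact mul_mem (Algebra.subset_adjoin (by simp)) (Algebra.subset_adjoin (by simp))

theorem lamOf_mem_adjoin (t : Ω) (N : ℕ) : lamOf t N ∈ Algebra.adjoin O {t} := by
  rw [lamOf_def]
  have ht : t ∈ Algebra.adjoin O {t} := Algebra.subset_adjoin (Set.mem_singleton t)
  have h16 : (16 : Ω) ∈ Algebra.adjoin O {t} := by
    exact_mod_cast (Algebra.adjoin O {t}).natCast_mem 16
  exact mul_mem h16 (pow_mem ht N)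

theorem Bt_eq (h1 : lamOf t N - 1 ≠ 0) (hq : lamOf t N ^ 2 - lamOf t N + 1 ≠ 0) :
    Bt O t N = Algebra.adjoin O {t, (aeval t (cuspDen O N))⁻¹} := by
  rw [aeval_cuspDen, Bt]
  have hl := lamOf_mem_adjoin (O := O) t N
  exact adjoin_pair_inv_eq t _ _ (sub_mem hl (one_mem _))
    (add_mem (sub_mem (pow_mem hl 2) hl) (one_mem _)) h1 hq

theorem cuspDen_not_mem (hN : N ≠ 0) (π : O) (hπ : Ideal.span {π} ≠ ⊤) :
    cuspDen O N ∉ (Ideal.span {π}).map (C : O →+* O[X]) := by
  intro h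
  rw [Ideal.mem_map_C_iff] at h
  have h0 := h 0
  have : (cuspDen O N).coeff 0 = -1 := by
    rw [coeff_zero_eq_eval_zero, cuspDen]
    simp [hN]
  rw [this] at h0
  exact hπ ((Ideal.eq_top_iff_one _).mpr (by simpa using (Ideal.span {π}).neg_mem h0))

theorem aeval_cuspDen_ne_zero [IsDomain O] (hN : N ≠ 0) (htr : Transcendental O t) :
    aeval t (cuspDen O N) ≠ 0 := by
  intro h
  have h0 : cuspDen O N = 0 := (transcendental_iff_injective.mp htr) (by rw [h, map_zero])
  have : (cuspDen O N).coeff 0 = -1 := by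
    rw [coeff_zero_eq_eval_zero, cuspDen]
    simp [hN]
  rw [h0, coeff_zero] at this
  exact one_ne_zero (neg_eq_zero.mp this.symm)

/-- **(M2) for `B_t`.** -/
theorem Bt_props [IsDomain O] [IsIntegrallyClosed O] [IsNoetherianRing O] (hN : N ≠ 0)
    (htr : Transcendental O t) {π : O} (hπ : (Ideal.span {π}).IsMaximal) :
    IsIntegrallyClosed (Bt O t N) ∧ IsNoetherianRing (Bt O t N) ∧
      (Ideal.span {algebraMap O (Bt O t N) π}).IsPrime ∧
      IsPrincipalIdealRing (Bt O t N ⧸ Ideal.span {algebraMap O (Bt O t N) π}) := by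
  have hne := aeval_cuspDen_ne_zero hN htr
  rw [aeval_cuspDen] at hne
  exact PolyAway.subalgebra_props (cuspDen O N) t htr hπ (cuspDen_not_mem hN π hπ.ne_top) _
    (Bt_eq (left_ne_zero_of_mul hne) (right_ne_zero_of_mul hne))

end Bt

/-! ### `B_t` versus the cusp base ring `O[1/j, 1/u₁, 1/u_∞]` -/

section BtCusp

variable (O : Type*) {Ω : Type*} [CommRing O] [Field Ω] [Algebra O Ω]

/-- The cusp base ring `O[1/j, 1/u₁, 1/u_∞]` (the `j`-line near `j = ∞`, with the two other cusps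
of the `λ`-line removed). -/
def cuspBase (j lam : Ω) : Subalgebra O Ω :=
  Algebra.adjoin O {j⁻¹, (u1 lam)⁻¹, (uInf lam)⁻¹}

variable {O} {j t : Ω} {N : ℕ}

theorem inv_j_mem_cuspBase (j lam : Ω) : j⁻¹ ∈ cuspBase O j lam :=
  Algebra.subset_adjoin (by simp)

theorem inv_u1_mem_cuspBase (j lam : Ω) : (u1 lam)⁻¹ ∈ cuspBase O j lam :=
  Algebra.subset_adjoin (by simp)

theorem inv_uInf_mem_cuspBase (j lam : Ω) : (uInf lam)⁻¹ ∈ cuspBase O j lam :=
  Algebra.subset_adjoin (by simp)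

/-- `O[1/j, 1/u₁, 1/u_∞] ⊆ B_t`. -/
theorem Sextic.cuspBase_le_Bt (h : Sextic j (lamOf t N)) (h2 : IsUnit (2 : O)) (hj : j ≠ 0) :
    cuspBase O j (lamOf t N) ≤ Bt O t N := by
  have h2' : (2 : Ω) ≠ 0 := isUnit_two_field h2
  obtain ⟨c, hc⟩ := exists_inv_256 h2
  have hcΩ : (256 : Ω) * algebraMap O Ω c = 1 := by
    have := congrArg (algebraMap O Ω) hc
    rwa [map_mul, map_ofNat, map_one] at this
  have hlam : lamOf t N ∈ Bt O t N := lamOf_mem_Bt
  have hquad : lamOf t N ^ 2 - lamOf t N + 1 ∈ Bt O t N :=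
    add_mem (sub_mem (pow_mem hlam 2) hlam) (one_mem _)
  have huInf : uInf (lamOf t N) ∈ Bt O t N := by
    rw [uInf, one_div]; exact quad_inv_mem_Bt
  apply Algebra.adjoin_le
  intro y hy
  simp only [Set.mem_insert_iff, Set.mem_singleton_iff] at hy
  rcases hy with e | e | e
  · have hj' : j⁻¹ = algebraMap O Ω c *
        (lamOf t N ^ 2 * (lamOf t N - 1) ^ 2 * uInf (lamOf t N) ^ 3) := by
      rw [← h.inv_j_eq h2' hj]
      linear_combination (-j⁻¹) * hcΩ
    rw [e, hj']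
    exact mul_mem (Subalgebra.algebraMap_mem _ c)
      (mul_mem (mul_mem (pow_mem hlam 2) (pow_mem (sub_mem hlam (one_mem _)) 2))
        (pow_mem huInf 3))
  · rw [e, inv_u1]
    exact mul_mem hquad (pow_mem sub_one_inv_mem_Bt 2)
  · rw [e, inv_uInf]
    exact hquad

/-- **`B_t` is integral over `O[1/j, 1/u₁, 1/u_∞]`.** -/
theorem Sextic.isIntegral_of_mem_Bt (h : Sextic j (lamOf t N)) (h2 : IsUnit (2 : O)) (hj : j ≠ 0)
    (hN : N ≠ 0) {x : Ω} (hx : x ∈ Bt O t N) : IsIntegral (cuspBase O j (lamOf t N)) x := by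
  have h2' : (2 : Ω) ≠ 0 := isUnit_two_field h2
  have hq := h.quad_ne_zero h2' hj
  have hl1 := h.lam_sub_one_ne_zero h2'
  obtain ⟨c, hc⟩ := exists_inv_256 h2
  have hcΩ : (256 : Ω) * algebraMap O Ω c = 1 := by
    have := congrArg (algebraMap O Ω) hc
    rwa [map_mul, map_ofNat, map_one] at this
  have hw : j⁻¹ ∈ cuspBase O j (lamOf t N) := inv_j_mem_cuspBase j _
  have iu0 : IsIntegral (cuspBase O j (lamOf t N)) (u0 (lamOf t N)) :=
    isIntegral_of_cubic_subalgebra (h.u0_cubic h2' hj) hw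
  have iuInf : IsIntegral (cuspBase O j (lamOf t N)) (uInf (lamOf t N)) :=
    isIntegral_of_cubic_subalgebra (h.uInf_cubic h2' hj) hw
  have imem : ∀ {y : Ω}, y ∈ cuspBase O j (lamOf t N) →
      IsIntegral (cuspBase O j (lamOf t N)) y := fun {y} hy =>
    (isIntegral_algebraMap (R := cuspBase O j (lamOf t N)) (A := Ω) (x := ⟨y, hy⟩))
  have hle : Bt O t N ≤ (integralClosure (cuspBase O j (lamOf t N)) Ω).restrictScalars O := by
    apply Algebra.adjoin_le
    intro y hy
    simp only [Set.mem_insert_iff, Set.mem_singleton_iff] at hy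
    rcases hy with e | e | e
    · rw [e]
      have hpow : t ^ (2 * N) = algebraMap O Ω c *
          (u0 (lamOf t N) * (uInf (lamOf t N))⁻¹) := by
        rw [← div_eq_mul_inv, u0_div_uInf hq, lamOf_def, pow_mul']
        linear_combination (-(t ^ N) ^ 2) * hcΩ
      have : IsIntegral (cuspBase O j (lamOf t N)) (t ^ (2 * N)) := by
        rw [hpow]
        exact (imem (Subalgebra.algebraMap_mem _ c)).mul
          (iu0.mul (imem (inv_uInf_mem_cuspBase j _)))
      exact IsIntegral.of_pow (Nat.mul_pos (by norm_num) (Nat.pos_of_ne_zero hN)) this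
    · rw [e]
      have hpow : ((lamOf t N - 1)⁻¹) ^ 2 = uInf (lamOf t N) * (u1 (lamOf t N))⁻¹ := by
        rw [← div_eq_mul_inv, ← inv_div, u1_div_uInf hq, inv_pow]
      have : IsIntegral (cuspBase O j (lamOf t N)) (((lamOf t N - 1)⁻¹) ^ 2) := by
        rw [hpow]
        exact iuInf.mul (imem (inv_u1_mem_cuspBase j _))
      exact IsIntegral.of_pow (by norm_num) this
    · rw [e]
      have : (lamOf t N ^ 2 - lamOf t N + 1)⁻¹ = uInf (lamOf t N) := by rw [uInf, one_div]
      rw [this]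
      exact iuInf
  exact hle hx

end BtCusp

end Fermat.Agent.N4.Lambda
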