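/-
N4, block M (helper10), part (M5-C): the base rings of the étale charts over the Hesse line
(`ℓ = 2`) as subalgebras of a field `Ω`:
* `BplusH O m = O[m, 1/(m³ − 1)]` (Hesse line minus the four cusps),
* `BtH O t N = O[t, 1/(1 − s³), 1/(1 + 8 s³)]`, `s = 3 t^N = 1/m` (neighbourhood of the cusp
  `m = ∞` with the `N`-th root `t` of `1/(3m)` adjoined; the other cusps `s³ = 1` and the elliptic
  points `s³ = −1/8` over `j = 0` removed).
Same statements as for the `λ`-line (`LambdaModel.lean`), with `3` in place of `2`.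
-/
import Fermat.Agent.N4.HesseField
import Fermat.Agent.N4.LambdaModel

set_option autoImplicit false

namespace Fermat.Agent.N4.Hesse

open Polynomial

section BplusH

variable (O : Type*) {Ω : Type*} [CommRing O] [Field Ω] [Algebra O Ω]

/-- `X³ − 1`. -/
noncomputable def hesseDen : O[X] := X ^ 3 - 1

/-- `B₊ = O[m, 1/(m³ − 1)] ⊆ Ω`. -/
def BplusH (m : Ω) : Subalgebra O Ω := Algebra.adjoin O {m, (m ^ 3 - 1)⁻¹}

variable {O} {m : Ω}

theorem m_mem_BplusH : m ∈ BplusH O m := Algebra.subset_adjoin (by simp)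

theorem inv_mem_BplusH : (m ^ 3 - 1)⁻¹ ∈ BplusH O m := Algebra.subset_adjoin (by simp)

theorem aeval_hesseDen (m : Ω) : aeval m (hesseDen O) = m ^ 3 - 1 := by
  simp only [hesseDen, map_sub, map_pow, aeval_X, map_one]

theorem BplusH_eq (m : Ω) :
    BplusH O m = Algebra.adjoin O {m, (aeval m (hesseDen O))⁻¹} := by
  rw [aeval_hesseDen, BplusH]

theorem hesseDen_not_mem (π : O) (hπ : Ideal.span {π} ≠ ⊤) :
    hesseDen O ∉ (Ideal.span {π}).map (C : O →+* O[X]) := by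
  intro h
  rw [Ideal.mem_map_C_iff] at h
  have h3 := h 3
  have : (hesseDen O).coeff 3 = 1 := by
    rw [hesseDen, coeff_sub, coeff_X_pow, coeff_one]
    norm_num
  rw [this] at h3
  exact hπ ((Ideal.eq_top_iff_one _).mpr h3)

/-- **(M2) for the Hesse chart `B₊`.** -/
theorem BplusH_props [IsDomain O] [IsIntegrallyClosed O] [IsNoetherianRing O]
    (htr : Transcendental O m) {π : O} (hπ : (Ideal.span {π}).IsMaximal) :
    IsIntegrallyClosed (BplusH O m) ∧ IsNoetherianRing (BplusH O m) ∧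
      (Ideal.span {algebraMap O (BplusH O m) π}).IsPrime ∧
      IsPrincipalIdealRing (BplusH O m ⧸ Ideal.span {algebraMap O (BplusH O m) π}) :=
  PolyAway.subalgebra_props (hesseDen O) m htr hπ (hesseDen_not_mem π hπ.ne_top) _ (BplusH_eq m)

/-- `j ∈ B₊`. -/
theorem HesseEq.j_mem_BplusH {j : Ω} (h : HesseEq j m) (h3 : (3 : Ω) ≠ 0) :
    j ∈ BplusH O m := by
  have : j = jNumH m * ((m ^ 3 - 1)⁻¹) ^ 3 := by
    rw [h.j_eq h3, jDenH_def, div_eq_mul_inv, inv_pow]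
  rw [this, jNumH_def]
  have hm : m ∈ BplusH O m := m_mem_BplusH
  have h27 : (27 : Ω) ∈ BplusH O m := by exact_mod_cast (BplusH O m).natCast_mem 27
  have h8 : (8 : Ω) ∈ BplusH O m := by exact_mod_cast (BplusH O m).natCast_mem 8
  exact mul_mem (mul_mem (mul_mem h27 (pow_mem hm 3)) (pow_mem (add_mem (pow_mem hm 3) h8) 3))
    (pow_mem inv_mem_BplusH 3)

theorem HesseEq.adjoin_j_le_BplusH {j : Ω} (h : HesseEq j m) (h3 : (3 : Ω) ≠ 0) :
    Algebra.adjoin O {j} ≤ BplusH O m :=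
  Algebra.adjoin_le (by
    intro y hy
    rw [Set.mem_singleton_iff] at hy
    rw [hy]
    exact h.j_mem_BplusH h3)

/-- `B₊` is integral over `O[j]` when `3 ∈ Oˣ`. -/
theorem HesseEq.isIntegral_of_mem_BplusH {j : Ω} (h : HesseEq j m) (h3 : IsUnit (3 : O)) {x : Ω}
    (hx : x ∈ BplusH O m) : IsIntegral (Algebra.adjoin O {j}) x := by
  have hle : BplusH O m ≤ (integralClosure (Algebra.adjoin O {j}) Ω).restrictScalars O := by
    apply Algebra.adjoin_le
    intro y hy'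
    simp only [Set.mem_insert_iff, Set.mem_singleton_iff] at hy'
    rcases hy' with e | e
    · rw [e]; exact h.isIntegral h3
    · rw [e]; exact h.isIntegral_cube_sub_one_inv h3
  exact hle hx

end BplusH

/-! ### The cusp chart -/

section BtH

variable (O : Type*) {Ω : Type*} [CommRing O] [Field Ω] [Algebra O Ω]

/-- `s = 3 t^N` (`= 1/m`). -/
def sOf (t : Ω) (N : ℕ) : Ω := 3 * t ^ N

/-- The polynomial `(1 − 27 X^{3N})(1 + 216 X^{3N})`. -/
noncomputable def cuspDenH (N : ℕ) : O[X] := (1 - 27 * X ^ (3 * N)) * (1 + 216 * X ^ (3 * N))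

/-- `B_t = O[t, 1/(1 − s³), 1/(1 + 8 s³)] ⊆ Ω`, `s = 3 t^N`. -/
def BtH (t : Ω) (N : ℕ) : Subalgebra O Ω :=
  Algebra.adjoin O {t, (1 - sOf t N ^ 3)⁻¹, (1 + 8 * sOf t N ^ 3)⁻¹}

variable {O} {t : Ω} {N : ℕ}

theorem sOf_def (t : Ω) (N : ℕ) : sOf t N = 3 * t ^ N := rfl

theorem t_mem_BtH : t ∈ BtH O t N := Algebra.subset_adjoin (by simp)

theorem one_sub_inv_mem_BtH : (1 - sOf t N ^ 3)⁻¹ ∈ BtH O t N := Algebra.subset_adjoin (by simp)

theorem one_add_inv_mem_BtH : (1 + 8 * sOf t N ^ 3)⁻¹ ∈ BtH O t N :=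
  Algebra.subset_adjoin (by simp)

theorem sOf_mem_BtH : sOf t N ∈ BtH O t N := by
  rw [sOf_def]
  have h3 : (3 : Ω) ∈ BtH O t N := by exact_mod_cast (BtH O t N).natCast_mem 3
  exact mul_mem h3 (pow_mem t_mem_BtH N)

theorem sOf_mem_adjoin (t : Ω) (N : ℕ) : sOf t N ∈ Algebra.adjoin O {t} := by
  rw [sOf_def]
  have ht : t ∈ Algebra.adjoin O {t} := Algebra.subset_adjoin (Set.mem_singleton t)
  have h3 : (3 : Ω) ∈ Algebra.adjoin O {t} := by
    exact_mod_cast (Algebra.adjoin O {t}).natCast_mem 3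
  exact mul_mem h3 (pow_mem ht N)

theorem aeval_cuspDenH (t : Ω) (N : ℕ) :
    aeval t (cuspDenH O N) = (1 - sOf t N ^ 3) * (1 + 8 * sOf t N ^ 3) := by
  simp only [cuspDenH, sOf_def, map_mul, map_sub, map_add, map_pow, aeval_X, map_one, map_ofNat]
  ring

theorem BtH_eq (h1 : 1 - sOf t N ^ 3 ≠ 0) (h8 : 1 + 8 * sOf t N ^ 3 ≠ 0) :
    BtH O t N = Algebra.adjoin O {t, (aeval t (cuspDenH O N))⁻¹} := by
  rw [aeval_cuspDenH, BtH]
  have hs := sOf_mem_adjoin (O := O) t N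
  have h8' : (8 : Ω) ∈ Algebra.adjoin O {t} := by
    exact_mod_cast (Algebra.adjoin O {t}).natCast_mem 8
  exact Lambda.adjoin_pair_inv_eq t _ _ (sub_mem (one_mem _) (pow_mem hs 3))
    (add_mem (one_mem _) (mul_mem h8' (pow_mem hs 3))) h1 h8

theorem coeff_zero_cuspDenH (hN : N ≠ 0) : (cuspDenH O N).coeff 0 = 1 := by
  rw [coeff_zero_eq_eval_zero, cuspDenH]
  simp [hN]

theorem cuspDenH_not_mem (hN : N ≠ 0) (π : O) (hπ : Ideal.span {π} ≠ ⊤) :
    cuspDenH O N ∉ (Ideal.span {π}).map (C : O →+* O[X]) := by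
  intro h
  rw [Ideal.mem_map_C_iff] at h
  have h0 := h 0
  rw [coeff_zero_cuspDenH hN] at h0
  exact hπ ((Ideal.eq_top_iff_one _).mpr h0)

theorem aeval_cuspDenH_ne_zero [IsDomain O] (hN : N ≠ 0) (htr : Transcendental O t) :
    aeval t (cuspDenH O N) ≠ 0 := by
  intro h
  have h0 : cuspDenH O N = 0 := (transcendental_iff_injective.mp htr) (by rw [h, map_zero])
  have := coeff_zero_cuspDenH (O := O) hN
  rw [h0, coeff_zero] at this
  exact one_ne_zero this.symm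

/-- **(M2) for the Hesse cusp chart `B_t`.** -/
theorem BtH_props [IsDomain O] [IsIntegrallyClosed O] [IsNoetherianRing O] (hN : N ≠ 0)
    (htr : Transcendental O t) {π : O} (hπ : (Ideal.span {π}).IsMaximal) :
    IsIntegrallyClosed (BtH O t N) ∧ IsNoetherianRing (BtH O t N) ∧
      (Ideal.span {algebraMap O (BtH O t N) π}).IsPrime ∧
      IsPrincipalIdealRing (BtH O t N ⧸ Ideal.span {algebraMap O (BtH O t N) π}) := by
  have hne := aeval_cuspDenH_ne_zero hN htr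
  rw [aeval_cuspDenH] at hne
  exact PolyAway.subalgebra_props (cuspDenH O N) t htr hπ (cuspDenH_not_mem hN π hπ.ne_top) _
    (BtH_eq (left_ne_zero_of_mul hne) (right_ne_zero_of_mul hne))

end BtH

/-! ### `B_t` versus the cusp base ring `O[1/j, 1/U]` -/

section BtCusp

variable (O : Type*) {Ω : Type*} [CommRing O] [Field Ω] [Algebra O Ω]

/-- The cusp base ring `O[1/j, 1/U]` (the `j`-line near `j = ∞`, with the three other cusps of the
Hesse line removed). -/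
def cuspBaseH (j m : Ω) : Subalgebra O Ω := Algebra.adjoin O {j⁻¹, (UH m)⁻¹}

variable {O} {j t : Ω} {N : ℕ}

theorem inv_j_mem_cuspBaseH (j m : Ω) : j⁻¹ ∈ cuspBaseH O j m :=
  Algebra.subset_adjoin (by simp)

theorem inv_UH_mem_cuspBaseH (j m : Ω) : (UH m)⁻¹ ∈ cuspBaseH O j m :=
  Algebra.subset_adjoin (by simp)

theorem exists_inv_3 (h3 : IsUnit (3 : O)) : ∃ c : O, 3 * c = 1 := h3.exists_right_inv

theorem one_add_ne_zero_of_inv {s : Ω} (hm : s⁻¹ ≠ 0) (h8 : s⁻¹ ^ 3 + 8 ≠ 0) :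
    1 + 8 * s ^ 3 ≠ 0 := by
  have hs : s ≠ 0 := fun h => hm (by rw [h, inv_zero])
  have e2 : 1 + 8 * s ^ 3 = (s⁻¹ ^ 3 + 8) * s ^ 3 := by
    rw [add_mul, ← mul_pow, inv_mul_cancel₀ hs, one_pow]
  rw [e2]
  exact mul_ne_zero h8 (pow_ne_zero 3 hs)

/-- `O[1/j, 1/U] ⊆ B_t` (`m = 1/s`, `s = 3 t^N`). -/
theorem HesseEq.cuspBaseH_le_BtH (h : HesseEq j (sOf t N)⁻¹) (h3 : IsUnit (3 : O)) (hj : j ≠ 0) :
    cuspBaseH O j (sOf t N)⁻¹ ≤ BtH O t N := by
  have h3' : (3 : Ω) ≠ 0 := isUnit_three_field h3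
  have hm := h.ne_zero h3' hj
  have h8 := h.cube_add_eight_ne_zero h3' hj
  obtain ⟨c, hc⟩ := exists_inv_27 h3
  have hcΩ : (27 : Ω) * algebraMap O Ω c = 1 := by
    have := congrArg (algebraMap O Ω) hc
    rwa [map_mul, map_ofNat, map_one] at this
  have hs : sOf t N ∈ BtH O t N := sOf_mem_BtH
  have h8mem : (8 : Ω) ∈ BtH O t N := by exact_mod_cast (BtH O t N).natCast_mem 8
  have h1s : 1 - sOf t N ^ 3 ∈ BtH O t N := sub_mem (one_mem _) (pow_mem hs 3)
  have h8s : 1 + 8 * sOf t N ^ 3 ∈ BtH O t N := add_mem (one_mem _) (mul_mem h8mem (pow_mem hs 3))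
  have key := h.inv_j_eq h3' hj
  rw [inv_inv] at key
  have h8s0 : 1 + 8 * sOf t N ^ 3 ≠ 0 := one_add_ne_zero_of_inv hm h8
  apply Algebra.adjoin_le
  intro y hy
  simp only [Set.mem_insert_iff, Set.mem_singleton_iff] at hy
  rcases hy with e | e
  · have hj' : j⁻¹ = algebraMap O Ω c *
        (sOf t N ^ 3 * (1 - sOf t N ^ 3) ^ 3 * ((1 + 8 * sOf t N ^ 3)⁻¹) ^ 3) := by
      rw [← key, inv_pow]
      have : (27 * j⁻¹ * (1 + 8 * sOf t N ^ 3) ^ 3) * ((1 + 8 * sOf t N ^ 3) ^ 3)⁻¹ = 27 * j⁻¹ := by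
        rw [mul_assoc, mul_inv_cancel₀ (pow_ne_zero 3 h8s0), mul_one]
      rw [this]
      linear_combination (-j⁻¹) * hcΩ
    rw [e, hj']
    exact mul_mem (Subalgebra.algebraMap_mem _ c)
      (mul_mem (mul_mem (pow_mem hs 3) (pow_mem h1s 3)) (pow_mem one_add_inv_mem_BtH 3))
  · have hU : (UH (sOf t N)⁻¹)⁻¹ =
        (1 + 8 * sOf t N ^ 3) ^ 2 * ((1 - sOf t N ^ 3)⁻¹) ^ 3 := by
      rw [UH_inv hm, inv_inv, inv_div, div_eq_mul_inv, inv_pow]
    rw [e, hU]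
    exact mul_mem (pow_mem h8s 2) (pow_mem one_sub_inv_mem_BtH 3)

/-- **`B_t` is integral over `O[1/j, 1/U]`.** -/
theorem HesseEq.isIntegral_of_mem_BtH (h : HesseEq j (sOf t N)⁻¹) (h3 : IsUnit (3 : O))
    (hj : j ≠ 0) (hN : N ≠ 0) {x : Ω} (hx : x ∈ BtH O t N) :
    IsIntegral (cuspBaseH O j (sOf t N)⁻¹) x := by
  have h3' : (3 : Ω) ≠ 0 := isUnit_three_field h3
  have hm := h.ne_zero h3' hj
  have h8 := h.cube_add_eight_ne_zero h3' hj
  obtain ⟨c3, hc3⟩ := exists_inv_3 h3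
  have hc3Ω : (3 : Ω) * algebraMap O Ω c3 = 1 := by
    have := congrArg (algebraMap O Ω) hc3
    rwa [map_mul, map_ofNat, map_one] at this
  have hc9Ω : (9 : Ω) * (algebraMap O Ω c3) ^ 2 = 1 := by
    linear_combination (3 * algebraMap O Ω c3 + 1) * hc3Ω
  have hw : j⁻¹ ∈ cuspBaseH O j (sOf t N)⁻¹ := inv_j_mem_cuspBaseH j _
  have imem : ∀ {y : Ω}, y ∈ cuspBaseH O j (sOf t N)⁻¹ →
      IsIntegral (cuspBaseH O j (sOf t N)⁻¹) y := fun {y} hy =>
    (isIntegral_algebraMap (R := cuspBaseH O j (sOf t N)⁻¹) (A := Ω) (x := ⟨y, hy⟩))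
  have is : IsIntegral (cuspBaseH O j (sOf t N)⁻¹) (sOf t N) := by
    have := h.isIntegral_inv_subalgebra h3' hj hw
    rwa [inv_inv] at this
  have iu : IsIntegral (cuspBaseH O j (sOf t N)⁻¹) (uInfH (sOf t N)⁻¹) :=
    h.isIntegral_uInfH_subalgebra h3' hj hw
  have ic : ∀ a : O, IsIntegral (cuspBaseH O j (sOf t N)⁻¹) (algebraMap O Ω a) := fun a =>
    imem (Subalgebra.algebraMap_mem _ a)
  have i8 : IsIntegral (cuspBaseH O j (sOf t N)⁻¹) ((1 + 8 * sOf t N ^ 3)⁻¹) := by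
    have e := one_sub_uInfH h3' hm h8
    rw [inv_inv] at e
    have e' : (1 + 8 * sOf t N ^ 3)⁻¹ =
        (algebraMap O Ω c3) ^ 2 * (9 - 8 * uInfH (sOf t N)⁻¹) := by
      rw [← e]
      linear_combination (-(1 + 8 * sOf t N ^ 3)⁻¹) * hc9Ω
    rw [e']
    have i9 : IsIntegral (cuspBaseH O j (sOf t N)⁻¹) (9 : Ω) := by
      have := ic 9
      rwa [map_ofNat] at this
    have i8' : IsIntegral (cuspBaseH O j (sOf t N)⁻¹) (8 : Ω) := by
      have := ic 8
      rwa [map_ofNat] at this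
    exact ((ic c3).pow 2).mul (i9.sub (i8'.mul iu))
  have hle : BtH O t N ≤ (integralClosure (cuspBaseH O j (sOf t N)⁻¹) Ω).restrictScalars O := by
    apply Algebra.adjoin_le
    intro y hy
    simp only [Set.mem_insert_iff, Set.mem_singleton_iff] at hy
    rcases hy with e | e | e
    · rw [e]
      have hpow : t ^ N = algebraMap O Ω c3 * sOf t N := by
        rw [sOf_def]
        linear_combination (-(t ^ N)) * hc3Ω
      have : IsIntegral (cuspBaseH O j (sOf t N)⁻¹) (t ^ N) := by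
        rw [hpow]
        exact (ic c3).mul is
      exact IsIntegral.of_pow (Nat.pos_of_ne_zero hN) this
    · rw [e]
      have hpow : ((1 - sOf t N ^ 3)⁻¹) ^ 3 =
          (UH (sOf t N)⁻¹)⁻¹ * ((1 + 8 * sOf t N ^ 3)⁻¹) ^ 2 := by
        have h0 : (1 + 8 * sOf t N ^ 3) ^ 2 ≠ 0 := pow_ne_zero 2 (one_add_ne_zero_of_inv hm h8)
        rw [UH_inv hm, inv_inv, inv_div, inv_pow, inv_pow, div_eq_mul_inv, mul_comm _ (_⁻¹),
          ← mul_assoc, inv_mul_cancel₀ h0, one_mul]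
      have : IsIntegral (cuspBaseH O j (sOf t N)⁻¹) (((1 - sOf t N ^ 3)⁻¹) ^ 3) := by
        rw [hpow]
        exact (imem (inv_UH_mem_cuspBaseH j _)).mul (i8.pow 2)
      exact IsIntegral.of_pow (by norm_num) this
    · rw [e]
      exact i8
  exact hle hx

end BtCusp

end Fermat.Agent.N4.Hesse
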