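/-
N4, block M (helper10), part (M4): the `q`-expansion of `λ` at the cusp, and of the `N`-th root
`t` of `λ/16`, as formal power series.

`O` is a commutative ring in which `2` and `N` are invertible, `S` the variable of `O⟦X⟧`
(`S = q^{1/2N}`) and `c = S^{2N} v`, `v ≡ 1 mod S` (`c = 1/j`).  There is `e ≡ 1 mod S` such that
`t = S e`, `λ = 16 t^N` satisfy `λ² (λ − 1)² = 256 (λ² − λ + 1)³ c`, i.e. `jDen λ = jNum λ · c`;
`λ − 1` and `λ² − λ + 1` are units of `O⟦X⟧`.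
-/
import Fermat.Agent.N4.HenselPoly
import Fermat.Agent.N4.LambdaField

set_option autoImplicit false

namespace Fermat.Agent.N4.Lambda

open PowerSeries

variable {O : Type*} [CommRing O]

theorem sub_one_mem_span_X_iff (z : O⟦X⟧) :
    z - 1 ∈ Ideal.span {(X : O⟦X⟧)} ↔ constantCoeff z = 1 := by
  rw [Ideal.mem_span_singleton, X_dvd_iff, map_sub, map_one, sub_eq_zero]

theorem mem_span_X_iff (z : O⟦X⟧) :
    z ∈ Ideal.span {(X : O⟦X⟧)} ↔ constantCoeff z = 0 := by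
  rw [Ideal.mem_span_singleton, X_dvd_iff]

/-- **(M4)** the `q`-expansion of the cusp parameter `t`, `t^N = λ/16`. -/
theorem exists_cusp_series (h2 : IsUnit (2 : O)) (N : ℕ) (hN0 : N ≠ 0) (hN : IsUnit ((N : ℕ) : O))
    (v : O⟦X⟧) (hv : constantCoeff v = 1) :
    ∃ e : O⟦X⟧, constantCoeff e = 1 ∧
      jDen (16 * ((X : O⟦X⟧) * e) ^ N) =
        jNum (16 * ((X : O⟦X⟧) * e) ^ N) * ((X : O⟦X⟧) ^ (2 * N) * v) := by
  have h2' : IsUnit (2 : O⟦X⟧) := by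
    have := h2.map (C : O →+* O⟦X⟧)
    rwa [map_ofNat] at this
  have hN' : IsUnit ((N : ℕ) : O⟦X⟧) := by
    have := hN.map (C : O →+* O⟦X⟧)
    rwa [map_natCast] at this
  have ha : (16 * (X : O⟦X⟧) ^ N) ∈ Ideal.span {(X : O⟦X⟧)} := by
    rw [mem_span_X_iff, map_mul, map_pow, constantCoeff_X, zero_pow hN0, mul_zero]
  obtain ⟨z, hz1, hz⟩ := Hensel.exists_lam (Ideal.span {(X : O⟦X⟧)}) h2' (16 * (X : O⟦X⟧) ^ N) v
    ha ((sub_one_mem_span_X_iff v).mpr hv)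
  obtain ⟨e, he, he1⟩ := Hensel.exists_pow_eq (Ideal.span {(X : O⟦X⟧)}) N hN' z hz1
  refine ⟨e, (sub_one_mem_span_X_iff e).mp he1, ?_⟩
  have hlam : 16 * ((X : O⟦X⟧) * e) ^ N = 16 * (X : O⟦X⟧) ^ N * z := by
    rw [mul_pow, he, mul_assoc]
  rw [hlam, jDen_def, jNum_def]
  linear_combination (256 * (X : O⟦X⟧) ^ (2 * N)) * hz + (256 * z ^ 2 * (16 * X ^ N * z - 1) ^ 2
    - 256 * v * ((16 * X ^ N) ^ 2 * z ^ 2 - 16 * X ^ N * z + 1) ^ 3) * (pow_mul' (X : O⟦X⟧) 2 N)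

/-- `λ − 1` is a unit of `O⟦X⟧` for `λ = 16 (S e)^N`, `N ≠ 0`. -/
theorem isUnit_cusp_sub_one (N : ℕ) (hN0 : N ≠ 0) (e : O⟦X⟧) :
    IsUnit (16 * ((X : O⟦X⟧) * e) ^ N - 1) := by
  rw [isUnit_iff_constantCoeff]
  simp [hN0]

/-- `λ² − λ + 1` is a unit of `O⟦X⟧` for `λ = 16 (S e)^N`, `N ≠ 0`. -/
theorem isUnit_cusp_quad (N : ℕ) (hN0 : N ≠ 0) (e : O⟦X⟧) :
    IsUnit ((16 * ((X : O⟦X⟧) * e) ^ N) ^ 2 - 16 * ((X : O⟦X⟧) * e) ^ N + 1) := by
  rw [isUnit_iff_constantCoeff]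
  simp [hN0]

section Transfer

variable {A B : Type*} [CommRing A] [CommRing B]

theorem map_jNum (φ : A →+* B) (a : A) : φ (jNum a) = jNum (φ a) := by
  simp only [jNum_def, map_mul, map_pow, map_add, map_sub, map_one, map_ofNat]

theorem map_jDen (φ : A →+* B) (a : A) : φ (jDen a) = jDen (φ a) := by
  simp only [jDen_def, map_mul, map_pow, map_sub, map_one]

/-- A solution of `jDen λ = jNum λ · c` in a ring maps to a solution of the sextic for `j = 1/c` in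
a field. -/
theorem sextic_of_ringHom {Ω : Type*} [Field Ω] (φ : A →+* Ω) {lam c : A}
    (h : jDen lam = jNum lam * c) {j : Ω} (hj : φ c * j = 1) : Sextic j (φ lam) := by
  have h' := congrArg φ h
  rw [map_mul, map_jDen, map_jNum] at h'
  rw [Sextic, h']
  linear_combination (-jNum (φ lam)) * hj

end Transfer

end Fermat.Agent.N4.Lambda
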