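/-
N4, block M (helper10), part (M5-D): the `q`-expansion of the Hesse parameter at the cusp
`m = ∞`, and of the `N`-th root `t` of `s/3 = 1/(3m)`, as formal power series (`ℓ = 2`).

`O` is a commutative ring in which `3` and `N` are invertible, `S` the variable of `O⟦X⟧`
(`S = q^{1/3N}`) and `c = S^{3N} v`, `v ≡ 1 mod S` (`c = 1/j`).  There is `e ≡ 1 mod S` such that
`t = S e`, `s = 3 t^N` satisfy `s³ (1 − s³)³ = 27 (1 + 8 s³)³ c`; `1 − s³` and `1 + 8 s³` are units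
of `O⟦X⟧`.
-/
import Fermat.Agent.N4.HenselPoly
import Fermat.Agent.N4.HesseField
import Fermat.Agent.N4.LambdaSeries

set_option autoImplicit false

namespace Fermat.Agent.N4.Hensel

open Polynomial

variable {R : Type*} [CommRing R] (I : Ideal R) [IsAdicComplete I R]

/-- **The Hesse equation near the cusp**, in an `I`-adically complete ring with `3` invertible:
for `a ∈ I` and `v ≡ 1` there is `z ≡ 1` with `z³ (1 − a³ z³)³ = v (1 + 8 a³ z³)³`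
(then `s = a z` solves `s³ (1 − s³)³ = a³ v (1 + 8 s³)³`). -/
theorem exists_hesse (h3 : IsUnit (3 : R)) (a v : R) (ha : a ∈ I) (hv : v - 1 ∈ I) :
    ∃ z : R, z - 1 ∈ I ∧
      z ^ 3 * (1 - a ^ 3 * z ^ 3) ^ 3 = v * (1 + 8 * a ^ 3 * z ^ 3) ^ 3 := by
  have ha' : Ideal.Quotient.mk I a = 0 := Ideal.Quotient.eq_zero_iff_mem.mpr ha
  have hv' : Ideal.Quotient.mk I v = 1 := by
    have := Ideal.Quotient.eq_zero_iff_mem.mpr hv
    rw [map_sub, map_one, sub_eq_zero] at this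
    exact this
  obtain ⟨z, hz, hz1⟩ := exists_root I
    (X ^ 3 * (1 - C (a ^ 3) * X ^ 3) ^ 3 - C v * (1 + C (8 * a ^ 3) * X ^ 3) ^ 3) 1 (by
      rw [← Ideal.Quotient.eq_zero_iff_mem]
      simp only [eval_sub, eval_mul, eval_pow, eval_X, eval_C, eval_add, eval_one, map_sub,
        map_mul, map_pow, map_add, map_one, ha', hv']
      ring) (by
      have : Ideal.Quotient.mk I (eval 1 (derivative
          (X ^ 3 * (1 - C (a ^ 3) * X ^ 3) ^ 3 - C v * (1 + C (8 * a ^ 3) * X ^ 3) ^ 3))) = 3 := by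
        simp only [derivative_mul, derivative_pow, derivative_X, derivative_C,
          derivative_one, eval_sub, eval_mul, eval_pow, eval_X, eval_C, eval_add,
          eval_one, map_sub, map_mul, map_pow, map_add, map_one, ha', hv', eval_natCast,
          map_natCast, eval_zero, map_zero]
        norm_num
      rw [this]
      have := h3.map (Ideal.Quotient.mk I)
      rwa [map_ofNat] at this)
  refine ⟨z, hz1, ?_⟩
  rw [IsRoot] at hz
  simp only [eval_sub, eval_mul, eval_pow, eval_X, eval_C, eval_add, eval_one] at hz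
  have := sub_eq_zero.mp hz
  linear_combination this

end Fermat.Agent.N4.Hensel

namespace Fermat.Agent.N4.Hesse

open PowerSeries

variable {O : Type*} [CommRing O]

/-- **(M5, series)** the `q`-expansion of the Hesse cusp parameter `t`, `t^N = s/3`, `s = 1/m`. -/
theorem exists_cusp_series (h3 : IsUnit (3 : O)) (N : ℕ) (hN0 : N ≠ 0) (hN : IsUnit ((N : ℕ) : O))
    (v : O⟦X⟧) (hv : constantCoeff v = 1) :
    ∃ e : O⟦X⟧, constantCoeff e = 1 ∧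
      (3 * ((X : O⟦X⟧) * e) ^ N) ^ 3 * (1 - (3 * ((X : O⟦X⟧) * e) ^ N) ^ 3) ^ 3 =
        27 * (1 + 8 * (3 * ((X : O⟦X⟧) * e) ^ N) ^ 3) ^ 3 * ((X : O⟦X⟧) ^ (3 * N) * v) := by
  have h3' : IsUnit (3 : O⟦X⟧) := by
    have := h3.map (C : O →+* O⟦X⟧)
    rwa [map_ofNat] at this
  have hN' : IsUnit ((N : ℕ) : O⟦X⟧) := by
    have := hN.map (C : O →+* O⟦X⟧)
    rwa [map_natCast] at this
  have ha : (3 * (X : O⟦X⟧) ^ N) ∈ Ideal.span {(X : O⟦X⟧)} := by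
    rw [Lambda.mem_span_X_iff, map_mul, map_pow, constantCoeff_X, zero_pow hN0, mul_zero]
  obtain ⟨z, hz1, hz⟩ := Hensel.exists_hesse (Ideal.span {(X : O⟦X⟧)}) h3' (3 * (X : O⟦X⟧) ^ N) v
    ha ((Lambda.sub_one_mem_span_X_iff v).mpr hv)
  obtain ⟨e, he, he1⟩ := Hensel.exists_pow_eq (Ideal.span {(X : O⟦X⟧)}) N hN' z hz1
  refine ⟨e, (Lambda.sub_one_mem_span_X_iff e).mp he1, ?_⟩
  have hs : 3 * ((X : O⟦X⟧) * e) ^ N = 3 * (X : O⟦X⟧) ^ N * z := by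
    rw [mul_pow, he, mul_assoc]
  rw [hs]
  have hX : (X : O⟦X⟧) ^ (3 * N) = ((X : O⟦X⟧) ^ N) ^ 3 := pow_mul' _ _ _
  rw [hX]
  linear_combination (27 * ((X : O⟦X⟧) ^ N) ^ 3) * hz

/-- `1 − s³` is a unit of `O⟦X⟧` for `s = 3 (S e)^N`, `N ≠ 0`. -/
theorem isUnit_cusp_one_sub (N : ℕ) (hN0 : N ≠ 0) (e : O⟦X⟧) :
    IsUnit (1 - (3 * ((X : O⟦X⟧) * e) ^ N) ^ 3) := by
  rw [isUnit_iff_constantCoeff]
  simp [hN0]

/-- `1 + 8 s³` is a unit of `O⟦X⟧` for `s = 3 (S e)^N`, `N ≠ 0`. -/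
theorem isUnit_cusp_one_add (N : ℕ) (hN0 : N ≠ 0) (e : O⟦X⟧) :
    IsUnit (1 + 8 * (3 * ((X : O⟦X⟧) * e) ^ N) ^ 3) := by
  rw [isUnit_iff_constantCoeff]
  simp [hN0]

section Transfer

variable {A : Type*} [CommRing A]

/-- A solution of `s³ (1 − s³)³ = 27 (1 + 8 s³)³ c` in a ring maps to a solution `m = 1/s` of the
Hesse equation for `j = 1/c` in a field. -/
theorem hesseEq_of_ringHom {Ω : Type*} [Field Ω] (φ : A →+* Ω) {s c : A}
    (h : s ^ 3 * (1 - s ^ 3) ^ 3 = 27 * (1 + 8 * s ^ 3) ^ 3 * c) {j : Ω} (hj : φ c * j = 1)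
    (hs : φ s ≠ 0) : HesseEq j (φ s)⁻¹ := by
  have h' := congrArg φ h
  simp only [map_mul, map_pow, map_sub, map_add, map_one, map_ofNat] at h'
  have hms : (φ s)⁻¹ * φ s = 1 := inv_mul_cancel₀ hs
  set x : Ω := φ s with hx
  set m : Ω := x⁻¹ with hm
  rw [HesseEq, jNumH_def, jDenH_def]
  have h12 : x ^ 12 ≠ 0 := pow_ne_zero 12 hs
  apply mul_right_cancel₀ h12
  have e1 : 27 * m ^ 3 * (m ^ 3 + 8) ^ 3 * x ^ 12 = 27 * (1 + 8 * x ^ 3) ^ 3 := by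
    have : (m ^ 3 + 8) * x ^ 3 = 1 + 8 * x ^ 3 := by rw [add_mul, ← mul_pow, hms, one_pow]
    calc 27 * m ^ 3 * (m ^ 3 + 8) ^ 3 * x ^ 12
        = 27 * (m * x) ^ 3 * ((m ^ 3 + 8) * x ^ 3) ^ 3 := by ring
      _ = 27 * (1 + 8 * x ^ 3) ^ 3 := by rw [this, hms, one_pow, mul_one]
  have e2 : j * (m ^ 3 - 1) ^ 3 * x ^ 12 = j * (x ^ 3 * (1 - x ^ 3) ^ 3) := by
    have : (m ^ 3 - 1) * x ^ 3 = 1 - x ^ 3 := by rw [sub_mul, ← mul_pow, hms, one_pow, one_mul]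
    calc j * (m ^ 3 - 1) ^ 3 * x ^ 12 = j * (x ^ 3 * ((m ^ 3 - 1) * x ^ 3) ^ 3) := by ring
      _ = j * (x ^ 3 * (1 - x ^ 3) ^ 3) := by rw [this]
  rw [e1, e2, h']
  linear_combination (-27 * (1 + 8 * x ^ 3) ^ 3) * hj

end Transfer

end Fermat.Agent.N4.Hesse
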