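/-
N4, block L3 (helper6), part 5: **(D0)** the modular polynomial `Φ_N(j(z), X)` splits over the
holomorphic functions on `ℍ`:  `SplitsOverHol ((modPoly N).map (mapRingHom (Int.castRingHom ℂ)))`
with roots the conjugates `HeckeRoots.conj N c` of `j_N`.

Proof: the coset polynomial `Q` of `M2.CosetPoly.exists_cosetPoly` has the pointwise property by
construction; running helper12's `exists_cosetPoly_PM` / `exists_cosetPoly_factorization` for this
fixed `Q` shows that `Q(j(t^N), X) = ∏_c (X - cosetRoot N c)` over `ℂ((t))`, which characterises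
`Φ_N ⊗ ℂ` (`modPoly_map_eq_prod` + injectivity of `Y ↦ j(t^N)`).
-/
import Fermat.Agent.N4.ModPolyDescent
import Fermat.Agent.N4.TaylorHol

set_option autoImplicit false

namespace Fermat.Agent.N4.Char0

open UpperHalfPlane ModularForm MatrixGroups CongruenceSubgroup Polynomial
open Fermat.Agent.M2 Fermat.Agent.M2.JOrder ModularCurve
open Fermat.Agent.S24.QExpHom
open Fermat.Agent.N4.HeckeRoots Fermat.Agent.N4.ModPolyDescent Fermat.Agent.N4.QExpTranslate
open Fermat.Agent.N4.TwistSeries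
open scoped Fermat.Agent.N4.HeckeRoots Manifold

local notation "Δ" => ModularForm.discriminant

variable (N : ℕ) [NeZero N]

/-- helper12's `exists_cosetPoly_PM` for a fixed polynomial with the pointwise property. -/
theorem map_PM_of_pointwise (Q : ℂ[X][X])
    (hQ : ∀ z : ℍ, Q.map (evalRingHom (E₄ z ^ 3 / Δ z)) =
      ∏ c : SL(2, ℤ) ⧸ Gamma0 N, (X - C (conj N c z))) :
    Q.map ((aeval (jNPM N)).toRingHom : ℂ[X] →+* PM) =
      ∏ c : SL(2, ℤ) ⧸ Gamma0 N, (X - C (conjPM N c)) := by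
  apply pm_poly_ext
  intro z
  rw [Polynomial.map_map]
  have hcomp : (evPM z).comp ((aeval (jNPM N)).toRingHom : ℂ[X] →+* PM) =
      evalRingHom (E₄ (JN.scaleH N z) ^ 3 / Δ (JN.scaleH N z)) := by
    refine Polynomial.ringHom_ext (fun a => ?_) ?_
    · simp only [RingHom.comp_apply, AlgHom.toRingHom_eq_coe, RingHom.coe_coe, aeval_C,
        coe_evalRingHom, eval_C]
      rfl
    · simp only [RingHom.comp_apply, AlgHom.toRingHom_eq_coe, RingHom.coe_coe, aeval_X,
        coe_evalRingHom, eval_X]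
      rfl
  rw [hcomp, hQ (JN.scaleH N z), Polynomial.map_prod]
  refine Finset.prod_congr rfl fun c _ => ?_
  rw [Polynomial.map_sub, Polynomial.map_X, Polynomial.map_C]
  rfl

/-- helper12's `exists_cosetPoly_factorization` for a fixed polynomial. -/
theorem map_laurent_of_pointwise (Q : ℂ[X][X])
    (hQ : ∀ z : ℍ, Q.map (evalRingHom (E₄ z ^ 3 / Δ z)) =
      ∏ c : SL(2, ℤ) ⧸ Gamma0 N, (X - C (conj N c z))) :
    Q.map ((aeval (qExpand ℂ N (jqModC ℂ))).toRingHom : ℂ[X] →+* LaurentSeries ℂ) =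
      ∏ c : SL(2, ℤ) ⧸ Gamma0 N, (X - C (cosetRoot N c)) := by
  have h := congrArg (Polynomial.map (qexpPM : PM →+* LaurentSeries ℂ))
    (map_PM_of_pointwise N Q hQ)
  rw [Polynomial.map_map, Polynomial.map_prod] at h
  have hcomp : (qexpPM : PM →+* LaurentSeries ℂ).comp
      ((aeval (jNPM N)).toRingHom : ℂ[X] →+* PM) =
      ((aeval (qExpand ℂ N (jqModC ℂ))).toRingHom : ℂ[X] →+* LaurentSeries ℂ) := by
    rw [← qexpPM_jNPM, aeval_algHom]
    rfl
  rw [hcomp] at h
  rw [h]
  refine Finset.prod_congr rfl fun c _ => ?_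
  rw [Polynomial.map_sub, Polynomial.map_X, Polynomial.map_C]
  congr 2
  exact qexpPM_conjPM N c

/-- **`Φ_N(j(z), X) = ∏_c (X - conj_c(z))`** for all `z : ℍ`. -/
theorem modPoly_map_evalRingHom (z : ℍ) :
    ((modPoly N).map (mapRingHom (Int.castRingHom ℂ))).map (evalRingHom (jH z)) =
      ∏ c : SL(2, ℤ) ⧸ Gamma0 N, (X - C (conj N c z)) := by
  obtain ⟨Q, -, -, hQ⟩ := CosetPoly.exists_cosetPoly (Γ := Gamma0 N) (JN.jN N)
    (jN_slash_invariant N) (JN.mdiff_jN N) (jN_meroAtInfty N)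
  have hQ' : ∀ z : ℍ, Q.map (evalRingHom (E₄ z ^ 3 / Δ z)) =
      ∏ c : SL(2, ℤ) ⧸ Gamma0 N, (X - C (conj N c z)) := fun z => by
    rw [hQ z]
    rfl
  have h1 := map_laurent_of_pointwise N Q hQ'
  have h2 := modPoly_map_eq_prod N
  have hinj : Function.Injective
      ((aeval (qExpand ℂ N (jqModC ℂ))).toRingHom : ℂ[X] →+* LaurentSeries ℂ) :=
    aeval_qExpand_jqModC_injective N
  have h3 : Q = (modPoly N).map (mapRingHom (Int.castRingHom ℂ)) :=
    Polynomial.map_injective _ hinj (h1.trans h2.symm)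
  rw [← h3]
  exact hQ' z

theorem mdiff_conj (c : SL(2, ℤ) ⧸ Gamma0 N) : MDiff (conj N c) :=
  (CosetPoly.cosetFun_mem_holoMero (JN.jN N) (jN_slash_invariant N) (JN.mdiff_jN N)
    (jN_meroAtInfty N) c).1

/-- **(D0)** The modular polynomial splits over the holomorphic functions on `ℍ`. -/
theorem splitsOverHol_modPoly :
    SplitsOverHol ((modPoly N).map (mapRingHom (Int.castRingHom ℂ))) :=
  ⟨SL(2, ℤ) ⧸ Gamma0 N, inferInstance, conj N, mdiff_conj N, modPoly_map_evalRingHom N⟩

/-- The same after base change through any field `K ⊆ ℂ`. -/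
theorem splitsOverHol_modPoly_map {K : Type*} [CommRing K] (κ : K →+* ℂ) :
    SplitsOverHol (((modPoly N).map (mapRingHom (Int.castRingHom K))).map (mapRingHom κ)) := by
  rw [Polynomial.map_map, mapRingHom_intCast_comp]
  exact splitsOverHol_modPoly N

end Fermat.Agent.N4.Char0
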