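/-
N4, block L3 (helper6), part 7: **the final theorems** — the different ideal of the normalisation of
the four auxiliary charts in the modular function field is trivial in characteristic `0`.

`K` is a field of characteristic `0` with an embedding `κ : K → ℂ`, `A₀` a localisation
`K[x, 1/f(x)]` of `K[X]` (`[Algebra K[X] A₀] [IsLocalization.Away f A₀]`), `E = Frac A₀`, `L = E(θ)`
a finite extension with `Φ_N(jL, θ) = 0` where `jL ∈ L` is related to `x` by the equation of the
chart, `C₀` the integral closure of `A₀` in `L`.  Then `differentIdeal A₀ C₀ = ⊤` for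
* the `λ`-chart: `f = X (X - 1)`, `jNum x = jL · jDen x` (Legendre);
* the cusp chart: `f = (16 X^N - 1)((16 X^N)² - 16 X^N + 1)`, `jNum (16 x^N) = jL · jDen (16 x^N)`,
  including the primes over `x = 0`;
* the Hesse chart `f = X³ - 1`, `jNumH x = jL · jDenH x`;
* the Hesse cusp chart `f = (1 - 27 X^{3N})(1 + 216 X^{3N})`, `jNumC (3 x^N) = jL · jDenC (3 x^N)`,
  including the primes over `x = 0`.
-/
import Fermat.Agent.N4.Char0Lambda
import Fermat.Agent.N4.ModPolySplits
import Fermat.Agent.N4.Kronecker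
import Fermat.Agent.N4.LambdaModel
import Fermat.Agent.N4.LambdaSeries
import Fermat.Agent.N4.HesseModel
import Fermat.Agent.N4.HesseSeries

set_option autoImplicit false

namespace Fermat.Agent.N4.Char0

open Polynomial IntermediateField
open Fermat.Agent.N4.ModPolyDescent Fermat.Agent.N4.Kronecker

/-! ### Adapters -/

section Adapters

variable {K : Type*} [Field K]
  {A₀ L : Type*} [CommRing A₀] [Algebra K[X] A₀] [Field L] [Algebra A₀ L]

/-- The modular equation in the shape of `isUnramifiedAt_of_isJCover`. -/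
theorem eval₂_modPoly_of_evZ (N : ℕ) [NeZero N] {θ jL : L}
    (hΦ : evZ jL θ (modPoly N) = 0) :
    eval₂ (eval₂RingHom (((algebraMap A₀ L).comp (algebraMap K[X] A₀)).comp C) jL) θ
      ((modPoly N).map (mapRingHom (Int.castRingHom K))) = 0 := by
  rw [eval₂_map, ← hΦ, evZ_apply]
  congr 1
  refine Polynomial.ringHom_ext' (RingHom.ext_int _ _) ?_
  simp only [RingHom.comp_apply, coe_mapRingHom, Polynomial.map_X, coe_eval₂RingHom,
    Polynomial.eval₂_X]

/-- A ring homomorphism out of `K[X]` is evaluation at the image of `X`. -/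
theorem ringHom_apply_eq_eval₂ {W : Type*} [CommRing W] (φ : K[X] →+* W) (q : K[X]) :
    φ q = q.eval₂ (φ.comp C) (φ X) := by
  conv_lhs => rw [← Polynomial.eval₂_C_X (p := q)]
  rw [Polynomial.hom_eval₂]

end Adapters

/-! ### The `q`-expansion of `1/j` -/

section CuspSeries

open ModularCurve

/-- `w = (q · j(q))⁻¹ ∈ ℂ⟦q⟧`, so that `j(q) · q · w(q) = 1`. -/
noncomputable def jInvUnit : PowerSeries ℂ := (ModularCurve.jNum.map (Int.castRingHom ℂ))⁻¹

theorem constantCoeff_jNum_map :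
    PowerSeries.constantCoeff (ModularCurve.jNum.map (Int.castRingHom ℂ)) = 1 := by
  rw [← PowerSeries.coeff_zero_eq_constantCoeff_apply, PowerSeries.coeff_map,
    PowerSeries.coeff_zero_eq_constantCoeff_apply, constantCoeff_jNum]
  simp

theorem jNum_map_mul_jInvUnit : ModularCurve.jNum.map (Int.castRingHom ℂ) * jInvUnit = 1 := by
  rw [jInvUnit]
  apply PowerSeries.mul_inv_cancel
  rw [constantCoeff_jNum_map]
  exact one_ne_zero

theorem constantCoeff_jInvUnit : PowerSeries.constantCoeff jInvUnit = 1 := by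
  have h := congrArg PowerSeries.constantCoeff jNum_map_mul_jInvUnit
  rwa [map_mul, constantCoeff_jNum_map, one_mul, map_one] at h

theorem jqModC_mul_ofPowerSeries :
    jqModC ℂ * HahnSeries.ofPowerSeries ℤ ℂ (PowerSeries.X * jInvUnit) = 1 := by
  rw [jqModC, map_mul, HahnSeries.ofPowerSeries_X]
  calc HahnSeries.single (-1 : ℤ) (1 : ℂ) *
        HahnSeries.ofPowerSeries ℤ ℂ (ModularCurve.jNum.map (Int.castRingHom ℂ)) *
        (HahnSeries.single 1 1 * HahnSeries.ofPowerSeries ℤ ℂ jInvUnit)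
      = (HahnSeries.single (-1 : ℤ) (1 : ℂ) * HahnSeries.single 1 1) *
        HahnSeries.ofPowerSeries ℤ ℂ (ModularCurve.jNum.map (Int.castRingHom ℂ) * jInvUnit) := by
        rw [map_mul]; ring
    _ = 1 := by
        rw [jNum_map_mul_jInvUnit, (HahnSeries.ofPowerSeries ℤ ℂ).map_one, mul_one,
          HahnSeries.single_mul_single]
        simp

/-- `j(X^n) · X^n · w(X^n) = 1`. -/
theorem qExpand_jqModC_mul (n : ℕ) [NeZero n] :
    qExpand ℂ n (jqModC ℂ) * HahnSeries.ofPowerSeries ℤ ℂ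
      (PowerSeries.X ^ n * jInvUnit.expand n (NeZero.ne n)) = 1 := by
  have h := congrArg (qExpand ℂ n) jqModC_mul_ofPowerSeries
  rw [map_mul, map_one, qExpand_ofPowerSeries, map_mul, PowerSeries.expand_X] at h
  exact h

end CuspSeries

/-! ### The common setting -/

section Charts

open Fermat.Agent.N4.Lambda Fermat.Agent.N4.Hesse

variable {K : Type*} [Field K] [CharZero K] (κ : K →+* ℂ)
  {A₀ E L C₀ : Type*} [CommRing A₀] [IsDedekindDomain A₀] [Algebra K[X] A₀]
  [Field E] [Algebra A₀ E] [IsFractionRing A₀ E]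
  [Field L] [Algebra E L] [FiniteDimensional E L] [Algebra A₀ L] [IsScalarTower A₀ E L]
  [CommRing C₀] [Algebra A₀ C₀] [Algebra C₀ L] [IsScalarTower A₀ C₀ L]
  [IsIntegralClosure C₀ A₀ L]

omit [CharZero K] in
theorem powers_le_nonZeroDivisors {f : K[X]} (hf : f ≠ 0) :
    Submonoid.powers f ≤ nonZeroDivisors K[X] :=
  powers_le_nonZeroDivisors_of_noZeroDivisors hf

theorem lamDen_ne_zero : lamDen K ≠ 0 := by
  intro h
  have h1 := congrArg (eval (2 : K)) h
  simp only [lamDen, eval_mul, eval_sub, eval_X, eval_one, eval_zero] at h1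
  norm_num at h1

omit [CharZero K] in
theorem map_jNumPoly : (jNumPoly K).map κ = jNumPoly ℂ := by
  rw [jNumPoly, jNumPoly, ← coe_mapRingHom, map_jNum, coe_mapRingHom, Polynomial.map_X]

omit [CharZero K] in
theorem map_jDenPoly : (jDenPoly K).map κ = jDenPoly ℂ := by
  rw [jDenPoly, jDenPoly, ← coe_mapRingHom, map_jDen, coe_mapRingHom, Polynomial.map_X]

include κ in
/-- **The `λ`-chart**: `A₀ = K[λ, 1/λ, 1/(λ - 1)]`. -/
theorem differentIdeal_eq_top_lambda [IsLocalization.Away (lamDen K) A₀]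
    [IsDedekindDomain C₀] [Module.IsTorsionFree A₀ C₀] (N : ℕ) [NeZero N]
    (θ jL : L) (hθ : E⟮θ⟯ = ⊤)
    (hsex : jNum (algebraMap A₀ L (algebraMap K[X] A₀ X)) =
      jL * jDen (algebraMap A₀ L (algebraMap K[X] A₀ X)))
    (hΦ : evZ jL θ (modPoly N) = 0) :
    differentIdeal A₀ C₀ = ⊤ := by
  refine differentIdeal_eq_top_of_isJCover κ (jNumPoly K) (jDenPoly K)
    (Submonoid.powers (lamDen K)) ((modPoly N).map (mapRingHom (Int.castRingHom K)))
    (powers_le_nonZeroDivisors lamDen_ne_zero) ?_ (splitsOverHol_modPoly_map N κ) θ jL hθ ?_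
    (eval₂_modPoly_of_evZ N hΦ)
  · rw [map_jNumPoly, map_jDenPoly]
    refine isJCover_lambda.mono fun t₀ ht₀ => ?_
    have h1 := ht₀ (lamDen K) (Submonoid.mem_powers _)
    simp only [lamDen, Polynomial.map_mul, Polynomial.map_sub, Polynomial.map_X,
      Polynomial.map_one, eval_mul, eval_sub, eval_X, eval_one] at h1
    exact ⟨left_ne_zero_of_mul h1, sub_ne_zero.mp (right_ne_zero_of_mul h1)⟩
  · have h1 : ∀ q : K[X], algebraMap A₀ L (algebraMap K[X] A₀ q) =
        ((algebraMap A₀ L).comp (algebraMap K[X] A₀)) q := fun q => rfl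
    rw [h1, h1, jNumPoly, jDenPoly, map_jNum, map_jDen]
    exact hsex

/-! ### The cusp primes -/

section Cusp

open ModularCurve MatrixGroups CongruenceSubgroup
open Fermat.Agent.N4.HeckeRoots
open scoped Fermat.Agent.N4.HeckeRoots LaurentSeries PowerSeries

include κ in
/-- **(CUSP)** Unramifiedness at the primes over `x = 0` of a cusp chart: `x = X e` (`X =
q^{1/MN}`), `1/j = X^{MN} w(X^{MN})`, and `Φ_N(j(X^{MN}), Y)` splits over `ℂ((X))` because it splits
over `ℂ((q^{1/N}))`. -/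
theorem isUnramifiedAt_cusp (A B : K[X]) (S : Submonoid K[X]) [IsLocalization S A₀]
    (N : ℕ) [NeZero N] (hS : S ≤ nonZeroDivisors K[X]) (hS0 : ∀ s ∈ S, s.eval 0 ≠ 0)
    (θ jL : L) (hθ : E⟮θ⟯ = ⊤)
    (hjL : algebraMap A₀ L (algebraMap K[X] A₀ A) =
      jL * algebraMap A₀ L (algebraMap K[X] A₀ B))
    (hΦ : evZ jL θ (modPoly N) = 0)
    (M : ℕ) [NeZero M] (e : ℂ⟦X⟧) (he : PowerSeries.constantCoeff e ≠ 0)
    (hA : aeval (PowerSeries.X * e) (A.map κ) ≠ 0)
    (hrel : aeval (PowerSeries.X * e) (B.map κ) = aeval (PowerSeries.X * e) (A.map κ) *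
      (PowerSeries.X ^ (M * N) * jInvUnit.expand (M * N) (NeZero.ne (M * N))))
    (P : Ideal C₀) [hP : P.IsPrime] (hP0 : P ≠ ⊥)
    (hXP : algebraMap A₀ C₀ (algebraMap K[X] A₀ X) ∈ P) :
    Algebra.IsUnramifiedAt A₀ P := by
  classical
  let φ : K[X] →+* A₀ := algebraMap K[X] A₀
  -- the prime of `K[X]` below `P` is `(X)`
  have h𝔮prime : ((P.under A₀).comap φ).IsPrime := Ideal.comap_isPrime φ _
  have hXmem : (X : K[X]) ∈ (P.under A₀).comap φ := hXP
  have hXmax : (Ideal.span {(X : K[X])}).IsMaximal := by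
    have hprime : (Ideal.span {(X : K[X])}).IsPrime :=
      (Ideal.span_singleton_prime X_ne_zero).mpr prime_X
    exact hprime.isMaximal (by rw [Ne, Ideal.span_singleton_eq_bot]; exact X_ne_zero)
  have hp𝔮 : Ideal.span {(X : K[X])} = (P.under A₀).comap φ :=
    hXmax.eq_of_le h𝔮prime.ne_top ((Ideal.span_singleton_le_iff_mem _).mpr hXmem)
  -- the series homomorphism
  let ι₀ : K[X] →+* ℂ⟦X⟧ := (aeval (PowerSeries.X * e)).toRingHom.comp (mapRingHom κ)
  have hι₀ : ∀ q : K[X], ι₀ q = aeval (PowerSeries.X * e) (q.map κ) := fun q => rfl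
  have hcc : ∀ q : K[X], PowerSeries.constantCoeff (ι₀ q) = κ (q.eval 0) := by
    intro q
    rw [hι₀, constantCoeff_aeval, map_mul, PowerSeries.constantCoeff_X, zero_mul, eval_map,
      Polynomial.eval₂_at_zero, eval, Polynomial.eval₂_at_zero]
    rfl
  have hx1 : PowerSeries.coeff 1 (PowerSeries.X * e) ≠ 0 := by
    rw [PowerSeries.coeff_succ_X_mul, PowerSeries.coeff_zero_eq_constantCoeff_apply]
    exact he
  have hι₀inj : Function.Injective ι₀ := by
    rw [injective_iff_map_eq_zero]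
    intro q hq
    have h1 : q.map κ = 0 := eq_zero_of_aeval_eq_zero hx1 hq
    exact (Polynomial.map_eq_zero_iff κ.injective).mp h1
  have hunit : ∀ s : S, IsUnit (ι₀ s) := by
    intro s
    rw [PowerSeries.isUnit_iff_constantCoeff, hcc]
    exact isUnit_iff_ne_zero.mpr ((map_ne_zero κ).mpr (hS0 s s.2))
  have hpF : ∃ F : ℂ⟦X⟧, PowerSeries.constantCoeff F ≠ 0 ∧ ι₀ X = PowerSeries.X * F :=
    ⟨e, he, by rw [hι₀, Polynomial.map_X, aeval_X]⟩
  set v : ℂ⟦X⟧ := jInvUnit.expand (M * N) (NeZero.ne (M * N)) with hv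
  have hv0 : v ≠ 0 := by
    intro h0
    have h1 : PowerSeries.constantCoeff v = 1 := by
      rw [hv, PowerSeries.constantCoeff_expand, constantCoeff_jInvUnit]
    rw [h0, map_zero] at h1
    exact zero_ne_one h1
  set jser : ℂ⸨X⸩ := qExpand ℂ M (qExpand ℂ N (jqModC ℂ)) with hjser
  have hjv : jser * HahnSeries.ofPowerSeries ℤ ℂ (PowerSeries.X ^ (M * N) * v) = 1 := by
    rw [hjser, qExpand_qExpand]
    exact qExpand_jqModC_mul (M * N)
  have hBne : ι₀ B ≠ 0 := by
    rw [hι₀, hrel]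
    exact mul_ne_zero hA (mul_ne_zero (pow_ne_zero _ PowerSeries.X_ne_zero) hv0)
  have hj : ((ι₀ A : ℂ⟦X⟧) : ℂ⸨X⸩) = jser * ((ι₀ B : ℂ⟦X⟧) : ℂ⸨X⸩) := by
    rw [hι₀ B, hrel, PowerSeries.coe_mul, ← hι₀ A]
    calc ((ι₀ A : ℂ⟦X⟧) : ℂ⸨X⸩) = ((ι₀ A : ℂ⟦X⟧) : ℂ⸨X⸩) * 1 := (mul_one _).symm
      _ = ((ι₀ A : ℂ⟦X⟧) : ℂ⸨X⸩) *
            (jser * HahnSeries.ofPowerSeries ℤ ℂ (PowerSeries.X ^ (M * N) * v)) := by rw [hjv]
      _ = _ := by
        have : ((PowerSeries.X ^ (M * N) * v : ℂ⟦X⟧) : ℂ⸨X⸩) =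
          HahnSeries.ofPowerSeries ℤ ℂ (PowerSeries.X ^ (M * N) * v) := rfl
        rw [this]
        ring
  -- the splitting of `Φ_N`
  have hcomp : (eval₂RingHom (((HahnSeries.ofPowerSeries ℤ ℂ).comp ι₀).comp C) jser).comp
      (mapRingHom (Int.castRingHom K)) =
      (qExpand ℂ M).comp (((aeval (qExpand ℂ N (jqModC ℂ))).toRingHom :
        ℂ[X] →+* LaurentSeries ℂ).comp (mapRingHom (Int.castRingHom ℂ))) := by
    refine Polynomial.ringHom_ext' (RingHom.ext_int _ _) ?_
    simp only [RingHom.comp_apply, coe_mapRingHom, Polynomial.map_X, coe_eval₂RingHom,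
      Polynomial.eval₂_X, AlgHom.toRingHom_eq_coe, RingHom.coe_coe, aeval_X, hjser]
  have himg : ((modPoly N).map (mapRingHom (Int.castRingHom K))).map
      (eval₂RingHom (((HahnSeries.ofPowerSeries ℤ ℂ).comp ι₀).comp C) jser) =
      ∏ c : SL(2, ℤ) ⧸ Gamma0 N, (X - C (qExpand ℂ M (cosetRoot N c))) := by
    rw [Polynomial.map_map, hcomp, ← Polynomial.map_map, ← Polynomial.map_map,
      modPoly_map_eq_prod, Polynomial.map_prod]
    refine Finset.prod_congr rfl fun c _ => ?_
    rw [Polynomial.map_sub, Polynomial.map_X, Polynomial.map_C]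
  refine isUnramifiedAt_of_seriesHom A B S ((modPoly N).map (mapRingHom (Int.castRingHom K)))
    hS θ jL hθ hjL (eval₂_modPoly_of_evZ N hΦ) P hP0 (p := X) hp𝔮 ι₀ hι₀inj hunit hpF jser
    hBne hj ?_ ?_
  · rw [himg]
    exact (monic_prod_of_monic _ _ fun i _ => monic_X_sub_C _).ne_zero
  · rw [himg]
    exact Splits.prod fun i _ => Splits.X_sub_C _

end Cusp

/-! ### The cusp chart of the `λ`-line -/

section LambdaCusp

open scoped LaurentSeries PowerSeries

omit [CharZero K] in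
theorem comp_jNumPoly (ψ : K[X]) : (jNumPoly K).comp ψ = jNum ψ := by
  have h := map_jNum (compRingHom ψ) (X : K[X])
  rwa [coe_compRingHom_apply, coe_compRingHom_apply, X_comp] at h

omit [CharZero K] in
theorem comp_jDenPoly (ψ : K[X]) : (jDenPoly K).comp ψ = jDen ψ := by
  have h := map_jDen (compRingHom ψ) (X : K[X])
  rwa [coe_compRingHom_apply, coe_compRingHom_apply, X_comp] at h

theorem cuspDen_ne_zero (N : ℕ) (hN : N ≠ 0) : cuspDen K N ≠ 0 := by
  intro h
  have h1 := congrArg (eval (0 : K)) h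
  simp only [cuspDen, eval_mul, eval_sub, eval_add, eval_pow, eval_X, eval_one, eval_zero,
    eval_ofNat, zero_pow hN, mul_zero] at h1
  norm_num at h1

omit [CharZero K] in
theorem eval_zero_cuspDen (N : ℕ) (hN : N ≠ 0) : (cuspDen K N).eval 0 = -1 := by
  simp only [cuspDen, eval_mul, eval_sub, eval_add, eval_pow, eval_X, eval_one,
    eval_ofNat, zero_pow hN, mul_zero]
  norm_num

include κ in
/-- **The cusp chart of the `λ`-line**: `A₀ = K[t, 1/(λ - 1), 1/(λ² - λ + 1)]`, `λ = 16 t^N`,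
including the primes over `t = 0`. -/
theorem differentIdeal_eq_top_lambda_t (N : ℕ) [NeZero N] [IsLocalization.Away (cuspDen K N) A₀]
    [IsDedekindDomain C₀] [Module.IsTorsionFree A₀ C₀]
    (θ jL : L) (hθ : E⟮θ⟯ = ⊤)
    (hsex : jNum (16 * algebraMap A₀ L (algebraMap K[X] A₀ X) ^ N) =
      jL * jDen (16 * algebraMap A₀ L (algebraMap K[X] A₀ X) ^ N))
    (hΦ : evZ jL θ (modPoly N) = 0) :
    differentIdeal A₀ C₀ = ⊤ := by
  have hN : N ≠ 0 := NeZero.ne N
  let _ : Algebra ℚ A₀ :=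
    ((algebraMap K[X] A₀).comp (C.comp (algebraMap ℚ K))).toAlgebra
  set ψ : K[X] := C 16 * X ^ N with hψ
  have hS := powers_le_nonZeroDivisors (cuspDen_ne_zero (K := K) N hN)
  have hjL : algebraMap A₀ L (algebraMap K[X] A₀ ((jNumPoly K).comp ψ)) =
      jL * algebraMap A₀ L (algebraMap K[X] A₀ ((jDenPoly K).comp ψ)) := by
    have h1 : ∀ q : K[X], algebraMap A₀ L (algebraMap K[X] A₀ q) =
        ((algebraMap A₀ L).comp (algebraMap K[X] A₀)) q := fun q => rfl
    have h2 : ((algebraMap A₀ L).comp (algebraMap K[X] A₀)) ψ =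
        16 * algebraMap A₀ L (algebraMap K[X] A₀ X) ^ N := by
      rw [hψ, map_mul, map_pow, map_ofNat C 16, map_ofNat]
      rfl
    rw [h1, h1, comp_jNumPoly, comp_jDenPoly, map_jNum, map_jDen, h2]
    exact hsex
  have hAmap : ((jNumPoly K).comp ψ).map κ = (jNumPoly ℂ).comp (C 16 * X ^ N) := by
    rw [Polynomial.map_comp, map_jNumPoly, hψ, Polynomial.map_mul, Polynomial.map_pow,
      Polynomial.map_X, Polynomial.map_C, map_ofNat]
  have hBmap : ((jDenPoly K).comp ψ).map κ = (jDenPoly ℂ).comp (C 16 * X ^ N) := by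
    rw [Polynomial.map_comp, map_jDenPoly, hψ, Polynomial.map_mul, Polynomial.map_pow,
      Polynomial.map_X, Polynomial.map_C, map_ofNat]
  refine differentIdeal_eq_top_of_forall_isUnramifiedAt E L fun P _ hP0 => ?_
  by_cases hXP : algebraMap A₀ C₀ (algebraMap K[X] A₀ X) ∈ P
  · -- the cusp
    have h2 : IsUnit (2 : ℂ) := isUnit_iff_ne_zero.mpr two_ne_zero
    have hNu : IsUnit ((N : ℕ) : ℂ) := isUnit_iff_ne_zero.mpr (Nat.cast_ne_zero.mpr hN)
    obtain ⟨e, he, hrel⟩ := Lambda.exists_cusp_series h2 N hN hNu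
      (jInvUnit.expand (2 * N) (NeZero.ne (2 * N)))
      (by rw [PowerSeries.constantCoeff_expand, constantCoeff_jInvUnit])
    have haev : aeval (PowerSeries.X * e) (C 16 * X ^ N : ℂ[X]) =
        16 * ((PowerSeries.X : ℂ⟦X⟧) * e) ^ N := by
      rw [map_mul, map_pow, aeval_X, map_ofNat C 16, map_ofNat]
    refine isUnramifiedAt_cusp κ ((jNumPoly K).comp ψ) ((jDenPoly K).comp ψ)
      (Submonoid.powers (cuspDen K N)) N hS ?_ θ jL hθ hjL hΦ 2 e ?_ ?_ ?_ P hP0 hXP
    · rintro s ⟨n, rfl⟩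
      rw [eval_pow, eval_zero_cuspDen N hN]
      exact pow_ne_zero n (by norm_num)
    · rw [he]
      exact one_ne_zero
    · rw [hAmap, aeval_comp, aeval_jNumPoly, haev]
      have hu : IsUnit (jNum (16 * ((PowerSeries.X : ℂ⟦X⟧) * e) ^ N)) := by
        rw [jNum_def, PowerSeries.isUnit_iff_constantCoeff]
        simp only [map_mul, map_pow, map_add, map_sub, map_one, PowerSeries.constantCoeff_X,
          zero_mul, zero_pow hN, mul_zero, sub_zero, map_ofNat, isUnit_iff_ne_zero]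
        norm_num
      exact hu.ne_zero
    · rw [hAmap, hBmap, aeval_comp, aeval_comp, aeval_jNumPoly, aeval_jDenPoly, haev]
      exact hrel
  · -- the finite points
    refine isUnramifiedAt_of_isJCover κ ((jNumPoly K).comp ψ) ((jDenPoly K).comp ψ)
      (Submonoid.powers (cuspDen K N)) X ((modPoly N).map (mapRingHom (Int.castRingHom K)))
      hS ?_ (splitsOverHol_modPoly_map N κ) θ jL hθ hjL (eval₂_modPoly_of_evZ N hΦ) P hP0 hXP
    rw [hAmap, hBmap]
    refine (isJCover_lambda_t N hN).mono fun t₀ ht₀ => ?_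
    obtain ⟨hs, hx⟩ := ht₀
    have h1 := hs (cuspDen K N) (Submonoid.mem_powers _)
    simp only [cuspDen, Polynomial.map_mul, Polynomial.map_sub, Polynomial.map_add,
      Polynomial.map_pow, Polynomial.map_X, Polynomial.map_one, Polynomial.map_ofNat, eval_mul,
      eval_sub, eval_add, eval_pow, eval_X, eval_one, eval_ofNat] at h1
    rw [Polynomial.map_X, eval_X] at hx
    exact ⟨hx, sub_ne_zero.mp (left_ne_zero_of_mul h1)⟩

end LambdaCusp

/-! ### The Hesse chart -/

section HesseChart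

omit [CharZero K] in
theorem map_jNumH {R R' : Type*} [CommRing R] [CommRing R'] (φ : R →+* R') (a : R) :
    φ (jNumH a) = jNumH (φ a) := by
  simp only [jNumH_def, map_mul, map_pow, map_add, map_ofNat]

omit [CharZero K] in
theorem map_jDenH {R R' : Type*} [CommRing R] [CommRing R'] (φ : R →+* R') (a : R) :
    φ (jDenH a) = jDenH (φ a) := by
  simp only [jDenH_def, map_pow, map_sub, map_one]

omit [CharZero K] in
theorem map_jNumC {R R' : Type*} [CommRing R] [CommRing R'] (φ : R →+* R') (a : R) :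
    φ (jNumC a) = jNumC (φ a) := by
  simp only [jNumC_def, map_mul, map_pow, map_add, map_one, map_ofNat]

omit [CharZero K] in
theorem map_jDenC {R R' : Type*} [CommRing R] [CommRing R'] (φ : R →+* R') (a : R) :
    φ (jDenC a) = jDenC (φ a) := by
  simp only [jDenC_def, map_mul, map_pow, map_sub, map_one]

theorem hesseDen_ne_zero : hesseDen K ≠ 0 := by
  intro h
  have h1 := congrArg (eval (0 : K)) h
  simp only [hesseDen, eval_sub, eval_pow, eval_X, eval_one, eval_zero] at h1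
  norm_num at h1

omit [CharZero K] in
theorem map_jNumHPoly : (jNumHPoly K).map κ = jNumHPoly ℂ := by
  rw [jNumHPoly, jNumHPoly, ← coe_mapRingHom, map_jNumH, coe_mapRingHom, Polynomial.map_X]

omit [CharZero K] in
theorem map_jDenHPoly : (jDenHPoly K).map κ = jDenHPoly ℂ := by
  rw [jDenHPoly, jDenHPoly, ← coe_mapRingHom, map_jDenH, coe_mapRingHom, Polynomial.map_X]

include κ in
/-- **The Hesse chart**: `A₀ = K[m, 1/(m³ - 1)]`. -/
theorem differentIdeal_eq_top_hesse [IsLocalization.Away (hesseDen K) A₀]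
    [IsDedekindDomain C₀] [Module.IsTorsionFree A₀ C₀] (N : ℕ) [NeZero N]
    (θ jL : L) (hθ : E⟮θ⟯ = ⊤)
    (hhes : jNumH (algebraMap A₀ L (algebraMap K[X] A₀ X)) =
      jL * jDenH (algebraMap A₀ L (algebraMap K[X] A₀ X)))
    (hΦ : evZ jL θ (modPoly N) = 0) :
    differentIdeal A₀ C₀ = ⊤ := by
  refine differentIdeal_eq_top_of_isJCover κ (jNumHPoly K) (jDenHPoly K)
    (Submonoid.powers (hesseDen K)) ((modPoly N).map (mapRingHom (Int.castRingHom K)))
    (powers_le_nonZeroDivisors hesseDen_ne_zero) ?_ (splitsOverHol_modPoly_map N κ) θ jL hθ ?_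
    (eval₂_modPoly_of_evZ N hΦ)
  · rw [map_jNumHPoly, map_jDenHPoly]
    refine isJCover_hesse.mono fun t₀ ht₀ => ?_
    have h1 := ht₀ (hesseDen K) (Submonoid.mem_powers _)
    simp only [hesseDen, Polynomial.map_sub, Polynomial.map_pow, Polynomial.map_X,
      Polynomial.map_one, eval_sub, eval_pow, eval_X, eval_one] at h1
    exact sub_ne_zero.mp h1
  · have h1 : ∀ q : K[X], algebraMap A₀ L (algebraMap K[X] A₀ q) =
        ((algebraMap A₀ L).comp (algebraMap K[X] A₀)) q := fun q => rfl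
    rw [h1, h1, jNumHPoly, jDenHPoly, map_jNumH, map_jDenH]
    exact hhes

/-! ### The cusp chart of the Hesse line -/

section HesseCuspChart

open scoped LaurentSeries PowerSeries

omit [CharZero K] in
theorem comp_jNumCPoly (ψ : K[X]) : (jNumCPoly K).comp ψ = jNumC ψ := by
  have h := map_jNumC (compRingHom ψ) (X : K[X])
  rwa [coe_compRingHom_apply, coe_compRingHom_apply, X_comp] at h

omit [CharZero K] in
theorem comp_jDenCPoly (ψ : K[X]) : (jDenCPoly K).comp ψ = jDenC ψ := by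
  have h := map_jDenC (compRingHom ψ) (X : K[X])
  rwa [coe_compRingHom_apply, coe_compRingHom_apply, X_comp] at h

omit [CharZero K] in
theorem map_jNumCPoly : (jNumCPoly K).map κ = jNumCPoly ℂ := by
  rw [jNumCPoly, jNumCPoly, ← coe_mapRingHom, map_jNumC, coe_mapRingHom, Polynomial.map_X]

omit [CharZero K] in
theorem map_jDenCPoly : (jDenCPoly K).map κ = jDenCPoly ℂ := by
  rw [jDenCPoly, jDenCPoly, ← coe_mapRingHom, map_jDenC, coe_mapRingHom, Polynomial.map_X]

omit [CharZero K] in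
theorem eval_zero_cuspDenH (N : ℕ) (hN : N ≠ 0) : (cuspDenH K N).eval 0 = 1 := by
  have h3N : 3 * N ≠ 0 := mul_ne_zero (by norm_num) hN
  simp only [cuspDenH, eval_mul, eval_sub, eval_add, eval_pow, eval_X, eval_one,
    eval_ofNat, zero_pow h3N, mul_zero, sub_zero, add_zero, mul_one]

omit [CharZero K] in
theorem cuspDenH_ne_zero (N : ℕ) (hN : N ≠ 0) : cuspDenH K N ≠ 0 := by
  intro h
  have h1 := eval_zero_cuspDenH (K := K) N hN
  rw [h, eval_zero] at h1
  exact zero_ne_one h1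

omit [CharZero K] in
/-- The Hesse equation for `m = 1/s` in terms of `s`. -/
theorem jNumC_eq_of_hesseEq {Ω : Type*} [Field Ω] {s j : Ω} (hs : s ≠ 0)
    (h : HesseEq j s⁻¹) : jNumC s = j * jDenC s := by
  have hms : s⁻¹ * s = 1 := inv_mul_cancel₀ hs
  rw [← jNumH_mul_pow hms, ← jDenH_mul_pow hms, h]
  ring

include κ in
/-- **The cusp chart of the Hesse line**: `A₀ = K[t, 1/(1 - s³), 1/(1 + 8 s³)]`, `s = 3 t^N = 1/m`,
including the primes over `t = 0`. -/
theorem differentIdeal_eq_top_hesse_t (N : ℕ) [NeZero N]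
    [IsLocalization.Away (cuspDenH K N) A₀]
    [IsDedekindDomain C₀] [Module.IsTorsionFree A₀ C₀]
    (θ jL : L) (hθ : E⟮θ⟯ = ⊤)
    (hhes : jNumC (3 * algebraMap A₀ L (algebraMap K[X] A₀ X) ^ N) =
      jL * jDenC (3 * algebraMap A₀ L (algebraMap K[X] A₀ X) ^ N))
    (hΦ : evZ jL θ (modPoly N) = 0) :
    differentIdeal A₀ C₀ = ⊤ := by
  have hN : N ≠ 0 := NeZero.ne N
  let _ : Algebra ℚ A₀ :=
    ((algebraMap K[X] A₀).comp (C.comp (algebraMap ℚ K))).toAlgebra
  set ψ : K[X] := C 3 * X ^ N with hψ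
  have hS := powers_le_nonZeroDivisors (cuspDenH_ne_zero (K := K) N hN)
  have hjL : algebraMap A₀ L (algebraMap K[X] A₀ ((jNumCPoly K).comp ψ)) =
      jL * algebraMap A₀ L (algebraMap K[X] A₀ ((jDenCPoly K).comp ψ)) := by
    have h1 : ∀ q : K[X], algebraMap A₀ L (algebraMap K[X] A₀ q) =
        ((algebraMap A₀ L).comp (algebraMap K[X] A₀)) q := fun q => rfl
    have h2 : ((algebraMap A₀ L).comp (algebraMap K[X] A₀)) ψ =
        3 * algebraMap A₀ L (algebraMap K[X] A₀ X) ^ N := by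
      rw [hψ, map_mul, map_pow, map_ofNat C 3, map_ofNat]
      rfl
    rw [h1, h1, comp_jNumCPoly, comp_jDenCPoly, map_jNumC, map_jDenC, h2]
    exact hhes
  have hAmap : ((jNumCPoly K).comp ψ).map κ = (jNumCPoly ℂ).comp (C 3 * X ^ N) := by
    rw [Polynomial.map_comp, map_jNumCPoly, hψ, Polynomial.map_mul, Polynomial.map_pow,
      Polynomial.map_X, Polynomial.map_C, map_ofNat]
  have hBmap : ((jDenCPoly K).comp ψ).map κ = (jDenCPoly ℂ).comp (C 3 * X ^ N) := by
    rw [Polynomial.map_comp, map_jDenCPoly, hψ, Polynomial.map_mul, Polynomial.map_pow,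
      Polynomial.map_X, Polynomial.map_C, map_ofNat]
  refine differentIdeal_eq_top_of_forall_isUnramifiedAt E L fun P _ hP0 => ?_
  by_cases hXP : algebraMap A₀ C₀ (algebraMap K[X] A₀ X) ∈ P
  · -- the cusp
    have h3 : IsUnit (3 : ℂ) := isUnit_iff_ne_zero.mpr three_ne_zero
    have hNu : IsUnit ((N : ℕ) : ℂ) := isUnit_iff_ne_zero.mpr (Nat.cast_ne_zero.mpr hN)
    obtain ⟨e, he, hrel⟩ := Hesse.exists_cusp_series h3 N hN hNu
      (jInvUnit.expand (3 * N) (NeZero.ne (3 * N)))
      (by rw [PowerSeries.constantCoeff_expand, constantCoeff_jInvUnit])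
    have haev : aeval (PowerSeries.X * e) (C 3 * X ^ N : ℂ[X]) =
        3 * ((PowerSeries.X : ℂ⟦X⟧) * e) ^ N := by
      rw [map_mul, map_pow, aeval_X, map_ofNat C 3, map_ofNat]
    refine isUnramifiedAt_cusp κ ((jNumCPoly K).comp ψ) ((jDenCPoly K).comp ψ)
      (Submonoid.powers (cuspDenH K N)) N hS ?_ θ jL hθ hjL hΦ 3 e ?_ ?_ ?_ P hP0 hXP
    · rintro s ⟨n, rfl⟩
      rw [eval_pow, eval_zero_cuspDenH N hN, one_pow]
      exact one_ne_zero
    · rw [he]
      exact one_ne_zero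
    · rw [hAmap, aeval_comp, aeval_jNumCPoly, haev]
      have hu : IsUnit (jNumC (3 * ((PowerSeries.X : ℂ⟦X⟧) * e) ^ N)) := by
        rw [jNumC_def, PowerSeries.isUnit_iff_constantCoeff]
        simp only [map_mul, map_pow, map_add, map_one, PowerSeries.constantCoeff_X,
          zero_mul, zero_pow hN, mul_zero, map_ofNat, isUnit_iff_ne_zero]
        norm_num
      exact hu.ne_zero
    · rw [hAmap, hBmap, aeval_comp, aeval_comp, aeval_jNumCPoly, aeval_jDenCPoly, haev,
        jDenC_def, jNumC_def]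
      exact hrel
  · -- the finite points
    refine isUnramifiedAt_of_isJCover κ ((jNumCPoly K).comp ψ) ((jDenCPoly K).comp ψ)
      (Submonoid.powers (cuspDenH K N)) X ((modPoly N).map (mapRingHom (Int.castRingHom K)))
      hS ?_ (splitsOverHol_modPoly_map N κ) θ jL hθ hjL (eval₂_modPoly_of_evZ N hΦ) P hP0 hXP
    rw [hAmap, hBmap]
    refine (isJCover_hesseC_t N hN).mono fun t₀ ht₀ => ?_
    obtain ⟨hs, hx⟩ := ht₀
    have h1 := hs (cuspDenH K N) (Submonoid.mem_powers _)
    simp only [cuspDenH, Polynomial.map_mul, Polynomial.map_sub, Polynomial.map_add,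
      Polynomial.map_pow, Polynomial.map_X, Polynomial.map_one, Polynomial.map_ofNat, eval_mul,
      eval_sub, eval_add, eval_pow, eval_X, eval_one, eval_ofNat] at h1
    rw [Polynomial.map_X, eval_X] at hx
    refine ⟨hx, fun h2 => left_ne_zero_of_mul h1 ?_⟩
    rw [pow_mul' t₀ 3 N]
    linear_combination -h2

end HesseCuspChart

end HesseChart

end Charts

end Fermat.Agent.N4.Char0
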