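/-
N4 block (L2): étale normalisation along a prime element.

`B` an integrally closed noetherian domain with fraction field `E`, `π : B` prime with `B/π` a
principal ideal domain, `L/E` finite separable, `S` the integral closure of `B` in `L`.
Hypotheses `Hyp B E L π`:
* `exists_basis` : an integral `E`-basis of `L` whose discriminant is prime to `π`
  (generic étaleness of the special fibre);
* `traceDual`    : every `z : L` with `Tr(z S) ⊆ B` has `π^m z ∈ S` for some `m`
  (étaleness away from `π`, e.g. in characteristic `0`).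
Conclusions:
* `Hyp.isIntegral_of_isTraceDual`        : `S` is its own trace dual;
* `Hyp.isRadical`                        : `π S` is a radical ideal (`S/π` reduced);
* `Hyp.sup_eq_top_of_mem_minimalPrimes`  : distinct primes of `S` minimal over `π S` are comaximal.
Main tools: lemma (b) `isIntegral_of_prime_smul_of_smul` (if `π z` and `b z` are integral and
`π ∤ b` then `z` is integral), torsion-freeness of `S/π` over `B/π`, Nakayama, and
`EtaleCore` (finite free algebras with unit trace discriminant).
-/
import Mathlib
import Fermat.Agent.N4.EtaleCore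

set_option autoImplicit false

open Polynomial

namespace Fermat.Agent.N4.EtaleNormalization

section LemmaB

variable {B L : Type*} [CommRing B] [IsDomain B] [IsIntegrallyClosed B] [Field L] [Algebra B L]

/-- Coefficients of the minimal polynomial of `z` over the fraction field, scaled by the right
power of `r`, come from `B` as soon as `r • z` is integral over `B`. -/
lemma coeff_minpoly_mul_pow_mem_range (E : Type*) [Field E] [Algebra B E] [IsFractionRing B E]
    [Algebra E L] [IsScalarTower B E L] {r : B} (hr : r ≠ 0) {z : L}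
    (h : IsIntegral B (r • z)) (i : ℕ) :
    ∃ a : B, algebraMap B E a =
      (minpoly E z).coeff i * algebraMap B E r ^ ((minpoly E z).natDegree - i) := by
  have hrE : algebraMap B E r ≠ 0 := by
    simpa using (IsFractionRing.injective B E).ne hr
  have hsm : (algebraMap B E r) • z = r • z := algebraMap_smul E r z
  have hzE : IsIntegral E z := by
    have h' : IsIntegral E ((algebraMap B E r) • z) := by
      rw [hsm]; exact h.tower_top
    have : z = (algebraMap B E r)⁻¹ • ((algebraMap B E r) • z) := by
      rw [smul_smul, inv_mul_cancel₀ hrE, one_smul]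
    rw [this]
    exact h'.smul _
  have h1 : minpoly E (r • z) = (minpoly B (r • z)).map (algebraMap B E) :=
    minpoly.isIntegrallyClosed_eq_field_fractions' E h
  have h2 : minpoly E ((algebraMap B E r) • z) = (minpoly E z).scaleRoots (algebraMap B E r) :=
    IsIntegrallyClosed.minpoly_smul hrE hzE
  rw [hsm, h1] at h2
  refine ⟨(minpoly B (r • z)).coeff i, ?_⟩
  have := congrArg (fun p => p.coeff i) h2
  simpa [coeff_scaleRoots] using this

/-- **Lemma (b).** Let `B` be an integrally closed domain with fraction field `E`, `π` a prime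
element of `B` and `b : B` not divisible by `π`. If `π • z` and `b • z` are integral over `B`,
so is `z`. -/
theorem isIntegral_of_prime_smul_of_smul (E : Type*) [Field E] [Algebra B E] [IsFractionRing B E]
    [Algebra E L] [IsScalarTower B E L] {π b : B} (hπ : Prime π) (hb : ¬ π ∣ b) {z : L}
    (h1 : IsIntegral B (π • z)) (h2 : IsIntegral B (b • z)) : IsIntegral B z := by
  have hb0 : b ≠ 0 := fun h => hb (h ▸ dvd_zero π)
  have hπ0 : π ≠ 0 := hπ.ne_zero
  have hπE : algebraMap B E π ≠ 0 := by
    simpa using (IsFractionRing.injective B E).ne hπ0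
  have hinj := IsFractionRing.injective B E
  -- every coefficient of the minimal polynomial over `E` lies in `B`
  have hcoeff : ∀ i, (minpoly E z).coeff i ∈ (algebraMap B E).range := by
    intro i
    obtain ⟨α, hα⟩ := coeff_minpoly_mul_pow_mem_range E hπ0 h1 i
    obtain ⟨β, hβ⟩ := coeff_minpoly_mul_pow_mem_range E hb0 h2 i
    set k := (minpoly E z).natDegree - i
    set c := (minpoly E z).coeff i
    have hrel : α * b ^ k = β * π ^ k := by
      apply hinj
      rw [map_mul, map_mul, map_pow, map_pow, hα, hβ]
      ring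
    have hdvd : π ^ k ∣ α := by
      have hbk : ¬ π ∣ b ^ k := fun h => hb (hπ.dvd_of_dvd_pow h)
      refine hπ.pow_dvd_of_dvd_mul_right (b := b ^ k) k hbk ?_
      rw [hrel]
      exact Dvd.intro_left β rfl
    obtain ⟨α', rfl⟩ := hdvd
    refine ⟨α', ?_⟩
    have : algebraMap B E α' * algebraMap B E π ^ k = c * algebraMap B E π ^ k := by
      rw [← hα, map_mul, map_pow, mul_comm]
    exact mul_right_cancel₀ (pow_ne_zero k hπE) this
  have hzE : IsIntegral E z := by
    have h' : IsIntegral E ((algebraMap B E π) • z) := by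
      rw [algebraMap_smul]; exact h1.tower_top
    have : z = (algebraMap B E π)⁻¹ • ((algebraMap B E π) • z) := by
      rw [smul_smul, inv_mul_cancel₀ hπE, one_smul]
    rw [this]
    exact h'.smul _
  have hlifts : minpoly E z ∈ Polynomial.lifts (algebraMap B E) :=
    (Polynomial.lifts_iff_coeff_lifts _).mpr hcoeff
  obtain ⟨q, hq, -, hqm⟩ :=
    Polynomial.lifts_and_natDegree_eq_and_monic hlifts (minpoly.monic hzE)
  refine ⟨q, hqm, ?_⟩
  have : aeval z q = aeval z (minpoly E z) := by
    rw [← hq, aeval_map_algebraMap]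
  rw [← aeval_def, this, minpoly.aeval]

end LemmaB

section TorsionFree

variable {B : Type*} [CommRing B] [IsDomain B] [IsIntegrallyClosed B]
variable (E L : Type*) [Field E] [Algebra B E] [IsFractionRing B E]
  [Field L] [Algebra E L] [Algebra B L] [IsScalarTower B E L]
variable {S : Type*} [CommRing S] [Algebra B S] [Algebra S L] [IsScalarTower B S L]
  [IsIntegralClosure S B L]

include E L in
/-- If `(algebraMap B L π)⁻¹ * y` has the property that its multiples by `π` and by `b`
(`π ∤ b`) come from `S`, then it comes from `S`. -/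
lemma exists_algebraMap_eq_inv_mul {π b : B} (hπ : Prime π) (hb : ¬ π ∣ b) {r r' : S}
    (h : b • r = algebraMap B S π * r') :
    ∃ r'' : S, r = algebraMap B S π * r'' := by
  have hπL : algebraMap B L π ≠ 0 := by
    rw [IsScalarTower.algebraMap_apply B E L]
    simpa using (IsFractionRing.injective B E).ne hπ.ne_zero
  set z : L := (algebraMap B L π)⁻¹ * algebraMap S L r with hz
  have h1 : π • z = algebraMap S L r := by
    rw [Algebra.smul_def, hz, mul_inv_cancel_left₀ hπL]
  have h2 : b • z = algebraMap S L r' := by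
    have : algebraMap S L (b • r) = algebraMap S L (algebraMap B S π * r') := by rw [h]
    rw [Algebra.smul_def, map_mul, ← IsScalarTower.algebraMap_apply, map_mul,
      ← IsScalarTower.algebraMap_apply] at this
    rw [Algebra.smul_def, hz, mul_left_comm, this, inv_mul_cancel_left₀ hπL]
  have hint : IsIntegral B z :=
    isIntegral_of_prime_smul_of_smul E hπ hb (h1 ▸ (IsIntegralClosure.isIntegral B L r).algebraMap)
      (h2 ▸ (IsIntegralClosure.isIntegral B L r').algebraMap)
  obtain ⟨r'', hr''⟩ := IsIntegralClosure.isIntegral_iff (A := S) |>.mp hint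
  refine ⟨r'', IsIntegralClosure.algebraMap_injective S B L ?_⟩
  rw [map_mul, ← IsScalarTower.algebraMap_apply, hr'', hz, mul_inv_cancel_left₀ hπL]

include E L in
/-- **Torsion-freeness of `S/πS` over `B/πB`.** -/
theorem dvd_of_dvd_smul {π b : B} (hπ : Prime π) (hb : ¬ π ∣ b) {r : S}
    (h : algebraMap B S π ∣ b • r) : algebraMap B S π ∣ r := by
  obtain ⟨r', hr'⟩ := h
  obtain ⟨r'', hr''⟩ := exists_algebraMap_eq_inv_mul E L hπ hb hr'
  exact ⟨r'', hr''⟩

end TorsionFree

section SelfDual

variable {B : Type*} [CommRing B] [IsDomain B] [IsIntegrallyClosed B]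
variable (E : Type*) {L : Type*} [Field E] [Algebra B E] [IsFractionRing B E]
  [Field L] [Algebra E L] [Algebra B L] [IsScalarTower B E L] [FiniteDimensional E L]
variable {ι : Type*} [Fintype ι] [DecidableEq ι]

omit [IsDomain B] in
/-- The trace of an integral element lies in `B`. -/
lemma trace_mem_range {y : L} (hy : IsIntegral B y) :
    Algebra.trace E L y ∈ (algebraMap B E).range :=
  IsIntegrallyClosed.isIntegral_iff.mp (Algebra.isIntegral_trace hy)

/-- Key step of self-duality: an integral element all of whose traces against an integral basis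
with discriminant prime to `π` are divisible by `π` is itself divisible by `π`. -/
lemma isIntegral_inv_mul_of_trace (x : Module.Basis ι E L) (hx : ∀ i, IsIntegral B (x i))
    {d₁ : B} (hd₁ : algebraMap B E d₁ = Algebra.discr E x) {π : B} (hπ : Prime π)
    (hπd : ¬ π ∣ d₁) {w : L} (hw : IsIntegral B w)
    (htr : ∀ j, ∃ a : B, algebraMap B E (π * a) = Algebra.trace E L (w * x j)) :
    IsIntegral B ((algebraMap B L π)⁻¹ * w) := by
  classical
  have hinj := IsFractionRing.injective B E
  have hπL : algebraMap B L π ≠ 0 := by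
    rw [IsScalarTower.algebraMap_apply B E L]
    simpa using hinj.ne hπ.ne_zero
  -- the trace matrix has entries in `B`
  have hM : ∀ i j, ∃ m : B, algebraMap B E m = Algebra.traceMatrix E x i j := by
    intro i j
    obtain ⟨m, hm⟩ := trace_mem_range E ((hx i).mul (hx j))
    exact ⟨m, by rw [hm, Algebra.traceMatrix_apply, Algebra.traceForm_apply]⟩
  choose M₀ hM₀ using hM
  set M : Matrix ι ι E := Algebra.traceMatrix E x with hMdef
  have hMmap : (Matrix.of M₀).map (algebraMap B E) = M := by
    ext i j; simp [hM₀]
  have hdet : (Matrix.of M₀).det = d₁ := by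
    apply hinj
    rw [RingHom.map_det, RingHom.mapMatrix_apply, hMmap, hd₁, Algebra.discr_def]
  choose a ha using htr
  set c : ι → E := fun i => x.repr w i with hc
  have hsum : w = ∑ i, c i • x i := (x.sum_repr w).symm
  have hsys : Matrix.vecMul c M = fun j => algebraMap B E (π * a j) := by
    funext j
    rw [ha j]
    conv_rhs => rw [hsum, Finset.sum_mul, map_sum]
    simp only [Matrix.vecMul, dotProduct, hMdef, Algebra.traceMatrix_apply,
      Algebra.traceForm_apply, smul_mul_assoc, map_smul, smul_eq_mul]
  set a' : ι → B := Matrix.vecMul a (Matrix.of M₀).adjugate with ha'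
  have hca : ∀ i, algebraMap B E d₁ * c i = algebraMap B E (π * a' i) := by
    intro i
    have h1 : Matrix.vecMul (Matrix.vecMul c M) M.adjugate = M.det • c := by
      rw [Matrix.vecMul_vecMul, Matrix.mul_adjugate, Matrix.vecMul_smul, Matrix.vecMul_one]
    have h2 : M.adjugate = (Matrix.of M₀).adjugate.map (algebraMap B E) := by
      rw [← hMmap, ← RingHom.mapMatrix_apply, ← RingHom.map_adjugate, RingHom.mapMatrix_apply]
    have h3 : M.det = algebraMap B E d₁ := by rw [hd₁, Algebra.discr_def]
    have h4 := congrFun h1 i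
    rw [hsys, h2, h3, Pi.smul_apply, smul_eq_mul] at h4
    rw [← h4]
    have h5 := RingHom.map_vecMul (algebraMap B E) (Matrix.of M₀).adjugate
      (fun j => π * a j) i
    rw [show (fun j => algebraMap B E (π * a j)) = (algebraMap B E) ∘ (fun j => π * a j) from rfl,
      ← h5]
    congr 1
    rw [ha']
    simp only [Matrix.vecMul, dotProduct, Finset.mul_sum, mul_assoc]
  set v : L := ∑ i, a' i • x i with hv
  have hvint : IsIntegral B v :=
    IsIntegral.sum _ fun i _ => (hx i).smul _
  have hdw : d₁ • w = π • v := by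
    conv_lhs => rw [hsum]
    rw [hv, Finset.smul_sum, Finset.smul_sum]
    refine Finset.sum_congr rfl fun i _ => ?_
    rw [← algebraMap_smul E d₁ (c i • x i), smul_smul, hca i, map_mul, mul_smul,
      algebraMap_smul, algebraMap_smul]
  set z : L := (algebraMap B L π)⁻¹ * w with hz
  have h1 : π • z = w := by
    rw [Algebra.smul_def, hz, mul_inv_cancel_left₀ hπL]
  have h2 : d₁ • z = v := by
    rw [Algebra.smul_def, hz, mul_left_comm, ← Algebra.smul_def, hdw, Algebra.smul_def,
      inv_mul_cancel_left₀ hπL]
  exact isIntegral_of_prime_smul_of_smul E hπ hπd (h1 ▸ hw) (h2 ▸ hvint)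

variable (B) in
/-- `z` lies in the trace dual of the integral closure: its products with integral elements have
traces in `B`. -/
def IsTraceDual (z : L) : Prop :=
  ∀ y : L, IsIntegral B y → Algebra.trace E L (z * y) ∈ (algebraMap B E).range

/-- **Self-duality.** If the trace dual of the integral closure is supported on `π` (char-0
étaleness, `h0`) and the extension is generically étale along `π` (an integral basis with
discriminant prime to `π`), the integral closure is its own trace dual. -/
theorem isIntegral_of_isTraceDual (x : Module.Basis ι E L) (hx : ∀ i, IsIntegral B (x i))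
    {d₁ : B} (hd₁ : algebraMap B E d₁ = Algebra.discr E x) {π : B} (hπ : Prime π)
    (hπd : ¬ π ∣ d₁)
    (h0 : ∀ z : L, IsTraceDual B E z → ∃ m : ℕ, IsIntegral B (π ^ m • z))
    {z : L} (hz : IsTraceDual B E z) : IsIntegral B z := by
  have hπL : algebraMap B L π ≠ 0 := by
    rw [IsScalarTower.algebraMap_apply B E L]
    simpa using (IsFractionRing.injective B E).ne hπ.ne_zero
  obtain ⟨m, hm⟩ := h0 z hz
  induction m with
  | zero => simpa using hm
  | succ m ih =>
    apply ih
    have hkey := isIntegral_inv_mul_of_trace E x hx hd₁ hπ hπd hm (fun j => by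
      obtain ⟨t, ht⟩ := hz (x j) (hx j)
      refine ⟨π ^ m * t, ?_⟩
      rw [smul_mul_assoc, Algebra.smul_def, IsScalarTower.algebraMap_apply B E L,
        ← Algebra.smul_def, map_smul, smul_eq_mul, ← ht, ← map_mul, ← mul_assoc, ← pow_succ'])
    have : (algebraMap B L π)⁻¹ * (π ^ (m + 1) • z) = π ^ m • z := by
      rw [pow_succ', mul_smul, Algebra.smul_def π, inv_mul_cancel_left₀ hπL]
    rwa [this] at hkey

end SelfDual

section NilpotentTrace

variable {B : Type*} [CommRing B] [IsDomain B] [IsIntegrallyClosed B]
variable (E : Type*) {L : Type*} [Field E] [Algebra B E] [IsFractionRing B E]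
  [Field L] [Algebra E L] [Algebra B L] [IsScalarTower B E L] [FiniteDimensional E L]

/-- **Trace of an element nilpotent modulo `π`.** If `w ^ k = π • v` with `v` integral and
`k ≠ 0`, then the trace of `w` is divisible by `π` in `B`. -/
theorem trace_mem_of_pow_eq_smul {π : B} (hπ : Prime π) {w v : L} (hv : IsIntegral B v) {k : ℕ}
    (hk : 0 < k) (h : w ^ k = π • v) :
    ∃ a : B, algebraMap B E (π * a) = Algebra.trace E L w := by
  have hinj : Function.Injective (algebraMap B E) := IsFractionRing.injective B E
  have hinjL : Function.Injective (algebraMap B L) := by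
    rw [IsScalarTower.algebraMap_eq B E L]
    exact (algebraMap E L).injective.comp hinj
  have : FaithfulSMul B L := (faithfulSMul_iff_algebraMap_injective B L).mpr hinjL
  have hw : IsIntegral B w := by
    have : IsIntegral B (w ^ k) := h ▸ hv.smul π
    exact IsIntegral.of_pow hk this
  set g := minpoly B v with hg
  have hgm : g.Monic := minpoly.monic hv
  set G := g.scaleRoots π with hG
  have hGm : G.Monic := (monic_scaleRoots_iff π).mpr hgm
  have hGroot : aeval (w ^ k) G = 0 := by
    rw [h, Algebra.smul_def]
    exact scaleRoots_aeval_eq_zero (minpoly.aeval B v)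
  have hGcoeff : ∀ i < G.natDegree, π ∣ G.coeff i := by
    intro i hi
    rw [hG, natDegree_scaleRoots] at hi
    rw [hG, coeff_scaleRoots]
    exact Dvd.dvd.mul_left (dvd_pow_self π (by omega)) _
  set H := expand B k G with hH
  have hHm : H.Monic := hGm.expand hk
  have hHroot : aeval w H = 0 := by rw [hH, expand_aeval]; exact hGroot
  have hHcoeff : ∀ i < H.natDegree, H.coeff i ∈ Ideal.span {π} := by
    intro i hi
    rw [hH, natDegree_expand] at hi
    rw [hH, coeff_expand hk]
    split_ifs with hdiv
    · refine Ideal.mem_span_singleton.mpr (hGcoeff _ ?_)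
      obtain ⟨c, rfl⟩ := hdiv
      rw [Nat.mul_div_cancel_left _ hk]
      nlinarith
    · exact zero_mem _
  set μ := minpoly B w with hμ
  have hμm : μ.Monic := minpoly.monic hw
  have hdvd : μ ∣ H := minpoly.isIntegrallyClosed_dvd hw hHroot
  have hprime : (Ideal.span {π}).IsPrime := (Ideal.span_singleton_prime hπ.ne_zero).mpr hπ
  have hμcoeff : ∀ i, i ≠ μ.natDegree → π ∣ μ.coeff i := by
    intro i hi
    have h1 := Polynomial.coeff_mem_radical_span_coeff_of_dvd H μ hHm hμm hdvd i hi
    have h2 : Ideal.span {x | ∃ i < H.natDegree, H.coeff i = x} ≤ Ideal.span {π} := by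
      rw [Ideal.span_le]
      rintro _ ⟨i, hi, rfl⟩
      exact hHcoeff i hi
    have h3 := Ideal.radical_mono h2 h1
    rw [hprime.radical] at h3
    exact Ideal.mem_span_singleton.mp h3
  have hdeg : 0 < μ.natDegree := minpoly.natDegree_pos hw
  obtain ⟨a₀, ha₀⟩ : π ∣ μ.nextCoeff := by
    rw [nextCoeff_of_natDegree_pos hdeg]
    exact hμcoeff _ (by omega)
  have hmin : minpoly E w = μ.map (algebraMap B E) :=
    minpoly.isIntegrallyClosed_eq_field_fractions' E hw
  refine ⟨-((Module.finrank (IntermediateField.adjoin E {w}) L : B) * a₀), ?_⟩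
  rw [trace_eq_finrank_mul_minpoly_nextCoeff, hmin, nextCoeff_map hinj, ha₀]
  simp only [map_mul, map_neg, map_natCast]
  ring

end NilpotentTrace

section Main

variable (B E L : Type*) [CommRing B] [IsDomain B] [IsIntegrallyClosed B]
  [Field E] [Algebra B E] [IsFractionRing B E]
  [Field L] [Algebra E L] [Algebra B L] [IsScalarTower B E L] [FiniteDimensional E L]

/-- **Hypotheses of the étale normalisation lemma** for the integral closure of `B` in `L` along
the prime element `π`: generic étaleness along `π` (an integral basis of `L/E` whose discriminant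
is prime to `π`) and étaleness away from `π` (the trace dual of the integral closure is killed
by powers of `π`). -/
structure Hyp (π : B) : Prop where
  prime : Prime π
  exists_basis : ∃ (n : ℕ) (x : Module.Basis (Fin n) E L), (∀ i, IsIntegral B (x i)) ∧
    ∃ d₁ : B, algebraMap B E d₁ = Algebra.discr E x ∧ ¬ π ∣ d₁
  traceDual : ∀ z : L, IsTraceDual B E z → ∃ m : ℕ, IsIntegral B (π ^ m • z)

variable {B E L}
variable {π : B}

/-- Self-duality of the integral closure under the hypotheses `Hyp`. -/
theorem Hyp.isIntegral_of_isTraceDual (h : Hyp B E L π) {z : L} (hz : IsTraceDual B E z) :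
    IsIntegral B z := by
  obtain ⟨n, x, hx, d₁, hd₁, hπd⟩ := h.exists_basis
  exact EtaleNormalization.isIntegral_of_isTraceDual E x hx hd₁ h.prime hπd h.traceDual hz

variable (S : Type*) [CommRing S] [Algebra B S] [Algebra S L] [IsScalarTower B S L]
  [IsIntegralClosure S B L]

/-- **`S/πS` is reduced.** -/
theorem Hyp.isRadical (h : Hyp B E L π) : (Ideal.span {algebraMap B S π}).IsRadical := by
  have hπ := h.prime
  have hinj : Function.Injective (algebraMap B E) := IsFractionRing.injective B E
  have hπE : algebraMap B E π ≠ 0 := by simpa using hinj.ne hπ.ne_zero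
  have hπL : algebraMap B L π ≠ 0 := by
    rw [IsScalarTower.algebraMap_apply B E L]
    simpa using hπE
  intro x hx
  obtain ⟨k, hk⟩ := hx
  have hk1 : x ^ (k + 1) ∈ Ideal.span {algebraMap B S π} := by
    rw [pow_succ]; exact Ideal.mul_mem_right _ _ hk
  obtain ⟨s, hs⟩ := Ideal.mem_span_singleton'.mp hk1
  set z : L := (algebraMap B L π)⁻¹ * algebraMap S L x with hz
  have hdual : IsTraceDual B E z := by
    intro Y hY
    obtain ⟨y, rfl⟩ := IsIntegralClosure.isIntegral_iff (A := S) |>.mp hY
    have hv : IsIntegral B (algebraMap S L (s * y ^ (k + 1))) :=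
      (IsIntegralClosure.isIntegral B L _).algebraMap
    have hpow : (algebraMap S L (x * y)) ^ (k + 1) = π • algebraMap S L (s * y ^ (k + 1)) := by
      rw [← map_pow, mul_pow, ← hs, Algebra.smul_def, IsScalarTower.algebraMap_apply B S L,
        ← map_mul]
      congr 1; ring
    obtain ⟨a, ha⟩ := trace_mem_of_pow_eq_smul E hπ hv (Nat.succ_pos k) hpow
    refine ⟨a, ?_⟩
    have hz' : z * algebraMap S L y = (algebraMap B E π)⁻¹ • algebraMap S L (x * y) := by
      rw [hz, Algebra.smul_def, map_inv₀, ← IsScalarTower.algebraMap_apply, map_mul, mul_assoc]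
    rw [hz', map_smul, ← ha, smul_eq_mul, map_mul, inv_mul_cancel_left₀ hπE]
  have hint := h.isIntegral_of_isTraceDual hdual
  obtain ⟨x', hx'⟩ := IsIntegralClosure.isIntegral_iff (A := S) |>.mp hint
  refine Ideal.mem_span_singleton'.mpr ⟨x', ?_⟩
  apply IsIntegralClosure.algebraMap_injective S B L
  rw [map_mul, hx', hz, ← IsScalarTower.algebraMap_apply, mul_comm, mul_inv_cancel_left₀ hπL]

end Main

section Semilocal

variable {B E L : Type*} [CommRing B] [IsDomain B] [IsIntegrallyClosed B]
  [Field E] [Algebra B E] [IsFractionRing B E]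
  [Field L] [Algebra E L] [Algebra B L] [IsScalarTower B E L]
  {S : Type*} [CommRing S] [Algebra B S] [Algebra S L] [IsScalarTower B S L]
  [IsIntegralClosure S B L]
  {π : B}

omit [IsDomain B] [IsIntegrallyClosed B] in
lemma map_span_singleton :
    (Ideal.span {π}).map (algebraMap B S) = Ideal.span {algebraMap B S π} := by
  rw [Ideal.map_span, Set.image_singleton]

include E L in
/-- `S/πS` is torsion-free over `B/π`. -/
theorem isTorsionFree_quotient (hπ : Prime π) :
    Module.IsTorsionFree (B ⧸ Ideal.span {π})
      (S ⧸ (Ideal.span {π}).map (algebraMap B S)) := by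
  have hprime : (Ideal.span {π}).IsPrime := (Ideal.span_singleton_prime hπ.ne_zero).mpr hπ
  have : IsDomain (B ⧸ Ideal.span {π}) := Ideal.Quotient.isDomain _
  refine Module.IsTorsionFree.of_smul_eq_zero fun r m hrm => ?_
  obtain ⟨b, rfl⟩ := Ideal.Quotient.mk_surjective r
  obtain ⟨x, rfl⟩ := Ideal.Quotient.mk_surjective m
  by_cases hb : π ∣ b
  · left
    exact Ideal.Quotient.eq_zero_iff_mem.mpr (Ideal.mem_span_singleton.mpr hb)
  · right
    rw [Ideal.Quotient.mk_smul_mk_quotient_map_quotient, Ideal.Quotient.eq_zero_iff_mem,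
      map_span_singleton, Ideal.mem_span_singleton, ← Algebra.smul_def] at hrm
    rw [Ideal.Quotient.eq_zero_iff_mem, map_span_singleton, Ideal.mem_span_singleton]
    exact dvd_of_dvd_smul E L hπ hb hrm

variable {ι : Type*} [Fintype ι]
  (sbar : Module.Basis ι (B ⧸ Ideal.span {π}) (S ⧸ (Ideal.span {π}).map (algebraMap B S)))
  (s : ι → S) (hs : ∀ i, Ideal.Quotient.mk _ (s i) = sbar i)

omit [IsDomain B] [IsIntegrallyClosed B] in
include hs in
/-- Every element of `S` is a `B`-combination of the lifted basis modulo `π`. -/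
lemma exists_sub_mem (x : S) : ∃ (a : ι → B) (y : S), x = ∑ i, a i • s i + π • y := by
  set xbar := Ideal.Quotient.mk ((Ideal.span {π}).map (algebraMap B S)) x with hxbar
  have hlift : ∀ i, ∃ a : B, Ideal.Quotient.mk (Ideal.span {π}) a = sbar.repr xbar i :=
    fun i => Ideal.Quotient.mk_surjective _
  choose a ha using hlift
  have h1 : Ideal.Quotient.mk ((Ideal.span {π}).map (algebraMap B S)) (x - ∑ i, a i • s i)
      = 0 := by
    rw [map_sub, map_sum, sub_eq_zero]
    conv_lhs => rw [← hxbar, ← sbar.sum_repr xbar]
    refine Finset.sum_congr rfl fun i _ => ?_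
    rw [← ha i, ← hs i, Ideal.Quotient.mk_smul_mk_quotient_map_quotient, Algebra.smul_def]
  rw [Ideal.Quotient.eq_zero_iff_mem, map_span_singleton, Ideal.mem_span_singleton'] at h1
  obtain ⟨y, hy⟩ := h1
  refine ⟨a, y, ?_⟩
  rw [Algebra.smul_def π, mul_comm, hy]; ring

omit [IsDomain B] [IsIntegrallyClosed B] in
include hs in
/-- **Nakayama**: the lifted basis generates `S` up to an element `u ≡ 1 mod π`. -/
theorem exists_smul_eq_sum [Module.Finite B S] :
    ∃ u : B, u - 1 ∈ Ideal.span {π} ∧ ∀ x : S, ∃ c : ι → B, u • x = ∑ i, c i • s i := by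
  set N₀ : Submodule B S := Submodule.span B (Set.range s) with hN₀
  have htop : (⊤ : Submodule B (S ⧸ N₀)) ≤ Ideal.span {π} • ⊤ := by
    rintro q -
    obtain ⟨x, rfl⟩ := N₀.mkQ_surjective q
    obtain ⟨a, y, hxy⟩ := exists_sub_mem sbar s hs x
    have : N₀.mkQ x = π • N₀.mkQ y := by
      have h0 : N₀.mkQ (∑ i, a i • s i) = 0 := by
        rw [Submodule.mkQ_apply, Submodule.Quotient.mk_eq_zero]
        exact Submodule.sum_mem _ fun i _ =>
          Submodule.smul_mem _ _ (Submodule.subset_span ⟨i, rfl⟩)
      rw [hxy, map_add, map_smul, h0, zero_add]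
    rw [this]
    exact Submodule.smul_mem_smul (Ideal.mem_span_singleton_self π) trivial
  obtain ⟨u, hu, hu0⟩ := Submodule.exists_sub_one_mem_and_smul_eq_zero_of_fg_of_le_smul
    (Ideal.span {π}) (⊤ : Submodule B (S ⧸ N₀)) Module.Finite.fg_top htop
  refine ⟨u, hu, fun x => ?_⟩
  have h1 : N₀.mkQ (u • x) = 0 := by
    rw [map_smul]; exact hu0 _ trivial
  have h2 : u • x ∈ N₀ := by
    rwa [Submodule.mkQ_apply, Submodule.Quotient.mk_eq_zero] at h1
  obtain ⟨c, hc⟩ := (Submodule.mem_span_range_iff_exists_fun B).mp h2
  exact ⟨c, hc.symm⟩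

omit [IsIntegrallyClosed B] in
include E L in
/-- `S` is torsion-free over `B`. -/
lemma eq_zero_of_smul_eq_zero {b : B} (hb : b ≠ 0) {x : S} (h : b • x = 0) : x = 0 := by
  apply IsIntegralClosure.algebraMap_injective S B L
  have hbL : algebraMap B L b ≠ 0 := by
    rw [IsScalarTower.algebraMap_apply B E L]
    simpa using (IsFractionRing.injective B E).ne hb
  have := congrArg (algebraMap S L) h
  rw [Algebra.smul_def, map_mul, ← IsScalarTower.algebraMap_apply, map_zero] at this
  rw [map_zero]
  exact (mul_eq_zero.mp this).resolve_left hbL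

omit [IsIntegrallyClosed B] in
include E L hs in
/-- The lifted basis is linearly independent over `B`. -/
theorem eq_zero_of_sum_smul_eq_zero [IsNoetherianRing B] (hπ : Prime π) {a : ι → B}
    (ha : ∑ i, a i • s i = 0) : a = 0 := by
  have key : ∀ k : ℕ, ∀ a : ι → B, ∑ i, a i • s i = 0 → ∀ i, π ^ k ∣ a i := by
    intro k
    induction k with
    | zero => intro a _ i; simp
    | succ k ih =>
      intro a ha i
      have h1 : ∑ i, Ideal.Quotient.mk (Ideal.span {π}) (a i) • sbar i = 0 := by
        have := congrArg (Ideal.Quotient.mk ((Ideal.span {π}).map (algebraMap B S))) ha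
        rw [map_sum, map_zero] at this
        rw [← this]
        refine Finset.sum_congr rfl fun i _ => ?_
        rw [← hs i, Ideal.Quotient.mk_smul_mk_quotient_map_quotient, Algebra.smul_def]
      have h2 := Fintype.linearIndependent_iff.mp sbar.linearIndependent _ h1
      have h3 : ∀ i, ∃ a' : B, a i = π * a' := fun i =>
        Ideal.mem_span_singleton.mp (Ideal.Quotient.eq_zero_iff_mem.mp (h2 i))
      choose a' ha' using h3
      have h4 : ∑ i, a' i • s i = 0 := by
        apply eq_zero_of_smul_eq_zero (E := E) (L := L) hπ.ne_zero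
        rw [Finset.smul_sum, ← ha]
        refine Finset.sum_congr rfl fun i _ => ?_
        rw [smul_smul, ← ha' i]
      rw [ha' i, pow_succ']
      exact mul_dvd_mul_left π (ih a' h4 i)
  funext i
  have hne : Ideal.span {π} ≠ ⊤ := by
    rw [Ne, Ideal.span_singleton_eq_top]; exact hπ.not_isUnit
  have h5 : a i ∈ ⨅ k : ℕ, Ideal.span {π} ^ k := by
    rw [Ideal.mem_iInf]
    intro k
    rw [Ideal.span_singleton_pow, Ideal.mem_span_singleton]
    exact key k a ha i
  rw [Ideal.iInf_pow_eq_bot_of_isDomain _ hne] at h5
  exact h5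

omit [IsIntegrallyClosed B] in
include hs in
/-- The lifted basis is linearly independent over the fraction field. -/
theorem linearIndependent_lift [IsNoetherianRing B] (hπ : Prime π) :
    LinearIndependent E (fun i => algebraMap S L (s i)) := by
  classical
  rw [Fintype.linearIndependent_iff]
  intro c hc i
  obtain ⟨d, hd⟩ := IsLocalization.exist_integer_multiples (nonZeroDivisors B) Finset.univ c
  have hd' : ∀ i, ∃ a : B, algebraMap B E a = (d : B) • c i := fun i => hd i (Finset.mem_univ i)
  choose a ha using hd'
  have hd0 : (d : B) ≠ 0 := nonZeroDivisors.coe_ne_zero d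
  have hdE : algebraMap B E (d : B) ≠ 0 := by
    simp [hd0]
  have h1 : ∑ i, a i • s i = 0 := by
    apply IsIntegralClosure.algebraMap_injective S B L
    rw [map_sum, map_zero]
    have : ∑ i, algebraMap S L (a i • s i) = (d : B) • ∑ i, c i • algebraMap S L (s i) := by
      rw [Finset.smul_sum]
      refine Finset.sum_congr rfl fun i _ => ?_
      rw [Algebra.smul_def (a i), map_mul, ← IsScalarTower.algebraMap_apply,
        IsScalarTower.algebraMap_apply B E L, ha i, ← Algebra.smul_def, smul_assoc]
    rw [this, hc, smul_zero]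
  have h2 := eq_zero_of_sum_smul_eq_zero (E := E) (L := L) sbar s hs hπ h1
  have h3 : (d : B) • c i = 0 := by rw [← ha i, h2, Pi.zero_apply, map_zero]
  rw [Algebra.smul_def, mul_eq_zero] at h3
  exact h3.resolve_left hdE

omit [IsIntegrallyClosed B] in
include hs in
/-- The lifted basis spans `L` over the fraction field. -/
theorem span_lift_eq_top [Module.Finite B S] [FiniteDimensional E L] (hπ : Prime π) :
    ⊤ ≤ Submodule.span E (Set.range fun i => algebraMap S L (s i)) := by
  rintro y -
  obtain ⟨u, hu, hgen⟩ := exists_smul_eq_sum sbar s hs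
  have hu0 : u ≠ 0 := by
    rintro rfl
    rw [zero_sub, Ideal.neg_mem_iff, Ideal.mem_span_singleton] at hu
    exact hπ.not_isUnit (isUnit_of_dvd_one hu)
  have halg : IsAlgebraic B y :=
    (IsFractionRing.isAlgebraic_iff B E L).mpr (Algebra.IsAlgebraic.isAlgebraic y)
  obtain ⟨b, hb0, hby⟩ := halg.exists_integral_multiple
  obtain ⟨x, hx⟩ := IsIntegralClosure.isIntegral_iff (A := S) |>.mp hby
  obtain ⟨c, hc⟩ := hgen x
  have hubE : algebraMap B E (u * b) ≠ 0 := by
    simpa using (IsFractionRing.injective B E).ne (mul_ne_zero hu0 hb0)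
  have h1 : (u * b) • y = ∑ i, algebraMap B E (c i) • algebraMap S L (s i) := by
    have hsm : ∀ (r : B) (t : S), algebraMap S L (r • t) = r • algebraMap S L t := fun r t => by
      rw [Algebra.smul_def, map_mul, ← IsScalarTower.algebraMap_apply, ← Algebra.smul_def]
    rw [mul_smul, ← hx, ← hsm, hc, map_sum]
    refine Finset.sum_congr rfl fun i _ => ?_
    rw [hsm, algebraMap_smul]
  have h2 : y = (algebraMap B E (u * b))⁻¹ • ((u * b) • y) := by
    rw [← algebraMap_smul E (u * b) y, smul_smul, inv_mul_cancel₀ hubE, one_smul]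
  rw [h2, h1]
  refine Submodule.smul_mem _ _ (Submodule.sum_mem _ fun i _ => Submodule.smul_mem _ _ ?_)
  exact Submodule.subset_span ⟨i, rfl⟩

/-- The lifted basis, as a basis of `L` over `E`. -/
noncomputable def liftBasis [IsNoetherianRing B] [Module.Finite B S] [FiniteDimensional E L]
    (hπ : Prime π) : Module.Basis ι E L :=
  Module.Basis.mk (linearIndependent_lift (E := E) sbar s hs hπ) (span_lift_eq_top sbar s hs hπ)

omit [IsIntegrallyClosed B] in
lemma liftBasis_apply [IsNoetherianRing B] [Module.Finite B S] [FiniteDimensional E L]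
    (hπ : Prime π) (i : ι) :
    liftBasis (E := E) sbar s hs hπ i = algebraMap S L (s i) := by
  rw [liftBasis, Module.Basis.mk_apply]

omit [IsDomain B] [IsIntegrallyClosed B] [IsFractionRing B E] [IsIntegralClosure S B L] in
private lemma algebraMap_smul_S (r : B) (t : S) :
    algebraMap S L (r • t) = algebraMap B E r • algebraMap S L t := by
  rw [Algebra.smul_def, map_mul, ← IsScalarTower.algebraMap_apply, algebraMap_smul,
    ← Algebra.smul_def]

omit [IsIntegrallyClosed B] in
include hs in
/-- **Trace compatibility**: the trace of `S/πS` over `B/π` is the reduction of the trace of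
`L/E`. -/
theorem trace_quotient_mk [IsNoetherianRing B] [Module.Finite B S] [FiniteDimensional E L]
    [DecidableEq ι] (hπ : Prime π) (x : S) {a : B}
    (ha : algebraMap B E a = Algebra.trace E L (algebraMap S L x)) :
    Algebra.trace (B ⧸ Ideal.span {π}) (S ⧸ (Ideal.span {π}).map (algebraMap B S))
      (Ideal.Quotient.mk _ x) = Ideal.Quotient.mk _ a := by
  obtain ⟨u, hu, hgen⟩ := exists_smul_eq_sum sbar s hs
  have hu1 : Ideal.Quotient.mk (Ideal.span {π}) u = 1 := by
    rw [← sub_eq_zero, ← map_one (Ideal.Quotient.mk (Ideal.span {π})), ← map_sub]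
    exact Ideal.Quotient.eq_zero_iff_mem.mpr hu
  choose c hc using fun i => hgen (x * s i)
  set bL : Module.Basis ι E L := liftBasis (E := E) (L := L) sbar s hs hπ with hbL
  -- trace upstairs
  have hA : algebraMap B E u * Algebra.trace E L (algebraMap S L x) =
      algebraMap B E (∑ i, c i i) := by
    rw [Algebra.trace_eq_matrix_trace bL, Matrix.trace, Finset.mul_sum, map_sum]
    refine Finset.sum_congr rfl fun i _ => ?_
    rw [Matrix.diag_apply, Algebra.leftMulMatrix_eq_repr_mul]
    have h1 : algebraMap B E u • (algebraMap S L x * bL i) =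
        ∑ j, algebraMap B E (c i j) • bL j := by
      rw [hbL, liftBasis_apply, ← map_mul, ← algebraMap_smul_S, hc i, map_sum]
      refine Finset.sum_congr rfl fun j _ => ?_
      rw [algebraMap_smul_S (E := E), liftBasis_apply]
    have h2 := congrArg (fun z => bL.repr z i) h1
    simp only [map_smul, Finsupp.smul_apply, smul_eq_mul] at h2
    rw [h2, Module.Basis.repr_sum_self]
  -- trace downstairs
  have hB : Algebra.trace (B ⧸ Ideal.span {π}) (S ⧸ (Ideal.span {π}).map (algebraMap B S))
      (Ideal.Quotient.mk _ x) = Ideal.Quotient.mk _ (∑ i, c i i) := by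
    rw [Algebra.trace_eq_matrix_trace sbar, Matrix.trace, map_sum]
    refine Finset.sum_congr rfl fun i _ => ?_
    rw [Matrix.diag_apply, Algebra.leftMulMatrix_eq_repr_mul]
    have h1 : Ideal.Quotient.mk ((Ideal.span {π}).map (algebraMap B S)) x * sbar i =
        ∑ j, Ideal.Quotient.mk (Ideal.span {π}) (c i j) • sbar j := by
      have h0 : Ideal.Quotient.mk ((Ideal.span {π}).map (algebraMap B S)) (u • (x * s i)) =
          Ideal.Quotient.mk _ x * sbar i := by
        rw [Algebra.smul_def, map_mul, ← Ideal.Quotient.algebraMap_quotient_map_quotient, hu1,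
          map_one, one_mul, map_mul, hs i]
      rw [← h0, hc i, map_sum]
      refine Finset.sum_congr rfl fun j _ => ?_
      rw [← hs j, Ideal.Quotient.mk_smul_mk_quotient_map_quotient, Algebra.smul_def]
    rw [h1, Module.Basis.repr_sum_self]
  rw [hB]
  have h3 : u * a = ∑ i, c i i := by
    apply IsFractionRing.injective B E
    rw [map_mul, ha, hA]
  rw [← h3, map_mul, hu1, one_mul]

include hs in
/-- **The trace discriminant of `S/πS` over `B/π` is a unit.** -/
theorem isUnit_discr_quotient [IsNoetherianRing B] [Module.Finite B S] [FiniteDimensional E L]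
    [Algebra.IsSeparable E L] [DecidableEq ι] (h : Hyp B E L π) :
    IsUnit (Algebra.discr (B ⧸ Ideal.span {π}) sbar) := by
  have hπ := h.prime
  have hinj : Function.Injective (algebraMap B E) := IsFractionRing.injective B E
  obtain ⟨u, hu, hgen⟩ := exists_smul_eq_sum sbar s hs
  have hu1 : Ideal.Quotient.mk (Ideal.span {π}) u = 1 := by
    rw [← sub_eq_zero, ← map_one (Ideal.Quotient.mk (Ideal.span {π})), ← map_sub]
    exact Ideal.Quotient.eq_zero_iff_mem.mpr hu
  set bL : Module.Basis ι E L := liftBasis (E := E) (L := L) sbar s hs hπ with hbL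
  have hbLi : ∀ i, bL i = algebraMap S L (s i) := fun i => liftBasis_apply sbar s hs hπ i
  have hbLint : ∀ i, IsIntegral B (bL i) := fun i => by
    rw [hbLi]; exact (IsIntegralClosure.isIntegral B L (s i)).algebraMap
  -- the trace matrix upstairs has entries in `B`
  have hM : ∀ i j, ∃ m : B, algebraMap B E m = Algebra.trace E L (bL i * bL j) := fun i j =>
    trace_mem_range E ((hbLint i).mul (hbLint j))
  choose M₀ hM₀ using hM
  -- the trace matrix downstairs is its reduction
  have hdown : Algebra.traceMatrix (B ⧸ Ideal.span {π}) sbar =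
      (Matrix.of M₀).map (Ideal.Quotient.mk (Ideal.span {π})) := by
    ext i j
    rw [Algebra.traceMatrix_apply, Algebra.traceForm_apply, Matrix.map_apply, Matrix.of_apply,
      ← hs i, ← hs j, ← map_mul]
    refine trace_quotient_mk (E := E) (L := L) sbar s hs hπ (s i * s j) ?_
    rw [hM₀ i j, hbLi, hbLi, ← map_mul]
  -- the dual basis
  have hnd := traceForm_nondegenerate E L
  set bD : Module.Basis ι E L := (Algebra.traceForm E L).dualBasis hnd bL with hbD
  have hdual : ∀ i j, Algebra.trace E L (bD i * bL j) = if j = i then 1 else 0 := fun i j => by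
    rw [← Algebra.traceForm_apply]
    exact LinearMap.BilinForm.apply_dualBasis_left hnd bL i j
  -- `u • bD i` is in the trace dual of `S`, hence integral
  have hz : ∀ i, IsTraceDual B E (algebraMap B E u • bD i) := by
    intro i Y hY
    obtain ⟨y, rfl⟩ := IsIntegralClosure.isIntegral_iff (A := S) |>.mp hY
    obtain ⟨c, hc⟩ := hgen y
    refine ⟨c i, ?_⟩
    have h1 : algebraMap B E u • bD i * algebraMap S L y =
        ∑ j, algebraMap B E (c j) • (bD i * bL j) := by
      rw [smul_mul_assoc, ← mul_smul_comm, ← algebraMap_smul_S, hc, map_sum, Finset.mul_sum]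
      refine Finset.sum_congr rfl fun j _ => ?_
      rw [algebraMap_smul_S (E := E), mul_smul_comm, hbLi]
    rw [h1, map_sum]
    simp only [map_smul, hdual, smul_eq_mul, mul_ite, mul_one, mul_zero, Finset.sum_ite_eq',
      Finset.mem_univ, if_true]
  have hzint : ∀ i, ∃ z₀ : S, algebraMap S L z₀ = algebraMap B E u • bD i := fun i =>
    IsIntegralClosure.isIntegral_iff (A := S) |>.mp (h.isIntegral_of_isTraceDual (hz i))
  choose z₀ hz₀ using hzint
  choose e he using fun i => hgen (z₀ i)
  -- `e * M₀ = u² • 1`
  have hprod : Matrix.of e * Matrix.of M₀ = (u ^ 2) • (1 : Matrix ι ι B) := by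
    ext i k
    apply hinj
    have h1 : algebraMap B E u ^ 2 • bD i = ∑ j, algebraMap B E (e i j) • bL j := by
      rw [pow_two, mul_smul, ← hz₀ i, ← algebraMap_smul_S, he i, map_sum]
      refine Finset.sum_congr rfl fun j _ => ?_
      rw [algebraMap_smul_S (E := E), hbLi]
    have h2 := congrArg (fun z => Algebra.trace E L (z * bL k)) h1
    simp only [smul_mul_assoc, map_smul, Finset.sum_mul, map_sum, smul_eq_mul, hdual] at h2
    rw [Matrix.mul_apply, map_sum, Matrix.smul_apply, Matrix.one_apply, smul_eq_mul]
    simp only [Matrix.of_apply, map_mul, hM₀]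
    rw [← h2]
    by_cases hik : k = i
    · subst hik; simp
    · have : i ≠ k := fun h => hik h.symm
      simp [hik, this]
  have hdet := congrArg Matrix.det hprod
  rw [Matrix.det_mul, Matrix.det_smul, Matrix.det_one, mul_one] at hdet
  rw [Algebra.discr_def, hdown, ← RingHom.mapMatrix_apply, ← RingHom.map_det]
  refine IsUnit.of_mul_eq_one (Ideal.Quotient.mk _ (Matrix.of e).det) ?_
  rw [← map_mul, mul_comm, hdet, map_pow, map_pow, hu1, one_pow, one_pow]

end Semilocal

section Final

variable {B E L : Type*} [CommRing B] [IsDomain B] [IsIntegrallyClosed B] [IsNoetherianRing B]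
  [Field E] [Algebra B E] [IsFractionRing B E]
  [Field L] [Algebra E L] [Algebra B L] [IsScalarTower B E L] [FiniteDimensional E L]
  [Algebra.IsSeparable E L]
  (S : Type*) [CommRing S] [Algebra B S] [Algebra S L] [IsScalarTower B S L]
  [IsIntegralClosure S B L] [Module.Finite B S]
  {π : B} [IsPrincipalIdealRing (B ⧸ Ideal.span {π})]

/-- **Étale normalisation (L2), comaximality.** Under `Hyp`, if moreover `B/π` is a principal
ideal domain, any two distinct primes of the integral closure `S` minimal over `π S` are
comaximal: the special fibre `Spec S/π` is a disjoint union of its irreducible components. -/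
theorem Hyp.sup_eq_top_of_mem_minimalPrimes (h : Hyp B E L π) {P Q : Ideal S}
    (hP : P ∈ (Ideal.span {algebraMap B S π}).minimalPrimes)
    (hQ : Q ∈ (Ideal.span {algebraMap B S π}).minimalPrimes) (hPQ : P ≠ Q) : P ⊔ Q = ⊤ := by
  classical
  have hπ := h.prime
  have hprime : (Ideal.span {π}).IsPrime := (Ideal.span_singleton_prime hπ.ne_zero).mpr hπ
  have : IsDomain (B ⧸ Ideal.span {π}) := Ideal.Quotient.isDomain _
  have : Module.IsTorsionFree (B ⧸ Ideal.span {π})
      (S ⧸ (Ideal.span {π}).map (algebraMap B S)) := isTorsionFree_quotient (E := E) (L := L) hπ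
  have : Module.Finite B (S ⧸ (Ideal.span {π}).map (algebraMap B S)) :=
    Module.Finite.of_surjective
      (Ideal.Quotient.mkₐ B ((Ideal.span {π}).map (algebraMap B S))).toLinearMap
      Ideal.Quotient.mk_surjective
  have : Module.Finite (B ⧸ Ideal.span {π}) (S ⧸ (Ideal.span {π}).map (algebraMap B S)) :=
    Module.Finite.of_restrictScalars_finite B _ _
  have : Module.Free (B ⧸ Ideal.span {π}) (S ⧸ (Ideal.span {π}).map (algebraMap B S)) :=
    inferInstance
  let sbar := Module.Free.chooseBasis (B ⧸ Ideal.span {π})
    (S ⧸ (Ideal.span {π}).map (algebraMap B S))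
  let s := fun i => Function.surjInv
    (Ideal.Quotient.mk_surjective (I := (Ideal.span {π}).map (algebraMap B S))) (sbar i)
  have hs : ∀ i, Ideal.Quotient.mk _ (s i) = sbar i := fun i => Function.surjInv_eq _ _
  have hunit := isUnit_discr_quotient (E := E) (L := L) sbar s hs h
  -- transfer to the quotient
  rw [← map_span_singleton, Ideal.minimalPrimes_eq_comap] at hP hQ
  obtain ⟨P', hP', rfl⟩ := hP
  obtain ⟨Q', hQ', rfl⟩ := hQ
  have hne : P' ≠ Q' := fun h => hPQ (by rw [h])
  have htop := EtaleCore.sup_eq_top_of_mem_minimalPrimes sbar hunit hP' hQ' hne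
  rw [Ideal.eq_top_iff_one] at htop ⊢
  obtain ⟨a', ha', b', hb', hab⟩ := Submodule.mem_sup.mp htop
  obtain ⟨a, rfl⟩ := Ideal.Quotient.mk_surjective a'
  obtain ⟨b, rfl⟩ := Ideal.Quotient.mk_surjective b'
  have h1 : (1 : S) - (a + b) ∈ (Ideal.span {π}).map (algebraMap B S) := by
    rw [← Ideal.Quotient.eq_zero_iff_mem, map_sub, map_add, map_one, hab, sub_self]
  have h2 : (1 : S) - (a + b) ∈ P'.comap (Ideal.Quotient.mk _) := by
    rw [Ideal.mem_comap, Ideal.Quotient.eq_zero_iff_mem.mpr h1]; exact zero_mem _
  have h3 : (1 : S) = ((1 - (a + b)) + a) + b := by ring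
  rw [h3]
  exact Submodule.add_mem_sup (add_mem h2 (Ideal.mem_comap.mpr ha')) (Ideal.mem_comap.mpr hb')

end Final

end Fermat.Agent.N4.EtaleNormalization
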