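/-
N4 / inputs of the étale normalisation lemma (helper11, for helper13's S28a):

(β) `exists_basis_of_roots` : the hypothesis `Hyp.exists_basis` of `EtaleNormalization.Hyp` from a
    ROOT FORM: a monic `Φ : B[X]` killing a generator `θ` of `L/E`, whose image over some domain
    `W ⊇ B` splits with roots that stay pairwise distinct after a reduction `W → k` killing `π`.
(γ) `traceDual_of_differentIdeal_eq_top` / `traceDual_of_selfDual` : the hypothesis
    `Hyp.traceDual` from étaleness of the integral closure over `A₀ = B[1/π]`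
    (`differentIdeal A₀ C₀ = ⊤`, or self-duality of the integral closure of `A₀` for the trace
    form).
`hyp_of_roots_of_differentIdeal` assembles `EtaleNormalization.Hyp B E L π`.
-/
import Mathlib
import Fermat.Agent.N4.EtaleNormalization

set_option autoImplicit false

open Polynomial IntermediateField

namespace Fermat.Agent.N4.EtaleInputs

section RootForm

variable {B E L W k : Type*} [CommRing B] [IsDomain B] [IsIntegrallyClosed B]
  [Field E] [Algebra B E] [IsFractionRing B E]
  [Field L] [Algebra E L] [Algebra B L] [IsScalarTower B E L] [FiniteDimensional E L]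
  [Algebra.IsSeparable E L] [CommRing W] [IsDomain W] [CommRing k] [IsDomain k]

omit [IsDomain B] in
/-- **(β) Discriminant from a root form.**  `θ` integral over `B` generating `L/E`, killed by a
monic `Φ : B[X]` whose image under an injective `ι : B → W` splits as `∏ (X - r i)`, the roots
having pairwise distinct reductions under `red : W → k`, where `red (ι π) = 0`.  Then the power
basis of `θ` is an integral basis of `L/E` whose discriminant is prime to `π`. -/
theorem exists_basis_of_roots (π : B) (θ : L) (hθ : IsIntegral B θ) (hgen : E⟮θ⟯ = ⊤)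
    (Φ : B[X]) (hroot : aeval θ Φ = 0) (ι : B →+* W) (hι : Function.Injective ι)
    (red : W →+* k) (hπ : red (ι π) = 0) {I : Type*} [Fintype I] (r : I → W)
    (hfac : Φ.map ι = ∏ i, (X - C (r i)))
    (hdist : ∀ i j, i ≠ j → red (r i - r j) ≠ 0) :
    ∃ (n : ℕ) (x : Module.Basis (Fin n) E L), (∀ i, IsIntegral B (x i)) ∧
      ∃ d₁ : B, algebraMap B E d₁ = Algebra.discr E x ∧ ¬ π ∣ d₁ := by
  classical
  have hθE : IsIntegral E θ := hθ.tower_top
  have hadj : Algebra.adjoin E {θ} = ⊤ := by
    rw [← IntermediateField.adjoin_simple_toSubalgebra_of_isAlgebraic hθE.isAlgebraic, hgen,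
      IntermediateField.top_toSubalgebra]
  let pb : PowerBasis E L := PowerBasis.ofAdjoinEqTop hθE hadj
  have hpbgen : pb.gen = θ := PowerBasis.ofAdjoinEqTop_gen hθE hadj
  have hint : ∀ i, IsIntegral B (pb.basis i) := by
    intro i
    rw [pb.basis_eq_pow, hpbgen]
    exact hθ.pow _
  obtain ⟨d₁, hd₁⟩ := IsIntegrallyClosed.isIntegral_iff.mp
    (Algebra.discr_isIntegral (R := B) E hint)
  refine ⟨pb.dim, pb.basis, hint, d₁, hd₁, ?_⟩
  -- the algebraically closed field `M ⊇ W`
  let M := AlgebraicClosure (FractionRing W)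
  have hWM : Function.Injective (algebraMap W M) := by
    rw [IsScalarTower.algebraMap_eq W (FractionRing W) M]
    exact (algebraMap (FractionRing W) M).injective.comp (IsFractionRing.injective W _)
  let g : B →+* M := (algebraMap W M).comp ι
  have hg : Function.Injective g := hWM.comp hι
  let algEM : Algebra E M := (IsFractionRing.lift hg).toAlgebra
  have hEM : ∀ b : B, algebraMap E M (algebraMap B E b) = g b := fun b =>
    IsFractionRing.lift_algebraMap hg b
  -- every embedding sends `θ` to a root
  have hrootM : ∀ σ : L →ₐ[E] M, ∃ i, σ θ = algebraMap W M (r i) := by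
    intro σ
    have h1 : aeval θ (Φ.map (algebraMap B E)) = 0 := by
      rw [aeval_map_algebraMap, hroot]
    have h2 : aeval (σ θ) (Φ.map (algebraMap B E)) = 0 := by
      rw [aeval_algHom_apply, h1, map_zero]
    have h3 : (Φ.map (algebraMap B E)).map (algebraMap E M) =
        ∏ i, (X - C (algebraMap W M (r i))) := by
      rw [Polynomial.map_map]
      have : (algebraMap E M).comp (algebraMap B E) = (algebraMap W M).comp ι := by
        ext b
        exact hEM b
      rw [this, ← Polynomial.map_map, hfac, Polynomial.map_prod]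
      simp
    rw [aeval_def, ← eval_map, h3, eval_prod] at h2
    obtain ⟨i, -, hi⟩ := Finset.prod_eq_zero_iff.mp h2
    refine ⟨i, ?_⟩
    rw [eval_sub, eval_X, eval_C, sub_eq_zero] at hi
    exact hi
  choose idx hidx using hrootM
  have hidx_inj : Function.Injective idx := by
    intro σ σ' h
    apply pb.algHom_ext
    rw [hpbgen, hidx σ, hidx σ', h]
  -- the discriminant formula
  have hcard : Fintype.card (L →ₐ[E] M) = pb.dim := by
    rw [AlgHom.card E L M, pb.finrank]
  let e : Fin pb.dim ≃ (L →ₐ[E] M) := (Fintype.equivFinOfCardEq hcard).symm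
  have hprod := Algebra.discr_powerBasis_eq_prod E M pb e
  rw [← hd₁, hEM] at hprod
  have hιd : ι d₁ = ∏ i : Fin pb.dim, ∏ j ∈ Finset.Ioi i,
      (r (idx (e j)) - r (idx (e i))) ^ 2 := by
    apply hWM
    rw [map_prod]
    refine hprod.trans (Finset.prod_congr rfl fun i _ => ?_)
    rw [map_prod]
    refine Finset.prod_congr rfl fun j _ => ?_
    rw [map_pow, map_sub, hpbgen, hidx, hidx]
  intro hdvd
  obtain ⟨c, rfl⟩ := hdvd
  have h0 : red (ι (π * c)) = 0 := by rw [map_mul, map_mul, hπ, zero_mul]
  rw [hιd, map_prod] at h0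
  obtain ⟨i, -, hi⟩ := Finset.prod_eq_zero_iff.mp h0
  rw [map_prod] at hi
  obtain ⟨j, hj, hij⟩ := Finset.prod_eq_zero_iff.mp hi
  rw [map_pow] at hij
  have hne : idx (e j) ≠ idx (e i) := by
    intro h
    have := e.injective (hidx_inj h)
    rw [Finset.mem_Ioi] at hj
    exact (ne_of_gt hj) this
  exact hdist _ _ hne (pow_eq_zero_iff two_ne_zero |>.mp hij)

end RootForm

/-! ### (γ) the characteristic-zero adapter -/

section TraceDual

open Fermat.Agent.N4.EtaleNormalization

variable {B E L : Type*} [CommRing B] [Field E] [Algebra B E]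
  [Field L] [Algebra E L] [Algebra B L] [IsScalarTower B E L]
  (π : B) (A₀ : Type*) [CommRing A₀] [Algebra B A₀] [IsLocalization.Away π A₀]
  [Algebra A₀ E] [IsScalarTower B A₀ E] [Algebra A₀ L] [IsScalarTower A₀ E L]
  [IsScalarTower B A₀ L]

/-- An element integral over `A₀ = B[1/π]` becomes integral over `B` after multiplication by a
power of `π`. -/
theorem exists_pow_smul_isIntegral {y : L} (hy : IsIntegral A₀ y) :
    ∃ m : ℕ, IsIntegral B (π ^ m • y) := by
  obtain ⟨⟨_, m, rfl⟩, hm⟩ :=
    IsIntegral.exists_multiple_integral_of_isLocalization (Submonoid.powers π) y hy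
  exact ⟨m, hm⟩

omit [IsScalarTower A₀ E L] in
/-- **(γ), self-dual form.**  If the integral closure of `A₀ = B[1/π]` in `L` is its own trace
dual, then the trace dual of the integral closure of `B` is killed by powers of `π`
(`Hyp.traceDual`). -/
theorem traceDual_of_selfDual
    (hself : ∀ z : L, (∀ y : L, IsIntegral A₀ y →
      Algebra.trace E L (z * y) ∈ (algebraMap A₀ E).range) → IsIntegral A₀ z) :
    ∀ z : L, IsTraceDual B E z → ∃ m : ℕ, IsIntegral B (π ^ m • z) := by
  intro z hz
  apply exists_pow_smul_isIntegral π A₀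
  apply hself
  intro y hy
  obtain ⟨m, hm⟩ := exists_pow_smul_isIntegral π A₀ hy
  obtain ⟨b, hb⟩ := hz _ hm
  have hunit : IsUnit (algebraMap B A₀ (π ^ m)) := by
    rw [map_pow]
    exact (IsLocalization.Away.algebraMap_isUnit (S := A₀) π).pow m
  obtain ⟨v, hv⟩ := hunit.exists_left_inv
  refine ⟨v * algebraMap B A₀ b, ?_⟩
  have h1 : Algebra.trace E L (z * π ^ m • y) = algebraMap B E (π ^ m) * Algebra.trace E L (z * y) := by
    rw [Algebra.smul_def, IsScalarTower.algebraMap_apply B E L, ← Algebra.smul_def,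
      mul_smul_comm, map_smul, smul_eq_mul]
  rw [h1] at hb
  rw [map_mul, ← IsScalarTower.algebraMap_apply B A₀ E, hb,
    IsScalarTower.algebraMap_apply B A₀ E, ← mul_assoc, ← map_mul, hv, map_one, one_mul]

end TraceDual

section Different

open Fermat.Agent.N4.EtaleNormalization

variable {B E L : Type*} [CommRing B] [Field E] [Algebra B E]
  [Field L] [Algebra E L] [Algebra B L] [IsScalarTower B E L] [FiniteDimensional E L]
  [Algebra.IsSeparable E L]
  (π : B) (A₀ : Type*) [CommRing A₀] [IsDomain A₀] [IsIntegrallyClosed A₀] [Algebra B A₀]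
  [IsLocalization.Away π A₀]
  [Algebra A₀ E] [IsScalarTower B A₀ E] [IsFractionRing A₀ E] [Algebra A₀ L] [IsScalarTower A₀ E L]
  [IsScalarTower B A₀ L]
  (C₀ : Type*) [CommRing C₀] [IsDedekindDomain C₀] [Algebra A₀ C₀] [Algebra C₀ L]
  [IsScalarTower A₀ C₀ L] [IsIntegralClosure C₀ A₀ L] [IsFractionRing C₀ L]
  [Module.IsTorsionFree A₀ C₀]

/-- **(γ), different form.**  If the different of the integral closure `C₀` of `A₀ = B[1/π]` in
`L` is the unit ideal, then the trace dual of the integral closure of `B` is killed by powers of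
`π` (`Hyp.traceDual`). -/
theorem traceDual_of_differentIdeal_eq_top (hdiff : differentIdeal A₀ C₀ = ⊤) :
    ∀ z : L, IsTraceDual B E z → ∃ m : ℕ, IsIntegral B (π ^ m • z) := by
  apply traceDual_of_selfDual π A₀
  intro z hz
  have h1 := coeSubmodule_differentIdeal A₀ E (L := L) (B := C₀)
  rw [hdiff, IsLocalization.coeSubmodule_top] at h1
  have h2 : (1 : L) ∈ (1 : Submodule C₀ L) / Submodule.traceDual A₀ E (1 : Submodule C₀ L) := by
    rw [← h1]
    exact Submodule.one_le.mp le_rfl
  have hzD : z ∈ Submodule.traceDual A₀ E (1 : Submodule C₀ L) := by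
    rw [Submodule.mem_traceDual]
    intro a ha
    obtain ⟨c, rfl⟩ := Submodule.mem_one.mp ha
    rw [Algebra.traceForm_apply]
    exact hz _ (IsIntegralClosure.isIntegral A₀ L c).algebraMap
  have h3 := Submodule.mem_div_iff_forall_mul_mem.mp h2 z hzD
  rw [one_mul] at h3
  obtain ⟨c, rfl⟩ := Submodule.mem_one.mp h3
  exact (IsIntegralClosure.isIntegral A₀ L c).algebraMap

end Different

/-! ### Assembly -/

section Assembly

open Fermat.Agent.N4.EtaleNormalization

variable {B E L W k : Type*} [CommRing B] [IsDomain B] [IsIntegrallyClosed B]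
  [Field E] [Algebra B E] [IsFractionRing B E]
  [Field L] [Algebra E L] [Algebra B L] [IsScalarTower B E L] [FiniteDimensional E L]
  [Algebra.IsSeparable E L] [CommRing W] [IsDomain W] [CommRing k] [IsDomain k]
  (A₀ : Type*) [CommRing A₀] [IsDomain A₀] [IsIntegrallyClosed A₀] [Algebra B A₀]
  [Algebra A₀ E] [IsScalarTower B A₀ E] [IsFractionRing A₀ E] [Algebra A₀ L] [IsScalarTower A₀ E L]
  [IsScalarTower B A₀ L]
  (C₀ : Type*) [CommRing C₀] [IsDedekindDomain C₀] [Algebra A₀ C₀] [Algebra C₀ L]
  [IsScalarTower A₀ C₀ L] [IsIntegralClosure C₀ A₀ L] [IsFractionRing C₀ L]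
  [Module.IsTorsionFree A₀ C₀]

omit [IsDomain B] in
/-- `EtaleNormalization.Hyp B E L π` from a root form (β) and a trivial different over
`A₀ = B[1/π]` (γ). -/
theorem hyp_of_roots_of_differentIdeal {π : B} (hπ : Prime π) [IsLocalization.Away π A₀]
    (θ : L) (hθ : IsIntegral B θ) (hgen : E⟮θ⟯ = ⊤)
    (Φ : B[X]) (hroot : aeval θ Φ = 0) (ι : B →+* W) (hι : Function.Injective ι)
    (red : W →+* k) (hred : red (ι π) = 0) {I : Type*} [Fintype I] (r : I → W)
    (hfac : Φ.map ι = ∏ i, (X - C (r i)))
    (hdist : ∀ i j, i ≠ j → red (r i - r j) ≠ 0)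
    (hdiff : differentIdeal A₀ C₀ = ⊤) : Hyp B E L π :=
  ⟨hπ, exists_basis_of_roots π θ hθ hgen Φ hroot ι hι red hred r hfac hdist,
    traceDual_of_differentIdeal_eq_top π A₀ C₀ hdiff⟩

end Assembly

end Fermat.Agent.N4.EtaleInputs
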