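/-
N4, block M (helper10), part 6: the hypothesis `Hyp.exists_basis` of the étale normalisation lemma
from the universal root form of the modular polynomial — generic part.

* `revPoly D P` : for `P ∈ ℤ[Y][X]` monic in `X` with `Y`-degrees of the coefficients `≤ D`, the
  "reflected" polynomial `P^rev ∈ ℤ[Z][X]` with `P^rev(z, X) = scaleRoots (P(a, X)) (z^D)` whenever
  `z a = 1` (`map_revPoly`).
* `exists_basis_of_rootForm` (finite chart): `B ∋ j_B`, `ι : B → O'⸨X⸩` injective with
  `ι j_B = j(X^{dN})`, `θ` a generator of `L/E` with `Φ_N(j, θ) = 0`: the power basis of `θ` is an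
  integral basis whose discriminant is prime to `π`, provided `ι π` reduces to `0` in `k'⸨X⸩`.
* `exists_basis_of_rootForm_cusp` (cusp chart): `B ∋ z_B = 1/j`, `ι z_B · j(X^{dN}) = 1`; the
  power basis of `θ' = z^D θ` works.
* `exists_cyclotomic_extension` : a domain `O' ⊇ O` with a root of unity of order `N` and a
  reduction `O' → k'` to a domain killing `π`.
-/
import Mathlib
import Fermat.Agent.N4.Kronecker
import Fermat.Agent.N4.EtaleInputs

set_option autoImplicit false
set_option linter.unusedSectionVars false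
set_option linter.style.haveILetI false

namespace Fermat.Agent.N4.RootFormBasis

open Polynomial ModularCurve MatrixGroups CongruenceSubgroup IntermediateField
open Fermat.Agent.N4.ModPolyDescent Fermat.Agent.N4.PrimitiveDisc Fermat.Agent.N4.Kronecker

/-! ### Reflection of a two-variable polynomial -/

section Reflect

/-- Instance-free evaluation `ℤ[Y] → A`, `Y ↦ a`. -/
noncomputable def evY {A : Type*} [CommRing A] (a : A) : ℤ[X] →+* A :=
  eval₂RingHom (Int.castRingHom A) a

@[simp] theorem evY_X {A : Type*} [CommRing A] (a : A) : evY a X = a := by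
  rw [evY, coe_eval₂RingHom, eval₂_X]

theorem evY_apply {A : Type*} [CommRing A] (a : A) (p : ℤ[X]) :
    evY a p = p.eval₂ (Int.castRingHom A) a := rfl

theorem comp_evY {A A' : Type*} [CommRing A] [CommRing A'] (φ : A →+* A') (a : A) :
    φ.comp (evY a) = evY (φ a) := by
  refine Polynomial.ringHom_ext' (RingHom.ext_int _ _) ?_
  rw [RingHom.comp_apply, evY_X, evY_X]

theorem map_evY {A A' : Type*} [CommRing A] [CommRing A'] (φ : A →+* A') (a : A) (p : ℤ[X]) :
    φ (evY a p) = evY (φ a) p := by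
  rw [← comp_evY, RingHom.comp_apply]

theorem evZ_eq_eval₂_evY {A : Type*} [CommRing A] (a b : A) (P : ℤ[X][X]) :
    evZ a b P = P.eval₂ (evY a) b := rfl

theorem evZ_eq_eval_map {A : Type*} [CommRing A] (a b : A) (P : ℤ[X][X]) :
    evZ a b P = (P.map (evY a)).eval b := by
  rw [evZ_eq_eval₂_evY, eval_map]

theorem evY_reflect {A : Type*} [CommRing A] {a z : A} (h : z * a = 1) (m : ℕ) (c : ℤ[X])
    (hc : c.natDegree ≤ m) : evY z (reflect m c) = z ^ m * evY a c := by
  letI : Invertible a := ⟨z, h, by rw [mul_comm]; exact h⟩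
  have h1 := eval₂_reflect_mul_pow (Int.castRingHom A) a m c hc
  have h2 : (⅟a : A) = z := rfl
  rw [h2] at h1
  rw [evY_apply, evY_apply, ← h1]
  calc eval₂ (Int.castRingHom A) z (reflect m c)
      = eval₂ (Int.castRingHom A) z (reflect m c) * (a * z) ^ m := by
        rw [mul_comm a z, h, one_pow, mul_one]
    _ = z ^ m * (eval₂ (Int.castRingHom A) z (reflect m c) * a ^ m) := by
        rw [mul_pow]; ring

/-- The reflected polynomial `P^rev(Z, X) = ∑_k Z^{D(n-k)} c_k(1/Z) X^k`, `n = deg_X P`. -/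
noncomputable def revPoly (D : ℕ) (P : ℤ[X][X]) : ℤ[X][X] :=
  ∑ k ∈ Finset.range (P.natDegree + 1),
    C (reflect (D * (P.natDegree - k)) (P.coeff k)) * X ^ k

theorem coeff_revPoly (D : ℕ) (P : ℤ[X][X]) (k : ℕ) :
    (revPoly D P).coeff k =
      if k ≤ P.natDegree then reflect (D * (P.natDegree - k)) (P.coeff k) else 0 := by
  rw [revPoly, finsetSum_coeff]
  simp_rw [coeff_C_mul, coeff_X_pow]
  split_ifs with hk
  · rw [Finset.sum_eq_single k]
    · rw [if_pos rfl, mul_one]
    · intro b _ hb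
      rw [if_neg (Ne.symm hb), mul_zero]
    · intro hk'
      exact absurd (Finset.mem_range.mpr (Nat.lt_succ_of_le hk)) hk'
  · apply Finset.sum_eq_zero
    intro b hb
    rw [Finset.mem_range] at hb
    rw [if_neg (by omega), mul_zero]

/-- The bound on the `Y`-degrees of the coefficients. -/
noncomputable def yDeg (P : ℤ[X][X]) : ℕ := P.support.sup fun k => (P.coeff k).natDegree

theorem natDegree_coeff_le_yDeg (P : ℤ[X][X]) (k : ℕ) : (P.coeff k).natDegree ≤ yDeg P := by
  by_cases hk : k ∈ P.support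
  · exact Finset.le_sup (f := fun k => (P.coeff k).natDegree) hk
  · rw [notMem_support_iff.mp hk, natDegree_zero]
    exact Nat.zero_le _

theorem natDegree_coeff_le (P : ℤ[X][X]) (hP : P.Monic) (k : ℕ) :
    (P.coeff k).natDegree ≤ yDeg P * (P.natDegree - k) := by
  rcases lt_trichotomy k P.natDegree with hk | hk | hk
  · calc (P.coeff k).natDegree ≤ yDeg P := natDegree_coeff_le_yDeg P k
      _ = yDeg P * 1 := (mul_one _).symm
      _ ≤ yDeg P * (P.natDegree - k) := Nat.mul_le_mul_left _ (by omega)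
  · rw [hk, hP.coeff_natDegree, natDegree_one]
    exact Nat.zero_le _
  · rw [coeff_eq_zero_of_natDegree_lt hk, natDegree_zero]
    exact Nat.zero_le _

/-- **Reflection = scaling of the roots by `z^D`**, `z = 1/a`. -/
theorem map_revPoly {A : Type*} [CommRing A] [Nontrivial A] {a z : A} (h : z * a = 1)
    (P : ℤ[X][X]) (hP : P.Monic) :
    (revPoly (yDeg P) P).map (evY z) = scaleRoots (P.map (evY a)) (z ^ yDeg P) := by
  have hdeg : (P.map (evY a)).natDegree = P.natDegree := hP.natDegree_map _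
  ext k
  rw [coeff_map, coeff_revPoly, coeff_scaleRoots, hdeg, coeff_map]
  split_ifs with hk
  · rw [evY_reflect h _ _ (natDegree_coeff_le P hP k), ← pow_mul, mul_comm]
  · rw [map_zero, coeff_eq_zero_of_natDegree_lt (not_le.mp hk), map_zero, zero_mul]

theorem revPoly_map_monic {A : Type*} [CommRing A] [Nontrivial A] {a z : A} (h : z * a = 1)
    (P : ℤ[X][X]) (hP : P.Monic) : ((revPoly (yDeg P) P).map (evY z)).Monic := by
  rw [map_revPoly h P hP, monic_scaleRoots_iff]
  exact hP.map _

/-- Scaling the roots of a split monic polynomial. -/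
theorem scaleRoots_prod_X_sub_C {W : Type*} [CommRing W] [IsDomain W] {I : Type*}
    (s : Finset I) (r : I → W) (t : W) :
    scaleRoots (∏ i ∈ s, (X - C (r i))) t = ∏ i ∈ s, (X - C (r i * t)) := by
  classical
  induction s using Finset.induction_on with
  | empty => rw [Finset.prod_empty, Finset.prod_empty, one_scaleRoots]
  | insert i s hi ih =>
    rw [Finset.prod_insert hi, Finset.prod_insert hi, mul_scaleRoots_of_noZeroDivisors,
      X_sub_C_scaleRoots, ih]

end Reflect

/-! ### The roots over `O'⸨X⸩`, `X^{dN} = q` -/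

section Roots

open scoped Fermat.Agent.N4.HeckeRoots

variable (N : ℕ) [NeZero N] (d : ℕ) [NeZero d]
  {O' k' : Type*} [CommRing O'] [CommRing k']

/-- The root form after the substitution `t = X^d`. -/
theorem map_modPoly_eq_prod (u : O'ˣ)
    (hu : (cyclotomic N ℤ).eval₂ (Int.castRingHom O') (u : O') = 0) :
    (modPoly N).map (evY (qExpand O' (d * N) (jqModC O'))) =
      ∏ c : SL(2, ℤ) ⧸ Gamma0 N, (X - C (qExpand O' d (rootOf N u c))) := by
  have h := hasRootForm_of_cyclotomic N O' u hu
  rw [HasRootForm, rootProd] at h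
  have e : evY (qExpand O' (d * N) (jqModC O')) = (qExpand O' d).comp (evJ N O') := by
    rw [evJ, ← qExpand_qExpand]
    exact (comp_evY (qExpand O' d) _).symm
  rw [e, ← Polynomial.map_map, h, Polynomial.map_prod]
  refine Finset.prod_congr rfl fun c _ => ?_
  rw [Polynomial.map_sub, Polynomial.map_X, Polynomial.map_C]

theorem eval₂_cyclotomic_map (ρ : O' →+* k') (u : O'ˣ)
    (hu : (cyclotomic N ℤ).eval₂ (Int.castRingHom O') (u : O') = 0) :
    (cyclotomic N ℤ).eval₂ (Int.castRingHom k')
      ((Units.map ρ.toMonoidHom u : k'ˣ) : k') = 0 := by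
  have h := congrArg ρ hu
  rw [hom_eval₂, map_zero, RingHom.ext_int (ρ.comp (Int.castRingHom O')) (Int.castRingHom k')] at h
  exact h

/-- The roots stay pairwise distinct after reduction. -/
theorem coeffMap_root_sub_ne_zero [Nontrivial k'] (ρ : O' →+* k') (u : O'ˣ)
    (hu : (cyclotomic N ℤ).eval₂ (Int.castRingHom O') (u : O') = 0)
    (hN : IsUnit ((N : ℕ) : k')) {c c' : SL(2, ℤ) ⧸ Gamma0 N} (hcc : c ≠ c') :
    coeffMap ρ (qExpand O' d (rootOf N u c) - qExpand O' d (rootOf N u c')) ≠ 0 := by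
  rw [← map_sub, coeffMap_qExpand, map_sub, coeffMap_rootOf, coeffMap_rootOf]
  intro h
  have h0 := qExpand_injective (R := k') d (h.trans (map_zero _).symm)
  exact hcc (rootOf_injective N _ (eval₂_cyclotomic_map N ρ u hu) hN (sub_eq_zero.mp h0))

end Roots

/-! ### The integral bases -/

section Basis

open scoped Fermat.Agent.N4.HeckeRoots
open Fermat.Agent.N4.EtaleInputs

variable {B E L : Type*} [CommRing B] [IsDomain B] [IsIntegrallyClosed B]
  [Field E] [Algebra B E] [IsFractionRing B E]
  [Field L] [Algebra E L] [Algebra B L] [IsScalarTower B E L] [FiniteDimensional E L]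
  [Algebra.IsSeparable E L]
  (N : ℕ) [NeZero N] (d : ℕ) [NeZero d]
  {O' k' : Type*} [CommRing O'] [IsDomain O'] [CommRing k'] [IsDomain k']

/-- **Finite chart.**  `B ∋ j_B`, `ι : B → O'⸨X⸩` injective with `ι j_B = j(X^{dN})`, `θ` a
generator of `L/E` with `Φ_N(j, θ) = 0`, `O'` containing a root of unity `u` of order `N`,
`ρ : O' → k'` a reduction in which `N` is invertible and with `ρ(ι π) = 0`: the power basis of `θ`
is an integral basis of `L/E` with discriminant prime to `π`. -/
theorem exists_basis_of_rootForm (ρ : O' →+* k') (u : O'ˣ)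
    (hu : (cyclotomic N ℤ).eval₂ (Int.castRingHom O') (u : O') = 0)
    (hN : IsUnit ((N : ℕ) : k')) (π jB : B) (θ : L)
    (hroot : evZ (algebraMap B L jB) θ (modPoly N) = 0) (hgen : E⟮θ⟯ = ⊤)
    (ι : B →+* LaurentSeries O') (hι : Function.Injective ι)
    (hj : ι jB = qExpand O' (d * N) (jqModC O')) (hπ : coeffMap ρ (ι π) = 0) :
    ∃ (n : ℕ) (x : Module.Basis (Fin n) E L), (∀ i, IsIntegral B (x i)) ∧
      ∃ d₁ : B, algebraMap B E d₁ = Algebra.discr E x ∧ ¬ π ∣ d₁ := by
  set Φ : B[X] := (modPoly N).map (evY jB) with hΦ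
  have hΦm : Φ.Monic := (modPoly_monic N).map _
  have hr : aeval θ Φ = 0 := by
    rw [aeval_def, hΦ, eval₂_map, comp_evY]
    exact hroot
  have hθ : IsIntegral B θ := ⟨Φ, hΦm, hr⟩
  have hfac : Φ.map ι = ∏ c : SL(2, ℤ) ⧸ Gamma0 N, (X - C (qExpand O' d (rootOf N u c))) := by
    rw [hΦ, Polynomial.map_map, comp_evY, hj]
    exact map_modPoly_eq_prod N d u hu
  exact exists_basis_of_roots π θ hθ hgen Φ hr ι hι (coeffMap ρ) hπ _ hfac
    (fun c c' hcc => coeffMap_root_sub_ne_zero N d ρ u hu hN hcc)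

/-- **Cusp chart.**  `B ∋ z_B = 1/j` with `ι z_B · j(X^{dN}) = 1`; `θ` a generator of `L/E` with
`Φ_N(j, θ) = 0`.  The power basis of `θ' = z^D θ` is an integral basis of `L/E` with discriminant
prime to `π`. -/
theorem exists_basis_of_rootForm_cusp (ρ : O' →+* k') (u : O'ˣ)
    (hu : (cyclotomic N ℤ).eval₂ (Int.castRingHom O') (u : O') = 0)
    (hN : IsUnit ((N : ℕ) : k')) (π zB : B) (j θ : L)
    (hz : algebraMap B L zB * j = 1)
    (hroot : evZ j θ (modPoly N) = 0) (hgen : E⟮θ⟯ = ⊤)
    (ι : B →+* LaurentSeries O') (hι : Function.Injective ι)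
    (hzι : ι zB * qExpand O' (d * N) (jqModC O') = 1) (hπ : coeffMap ρ (ι π) = 0) :
    ∃ (n : ℕ) (x : Module.Basis (Fin n) E L), (∀ i, IsIntegral B (x i)) ∧
      ∃ d₁ : B, algebraMap B E d₁ = Algebra.discr E x ∧ ¬ π ∣ d₁ := by
  have hP := modPoly_monic N
  set P := modPoly N with hPdef
  set D := yDeg P with hD
  set zL : L := algebraMap B L zB with hzL
  set zE : E := algebraMap B E zB with hzE
  have hzEL : algebraMap E L zE = zL := by
    rw [hzE, hzL, ← IsScalarTower.algebraMap_apply]
  have hzL0 : zL ≠ 0 := left_ne_zero_of_mul_eq_one hz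
  have hzE0 : zE ≠ 0 := by
    intro h0
    apply hzL0
    rw [← hzEL, h0, map_zero]
  have hinj : Function.Injective (algebraMap B L) := by
    rw [IsScalarTower.algebraMap_eq B E L]
    exact (algebraMap E L).injective.comp (IsFractionRing.injective B E)
  set Φ' : B[X] := (revPoly D P).map (evY zB) with hΦ'
  set θ' : L := (zE ^ D) • θ with hθ'
  have hθ'mul : θ' = zL ^ D * θ := by
    rw [hθ', Algebra.smul_def, map_pow, hzEL]
  have h1 : Φ'.map (algebraMap B L) = scaleRoots (P.map (evY j)) (zL ^ D) := by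
    rw [hΦ', Polynomial.map_map, comp_evY]
    exact map_revPoly hz P hP
  have hr' : aeval θ' Φ' = 0 := by
    rw [aeval_def, ← eval_map, h1, hθ'mul, scaleRoots_eval_mul, ← evZ_eq_eval_map, hroot,
      mul_zero]
  have hΦ'm : Φ'.Monic := by
    apply monic_of_injective hinj
    rw [h1, monic_scaleRoots_iff]
    exact hP.map _
  have hθ'int : IsIntegral B θ' := ⟨Φ', hΦ'm, hr'⟩
  have hgen' : E⟮θ'⟯ = ⊤ := by
    rw [eq_top_iff, ← hgen, adjoin_simple_le_iff]
    have hmem : θ' ∈ E⟮θ'⟯ := mem_adjoin_simple_self E θ'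
    have : θ = (zE ^ D)⁻¹ • θ' := by
      rw [hθ', smul_smul, inv_mul_cancel₀ (pow_ne_zero _ hzE0), one_smul]
    rw [this]
    exact (E⟮θ'⟯).smul_mem hmem
  have hfac : Φ'.map ι = ∏ c : SL(2, ℤ) ⧸ Gamma0 N,
      (X - C (qExpand O' d (rootOf N u c) * ι zB ^ D)) := by
    rw [hΦ', Polynomial.map_map, comp_evY, map_revPoly hzι P hP, hPdef,
      map_modPoly_eq_prod N d u hu, scaleRoots_prod_X_sub_C]
  have hzρ : coeffMap ρ (ι zB) ≠ 0 := by
    have h := congrArg (coeffMap ρ) hzι
    rw [map_mul, map_one] at h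
    exact left_ne_zero_of_mul_eq_one h
  refine exists_basis_of_roots π θ' hθ'int hgen' Φ' hr' ι hι (coeffMap ρ) hπ _ hfac ?_
  intro c c' hcc
  rw [← sub_mul, map_mul, map_pow]
  exact mul_ne_zero (coeffMap_root_sub_ne_zero N d ρ u hu hN hcc) (pow_ne_zero _ hzρ)

end Basis

/-! ### The inverse of the `q`-expansion of `j` -/

section JInv

variable (O : Type*) [CommRing O]

/-- The unit part of `j = q⁻¹ (1 + 744 q + ⋯)` over `O`. -/
noncomputable def jUnit : PowerSeries O := ModularCurve.jNum.map (Int.castRingHom O)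

theorem constantCoeff_jUnit : PowerSeries.constantCoeff (jUnit O) = 1 := by
  rw [jUnit, ← PowerSeries.coeff_zero_eq_constantCoeff, PowerSeries.coeff_map,
    PowerSeries.coeff_zero_eq_constantCoeff, ModularCurve.constantCoeff_jNum, eq_intCast,
    Int.cast_one]

/-- The inverse of the unit part. -/
noncomputable def jUnitInv : PowerSeries O := (jUnit O).invOfUnit 1

theorem jUnit_mul_inv : jUnit O * jUnitInv O = 1 :=
  PowerSeries.mul_invOfUnit _ _ (by rw [constantCoeff_jUnit]; rfl)

theorem constantCoeff_jUnitInv : PowerSeries.constantCoeff (jUnitInv O) = 1 := by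
  have h := congrArg (PowerSeries.constantCoeff (R := O)) (jUnit_mul_inv O)
  rwa [map_mul, constantCoeff_jUnit, one_mul, map_one] at h

/-- `v_d(X) = w(X^d)`, `1/j(q) = q w(q)`. -/
noncomputable def vSeries (d : ℕ) [NeZero d] : PowerSeries O :=
  PowerSeries.expand d (NeZero.ne d) (jUnitInv O)

theorem constantCoeff_vSeries (d : ℕ) [NeZero d] :
    PowerSeries.constantCoeff (vSeries O d) = 1 := by
  rw [vSeries, PowerSeries.constantCoeff_expand, constantCoeff_jUnitInv]

/-- `X^d v_d(X) · j(X^d) = 1`. -/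
theorem ofPowerSeries_mul_qExpand_jqModC (d : ℕ) [NeZero d] :
    HahnSeries.ofPowerSeries ℤ O (PowerSeries.X ^ d * vSeries O d) *
      qExpand O d (jqModC O) = 1 := by
  have h1 : qExpand O d (jqModC O) = HahnSeries.single (-(d : ℤ)) (1 : O) *
      HahnSeries.ofPowerSeries ℤ O (PowerSeries.expand d (NeZero.ne d) (jUnit O)) := by
    rw [jqModC, map_mul, qExpand_single, qExpand_ofPowerSeries, mul_neg, mul_one]
    rfl
  have h2 : HahnSeries.ofPowerSeries ℤ O ((PowerSeries.X : PowerSeries O) ^ d) =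
      HahnSeries.single (d : ℤ) (1 : O) := by
    rw [HahnSeries.ofPowerSeries_X_pow]
  have h3 : vSeries O d * PowerSeries.expand d (NeZero.ne d) (jUnit O) = 1 := by
    rw [vSeries, ← map_mul, mul_comm, jUnit_mul_inv, map_one]
  calc HahnSeries.ofPowerSeries ℤ O (PowerSeries.X ^ d * vSeries O d) * qExpand O d (jqModC O)
      = (HahnSeries.single (d : ℤ) (1 : O) * HahnSeries.single (-(d : ℤ)) (1 : O)) *
          HahnSeries.ofPowerSeries ℤ O
            (vSeries O d * PowerSeries.expand d (NeZero.ne d) (jUnit O)) := by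
        rw [h1, map_mul, h2, map_mul]; ring
    _ = 1 := by
        rw [h3, RingHom.map_one, mul_one, HahnSeries.single_mul_single, add_neg_cancel, mul_one]
        rfl

end JInv

/-! ### A cyclotomic extension of the base ring with a reduction -/

section Cyclo

universe u

variable (O : Type u) [CommRing O] [IsDomain O]

/-- The integral closure of `O` in an algebraic closure of its fraction field. -/
abbrev BigInt : Type u := integralClosure O (AlgebraicClosure (FractionRing O))

theorem algebraMap_bigInt_injective : Function.Injective (algebraMap O (BigInt O)) := by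
  have h : Function.Injective (algebraMap O (AlgebraicClosure (FractionRing O))) := by
    rw [IsScalarTower.algebraMap_eq O (FractionRing O) (AlgebraicClosure (FractionRing O))]
    exact (algebraMap (FractionRing O) _).injective.comp (IsFractionRing.injective O _)
  intro a b hab
  apply h
  have := congrArg (fun x : BigInt O => (x : AlgebraicClosure (FractionRing O))) hab
  exact this

/-- A unit of `BigInt O` which is a root of the `N`-th cyclotomic polynomial. -/
theorem exists_cyclotomic_unit (N : ℕ) [NeZero N] :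
    ∃ u : (BigInt O)ˣ, (cyclotomic N ℤ).eval₂ (Int.castRingHom (BigInt O)) (u : BigInt O) = 0 := by
  set Ω := AlgebraicClosure (FractionRing O) with hΩ
  have hdeg : (cyclotomic N Ω).degree ≠ 0 := by
    rw [degree_cyclotomic]
    exact_mod_cast (Nat.totient_pos.mpr (NeZero.pos N)).ne'
  obtain ⟨x, hx⟩ := IsAlgClosed.exists_root (cyclotomic N Ω) hdeg
  have hxN : x ^ N = 1 := by
    have hdvd := cyclotomic.dvd_X_pow_sub_one N Ω
    have h0 : IsRoot (X ^ N - 1 : Polynomial Ω) x := hx.dvd hdvd
    rw [IsRoot.def, eval_sub, eval_pow, eval_X, eval_one, sub_eq_zero] at h0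
    exact h0
  have hxint : IsIntegral O x := by
    refine ⟨X ^ N - 1, monic_X_pow_sub_C 1 (NeZero.ne N), ?_⟩
    rw [eval₂_sub, eval₂_pow, eval₂_X, eval₂_one, hxN, sub_self]
  let y : BigInt O := ⟨x, hxint⟩
  have hyN : y ^ N = 1 := by
    apply Subtype.ext
    rw [SubmonoidClass.coe_pow]
    exact hxN
  refine ⟨Units.ofPowEqOne y N hyN (NeZero.ne N), ?_⟩
  apply Subtype.ext
  rw [Units.val_ofPowEqOne]
  have h1 : ((eval₂ (Int.castRingHom (BigInt O)) y (cyclotomic N ℤ) : BigInt O) : Ω) =
      eval₂ (Int.castRingHom Ω) x (cyclotomic N ℤ) := by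
    have := hom_eval₂ (cyclotomic N ℤ) (Int.castRingHom (BigInt O))
      ((integralClosure O Ω).val : BigInt O →+* Ω) y
    rw [RingHom.ext_int (((integralClosure O Ω).val : BigInt O →+* Ω).comp
      (Int.castRingHom (BigInt O))) (Int.castRingHom Ω)] at this
    exact this
  rw [h1, eval₂_eq_eval_map, map_cyclotomic_int]
  exact hx

/-- A reduction of `BigInt O` to a field killing a given non-unit `π` of `O`. -/
theorem exists_reduction {π : O} (hπ : ¬ IsUnit π) :
    ∃ Q : Ideal (BigInt O), Q.IsMaximal ∧ algebraMap O (BigInt O) π ∈ Q := by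
  have hne : Ideal.span {π} ≠ ⊤ := by
    rwa [Ne, Ideal.span_singleton_eq_top]
  obtain ⟨P, hP, hle⟩ := Ideal.exists_le_maximal _ hne
  haveI := hP
  obtain ⟨Q, hQ, hQP⟩ := Ideal.exists_ideal_over_maximal_of_isIntegral (S := BigInt O) P
    (by
      rw [(RingHom.injective_iff_ker_eq_bot _).mp (algebraMap_bigInt_injective O)]
      exact bot_le)
  refine ⟨Q, hQ, ?_⟩
  have : π ∈ Q.comap (algebraMap O (BigInt O)) := by
    rw [hQP]
    exact hle (Ideal.subset_span rfl)
  exact this

end Cyclo

/-! ### The integral bases from a `q`-expansion homomorphism over the base ring -/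

section Series

universe u

open scoped Fermat.Agent.N4.HeckeRoots

variable {O : Type u} [CommRing O] [IsDomain O]
  {B E L : Type*} [CommRing B] [IsDomain B] [IsIntegrallyClosed B] [Algebra O B]
  [Field E] [Algebra B E] [IsFractionRing B E]
  [Field L] [Algebra E L] [Algebra B L] [IsScalarTower B E L] [FiniteDimensional E L]
  [Algebra.IsSeparable E L]
  (N : ℕ) [NeZero N] (d : ℕ) [NeZero d]

theorem coeffMap_C {R S : Type*} [CommRing R] [CommRing S] (f : R →+* S) (a : R) :
    coeffMap f (HahnSeries.C a : LaurentSeries R) = HahnSeries.C (f a) :=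
  coeffMap_single f 0 a

/-- **Finite chart, over the base ring.**  `ι₀ : B → O⸨X⸩` an injective `q`-expansion
homomorphism with `ι₀ j_B = j(X^{dN})`; `N` invertible in `O`, `π` a non-unit of `O`. -/
theorem exists_basis_of_series (hN : IsUnit ((N : ℕ) : O)) {π : O} (hπ : ¬ IsUnit π)
    (jB : B) (θ : L) (hroot : evZ (algebraMap B L jB) θ (modPoly N) = 0) (hgen : E⟮θ⟯ = ⊤)
    (ι₀ : B →+* LaurentSeries O) (hι₀ : Function.Injective ι₀)
    (hC : ι₀ (algebraMap O B π) = HahnSeries.C π)
    (hj : ι₀ jB = qExpand O (d * N) (jqModC O)) :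
    ∃ (n : ℕ) (x : Module.Basis (Fin n) E L), (∀ i, IsIntegral B (x i)) ∧
      ∃ d₁ : B, algebraMap B E d₁ = Algebra.discr E x ∧ ¬ algebraMap O B π ∣ d₁ := by
  obtain ⟨u, hu⟩ := exists_cyclotomic_unit O N
  obtain ⟨Q, hQ, hπQ⟩ := exists_reduction O hπ
  haveI := hQ.isPrime
  set f : O →+* BigInt O := algebraMap O (BigInt O) with hf
  set ρ : BigInt O →+* BigInt O ⧸ Q := Ideal.Quotient.mk Q with hρ
  have hNk : IsUnit ((N : ℕ) : BigInt O ⧸ Q) := by
    have := hN.map (ρ.comp f)
    rwa [map_natCast] at this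
  set ι : B →+* LaurentSeries (BigInt O) := (coeffMap f).comp ι₀ with hι
  have hιinj : Function.Injective ι :=
    (coeffMap_injective f (algebraMap_bigInt_injective O)).comp hι₀
  have hj' : ι jB = qExpand (BigInt O) (d * N) (jqModC (BigInt O)) := by
    rw [hι, RingHom.comp_apply, hj, coeffMap_qExpand, coeffMap_jqModC]
  have hπ' : coeffMap ρ (ι (algebraMap O B π)) = 0 := by
    rw [hι, RingHom.comp_apply, hC, coeffMap_C, coeffMap_C, hρ,
      Ideal.Quotient.eq_zero_iff_mem.mpr hπQ, map_zero]
  exact exists_basis_of_rootForm N d ρ u hu hNk (algebraMap O B π) jB θ hroot hgen ι hιinj hj' hπ'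

/-- **Cusp chart, over the base ring.**  `ι₀ : B → O⸨X⸩` an injective `q`-expansion
homomorphism with `ι₀ z_B · j(X^{dN}) = 1`, `z_B = 1/j`. -/
theorem exists_basis_of_series_cusp (hN : IsUnit ((N : ℕ) : O)) {π : O} (hπ : ¬ IsUnit π)
    (zB : B) (j θ : L) (hz : algebraMap B L zB * j = 1)
    (hroot : evZ j θ (modPoly N) = 0) (hgen : E⟮θ⟯ = ⊤)
    (ι₀ : B →+* LaurentSeries O) (hι₀ : Function.Injective ι₀)
    (hC : ι₀ (algebraMap O B π) = HahnSeries.C π)
    (hzι : ι₀ zB * qExpand O (d * N) (jqModC O) = 1) :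
    ∃ (n : ℕ) (x : Module.Basis (Fin n) E L), (∀ i, IsIntegral B (x i)) ∧
      ∃ d₁ : B, algebraMap B E d₁ = Algebra.discr E x ∧ ¬ algebraMap O B π ∣ d₁ := by
  obtain ⟨u, hu⟩ := exists_cyclotomic_unit O N
  obtain ⟨Q, hQ, hπQ⟩ := exists_reduction O hπ
  haveI := hQ.isPrime
  set f : O →+* BigInt O := algebraMap O (BigInt O) with hf
  set ρ : BigInt O →+* BigInt O ⧸ Q := Ideal.Quotient.mk Q with hρ
  have hNk : IsUnit ((N : ℕ) : BigInt O ⧸ Q) := by
    have := hN.map (ρ.comp f)
    rwa [map_natCast] at this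
  set ι : B →+* LaurentSeries (BigInt O) := (coeffMap f).comp ι₀ with hι
  have hιinj : Function.Injective ι :=
    (coeffMap_injective f (algebraMap_bigInt_injective O)).comp hι₀
  have hz' : ι zB * qExpand (BigInt O) (d * N) (jqModC (BigInt O)) = 1 := by
    have := congrArg (coeffMap f) hzι
    rwa [map_mul, map_one, coeffMap_qExpand, coeffMap_jqModC] at this
  have hπ' : coeffMap ρ (ι (algebraMap O B π)) = 0 := by
    rw [hι, RingHom.comp_apply, hC, coeffMap_C, coeffMap_C, hρ,
      Ideal.Quotient.eq_zero_iff_mem.mpr hπQ, map_zero]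
  exact exists_basis_of_rootForm_cusp N d ρ u hu hNk (algebraMap O B π) zB j θ hz hroot hgen
    ι hιinj hz' hπ'

end Series

end Fermat.Agent.N4.RootFormBasis
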