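/-
N4, block M (helper10): the `q`-expansion homomorphisms of the chart rings.

For a domain `O`, a power series `e ≡ 1 mod X` and `N ≠ 0`:
* `BtSeries : Bt O t N →+* O⟦X⟧`, `t ↦ X e` (injective, `t` transcendental over `O`);
* `BplusSeries : Bplus O lam →+* O⸨X⸩`, `λ ↦ 16 (X e)^N` (injective, `2 ∈ Oˣ`);
* the Hesse analogues `BtHSeries : BtH O t N →+* O⟦X⟧`, `t ↦ X e`, and
  `BplusHSeries : BplusH O m →+* O⸨X⸩`, `m ↦ (3 (X e)^N)⁻¹` (`3 ∈ Oˣ`).
All of them are ring homomorphisms restricting to the constant-series embedding on `O`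
(`PowerSeries.C`, resp. `HahnSeries.C`); no `O`-algebra structure on the series rings is used.
-/
import Fermat.Agent.N4.LambdaModel
import Fermat.Agent.N4.LambdaSeries
import Fermat.Agent.N4.HesseModel
import Fermat.Agent.N4.HesseSeries

set_option autoImplicit false

namespace Fermat.Agent.N4.PolyAway

open Polynomial

section LiftUnit

variable {R : Type*} [CommRing R] (f : R[X]) {W : Type*} [CommRing W] (φ : R →+* W)

/-- Evaluation at a point `x` of a ring `W` (over `φ : R → W`) with `f(x)` invertible, as a ring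
homomorphism `R[X][1/f] → W`. -/
noncomputable def liftUnit (x : W) (hx : IsUnit (f.eval₂ φ x)) : Localization.Away f →+* W :=
  IsLocalization.Away.lift f (g := Polynomial.eval₂RingHom φ x)
    (show IsUnit (Polynomial.eval₂RingHom φ x f) from hx)

@[simp] theorem liftUnit_algebraMap (x : W) (hx : IsUnit (f.eval₂ φ x)) (g : R[X]) :
    liftUnit f φ x hx (algebraMap R[X] (Localization.Away f) g) = g.eval₂ φ x := by
  have := IsLocalization.Away.lift_eq (S := Localization.Away f) f
    (g := Polynomial.eval₂RingHom φ x) (show IsUnit (Polynomial.eval₂RingHom φ x f) from hx) g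
  exact this

theorem liftUnit_injective (x : W) (hx : IsUnit (f.eval₂ φ x))
    (hinj : Function.Injective (Polynomial.eval₂RingHom φ x)) :
    Function.Injective (liftUnit f φ x hx) := by
  rw [IsLocalization.injective_iff_map_algebraMap_eq (Submonoid.powers f)]
  intro a b
  rw [liftUnit_algebraMap, liftUnit_algebraMap]
  constructor
  · intro h
    have := congrArg (liftUnit f φ x hx) h
    rwa [liftUnit_algebraMap, liftUnit_algebraMap] at this
  · intro h
    have : a = b := hinj h
    rw [this]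

end LiftUnit

section SubalgebraHom

variable {R : Type*} [CommRing R] [IsDomain R] (f : R[X]) {Ω : Type*} [Field Ω] [Algebra R Ω]
  {W : Type*} [CommRing W] (φ : R →+* W)

/-- The ring homomorphism `R[x, 1/f(x)] → W`, `x ↦ y`, for `x ∈ Ω` transcendental and `f(y)`
invertible. -/
noncomputable def adjoinHom (x : Ω) (hx : aeval x f ≠ 0) (htr : Transcendental R x) (y : W)
    (hy : IsUnit (f.eval₂ φ y)) : Algebra.adjoin R {x, (aeval x f)⁻¹} →+* W :=
  (liftUnit f φ y hy).comp
    ((equivAdjoin f x hx htr).symm : Algebra.adjoin R {x, (aeval x f)⁻¹} →+* Localization.Away f)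

theorem adjoinHom_aeval (x : Ω) (hx : aeval x f ≠ 0) (htr : Transcendental R x) (y : W)
    (hy : IsUnit (f.eval₂ φ y)) (g : R[X])
    (hg : aeval x g ∈ Algebra.adjoin R {x, (aeval x f)⁻¹}) :
    adjoinHom f φ x hx htr y hy ⟨aeval x g, hg⟩ = g.eval₂ φ y := by
  have h1 : (equivAdjoin f x hx htr) (algebraMap R[X] (Localization.Away f) g) =
      ⟨aeval x g, hg⟩ := by
    apply Subtype.ext
    rw [coe_equivAdjoin, liftField_algebraMap]
  have h2 : (equivAdjoin f x hx htr).symm ⟨aeval x g, hg⟩ =
      algebraMap R[X] (Localization.Away f) g := by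
    rw [← h1, AlgEquiv.symm_apply_apply]
  rw [adjoinHom, RingHom.comp_apply]
  show liftUnit f φ y hy ((equivAdjoin f x hx htr).symm ⟨aeval x g, hg⟩) = _
  rw [h2, liftUnit_algebraMap]

theorem adjoinHom_algebraMap (x : Ω) (hx : aeval x f ≠ 0) (htr : Transcendental R x) (y : W)
    (hy : IsUnit (f.eval₂ φ y)) (a : R) :
    adjoinHom f φ x hx htr y hy (algebraMap R _ a) = φ a := by
  have hmem : aeval x (C a) ∈ Algebra.adjoin R {x, (aeval x f)⁻¹} := by
    rw [aeval_C]; exact Subalgebra.algebraMap_mem _ a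
  have := adjoinHom_aeval f φ x hx htr y hy (C a) hmem
  rw [eval₂_C] at this
  have e : (algebraMap R (Algebra.adjoin R {x, (aeval x f)⁻¹}) a) = ⟨aeval x (C a), hmem⟩ := by
    apply Subtype.ext
    show (algebraMap R Ω a : Ω) = aeval x (C a)
    rw [aeval_C]
  rw [e]
  exact this

theorem adjoinHom_gen (x : Ω) (hx : aeval x f ≠ 0) (htr : Transcendental R x) (y : W)
    (hy : IsUnit (f.eval₂ φ y)) (hmem : x ∈ Algebra.adjoin R {x, (aeval x f)⁻¹}) :
    adjoinHom f φ x hx htr y hy ⟨x, hmem⟩ = y := by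
  have hmem' : aeval x (X : R[X]) ∈ Algebra.adjoin R {x, (aeval x f)⁻¹} := by
    rw [aeval_X]; exact hmem
  have := adjoinHom_aeval f φ x hx htr y hy X hmem'
  rw [eval₂_X] at this
  have e : (⟨x, hmem⟩ : Algebra.adjoin R {x, (aeval x f)⁻¹}) = ⟨aeval x (X : R[X]), hmem'⟩ := by
    apply Subtype.ext
    show x = aeval x (X : R[X])
    rw [aeval_X]
  rw [e]
  exact this

theorem adjoinHom_injective (x : Ω) (hx : aeval x f ≠ 0) (htr : Transcendental R x) (y : W)
    (hy : IsUnit (f.eval₂ φ y)) (hinj : Function.Injective (Polynomial.eval₂RingHom φ y)) :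
    Function.Injective (adjoinHom f φ x hx htr y hy) := by
  rw [adjoinHom]
  exact (liftUnit_injective f φ y hy hinj).comp (equivAdjoin f x hx htr).symm.injective

end SubalgebraHom

end Fermat.Agent.N4.PolyAway

namespace Fermat.Agent.N4.Series

section Transcendence

variable {O : Type*} [CommRing O] [IsDomain O]

/-- A nonzero power series without constant term is transcendental over the coefficient domain. -/
theorem eval₂_injective_of_constantCoeff_zero (x : PowerSeries O)
    (hx0 : PowerSeries.constantCoeff x = 0) (hx : x ≠ 0) :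
    Function.Injective (Polynomial.eval₂RingHom (PowerSeries.C : O →+* PowerSeries O) x) := by
  rw [injective_iff_map_eq_zero]
  intro P hP
  by_contra hP0
  obtain ⟨Q, hPQ, hQ⟩ := Polynomial.exists_eq_pow_rootMultiplicity_mul_and_not_dvd P hP0 0
  rw [Polynomial.C_0, sub_zero] at hPQ hQ
  rw [hPQ, map_mul, map_pow, Polynomial.coe_eval₂RingHom, Polynomial.eval₂_X] at hP
  have hQ0 : Polynomial.eval₂ (PowerSeries.C : O →+* PowerSeries O) x Q = 0 := by
    rcases mul_eq_zero.mp hP with h | h
    · exact absurd h (pow_ne_zero _ hx)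
    · exact h
  apply hQ
  rw [Polynomial.X_dvd_iff]
  have := congrArg PowerSeries.constantCoeff hQ0
  rw [Polynomial.hom_eval₂, hx0, Polynomial.eval₂_at_zero, map_zero] at this
  simpa using this

/-- The same in the ring of Laurent series. -/
theorem eval₂_coe_injective_of_constantCoeff_zero (x : PowerSeries O)
    (hx0 : PowerSeries.constantCoeff x = 0) (hx : x ≠ 0) :
    Function.Injective (Polynomial.eval₂RingHom (HahnSeries.C : O →+* LaurentSeries O)
      (HahnSeries.ofPowerSeries ℤ O x)) := by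
  have h : ∀ P : Polynomial O, Polynomial.eval₂RingHom (HahnSeries.C : O →+* LaurentSeries O)
      (HahnSeries.ofPowerSeries ℤ O x) P =
      HahnSeries.ofPowerSeries ℤ O (Polynomial.eval₂RingHom (PowerSeries.C) x P) := by
    intro P
    rw [Polynomial.coe_eval₂RingHom, Polynomial.coe_eval₂RingHom, Polynomial.hom_eval₂]
    congr 1
    ext a
    simp
  intro P Q hPQ
  rw [h, h] at hPQ
  exact eval₂_injective_of_constantCoeff_zero x hx0 hx (HahnSeries.ofPowerSeries_injective hPQ)

end Transcendence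

end Fermat.Agent.N4.Series

namespace Fermat.Agent.N4.Lambda

open PolyAway

section Prelim

variable {O : Type*} [CommRing O]

theorem eval₂_cuspDen (y : PowerSeries O) (N : ℕ) :
    (cuspDen O N).eval₂ (PowerSeries.C : O →+* PowerSeries O) y =
      (16 * y ^ N - 1) * ((16 * y ^ N) ^ 2 - 16 * y ^ N + 1) := by
  simp only [cuspDen, Polynomial.eval₂_mul, Polynomial.eval₂_sub, Polynomial.eval₂_add,
    Polynomial.eval₂_pow, Polynomial.eval₂_X, Polynomial.eval₂_one, Polynomial.eval₂_ofNat]

theorem isUnit_eval₂_cuspDen {N : ℕ} (hN : N ≠ 0) (e : PowerSeries O) :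
    IsUnit ((cuspDen O N).eval₂ (PowerSeries.C : O →+* PowerSeries O) (PowerSeries.X * e)) := by
  rw [eval₂_cuspDen]
  exact (isUnit_cusp_sub_one N hN e).mul (isUnit_cusp_quad N hN e)

theorem eval₂_lamDen {W : Type*} [CommRing W] (φ : O →+* W) (y : W) :
    (lamDen O).eval₂ φ y = y * (y - 1) := by
  simp only [lamDen, Polynomial.eval₂_mul, Polynomial.eval₂_sub, Polynomial.eval₂_X,
    Polynomial.eval₂_one]

theorem isUnit_coe_X : IsUnit (HahnSeries.ofPowerSeries ℤ O (PowerSeries.X : PowerSeries O)) := by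
  have := IsLocalization.map_units (LaurentSeries O)
    (⟨PowerSeries.X, Submonoid.mem_powers _⟩ : Submonoid.powers (PowerSeries.X : PowerSeries O))
  rwa [LaurentSeries.coe_algebraMap] at this

theorem isUnit_coe_lamSeries (h2 : IsUnit (2 : O)) (N : ℕ) (e : PowerSeries O)
    (he : PowerSeries.constantCoeff e = 1) :
    IsUnit (HahnSeries.ofPowerSeries ℤ O (16 * (PowerSeries.X * e) ^ N)) := by
  have h16 : IsUnit (16 * e ^ N : PowerSeries O) := by
    rw [PowerSeries.isUnit_iff_constantCoeff, map_mul, map_pow, he, one_pow, mul_one]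
    have : (PowerSeries.constantCoeff (16 : PowerSeries O)) = (2 : O) ^ 4 := by
      have : (16 : PowerSeries O) = PowerSeries.C (16 : O) := by
        rw [map_ofNat]
      rw [this, PowerSeries.constantCoeff_C]
      norm_num
    rw [this]
    exact h2.pow 4
  have e1 : (16 * (PowerSeries.X * e) ^ N : PowerSeries O) = (16 * e ^ N) * PowerSeries.X ^ N := by
    ring
  rw [e1, map_mul, map_pow]
  exact (h16.map _).mul (isUnit_coe_X.pow N)

theorem isUnit_eval₂_lamDen (h2 : IsUnit (2 : O)) {N : ℕ} (hN : N ≠ 0) (e : PowerSeries O)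
    (he : PowerSeries.constantCoeff e = 1) :
    IsUnit ((lamDen O).eval₂ (HahnSeries.C : O →+* LaurentSeries O)
      (HahnSeries.ofPowerSeries ℤ O (16 * (PowerSeries.X * e) ^ N))) := by
  rw [eval₂_lamDen]
  refine (isUnit_coe_lamSeries h2 N e he).mul ?_
  have := (isUnit_cusp_sub_one N hN e).map (HahnSeries.ofPowerSeries ℤ O)
  rwa [map_sub, map_one] at this

theorem lamSeries_ne_zero [Nontrivial O] (h2 : IsUnit (2 : O)) (N : ℕ) (e : PowerSeries O)
    (he : PowerSeries.constantCoeff e = 1) : (16 * (PowerSeries.X * e) ^ N : PowerSeries O) ≠ 0 := by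
  intro h
  have := isUnit_coe_lamSeries h2 N e he
  rw [h, map_zero] at this
  exact not_isUnit_zero this

end Prelim

section BtSeries

variable {O : Type*} [CommRing O] [IsDomain O] {Ω : Type*} [Field Ω] [Algebra O Ω]
  {t : Ω} {N : ℕ}

theorem X_mul_ne_zero (e : PowerSeries O) (he : PowerSeries.constantCoeff e = 1) :
    (PowerSeries.X : PowerSeries O) * e ≠ 0 := by
  have he0 : e ≠ 0 := by
    intro h; rw [h, map_zero] at he; exact zero_ne_one he
  exact mul_ne_zero PowerSeries.X_ne_zero he0

theorem Bt_eq_of_transcendental (hN : N ≠ 0) (htr : Transcendental O t) :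
    Bt O t N = Algebra.adjoin O {t, (Polynomial.aeval t (cuspDen O N))⁻¹} := by
  have hne := aeval_cuspDen_ne_zero hN htr
  rw [aeval_cuspDen] at hne
  exact Bt_eq (left_ne_zero_of_mul hne) (right_ne_zero_of_mul hne)

/-- `B_t` as the model subalgebra `O[t, 1/h(t)]`. -/
noncomputable def BtEquiv (hN : N ≠ 0) (htr : Transcendental O t) :
    Bt O t N ≃ₐ[O] Algebra.adjoin O {t, (Polynomial.aeval t (cuspDen O N))⁻¹} :=
  Subalgebra.equivOfEq _ _ (Bt_eq_of_transcendental hN htr)

/-- **The `q`-expansion homomorphism of the cusp chart**: `B_t → O⟦X⟧`, `t ↦ X e`. -/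
noncomputable def BtSeries (hN : N ≠ 0) (htr : Transcendental O t) (e : PowerSeries O) :
    Bt O t N →+* PowerSeries O :=
  (adjoinHom (cuspDen O N) (PowerSeries.C : O →+* PowerSeries O) t
      (aeval_cuspDen_ne_zero hN htr) htr (PowerSeries.X * e) (isUnit_eval₂_cuspDen hN e)).comp
    (BtEquiv hN htr : Bt O t N →+* Algebra.adjoin O {t, (Polynomial.aeval t (cuspDen O N))⁻¹})

theorem BtSeries_apply (hN : N ≠ 0) (htr : Transcendental O t) (e : PowerSeries O)
    (b : Bt O t N) : BtSeries hN htr e b =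
      adjoinHom (cuspDen O N) (PowerSeries.C : O →+* PowerSeries O) t
        (aeval_cuspDen_ne_zero hN htr) htr (PowerSeries.X * e) (isUnit_eval₂_cuspDen hN e)
        (BtEquiv hN htr b) := rfl

theorem BtSeries_t (hN : N ≠ 0) (htr : Transcendental O t) (e : PowerSeries O) :
    BtSeries hN htr e ⟨t, t_mem_Bt⟩ = PowerSeries.X * e := by
  rw [BtSeries_apply]
  exact adjoinHom_gen (cuspDen O N) _ t _ htr _ _ (Algebra.subset_adjoin (by simp))

theorem BtSeries_algebraMap (hN : N ≠ 0) (htr : Transcendental O t) (e : PowerSeries O) (a : O) :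
    BtSeries hN htr e (algebraMap O (Bt O t N) a) = PowerSeries.C a := by
  rw [BtSeries_apply, AlgEquiv.commutes]
  exact adjoinHom_algebraMap (cuspDen O N) _ t _ htr _ _ a

theorem BtSeries_injective (hN : N ≠ 0) (htr : Transcendental O t) (e : PowerSeries O)
    (he : PowerSeries.constantCoeff e = 1) : Function.Injective (BtSeries hN htr e) := by
  intro a b hab
  rw [BtSeries_apply, BtSeries_apply] at hab
  have hinj := adjoinHom_injective (cuspDen O N) (PowerSeries.C : O →+* PowerSeries O) t
    (aeval_cuspDen_ne_zero hN htr) htr (PowerSeries.X * e) (isUnit_eval₂_cuspDen hN e)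
    (Series.eval₂_injective_of_constantCoeff_zero _ (by simp) (X_mul_ne_zero e he))
  exact (BtEquiv hN htr).injective (hinj hab)

end BtSeries

section BplusSeries

variable {O : Type*} [CommRing O] [IsDomain O] {Ω : Type*} [Field Ω] [Algebra O Ω]
  {lam : Ω}

theorem aeval_lamDen_ne_zero (htr : Transcendental O lam) :
    Polynomial.aeval lam (lamDen O) ≠ 0 := by
  rw [aeval_lamDen]
  exact mul_ne_zero (ne_zero_of_transcendental htr) (sub_one_ne_zero_of_transcendental htr)

/-- `B₊` as the model subalgebra `O[λ, 1/(λ(λ − 1))]`. -/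
noncomputable def BplusEquiv (htr : Transcendental O lam) :
    Bplus O lam ≃ₐ[O] Algebra.adjoin O {lam, (Polynomial.aeval lam (lamDen O))⁻¹} :=
  Subalgebra.equivOfEq _ _ (Bplus_eq (ne_zero_of_transcendental htr)
    (sub_one_ne_zero_of_transcendental htr))

/-- **The `q`-expansion homomorphism of the `λ`-chart**: `B₊ → O⸨X⸩`, `λ ↦ 16 (X e)^N`. -/
noncomputable def BplusSeries (h2 : IsUnit (2 : O)) {N : ℕ} (hN : N ≠ 0)
    (htr : Transcendental O lam) (e : PowerSeries O) (he : PowerSeries.constantCoeff e = 1) :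
    Bplus O lam →+* LaurentSeries O :=
  (adjoinHom (lamDen O) (HahnSeries.C : O →+* LaurentSeries O) lam
      (aeval_lamDen_ne_zero htr) htr (HahnSeries.ofPowerSeries ℤ O (16 * (PowerSeries.X * e) ^ N))
      (isUnit_eval₂_lamDen h2 hN e he)).comp
    (BplusEquiv htr : Bplus O lam →+*
      Algebra.adjoin O {lam, (Polynomial.aeval lam (lamDen O))⁻¹})

theorem BplusSeries_apply (h2 : IsUnit (2 : O)) {N : ℕ} (hN : N ≠ 0)
    (htr : Transcendental O lam) (e : PowerSeries O) (he : PowerSeries.constantCoeff e = 1)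
    (b : Bplus O lam) : BplusSeries h2 hN htr e he b =
      adjoinHom (lamDen O) (HahnSeries.C : O →+* LaurentSeries O) lam
        (aeval_lamDen_ne_zero htr) htr
        (HahnSeries.ofPowerSeries ℤ O (16 * (PowerSeries.X * e) ^ N))
        (isUnit_eval₂_lamDen h2 hN e he) (BplusEquiv htr b) := rfl

theorem BplusSeries_lam (h2 : IsUnit (2 : O)) {N : ℕ} (hN : N ≠ 0)
    (htr : Transcendental O lam) (e : PowerSeries O) (he : PowerSeries.constantCoeff e = 1) :
    BplusSeries h2 hN htr e he ⟨lam, lam_mem_Bplus⟩ =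
      HahnSeries.ofPowerSeries ℤ O (16 * (PowerSeries.X * e) ^ N) := by
  rw [BplusSeries_apply]
  exact adjoinHom_gen (lamDen O) _ lam _ htr _ _ (Algebra.subset_adjoin (by simp))

theorem BplusSeries_algebraMap (h2 : IsUnit (2 : O)) {N : ℕ} (hN : N ≠ 0)
    (htr : Transcendental O lam) (e : PowerSeries O) (he : PowerSeries.constantCoeff e = 1)
    (a : O) : BplusSeries h2 hN htr e he (algebraMap O (Bplus O lam) a) = HahnSeries.C a := by
  rw [BplusSeries_apply, AlgEquiv.commutes]
  exact adjoinHom_algebraMap (lamDen O) _ lam _ htr _ _ a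

theorem BplusSeries_injective (h2 : IsUnit (2 : O)) {N : ℕ} (hN : N ≠ 0)
    (htr : Transcendental O lam) (e : PowerSeries O) (he : PowerSeries.constantCoeff e = 1) :
    Function.Injective (BplusSeries h2 hN htr e he) := by
  intro a b hab
  rw [BplusSeries_apply, BplusSeries_apply] at hab
  have hinj := adjoinHom_injective (lamDen O) (HahnSeries.C : O →+* LaurentSeries O) lam
    (aeval_lamDen_ne_zero htr) htr (HahnSeries.ofPowerSeries ℤ O (16 * (PowerSeries.X * e) ^ N))
    (isUnit_eval₂_lamDen h2 hN e he)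
    (Series.eval₂_coe_injective_of_constantCoeff_zero _ (by simp [hN])
      (lamSeries_ne_zero h2 N e he))
  exact (BplusEquiv htr).injective (hinj hab)

end BplusSeries

end Fermat.Agent.N4.Lambda

namespace Fermat.Agent.N4.Hesse

open PolyAway

section Prelim

variable {O : Type*} [CommRing O]

theorem eval₂_cuspDenH (y : PowerSeries O) (N : ℕ) :
    (cuspDenH O N).eval₂ (PowerSeries.C : O →+* PowerSeries O) y =
      (1 - (3 * y ^ N) ^ 3) * (1 + 8 * (3 * y ^ N) ^ 3) := by
  simp only [cuspDenH, Polynomial.eval₂_mul, Polynomial.eval₂_sub, Polynomial.eval₂_add,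
    Polynomial.eval₂_pow, Polynomial.eval₂_X, Polynomial.eval₂_one, Polynomial.eval₂_ofNat]
  ring

theorem isUnit_eval₂_cuspDenH {N : ℕ} (hN : N ≠ 0) (e : PowerSeries O) :
    IsUnit ((cuspDenH O N).eval₂ (PowerSeries.C : O →+* PowerSeries O) (PowerSeries.X * e)) := by
  rw [eval₂_cuspDenH]
  exact (isUnit_cusp_one_sub N hN e).mul (isUnit_cusp_one_add N hN e)

theorem eval₂_hesseDen {W : Type*} [CommRing W] (φ : O →+* W) (y : W) :
    (hesseDen O).eval₂ φ y = y ^ 3 - 1 := by
  simp only [hesseDen, Polynomial.eval₂_sub, Polynomial.eval₂_pow, Polynomial.eval₂_X,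
    Polynomial.eval₂_one]

theorem isUnit_coe_sSeries (h3 : IsUnit (3 : O)) (N : ℕ) (e : PowerSeries O)
    (he : PowerSeries.constantCoeff e = 1) :
    IsUnit (HahnSeries.ofPowerSeries ℤ O (3 * (PowerSeries.X * e) ^ N)) := by
  have h3e : IsUnit (3 * e ^ N : PowerSeries O) := by
    rw [PowerSeries.isUnit_iff_constantCoeff, map_mul, map_pow, he, one_pow, mul_one]
    have : (PowerSeries.constantCoeff (3 : PowerSeries O)) = (3 : O) := by
      have : (3 : PowerSeries O) = PowerSeries.C (3 : O) := by rw [map_ofNat]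
      rw [this, PowerSeries.constantCoeff_C]
    rw [this]
    exact h3
  have e1 : (3 * (PowerSeries.X * e) ^ N : PowerSeries O) = (3 * e ^ N) * PowerSeries.X ^ N := by
    ring
  rw [e1, map_mul, map_pow]
  exact (h3e.map _).mul (Lambda.isUnit_coe_X.pow N)

/-- The Laurent series `m = 1/(3 (X e)^N)`. -/
noncomputable def mSeries (h3 : IsUnit (3 : O)) (N : ℕ) (e : PowerSeries O)
    (he : PowerSeries.constantCoeff e = 1) : LaurentSeries O :=
  ((isUnit_coe_sSeries h3 N e he).unit⁻¹ : (LaurentSeries O)ˣ)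

theorem sSeries_mul_mSeries (h3 : IsUnit (3 : O)) (N : ℕ) (e : PowerSeries O)
    (he : PowerSeries.constantCoeff e = 1) :
    HahnSeries.ofPowerSeries ℤ O (3 * (PowerSeries.X * e) ^ N) * mSeries h3 N e he = 1 :=
  (isUnit_coe_sSeries h3 N e he).mul_val_inv

theorem isUnit_mSeries (h3 : IsUnit (3 : O)) (N : ℕ) (e : PowerSeries O)
    (he : PowerSeries.constantCoeff e = 1) : IsUnit (mSeries h3 N e he) :=
  ((isUnit_coe_sSeries h3 N e he).unit⁻¹).isUnit

theorem isUnit_eval₂_hesseDen (h3 : IsUnit (3 : O)) {N : ℕ} (hN : N ≠ 0) (e : PowerSeries O)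
    (he : PowerSeries.constantCoeff e = 1) :
    IsUnit ((hesseDen O).eval₂ (HahnSeries.C : O →+* LaurentSeries O) (mSeries h3 N e he)) := by
  rw [eval₂_hesseDen]
  have hsm := sSeries_mul_mSeries h3 N e he
  set s := HahnSeries.ofPowerSeries ℤ O (3 * (PowerSeries.X * e) ^ N) with hs
  set m := mSeries h3 N e he with hm
  have e1 : m ^ 3 - 1 = m ^ 3 * (1 - s ^ 3) := by
    have : (s * m) ^ 3 = 1 := by rw [hsm, one_pow]
    calc m ^ 3 - 1 = m ^ 3 - (s * m) ^ 3 := by rw [this]
      _ = m ^ 3 * (1 - s ^ 3) := by ring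
  rw [e1]
  refine ((isUnit_mSeries h3 N e he).pow 3).mul ?_
  have := (isUnit_cusp_one_sub N hN e).map (HahnSeries.ofPowerSeries ℤ O)
  rwa [map_sub, map_one, map_pow] at this

end Prelim

section BtHSeries

variable {O : Type*} [CommRing O] [IsDomain O] {Ω : Type*} [Field Ω] [Algebra O Ω]
  {t : Ω} {N : ℕ}

theorem BtH_eq_of_transcendental (hN : N ≠ 0) (htr : Transcendental O t) :
    BtH O t N = Algebra.adjoin O {t, (Polynomial.aeval t (cuspDenH O N))⁻¹} := by
  have hne := aeval_cuspDenH_ne_zero hN htr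
  rw [aeval_cuspDenH] at hne
  exact BtH_eq (left_ne_zero_of_mul hne) (right_ne_zero_of_mul hne)

/-- `B_t` as the model subalgebra `O[t, 1/h(t)]`. -/
noncomputable def BtHEquiv (hN : N ≠ 0) (htr : Transcendental O t) :
    BtH O t N ≃ₐ[O] Algebra.adjoin O {t, (Polynomial.aeval t (cuspDenH O N))⁻¹} :=
  Subalgebra.equivOfEq _ _ (BtH_eq_of_transcendental hN htr)

/-- **The `q`-expansion homomorphism of the Hesse cusp chart**: `B_t → O⟦X⟧`, `t ↦ X e`. -/
noncomputable def BtHSeries (hN : N ≠ 0) (htr : Transcendental O t) (e : PowerSeries O) :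
    BtH O t N →+* PowerSeries O :=
  (adjoinHom (cuspDenH O N) (PowerSeries.C : O →+* PowerSeries O) t
      (aeval_cuspDenH_ne_zero hN htr) htr (PowerSeries.X * e) (isUnit_eval₂_cuspDenH hN e)).comp
    (BtHEquiv hN htr : BtH O t N →+*
      Algebra.adjoin O {t, (Polynomial.aeval t (cuspDenH O N))⁻¹})

theorem BtHSeries_apply (hN : N ≠ 0) (htr : Transcendental O t) (e : PowerSeries O)
    (b : BtH O t N) : BtHSeries hN htr e b =
      adjoinHom (cuspDenH O N) (PowerSeries.C : O →+* PowerSeries O) t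
        (aeval_cuspDenH_ne_zero hN htr) htr (PowerSeries.X * e) (isUnit_eval₂_cuspDenH hN e)
        (BtHEquiv hN htr b) := rfl

theorem BtHSeries_t (hN : N ≠ 0) (htr : Transcendental O t) (e : PowerSeries O) :
    BtHSeries hN htr e ⟨t, t_mem_BtH⟩ = PowerSeries.X * e := by
  rw [BtHSeries_apply]
  exact adjoinHom_gen (cuspDenH O N) _ t _ htr _ _ (Algebra.subset_adjoin (by simp))

theorem BtHSeries_algebraMap (hN : N ≠ 0) (htr : Transcendental O t) (e : PowerSeries O)
    (a : O) : BtHSeries hN htr e (algebraMap O (BtH O t N) a) = PowerSeries.C a := by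
  rw [BtHSeries_apply, AlgEquiv.commutes]
  exact adjoinHom_algebraMap (cuspDenH O N) _ t _ htr _ _ a

theorem BtHSeries_injective (hN : N ≠ 0) (htr : Transcendental O t) (e : PowerSeries O)
    (he : PowerSeries.constantCoeff e = 1) : Function.Injective (BtHSeries hN htr e) := by
  intro a b hab
  rw [BtHSeries_apply, BtHSeries_apply] at hab
  have hinj := adjoinHom_injective (cuspDenH O N) (PowerSeries.C : O →+* PowerSeries O) t
    (aeval_cuspDenH_ne_zero hN htr) htr (PowerSeries.X * e) (isUnit_eval₂_cuspDenH hN e)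
    (Series.eval₂_injective_of_constantCoeff_zero _ (by simp) (Lambda.X_mul_ne_zero e he))
  exact (BtHEquiv hN htr).injective (hinj hab)

end BtHSeries

section BplusHSeries

variable {O : Type*} [CommRing O] [IsDomain O] {Ω : Type*} [Field Ω] [Algebra O Ω]
  {m : Ω}

theorem aeval_hesseDen_ne_zero (htr : Transcendental O m) :
    Polynomial.aeval m (hesseDen O) ≠ 0 := by
  intro h
  have h0 : hesseDen O = 0 := (transcendental_iff_injective.mp htr) (by rw [h, map_zero])
  have : (hesseDen O).coeff 3 = 1 := by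
    rw [hesseDen, Polynomial.coeff_sub, Polynomial.coeff_X_pow, Polynomial.coeff_one]
    norm_num
  rw [h0, Polynomial.coeff_zero] at this
  exact zero_ne_one this

/-- `B₊` as the model subalgebra `O[m, 1/(m³ − 1)]`. -/
noncomputable def BplusHEquiv (O : Type*) [CommRing O] {Ω : Type*} [Field Ω] [Algebra O Ω]
    (m : Ω) : BplusH O m ≃ₐ[O] Algebra.adjoin O {m, (Polynomial.aeval m (hesseDen O))⁻¹} :=
  Subalgebra.equivOfEq _ _ (BplusH_eq m)

omit [IsDomain O] in
/-- A unit whose inverse is transcendental (in the `eval₂` sense) is transcendental. -/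
theorem eval₂_injective_of_inv {W : Type*} [CommRing W] (φ : O →+* W) {s y : W} (hsy : s * y = 1)
    (hs : Function.Injective (Polynomial.eval₂RingHom φ s)) :
    Function.Injective (Polynomial.eval₂RingHom φ y) := by
  rw [injective_iff_map_eq_zero]
  intro P hP
  let _ : Invertible y := ⟨s, hsy, by rw [mul_comm]; exact hsy⟩
  have h1 : Polynomial.eval₂ φ (⅟y) P.reverse = 0 :=
    (Polynomial.eval₂_reverse_eq_zero_iff φ y P).mpr hP
  have h2 : (⅟y : W) = s := rfl
  rw [h2] at h1
  have h3 : P.reverse = 0 := by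
    apply hs
    rw [map_zero]
    exact h1
  exact Polynomial.reverse_eq_zero.mp h3

/-- **The `q`-expansion homomorphism of the Hesse chart**: `B₊ → O⸨X⸩`,
`m ↦ 1/(3 (X e)^N)`. -/
noncomputable def BplusHSeries (h3 : IsUnit (3 : O)) {N : ℕ} (hN : N ≠ 0)
    (htr : Transcendental O m) (e : PowerSeries O) (he : PowerSeries.constantCoeff e = 1) :
    BplusH O m →+* LaurentSeries O :=
  (adjoinHom (hesseDen O) (HahnSeries.C : O →+* LaurentSeries O) m
      (aeval_hesseDen_ne_zero htr) htr (mSeries h3 N e he)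
      (isUnit_eval₂_hesseDen h3 hN e he)).comp
    (BplusHEquiv O m : BplusH O m →+*
      Algebra.adjoin O {m, (Polynomial.aeval m (hesseDen O))⁻¹})

theorem BplusHSeries_apply (h3 : IsUnit (3 : O)) {N : ℕ} (hN : N ≠ 0)
    (htr : Transcendental O m) (e : PowerSeries O) (he : PowerSeries.constantCoeff e = 1)
    (b : BplusH O m) : BplusHSeries h3 hN htr e he b =
      adjoinHom (hesseDen O) (HahnSeries.C : O →+* LaurentSeries O) m
        (aeval_hesseDen_ne_zero htr) htr (mSeries h3 N e he)
        (isUnit_eval₂_hesseDen h3 hN e he) (BplusHEquiv O m b) := rfl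

theorem BplusHSeries_m (h3 : IsUnit (3 : O)) {N : ℕ} (hN : N ≠ 0)
    (htr : Transcendental O m) (e : PowerSeries O) (he : PowerSeries.constantCoeff e = 1) :
    BplusHSeries h3 hN htr e he ⟨m, m_mem_BplusH⟩ = mSeries h3 N e he := by
  rw [BplusHSeries_apply]
  exact adjoinHom_gen (hesseDen O) _ m _ htr _ _ (Algebra.subset_adjoin (by simp))

theorem BplusHSeries_algebraMap (h3 : IsUnit (3 : O)) {N : ℕ} (hN : N ≠ 0)
    (htr : Transcendental O m) (e : PowerSeries O) (he : PowerSeries.constantCoeff e = 1)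
    (a : O) : BplusHSeries h3 hN htr e he (algebraMap O (BplusH O m) a) = HahnSeries.C a := by
  rw [BplusHSeries_apply, AlgEquiv.commutes]
  exact adjoinHom_algebraMap (hesseDen O) _ m _ htr _ _ a

theorem sSeries_ne_zero (h3 : IsUnit (3 : O)) (N : ℕ) (e : PowerSeries O)
    (he : PowerSeries.constantCoeff e = 1) : (3 * (PowerSeries.X * e) ^ N : PowerSeries O) ≠ 0 := by
  intro h
  have := isUnit_coe_sSeries h3 N e he
  rw [h, map_zero] at this
  exact not_isUnit_zero this

theorem BplusHSeries_injective (h3 : IsUnit (3 : O)) {N : ℕ} (hN : N ≠ 0)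
    (htr : Transcendental O m) (e : PowerSeries O) (he : PowerSeries.constantCoeff e = 1) :
    Function.Injective (BplusHSeries h3 hN htr e he) := by
  intro a b hab
  rw [BplusHSeries_apply, BplusHSeries_apply] at hab
  have hinj := adjoinHom_injective (hesseDen O) (HahnSeries.C : O →+* LaurentSeries O) m
    (aeval_hesseDen_ne_zero htr) htr (mSeries h3 N e he) (isUnit_eval₂_hesseDen h3 hN e he)
    (eval₂_injective_of_inv _ (sSeries_mul_mSeries h3 N e he)
      (Series.eval₂_coe_injective_of_constantCoeff_zero _ (by simp [hN])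
        (sSeries_ne_zero h3 N e he)))
  exact (BplusHEquiv O m).injective (hinj hab)

end BplusHSeries

end Fermat.Agent.N4.Hesse
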