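/-
N4, block M (helper10), part 7: the hypothesis `Hyp.exists_basis` of the étale normalisation lemma
(`EtaleNormalization.Hyp`) for the four auxiliary charts, from the universal root form of the
modular polynomial (`PrimitiveDisc.hasRootForm_of_cyclotomic`) and the `q`-expansion homomorphisms of
the chart rings (`SeriesEmbed`).

`O` is a domain, `π ∈ O` a non-unit, `N` invertible in `O`; `L` is a field containing the chart
ring `B`, `E` a fraction field of `B` inside `L`, `θ ∈ L` a generator of `L/E` with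
`Φ_N(j, θ) = 0`.

* `exists_basis_lambda` : `B = Bplus O lam`, `Sextic j lam` (`2 ∈ Oˣ`);
* `exists_basis_cusp` : `B = Bt O t N`, `Sextic j (16 t^N)` (`2 ∈ Oˣ`);
* `exists_basis_hesse` : `B = BplusH O m`, `HesseEq j m` (`3 ∈ Oˣ`);
* `exists_basis_hesse_cusp` : `B = BtH O t N`, `HesseEq j (3 t^N)⁻¹` (`3 ∈ Oˣ`).
-/
import Mathlib
import Fermat.Agent.N4.RootFormBasis
import Fermat.Agent.N4.SeriesEmbed

set_option autoImplicit false
set_option linter.unusedSectionVars false

namespace Fermat.Agent.N4.ChartHyp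

open Polynomial ModularCurve IntermediateField
open Fermat.Agent.N4.ModPolyDescent Fermat.Agent.N4.Kronecker Fermat.Agent.N4.RootFormBasis

universe u

/-! ### The `λ`-line (`ℓ` odd) -/

section Lambda

open Fermat.Agent.N4.Lambda

variable {O : Type u} [CommRing O] [IsDomain O] {L : Type*} [Field L] [Algebra O L]

theorem isUnit_256 (h2 : IsUnit (2 : O)) : IsUnit (256 : PowerSeries O) := by
  have h := (h2.map (PowerSeries.C : O →+* PowerSeries O)).pow 8
  rw [map_ofNat] at h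
  have e : (256 : PowerSeries O) = 2 ^ 8 := by norm_num
  rw [e]
  exact h

theorem isUnit_jNum_cusp (h2 : IsUnit (2 : O)) (N : ℕ) (hN0 : N ≠ 0) (e : PowerSeries O) :
    IsUnit (Lambda.jNum (16 * ((PowerSeries.X : PowerSeries O) * e) ^ N)) := by
  rw [Lambda.jNum_def]
  exact (isUnit_256 h2).mul ((isUnit_cusp_quad N hN0 e).pow 3)

/-- The `q`-expansion of `j` on the `λ`-chart. -/
theorem BplusSeries_j {lam j : L} (N : ℕ) [NeZero N] (h2 : IsUnit (2 : O))
    (htr : Transcendental O lam) (hS : Sextic j lam)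
    (e : PowerSeries O) (he : PowerSeries.constantCoeff e = 1)
    (hcusp : Lambda.jDen (16 * ((PowerSeries.X : PowerSeries O) * e) ^ N) =
      Lambda.jNum (16 * ((PowerSeries.X : PowerSeries O) * e) ^ N) *
        ((PowerSeries.X : PowerSeries O) ^ (2 * N) * vSeries O (2 * N))) :
    BplusSeries h2 (NeZero.ne N) htr e he ⟨j, hS.j_mem_Bplus (isUnit_two_field h2)⟩ =
      qExpand O (2 * N) (jqModC O) := by
  have hB : Lambda.jNum (⟨lam, lam_mem_Bplus⟩ : Bplus O lam) =
      (⟨j, hS.j_mem_Bplus (isUnit_two_field h2)⟩ : Bplus O lam) *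
        Lambda.jDen (⟨lam, lam_mem_Bplus⟩ : Bplus O lam) := by
    have hinj : Function.Injective (algebraMap (Bplus O lam) L) := Subtype.val_injective
    apply hinj
    rw [map_mul, map_jNum, map_jDen]
    exact hS
  have hι := congrArg (BplusSeries h2 (NeZero.ne N) htr e he) hB
  rw [map_mul, map_jNum, map_jDen, BplusSeries_lam] at hι
  have hc := congrArg (HahnSeries.ofPowerSeries ℤ O) hcusp
  rw [map_mul, map_jDen, map_jNum] at hc
  have hne : Lambda.jNum (HahnSeries.ofPowerSeries ℤ O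
      (16 * ((PowerSeries.X : PowerSeries O) * e) ^ N)) ≠ 0 := by
    rw [← map_jNum]
    exact ((isUnit_jNum_cusp h2 N (NeZero.ne N) e).map _).ne_zero
  set J := BplusSeries h2 (NeZero.ne N) htr e he ⟨j, hS.j_mem_Bplus (isUnit_two_field h2)⟩ with hJ
  set lamS := HahnSeries.ofPowerSeries ℤ O (16 * ((PowerSeries.X : PowerSeries O) * e) ^ N)
    with hlamS
  set c := HahnSeries.ofPowerSeries ℤ O
    ((PowerSeries.X : PowerSeries O) ^ (2 * N) * vSeries O (2 * N)) with hcdef
  have h1 : J * c = 1 := by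
    have h0 : Lambda.jNum lamS * (1 - J * c) = 0 := by
      rw [mul_sub, mul_one, sub_eq_zero]
      calc Lambda.jNum lamS = J * Lambda.jDen lamS := hι
        _ = J * (Lambda.jNum lamS * c) := by rw [hc]
        _ = Lambda.jNum lamS * (J * c) := by ring
    exact (sub_eq_zero.mp ((mul_eq_zero.mp h0).resolve_left hne)).symm
  have h3 := ofPowerSeries_mul_qExpand_jqModC O (2 * N)
  calc J = J * (c * qExpand O (2 * N) (jqModC O)) := by rw [h3, mul_one]
    _ = (J * c) * qExpand O (2 * N) (jqModC O) := by ring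
    _ = qExpand O (2 * N) (jqModC O) := by rw [h1, one_mul]

/-- **`Hyp.exists_basis` for the `λ`-chart.** -/
theorem exists_basis_lambda {lam j θ : L} (N : ℕ) [NeZero N] (h2 : IsUnit (2 : O))
    (hN : IsUnit ((N : ℕ) : O)) {π : O} (hπ : ¬ IsUnit π)
    (htr : Transcendental O lam) (hS : Sextic j lam) [IsIntegrallyClosed (Bplus O lam)]
    {E : Type*} [Field E] [Algebra (Bplus O lam) E] [IsFractionRing (Bplus O lam) E]
    [Algebra E L] [IsScalarTower (Bplus O lam) E L] [FiniteDimensional E L]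
    [Algebra.IsSeparable E L]
    (hroot : evZ j θ (modPoly N) = 0) (hgen : E⟮θ⟯ = ⊤) :
    ∃ (n : ℕ) (x : Module.Basis (Fin n) E L), (∀ i, IsIntegral (Bplus O lam) (x i)) ∧
      ∃ d₁ : Bplus O lam, algebraMap (Bplus O lam) E d₁ = Algebra.discr E x ∧
        ¬ algebraMap O (Bplus O lam) π ∣ d₁ := by
  obtain ⟨e, he, hcusp⟩ := Lambda.exists_cusp_series h2 N (NeZero.ne N) hN (vSeries O (2 * N))
    (constantCoeff_vSeries O (2 * N))
  exact exists_basis_of_series N 2 hN hπ ⟨j, hS.j_mem_Bplus (isUnit_two_field h2)⟩ θ hroot hgen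
    (BplusSeries h2 (NeZero.ne N) htr e he) (BplusSeries_injective h2 (NeZero.ne N) htr e he)
    (BplusSeries_algebraMap h2 (NeZero.ne N) htr e he π)
    (BplusSeries_j N h2 htr hS e he hcusp)

/-- The `q`-expansion of `1/j` on the cusp chart. -/
theorem BtSeries_inv_j {t j : L} (N : ℕ) [NeZero N] (h2 : IsUnit (2 : O))
    (htr : Transcendental O t) (hS : Sextic j (lamOf t N)) (hj : j ≠ 0)
    (e : PowerSeries O)
    (hcusp : Lambda.jDen (16 * ((PowerSeries.X : PowerSeries O) * e) ^ N) =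
      Lambda.jNum (16 * ((PowerSeries.X : PowerSeries O) * e) ^ N) *
        ((PowerSeries.X : PowerSeries O) ^ (2 * N) * vSeries O (2 * N))) :
    BtSeries (NeZero.ne N) htr e
        ⟨j⁻¹, hS.cuspBase_le_Bt h2 hj (inv_j_mem_cuspBase j _)⟩ =
      (PowerSeries.X : PowerSeries O) ^ (2 * N) * vSeries O (2 * N) := by
  have hlamB : (⟨lamOf t N, lamOf_mem_Bt⟩ : Bt O t N) = 16 * (⟨t, t_mem_Bt⟩ : Bt O t N) ^ N := by
    have hinj : Function.Injective (algebraMap (Bt O t N) L) := Subtype.val_injective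
    apply hinj
    rw [map_mul, map_pow, map_ofNat]
    rfl
  have hB : Lambda.jDen (⟨lamOf t N, lamOf_mem_Bt⟩ : Bt O t N) =
      Lambda.jNum (⟨lamOf t N, lamOf_mem_Bt⟩ : Bt O t N) *
        (⟨j⁻¹, hS.cuspBase_le_Bt h2 hj (inv_j_mem_cuspBase j _)⟩ : Bt O t N) := by
    have hinj : Function.Injective (algebraMap (Bt O t N) L) := Subtype.val_injective
    apply hinj
    rw [map_mul, map_jNum, map_jDen]
    show Lambda.jDen (lamOf t N) = Lambda.jNum (lamOf t N) * j⁻¹
    rw [show Lambda.jNum (lamOf t N) = j * Lambda.jDen (lamOf t N) from hS, mul_comm,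
      inv_mul_cancel_left₀ hj]
  have hι := congrArg (BtSeries (NeZero.ne N) htr e) hB
  rw [map_mul, map_jNum, map_jDen, hlamB, map_mul, map_pow, map_ofNat, BtSeries_t, hcusp] at hι
  exact ((isUnit_jNum_cusp h2 N (NeZero.ne N) e).mul_right_inj.mp hι).symm

/-- **`Hyp.exists_basis` for the cusp chart.** -/
theorem exists_basis_cusp {t j θ : L} (N : ℕ) [NeZero N] (h2 : IsUnit (2 : O))
    (hN : IsUnit ((N : ℕ) : O)) {π : O} (hπ : ¬ IsUnit π)
    (htr : Transcendental O t) (hS : Sextic j (lamOf t N)) (hj : j ≠ 0)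
    [IsIntegrallyClosed (Bt O t N)]
    {E : Type*} [Field E] [Algebra (Bt O t N) E] [IsFractionRing (Bt O t N) E]
    [Algebra E L] [IsScalarTower (Bt O t N) E L] [FiniteDimensional E L]
    [Algebra.IsSeparable E L]
    (hroot : evZ j θ (modPoly N) = 0) (hgen : E⟮θ⟯ = ⊤) :
    ∃ (n : ℕ) (x : Module.Basis (Fin n) E L), (∀ i, IsIntegral (Bt O t N) (x i)) ∧
      ∃ d₁ : Bt O t N, algebraMap (Bt O t N) E d₁ = Algebra.discr E x ∧
        ¬ algebraMap O (Bt O t N) π ∣ d₁ := by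
  obtain ⟨e, he, hcusp⟩ := Lambda.exists_cusp_series h2 N (NeZero.ne N) hN (vSeries O (2 * N))
    (constantCoeff_vSeries O (2 * N))
  have hinj : Function.Injective ((HahnSeries.ofPowerSeries ℤ O).comp
      (BtSeries (NeZero.ne N) htr e)) :=
    HahnSeries.ofPowerSeries_injective.comp (BtSeries_injective (NeZero.ne N) htr e he)
  refine exists_basis_of_series_cusp N 2 hN hπ
    ⟨j⁻¹, hS.cuspBase_le_Bt h2 hj (inv_j_mem_cuspBase j _)⟩ j θ (inv_mul_cancel₀ hj) hroot hgen
    ((HahnSeries.ofPowerSeries ℤ O).comp (BtSeries (NeZero.ne N) htr e)) hinj ?_ ?_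
  · rw [RingHom.comp_apply, BtSeries_algebraMap, HahnSeries.ofPowerSeries_C]
  · rw [RingHom.comp_apply, BtSeries_inv_j N h2 htr hS hj e hcusp]
    exact ofPowerSeries_mul_qExpand_jqModC O (2 * N)

end Lambda

/-! ### The Hesse `μ`-line (`ℓ = 2`) -/

section Hesse

open Fermat.Agent.N4.Hesse

variable {O : Type u} [CommRing O] [IsDomain O] {L : Type*} [Field L] [Algebra O L]

theorem map_jNumH {A A' : Type*} [CommRing A] [CommRing A'] (φ : A →+* A') (a : A) :
    φ (jNumH a) = jNumH (φ a) := by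
  simp only [jNumH_def, map_mul, map_pow, map_add, map_ofNat]

theorem map_jDenH {A A' : Type*} [CommRing A] [CommRing A'] (φ : A →+* A') (a : A) :
    φ (jDenH a) = jDenH (φ a) := by
  simp only [jDenH_def, map_sub, map_pow, map_one]

theorem isUnit_27 (h3 : IsUnit (3 : O)) : IsUnit (27 : PowerSeries O) := by
  have h := (h3.map (PowerSeries.C : O →+* PowerSeries O)).pow 3
  rw [map_ofNat] at h
  have e : (27 : PowerSeries O) = 3 ^ 3 := by norm_num
  rw [e]
  exact h

theorem isUnit_hesse_cusp (h3 : IsUnit (3 : O)) (N : ℕ) (hN0 : N ≠ 0) (e : PowerSeries O) :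
    IsUnit (27 * (1 + 8 * (3 * ((PowerSeries.X : PowerSeries O) * e) ^ N) ^ 3) ^ 3) :=
  (isUnit_27 h3).mul ((isUnit_cusp_one_add N hN0 e).pow 3)

/-- The `q`-expansion of `j` on the Hesse chart. -/
theorem BplusHSeries_j {m j : L} (N : ℕ) [NeZero N] (h3 : IsUnit (3 : O))
    (htr : Transcendental O m) (hH : HesseEq j m)
    (e : PowerSeries O) (he : PowerSeries.constantCoeff e = 1)
    (hcusp : (3 * ((PowerSeries.X : PowerSeries O) * e) ^ N) ^ 3 *
        (1 - (3 * ((PowerSeries.X : PowerSeries O) * e) ^ N) ^ 3) ^ 3 =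
      27 * (1 + 8 * (3 * ((PowerSeries.X : PowerSeries O) * e) ^ N) ^ 3) ^ 3 *
        ((PowerSeries.X : PowerSeries O) ^ (3 * N) * vSeries O (3 * N))) :
    BplusHSeries h3 (NeZero.ne N) htr e he ⟨j, hH.j_mem_BplusH (isUnit_three_field h3)⟩ =
      qExpand O (3 * N) (jqModC O) := by
  have hB : jNumH (⟨m, m_mem_BplusH⟩ : BplusH O m) =
      (⟨j, hH.j_mem_BplusH (isUnit_three_field h3)⟩ : BplusH O m) *
        jDenH (⟨m, m_mem_BplusH⟩ : BplusH O m) := by
    have hinj : Function.Injective (algebraMap (BplusH O m) L) := Subtype.val_injective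
    apply hinj
    rw [map_mul, map_jNumH, map_jDenH]
    exact hH
  have hι := congrArg (BplusHSeries h3 (NeZero.ne N) htr e he) hB
  rw [map_mul, map_jNumH, map_jDenH, BplusHSeries_m] at hι
  have hc := congrArg (HahnSeries.ofPowerSeries ℤ O) hcusp
  simp only [map_mul, map_pow, map_sub, map_add, map_one, map_ofNat] at hc
  have hsm := sSeries_mul_mSeries h3 N e he
  simp only [map_mul, map_pow, map_ofNat] at hsm
  have hunit := (isUnit_hesse_cusp h3 N (NeZero.ne N) e).map (HahnSeries.ofPowerSeries ℤ O)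
  simp only [map_mul, map_pow, map_add, map_one, map_ofNat] at hunit
  set J := BplusHSeries h3 (NeZero.ne N) htr e he ⟨j, hH.j_mem_BplusH (isUnit_three_field h3)⟩
    with hJ
  set x : LaurentSeries O := 3 * (HahnSeries.ofPowerSeries ℤ O PowerSeries.X *
    HahnSeries.ofPowerSeries ℤ O e) ^ N with hx
  set M := mSeries h3 N e he with hM
  set c := HahnSeries.ofPowerSeries ℤ O (PowerSeries.X : PowerSeries O) ^ (3 * N) *
    HahnSeries.ofPowerSeries ℤ O (vSeries O (3 * N)) with hcdef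
  have hms : M * x = 1 := by rw [mul_comm]; exact hsm
  have e1 : (M ^ 3 + 8) * x ^ 3 = 1 + 8 * x ^ 3 := by
    rw [add_mul, ← mul_pow, hms, one_pow]
  have e2 : (M ^ 3 - 1) * x ^ 3 = 1 - x ^ 3 := by
    rw [sub_mul, ← mul_pow, hms, one_pow, one_mul]
  have k1 : jNumH M * x ^ 12 = 27 * (1 + 8 * x ^ 3) ^ 3 := by
    calc jNumH M * x ^ 12 = 27 * (M * x) ^ 3 * ((M ^ 3 + 8) * x ^ 3) ^ 3 := by
          rw [jNumH_def]; ring
      _ = 27 * (1 + 8 * x ^ 3) ^ 3 := by rw [e1, hms, one_pow, mul_one]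
  have k2 : jDenH M * x ^ 12 = x ^ 3 * (1 - x ^ 3) ^ 3 := by
    calc jDenH M * x ^ 12 = x ^ 3 * ((M ^ 3 - 1) * x ^ 3) ^ 3 := by rw [jDenH_def]; ring
      _ = x ^ 3 * (1 - x ^ 3) ^ 3 := by rw [e2]
  have h1 : J * c = 1 := by
    have h0 : (27 * (1 + 8 * x ^ 3) ^ 3) * (1 - J * c) = 0 := by
      rw [mul_sub, mul_one, sub_eq_zero]
      calc 27 * (1 + 8 * x ^ 3) ^ 3 = jNumH M * x ^ 12 := k1.symm
        _ = J * (jDenH M * x ^ 12) := by rw [hι]; ring
        _ = J * (27 * (1 + 8 * x ^ 3) ^ 3 * c) := by rw [k2, hc]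
        _ = 27 * (1 + 8 * x ^ 3) ^ 3 * (J * c) := by ring
    exact (sub_eq_zero.mp ((mul_eq_zero.mp h0).resolve_left hunit.ne_zero)).symm
  have h3' := ofPowerSeries_mul_qExpand_jqModC O (3 * N)
  rw [map_mul, map_pow] at h3'
  calc J = J * (c * qExpand O (3 * N) (jqModC O)) := by rw [h3', mul_one]
    _ = (J * c) * qExpand O (3 * N) (jqModC O) := by ring
    _ = qExpand O (3 * N) (jqModC O) := by rw [h1, one_mul]

/-- **`Hyp.exists_basis` for the Hesse chart.** -/
theorem exists_basis_hesse {m j θ : L} (N : ℕ) [NeZero N] (h3 : IsUnit (3 : O))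
    (hN : IsUnit ((N : ℕ) : O)) {π : O} (hπ : ¬ IsUnit π)
    (htr : Transcendental O m) (hH : HesseEq j m) [IsIntegrallyClosed (BplusH O m)]
    {E : Type*} [Field E] [Algebra (BplusH O m) E] [IsFractionRing (BplusH O m) E]
    [Algebra E L] [IsScalarTower (BplusH O m) E L] [FiniteDimensional E L]
    [Algebra.IsSeparable E L]
    (hroot : evZ j θ (modPoly N) = 0) (hgen : E⟮θ⟯ = ⊤) :
    ∃ (n : ℕ) (x : Module.Basis (Fin n) E L), (∀ i, IsIntegral (BplusH O m) (x i)) ∧
      ∃ d₁ : BplusH O m, algebraMap (BplusH O m) E d₁ = Algebra.discr E x ∧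
        ¬ algebraMap O (BplusH O m) π ∣ d₁ := by
  obtain ⟨e, he, hcusp⟩ := Hesse.exists_cusp_series h3 N (NeZero.ne N) hN (vSeries O (3 * N))
    (constantCoeff_vSeries O (3 * N))
  exact exists_basis_of_series N 3 hN hπ ⟨j, hH.j_mem_BplusH (isUnit_three_field h3)⟩ θ hroot
    hgen (BplusHSeries h3 (NeZero.ne N) htr e he)
    (BplusHSeries_injective h3 (NeZero.ne N) htr e he)
    (BplusHSeries_algebraMap h3 (NeZero.ne N) htr e he π)
    (BplusHSeries_j N h3 htr hH e he hcusp)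

/-- The `q`-expansion of `1/j` on the Hesse cusp chart. -/
theorem BtHSeries_inv_j {t j : L} (N : ℕ) [NeZero N] (h3 : IsUnit (3 : O))
    (htr : Transcendental O t) (hH : HesseEq j (sOf t N)⁻¹) (hj : j ≠ 0)
    (e : PowerSeries O)
    (hcusp : (3 * ((PowerSeries.X : PowerSeries O) * e) ^ N) ^ 3 *
        (1 - (3 * ((PowerSeries.X : PowerSeries O) * e) ^ N) ^ 3) ^ 3 =
      27 * (1 + 8 * (3 * ((PowerSeries.X : PowerSeries O) * e) ^ N) ^ 3) ^ 3 *
        ((PowerSeries.X : PowerSeries O) ^ (3 * N) * vSeries O (3 * N))) :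
    BtHSeries (NeZero.ne N) htr e
        ⟨j⁻¹, hH.cuspBaseH_le_BtH h3 hj (inv_j_mem_cuspBaseH j _)⟩ =
      (PowerSeries.X : PowerSeries O) ^ (3 * N) * vSeries O (3 * N) := by
  have hinj : Function.Injective (algebraMap (BtH O t N) L) := Subtype.val_injective
  have hsB : (⟨sOf t N, sOf_mem_BtH⟩ : BtH O t N) = 3 * (⟨t, t_mem_BtH⟩ : BtH O t N) ^ N := by
    apply hinj
    rw [map_mul, map_pow, map_ofNat]
    rfl
  have hB : (⟨sOf t N, sOf_mem_BtH⟩ : BtH O t N) ^ 3 *
      (1 - (⟨sOf t N, sOf_mem_BtH⟩ : BtH O t N) ^ 3) ^ 3 =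
      27 * (1 + 8 * (⟨sOf t N, sOf_mem_BtH⟩ : BtH O t N) ^ 3) ^ 3 *
        (⟨j⁻¹, hH.cuspBaseH_le_BtH h3 hj (inv_j_mem_cuspBaseH j _)⟩ : BtH O t N) := by
    apply hinj
    simp only [map_mul, map_pow, map_sub, map_add, map_one, map_ofNat]
    have key := hH.inv_j_eq (isUnit_three_field h3) hj
    rw [inv_inv] at key
    show sOf t N ^ 3 * (1 - sOf t N ^ 3) ^ 3 = 27 * (1 + 8 * sOf t N ^ 3) ^ 3 * j⁻¹
    rw [← key]
    ring
  have hι := congrArg (BtHSeries (NeZero.ne N) htr e) hB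
  simp only [map_mul, map_pow, map_sub, map_add, map_one, map_ofNat] at hι
  rw [hsB] at hι
  simp only [map_mul, map_pow, map_ofNat, BtHSeries_t] at hι
  rw [hcusp] at hι
  exact ((isUnit_hesse_cusp h3 N (NeZero.ne N) e).mul_right_inj.mp hι).symm

/-- **`Hyp.exists_basis` for the Hesse cusp chart.** -/
theorem exists_basis_hesse_cusp {t j θ : L} (N : ℕ) [NeZero N] (h3 : IsUnit (3 : O))
    (hN : IsUnit ((N : ℕ) : O)) {π : O} (hπ : ¬ IsUnit π)
    (htr : Transcendental O t) (hH : HesseEq j (sOf t N)⁻¹) (hj : j ≠ 0)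
    [IsIntegrallyClosed (BtH O t N)]
    {E : Type*} [Field E] [Algebra (BtH O t N) E] [IsFractionRing (BtH O t N) E]
    [Algebra E L] [IsScalarTower (BtH O t N) E L] [FiniteDimensional E L]
    [Algebra.IsSeparable E L]
    (hroot : evZ j θ (modPoly N) = 0) (hgen : E⟮θ⟯ = ⊤) :
    ∃ (n : ℕ) (x : Module.Basis (Fin n) E L), (∀ i, IsIntegral (BtH O t N) (x i)) ∧
      ∃ d₁ : BtH O t N, algebraMap (BtH O t N) E d₁ = Algebra.discr E x ∧
        ¬ algebraMap O (BtH O t N) π ∣ d₁ := by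
  obtain ⟨e, he, hcusp⟩ := Hesse.exists_cusp_series h3 N (NeZero.ne N) hN (vSeries O (3 * N))
    (constantCoeff_vSeries O (3 * N))
  have hinj : Function.Injective ((HahnSeries.ofPowerSeries ℤ O).comp
      (BtHSeries (NeZero.ne N) htr e)) :=
    HahnSeries.ofPowerSeries_injective.comp (BtHSeries_injective (NeZero.ne N) htr e he)
  refine exists_basis_of_series_cusp N 3 hN hπ
    ⟨j⁻¹, hH.cuspBaseH_le_BtH h3 hj (inv_j_mem_cuspBaseH j _)⟩ j θ (inv_mul_cancel₀ hj) hroot
    hgen ((HahnSeries.ofPowerSeries ℤ O).comp (BtHSeries (NeZero.ne N) htr e)) hinj ?_ ?_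
  · rw [RingHom.comp_apply, BtHSeries_algebraMap, HahnSeries.ofPowerSeries_C]
  · rw [RingHom.comp_apply, BtHSeries_inv_j N h3 htr hH hj e hcusp]
    exact ofPowerSeries_mul_qExpand_jqModC O (3 * N)

end Hesse

end Fermat.Agent.N4.ChartHyp
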