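/-
N4 block S28a: assembly of the hypotheses of the étale normalisation lemma for a concrete chart.

`LD_of_chart_data` : from
* a subring `B ⊆ L` (integrally closed noetherian domain, `π` prime, `B/π` a PID),
* `θ : L` integral over `B` generating the field `L` together with `B`,
* a root form of a monic `Φ ∈ B[X]` killing `θ` (helper12's `exists_rootData`),
* a Dedekind model `A₀` of `B[1/π]` with trivial different in `L` (helper6's L3),
conclude `LD (π R)` for every integrally closed domain `R ⊆ L` with the same integral closure in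
`L` as `B`.  All the fraction-field plumbing (`E := FractionRing B`) is internal.
-/
import Mathlib
import Fermat.Agent.N4.EtaleInputs
import Fermat.Agent.N4.FibreCharts

set_option autoImplicit false

open Polynomial IntermediateField

namespace Fermat.Agent.N4.HypAssembly

open Fermat.Agent.N4.EtaleNormalization Fermat.Agent.N4.EtaleInputs
  Fermat.Agent.N4.FibreComponents Fermat.Agent.N4.FibreCharts

section

variable {B L : Type*} [CommRing B] [IsDomain B] [IsIntegrallyClosed B] [IsNoetherianRing B]
  [Field L] [CharZero L] [Algebra B L] [FaithfulSMul B L] {π : B}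
  (A₀ : Type*) [CommRing A₀] [IsDedekindDomain A₀] [Algebra B A₀] [IsLocalization.Away π A₀]
  [Algebra A₀ L] [IsScalarTower B A₀ L]
  (C₀ : Type*) [CommRing C₀] [IsDedekindDomain C₀] [Algebra A₀ C₀] [Algebra C₀ L]
  [IsScalarTower A₀ C₀ L] [IsIntegralClosure C₀ A₀ L] [Module.IsTorsionFree A₀ C₀]

/-- **Assembly.** -/
theorem LD_of_chart_data (hπ : Prime π) [IsPrincipalIdealRing (B ⧸ Ideal.span {π})]
    (θ : L) (hθ : IsIntegral B θ)
    (hgen : ∀ S : Subfield L, (∀ b : B, algebraMap B L b ∈ S) → θ ∈ S → S = ⊤)
    {W k : Type*} [CommRing W] [IsDomain W] [CommRing k] [IsDomain k]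
    (Φ : B[X]) (hroot : aeval θ Φ = 0) (ι : B →+* W) (hι : Function.Injective ι)
    (red : W →+* k) (hred : red (ι π) = 0) {I : Type*} [Fintype I] (r : I → W)
    (hfac : Φ.map ι = ∏ i, (X - C (r i))) (hdist : ∀ i j, i ≠ j → red (r i - r j) ≠ 0)
    (hdiff : differentIdeal A₀ C₀ = ⊤)
    {R : Type*} [CommRing R] [IsDomain R] [IsIntegrallyClosed R] [Algebra R L] [FaithfulSMul R L]
    {πR : R} (hππ : algebraMap B L π = algebraMap R L πR)
    (hRB : ∀ x : L, IsIntegral R x ↔ IsIntegral B x) :
    LD (Ideal.span {πR}) := by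
  let E := FractionRing B
  letI algEL : Algebra E L := FractionRing.liftAlgebra B L
  haveI : IsScalarTower B E L := FractionRing.isScalarTower_liftAlgebra B L
  have hθE : IsIntegral E θ := hθ.tower_top
  -- `L = E(θ)`
  have hgenE : E⟮θ⟯ = ⊤ := by
    have h1 := hgen (E⟮θ⟯).toSubfield (fun b => by
      rw [IsScalarTower.algebraMap_apply B E L]
      exact (E⟮θ⟯).algebraMap_mem _) (mem_adjoin_simple_self E θ)
    rw [eq_top_iff]
    intro x _
    have : x ∈ (E⟮θ⟯).toSubfield := by rw [h1]; exact Subfield.mem_top x
    exact this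
  haveI : FiniteDimensional E L := by
    have h1 : FiniteDimensional E E⟮θ⟯ := adjoin.finiteDimensional hθE
    rw [hgenE] at h1
    exact LinearEquiv.finiteDimensional (IntermediateField.topEquiv (F := E) (E := L)).toLinearEquiv
  haveI : CharZero E := (algebraMap E L).charZero
  haveI : Algebra.IsSeparable E L := inferInstance
  -- the plumbing `A₀ → E`
  have hπ0 : π ≠ 0 := hπ.ne_zero
  have hunit : IsUnit (algebraMap B E π) :=
    isUnit_iff_ne_zero.mpr (by simpa using (IsFractionRing.injective B E).ne hπ0)
  letI algAE : Algebra A₀ E := (IsLocalization.Away.lift π (g := algebraMap B E) hunit).toAlgebra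
  haveI : IsScalarTower B A₀ E := IsScalarTower.of_algebraMap_eq (fun b => by
    rw [RingHom.algebraMap_toAlgebra, IsLocalization.Away.lift_eq])
  haveI : IsFractionRing A₀ E :=
    IsFractionRing.isFractionRing_of_isDomain_of_isLocalization (Submonoid.powers π) A₀ E
  haveI : IsScalarTower A₀ E L := IsScalarTower.of_algebraMap_eq' (by
    apply IsLocalization.ringHom_ext (Submonoid.powers π)
    ext b
    simp only [RingHom.comp_apply]
    rw [← IsScalarTower.algebraMap_apply B A₀ L, ← IsScalarTower.algebraMap_apply B A₀ E,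
      ← IsScalarTower.algebraMap_apply B E L])
  -- the integral closure of `A₀`
  haveI : IsFractionRing C₀ L := IsIntegralClosure.isFractionRing_of_finite_extension A₀ E L C₀
  have h : Hyp B E L π :=
    hyp_of_roots_of_differentIdeal A₀ C₀ hπ θ hθ hgenE Φ hroot ι hι red hred r
      hfac hdist hdiff
  exact LD_span_of_hyp hππ h hRB

end

end Fermat.Agent.N4.HypAssembly
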