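/-
N4 block S28a: the input package of one auxiliary chart, and its consequence.

`ChartInput ϖ B P w` bundles everything the étale normalisation lemma needs about a subring
`B ⊆ L` (an `O`-subalgebra of the field `L`), a universal monic polynomial `P ∈ ℤ[Y][X]` and the
value `w ∈ B` of the parameter `Y`:
* ring properties of `B` and of `B/ϖ`;
* a root form of `P(w, X)` over a domain `W ⊇ B`, with pairwise distinct roots modulo `ϖ`;
* a Dedekind model `A₀` of `B[1/ϖ]` whose integral closure in `L` has trivial different.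
`LD_of_chartInput` : if moreover `θ ∈ L` is a root of `P(w, X)` generating `L` together with `B`,
then `LD (ϖ R)` for every integrally closed domain `R ⊆ L` whose integral closure in `L` is that
of `B`.
-/
import Mathlib
import Fermat.Agent.N4.HypAssembly

set_option autoImplicit false

open Polynomial

namespace Fermat.Agent.N4.ChartInput

open Fermat.Agent.N4.FibreComponents Fermat.Agent.N4.HypAssembly

universe u

/-- Evaluation `ℤ[Y] → A`, `Y ↦ a`. -/
noncomputable def evY {A : Type*} [CommRing A] (a : A) : ℤ[X] →+* A :=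
  eval₂RingHom (Int.castRingHom A) a

@[simp] theorem evY_X {A : Type*} [CommRing A] (a : A) : evY a X = a := by
  rw [evY, coe_eval₂RingHom, eval₂_X]

theorem evY_comp {A A' : Type*} [CommRing A] [CommRing A'] (f : A →+* A') (a : A) :
    f.comp (evY a) = evY (f a) := by
  refine Polynomial.ringHom_ext' (RingHom.ext_int _ _) ?_
  rw [RingHom.comp_apply, evY_X, evY_X]

variable {O : Type u} [CommRing O] {L : Type u} [Field L] [Algebra O L]

/-- The input package of an auxiliary chart `B ⊆ L`. -/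
structure Data (ϖ : O) (B : Subalgebra O L) (P : ℤ[X][X]) (w : B) : Prop where
  icl : IsIntegrallyClosed B
  noeth : IsNoetherianRing B
  prime : Prime (algebraMap O B ϖ)
  pid : IsPrincipalIdealRing (B ⧸ Ideal.span {algebraMap O B ϖ})
  roots : ∃ (W k : Type u) (_ : CommRing W) (_ : IsDomain W) (_ : CommRing k) (_ : IsDomain k)
    (ι : B →+* W) (red : W →+* k), Function.Injective ι ∧ red (ι (algebraMap O B ϖ)) = 0 ∧
      ∃ (I : Type) (_ : Fintype I) (r : I → W),
        P.map (ι.comp (evY w)) = ∏ c, (X - C (r c)) ∧ ∀ c c', c ≠ c' → red (r c - r c') ≠ 0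
  char0 : ∃ (A₀ : Type u) (_ : CommRing A₀) (_ : IsDedekindDomain A₀) (_ : Algebra B A₀)
    (_ : IsLocalization.Away (algebraMap O B ϖ) A₀) (_ : Algebra A₀ L) (_ : IsScalarTower B A₀ L)
    (C₀ : Type u) (_ : CommRing C₀) (_ : IsDedekindDomain C₀) (_ : Algebra A₀ C₀)
    (_ : Algebra C₀ L) (_ : IsScalarTower A₀ C₀ L) (_ : IsIntegralClosure C₀ A₀ L)
    (_ : Module.IsTorsionFree A₀ C₀), differentIdeal A₀ C₀ = ⊤

/-- **Consequence of the input package.** -/
theorem LD_of_data [CharZero L] {ϖ : O} {B : Subalgebra O L} {P : ℤ[X][X]} {w : B}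
    (D : Data ϖ B P w) (hP : P.Monic) (θ : L)
    (hPθ : P.eval₂ (evY (w : L)) θ = 0)
    (hgen : ∀ S : Subfield L, (∀ b : B, (b : L) ∈ S) → θ ∈ S → S = ⊤)
    {R : Type*} [CommRing R] [IsDomain R] [IsIntegrallyClosed R] [Algebra R L] [FaithfulSMul R L]
    {πR : R} (hππ : algebraMap O L ϖ = algebraMap R L πR)
    (hRB : ∀ x : L, IsIntegral R x ↔ IsIntegral B x) :
    LD (Ideal.span {πR}) := by
  haveI := D.icl
  haveI := D.noeth
  haveI := D.pid
  obtain ⟨W, k, _, _, _, _, ι, red, hι, hred, I, _, r, hfac, hdist⟩ := D.roots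
  obtain ⟨A₀, _, _, _, _, _, _, C₀, _, _, _, _, _, _, _, hdiff⟩ := D.char0
  -- the polynomial `Φ = P(w, X) ∈ B[X]`
  set Φ : B[X] := P.map (evY w) with hΦ
  have hΦmonic : Φ.Monic := hP.map _
  have hroot : aeval θ Φ = 0 := by
    rw [hΦ, aeval_def, eval₂_map]
    have : (algebraMap B L).comp (evY w) = evY (w : L) := evY_comp _ _
    rw [this]
    exact hPθ
  have hθ : IsIntegral B θ := ⟨Φ, hΦmonic, hroot⟩
  have hfac' : Φ.map ι = ∏ c, (X - C (r c)) := by
    rw [hΦ, Polynomial.map_map]
    exact hfac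
  exact LD_of_chart_data A₀ C₀ D.prime θ hθ hgen Φ hroot ι hι red hred r hfac' hdist hdiff
    (R := R) (πR := πR) hππ hRB

end Fermat.Agent.N4.ChartInput
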