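/-
N4 (S28a, gluing step in concrete form): for the two-chart model of a finite extension `F` of `K(j)`
over a discrete valuation ring `O` (`K = Frac O` of characteristic zero, algebraically closed in `F`),
if the special fibres of the two charts `R₊ = chartAlg O F {j}`, `R₋ = chartAlg O F {j⁻¹}` are reduced
and locally irreducible (`FibreComponents.LD`), then `π R₊` and `π R₋` are PRIME.  All side
hypotheses of the gluing (`H⁰`, `H¹`, localisation, noetherianity, `j` a nonzerodivisor modulo `π`,
nonempty fibre) are discharged here.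

Generic part (Mathlib + `FibreComponents.LD`):
* `exists_component_idempotent`, `isPrime_of_component_idempotent`;
* `isPrime_of_connected` / `isPrime_span_of_connected` : two charts `Ap`, `Am` with common localisation
  `A0 = Ap[1/jp] = Am[1/jm]`, `LD` on both, `jp` a nonzerodivisor modulo the ideal, and the
  connectedness statement of `FormalFunctions.idempotent_mod_eq_zero_or_one` ⇒ BOTH fibre ideals prime.
Chart part:
* `isLocalization_away_pair_left/right` : `chartAlg O F {j, j⁻¹}` is `R₊[1/j]` and `R₋[1/j⁻¹]`;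
* `isIntegralClosure_chartAlg` : `R₊` is the integral closure of `O[X]` (`X ↦ j`) in `F`;
* `mem_span_of_gen_mul_mem` : `j` is a nonzerodivisor on `R₊ / π` (lemma (b) of `EtaleNormalization`);
* `one_not_mem_span_chartAlg` : the special fibre of `R₊` is nonempty;
* `isPrime_fibre_chart` : the statement above.
-/
import Mathlib
import Fermat.Agent.N4.Chart
import Fermat.Agent.N4.IntClosure
import Fermat.Agent.N4.IntClosureCech
import Fermat.Agent.N4.FibreComponents
import Fermat.Agent.N4.EtaleNormalization

set_option autoImplicit false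
set_option linter.style.haveILetI false
set_option linter.unusedSectionVars false

open Polynomial IntermediateField Fermat.Agent.N4.Chart Fermat.Agent.N4.ChartFinite
  Fermat.Agent.N4.IntClosure Fermat.Agent.N4.IntClosureCech Fermat.Agent.N4.FibreComponents

namespace Fermat.Agent.N4.ChartPrime

section LD

variable {S : Type*} [CommRing S]

/-- The idempotent (modulo `I`) cutting out the component `P`. -/
theorem exists_component_idempotent [IsNoetherianRing S] {I : Ideal S} (h : LD I) {P : Ideal S}
    (hP : P ∈ I.minimalPrimes) :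
    ∃ e : S, e - 1 ∈ P ∧ (∀ Q ∈ I.minimalPrimes, Q ≠ P → e ∈ Q) ∧ e ^ 2 - e ∈ I := by
  classical
  have hfin := Ideal.finite_minimalPrimes_of_isNoetherianRing S I
  set T : Finset (Ideal S) := hfin.toFinset.erase P with hT
  have hsup : P ⊔ ⨅ Q ∈ T, (Q : Ideal S) = ⊤ := by
    refine Ideal.sup_iInf_eq_top (J := fun Q : Ideal S => Q) fun Q hQ => ?_
    rw [hT, Finset.mem_erase, Set.Finite.mem_toFinset] at hQ
    exact h.uniBranch.sup_eq_top hP hQ.2 (Ne.symm hQ.1)
  have h1 : (1 : S) ∈ P ⊔ ⨅ Q ∈ T, (Q : Ideal S) := by rw [hsup]; trivial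
  obtain ⟨a, ha, b, hb, hab⟩ := Submodule.mem_sup.mp h1
  have hbQ : ∀ Q ∈ I.minimalPrimes, Q ≠ P → b ∈ Q := by
    intro Q hQ hQP
    have : b ∈ ⨅ Q ∈ T, (Q : Ideal S) := hb
    rw [Ideal.mem_iInf] at this
    have := this Q
    rw [Ideal.mem_iInf] at this
    exact this (by rw [hT, Finset.mem_erase, Set.Finite.mem_toFinset]; exact ⟨hQP, hQ⟩)
  have hb1 : b - 1 ∈ P := by
    have : b - 1 = -a := by rw [← hab]; ring
    rw [this]; exact P.neg_mem ha
  refine ⟨b, hb1, hbQ, ?_⟩
  rw [← h.isRadical.radical, ← Ideal.sInf_minimalPrimes, Ideal.mem_sInf]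
  intro Q hQ
  have hfac : b ^ 2 - b = b * (b - 1) := by ring
  rw [hfac]
  by_cases hQP : Q = P
  · rw [hQP]; exact P.mul_mem_left _ hb1
  · exact Q.mul_mem_right _ (hbQ Q hQ hQP)

/-- If the idempotent of the component `P` is `≡ 1` modulo `I`, then `I = P` is prime. -/
theorem isPrime_of_component_idempotent {I : Ideal S} (h : LD I) {P : Ideal S}
    (hP : P ∈ I.minimalPrimes) {e : S} (he : ∀ Q ∈ I.minimalPrimes, Q ≠ P → e ∈ Q)
    (he1 : e - 1 ∈ I) : I.IsPrime := by
  have huniq : ∀ Q ∈ I.minimalPrimes, Q = P := by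
    intro Q hQ
    by_contra hQP
    have h1 : e ∈ Q := he Q hQ hQP
    have h2 : e - 1 ∈ Q := hQ.1.2 he1
    have : (1 : S) ∈ Q := by
      have : (1 : S) = e - (e - 1) := by ring
      rw [this]; exact Q.sub_mem h1 h2
    exact hQ.1.1.ne_top ((Ideal.eq_top_iff_one Q).mpr this)
  have hmin : I.minimalPrimes = {P} := by
    ext Q
    exact ⟨fun hQ => huniq Q hQ, fun hQ => by rw [Set.mem_singleton_iff.mp hQ]; exact hP⟩
  have : I = P := by
    rw [← h.isRadical.radical, ← Ideal.sInf_minimalPrimes, hmin, sInf_singleton]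
  rw [this]
  exact hP.1.1

end LD

section Loc

variable {R A : Type*} [CommRing R] [CommRing A] (f : R →+* A) (M : Submonoid R)

theorem comap_mem_minimalPrimes (hloc : letI := f.toAlgebra; IsLocalization M A) (I : Ideal R)
    {Q : Ideal A} (hQ : Q ∈ (I.map f).minimalPrimes) : Q.comap f ∈ I.minimalPrimes := by
  letI := f.toAlgebra
  haveI := hloc
  have h := IsLocalization.minimalPrimes_map M A I
  have hQ' : Q ∈ (I.map (algebraMap R A)).minimalPrimes := hQ
  rw [h] at hQ'
  exact hQ'

theorem comap_injective_of_isLocalization (hloc : letI := f.toAlgebra; IsLocalization M A)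
    {Q Q' : Ideal A} (h : Q.comap f = Q'.comap f) : Q = Q' := by
  letI := f.toAlgebra
  haveI := hloc
  have h1 := IsLocalization.map_under M A Q
  have h2 := IsLocalization.map_under M A Q'
  have h' : Q.under R = Q'.under R := h
  rw [← h1, ← h2, h']

theorem isRadical_map_of_isLocalization (hloc : letI := f.toAlgebra; IsLocalization M A)
    {I : Ideal R} (hI : I.IsRadical) : (I.map f).IsRadical := by
  letI := f.toAlgebra
  haveI := hloc
  have h := IsLocalization.map_radical M A I
  rw [hI.radical] at h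
  show (I.map (algebraMap R A)).radical ≤ I.map (algebraMap R A)
  rw [← h]

theorem map_ne_top_of_isLocalization (hloc : letI := f.toAlgebra; IsLocalization M A)
    {I : Ideal R} (hnzd : ∀ m ∈ M, ∀ x, m * x ∈ I → x ∈ I) (hI : (1 : R) ∉ I) :
    I.map f ≠ ⊤ := by
  letI := f.toAlgebra
  haveI := hloc
  intro htop
  have h1 : algebraMap R A 1 ∈ I.map (algebraMap R A) := by
    have : I.map (algebraMap R A) = ⊤ := htop
    rw [this]; trivial
  obtain ⟨m, hm, hmI⟩ := (IsLocalization.algebraMap_mem_map_algebraMap_iff M A I 1).mp h1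
  exact hI (hnzd m hm 1 hmI)

theorem nzd_powers {I : Ideal R} {j : R} (h : ∀ x, j * x ∈ I → x ∈ I) :
    ∀ m ∈ Submonoid.powers j, ∀ x, m * x ∈ I → x ∈ I := by
  rintro _ ⟨n, rfl⟩
  induction n with
  | zero => intro x hx; simpa using hx
  | succ n ih =>
    intro x hx
    apply ih
    apply h
    rw [← mul_assoc, ← pow_succ']
    exact hx

end Loc

section Glue

variable {Ap Am A0 : Type*} [CommRing Ap] [CommRing Am] [CommRing A0]

/-- **Gluing the components of the special fibre.**  Two charts `Ap`, `Am` with common localisation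
`A0 = Ap[1/jp] = Am[1/jm]`, ideals `Ip`, `Im` generating the same ideal of `A0`, both with reduced and
pairwise disjoint components (`LD`), `jp` a nonzerodivisor modulo `Ip`, and the glued fibre connected
(every idempotent pair is trivial): then `Ip` and `Im` are prime. -/
theorem isPrime_of_connected [IsNoetherianRing Ap] [IsNoetherianRing Am]
    (ip : Ap →+* A0) (im : Am →+* A0) (jp : Ap) (jm : Am)
    (hlocp : letI := ip.toAlgebra; IsLocalization.Away jp A0)
    (hlocm : letI := im.toAlgebra; IsLocalization.Away jm A0)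
    {Ip : Ideal Ap} {Im : Ideal Am} (hI : Ip.map ip = Im.map im)
    (hLDp : LD Ip) (hLDm : LD Im)
    (hnzdp : ∀ x, jp * x ∈ Ip → x ∈ Ip)
    (hconn : ∀ ep em, ep ^ 2 - ep ∈ Ip → em ^ 2 - em ∈ Im → ip ep - im em ∈ Ip.map ip →
      (ep ∈ Ip ∧ em ∈ Im) ∨ (ep - 1 ∈ Ip ∧ em - 1 ∈ Im))
    (hne : (1 : Ap) ∉ Ip) : Ip.IsPrime ∧ Im.IsPrime := by
  set I0 : Ideal A0 := Ip.map ip with hI0
  have hI0ne : I0 ≠ ⊤ :=
    map_ne_top_of_isLocalization ip (Submonoid.powers jp) hlocp (nzd_powers hnzdp) hne
  have hI0rad : I0.IsRadical :=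
    isRadical_map_of_isLocalization ip (Submonoid.powers jp) hlocp hLDp.isRadical
  obtain ⟨⟨Q, hQ⟩⟩ := Ideal.nonempty_minimalPrimes hI0ne
  have hP : Q.comap ip ∈ Ip.minimalPrimes :=
    comap_mem_minimalPrimes ip (Submonoid.powers jp) hlocp Ip hQ
  have hP' : Q.comap im ∈ Im.minimalPrimes :=
    comap_mem_minimalPrimes im (Submonoid.powers jm) hlocm Im (hI ▸ hQ)
  obtain ⟨e, he1, heQ, hee⟩ := exists_component_idempotent hLDp hP
  obtain ⟨e', he1', heQ', hee'⟩ := exists_component_idempotent hLDm hP'
  have hcompat : ip e - im e' ∈ I0 := by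
    rw [← hI0rad.radical, ← Ideal.sInf_minimalPrimes, Ideal.mem_sInf]
    intro Q₂ hQ₂
    by_cases hQQ : Q₂ = Q
    · rw [hQQ]
      have h1 : ip e - 1 ∈ Q := by
        have : ip (e - 1) ∈ Q := he1
        simpa using this
      have h2 : im e' - 1 ∈ Q := by
        have : im (e' - 1) ∈ Q := he1'
        simpa using this
      have : ip e - im e' = (ip e - 1) - (im e' - 1) := by ring
      rw [this]; exact Q.sub_mem h1 h2
    · have h1 : e ∈ Q₂.comap ip :=
        heQ _ (comap_mem_minimalPrimes ip (Submonoid.powers jp) hlocp Ip hQ₂) fun h =>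
          hQQ (comap_injective_of_isLocalization ip (Submonoid.powers jp) hlocp h)
      have h2 : e' ∈ Q₂.comap im :=
        heQ' _ (comap_mem_minimalPrimes im (Submonoid.powers jm) hlocm Im (hI ▸ hQ₂)) fun h =>
          hQQ (comap_injective_of_isLocalization im (Submonoid.powers jm) hlocm h)
      exact Q₂.sub_mem h1 h2
  rcases hconn e e' hee hee' hcompat with ⟨h1, -⟩ | ⟨h1, h2⟩
  · exfalso
    have h3 : e ∈ Q.comap ip := hP.1.2 h1
    have : (1 : Ap) ∈ Q.comap ip := by
      have : (1 : Ap) = e - (e - 1) := by ring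
      rw [this]; exact Ideal.sub_mem _ h3 he1
    exact hP.1.1.ne_top ((Ideal.eq_top_iff_one _).mpr this)
  · exact ⟨isPrime_of_component_idempotent hLDp hP heQ h1, isPrime_of_component_idempotent hLDm hP' heQ' h2⟩

end Glue

section GlueAlgebra

variable {O Ap Am A0 : Type*} [CommRing O] [CommRing Ap] [CommRing Am] [CommRing A0]
  [Algebra O Ap] [Algebra O Am] [Algebra O A0]

/-- `isPrime_of_connected` for the ideals generated by `π : O` in `O`-algebras, with the connectedness
hypothesis in the shape of the conclusion of `FormalFunctions.idempotent_mod_eq_zero_or_one`. -/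
theorem isPrime_span_of_connected [IsNoetherianRing Ap] [IsNoetherianRing Am] (π : O)
    (ip : Ap →ₐ[O] A0) (im : Am →ₐ[O] A0) (jp : Ap) (jm : Am)
    (hlocp : letI := ip.toRingHom.toAlgebra; IsLocalization.Away jp A0)
    (hlocm : letI := im.toRingHom.toAlgebra; IsLocalization.Away jm A0)
    (hLDp : LD (Ideal.span {algebraMap O Ap π})) (hLDm : LD (Ideal.span {algebraMap O Am π}))
    (hnzdp : ∀ x, jp * x ∈ Ideal.span {algebraMap O Ap π} → x ∈ Ideal.span {algebraMap O Ap π})
    (hconn : ∀ ep em, ep ^ 2 - ep ∈ Ideal.span {algebraMap O Ap π} →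
      em ^ 2 - em ∈ Ideal.span {algebraMap O Am π} →
      ip ep - im em ∈ Ideal.span {algebraMap O A0 π} →
      (ep ∈ Ideal.span {algebraMap O Ap π} ∧ em ∈ Ideal.span {algebraMap O Am π}) ∨
        (ep - 1 ∈ Ideal.span {algebraMap O Ap π} ∧ em - 1 ∈ Ideal.span {algebraMap O Am π}))
    (hne : (1 : Ap) ∉ Ideal.span {algebraMap O Ap π}) :
    (Ideal.span {algebraMap O Ap π}).IsPrime ∧ (Ideal.span {algebraMap O Am π}).IsPrime := by
  have hp : (Ideal.span {algebraMap O Ap π}).map ip.toRingHom = Ideal.span {algebraMap O A0 π} := by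
    rw [Ideal.map_span, Set.image_singleton]
    congr 2
    exact ip.commutes π
  have hm : (Ideal.span {algebraMap O Am π}).map im.toRingHom = Ideal.span {algebraMap O A0 π} := by
    rw [Ideal.map_span, Set.image_singleton]
    congr 2
    exact im.commutes π
  refine isPrime_of_connected ip.toRingHom im.toRingHom jp jm hlocp hlocm (hp.trans hm.symm)
    hLDp hLDm hnzdp (fun ep em h1 h2 h3 => hconn ep em h1 h2 ?_) hne
  rw [← hp]
  exact h3

end GlueAlgebra



section ChartLoc

variable {O F : Type*} [CommRing O] [Field F] [Algebra O F]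

theorem isLocalization_away_chartIncl' {S S' : Set F} {s : F} (hs : s ∈ S) (hs0 : s ≠ 0)
    (hS' : S' = insert s⁻¹ S) (h : S ⊆ S') :
    letI := (chartIncl (O := O) h).toRingHom.toAlgebra
    IsLocalization.Away (chartGen (O := O) hs) (chartAlg O F S') := by
  subst hS'
  exact isLocalization_away_chartIncl hs hs0

/-- `chartAlg O F {j, j⁻¹} = chartAlg O F {j} [1/j]`. -/
theorem isLocalization_away_pair_left (j : F) (hj : j ≠ 0) :
    letI := (chartIncl (O := O) (subset_pair_left j)).toRingHom.toAlgebra
    IsLocalization.Away (chartGen (O := O) (S := {j}) (Set.mem_singleton j))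
      (chartAlg O F {j, j⁻¹}) :=
  isLocalization_away_chartIncl' (Set.mem_singleton j) hj (Set.pair_comm j j⁻¹) _

/-- `chartAlg O F {j, j⁻¹} = chartAlg O F {j⁻¹} [1/j⁻¹]`. -/
theorem isLocalization_away_pair_right (j : F) (hj : j ≠ 0) :
    letI := (chartIncl (O := O) (subset_pair_right j)).toRingHom.toAlgebra
    IsLocalization.Away (chartGen (O := O) (S := {j⁻¹}) (Set.mem_singleton j⁻¹))
      (chartAlg O F {j, j⁻¹}) :=
  isLocalization_away_chartIncl' (Set.mem_singleton j⁻¹) (inv_ne_zero hj) (by rw [inv_inv]) _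

end ChartLoc

variable {O K F : Type*} [CommRing O] [IsDomain O] [Field K] [Algebra O K] [IsFractionRing O K]
  [Field F] [Algebra K F] [Algebra O F] [IsScalarTower O K F] (j : F)

/-- The algebra structure `O[X] → chartAlg O F {j}`, `X ↦ j`. -/
@[reducible] noncomputable def algPolyChart : Algebra O[X] (chartAlg O F {j}) :=
  ((aeval (chartGen (O := O) (S := {j}) (Set.mem_singleton j)) :
    O[X] →ₐ[O] chartAlg O F {j}) : O[X] →+* chartAlg O F {j}).toAlgebra

theorem coe_aeval_chartGen (p : O[X]) :
    ((aeval (chartGen (O := O) (S := {j}) (Set.mem_singleton j)) p : chartAlg O F {j}) : F) =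
      aeval j p := by
  have := Polynomial.aeval_algHom_apply (chartAlg O F {j}).val
    (chartGen (O := O) (S := {j}) (Set.mem_singleton j)) p
  simpa using this.symm

theorem isScalarTower_polyChart :
    letI := algPolyTop (O := O) j
    letI := algPolyChart (O := O) j
    IsScalarTower O[X] (chartAlg O F {j}) F :=
  letI := algPolyTop (O := O) j
  letI := algPolyChart (O := O) j
  IsScalarTower.of_algebraMap_eq fun p => (coe_aeval_chartGen j p).symm

/-- The chart is the integral closure of `O[X]` (`X ↦ j`) in `F`. -/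
theorem isIntegralClosure_chartAlg :
    letI := algPolyTop (O := O) j
    letI := algPolyChart (O := O) j
    IsIntegralClosure (chartAlg O F {j}) O[X] F :=
  letI := algPolyTop (O := O) j
  letI := algPolyChart (O := O) j
  { algebraMap_injective := Subtype.val_injective
    isIntegral_iff := fun {x} => by
      constructor
      · intro hx
        exact ⟨⟨x, (mem_chartAlg_singleton_iff j).mpr hx⟩, rfl⟩
      · rintro ⟨y, rfl⟩
        exact (mem_chartAlg_singleton_iff j).mp y.2 }

/-- `j` is a nonzerodivisor on the special fibre of the chart `j ≠ ∞`. -/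
theorem mem_span_of_gen_mul_mem [IsIntegrallyClosed O] (hj : Transcendental K j) {π : O}
    (hπ : Prime π) (x : chartAlg O F {j})
    (h : chartGen (O := O) (S := {j}) (Set.mem_singleton j) * x ∈
      Ideal.span {algebraMap O (chartAlg O F {j}) π}) :
    x ∈ Ideal.span {algebraMap O (chartAlg O F {j}) π} := by
  letI := algPolyTop (O := O) j
  letI := algPolyMid (O := O) (K := K) j
  letI := algPolyChart (O := O) j
  haveI := isScalarTower_poly (O := O) (K := K) j
  haveI := isFractionRing_poly (O := O) j hj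
  haveI := isScalarTower_polyChart (O := O) j
  haveI := isIntegralClosure_chartAlg (O := O) j
  haveI : IsIntegrallyClosed O[X] := isIntegrallyClosed_polynomial
  have hCπ : Prime (C π : O[X]) := Polynomial.prime_C_iff.mpr hπ
  have hX : ¬ (C π : O[X]) ∣ X := by
    intro hdvd
    rw [Polynomial.C_dvd_iff_dvd_coeff] at hdvd
    have := hdvd 1
    rw [coeff_X_one] at this
    exact hπ.not_isUnit (isUnit_of_dvd_one this)
  have e1 : algebraMap O[X] (chartAlg O F {j}) (C π) = algebraMap O (chartAlg O F {j}) π := by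
    rw [RingHom.algebraMap_toAlgebra]
    exact aeval_C _ π
  have e2 : (X : O[X]) • x = chartGen (O := O) (S := {j}) (Set.mem_singleton j) * x := by
    rw [Algebra.smul_def, RingHom.algebraMap_toAlgebra]
    congr 1
    exact aeval_X _
  rw [Ideal.mem_span_singleton] at h ⊢
  rw [← e1] at h ⊢
  rw [← e2] at h
  exact EtaleNormalization.dvd_of_dvd_smul K⟮j⟯ F hCπ hX h

/-- The special fibre of the chart is nonempty. -/
theorem one_not_mem_span_chartAlg [IsIntegrallyClosed O] (hj : Transcendental K j) {π : O}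
    (hπ : ¬ IsUnit π) (hπ0 : π ≠ 0) :
    (1 : chartAlg O F {j}) ∉ Ideal.span {algebraMap O (chartAlg O F {j}) π} := by
  intro h
  rw [Ideal.mem_span_singleton] at h
  obtain ⟨x, hx⟩ := h
  have hπK : algebraMap O K π ≠ 0 := by
    simpa using (IsFractionRing.injective O K).ne hπ0
  have hxF : (x : F) = algebraMap K F (algebraMap O K π)⁻¹ := by
    have h1 := congrArg (fun z : chartAlg O F {j} => (z : F)) hx
    simp only [Subalgebra.coe_one, Subalgebra.coe_mul, Subalgebra.coe_algebraMap] at h1
    rw [IsScalarTower.algebraMap_apply O K F] at h1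
    rw [map_inv₀]
    exact eq_inv_of_mul_eq_one_right h1.symm
  have hint : IsIntegral O (algebraMap O K π)⁻¹ :=
    isIntegral_of_algebraMap_mem_chartAlg (O := O) j hj (hxF ▸ x.2)
  obtain ⟨z, hz⟩ := IsIntegrallyClosed.isIntegral_iff.mp hint
  apply hπ
  refine IsUnit.of_mul_eq_one z (IsFractionRing.injective O K ?_)
  rw [map_mul, hz, map_one, mul_inv_cancel₀ hπK]

/-- **The fibre ideals of both charts are prime** as soon as both special fibres are reduced with
pairwise disjoint components. -/
theorem isPrime_fibre_chart [IsDiscreteValuationRing O] [CharZero K]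
    (hj : Transcendental K j) [FiniteDimensional K⟮j⟯ F]
    (halg : ∀ x : F, IsAlgebraic K x → x ∈ (algebraMap K F).range)
    {π : O} (hπ : Irreducible π)
    (hLDp : LD (Ideal.span {algebraMap O (chartAlg O F {j}) π}))
    (hLDm : LD (Ideal.span {algebraMap O (chartAlg O F {j⁻¹}) π})) :
    (Ideal.span {algebraMap O (chartAlg O F {j}) π}).IsPrime ∧
      (Ideal.span {algebraMap O (chartAlg O F {j⁻¹}) π}).IsPrime := by
  have hj0 : j ≠ 0 := fun h0 => hj (h0 ▸ isAlgebraic_zero)
  have hjinv : Transcendental K j⁻¹ := fun h => hj (by simpa using h.inv)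
  have hL : K⟮j⁻¹⟯ = K⟮j⟯ := by
    apply le_antisymm
    · rw [adjoin_simple_le_iff]
      exact inv_mem (mem_adjoin_simple_self K j)
    · rw [adjoin_simple_le_iff]
      simpa using inv_mem (mem_adjoin_simple_self K j⁻¹)
  haveI : FiniteDimensional K⟮j⁻¹⟯ F := by rw [hL]; infer_instance
  haveI : IsNoetherianRing (chartAlg O F {j}) := isNoetherianRing_chartAlg (K := K) j hj
  haveI : IsNoetherianRing (chartAlg O F {j⁻¹}) := isNoetherianRing_chartAlg (K := K) j⁻¹ hjinv
  have hne := one_not_mem_span_chartAlg (O := O) (K := K) j hj hπ.not_isUnit hπ.ne_zero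
  exact isPrime_span_of_connected π (chartIncl (O := O) (subset_pair_left j))
    (chartIncl (O := O) (subset_pair_right j)) _ _
    (isLocalization_away_pair_left j hj0) (isLocalization_away_pair_right j hj0) hLDp hLDm
    (mem_span_of_gen_mul_mem (K := K) j hj hπ.prime)
    (fun ep em h1 h2 h3 =>
      idempotent_mod_eq_zero_or_one_chart (K := K) j hj halg hπ hne ep em h1 h2 h3) hne

end Fermat.Agent.N4.ChartPrime
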