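/-
N4, block M (helper10), part (M5-E): the cusp cover of the Hesse line in the `p`-shape (helper13's
S28a plan v3).  `p(m) = (m³ − 1)/(m³ + 8) = 1 − u_∞(m)` is a root of
`X⁴ − X³ + 216 j⁻¹ X + 27 j⁻¹`, and its four conjugates `p_∞ = p(m)`, `p_1 = p(g m)`,
`p(g(ζ m))`, `p(g(ζ² m))` (`g m = (m + 2)/(m − 1)`) satisfy `p_∞ + p_1 + p_ζ + p_ζ² = 1`: the open
sets `D(p_c)` cover the spectrum of the integral closure of `O[1/j]`.  The cusp chart `B_t` is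
integral over `O[1/j, 1/p]` and contains it.
-/
import Fermat.Agent.N4.HesseModel

set_option autoImplicit false

namespace Fermat.Agent.N4.Hesse

open Polynomial

section P

variable {Ω : Type*} [Field Ω] {j m : Ω}

/-- `p(m) = (m³ − 1)/(m³ + 8)`: equals `1` at the cusp `m = ∞` and `0` at the cusps `m³ = 1`. -/
noncomputable def pH (m : Ω) : Ω := (m ^ 3 - 1) / (m ^ 3 + 8)

/-- The Möbius transformation `g m = (m + 2)/(m − 1)` (swaps `1 ↔ ∞`, `ζ ↔ ζ²`). -/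
noncomputable def gH (m : Ω) : Ω := (m + 2) / (m - 1)

theorem pH_eq_one_sub (h8 : m ^ 3 + 8 ≠ 0) : pH m = 1 - uInfH m := by
  rw [pH, uInfH, eq_sub_iff_add_eq, ← add_div, div_eq_one_iff_eq h8]
  ring

theorem uInfH_eq_one_sub (h8 : m ^ 3 + 8 ≠ 0) : uInfH m = 1 - pH m := by
  rw [pH_eq_one_sub h8]; ring

/-- `p` is a root of `X⁴ − X³ + 216 j⁻¹ X + 27 j⁻¹`. -/
theorem HesseEq.pH_quartic (h : HesseEq j m) (h3 : (3 : Ω) ≠ 0) (hj : j ≠ 0) :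
    pH m ^ 4 - pH m ^ 3 + 216 * j⁻¹ * pH m + 27 * j⁻¹ = 0 := by
  have h8 := h.cube_add_eight_ne_zero h3 hj
  have hq := h.uInfH_quartic h3 hj
  rw [uInfH_eq_one_sub h8] at hq
  linear_combination hq

theorem HesseEq.gH (h : HesseEq j m) (h3 : (3 : Ω) ≠ 0) : HesseEq j (gH m) := h.moebius h3

/-- `p(g m) = 1 − u₁(m)`. -/
theorem HesseEq.pH_gH (h : HesseEq j m) (h3 : (3 : Ω) ≠ 0) (hj : j ≠ 0) :
    pH (Hesse.gH m) = 1 - u1H m := by
  rw [pH_eq_one_sub ((h.gH h3).cube_add_eight_ne_zero h3 hj), Hesse.gH,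
    uInfH_moebius h3 (h.sub_one_ne_zero h3)]

/-- `u₁(w)` for `w³ = m³`, over the common denominator `m³ (m³ + 8)`. -/
theorem u1H_of_cube_eq {w : Ω} (hw : w ^ 3 = m ^ 3) (hm : m ≠ 0) (h8 : m ^ 3 + 8 ≠ 0) :
    u1H w = ((m ^ 3 - w ^ 2 - 3 * w + 5) * m ^ 3 - 2 * w ^ 2) / (m ^ 3 * (m ^ 3 + 8)) := by
  have hw0 : w ≠ 0 := by
    intro h0
    rw [h0] at hw
    exact pow_ne_zero 3 hm (by rw [← hw]; ring)
  have h8w : w ^ 3 + 8 ≠ 0 := by rw [hw]; exact h8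
  rw [u1H_eq h8w, hw, div_eq_div_iff (mul_ne_zero hw0 h8) (mul_ne_zero (pow_ne_zero 3 hm) h8)]
  linear_combination ((m ^ 3 + 8) * (m ^ 3 * w + 2)) * hw

/-- `u₁(m) + u₁(ζ m) + u₁(ζ² m) = (3 m³ + 15)/(m³ + 8)`. -/
theorem sum_u1H {z : Ω} (hz : z ^ 2 + z + 1 = 0) (hm : m ≠ 0) (h8 : m ^ 3 + 8 ≠ 0) :
    u1H m + u1H (z * m) + u1H (z ^ 2 * m) = (3 * m ^ 3 + 15) / (m ^ 3 + 8) := by
  have hz3 : z ^ 3 = 1 := by linear_combination (z - 1) * hz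
  have hza : (z * m) ^ 3 = m ^ 3 := by rw [mul_pow, hz3, one_mul]
  have hzb : (z ^ 2 * m) ^ 3 = m ^ 3 := by
    rw [mul_pow, ← pow_mul, show 2 * 3 = 3 * 2 from rfl, pow_mul, hz3, one_pow, one_mul]
  rw [u1H_of_cube_eq (rfl : m ^ 3 = m ^ 3) hm h8, u1H_of_cube_eq hza hm h8,
    u1H_of_cube_eq hzb hm h8, ← add_div, ← add_div,
    div_eq_div_iff (mul_ne_zero (pow_ne_zero 3 hm) h8) h8]
  linear_combination ((m ^ 3 + 8) * (-(m ^ 3 + 2) * m ^ 2 * (z ^ 2 - z + 1) - 3 * m ^ 4)) * hz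

/-- **The cusp cover**: `p_∞ + p_1 + p_ζ + p_ζ² = 1`. -/
theorem HesseEq.sum_pH (h : HesseEq j m) (h3 : (3 : Ω) ≠ 0) (hj : j ≠ 0) {z : Ω}
    (hz : z ^ 2 + z + 1 = 0) :
    pH m + pH (Hesse.gH m) + pH (Hesse.gH (z * m)) + pH (Hesse.gH (z ^ 2 * m)) = 1 := by
  have hz3 : z ^ 3 = 1 := by linear_combination (z - 1) * hz
  have hz6 : (z ^ 2) ^ 3 = 1 := by
    rw [← pow_mul, show 2 * 3 = 3 * 2 from rfl, pow_mul, hz3, one_pow]
  have hm := h.ne_zero h3 hj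
  have h8 := h.cube_add_eight_ne_zero h3 hj
  rw [pH_eq_one_sub h8, h.pH_gH h3 hj, (h.mul_root hz3).pH_gH h3 hj,
    (h.mul_root hz6).pH_gH h3 hj]
  have hs := sum_u1H hz hm h8
  have hu : uInfH m = 9 / (m ^ 3 + 8) := rfl
  have e : uInfH m + (3 * m ^ 3 + 15) / (m ^ 3 + 8) = 3 := by
    rw [hu, ← add_div, div_eq_iff h8]; ring
  linear_combination (-1 : Ω) * hs - e

/-- `1/(1 − n³) = (p⁻¹ + 8)/9` for `n = 1/m`. -/
theorem nine_mul_one_sub_inv (hm : m ≠ 0) (h1 : m ^ 3 - 1 ≠ 0) :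
    9 * (1 - m⁻¹ ^ 3)⁻¹ = (pH m)⁻¹ + 8 := by
  have e1 : 1 - m⁻¹ ^ 3 = (m ^ 3 - 1) / m ^ 3 := by
    rw [eq_div_iff (pow_ne_zero 3 hm), sub_mul, ← mul_pow, inv_mul_cancel₀ hm]; ring
  rw [e1, pH, inv_div, inv_div, mul_div_assoc', eq_comm, div_add' _ _ _ h1,
    div_eq_div_iff h1 h1]
  ring

/-- `1/(1 + 8 n³) = (1 + 8 p)/9` for `n = 1/m`. -/
theorem nine_mul_one_add_inv (hm : m ≠ 0) (h8 : m ^ 3 + 8 ≠ 0) :
    9 * (1 + 8 * m⁻¹ ^ 3)⁻¹ = 1 + 8 * pH m := by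
  have e2 : 1 + 8 * m⁻¹ ^ 3 = (m ^ 3 + 8) / m ^ 3 := by
    rw [eq_div_iff (pow_ne_zero 3 hm), add_mul, mul_assoc, ← mul_pow, inv_mul_cancel₀ hm]; ring
  rw [e2, pH, inv_div, mul_div_assoc', mul_div_assoc', eq_comm, add_div' _ _ _ h8,
    div_eq_div_iff h8 h8]
  ring

/-- `1/p = (1 + 8 n³)/(1 − n³)` for `n = 1/m`. -/
theorem inv_pH (hm : m ≠ 0) :
    (pH m)⁻¹ = (1 + 8 * m⁻¹ ^ 3) * (1 - m⁻¹ ^ 3)⁻¹ := by
  have e1 : 1 - m⁻¹ ^ 3 = (m ^ 3 - 1) / m ^ 3 := by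
    rw [eq_div_iff (pow_ne_zero 3 hm), sub_mul, ← mul_pow, inv_mul_cancel₀ hm]; ring
  have e2 : 1 + 8 * m⁻¹ ^ 3 = (m ^ 3 + 8) / m ^ 3 := by
    rw [eq_div_iff (pow_ne_zero 3 hm), add_mul, mul_assoc, ← mul_pow, inv_mul_cancel₀ hm]; ring
  rw [e1, e2, pH, inv_div, inv_div, div_mul_div_comm, mul_comm (m ^ 3 + 8) (m ^ 3),
    mul_div_mul_left _ _ (pow_ne_zero 3 hm)]

variable {O : Type*} [CommRing O] [Algebra O Ω]

/-- A root of `X⁴ − X³ + 216 j⁻¹ X + 27 j⁻¹` is integral over every subalgebra containing `1/j`. -/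
theorem isIntegral_of_pQuartic_subalgebra {p : Ω}
    (hp : p ^ 4 - p ^ 3 + 216 * j⁻¹ * p + 27 * j⁻¹ = 0) {A : Subalgebra O Ω} (hw : j⁻¹ ∈ A) :
    IsIntegral A p := by
  let wA : A := ⟨j⁻¹, hw⟩
  have hwA : algebraMap A Ω wA = j⁻¹ := rfl
  refine ⟨X ^ 4 + (C (-1) * X ^ 3 + C (216 * wA) * X + C (27 * wA)), by monicity!, ?_⟩
  simp only [eval₂_add, eval₂_mul, eval₂_pow, eval₂_X, eval₂_C]
  simp only [map_neg, map_one, map_mul, map_ofNat, hwA]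
  linear_combination hp

theorem HesseEq.isIntegral_pH_subalgebra (h : HesseEq j m) (h3 : (3 : Ω) ≠ 0) (hj : j ≠ 0)
    {A : Subalgebra O Ω} (hw : j⁻¹ ∈ A) : IsIntegral A (pH m) :=
  isIntegral_of_pQuartic_subalgebra (h.pH_quartic h3 hj) hw

end P

section CuspP

variable (O : Type*) {Ω : Type*} [CommRing O] [Field Ω] [Algebra O Ω]

/-- The cusp base ring in the `p`-shape: `O[1/j, 1/p]`. -/
def cuspBaseP (j m : Ω) : Subalgebra O Ω := Algebra.adjoin O {j⁻¹, (pH m)⁻¹}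

variable {O} {j t : Ω} {N : ℕ}

theorem inv_j_mem_cuspBaseP (j m : Ω) : j⁻¹ ∈ cuspBaseP O j m :=
  Algebra.subset_adjoin (by simp)

theorem inv_pH_mem_cuspBaseP (j m : Ω) : (pH m)⁻¹ ∈ cuspBaseP O j m :=
  Algebra.subset_adjoin (by simp)

/-- `O[1/j, 1/p] ⊆ B_t`. -/
theorem HesseEq.cuspBaseP_le_BtH (h : HesseEq j (sOf t N)⁻¹) (h3 : IsUnit (3 : O)) (hj : j ≠ 0) :
    cuspBaseP O j (sOf t N)⁻¹ ≤ BtH O t N := by
  have h3' : (3 : Ω) ≠ 0 := isUnit_three_field h3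
  have hm := h.ne_zero h3' hj
  have hle := h.cuspBaseH_le_BtH h3 hj
  have hs : sOf t N ∈ BtH O t N := sOf_mem_BtH
  have h8mem : (8 : Ω) ∈ BtH O t N := by exact_mod_cast (BtH O t N).natCast_mem 8
  apply Algebra.adjoin_le
  intro y hy
  simp only [Set.mem_insert_iff, Set.mem_singleton_iff] at hy
  rcases hy with e | e
  · rw [e]; exact hle (inv_j_mem_cuspBaseH j _)
  · rw [e, inv_pH hm, inv_inv]
    exact mul_mem (add_mem (one_mem _) (mul_mem h8mem (pow_mem hs 3))) one_sub_inv_mem_BtH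

/-- **`B_t` is integral over `O[1/j, 1/p]`.** -/
theorem HesseEq.isIntegral_of_mem_BtH_P (h : HesseEq j (sOf t N)⁻¹) (h3 : IsUnit (3 : O))
    (hj : j ≠ 0) (hN : N ≠ 0) {x : Ω} (hx : x ∈ BtH O t N) :
    IsIntegral (cuspBaseP O j (sOf t N)⁻¹) x := by
  have h3' : (3 : Ω) ≠ 0 := isUnit_three_field h3
  have hm := h.ne_zero h3' hj
  have h8 := h.cube_add_eight_ne_zero h3' hj
  have h1 := h.cube_sub_one_ne_zero h3'
  obtain ⟨c3, hc3⟩ := exists_inv_3 h3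
  have hc3Ω : (3 : Ω) * algebraMap O Ω c3 = 1 := by
    have := congrArg (algebraMap O Ω) hc3
    rwa [map_mul, map_ofNat, map_one] at this
  have hc9Ω : (9 : Ω) * (algebraMap O Ω c3) ^ 2 = 1 := by
    linear_combination (3 * algebraMap O Ω c3 + 1) * hc3Ω
  have hw : j⁻¹ ∈ cuspBaseP O j (sOf t N)⁻¹ := inv_j_mem_cuspBaseP j _
  have imem : ∀ {y : Ω}, y ∈ cuspBaseP O j (sOf t N)⁻¹ →
      IsIntegral (cuspBaseP O j (sOf t N)⁻¹) y := fun {y} hy =>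
    (isIntegral_algebraMap (R := cuspBaseP O j (sOf t N)⁻¹) (A := Ω) (x := ⟨y, hy⟩))
  have ic : ∀ a : O, IsIntegral (cuspBaseP O j (sOf t N)⁻¹) (algebraMap O Ω a) := fun a =>
    imem (Subalgebra.algebraMap_mem _ a)
  have i8 : IsIntegral (cuspBaseP O j (sOf t N)⁻¹) (8 : Ω) := by
    have := ic 8
    rwa [map_ofNat] at this
  have i1 : IsIntegral (cuspBaseP O j (sOf t N)⁻¹) (1 : Ω) := isIntegral_one
  have is : IsIntegral (cuspBaseP O j (sOf t N)⁻¹) (sOf t N) := by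
    have := h.isIntegral_inv_subalgebra h3' hj hw
    rwa [inv_inv] at this
  have ip : IsIntegral (cuspBaseP O j (sOf t N)⁻¹) (pH (sOf t N)⁻¹) :=
    h.isIntegral_pH_subalgebra h3' hj hw
  have hle : BtH O t N ≤ (integralClosure (cuspBaseP O j (sOf t N)⁻¹) Ω).restrictScalars O := by
    apply Algebra.adjoin_le
    intro y hy
    simp only [Set.mem_insert_iff, Set.mem_singleton_iff] at hy
    rcases hy with e | e | e
    · rw [e]
      have hpow : t ^ N = algebraMap O Ω c3 * sOf t N := by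
        rw [sOf_def]
        linear_combination (-(t ^ N)) * hc3Ω
      have : IsIntegral (cuspBaseP O j (sOf t N)⁻¹) (t ^ N) := by
        rw [hpow]
        exact (ic c3).mul is
      exact IsIntegral.of_pow (Nat.pos_of_ne_zero hN) this
    · rw [e]
      have e1 := nine_mul_one_sub_inv hm h1
      rw [inv_inv] at e1
      have e' : (1 - sOf t N ^ 3)⁻¹ =
          (algebraMap O Ω c3) ^ 2 * ((pH (sOf t N)⁻¹)⁻¹ + 8) := by
        rw [← e1]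
        linear_combination (-(1 - sOf t N ^ 3)⁻¹) * hc9Ω
      rw [e']
      exact ((ic c3).pow 2).mul ((imem (inv_pH_mem_cuspBaseP j _)).add i8)
    · rw [e]
      have e1 := nine_mul_one_add_inv hm h8
      rw [inv_inv] at e1
      have e' : (1 + 8 * sOf t N ^ 3)⁻¹ =
          (algebraMap O Ω c3) ^ 2 * (1 + 8 * pH (sOf t N)⁻¹) := by
        rw [← e1]
        linear_combination (-(1 + 8 * sOf t N ^ 3)⁻¹) * hc9Ω
      rw [e']
      exact ((ic c3).pow 2).mul (i1.add (i8.mul ip))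
  exact hle hx

end CuspP

end Fermat.Agent.N4.Hesse
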