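/-
N4 / Sreg (SR-3): the three auxiliary covers are Galois.

* `isGalois_of_splits` : a field generated over `F` (char `0`) by a root `x` of a nonzero polynomial
  which splits upstairs is finite Galois over `F`;
* (a) `isGalois_of_sextic` : `L = F(λ)`, `256 (λ² − λ + 1)³ = j λ² (λ − 1)²` (group `≤ S₃`);
* (c) `isGalois_of_pow_eq` : `L = F(t)`, `t^N = a`, `ζ_N ∈ F` (Kummer; group `≤ μ_N`);
* (b) `isGalois_of_hesseEq` : `L = F(m)`, Hesse cover (group `≤ A₄`), `ω ∈ F`.
-/
import Mathlib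
import Fermat.Agent.N4.LambdaField
import Fermat.Agent.N4.HesseCover

set_option autoImplicit false

open Polynomial IntermediateField

namespace Fermat.Agent.N4.CoverGalois

section Generic

variable {F L : Type*} [Field F] [Field L] [Algebra F L]

/-- The subfield form of "generated by `x`" gives `F⟮x⟯ = ⊤`. -/
theorem adjoin_simple_eq_top_of_subfield {x : L}
    (hgen : ∀ S : Subfield L, (∀ a : F, algebraMap F L a ∈ S) → x ∈ S → S = ⊤) :
    F⟮x⟯ = ⊤ := by
  have h := hgen F⟮x⟯.toSubfield (fun a => F⟮x⟯.algebraMap_mem a)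
    (mem_adjoin_simple_self F x)
  rw [eq_top_iff]
  intro y _
  have : y ∈ F⟮x⟯.toSubfield := by rw [h]; exact Subfield.mem_top y
  exact this

/-- A field generated over `F` by a root `x` of a nonzero polynomial `p ∈ F[X]` all of whose roots
lie in it is finite and Galois over `F` (characteristic zero). -/
theorem isGalois_of_splits [CharZero F] {x : L} (p : F[X]) (hp0 : p ≠ 0) (hroot : aeval x p = 0)
    (hsplit : (p.map (algebraMap F L)).Splits)
    (hgen : ∀ S : Subfield L, (∀ a : F, algebraMap F L a ∈ S) → x ∈ S → S = ⊤) :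
    FiniteDimensional F L ∧ IsGalois F L := by
  have halg : IsAlgebraic F x := ⟨p, hp0, hroot⟩
  have htop : F⟮x⟯ = ⊤ := adjoin_simple_eq_top_of_subfield hgen
  have hfin : FiniteDimensional F L := by
    haveI : FiniteDimensional F F⟮x⟯ := adjoin.finiteDimensional halg.isIntegral
    haveI : FiniteDimensional F (⊤ : IntermediateField F L) := htop ▸ this
    exact LinearEquiv.finiteDimensional (topEquiv (F := F) (E := L)).toLinearEquiv
  have hadj : Algebra.adjoin F (p.rootSet L) = ⊤ := by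
    have h1 : Algebra.adjoin F {x} = ⊤ :=
      (adjoin_simple_eq_top_iff_of_isAlgebraic halg).mp htop
    rw [eq_top_iff, ← h1]
    apply Algebra.adjoin_mono
    rw [Set.singleton_subset_iff, mem_rootSet]
    exact ⟨hp0, hroot⟩
  haveI : IsSplittingField F L p := ⟨hsplit, hadj⟩
  haveI : Normal F L := Normal.of_isSplittingField p
  haveI : Algebra.IsAlgebraic F L := Algebra.IsAlgebraic.of_finite F L
  exact ⟨hfin, ⟨⟩⟩

end Generic

/-! ### (a) the `λ`-line -/

section Sextic

open Fermat.Agent.N4.Lambda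

variable {F L : Type*} [Field F] [Field L] [CharZero F] [Algebra F L]

theorem isGalois_of_sextic {j : F} {lam : L} (hS : Lambda.Sextic (algebraMap F L j) lam)
    (hgen : ∀ S : Subfield L, (∀ a : F, algebraMap F L a ∈ S) → lam ∈ S → S = ⊤) :
    FiniteDimensional F L ∧ IsGalois F L := by
  haveI : CharZero L := charZero_of_injective_algebraMap (algebraMap F L).injective
  have h2 : (2 : L) ≠ 0 := two_ne_zero
  have hden : jDen lam ≠ 0 := hS.jDen_ne_zero h2
  have hlam0 : lam ≠ 0 := hS.lam_ne_zero h2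
  have hlam1 : lam - 1 ≠ 0 := hS.lam_sub_one_ne_zero h2
  set p : F[X] := jNumPoly F - C j * jDenPoly F with hp
  -- `p` upstairs
  have hmapN : (jNumPoly F).map (algebraMap F L) = jNum (X : L[X]) := by
    simp [jNumPoly, jNum_def, Polynomial.map_mul, Polynomial.map_pow, Polynomial.map_add,
      Polynomial.map_sub, Polynomial.map_ofNat]
  have hmapD : (jDenPoly F).map (algebraMap F L) = jDen (X : L[X]) := by
    simp [jDenPoly, jDen_def, Polynomial.map_mul, Polynomial.map_pow, Polynomial.map_sub]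
  have hpmap : p.map (algebraMap F L) =
      jNum (X : L[X]) - C (algebraMap F L j) * jDen (X : L[X]) := by
    rw [hp, Polynomial.map_sub, Polynomial.map_mul, Polynomial.map_C, hmapN, hmapD]
  -- the orbit identity
  have horb := orbit_identity (C lam : L[X]) (X : L[X])
  have hCden : jDen (C lam : L[X]) = C (jDen lam) := by
    simp [jDen_def]
  have hCnum : jNum (C lam : L[X]) = C (algebraMap F L j) * C (jDen lam) := by
    rw [← C_mul, ← hS]
    simp [jNum_def, map_ofNat]
  have hkey : C (jDen lam) * p.map (algebraMap F L) =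
      -256 * (((X : L[X]) - C lam) * (X - (1 - C lam)) * (C lam * X - 1) * ((1 - C lam) * X - 1) *
        (C lam * X - (C lam - 1)) * ((C lam - 1) * X - C lam)) := by
    rw [← horb, hCden, hCnum, hpmap]
    ring
  have hp0 : p ≠ 0 := by
    intro h0
    have hc := congrArg (fun q : F[X] => q.coeff 6) h0
    simp only [hp, coeff_sub, coeff_C_mul, coeff_zero] at hc
    have h1 : (jNumPoly F).coeff 6 = 256 := by
      have : jNumPoly F = 256 * X ^ 6 - 768 * X ^ 5 + 1536 * X ^ 4 - 1792 * X ^ 3 + 1536 * X ^ 2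
          - 768 * X + 256 := by
        rw [jNumPoly, jNum_def]; ring
      rw [this]
      simp [coeff_X, coeff_one, coeff_X_pow, coeff_ofNat_mul]
    have h2' : (jDenPoly F).coeff 6 = 0 := by
      have : jDenPoly F = X ^ 4 - 2 * X ^ 3 + X ^ 2 := by
        rw [jDenPoly, jDen_def]; ring
      rw [this]
      simp [coeff_X_pow, coeff_ofNat_mul]
    rw [h1, h2', mul_zero, sub_zero] at hc
    norm_num at hc
  refine isGalois_of_splits p hp0 ?_ ?_ hgen
  · rw [hp, map_sub, map_mul, aeval_C, aeval_jNumPoly, aeval_jDenPoly]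
    exact sub_eq_zero.mpr hS
  · -- splitting
    have hsp : (C (jDen lam) * p.map (algebraMap F L)).Splits := by
      rw [hkey]
      have hlin : ∀ a b : L, (C a * (X : L[X]) - C b).Splits := fun a b =>
        Splits.of_degree_le_one ((degree_sub_le _ _).trans (max_le
          ((degree_C_mul_X_le a)) ((degree_C_le).trans zero_le_one)))
      have e1 : ((X : L[X]) - C lam) = C 1 * X - C lam := by simp
      have e2 : ((X : L[X]) - (1 - C lam)) = C 1 * X - C (1 - lam) := by simp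
      have e3 : (C lam * (X : L[X]) - 1) = C lam * X - C 1 := by simp
      have e4 : ((1 - C lam) * (X : L[X]) - 1) = C (1 - lam) * X - C 1 := by simp
      have e5 : (C lam * (X : L[X]) - (C lam - 1)) = C lam * X - C (lam - 1) := by simp
      have e6 : ((C lam - 1) * (X : L[X]) - C lam) = C (lam - 1) * X - C lam := by simp
      rw [e1, e2, e3, e4, e5, e6]
      have hc : (-256 : L[X]) = C (-256) := by
        rw [C_neg, ← map_ofNat (C : L →+* L[X])]
      rw [hc]
      exact (Splits.C _).mul ((((((hlin _ _).mul (hlin _ _)).mul (hlin _ _)).mul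
        (hlin _ _)).mul (hlin _ _)).mul (hlin _ _))
    have hpm0 : p.map (algebraMap F L) ≠ 0 :=
      (Polynomial.map_ne_zero_iff (algebraMap F L).injective).mpr hp0
    exact Splits.of_dvd hsp (mul_ne_zero (C_ne_zero.mpr hden) hpm0) (dvd_mul_left _ _)

end Sextic

/-! ### (c) Kummer covers -/

section Kummer

variable {F L : Type*} [Field F] [Field L] [CharZero F] [Algebra F L]

theorem isGalois_of_pow_eq {N : ℕ} (hN : N ≠ 0) {ζ : F} (hζ : IsPrimitiveRoot ζ N) {a : F} {t : L}
    (ht : t ^ N = algebraMap F L a)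
    (hgen : ∀ S : Subfield L, (∀ a : F, algebraMap F L a ∈ S) → t ∈ S → S = ⊤) :
    FiniteDimensional F L ∧ IsGalois F L := by
  refine isGalois_of_splits (X ^ N - C a) (X_pow_sub_C_ne_zero (Nat.pos_of_ne_zero hN) a) ?_ ?_
    hgen
  · rw [map_sub, map_pow, aeval_X, aeval_C, ht, sub_self]
  · rw [Polynomial.map_sub, Polynomial.map_pow, Polynomial.map_X, Polynomial.map_C]
    exact X_pow_sub_C_splits_of_isPrimitiveRoot
      (hζ.map_of_injective (algebraMap F L).injective) ht

end Kummer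

/-! ### (b) the Hesse cover -/

section HesseCover

open Fermat.Agent.N4.Hesse

/-- The norm form of `ℤ[ω]`-type: `∏ₖ (x + ωᵏ y + ω²ᵏ w) = x³ + y³ + w³ − 3xyw`. -/
theorem norm_form {A : Type*} [CommRing A] {z : A} (hz : z ^ 2 + z + 1 = 0) (x y w : A) :
    (x + y + w) * (x + z * y + z ^ 2 * w) * (x + z ^ 2 * y + z * w) =
      x ^ 3 + y ^ 3 + w ^ 3 - 3 * x * y * w := by
  linear_combination ((x + y + w) * ((z - 1) * (y ^ 2 + w ^ 2) + x * y + x * w
    + y * w * (1 + z ^ 2 - z))) * hz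

/-- `x³ − y³ = (x − y)(x − ωy)(x − ω²y)`. -/
theorem cube_sub_cube_eq {A : Type*} [CommRing A] {z : A} (hz : z ^ 2 + z + 1 = 0) (x y : A) :
    x ^ 3 - y ^ 3 = (x - y) * (x - z * y) * (x - z ^ 2 * y) := by
  linear_combination ((x - y) * (x * y - (z - 1) * y ^ 2)) * hz

/-- The correspondence polynomial of the Hesse cover, `u = X³`, `v = m³`. -/
theorem quartic_id {A : Type*} [CommRing A] (u v : A) :
    (v - 1) ^ 3 * (u * (u + 8) ^ 3) - v * (v + 8) ^ 3 * (u - 1) ^ 3 =
      (u - v) * (((u - 1) * v - (u + 8)) ^ 3 + (3 * u - 12) ^ 3 * v + (-3 * u - 6) ^ 3 * v ^ 2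
        - 3 * ((u - 1) * v - (u + 8)) * (3 * u - 12) * (-3 * u - 6) * v) := by
  ring

/-- The full factorisation of the Hesse correspondence over a ring containing `ω`. -/
theorem hesse_correspondence {A : Type*} [CommRing A] {z : A} (hz : z ^ 2 + z + 1 = 0) (x μ : A) :
    jDenH μ * jNumH x - jNumH μ * jDenH x =
      27 * ((x ^ 3 - μ ^ 3) *
        ((x ^ 3 * (μ - 1) ^ 3 - (μ + 2) ^ 3) *
         (x ^ 3 * (z * μ - 1) ^ 3 - (z * μ + 2) ^ 3) *
         (x ^ 3 * (z ^ 2 * μ - 1) ^ 3 - (z ^ 2 * μ + 2) ^ 3))) := by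
  have hz3 : z ^ 3 = 1 := by linear_combination (z - 1) * hz
  have hz4 : z ^ 4 = z := by linear_combination z * hz3
  have h1 := quartic_id (x ^ 3) (μ ^ 3)
  have h2 := norm_form hz ((x ^ 3 - 1) * μ ^ 3 - (x ^ 3 + 8)) ((3 * x ^ 3 - 12) * μ)
    ((-3 * x ^ 3 - 6) * μ ^ 2)
  have e1 : (x ^ 3 - 1) * μ ^ 3 - (x ^ 3 + 8) + (3 * x ^ 3 - 12) * μ + (-3 * x ^ 3 - 6) * μ ^ 2
      = x ^ 3 * (μ - 1) ^ 3 - (μ + 2) ^ 3 := by ring
  have e2 : (x ^ 3 - 1) * μ ^ 3 - (x ^ 3 + 8) + z * ((3 * x ^ 3 - 12) * μ)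
      + z ^ 2 * ((-3 * x ^ 3 - 6) * μ ^ 2) = x ^ 3 * (z * μ - 1) ^ 3 - (z * μ + 2) ^ 3 := by
    linear_combination (-(x ^ 3 * μ ^ 3) + μ ^ 3) * hz3
  have e3 : (x ^ 3 - 1) * μ ^ 3 - (x ^ 3 + 8) + z ^ 2 * ((3 * x ^ 3 - 12) * μ)
      + z * ((-3 * x ^ 3 - 6) * μ ^ 2) = x ^ 3 * (z ^ 2 * μ - 1) ^ 3 - (z ^ 2 * μ + 2) ^ 3 := by
    linear_combination (-(x ^ 3 * μ ^ 3) + μ ^ 3) * (z ^ 3 + 1) * hz3
      + (3 * x ^ 3 * μ ^ 2 + 6 * μ ^ 2) * hz4
  rw [e1, e2, e3] at h2
  rw [h2, jDenH_def, jNumH_def, jNumH_def, jDenH_def]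
  linear_combination 27 * h1

/-- `(a X)³ − b³` splits over a field containing `ω`. -/
theorem splits_cube_sub_cube {L : Type*} [Field L] {ω : L} (hω : ω ^ 2 + ω + 1 = 0) (a b : L) :
    ((C a * X) ^ 3 - (C b) ^ 3 : L[X]).Splits := by
  have hζ : (C ω : L[X]) ^ 2 + C ω + 1 = 0 := by
    rw [← C_pow, ← C_add, ← C_1, ← C_add, hω, C_0]
  have hlin : ∀ a b : L, (C a * (X : L[X]) - C b).Splits := fun a b =>
    Splits.of_degree_le_one ((degree_sub_le _ _).trans (max_le
      ((degree_C_mul_X_le a)) ((degree_C_le).trans zero_le_one)))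
  rw [cube_sub_cube_eq hζ, ← C_pow, ← C_mul, ← C_mul]
  exact ((hlin _ _).mul (hlin _ _)).mul (hlin _ _)

theorem isGalois_of_hesseEq {F L : Type*} [Field F] [Field L] [CharZero F] [Algebra F L]
    {j z : F} (hz : z ^ 2 + z + 1 = 0) {m : L}
    (hH : Hesse.HesseEq (algebraMap F L j) m) (hj : algebraMap F L j ≠ 0)
    (hgen : ∀ S : Subfield L, (∀ a : F, algebraMap F L a ∈ S) → m ∈ S → S = ⊤) :
    FiniteDimensional F L ∧ IsGalois F L := by
  have _ := hj
  have : CharZero L := charZero_of_injective_algebraMap (algebraMap F L).injective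
  have h3 : (3 : L) ≠ 0 := three_ne_zero
  have hden : jDenH m ≠ 0 := hH.jDenH_ne_zero h3
  set ω : L := algebraMap F L z with hωdef
  have hω : ω ^ 2 + ω + 1 = 0 := by
    rw [hωdef, ← map_pow, ← map_add, ← map_one (algebraMap F L), ← map_add, hz, map_zero]
  have hζ : (C ω : L[X]) ^ 2 + C ω + 1 = 0 := by
    rw [← C_pow, ← C_add, ← C_1, ← C_add, hω, C_0]
  set p : F[X] := jNumHPoly F - C j * jDenHPoly F with hp
  have hmapN : (jNumHPoly F).map (algebraMap F L) = jNumH (X : L[X]) := by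
    simp [jNumHPoly, jNumH_def, Polynomial.map_mul, Polynomial.map_pow, Polynomial.map_add,
      Polynomial.map_ofNat]
  have hmapD : (jDenHPoly F).map (algebraMap F L) = jDenH (X : L[X]) := by
    simp [jDenHPoly, jDenH_def, Polynomial.map_pow, Polynomial.map_sub]
  have hpmap : p.map (algebraMap F L) =
      jNumH (X : L[X]) - C (algebraMap F L j) * jDenH (X : L[X]) := by
    rw [hp, Polynomial.map_sub, Polynomial.map_mul, Polynomial.map_C, hmapN, hmapD]
  have hCden : jDenH (C m : L[X]) = C (jDenH m) := by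
    simp [jDenH_def]
  have hCnum : jNumH (C m : L[X]) = C (algebraMap F L j) * C (jDenH m) := by
    rw [← C_mul, ← hH]
    simp [jNumH_def, map_ofNat]
  have hkey : C (jDenH m) * p.map (algebraMap F L) =
      27 * (((X : L[X]) ^ 3 - (C m) ^ 3) *
        ((X ^ 3 * (C m - 1) ^ 3 - (C m + 2) ^ 3) *
         (X ^ 3 * (C ω * C m - 1) ^ 3 - (C ω * C m + 2) ^ 3) *
         (X ^ 3 * ((C ω) ^ 2 * C m - 1) ^ 3 - ((C ω) ^ 2 * C m + 2) ^ 3))) := by
    rw [← hesse_correspondence hζ, hCden, hCnum, hpmap]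
    ring
  have hp0 : p ≠ 0 := by
    intro h0
    have hc := congrArg (fun q : F[X] => q.coeff 12) h0
    simp only [hp, coeff_sub, coeff_C_mul, coeff_zero] at hc
    have h1 : (jNumHPoly F).coeff 12 = 27 := by
      have : jNumHPoly F = 27 * X ^ 12 + 648 * X ^ 9 + 5184 * X ^ 6 + 13824 * X ^ 3 := by
        rw [jNumHPoly, jNumH_def]; ring
      rw [this]
      simp [coeff_X_pow, coeff_ofNat_mul]
    have h2' : (jDenHPoly F).coeff 12 = 0 := by
      have : jDenHPoly F = X ^ 9 - 3 * X ^ 6 + 3 * X ^ 3 - 1 := by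
        rw [jDenHPoly, jDenH_def]; ring
      rw [this]
      simp [coeff_X_pow, coeff_ofNat_mul, coeff_one]
    rw [h1, h2', mul_zero, sub_zero] at hc
    norm_num at hc
  refine isGalois_of_splits p hp0 ?_ ?_ hgen
  · rw [hp, map_sub, map_mul, aeval_C, aeval_jNumHPoly, aeval_jDenHPoly]
    exact sub_eq_zero.mpr hH
  · have hQ : ∀ b : L, ((X : L[X]) ^ 3 * (C b - 1) ^ 3 - (C b + 2) ^ 3).Splits := by
      intro b
      have e : ((X : L[X]) ^ 3 * (C b - 1) ^ 3 - (C b + 2) ^ 3) =
          (C (b - 1) * X) ^ 3 - (C (b + 2)) ^ 3 := by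
        rw [C_sub, C_add, C_1, C_ofNat]; ring
      rw [e]
      exact splits_cube_sub_cube hω _ _
    have hsp : (C (jDenH m) * p.map (algebraMap F L)).Splits := by
      rw [hkey]
      have e0 : ((X : L[X]) ^ 3 - (C m) ^ 3) = (C 1 * X) ^ 3 - (C m) ^ 3 := by
        rw [C_1, one_mul]
      have hc : (27 : L[X]) = C 27 := (C_ofNat _).symm
      have e1 : (C ω * C m : L[X]) = C (ω * m) := C_mul.symm
      have e2 : ((C ω) ^ 2 * C m : L[X]) = C (ω ^ 2 * m) := by rw [C_mul, C_pow]
      rw [hc, e0, e1, e2]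
      exact (Splits.C _).mul ((splits_cube_sub_cube hω _ _).mul
        (((hQ _).mul (hQ _)).mul (hQ _)))
    have hpm0 : p.map (algebraMap F L) ≠ 0 :=
      (Polynomial.map_ne_zero_iff (algebraMap F L).injective).mpr hp0
    exact Splits.of_dvd hsp (mul_ne_zero (C_ne_zero.mpr hden) hpm0) (dvd_mul_left _ _)

end HesseCover

end Fermat.Agent.N4.CoverGalois
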