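/-
N4 / L4 (helper11): the algebraic Katz–Mazur quotient lemma (moonshots #24, Lemma 4), in an
elementary global form: no completions, no localisations in the hypotheses.

Setting: `A` a noetherian domain, `R` a finite torsion-free `A`-algebra of generic rank `|G|`
(`Module.finrank A R = Nat.card G`), `G` a finite group acting on `R` with `R^G = A`
(`Algebra.IsInvariant A R G`); `x` a maximal ideal of `A` containing `π`; `y` a prime of `R` over
`x` with the same residue field (`∀ r, ∃ a, r - algebraMap a ∈ y`) such that `y R_y = (π, s₀) R_y`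
(`∀ z ∈ y, ∃ u ∉ y, u * z ∈ span {π, s₀}`; i.e. `R_y / π` has principal maximal ideal).

* `exists_locally_span_pair` : `∃ t ∈ x, ∃ r ∉ x, ∀ z ∈ x, r * z ∈ span {π, t}`
  (`x A_x = (π, t) A_x`; `t` is the norm `∏_g g • s` of a modification `s` of `s₀`).
* `isDiscreteValuationRing_atPrime_quotient` : if moreover `A ⧸ (π)` is a domain, its localisation
  at the (nonzero) image of `x` is a discrete valuation ring.
* `isDiscreteValuationRing_atPrime_of_locally_principal` : the generic criterion.

Proof: Part A (`length_quotient_span_pair_le`): `length_A (R ⧸ ((π, Nm) + (xR)²)) ≤ |G|` by the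
filtration by the partial products of the conjugates `g • y`, each step being a quotient of
`A ⧸ x`.  Part B (`eq_of_length_quotient_map_le`): a lift of a basis of `R ⧸ xR` is a basis of `R`
locally at `x` (Nakayama + generic rank), hence `length_A (R ⧸ 𝔟R) = |G| · length_A (A ⧸ 𝔟)` for
`𝔟 = (π, Nm) + x²`, which forces `𝔟 = x`; Nakayama again gives `x A_x = (π, Nm) A_x`.
-/
import Mathlib

set_option autoImplicit false

namespace Fermat.Agent.N4.QuotientRegular

open Ideal

/-! ### Part A: the length bound -/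

section LengthBound

variable {A R : Type*} [CommRing A] [CommRing R] [Algebra A R]
variable {ι : Type*} (Y : ι → Ideal R) (σ : ι → R) (π : R)

/-- The product of the ideals `Y i` along a list. -/
def listIdeal (ℓ : List ι) : Ideal R := (ℓ.map Y).prod

/-- The product of the elements `σ i` along a list. -/
def listElt (ℓ : List ι) : R := (ℓ.map σ).prod

@[simp] theorem listIdeal_nil : listIdeal Y ([] : List ι) = ⊤ := by
  simp [listIdeal, Ideal.one_eq_top]

@[simp] theorem listIdeal_cons (i : ι) (ℓ : List ι) :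
    listIdeal Y (i :: ℓ) = Y i * listIdeal Y ℓ := by
  simp [listIdeal]

@[simp] theorem listElt_nil : listElt σ ([] : List ι) = 1 := by
  simp [listElt]

@[simp] theorem listElt_cons (i : ι) (ℓ : List ι) :
    listElt σ (i :: ℓ) = σ i * listElt σ ℓ := by
  simp [listElt]

theorem listElt_mem_listIdeal (hσ : ∀ i, σ i ∈ Y i) (ℓ : List ι) :
    listElt σ ℓ ∈ listIdeal Y ℓ := by
  induction ℓ with
  | nil => simp
  | cons i ℓ ih =>
    rw [listElt_cons, listIdeal_cons]
    exact Ideal.mul_mem_mul (hσ i) ih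

/-- A maximal ideal containing a list product of maximal ideals is one of them. -/
theorem eq_of_listIdeal_le (hmax : ∀ i, (Y i).IsMaximal) (ℓ : List ι) (𝔪 : Ideal R)
    [h𝔪 : 𝔪.IsPrime] (hle : listIdeal Y ℓ ≤ 𝔪) : ∃ i, 𝔪 = Y i := by
  induction ℓ with
  | nil =>
    rw [listIdeal_nil, top_le_iff] at hle
    exact absurd hle h𝔪.ne_top
  | cons i ℓ ih =>
    rw [listIdeal_cons] at hle
    rcases h𝔪.mul_le.mp hle with h | h
    · exact ⟨i, ((hmax i).eq_of_le h𝔪.ne_top h).symm⟩
    · exact ih h

/-- Single step: `z ∈ Y i` is, up to `𝔠`, a multiple of `σ i` modulo `π`. -/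
theorem mul_mem_span_pair_sup
    (hgen : ∀ i, ∀ z ∈ Y i, ∃ u, (∀ j, u ∉ Y j) ∧ u * z ∈ span {π, σ i})
    (𝔠 : Ideal R) (h𝔠 : ∀ 𝔪 : Ideal R, 𝔪.IsMaximal → 𝔠 ≤ 𝔪 → ∃ i, 𝔪 = Y i)
    (i : ι) {z : R} (hz : z ∈ Y i) (w : R) :
    z * w ∈ span {π, σ i * w} ⊔ 𝔠 := by
  obtain ⟨u, hu, huz⟩ := hgen i z hz
  have htop : span {u} ⊔ 𝔠 = ⊤ := by
    by_contra hne
    obtain ⟨𝔪, h𝔪, hle⟩ := Ideal.exists_le_maximal _ hne
    obtain ⟨j, rfl⟩ := h𝔠 𝔪 h𝔪 (le_sup_right.trans hle)
    exact hu j (hle (Ideal.mem_sup_left (Ideal.mem_span_singleton_self u)))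
  have h1 : (1 : R) ∈ span {u} ⊔ 𝔠 := by rw [htop]; exact Submodule.mem_top
  obtain ⟨V, c, hc, hV⟩ := Ideal.mem_span_singleton_sup.mp h1
  obtain ⟨α, β, hαβ⟩ := Ideal.mem_span_pair.mp huz
  have hzw : z * w = (V * α * w) * π + (V * β) * (σ i * w) + c * (z * w) := by
    calc z * w = (V * u + c) * (z * w) := by rw [hV, one_mul]
      _ = V * w * (u * z) + c * (z * w) := by ring
      _ = V * w * (α * π + β * σ i) + c * (z * w) := by rw [hαβ]
      _ = (V * α * w) * π + (V * β) * (σ i * w) + c * (z * w) := by ring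
  rw [hzw]
  refine Ideal.add_mem _ (Ideal.mem_sup_left ?_) (Ideal.mem_sup_right (Ideal.mul_mem_right _ _ hc))
  exact Ideal.mem_span_pair.mpr ⟨_, _, rfl⟩

/-- The list product of the `Y i` is, up to `𝔠`, generated by `π` and the list product of the
`σ i`. -/
theorem listIdeal_le_span_pair_sup
    (hgen : ∀ i, ∀ z ∈ Y i, ∃ u, (∀ j, u ∉ Y j) ∧ u * z ∈ span {π, σ i})
    (𝔠 : Ideal R) (h𝔠 : ∀ 𝔪 : Ideal R, 𝔪.IsMaximal → 𝔠 ≤ 𝔪 → ∃ i, 𝔪 = Y i) (ℓ : List ι) :
    listIdeal Y ℓ ≤ span {π, listElt σ ℓ} ⊔ 𝔠 := by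
  induction ℓ with
  | nil =>
    rw [listElt_nil]
    have : span {π, (1 : R)} = ⊤ :=
      Ideal.eq_top_of_isUnit_mem _ (Ideal.subset_span (by simp)) isUnit_one
    rw [this, top_sup_eq]
    exact le_top
  | cons i ℓ ih =>
    rw [listIdeal_cons, listElt_cons, Ideal.mul_le]
    intro z hz w hw
    obtain ⟨a, ha, c, hc, rfl⟩ := Submodule.mem_sup.mp (ih hw)
    obtain ⟨α, β, rfl⟩ := Ideal.mem_span_pair.mp ha
    have h1 := mul_mem_span_pair_sup Y σ π hgen 𝔠 h𝔠 i hz (listElt σ ℓ)
    have e : z * (α * π + β * listElt σ ℓ + c) =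
        (z * α) * π + β * (z * listElt σ ℓ) + z * c := by ring
    rw [e]
    refine Ideal.add_mem _ (Ideal.add_mem _ (Ideal.mem_sup_left ?_) ?_)
      (Ideal.mem_sup_right (Ideal.mul_mem_left _ _ hc))
    · exact Ideal.mem_span_pair.mpr ⟨z * α, 0, by ring⟩
    · exact Ideal.mul_mem_left _ _ h1

end LengthBound

/-! ### Lengths of subquotients -/

section Length

variable {A R : Type*} [CommRing A] [CommRing R] [Algebra A R]

/-- The quotient of `A` by a maximal ideal has length one. -/
theorem length_quotient_maximal (x : Ideal A) [hx : x.IsMaximal] :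
    Module.length A (A ⧸ x) = 1 := by
  have : IsSimpleModule A (A ⧸ x) := isSimpleModule_iff_isCoatom.mpr (Ideal.isMaximal_def.mp hx)
  exact Module.length_eq_one A (A ⧸ x)

/-- A submodule of a cyclic module killed by a maximal ideal has length at most one. -/
theorem length_le_one_of_le_span_singleton {M : Type*} [AddCommGroup M] [Module A M]
    (x : Ideal A) [x.IsMaximal] (m : M) (hm : ∀ a ∈ x, a • m = 0) (K : Submodule A M)
    (hK : K ≤ Submodule.span A {m}) : Module.length A K ≤ 1 := by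
  have hker : x ≤ LinearMap.ker (LinearMap.toSpanSingleton A M m) := by
    intro a ha
    rw [LinearMap.mem_ker, LinearMap.toSpanSingleton_apply]
    exact hm a ha
  let f : (A ⧸ x) →ₗ[A] M := Submodule.liftQ x (LinearMap.toSpanSingleton A M m) hker
  have hrange : LinearMap.range f = Submodule.span A {m} := by
    rw [Submodule.range_liftQ, LinearMap.range_toSpanSingleton]
  have hK' : K ≤ LinearMap.range f := hrange ▸ hK
  have h1 : Module.length A K ≤ Module.length A (LinearMap.range f) :=
    Module.length_le_of_injective (Submodule.inclusion hK') (Submodule.inclusion_injective hK')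
  have h2 : Module.length A (LinearMap.range f) ≤ Module.length A (A ⧸ x) :=
    Module.length_le_of_surjective f.rangeRestrict f.surjective_rangeRestrict
  rw [length_quotient_maximal] at h2
  exact h1.trans h2

/-- If `N ≤ N'` are ideals of `R` such that `N' / N` is generated over `A` by the class of `ϖ`,
which is killed by the maximal ideal `x` of `A`, then `length (R ⧸ N) ≤ length (R ⧸ N') + 1`. -/
theorem length_quotient_le_succ (x : Ideal A) [x.IsMaximal] (N N' : Ideal R) (hNN' : N ≤ N')
    (ϖ : R) (hx : ∀ a ∈ x, algebraMap A R a * ϖ ∈ N)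
    (hcyc : ∀ r ∈ N', ∃ a : A, r - algebraMap A R a * ϖ ∈ N) :
    Module.length A (R ⧸ N) ≤ Module.length A (R ⧸ N') + 1 := by
  let g : (R ⧸ N) →ₗ[A] (R ⧸ N') := (Ideal.Quotient.factorₐ A hNN').toLinearMap
  have hg : Function.Surjective g := Ideal.Quotient.factor_surjective hNN'
  have hadd := Module.length_eq_add_of_exact (LinearMap.ker g).subtype g
    (Submodule.subtype_injective _) hg (LinearMap.exact_subtype_ker_map g)
  have hsmul : ∀ (a : A) (r : R), a • (Ideal.Quotient.mk N r) =
      Ideal.Quotient.mk N (algebraMap A R a * r) := by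
    intro a r
    rw [← Algebra.smul_def]
    rfl
  have hK : LinearMap.ker g ≤ Submodule.span A {(Ideal.Quotient.mk N ϖ : R ⧸ N)} := by
    intro q hq
    obtain ⟨r, rfl⟩ := Ideal.Quotient.mk_surjective q
    have hr : r ∈ N' := by
      have h0 : g (Ideal.Quotient.mk N r) = 0 := hq
      have h1 : g (Ideal.Quotient.mk N r) = Ideal.Quotient.mk N' r := rfl
      rw [h1] at h0
      exact Ideal.Quotient.eq_zero_iff_mem.mp h0
    obtain ⟨a, ha⟩ := hcyc r hr
    rw [Submodule.mem_span_singleton]
    refine ⟨a, ?_⟩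
    rw [hsmul]
    exact (Ideal.Quotient.eq.mpr ha).symm
  have hm : ∀ a ∈ x, a • (Ideal.Quotient.mk N ϖ : R ⧸ N) = 0 := by
    intro a ha
    rw [hsmul]
    exact Ideal.Quotient.eq_zero_iff_mem.mpr (hx a ha)
  have h1 := length_le_one_of_le_span_singleton x _ hm (LinearMap.ker g) hK
  rw [hadd, add_comm]
  exact add_le_add_right h1 _

end Length

/-! ### The filtration by list products -/

section Filtration

variable {A R : Type*} [CommRing A] [CommRing R] [Algebra A R]
variable {ι : Type*} (Y : ι → Ideal R) (σ : ι → R) (π : R) (x : Ideal A) [x.IsMaximal]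

/-- Quotients by larger ideals have smaller length. -/
theorem length_quotient_le_of_le {N N' : Ideal R} (h : N ≤ N') :
    Module.length A (R ⧸ N') ≤ Module.length A (R ⧸ N) :=
  Module.length_le_of_surjective (Ideal.Quotient.factorₐ A h).toLinearMap
    (Ideal.Quotient.factor_surjective h)

theorem length_quotient_listIdeal_le
    (hmax : ∀ i, (Y i).IsMaximal)
    (hover : ∀ i, ∀ a ∈ x, algebraMap A R a ∈ Y i)
    (hres : ∀ i (r : R), ∃ a : A, r - algebraMap A R a ∈ Y i)
    (hσ : ∀ i, σ i ∈ Y i)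
    (hgen : ∀ i, ∀ z ∈ Y i, ∃ u, (∀ j, u ∉ Y j) ∧ u * z ∈ span {π, σ i})
    (ℓ : List ι) :
    Module.length A (R ⧸ (listIdeal Y ℓ ⊔ span {π})) ≤ ℓ.length := by
  induction ℓ with
  | nil =>
    have htop : listIdeal Y ([] : List ι) ⊔ span {π} = ⊤ := by
      rw [listIdeal_nil, top_sup_eq]
    have : Subsingleton (R ⧸ (listIdeal Y ([] : List ι) ⊔ span {π})) :=
      Ideal.Quotient.subsingleton_iff.mpr htop
    rw [Module.length_eq_zero]
    exact zero_le
  | cons i ℓ ih =>
    have hNN' : listIdeal Y (i :: ℓ) ⊔ span {π} ≤ listIdeal Y ℓ ⊔ span {π} := by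
      rw [listIdeal_cons]
      exact sup_le_sup_right Ideal.mul_le_right _
    have h𝔠 : ∀ 𝔪 : Ideal R, 𝔪.IsMaximal → listIdeal Y (i :: ℓ) ≤ 𝔪 → ∃ j, 𝔪 = Y j := by
      intro 𝔪 h𝔪 hle
      have := h𝔪.isPrime
      exact eq_of_listIdeal_le Y hmax (i :: ℓ) 𝔪 hle
    have hstep := length_quotient_le_succ x (listIdeal Y (i :: ℓ) ⊔ span {π})
      (listIdeal Y ℓ ⊔ span {π}) hNN' (listElt σ ℓ) ?_ ?_
    · refine hstep.trans ?_
      rw [List.length_cons, Nat.cast_add, Nat.cast_one]
      exact add_le_add_left ih 1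
    · intro a ha
      rw [listIdeal_cons]
      exact Ideal.mem_sup_left
        (Ideal.mul_mem_mul (hover i a ha) (listElt_mem_listIdeal Y σ hσ ℓ))
    · intro r hr
      obtain ⟨w, hw, p, hp, rfl⟩ := Submodule.mem_sup.mp hr
      obtain ⟨β, rfl⟩ := Ideal.mem_span_singleton'.mp hp
      have hw' := listIdeal_le_span_pair_sup Y σ π hgen (listIdeal Y (i :: ℓ)) h𝔠 ℓ hw
      obtain ⟨b, hb, c, hc, rfl⟩ := Submodule.mem_sup.mp hw'
      obtain ⟨α, ρ, rfl⟩ := Ideal.mem_span_pair.mp hb
      obtain ⟨a, ha⟩ := hres i ρ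
      refine ⟨a, ?_⟩
      have e : α * π + ρ * listElt σ ℓ + c + β * π - algebraMap A R a * listElt σ ℓ =
          ((ρ - algebraMap A R a) * listElt σ ℓ + c) + (α + β) * π := by ring
      rw [e]
      refine Ideal.add_mem _ (Ideal.mem_sup_left (Ideal.add_mem _ ?_ hc))
        (Ideal.mem_sup_right (Ideal.mem_span_singleton'.mpr ⟨_, rfl⟩))
      rw [listIdeal_cons]
      exact Ideal.mul_mem_mul ha (listElt_mem_listIdeal Y σ hσ ℓ)

/-- **Part A.** `length_A (R ⧸ ((π, ∏ σ_i) + (xR)²)) ≤ #ι`. -/
theorem length_quotient_span_pair_le [Fintype ι]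
    (hmax : ∀ i, (Y i).IsMaximal)
    (hover : ∀ i, ∀ a ∈ x, algebraMap A R a ∈ Y i)
    (hres : ∀ i (r : R), ∃ a : A, r - algebraMap A R a ∈ Y i)
    (hσ : ∀ i, σ i ∈ Y i)
    (hgen : ∀ i, ∀ z ∈ Y i, ∃ u, (∀ j, u ∉ Y j) ∧ u * z ∈ span {π, σ i})
    (𝔠 : Ideal R) (h𝔠 : ∀ 𝔪 : Ideal R, 𝔪.IsMaximal → 𝔠 ≤ 𝔪 → ∃ i, 𝔪 = Y i) :
    Module.length A (R ⧸ (span {π, ∏ i, σ i} ⊔ 𝔠)) ≤ Fintype.card ι := by
  classical
  have h1 := length_quotient_listIdeal_le Y σ π x hmax hover hres hσ hgen
    (Finset.univ : Finset ι).toList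
  rw [Finset.length_toList, Finset.card_univ] at h1
  have h2 := listIdeal_le_span_pair_sup Y σ π hgen 𝔠 h𝔠 (Finset.univ : Finset ι).toList
  have h3 : listElt σ (Finset.univ : Finset ι).toList = ∏ i, σ i := by
    rw [listElt, Finset.prod_map_toList]
  rw [h3] at h2
  have h4 : listIdeal Y (Finset.univ : Finset ι).toList ⊔ span {π} ≤
      span {π, ∏ i, σ i} ⊔ 𝔠 := by
    refine sup_le h2 (le_sup_of_le_left ?_)
    rw [Ideal.span_singleton_le_iff_mem]
    exact Ideal.subset_span (by simp)
  exact (length_quotient_le_of_le h4).trans h1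

end Filtration

/-! ### Part B: local freeness and the length count -/

section Freeness

variable {A R : Type*} [CommRing A] [IsDomain A] [CommRing R] [Algebra A R]
  [Module.Finite A R] [Module.IsTorsionFree A R]

omit [IsDomain A] [Module.IsTorsionFree A R] in
/-- Lifting a basis of `R ⧸ xR` over `A ⧸ x`: there are `e : Fin n' → R` and `u ≡ 1 mod x` with
`u • R ⊆ span (range e)`, where `n' = dim_{A ⧸ x} (R ⧸ xR)`. -/
theorem exists_lift_basis (x : Ideal A) [hx : x.IsMaximal] :
    ∃ (n' : ℕ) (e : Fin n' → R) (u : A),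
      n' = Module.finrank (A ⧸ x) (R ⧸ x.map (algebraMap A R)) ∧
      u - 1 ∈ x ∧ ∀ r : R, u • r ∈ Submodule.span A (Set.range e) := by
  refine ⟨Module.finrank (A ⧸ x) (R ⧸ x.map (algebraMap A R)), ?_⟩
  suffices h : ∃ (e : Fin (Module.finrank (A ⧸ x) (R ⧸ x.map (algebraMap A R))) → R) (u : A),
      u - 1 ∈ x ∧ ∀ r : R, u • r ∈ Submodule.span A (Set.range e) by
    obtain ⟨e, u, h1, h2⟩ := h
    exact ⟨e, u, rfl, h1, h2⟩
  let _ := Ideal.Quotient.field x
  have i3 : Module.Finite (A ⧸ x) (R ⧸ x.map (algebraMap A R)) :=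
    Module.Finite.of_restrictScalars_finite A _ _
  let b := Module.finBasis (A ⧸ x) (R ⧸ x.map (algebraMap A R))
  have hsurj : ∀ v : R ⧸ x.map (algebraMap A R), ∃ r : R, Ideal.Quotient.mk _ r = v :=
    Ideal.Quotient.mk_surjective
  choose lift hlift using hsurj
  let e : Fin (Module.finrank (A ⧸ x) (R ⧸ x.map (algebraMap A R))) → R := fun i => lift (b i)
  refine ⟨e, ?_⟩
  -- every element is congruent to an element of the span modulo `xR`
  have hcong : ∀ z : R, ∃ m ∈ Submodule.span A (Set.range e),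
      z - m ∈ x.map (algebraMap A R) := by
    intro z
    have hA : ∀ c : A ⧸ x, ∃ a : A, Ideal.Quotient.mk x a = c := Ideal.Quotient.mk_surjective
    choose liftA hliftA using hA
    refine ⟨∑ i, liftA (b.repr (Ideal.Quotient.mk _ z) i) • e i, ?_, ?_⟩
    · exact Submodule.sum_mem _ fun i _ =>
        Submodule.smul_mem _ _ (Submodule.subset_span ⟨i, rfl⟩)
    · rw [← Ideal.Quotient.eq, map_sum]
      conv_lhs => rw [← b.sum_repr (Ideal.Quotient.mk _ z)]
      refine Finset.sum_congr rfl fun i _ => ?_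
      have h1 : (Ideal.Quotient.mk (x.map (algebraMap A R)))
          (liftA (b.repr (Ideal.Quotient.mk _ z) i) • e i) =
          liftA (b.repr (Ideal.Quotient.mk _ z) i) • (Ideal.Quotient.mk _ (e i)) := rfl
      rw [h1, hlift (b i)]
      conv_lhs => rw [← hliftA (b.repr (Ideal.Quotient.mk _ z) i)]
      rfl
  -- Nakayama on the quotient module `R ⧸ span (range e)`
  have hfg : (⊤ : Submodule A (R ⧸ Submodule.span A (Set.range e))).FG :=
    Module.finite_def.mp inferInstance
  have hle : (⊤ : Submodule A (R ⧸ Submodule.span A (Set.range e))) ≤ x • ⊤ := by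
    rintro q -
    obtain ⟨z, rfl⟩ := Submodule.Quotient.mk_surjective _ q
    obtain ⟨m, hm, hzm⟩ := hcong z
    have h1 : (Submodule.Quotient.mk z : R ⧸ Submodule.span A (Set.range e)) =
        Submodule.Quotient.mk (z - m) := by
      rw [Submodule.Quotient.mk_sub, (Submodule.Quotient.mk_eq_zero _).mpr hm, sub_zero]
    rw [h1]
    have h2 : z - m ∈ x • (⊤ : Submodule A R) := by
      rw [Ideal.smul_top_eq_map]
      exact hzm
    have h3 : (Submodule.span A (Set.range e)).mkQ (z - m) ∈
        (x • (⊤ : Submodule A R)).map (Submodule.span A (Set.range e)).mkQ :=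
      Submodule.mem_map_of_mem h2
    rw [Submodule.map_smul'', Submodule.map_top, Submodule.range_mkQ] at h3
    exact h3
  obtain ⟨u, hu1, hu2⟩ :=
    Submodule.exists_sub_one_mem_and_smul_eq_zero_of_fg_of_le_smul x ⊤ hfg hle
  refine ⟨u, hu1, fun r => ?_⟩
  have := hu2 (Submodule.Quotient.mk r) Submodule.mem_top
  rw [← Submodule.Quotient.mk_smul, Submodule.Quotient.mk_eq_zero] at this
  exact this

omit [IsDomain A] [Module.IsTorsionFree A R] in
/-- The `A`-length of `R ⧸ xR` is its dimension over `A ⧸ x`. -/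
theorem length_quotient_map_maximal (x : Ideal A) [hx : x.IsMaximal] :
    Module.length A (R ⧸ x.map (algebraMap A R)) =
      Module.finrank (A ⧸ x) (R ⧸ x.map (algebraMap A R)) := by
  let _ := Ideal.Quotient.field x
  have i3 : Module.Finite (A ⧸ x) (R ⧸ x.map (algebraMap A R)) :=
    Module.Finite.of_restrictScalars_finite A _ _
  rw [Module.length_eq_of_surjective (S := A) (R := A ⧸ x)
    (M := R ⧸ x.map (algebraMap A R)) Ideal.Quotient.mk_surjective]
  exact Module.length_eq_finrank (A ⧸ x) (R ⧸ x.map (algebraMap A R))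

/-- **Part B.** If `x² ≤ 𝔟 ≤ x` and `length_A (R ⧸ 𝔟R) ≤ rank_A R` (`R` finite torsion-free of
positive rank over the domain `A`), then `𝔟 = x`. -/
theorem eq_of_length_quotient_map_le (x : Ideal A) [hx : x.IsMaximal] (𝔟 : Ideal A)
    (h1 : x ^ 2 ≤ 𝔟) (h2 : 𝔟 ≤ x) (hn : 0 < Module.finrank A R)
    (hlen : Module.length A (R ⧸ 𝔟.map (algebraMap A R)) ≤ Module.finrank A R) : 𝔟 = x := by
  classical
  obtain ⟨n', e, u, hn', hu1, hu2⟩ := exists_lift_basis (R := R) x
  have hmap : 𝔟.map (algebraMap A R) ≤ x.map (algebraMap A R) := Ideal.map_mono h2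
  -- `n' ≤ n`
  have hle1 : (n' : ℕ∞) ≤ Module.finrank A R := by
    rw [hn', ← length_quotient_map_maximal x]
    exact (length_quotient_le_of_le hmap).trans hlen
  have hle1' : n' ≤ Module.finrank A R := by exact_mod_cast hle1
  -- `u ≠ 0`
  have hu0 : u ≠ 0 := by
    rintro rfl
    apply hx.ne_top
    rw [Ideal.eq_top_iff_one]
    have : (0 : A) - 1 ∈ x := hu1
    rw [zero_sub] at this
    simpa using x.neg_mem this
  -- `n ≤ rank (span (range e))`
  have hfin : Module.Finite A (Submodule.span A (Set.range e)) :=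
    Module.Finite.span_of_finite A (Set.finite_range e)
  let μ : R →ₗ[A] Submodule.span A (Set.range e) :=
    (LinearMap.lsmul A R u).codRestrict _ (fun r => hu2 r)
  have hμ : Function.Injective μ := by
    intro r r' hrr'
    have h : u • r = u • r' := congrArg Subtype.val hrr'
    exact (smul_right_inj hu0).mp h
  have hle2 : Module.finrank A R ≤ Set.finrank A (Set.range e) :=
    LinearMap.finrank_le_finrank_of_injective hμ
  -- linear independence
  have hli : LinearIndependent A e := by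
    rw [linearIndependent_iff_card_le_finrank_span, Fintype.card_fin]
    exact hle1'.trans hle2
  -- `n' = n`
  have hle3 : Set.finrank A (Set.range e) ≤ n' := by
    have := finrank_range_le_card (R := A) e
    rwa [Fintype.card_fin] at this
  have hnn : n' = Module.finrank A R := le_antisymm hle1' (hle2.trans hle3)
  -- the kernel of `R ⧸ 𝔟R → R ⧸ xR` has length zero
  let g : (R ⧸ 𝔟.map (algebraMap A R)) →ₗ[A] (R ⧸ x.map (algebraMap A R)) :=
    (Ideal.Quotient.factorₐ A hmap).toLinearMap
  have hg : Function.Surjective g := Ideal.Quotient.factor_surjective hmap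
  have hadd := Module.length_eq_add_of_exact (LinearMap.ker g).subtype g
    (Submodule.subtype_injective _) hg (LinearMap.exact_subtype_ker_map g)
  rw [length_quotient_map_maximal x, ← hn', hnn] at hadd
  have hker0 : Module.length A (LinearMap.ker g) = 0 := by
    have h3 : Module.length A (LinearMap.ker g) + (Module.finrank A R : ℕ∞) ≤
        0 + (Module.finrank A R : ℕ∞) := by
      rw [zero_add, ← hadd]
      exact hlen
    exact le_antisymm ((ENat.add_le_add_iff_right (ENat.natCast_ne_top _)).mp h3) zero_le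
  have hker : LinearMap.ker g = ⊥ := by
    rw [Module.length_eq_zero_iff] at hker0
    exact Submodule.eq_bot_of_subsingleton
  -- hence `xR ≤ 𝔟R`
  have hxb : x.map (algebraMap A R) ≤ 𝔟.map (algebraMap A R) := by
    intro z hz
    have h0 : g (Ideal.Quotient.mk _ z) = 0 := by
      have : g (Ideal.Quotient.mk _ z) = Ideal.Quotient.mk _ z := rfl
      rw [this]
      exact Ideal.Quotient.eq_zero_iff_mem.mpr hz
    have h4 : (Ideal.Quotient.mk (𝔟.map (algebraMap A R)) z) ∈ LinearMap.ker g := h0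
    rw [hker, Submodule.mem_bot] at h4
    exact Ideal.Quotient.eq_zero_iff_mem.mp h4
  -- conclude
  refine le_antisymm h2 fun a ha => ?_
  have hn'pos : 0 < n' := hnn ▸ hn
  let i0 : Fin n' := ⟨0, hn'pos⟩
  have h5 : algebraMap A R a * e i0 ∈ 𝔟.map (algebraMap A R) :=
    hxb (Ideal.mul_mem_right _ _ (Ideal.mem_map_of_mem _ ha))
  -- `u • (𝔟R) ≤ 𝔟 • span (range e)`
  have h6 : ∀ z ∈ 𝔟 • (⊤ : Submodule A R), u • z ∈ 𝔟 • Submodule.span A (Set.range e) := by
    intro z hz
    refine Submodule.smul_induction_on hz (fun b hb r _ => ?_) (fun z z' hz hz' => ?_)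
    · rw [smul_comm]
      exact Submodule.smul_mem_smul hb (hu2 r)
    · rw [smul_add]
      exact Submodule.add_mem _ hz hz'
  have h7 : u • (a • e i0) ∈ 𝔟 • Submodule.span A (Set.range e) := by
    apply h6
    rw [Ideal.smul_top_eq_map, Algebra.smul_def]
    exact h5
  obtain ⟨c, hc, hsum⟩ := (Submodule.mem_ideal_smul_span_iff_exists_sum 𝔟 e _).mp h7
  have h8 : c = Finsupp.single i0 (u * a) := by
    apply hli.finsuppLinearCombination_injective ?_
    rw [Finsupp.linearCombination_apply, hsum, Finsupp.linearCombination_single, mul_smul]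
  have h9 : u * a ∈ 𝔟 := by
    have := hc i0
    rwa [h8, Finsupp.single_eq_same] at this
  have h10 : a = (2 - u) * (u * a) + (u - 1) ^ 2 * a := by ring
  rw [h10]
  refine 𝔟.add_mem (𝔟.mul_mem_left _ h9) (𝔟.mul_mem_right _ (h1 ?_))
  exact Ideal.pow_mem_pow hu1 2

end Freeness

/-! ### Part C: the group action -/

section Action

open Pointwise

variable {R : Type*} [CommRing R] {G : Type*} [Group G] [MulSemiringAction G R]

/-- Chinese remainder element for the orbit of a maximal ideal. -/
theorem exists_crt [Finite G] (y : Ideal R) (hmax : ∀ g : G, (g • y).IsMaximal) :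
    ∃ c : R, c - 1 ∈ y ∧ ∀ g : G, g • y ≠ y → c ∈ g • y := by
  classical
  cases nonempty_fintype G
  let S : Finset (Ideal R) := Finset.univ.image (fun g : G => g • y)
  have hS : ∀ g : G, g • y ∈ S := fun g => Finset.mem_image_of_mem _ (Finset.mem_univ g)
  have hSmax : ∀ i : S, (i : Ideal R).IsMaximal := by
    rintro ⟨I, hI⟩
    obtain ⟨g, -, rfl⟩ := Finset.mem_image.mp hI
    exact hmax g
  have hcop : Pairwise (Function.onFun IsCoprime fun i : S => (i : Ideal R)) := by
    intro i j hij
    exact Ideal.isCoprime_iff_sup_eq.mpr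
      ((hSmax i).coprime_of_ne (hSmax j) (fun h => hij (Subtype.ext h)))
  obtain ⟨c, hc⟩ := Ideal.exists_forall_sub_mem_ideal hcop
    (fun i : S => if (i : Ideal R) = y then (1 : R) else 0)
  refine ⟨c, ?_, fun g hg => ?_⟩
  · have := hc ⟨y, by simpa using hS 1⟩
    simpa using this
  · have := hc ⟨g • y, hS g⟩
    simpa [hg] using this

/-- Modifying a local generator by a Chinese remainder element. -/
theorem locGen_modify (y : Ideal R) [hy : y.IsPrime] (π s₀ c : R) (hs₀ : s₀ ∈ y)
    (hc : c - 1 ∈ y)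
    (hgen : ∀ z ∈ y, ∃ u, u ∉ y ∧ u * z ∈ span {π, s₀}) :
    c * s₀ + (1 - c) ^ 2 ∈ y ∧
      ∀ z ∈ y, ∃ u, u ∉ y ∧ u * z ∈ span {π, c * s₀ + (1 - c) ^ 2} := by
  have hc' : 1 - c ∈ y := by
    have := y.neg_mem hc
    rwa [neg_sub] at this
  refine ⟨y.add_mem (y.mul_mem_left _ hs₀) (y.pow_mem_of_mem hc' 2 two_pos), ?_⟩
  obtain ⟨u, hu, huc⟩ := hgen (1 - c) hc'
  obtain ⟨α, β, hαβ⟩ := Ideal.mem_span_pair.mp huc
  -- `w * s₀ ∈ span {π, s}` with `w ∉ y`
  have hw : u * c + (1 - c) * β ∉ y := by
    intro h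
    apply hu
    have e : u = (u * c + (1 - c) * β) + (1 - c) * (u - β) := by ring
    rw [e]
    exact y.add_mem h (y.mul_mem_right _ hc')
  have hws : (u * c + (1 - c) * β) * s₀ ∈ span {π, c * s₀ + (1 - c) ^ 2} := by
    have e : (u * c + (1 - c) * β) * s₀ =
        (-(1 - c) * α) * π + u * (c * s₀ + (1 - c) ^ 2) := by
      have : u * (1 - c) = α * π + β * s₀ := hαβ.symm
      calc (u * c + (1 - c) * β) * s₀
          = u * (c * s₀ + (1 - c) ^ 2) - (1 - c) * (u * (1 - c)) + (1 - c) * (β * s₀) := by ring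
        _ = u * (c * s₀ + (1 - c) ^ 2) - (1 - c) * (α * π + β * s₀) + (1 - c) * (β * s₀) := by
            rw [this]
        _ = (-(1 - c) * α) * π + u * (c * s₀ + (1 - c) ^ 2) := by ring
    rw [e]
    exact Ideal.mem_span_pair.mpr ⟨_, _, rfl⟩
  intro z hz
  obtain ⟨uz, huz, huz'⟩ := hgen z hz
  obtain ⟨α', β', hαβ'⟩ := Ideal.mem_span_pair.mp huz'
  refine ⟨(u * c + (1 - c) * β) * uz, ?_, ?_⟩
  · intro h
    rcases hy.mem_or_mem h with h | h
    · exact hw h
    · exact huz h
  · have e : (u * c + (1 - c) * β) * uz * z =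
        ((u * c + (1 - c) * β) * α') * π + β' * ((u * c + (1 - c) * β) * s₀) := by
      calc (u * c + (1 - c) * β) * uz * z = (u * c + (1 - c) * β) * (uz * z) := by ring
        _ = (u * c + (1 - c) * β) * (α' * π + β' * s₀) := by rw [hαβ']
        _ = _ := by ring
    rw [e]
    refine Ideal.add_mem _ (Ideal.mul_mem_left _ _ (Ideal.subset_span (by simp)))
      (Ideal.mul_mem_left _ _ hws)

end Action

/-! ### The main theorem -/

section Main

open Pointwise

/-- Nakayama: if `x = I ⊔ x²` with `x` finitely generated, then `x` is locally (at `x`)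
equal to `I`. -/
theorem exists_smul_le_of_eq_sup_sq {A : Type*} [CommRing A] (x I : Ideal A) (hfg : x.FG)
    (h : x ≤ I ⊔ x ^ 2) : ∃ r, r - 1 ∈ x ∧ ∀ z ∈ x, r * z ∈ I := by
  let N : Submodule A (A ⧸ I) := Submodule.map (Submodule.mkQ I) x
  have hNfg : N.FG := Submodule.FG.map _ hfg
  have hle : N ≤ x • N := by
    rintro _ ⟨a, ha, rfl⟩
    obtain ⟨i, hi, w, hw, rfl⟩ := Submodule.mem_sup.mp (h ha)
    have h1 : (Submodule.mkQ I) (i + w) = (Submodule.mkQ I) w := by
      rw [map_add, Submodule.mkQ_apply, (Submodule.Quotient.mk_eq_zero I).mpr hi, zero_add]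
    rw [h1]
    have h2 : w ∈ x • (x : Submodule A A) := by
      rw [smul_eq_mul, ← pow_two]
      exact hw
    have h3 : (Submodule.mkQ I) w ∈ Submodule.map (Submodule.mkQ I) (x • (x : Submodule A A)) :=
      Submodule.mem_map_of_mem h2
    rw [Submodule.map_smul''] at h3
    exact h3
  obtain ⟨r, hr1, hr2⟩ :=
    Submodule.exists_sub_one_mem_and_smul_eq_zero_of_fg_of_le_smul x N hNfg hle
  refine ⟨r, hr1, fun z hz => ?_⟩
  have h4 := hr2 _ (Submodule.mem_map_of_mem (f := Submodule.mkQ I) hz)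
  rw [Submodule.mkQ_apply, ← Submodule.Quotient.mk_smul, Submodule.Quotient.mk_eq_zero,
    smul_eq_mul] at h4
  exact h4

variable {A R : Type*} [CommRing A] [IsDomain A] [IsNoetherianRing A] [CommRing R] [Algebra A R]
  [Module.Finite A R] [Module.IsTorsionFree A R]
  {G : Type*} [Group G] [Finite G] [MulSemiringAction G R] [SMulCommClass G A R]
  [Algebra.IsInvariant A R G]

/-- **The algebraic Katz–Mazur quotient lemma** (moonshots #24, Lemma 4), elementary form.
`A = R^G` a noetherian domain, `R` a finite torsion-free `A`-algebra of generic rank `|G|`;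
`x` a maximal ideal of `A` containing `π`, `y` a prime of `R` over `x` with the same residue field
and such that `y R_y = (π, s₀) R_y`.  Then `x A_x = (π, t) A_x` for some `t ∈ x`
(namely `t = ∏_g g • s`, `s` a suitable modification of `s₀`). -/
theorem exists_locally_span_pair
    (hrank : Module.finrank A R = Nat.card G)
    (x : Ideal A) [hx : x.IsMaximal] (π : A) (_hπ : π ∈ x)
    (y : Ideal R) [hy : y.IsPrime] (hyx : y.comap (algebraMap A R) = x)
    (hres : ∀ r : R, ∃ a : A, r - algebraMap A R a ∈ y)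
    (s₀ : R) (hs₀ : s₀ ∈ y)
    (hgen : ∀ z ∈ y, ∃ u, u ∉ y ∧ u * z ∈ span {algebraMap A R π, s₀}) :
    ∃ t ∈ x, ∃ r, r ∉ x ∧ ∀ z ∈ x, r * z ∈ span {π, t} := by
  classical
  cases nonempty_fintype G
  have hunder : ∀ g : G, (g • y).comap (algebraMap A R) = x :=
    fun g => (Ideal.under_smul A y g).trans hyx
  have hprime : ∀ g : G, (g • y).IsPrime := fun g => hy.smul g
  have hmax : ∀ g : G, (g • y).IsMaximal := fun g => by
    have := hprime g
    exact Ideal.isMaximal_of_isIntegral_of_isMaximal_comap (R := A) (g • y)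
      (by rw [hunder g]; exact hx)
  obtain ⟨c, hc1, hc2⟩ := exists_crt y hmax
  obtain ⟨hs, hgen'⟩ := locGen_modify y (algebraMap A R π) s₀ c hs₀ hc1 hgen
  obtain ⟨s, hsdef⟩ : ∃ s, s = c * s₀ + (1 - c) ^ 2 := ⟨_, rfl⟩
  rw [← hsdef] at hs hgen'
  have hs1 : ∀ g : G, g • y ≠ y → s - 1 ∈ g • y := by
    intro g hg
    have e : s - 1 = c * (s₀ + c - 2) := by rw [hsdef]; ring
    rw [e]
    exact Ideal.mul_mem_right _ _ (hc2 g hg)
  have hπg : ∀ g : G, g • algebraMap A R π = algebraMap A R π := fun g => smul_algebraMap g π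
  -- transport of the conditions `≡ 1` / `≡ 0` to the conjugates
  have htrans : ∀ (v : R), (∀ g : G, g • y ≠ y → v ∈ g • y) →
      ∀ g j : G, j • y ≠ g • y → g • v ∈ j • y := by
    intro v hv g j hjg
    have h1 : (g⁻¹ * j) • y ≠ y := by
      intro h
      apply hjg
      rw [mul_smul] at h
      have h' : g • (g⁻¹ • j • y) = g • y := by rw [h]
      rwa [smul_inv_smul] at h'
    have h2 := hv (g⁻¹ * j) h1
    have h3 : g • v ∈ g • ((g⁻¹ * j) • y) := Ideal.smul_mem_pointwise_smul g v _ h2
    rwa [mul_smul, smul_inv_smul] at h3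
  have hσ1 : ∀ g j : G, j • y ≠ g • y → g • s - 1 ∈ j • y := by
    intro g j hjg
    have := htrans (s - 1) hs1 g j hjg
    rwa [smul_sub, smul_one] at this
  have hcg : ∀ g j : G, j • y ≠ g • y → g • c ∈ j • y := htrans c hc2
  have hcg1 : ∀ g : G, g • c - 1 ∈ g • y := by
    intro g
    have := Ideal.smul_mem_pointwise_smul g (c - 1) y hc1
    rwa [smul_sub, smul_one] at this
  -- the good form of local generation
  have hgood : ∀ g : G, ∀ z ∈ g • y, ∃ u, (∀ j : G, u ∉ j • y) ∧
      u * z ∈ span {algebraMap A R π, g • s} := by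
    intro g z hz
    have hz' : g⁻¹ • z ∈ y := Ideal.mem_pointwise_smul_iff_inv_smul_mem.mp hz
    obtain ⟨u₀, hu₀, hu₀z⟩ := hgen' _ hz'
    obtain ⟨α, β, hαβ⟩ := Ideal.mem_span_pair.mp hu₀z
    have hu₁z : (g • u₀) * z = (g • α) * algebraMap A R π + (g • β) * (g • s) := by
      have : g • (u₀ * g⁻¹ • z) = g • (α * algebraMap A R π + β * s) := by rw [hαβ]
      rw [smul_mul', smul_inv_smul, smul_add, smul_mul', smul_mul', hπg] at this
      exact this
    refine ⟨(g • u₀) * (g • c) + g • s, fun j hj => ?_, ?_⟩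
    · by_cases hjg : j • y = g • y
      · rw [hjg] at hj
        have e : g • u₀ = ((g • u₀) * (g • c) + g • s) - ((g • u₀) * (g • c - 1) + g • s) := by
          ring
        have h1 : g • u₀ ∈ g • y := by
          rw [e]
          exact (g • y).sub_mem hj ((g • y).add_mem ((g • y).mul_mem_left _ (hcg1 g))
            (Ideal.smul_mem_pointwise_smul g s y hs))
        exact hu₀ (Ideal.smul_mem_pointwise_smul_iff.mp h1)
      · have e : (1 : R) = ((g • u₀) * (g • c) + g • s) - ((g • u₀) * (g • c) + (g • s - 1)) := by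
          ring
        have h1 : (1 : R) ∈ j • y := by
          rw [e]
          exact (j • y).sub_mem hj ((j • y).add_mem ((j • y).mul_mem_left _ (hcg g j hjg))
            (hσ1 g j hjg))
        exact (hmax j).ne_top ((Ideal.eq_top_iff_one _).mpr h1)
    · have e : ((g • u₀) * (g • c) + g • s) * z =
          ((g • c) * (g • α)) * algebraMap A R π + ((g • c) * (g • β) + z) * (g • s) := by
        calc ((g • u₀) * (g • c) + g • s) * z = (g • c) * ((g • u₀) * z) + z * (g • s) := by ring
          _ = (g • c) * ((g • α) * algebraMap A R π + (g • β) * (g • s)) + z * (g • s) := by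
              rw [hu₁z]
          _ = _ := by ring
      rw [e]
      exact Ideal.mem_span_pair.mpr ⟨_, _, rfl⟩
  -- maximal ideals containing `(xR)²` are conjugates of `y`
  have h𝔠 : ∀ 𝔪 : Ideal R, 𝔪.IsMaximal → (x.map (algebraMap A R)) ^ 2 ≤ 𝔪 →
      ∃ g : G, 𝔪 = g • y := by
    intro 𝔪 h𝔪 hle
    have := h𝔪.isPrime
    have h1 : x.map (algebraMap A R) ≤ 𝔪 := Ideal.IsPrime.le_of_pow_le hle
    have h2 : x ≤ 𝔪.comap (algebraMap A R) := Ideal.map_le_iff_le_comap.mp h1
    have h3 : x = 𝔪.comap (algebraMap A R) :=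
      hx.eq_of_le (Ideal.comap_ne_top _ h𝔪.ne_top) h2
    exact Algebra.IsInvariant.exists_smul_of_under_eq A R G y 𝔪 (hyx.trans h3)
  -- Part A
  have hA := length_quotient_span_pair_le (A := A) (fun g : G => g • y) (fun g : G => g • s)
    (algebraMap A R π) x hmax
    (fun g a ha => by
      have h1 : algebraMap A R a ∈ y := by
        rw [← hyx] at ha
        exact ha
      have h2 := Ideal.smul_mem_pointwise_smul g _ y h1
      rwa [smul_algebraMap] at h2)
    (fun g r => by
      obtain ⟨a, ha⟩ := hres (g⁻¹ • r)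
      refine ⟨a, ?_⟩
      have h2 := Ideal.smul_mem_pointwise_smul g _ y ha
      rwa [smul_sub, smul_inv_smul, smul_algebraMap] at h2)
    (fun g => Ideal.smul_mem_pointwise_smul g s y hs)
    hgood ((x.map (algebraMap A R)) ^ 2) h𝔠
  -- the norm
  obtain ⟨t, ht⟩ := Algebra.IsInvariant.isInvariant (A := A) (∏ g : G, g • s)
    (Finset.smul_prod_perm s)
  have htx : t ∈ x := by
    rw [← hyx, Ideal.mem_comap, ht]
    obtain ⟨k, hk⟩ := Finset.dvd_prod_of_mem (fun g : G => g • s) (Finset.mem_univ (1 : G))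
    rw [hk, one_smul]
    exact y.mul_mem_right _ hs
  -- Part B
  have hmap : (span {π, t} ⊔ x ^ 2).map (algebraMap A R) =
      span {algebraMap A R π, ∏ g : G, g • s} ⊔ (x.map (algebraMap A R)) ^ 2 := by
    rw [Ideal.map_sup, Ideal.map_span, Ideal.map_pow, Set.image_pair, ht]
  have hI : span {π, t} ≤ x := by
    rw [Ideal.span_le]
    rintro a (rfl | rfl)
    · exact _hπ
    · exact htx
  have hB := eq_of_length_quotient_map_le (R := R) x (span {π, t} ⊔ x ^ 2) le_sup_right
    (sup_le hI (Ideal.pow_le_self two_ne_zero))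
    (by rw [hrank]; exact Nat.card_pos)
    (by rw [hmap, hrank, Nat.card_eq_fintype_card]; exact hA)
  -- Nakayama
  obtain ⟨r, hr1, hr2⟩ := exists_smul_le_of_eq_sup_sq x (span {π, t})
    (IsNoetherian.noetherian x) hB.ge
  refine ⟨t, htx, r, fun hr => ?_, hr2⟩
  apply hx.ne_top
  rw [Ideal.eq_top_iff_one]
  have : (1 : A) = r - (r - 1) := by ring
  rw [this]
  exact x.sub_mem hr hr1

end Main

/-! ### Corollaries: discrete valuation rings -/

section Corollaries

open Pointwise

/-- A noetherian domain localised at a nonzero prime which is locally principal is a discrete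
valuation ring. -/
theorem isDiscreteValuationRing_atPrime_of_locally_principal {B : Type*} [CommRing B] [IsDomain B]
    [IsNoetherianRing B] (P : Ideal B) [P.IsPrime] (hP : P ≠ ⊥) (t : B) (ht : t ∈ P) (r : B)
    (hr : r ∉ P) (h : ∀ z ∈ P, r * z ∈ span {t}) :
    IsDiscreteValuationRing (Localization.AtPrime P) := by
  have hnoeth : IsNoetherianRing (Localization.AtPrime P) :=
    IsLocalization.isNoetherianRing P.primeCompl _ inferInstance
  have hnf : ¬ IsField (Localization.AtPrime P) :=
    IsLocalization.AtPrime.not_isField B hP (Localization.AtPrime P)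
  refine ((IsDiscreteValuationRing.TFAE (Localization.AtPrime P) hnf).out 0 4).mpr ?_
  refine ⟨⟨algebraMap B (Localization.AtPrime P) t, ?_⟩⟩
  rw [← IsLocalization.AtPrime.map_eq_maximalIdeal P (Localization.AtPrime P)]
  apply le_antisymm
  · rw [Ideal.map_le_iff_le_comap]
    intro z hz
    rw [Ideal.mem_comap]
    obtain ⟨b, hb⟩ := Ideal.mem_span_singleton'.mp (h z hz)
    have hu : IsUnit (algebraMap B (Localization.AtPrime P) r) :=
      IsLocalization.map_units (Localization.AtPrime P) (⟨r, hr⟩ : P.primeCompl)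
    obtain ⟨v, hv⟩ := hu.exists_left_inv
    have e : algebraMap B (Localization.AtPrime P) z =
        (v * algebraMap B (Localization.AtPrime P) b) *
          algebraMap B (Localization.AtPrime P) t := by
      calc algebraMap B (Localization.AtPrime P) z
          = (v * algebraMap B (Localization.AtPrime P) r) *
              algebraMap B (Localization.AtPrime P) z := by rw [hv, one_mul]
        _ = v * algebraMap B (Localization.AtPrime P) (r * z) := by rw [map_mul]; ring
        _ = v * algebraMap B (Localization.AtPrime P) (b * t) := by rw [hb]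
        _ = _ := by rw [map_mul]; ring
    rw [e]
    exact Ideal.mul_mem_left _ _ (Submodule.mem_span_singleton_self _)
  · rw [Submodule.span_singleton_le_iff_mem]
    exact Ideal.mem_map_of_mem _ ht

variable {A R : Type*} [CommRing A] [IsDomain A] [IsNoetherianRing A] [CommRing R] [Algebra A R]
  [Module.Finite A R] [Module.IsTorsionFree A R]
  {G : Type*} [Group G] [Finite G] [MulSemiringAction G R] [SMulCommClass G A R]
  [Algebra.IsInvariant A R G]

/-- **Katz–Mazur quotient lemma, DVR form**: in the situation of `exists_locally_span_pair`, if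
`A ⧸ (π)` is a domain then its localisation at every nonzero prime `P` whose preimage `x` in `A` is
maximal and satisfies the hypotheses (at one prime `y` of `R` over `x`) is a discrete valuation
ring. -/
theorem isDiscreteValuationRing_atPrime_quotient
    (hrank : Module.finrank A R = Nat.card G) (π : A) [hπ : (span {π} : Ideal A).IsPrime]
    (P : Ideal (A ⧸ (span {π} : Ideal A))) [hPp : P.IsPrime] (hP : P ≠ ⊥)
    [hx : (P.comap (Ideal.Quotient.mk (span {π} : Ideal A))).IsMaximal]
    (y : Ideal R) [hy : y.IsPrime]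
    (hyx : y.comap (algebraMap A R) = P.comap (Ideal.Quotient.mk (span {π} : Ideal A)))
    (hres : ∀ r : R, ∃ a : A, r - algebraMap A R a ∈ y)
    (s₀ : R) (hs₀ : s₀ ∈ y)
    (hgen : ∀ z ∈ y, ∃ u, u ∉ y ∧ u * z ∈ span {algebraMap A R π, s₀}) :
    IsDiscreteValuationRing (Localization.AtPrime P) := by
  have hπx : π ∈ P.comap (Ideal.Quotient.mk (span {π} : Ideal A)) := by
    rw [Ideal.mem_comap, Ideal.Quotient.eq_zero_iff_mem.mpr (Ideal.mem_span_singleton_self π)]
    exact P.zero_mem
  obtain ⟨t, htx, r, hr, h⟩ := exists_locally_span_pair (G := G) hrank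
    (P.comap (Ideal.Quotient.mk (span {π} : Ideal A))) π hπx y hyx hres s₀ hs₀ hgen
  refine isDiscreteValuationRing_atPrime_of_locally_principal P hP
    (Ideal.Quotient.mk _ t) htx (Ideal.Quotient.mk _ r) hr ?_
  intro z hz
  obtain ⟨z, rfl⟩ := Ideal.Quotient.mk_surjective z
  obtain ⟨α, β, hαβ⟩ := Ideal.mem_span_pair.mp (h z hz)
  rw [← map_mul, ← hαβ, map_add, map_mul, map_mul,
    Ideal.Quotient.eq_zero_iff_mem.mpr (Ideal.mem_span_singleton_self π), mul_zero, zero_add]
  exact Ideal.mul_mem_left _ _ (Ideal.mem_span_singleton_self _)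

end Corollaries

end Fermat.Agent.N4.QuotientRegular
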