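/-
Sreg piece (SR-4) (helper13 #1066): the final Dedekind criterion for the special fibre `A ⧸ ϖ A`
(dimension ≤ 1 by integrality over `k[j̄]`, DVR at every closed point by local principality).
-/
import Mathlib
import Fermat.Agent.N4.QuotientRegular

set_option autoImplicit false
set_option linter.style.haveILetI false
set_option linter.unusedSectionVars false

open Polynomial

namespace Fermat.Agent.N4.DedekindFibre

open Fermat.Agent.N4.QuotientRegular

/-- **Dedekind criterion for the special fibre**: `A` a noetherian domain over `O`, integral over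
`O[j]`, `ϖ ∈ O` generating a maximal ideal, `ϖ A` prime, and every maximal ideal `x ∋ ϖ` of `A`
locally generated by `ϖ` and one more element.  Then `A ⧸ ϖ A` is a Dedekind domain. -/
theorem isDedekindDomain_quotient {O A : Type*} [CommRing O] [CommRing A] [IsDomain A]
    [IsNoetherianRing A] [Algebra O A] (ϖ : O) (hϖ : (Ideal.span {ϖ}).IsMaximal) (j : A)
    (hint : ∀ a : A, IsIntegral (Algebra.adjoin O {j}) a)
    (hprime : (Ideal.span {algebraMap O A ϖ}).IsPrime)
    (hloc : ∀ x : Ideal A, x.IsMaximal → algebraMap O A ϖ ∈ x →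
      ∃ t ∈ x, ∃ r, r ∉ x ∧ ∀ z ∈ x, r * z ∈ Ideal.span {algebraMap O A ϖ, t}) :
    IsDedekindDomain (A ⧸ Ideal.span {algebraMap O A ϖ}) := by
  classical
  set I : Ideal A := Ideal.span {algebraMap O A ϖ} with hI
  haveI := hprime
  haveI : IsDomain (A ⧸ I) := Ideal.Quotient.isDomain I
  letI : Field (O ⧸ Ideal.span {ϖ}) := Ideal.Quotient.field _
  -- the structure map `k → D`
  have hle : Ideal.span {ϖ} ≤ I.comap (algebraMap O A) := by
    rw [Ideal.span_le, Set.singleton_subset_iff]
    exact Ideal.subset_span (Set.mem_singleton _)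
  let g₀ : O ⧸ Ideal.span {ϖ} →+* A ⧸ I := Ideal.quotientMap I (algebraMap O A) hle
  let f : (O ⧸ Ideal.span {ϖ})[X] →+* A ⧸ I := Polynomial.eval₂RingHom g₀ (Ideal.Quotient.mk I j)
  -- the image of `O[j]` lies in the range of `f`
  have hrange : ∀ c ∈ Algebra.adjoin O {j}, Ideal.Quotient.mk I c ∈ f.range := by
    intro c hc
    induction hc using Algebra.adjoin_induction with
    | mem y hy =>
      rw [Set.mem_singleton_iff] at hy
      subst hy
      exact ⟨X, by simp [f]⟩
    | algebraMap o =>
      exact ⟨C (Ideal.Quotient.mk _ o), by simp [f, g₀]⟩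
    | add y z _ _ hy hz => rw [map_add]; exact add_mem hy hz
    | mul y z _ _ hy hz => rw [map_mul]; exact mul_mem hy hz
  -- `D` is integral over `k[X]`
  have hf : f.IsIntegral := by
    intro d
    obtain ⟨a, rfl⟩ := Ideal.Quotient.mk_surjective d
    obtain ⟨P, hPm, hP⟩ := hint a
    let g : ↥(Algebra.adjoin O {j}) →+* A ⧸ I :=
      (Ideal.Quotient.mk I).comp (algebraMap ↥(Algebra.adjoin O {j}) A)
    have hl : P.map g ∈ Polynomial.lifts f := by
      rw [Polynomial.lifts_iff_coeff_lifts]
      intro n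
      rw [Polynomial.coeff_map]
      exact hrange _ (P.coeff n).2
    obtain ⟨Q, hQ, -, hQm⟩ := Polynomial.lifts_and_natDegree_eq_and_monic hl (hPm.map g)
    refine ⟨Q, hQm, ?_⟩
    rw [← Polynomial.eval_map, hQ, Polynomial.eval_map]
    have := congrArg (Ideal.Quotient.mk I) hP
    rw [Polynomial.hom_eval₂, map_zero] at this
    exact this
  letI : Algebra (O ⧸ Ideal.span {ϖ})[X] (A ⧸ I) := f.toAlgebra
  haveI : Algebra.IsIntegral (O ⧸ Ideal.span {ϖ})[X] (A ⧸ I) := ⟨hf⟩
  haveI : Ring.DimensionLEOne (A ⧸ I) :=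
    Ring.DimensionLEOne.of_isIntegral (O ⧸ Ideal.span {ϖ})[X] (A ⧸ I)
  haveI : IsDedekindDomainDvr (A ⧸ I) := by
    refine { toIsNoetherian := inferInstance, is_dvr_at_nonzero_prime := fun P hP0 hPp => ?_ }
    haveI := hPp
    have hPmax : P.IsMaximal := hPp.isMaximal hP0
    have hxmax : (P.comap (Ideal.Quotient.mk I)).IsMaximal :=
      Ideal.comap_isMaximal_of_surjective _ Ideal.Quotient.mk_surjective
    have hϖx : algebraMap O A ϖ ∈ P.comap (Ideal.Quotient.mk I) := by
      rw [Ideal.mem_comap, Ideal.Quotient.eq_zero_iff_mem.mpr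
        (Ideal.subset_span (Set.mem_singleton _))]
      exact P.zero_mem
    obtain ⟨t, htx, r, hr, h⟩ := hloc _ hxmax hϖx
    refine isDiscreteValuationRing_atPrime_of_locally_principal P hP0
      (Ideal.Quotient.mk I t) htx (Ideal.Quotient.mk I r) hr ?_
    intro z hz
    obtain ⟨z, rfl⟩ := Ideal.Quotient.mk_surjective z
    obtain ⟨α, β, hαβ⟩ := Ideal.mem_span_pair.mp (h z hz)
    rw [← map_mul, ← hαβ, map_add, map_mul, map_mul,
      Ideal.Quotient.eq_zero_iff_mem.mpr (Ideal.subset_span (Set.mem_singleton _)), mul_zero,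
      zero_add]
    exact Ideal.mul_mem_left _ _ (Ideal.mem_span_singleton_self _)
  exact IsDedekindDomainDvr.isDedekindDomain (A ⧸ I)

end Fermat.Agent.N4.DedekindFibre
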