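/-
N4 block (L2), core: a finite free algebra `T` with unit trace discriminant over an integrally
closed domain `A` is reduced, and any two distinct minimal primes of `T` are comaximal
(`T` is integrally closed in its total ring of fractions, hence contains its idempotents).
-/
import Mathlib

set_option autoImplicit false

open Polynomial

namespace Fermat.Agent.N4.EtaleCore

section TraceIntegral

variable {A K : Type*} [CommRing A] [IsDomain A] [IsIntegrallyClosed A] [Field K] [Algebra A K]
  [IsFractionRing A K]

omit [IsDomain A] in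
/-- A square matrix over the fraction field `K` of an integrally closed domain `A` which is a
root of a monic polynomial with coefficients in `A` has its trace in `A`. -/
theorem trace_mem_range_of_aeval_eq_zero {n : Type*} [Fintype n] [DecidableEq n]
    (M : Matrix n n K) (p : A[X]) (hp : p.Monic)
    (hM : aeval M (p.map (algebraMap A K)) = 0) :
    M.trace ∈ (algebraMap A K).range := by
  classical
  let Ω := AlgebraicClosure K
  let φ : K →+* Ω := algebraMap K Ω
  let ψ : Matrix n n K →ₐ[K] Matrix n n Ω := (Algebra.ofId K Ω).mapMatrix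
  set MΩ : Matrix n n Ω := ψ M with hMΩ
  set q : K[X] := p.map (algebraMap A K) with hq
  have h1 : aeval MΩ q = 0 := by
    rw [hMΩ, aeval_algHom_apply, hM, map_zero]
  have h2 : aeval MΩ (q.map φ) = 0 := by
    rw [aeval_map_algebraMap]; exact h1
  -- pass to endomorphisms of `n → Ω`
  let g : Module.End Ω (n → Ω) := Matrix.toLinAlgEquiv' MΩ
  have hg : aeval g (q.map φ) = 0 := by
    show aeval ((Matrix.toLinAlgEquiv' : Matrix n n Ω ≃ₐ[Ω] _).toAlgHom MΩ) (q.map φ) = 0
    rw [aeval_algHom_apply, h2, map_zero]
  have hgchar : g.charpoly = MΩ.charpoly := by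
    have := LinearMap.charpoly_toMatrix g (Pi.basisFun Ω n)
    rw [← this]
    congr 1
    show LinearMap.toMatrix (Pi.basisFun Ω n) (Pi.basisFun Ω n) (Matrix.toLin' MΩ) = MΩ
    rw [LinearMap.toMatrix_eq_toMatrix', LinearMap.toMatrix'_toLin']
  have hroot : ∀ μ ∈ MΩ.charpoly.roots, IsIntegral A μ := by
    intro μ hμ
    have hμ' : g.charpoly.IsRoot μ := by
      rw [hgchar]; exact (mem_roots'.mp hμ).2
    have hev : g.HasEigenvalue μ := (Module.End.hasEigenvalue_iff_isRoot_charpoly g μ).mpr hμ'
    obtain ⟨v, hv⟩ := hev.exists_hasEigenvector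
    have h3 := Module.End.aeval_apply_of_hasEigenvector (p := q.map φ) hv
    rw [hg, LinearMap.zero_apply] at h3
    have h4 : (q.map φ).eval μ = 0 := by
      rcases smul_eq_zero.mp h3.symm with h | h
      · exact h
      · exact absurd h hv.2
    refine ⟨p, hp, ?_⟩
    rw [← h4, hq, Polynomial.map_map, eval_map]
    congr 1
  have htrace : φ M.trace = MΩ.trace := by
    simp [hMΩ, ψ, Matrix.trace, AlgHom.mapMatrix_apply, φ, Algebra.ofId_apply]
  have hsplit : MΩ.charpoly.Splits := IsAlgClosed.splits _
  have hint : IsIntegral A (φ M.trace) := by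
    rw [htrace, Matrix.trace_eq_sum_roots_charpoly_of_splits hsplit]
    exact IsIntegral.multiset_sum hroot
  have hint' : IsIntegral A M.trace :=
    (isIntegral_algebraMap_iff (algebraMap K Ω).injective).mp hint
  exact IsIntegrallyClosed.isIntegral_iff.mp hint'

end TraceIntegral

section Core

open scoped nonZeroDivisors

variable {A T : Type*} [CommRing A] [IsDomain A] [IsIntegrallyClosed A] [CommRing T] [Algebra A T]
variable (K TK : Type*) [Field K] [Algebra A K] [IsFractionRing A K]
  [CommRing TK] [Algebra T TK] [Algebra K TK] [Algebra A TK] [IsScalarTower A K TK]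
  [IsScalarTower A T TK] [IsLocalization (Algebra.algebraMapSubmonoid T A⁰) TK]
variable {ι : Type*} [Fintype ι] [DecidableEq ι]

omit [IsDomain A] in
/-- The trace of an element of `TK` integral over `A` lies in `A`. -/
lemma trace_mem_range_of_isIntegral (bK : Module.Basis ι K TK) {x : TK} (hx : IsIntegral A x) :
    Algebra.trace K TK x ∈ (algebraMap A K).range := by
  obtain ⟨p, hp, hpx⟩ := hx
  rw [Algebra.trace_eq_matrix_trace bK]
  refine trace_mem_range_of_aeval_eq_zero (A := A) _ p hp ?_
  rw [aeval_algHom_apply, aeval_map_algebraMap, aeval_def, hpx, map_zero]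

include K in
/-- **Idempotents descend.** If `T` is finite free over the integrally closed domain `A` with
unit trace discriminant, every idempotent of `TK = T ⊗ Frac A` lies in `T`. -/
theorem exists_algebraMap_eq_of_isIdempotentElem (b : Module.Basis ι A T)
    (hb : IsUnit (Algebra.discr A b)) {e : TK} (he : IsIdempotentElem e) :
    ∃ e₀ : T, algebraMap T TK e₀ = e := by
  classical
  have hfin : Module.Finite A T := Module.Finite.of_basis b
  let bK : Module.Basis ι K TK := b.localizationLocalization K A⁰ TK
  have hbK : ∀ i, bK i = algebraMap T TK (b i) :=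
    fun i => Module.Basis.localizationLocalization_apply K A⁰ TK b i
  have heint : IsIntegral A e := by
    refine ⟨X ^ 2 - X, monic_X_pow_sub (by simp), ?_⟩
    simp [pow_two, he.eq]
  have hint : ∀ j, ∃ a : A, algebraMap A K a = Algebra.trace K TK (e * bK j) := by
    intro j
    have h2 : IsIntegral A (bK j) := by
      rw [hbK]
      exact (Algebra.IsIntegral.isIntegral (R := A) (b j)).map (IsScalarTower.toAlgHom A T TK)
    exact trace_mem_range_of_isIntegral K TK bK (heint.mul h2)
  choose a ha using hint
  set M : Matrix ι ι A := Algebra.traceMatrix A b with hM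
  have hMdet : IsUnit M.det := hb
  have hMK : Algebra.traceMatrix K bK = M.map (algebraMap A K) := by
    rw [hM, ← RingHom.mapMatrix_apply]
    exact Algebra.traceMatrix_localizationLocalization A (Rₘ := K) A⁰ TK b
  set c : ι → K := fun i => bK.repr e i with hc
  have hsum : e = ∑ i, c i • bK i := (bK.sum_repr e).symm
  -- the key linear system
  have hsys : Matrix.vecMul c (M.map (algebraMap A K)) = fun j => algebraMap A K (a j) := by
    funext j
    rw [ha j]
    conv_rhs => rw [hsum, Finset.sum_mul, map_sum]
    simp only [Matrix.vecMul, dotProduct, ← hMK, Algebra.traceMatrix_apply,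
      Algebra.traceForm_apply, smul_mul_assoc, map_smul, smul_eq_mul]
  set w : ι → A := Matrix.vecMul a M⁻¹ with hw
  have hcw : ∀ i, c i = algebraMap A K (w i) := by
    intro i
    have h1 : Matrix.vecMul (Matrix.vecMul c (M.map (algebraMap A K)))
        (M⁻¹.map (algebraMap A K)) = c := by
      rw [Matrix.vecMul_vecMul, ← Matrix.map_mul, Matrix.mul_nonsing_inv M hMdet,
        Matrix.map_one _ (map_zero _) (map_one _), Matrix.vecMul_one]
    rw [hsys] at h1
    have h2 := RingHom.map_vecMul (algebraMap A K) M⁻¹ a i
    rw [hw, h2, ← congrFun h1 i]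
    rfl
  refine ⟨∑ i, w i • b i, ?_⟩
  rw [hsum, map_sum]
  refine Finset.sum_congr rfl fun i _ => ?_
  rw [hcw i, hbK, algebraMap_smul, Algebra.smul_def, Algebra.smul_def, map_mul,
    ← IsScalarTower.algebraMap_apply A T TK]

omit [IsDomain A] [IsIntegrallyClosed A] in
include K in
/-- `TK` is reduced: its trace form is nondegenerate. -/
theorem isReduced_localization (b : Module.Basis ι A T) (hb : IsUnit (Algebra.discr A b)) :
    IsReduced TK := by
  classical
  let bK : Module.Basis ι K TK := b.localizationLocalization K A⁰ TK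
  have hdisc : Algebra.discr K bK = algebraMap A K (Algebra.discr A b) :=
    Algebra.discr_localizationLocalization A (Rₘ := K) A⁰ TK b
  have hne : Algebra.discr K bK ≠ 0 := by
    rw [hdisc]
    exact (hb.map (algebraMap A K)).ne_zero
  have hnd : (Algebra.traceForm K TK).Nondegenerate := by
    refine LinearMap.BilinForm.nondegenerate_of_det_ne_zero (Algebra.traceForm K TK) bK ?_
    have : (LinearMap.BilinForm.toMatrix bK) (Algebra.traceForm K TK) =
        Algebra.traceMatrix K bK := by
      ext i j
      rw [Algebra.traceForm_toMatrix, Algebra.traceMatrix_apply, Algebra.traceForm_apply]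
    rw [this]
    exact hne
  have : Module.Finite K TK := Module.Finite.of_basis bK
  have : Module.Free K TK := Module.Free.of_basis bK
  refine ⟨fun x (hx : IsNilpotent x) => ?_⟩
  have h0 : ∀ y, Algebra.traceForm K TK x y = 0 := by
    intro y
    rw [Algebra.traceForm_apply]
    exact (Algebra.isNilpotent_trace_of_isNilpotent (R := K)
      ((Commute.all x y).isNilpotent_mul_right hx)).eq_zero
  exact hnd.1 x h0

omit [IsIntegrallyClosed A] [Fintype ι] [DecidableEq ι] in
/-- The elements of `A⁰` are nonzerodivisors on the free module `T`. -/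
lemma algebraMapSubmonoid_le_nonZeroDivisors (b : Module.Basis ι A T) :
    Algebra.algebraMapSubmonoid T A⁰ ≤ T⁰ := by
  rintro _ ⟨a, ha, rfl⟩
  have ha0 : a ≠ 0 := nonZeroDivisors.ne_zero ha
  refine mem_nonZeroDivisors_iff_right.mpr fun t ht => ?_
  have h1 : a • t = 0 := by rw [Algebra.smul_def, mul_comm]; exact ht
  have h2 : ∀ i, b.repr t i = 0 := by
    intro i
    have := congrArg (fun z => b.repr z i) h1
    simp only [map_smul, Finsupp.smul_apply, smul_eq_mul, map_zero, Finsupp.zero_apply] at this
    exact (mul_eq_zero.mp this).resolve_left ha0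
  exact b.repr.map_eq_zero_iff.mp (Finsupp.ext h2)

include K TK in
/-- **Distinct minimal primes are comaximal** in a finite free algebra with unit trace
discriminant over an integrally closed domain. -/
theorem sup_eq_top_of_mem_minimalPrimes_aux (b : Module.Basis ι A T)
    (hb : IsUnit (Algebra.discr A b)) {P Q : Ideal T} (hP : P ∈ minimalPrimes T)
    (hQ : Q ∈ minimalPrimes T) (hPQ : P ≠ Q) : P ⊔ Q = ⊤ := by
  classical
  set M := Algebra.algebraMapSubmonoid T A⁰ with hMdef
  have hMle : M ≤ T⁰ := algebraMapSubmonoid_le_nonZeroDivisors b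
  have hPp : P.IsPrime := hP.1.1
  have hQp : Q.IsPrime := hQ.1.1
  have hdP : Disjoint (M : Set T) (P : Set T) :=
    (Set.disjoint_of_subset_right hMle
      (Ideal.disjoint_nonZeroDivisors_of_mem_minimalPrimes hP)).symm
  have hdQ : Disjoint (M : Set T) (Q : Set T) :=
    (Set.disjoint_of_subset_right hMle
      (Ideal.disjoint_nonZeroDivisors_of_mem_minimalPrimes hQ)).symm
  set PK : Ideal TK := P.map (algebraMap T TK) with hPK
  set QK : Ideal TK := Q.map (algebraMap T TK) with hQK
  have hPKp : PK.IsPrime := IsLocalization.isPrime_of_isPrime_disjoint M TK P hPp hdP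
  have hQKp : QK.IsPrime := IsLocalization.isPrime_of_isPrime_disjoint M TK Q hQp hdQ
  have hcP : PK.comap (algebraMap T TK) = P :=
    IsLocalization.under_map_of_isPrime_disjoint M TK hPp hdP
  have hcQ : QK.comap (algebraMap T TK) = Q :=
    IsLocalization.under_map_of_isPrime_disjoint M TK hQp hdQ
  have hne : PK ≠ QK := fun h => hPQ (by rw [← hcP, ← hcQ, h])
  let bK : Module.Basis ι K TK := b.localizationLocalization K A⁰ TK
  have : Module.Finite K TK := Module.Finite.of_basis bK
  have : IsArtinianRing TK := IsArtinianRing.of_finite K TK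
  have : IsReduced TK := isReduced_localization K TK b hb
  have hPKm : PK.IsMaximal := IsArtinianRing.isMaximal_of_isPrime PK
  have hQKm : QK.IsMaximal := IsArtinianRing.isMaximal_of_isPrime QK
  let f : ∀ I : MaximalSpectrum TK, TK ⧸ I.asIdeal := fun I => if I.asIdeal = PK then 0 else 1
  set e : TK := (IsArtinianRing.equivPi TK).symm f with he
  have hef : IsArtinianRing.equivPi TK e = f := by rw [he, AlgEquiv.apply_symm_apply]
  have hidem : IsIdempotentElem e := by
    apply (IsArtinianRing.equivPi TK).injective
    rw [map_mul, hef]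
    funext I
    simp only [Pi.mul_apply, f]
    split_ifs <;> simp
  have heP : e ∈ PK := by
    have h1 : IsArtinianRing.equivPi TK e ⟨PK, hPKm⟩ = 0 := by rw [hef]; simp [f]
    rw [IsArtinianRing.equivPi_apply] at h1
    exact Ideal.Quotient.eq_zero_iff_mem.mp h1
  have heQ : 1 - e ∈ QK := by
    have h1 : IsArtinianRing.equivPi TK e ⟨QK, hQKm⟩ = 1 := by
      rw [hef]; simp only [f]; rw [if_neg (Ne.symm hne)]
    rw [IsArtinianRing.equivPi_apply] at h1
    rw [← Ideal.Quotient.eq_zero_iff_mem, map_sub, map_one, h1, sub_self]
  obtain ⟨e₀, he₀⟩ := exists_algebraMap_eq_of_isIdempotentElem K TK b hb hidem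
  have h1 : e₀ ∈ P := by
    rw [← hcP, Ideal.mem_comap, he₀]; exact heP
  have h2 : 1 - e₀ ∈ Q := by
    rw [← hcQ, Ideal.mem_comap, map_sub, map_one, he₀]; exact heQ
  rw [Ideal.eq_top_iff_one]
  have : (1 : T) = e₀ + (1 - e₀) := by ring
  rw [this]
  exact Submodule.add_mem_sup h1 h2

omit [IsIntegrallyClosed A] in
/-- A finite free algebra with unit trace discriminant over a domain is reduced. -/
theorem isReduced_of_isUnit_discr (b : Module.Basis ι A T) (hb : IsUnit (Algebra.discr A b)) :
    IsReduced T := by
  have := isReduced_localization (FractionRing A)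
    (Localization (Algebra.algebraMapSubmonoid T A⁰)) b hb
  exact isReduced_of_injective (algebraMap T (Localization (Algebra.algebraMapSubmonoid T A⁰)))
    (IsLocalization.injective _ (algebraMapSubmonoid_le_nonZeroDivisors b))

/-- **Distinct minimal primes are comaximal** in a finite free algebra with unit trace
discriminant over an integrally closed domain. -/
theorem sup_eq_top_of_mem_minimalPrimes (b : Module.Basis ι A T)
    (hb : IsUnit (Algebra.discr A b)) {P Q : Ideal T} (hP : P ∈ minimalPrimes T)
    (hQ : Q ∈ minimalPrimes T) (hPQ : P ≠ Q) : P ⊔ Q = ⊤ :=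
  sup_eq_top_of_mem_minimalPrimes_aux (FractionRing A)
    (Localization (Algebra.algebraMapSubmonoid T A⁰)) b hb hP hQ hPQ

end Core

end Fermat.Agent.N4.EtaleCore
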