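/-
N4 block Sreg, part 1: the fibres of the étale normalisation over the closed points of the special
fibre are reduced.

* `isRadical_map_of_isUnit_discr` : for a finite free algebra `T` over `A` with unit trace
  discriminant and a prime ideal `𝔭` of `A`, the ideal `𝔭 T` is radical;
* `isRadical_map_of_hyp` : under `EtaleNormalization.Hyp B E L π` with `B/π` a principal ideal
  domain, `𝔪 S` is radical for every prime `𝔪 ∋ π` of `B` (`S` the integral closure of `B` in `L`);
* `exists_mul_mem_map_of_hyp` : if moreover `𝔪` is maximal and `y ⊇ 𝔪 S` is a prime of `S`, then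
  `y S_y = 𝔪 S_y`: `∀ z ∈ y, ∃ u ∉ y, u * z ∈ 𝔪 S`.
-/
import Mathlib
import Fermat.Agent.N4.EtaleNormalization

set_option autoImplicit false

open Polynomial

namespace Fermat.Agent.N4.EtaleFibre

open Fermat.Agent.N4.EtaleNormalization

section Core

variable {A T : Type*} [CommRing A] [CommRing T] [Algebra A T] {ι : Type*} [Fintype ι]
  [DecidableEq ι]

/-- The trace of an element of a finite free algebra which is nilpotent modulo a prime ideal `𝔭`
lies in `𝔭`. -/
theorem trace_mem_of_pow_mem_map (b : Module.Basis ι A T) (𝔭 : Ideal A) [𝔭.IsPrime] {w : T}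
    {r : ℕ} (hw : w ^ r ∈ 𝔭.map (algebraMap A T)) : Algebra.trace A T w ∈ 𝔭 := by
  let φ : T →+* Matrix ι ι (A ⧸ 𝔭) :=
    (RingHom.mapMatrix (Ideal.Quotient.mk 𝔭)).comp (Algebra.leftMulMatrix b).toRingHom
  have hker : 𝔭.map (algebraMap A T) ≤ RingHom.ker φ := by
    rw [Ideal.map_le_iff_le_comap]
    intro p hp
    rw [Ideal.mem_comap, RingHom.mem_ker]
    show (RingHom.mapMatrix (Ideal.Quotient.mk 𝔭)) (Algebra.leftMulMatrix b (algebraMap A T p)) = 0
    rw [AlgHom.commutes, Matrix.algebraMap_eq_diagonal, RingHom.mapMatrix_apply,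
      Matrix.diagonal_map (map_zero _)]
    have h0 : (fun m : ι => (Ideal.Quotient.mk 𝔭) ((algebraMap A (ι → A)) p m)) = 0 := by
      funext m
      show (Ideal.Quotient.mk 𝔭) p = 0
      exact Ideal.Quotient.eq_zero_iff_mem.mpr hp
    rw [h0]
    exact Matrix.diagonal_zero
  have h0 : φ w ^ r = 0 := by
    rw [← map_pow]
    exact hker hw
  have hnil : IsNilpotent (φ w).trace := Matrix.isNilpotent_trace_of_isNilpotent ⟨r, h0⟩
  have htr : (φ w).trace = Ideal.Quotient.mk 𝔭 (Algebra.trace A T w) := by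
    rw [Algebra.trace_eq_matrix_trace b]
    show ((Algebra.leftMulMatrix b w).map (Ideal.Quotient.mk 𝔭)).trace = _
    rw [← AddMonoidHom.map_trace]
  rw [htr] at hnil
  exact Ideal.Quotient.eq_zero_iff_mem.mp hnil.eq_zero

/-- **The fibres of a finite free algebra with unit trace discriminant are reduced.** -/
theorem isRadical_map_of_isUnit_discr (b : Module.Basis ι A T)
    (hb : IsUnit (Algebra.discr A b)) (𝔭 : Ideal A) [𝔭.IsPrime] :
    (𝔭.map (algebraMap A T)).IsRadical := by
  intro x hx
  obtain ⟨r, hr⟩ := hx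
  -- all traces `Tr(x b_j)` lie in `𝔭`
  have htr : ∀ j, Algebra.trace A T (x * b j) ∈ 𝔭 := fun j =>
    trace_mem_of_pow_mem_map b 𝔭 (r := r) (by
      rw [mul_pow]
      exact Ideal.mul_mem_right _ _ hr)
  -- coordinates of `x`
  set a : ι → A := fun i => b.repr x i with ha
  have hx : x = ∑ i, a i • b i := (b.sum_repr x).symm
  set M := Algebra.traceMatrix A b with hM
  have hMunit : IsUnit M.det := by rwa [← Algebra.discr_def]
  have hv : ∀ j, (Matrix.vecMul a M) j ∈ 𝔭 := by
    intro j
    have : Matrix.vecMul a M j = Algebra.trace A T (x * b j) := by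
      rw [Matrix.vecMul, dotProduct]
      conv_rhs => rw [hx, Finset.sum_mul, map_sum]
      refine Finset.sum_congr rfl fun i _ => ?_
      rw [hM, Algebra.traceMatrix_apply, Algebra.traceForm_apply, smul_mul_assoc, map_smul,
        smul_eq_mul]
    rw [this]
    exact htr j
  -- invert the trace matrix
  have hainv : a = Matrix.vecMul (Matrix.vecMul a M) M⁻¹ := by
    rw [Matrix.vecMul_vecMul, Matrix.mul_nonsing_inv _ hMunit, Matrix.vecMul_one]
  have hmem : ∀ i, a i ∈ 𝔭 := by
    intro i
    rw [hainv, Matrix.vecMul, dotProduct]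
    exact Ideal.sum_mem _ fun j _ => Ideal.mul_mem_right _ _ (hv j)
  rw [hx]
  refine Ideal.sum_mem _ fun i _ => ?_
  rw [Algebra.smul_def]
  exact Ideal.mul_mem_right _ _ (Ideal.mem_map_of_mem _ (hmem i))

end Core

section Artinian

variable {T : Type*} [CommRing T]

/-- In a reduced artinian ring, every element `z` is killed by an element `u` which is `1` modulo
`z`; in particular `u ∉ 𝔮` for every proper ideal `𝔮 ∋ z`. -/
theorem exists_mul_eq_zero_of_isReduced [IsArtinianRing T] [IsReduced T] (z : T) :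
    ∃ w : T, (1 - w * z) * z = 0 := by
  -- the chain `(z^n)` stabilises
  let f : ℕ →o (Ideal T)ᵒᵈ :=
    ⟨fun n => OrderDual.toDual (Ideal.span {z ^ n}), fun m n hmn => by
      show Ideal.span {z ^ n} ≤ Ideal.span {z ^ m}
      rw [Ideal.span_singleton_le_span_singleton]
      exact pow_dvd_pow z hmn⟩
  obtain ⟨n, hn⟩ := IsArtinian.monotone_stabilizes (R := T) (M := T) f
  have h1 : Ideal.span {z ^ n} = Ideal.span {z ^ (n + 1)} := by
    have := hn (n + 1) (Nat.le_succ n)
    exact congrArg OrderDual.ofDual this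
  have h2 : z ^ n ∈ Ideal.span {z ^ (n + 1)} := by
    rw [← h1]; exact Ideal.mem_span_singleton_self _
  obtain ⟨w, hw⟩ := Ideal.mem_span_singleton'.mp h2
  refine ⟨w, ?_⟩
  have h3 : ((1 - w * z) * z) ^ (n + 1) = 0 := by
    have : (1 - w * z) * z ^ n = 0 := by
      calc (1 - w * z) * z ^ n = z ^ n - w * z ^ (n + 1) := by ring
        _ = 0 := by rw [hw, sub_self]
    calc ((1 - w * z) * z) ^ (n + 1) = (1 - w * z) ^ n * z * ((1 - w * z) * z ^ n) := by
          rw [mul_pow, pow_succ (1 - w * z) n, pow_succ' z n]; ring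
      _ = 0 := by rw [this, mul_zero]
  exact IsReduced.eq_zero _ ⟨n + 1, h3⟩

end Artinian

section Hyp

variable {B E L : Type*} [CommRing B] [IsDomain B] [IsIntegrallyClosed B] [IsNoetherianRing B]
  [Field E] [Algebra B E] [IsFractionRing B E]
  [Field L] [Algebra E L] [Algebra B L] [IsScalarTower B E L] [FiniteDimensional E L]
  [Algebra.IsSeparable E L]
  (S : Type*) [CommRing S] [Algebra B S] [Algebra S L] [IsScalarTower B S L]
  [IsIntegralClosure S B L] [Module.Finite B S]
  {π : B} [IsPrincipalIdealRing (B ⧸ Ideal.span {π})]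

/-- **The fibres of the étale normalisation over the points of the special fibre are reduced.** -/
theorem isRadical_map_of_hyp (h : Hyp B E L π) (𝔪 : Ideal B) [h𝔪 : 𝔪.IsPrime] (hπ𝔪 : π ∈ 𝔪) :
    (𝔪.map (algebraMap B S)).IsRadical := by
  classical
  have hπ := h.prime
  have hprime : (Ideal.span {π}).IsPrime := (Ideal.span_singleton_prime hπ.ne_zero).mpr hπ
  have : IsDomain (B ⧸ Ideal.span {π}) := Ideal.Quotient.isDomain _
  have : Module.IsTorsionFree (B ⧸ Ideal.span {π})
      (S ⧸ (Ideal.span {π}).map (algebraMap B S)) := isTorsionFree_quotient (E := E) (L := L) hπ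
  have : Module.Finite B (S ⧸ (Ideal.span {π}).map (algebraMap B S)) :=
    Module.Finite.of_surjective
      (Ideal.Quotient.mkₐ B ((Ideal.span {π}).map (algebraMap B S))).toLinearMap
      Ideal.Quotient.mk_surjective
  have : Module.Finite (B ⧸ Ideal.span {π}) (S ⧸ (Ideal.span {π}).map (algebraMap B S)) :=
    Module.Finite.of_restrictScalars_finite B _ _
  have : Module.Free (B ⧸ Ideal.span {π}) (S ⧸ (Ideal.span {π}).map (algebraMap B S)) :=
    inferInstance
  let sbar := Module.Free.chooseBasis (B ⧸ Ideal.span {π})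
    (S ⧸ (Ideal.span {π}).map (algebraMap B S))
  let s := fun i => Function.surjInv
    (Ideal.Quotient.mk_surjective (I := (Ideal.span {π}).map (algebraMap B S))) (sbar i)
  have hs : ∀ i, Ideal.Quotient.mk _ (s i) = sbar i := fun i => Function.surjInv_eq _ _
  have hunit := isUnit_discr_quotient (E := E) (L := L) sbar s hs h
  -- the image of `𝔪` in `B/π` is prime
  have hle : Ideal.span {π} ≤ 𝔪 := (Ideal.span_singleton_le_iff_mem _).mpr hπ𝔪
  have h𝔪bar : (𝔪.map (Ideal.Quotient.mk (Ideal.span {π}))).IsPrime :=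
    Ideal.map_isPrime_of_surjective Ideal.Quotient.mk_surjective (by rwa [Ideal.mk_ker])
  have hrad := isRadical_map_of_isUnit_discr sbar hunit (𝔪.map (Ideal.Quotient.mk (Ideal.span {π})))
  -- pull back
  have hcomap : 𝔪.map (algebraMap B S) =
      ((𝔪.map (Ideal.Quotient.mk (Ideal.span {π}))).map (algebraMap (B ⧸ Ideal.span {π})
        (S ⧸ (Ideal.span {π}).map (algebraMap B S)))).comap
        (Ideal.Quotient.mk ((Ideal.span {π}).map (algebraMap B S))) := by
    rw [Ideal.map_map]
    have hcomp : (algebraMap (B ⧸ Ideal.span {π}) (S ⧸ (Ideal.span {π}).map (algebraMap B S))).comp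
        (Ideal.Quotient.mk (Ideal.span {π})) =
        (Ideal.Quotient.mk ((Ideal.span {π}).map (algebraMap B S))).comp (algebraMap B S) := by
      ext b
      simp only [RingHom.comp_apply]
      exact Ideal.Quotient.algebraMap_quotient_map_quotient b
    rw [hcomp, ← Ideal.map_map, Ideal.comap_map_of_surjective _ Ideal.Quotient.mk_surjective,
      ← RingHom.ker_eq_comap_bot, Ideal.mk_ker]
    exact (sup_eq_left.mpr (Ideal.map_mono hle)).symm
  rw [hcomap]
  exact hrad.comap _

/-- **Closed points of the special fibre of the étale normalisation are unramified over the base**: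
if `𝔪 ∋ π` is a maximal ideal of `B` and `y` a prime of `S` (containing `𝔪 S`), then
`y S_y = 𝔪 S_y`. -/
theorem exists_mul_mem_map_of_hyp (h : Hyp B E L π) (𝔪 : Ideal B) [h𝔪 : 𝔪.IsMaximal] (hπ𝔪 : π ∈ 𝔪)
    (y : Ideal S) [hy : y.IsPrime] {z : S} (hz : z ∈ y) :
    ∃ u, u ∉ y ∧ u * z ∈ 𝔪.map (algebraMap B S) := by
  have hrad : (𝔪.map (algebraMap B S)).IsRadical := isRadical_map_of_hyp S h 𝔪 hπ𝔪
  set I := 𝔪.map (algebraMap B S) with hI
  have : Module.Finite B (S ⧸ I) :=
    Module.Finite.of_surjective (Ideal.Quotient.mkₐ B I).toLinearMap Ideal.Quotient.mk_surjective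
  have : Module.Finite (B ⧸ 𝔪) (S ⧸ I) := Module.Finite.of_restrictScalars_finite B _ _
  let _ : Field (B ⧸ 𝔪) := Ideal.Quotient.field 𝔪
  have : IsArtinianRing (S ⧸ I) := IsArtinianRing.of_finite (B ⧸ 𝔪) (S ⧸ I)
  have : IsReduced (S ⧸ I) := (Ideal.isRadical_iff_quotient_reduced I).mp hrad
  obtain ⟨w', hw'⟩ := exists_mul_eq_zero_of_isReduced (Ideal.Quotient.mk I z)
  obtain ⟨w, rfl⟩ := Ideal.Quotient.mk_surjective w'
  refine ⟨1 - w * z, fun hmem => ?_, ?_⟩
  · have h1 : (1 : S) = (1 - w * z) + w * z := by ring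
    exact hy.ne_top ((Ideal.eq_top_iff_one y).mpr
      (h1 ▸ y.add_mem hmem (y.mul_mem_left w hz)))
  · rw [← Ideal.Quotient.eq_zero_iff_mem]
    simpa using hw'

omit [IsDomain B] [IsIntegrallyClosed B] [IsNoetherianRing B] in
/-- A maximal ideal containing `π` is generated by `π` and one more element, if `B/π` is a
principal ideal ring. -/
theorem exists_eq_span_pair (𝔪 : Ideal B) (hπ𝔪 : π ∈ 𝔪) : ∃ g : B, 𝔪 = Ideal.span {π, g} := by
  have hle : Ideal.span {π} ≤ 𝔪 := (Ideal.span_singleton_le_iff_mem _).mpr hπ𝔪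
  obtain ⟨gbar, hg⟩ := (IsPrincipalIdealRing.principal
    (𝔪.map (Ideal.Quotient.mk (Ideal.span {π})))).principal
  obtain ⟨g, rfl⟩ := Ideal.Quotient.mk_surjective gbar
  refine ⟨g, ?_⟩
  have h1 : 𝔪 = (𝔪.map (Ideal.Quotient.mk (Ideal.span {π}))).comap
      (Ideal.Quotient.mk (Ideal.span {π})) := by
    rw [Ideal.comap_map_of_surjective _ Ideal.Quotient.mk_surjective, ← RingHom.ker_eq_comap_bot,
      Ideal.mk_ker]
    exact (sup_eq_left.mpr hle).symm
  rw [h1, hg, Ideal.submodule_span_eq, ← Set.image_singleton, ← Ideal.map_span,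
    Ideal.comap_map_of_surjective _ Ideal.Quotient.mk_surjective, ← RingHom.ker_eq_comap_bot,
    Ideal.mk_ker, Ideal.span_insert, sup_comm]

/-- **Local generation at the closed points of the special fibre of the étale normalisation.**
Every maximal ideal `y ∋ π` of `S` is, locally at `y`, generated by `π` and one element `g` of
`B`. -/
theorem locGen_of_hyp (h : Hyp B E L π) (y : Ideal S) [hy : y.IsMaximal]
    (hπy : algebraMap B S π ∈ y) :
    ∃ g : B, algebraMap B S g ∈ y ∧ ∀ z ∈ y, ∃ u, u ∉ y ∧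
      u * z ∈ Ideal.span {algebraMap B S π, algebraMap B S g} := by
  have hint : Algebra.IsIntegral B S := IsIntegralClosure.isIntegral_algebra B L
  have h𝔪 : (y.comap (algebraMap B S)).IsMaximal :=
    Ideal.isMaximal_comap_of_isIntegral_of_isMaximal y
  obtain ⟨g, hg⟩ := exists_eq_span_pair (y.comap (algebraMap B S)) (Ideal.mem_comap.mpr hπy)
  have hgy : algebraMap B S g ∈ y := by
    have : g ∈ y.comap (algebraMap B S) := by
      rw [hg]; exact Ideal.subset_span (Set.mem_insert_of_mem _ rfl)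
    exact this
  have hmap : (y.comap (algebraMap B S)).map (algebraMap B S) =
      Ideal.span {algebraMap B S π, algebraMap B S g} := by
    conv_lhs => rw [hg]
    rw [Ideal.map_span, Set.image_pair]
  refine ⟨g, hgy, fun z hz => ?_⟩
  obtain ⟨u, hu, huz⟩ := exists_mul_mem_map_of_hyp S h (y.comap (algebraMap B S))
    (Ideal.mem_comap.mpr hπy) y hz
  exact ⟨u, hu, hmap ▸ huz⟩

end Hyp

end Fermat.Agent.N4.EtaleFibre
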