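/-
N4 (S28a input FF2): the constant field `K` is algebraically closed in the modular function field
`FF K N ⊆ K((q))`.  In fact every element of `K((q))` algebraic over `K` is a constant (any field
`K`): an integral element has no pole, and if `x - x₀` (`x₀` the constant coefficient) were
nonzero its inverse would be an integral element with a pole.
-/
import Mathlib
import Fermat.Agent.N4.Setting

set_option autoImplicit false

open WithZero

noncomputable section

namespace Fermat.Agent.N4.FFAlgClosed

section Laurent

variable {K : Type*} [Field K]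

/-- Elements integral over a ring on which a valuation is `≤ 1` have valuation `≤ 1`. -/
theorem val_le_one_of_isIntegral {A L : Type*} [CommRing A] [Field L] [Algebra A L]
    (v : Valuation L ℤᵐ⁰) (hv : ∀ a : A, v (algebraMap A L a) ≤ 1)
    {x : L} (hx : IsIntegral A x) : v x ≤ 1 := by
  obtain ⟨f, hm, hf⟩ := hx
  by_cases hn : f.natDegree = 0
  · rw [Polynomial.natDegree_eq_zero] at hn
    obtain ⟨c, rfl⟩ := hn
    have hc : c = 1 := by simpa using hm.leadingCoeff
    subst hc
    simp at hf
  simp only [Polynomial.eval₂_eq_sum_range, Finset.sum_range_succ, hm.coeff_natDegree, map_one,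
    one_mul, add_eq_zero_iff_eq_neg] at hf
  apply_fun v at hf
  simp only [Valuation.map_neg, map_pow] at hf
  contrapose! hf
  refine ne_of_lt (v.map_sum_lt ?_ ?_)
  · simp [hn, (hf.trans' (zero_lt_one)).ne']
  · simp only [Finset.mem_range, map_mul, map_pow]
    intro _ hi
    exact mul_lt_of_le_one_of_lt (hv _) <| pow_lt_pow_right₀ hf hi

theorem coeff_algebraMap (c : K) (n : ℤ) :
    (algebraMap K (LaurentSeries K) c).coeff n = if n = 0 then c else 0 := by
  rw [LaurentSeries.algebraMap_apply, HahnSeries.C_apply, HahnSeries.coeff_single]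
  by_cases h : n = 0 <;> simp [h]

theorem val_algebraMap_le_one (c : K) :
    (Valued.v (algebraMap K (LaurentSeries K) c) : ℤᵐ⁰) ≤ 1 := by
  have h := (LaurentSeries.valuation_le_iff_coeff_lt_eq_zero K (D := 0)
    (f := algebraMap K (LaurentSeries K) c)).mpr (fun n hn => by
      rw [coeff_algebraMap, if_neg hn.ne])
  simpa using h

/-- An element of `K((q))` which is algebraic over `K` has no pole. -/
theorem val_le_one_of_isAlgebraic {x : LaurentSeries K} (hx : IsAlgebraic K x) :
    (Valued.v x : ℤᵐ⁰) ≤ 1 :=
  val_le_one_of_isIntegral Valued.v val_algebraMap_le_one hx.isIntegral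

/-- **Every element of `K((q))` algebraic over `K` is a constant.** -/
theorem eq_algebraMap_of_isAlgebraic {x : LaurentSeries K} (hx : IsAlgebraic K x) :
    x = algebraMap K (LaurentSeries K) (x.coeff 0) := by
  set y := x - algebraMap K (LaurentSeries K) (x.coeff 0) with hy
  have hyalg : IsAlgebraic K y := hx.sub (isAlgebraic_algebraMap _)
  by_contra hne
  have hy0 : y ≠ 0 := fun h => hne (sub_eq_zero.mp h)
  -- `y` vanishes at `q = 0`
  have h1 : (Valued.v y : ℤᵐ⁰) ≤ exp (-(1 : ℤ)) := by
    rw [LaurentSeries.valuation_le_iff_coeff_lt_eq_zero K]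
    intro n hn
    rcases lt_or_eq_of_le (Int.lt_add_one_iff.mp (by simpa using hn : n < 0 + 1)) with h | h
    · have hx1 := val_le_one_of_isAlgebraic hx
      have hx2 := (LaurentSeries.valuation_le_iff_coeff_lt_eq_zero K (D := 0) (f := x)).mp
        (by simpa using hx1) n h
      rw [hy, HahnSeries.coeff_sub, hx2, coeff_algebraMap, if_neg h.ne, sub_zero]
    · subst h
      rw [hy, HahnSeries.coeff_sub, coeff_algebraMap, if_pos rfl, sub_self]
  -- but `y⁻¹` is algebraic too
  have h2 : (Valued.v y⁻¹ : ℤᵐ⁰) ≤ 1 := val_le_one_of_isAlgebraic hyalg.inv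
  rw [map_inv₀] at h2
  have hv0 : (Valued.v y : ℤᵐ⁰) ≠ 0 := (Valuation.ne_zero_iff _).mpr hy0
  have h3 : (1 : ℤᵐ⁰) ≤ Valued.v y := by
    have := (inv_le_one₀ (zero_lt_iff.mpr hv0)).mp h2
    exact this
  have h4 : (exp (-(1 : ℤ)) : ℤᵐ⁰) < 1 := by
    rw [← exp_zero, exp_lt_exp]
    norm_num
  exact absurd (lt_of_le_of_lt (h3.trans h1) h4) (lt_irrefl _)

theorem mem_range_algebraMap_of_isAlgebraic {x : LaurentSeries K} (hx : IsAlgebraic K x) :
    x ∈ (algebraMap K (LaurentSeries K)).range :=
  ⟨x.coeff 0, (eq_algebraMap_of_isAlgebraic hx).symm⟩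

/-- The constant field is algebraically closed in every intermediate field of `K((q))/K`. -/
theorem intermediateField_algebraic_mem_range (F : IntermediateField K (LaurentSeries K))
    (x : F) (hx : IsAlgebraic K x) : x ∈ (algebraMap K F).range := by
  have hx' : IsAlgebraic K (x : LaurentSeries K) := by
    have := hx.algHom F.val
    simpa using this
  refine ⟨(x : LaurentSeries K).coeff 0, Subtype.ext ?_⟩
  exact (eq_algebraMap_of_isAlgebraic hx').symm

end Laurent

/-- **(FF2)** `K` is algebraically closed in the modular function field `FF K N`. -/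
theorem algebraic_mem_range (K : Type) [Field K] [CharZero K] (N : ℕ) [NeZero N]
    (x : Setting.FF K N) (hx : IsAlgebraic K x) :
    x ∈ (algebraMap K (Setting.FF K N)).range :=
  intermediateField_algebraic_mem_range _ x hx

end Fermat.Agent.N4.FFAlgClosed
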