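/-
Sreg piece (SR-1) (helper13 #1066): AKLB wrapper of the algebraic Katz–Mazur quotient lemma
`QuotientRegular.exists_locally_span_pair` (helper11's L4) for `G = Gal(L/K)` acting on the integral
closure `R` of `A` in a finite Galois extension `L/K` of `K = Frac A`.
-/
import Mathlib
import Fermat.Agent.N4.QuotientRegular

set_option autoImplicit false
set_option linter.style.haveILetI false
set_option linter.unusedSectionVars false

namespace Fermat.Agent.N4.GaloisQuotient

open Fermat.Agent.N4.QuotientRegular

/-- **AKLB wrapper of the algebraic Katz–Mazur quotient lemma** (`QuotientRegular.exists_locally_span_pair`):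
`A` a noetherian integrally closed domain with fraction field `K`, `L/K` finite Galois, `R` the
integral closure of `A` in `L`. -/
theorem exists_locally_span_pair_of_isGalois (A K L R : Type*) [CommRing A] [IsDomain A]
    [IsNoetherianRing A] [IsIntegrallyClosed A] [CommRing R] [Field K] [Field L] [Algebra A K]
    [IsFractionRing A K] [Algebra R L] [Algebra A R] [Algebra K L] [Algebra A L]
    [IsScalarTower A K L] [IsScalarTower A R L] [IsIntegralClosure R A L] [FiniteDimensional K L]
    [IsGalois K L] (x : Ideal A) [x.IsMaximal] (π : A) (hπ : π ∈ x) (y : Ideal R) [y.IsPrime]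
    (hyx : y.comap (algebraMap A R) = x) (hres : ∀ r : R, ∃ a : A, r - algebraMap A R a ∈ y)
    (s₀ : R) (hs₀ : s₀ ∈ y)
    (hgen : ∀ z ∈ y, ∃ u, u ∉ y ∧ u * z ∈ Ideal.span {algebraMap A R π, s₀}) :
    ∃ t ∈ x, ∃ r, r ∉ x ∧ ∀ z ∈ x, r * z ∈ Ideal.span {π, t} := by
  have hinjRL : Function.Injective (algebraMap R L) := IsIntegralClosure.algebraMap_injective R A L
  haveI : IsDomain R := hinjRL.isDomain (algebraMap R L)
  haveI : IsFractionRing R L := IsIntegralClosure.isFractionRing_of_finite_extension A K L R
  letI act : MulSemiringAction Gal(L/K) R := IsIntegralClosure.MulSemiringAction A K L R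
  haveI : Algebra.IsInvariant A R Gal(L/K) := Algebra.isInvariant_of_isGalois A K L R
  haveI : SMulCommClass Gal(L/K) A R :=
    ⟨fun g a r => map_smul (galRestrict A K L R g) a r⟩
  haveI : Module.Finite A R := IsIntegralClosure.finite A K L R
  haveI : Module.IsTorsionFree A K := inferInstance
  haveI : Module.IsTorsionFree A L := Module.IsTorsionFree.trans K
  haveI : Module.IsTorsionFree A R :=
    Function.Injective.moduleIsTorsionFree (algebraMap R L) hinjRL
      (fun a r => by rw [Algebra.smul_def, map_mul, ← IsScalarTower.algebraMap_apply,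
        Algebra.smul_def])
  have hrank : Module.finrank A R = Nat.card Gal(L/K) := by
    rw [← IsFractionRing.finrank_eq A K R L, IsGalois.card_aut_eq_finrank]
  exact exists_locally_span_pair (G := Gal(L/K)) hrank x π hπ y hyx hres s₀ hs₀ hgen

end Fermat.Agent.N4.GaloisQuotient
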