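/-
N4 block S28a: the four characteristic-zero étaleness inputs (γ) of the final assembly, as
`Prop`-valued definitions (interface between the providers — L3 `Char0*`, `TwoBase`,
`EtaleInputs` — and the consumer `N4/Irreducible*.lean`).

Each of them is the field `traceDual` of `EtaleNormalization.Hyp B E L π_B` for one of the four
auxiliary chart rings `B ⊆ L`, for EVERY fraction field `E` of `B` inside `L = E(θ)`,
`Φ_N(j, θ) = 0`:

* `TraceDualLambda`     : `B = Lambda.Bplus O lam`, `Sextic j lam`;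
* `TraceDualCusp`       : `B = Lambda.Bt O t N`, `Sextic j (16 t^N)`;
* `TraceDualHesse`      : `B = Hesse.BplusH O m`, `HesseEq j m`;
* `TraceDualHesseCusp`  : `B = Hesse.BtH O t N`, `HesseEq j (3 t^N)⁻¹`.

Everything lives in `Type` (the function fields of the Setting are in `Type`).
-/
import Mathlib
import Fermat.Agent.N4.EtaleNormalization
import Fermat.Agent.N4.LambdaModel
import Fermat.Agent.N4.HesseModel
import Fermat.Agent.N4.Kronecker

set_option autoImplicit false

open Polynomial IntermediateField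

namespace Fermat.Agent.N4.TraceDualInputs

open Fermat.Agent.N4.EtaleNormalization Fermat.Agent.N4.Lambda Fermat.Agent.N4.Hesse
  Fermat.Agent.N4.Kronecker Fermat.Agent.N4.ModPolyDescent

/-- **Input (γ) for the `λ`-chart**: the trace dual of the integral closure of
`B₊ = O[λ, 1/λ, 1/(λ-1)]` in `L = Frac(B₊)(θ)`, `Φ_N(j(λ), θ) = 0`, is killed by powers of `π`
(the extension is étale over `B₊[1/π]`). -/
def TraceDualLambda (O K : Type) [CommRing O] [Field K] [Algebra O K] (N : ℕ) [NeZero N] (π : O) :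
    Prop :=
  ∀ (L : Type) [Field L] [Algebra O L] [Algebra K L] [IsScalarTower O K L] (lam j θ : L),
    Transcendental K lam → Sextic j lam → evZ j θ (modPoly N) = 0 →
    ∀ (E : Type) [Field E] [Algebra (Bplus O lam) E] [IsFractionRing (Bplus O lam) E]
      [Algebra E L] [IsScalarTower (Bplus O lam) E L] [FiniteDimensional E L],
      E⟮θ⟯ = ⊤ →
      ∀ z : L, IsTraceDual (Bplus O lam) E z →
        ∃ m : ℕ, IsIntegral (Bplus O lam) ((algebraMap O (Bplus O lam) π) ^ m • z)

/-- **Input (γ) for the cusp chart of the `λ`-line**: the same for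
`B_t = O[t, 1/(λ-1), 1/(λ²-λ+1)]`, `λ = 16 t^N`. -/
def TraceDualCusp (O K : Type) [CommRing O] [Field K] [Algebra O K] (N : ℕ) [NeZero N] (π : O) :
    Prop :=
  ∀ (L : Type) [Field L] [Algebra O L] [Algebra K L] [IsScalarTower O K L] (t j θ : L),
    Transcendental K t → Sextic j (lamOf t N) → evZ j θ (modPoly N) = 0 →
    ∀ (E : Type) [Field E] [Algebra (Bt O t N) E] [IsFractionRing (Bt O t N) E]
      [Algebra E L] [IsScalarTower (Bt O t N) E L] [FiniteDimensional E L],
      E⟮θ⟯ = ⊤ →
      ∀ z : L, IsTraceDual (Bt O t N) E z →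
        ∃ m : ℕ, IsIntegral (Bt O t N) ((algebraMap O (Bt O t N) π) ^ m • z)

/-- **Input (γ) for the Hesse chart** `B = O[μ, 1/(μ³-1)]`. -/
def TraceDualHesse (O K : Type) [CommRing O] [Field K] [Algebra O K] (N : ℕ) [NeZero N] (π : O) :
    Prop :=
  ∀ (L : Type) [Field L] [Algebra O L] [Algebra K L] [IsScalarTower O K L] (m j θ : L),
    Transcendental K m → HesseEq j m → evZ j θ (modPoly N) = 0 →
    ∀ (E : Type) [Field E] [Algebra (BplusH O m) E] [IsFractionRing (BplusH O m) E]
      [Algebra E L] [IsScalarTower (BplusH O m) E L] [FiniteDimensional E L],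
      E⟮θ⟯ = ⊤ →
      ∀ z : L, IsTraceDual (BplusH O m) E z →
        ∃ k : ℕ, IsIntegral (BplusH O m) ((algebraMap O (BplusH O m) π) ^ k • z)

/-- **Input (γ) for the cusp chart of the Hesse line**
`B = O[t, 1/(1-s³), 1/(1+8s³)]`, `s = 3 t^N = 1/μ`. -/
def TraceDualHesseCusp (O K : Type) [CommRing O] [Field K] [Algebra O K] (N : ℕ) [NeZero N]
    (π : O) : Prop :=
  ∀ (L : Type) [Field L] [Algebra O L] [Algebra K L] [IsScalarTower O K L] (t j θ : L),
    Transcendental K t → HesseEq j (sOf t N)⁻¹ → evZ j θ (modPoly N) = 0 →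
    ∀ (E : Type) [Field E] [Algebra (BtH O t N) E] [IsFractionRing (BtH O t N) E]
      [Algebra E L] [IsScalarTower (BtH O t N) E L] [FiniteDimensional E L],
      E⟮θ⟯ = ⊤ →
      ∀ z : L, IsTraceDual (BtH O t N) E z →
        ∃ k : ℕ, IsIntegral (BtH O t N) ((algebraMap O (BtH O t N) π) ^ k • z)

end Fermat.Agent.N4.TraceDualInputs
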