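/-
N4 block S28a: the special fibres of both charts of the `j`-line of `F = K(j, θ)`, `Φ_N(j, θ) = 0`,
are reduced and locally integral (`LD`), for a base discrete valuation ring `O` in which `2` and
`N` are invertible (odd residue characteristic), via the Legendre `λ`-line.

The only input which is not proved here is the characteristic-zero étaleness of the two auxiliary
charts away from the special fibre, in the form of `Hyp.traceDual`
(`TraceDualLambda`, `TraceDualCusp`).
-/
import Mathlib
import Fermat.Agent.N4.IrreducibleAux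
import Fermat.Agent.N4.ChartHyp
import Fermat.Agent.N4.TraceDualInputs

set_option autoImplicit false

open Polynomial IntermediateField

namespace Fermat.Agent.N4.IrreducibleOdd

open Fermat.Agent.N4.EtaleNormalization Fermat.Agent.N4.FibreComponents
  Fermat.Agent.N4.FibreCharts Fermat.Agent.N4.Chart Fermat.Agent.N4.IrreducibleAux
  Fermat.Agent.N4.Lambda Fermat.Agent.N4.Kronecker Fermat.Agent.N4.ModPolyDescent

open Fermat.Agent.N4.TraceDualInputs Fermat.Agent.N4.ChartHyp Fermat.Agent.N4.RootFormBasis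

section Field

variable {O K L : Type} [CommRing O] [IsDomain O] [IsDiscreteValuationRing O] [Field K]
  [CharZero K] [Algebra O K] [IsFractionRing O K] [Field L] [Algebra O L] [Algebra K L]
  [IsScalarTower O K L]

omit [IsDomain O] [IsDiscreteValuationRing O] [CharZero K] in
theorem transcendental_base {x : L} (h : Transcendental K x) : Transcendental O x := fun h' =>
  h (h'.extendScalars (IsFractionRing.injective O K))

omit [CharZero K] in
theorem span_isMaximal {π : O} (hπ : Irreducible π) : (Ideal.span {π}).IsMaximal := by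
  rw [← (IsDiscreteValuationRing.irreducible_iff_uniformizer π).mp hπ]
  exact IsLocalRing.maximalIdeal.isMaximal O

/-- A subalgebra of a field acts faithfully. -/
instance faithfulSMul_subalgebra (A : Subalgebra O L) : FaithfulSMul A L :=
  (faithfulSMul_iff_algebraMap_injective A L).mpr Subtype.val_injective

variable (N : ℕ) [NeZero N] {π : O}

/-- **The finite chart upstairs.** In a field `L = K(λ, θ)` with `j = j(λ)`, `Φ_N(j, θ) = 0`, the
special fibre of the integral closure of `O[j]` is reduced and locally integral. -/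
theorem LD_lambda_chart (hπ : Irreducible π) (h2 : IsUnit (2 : O)) (hN : IsUnit ((N : ℕ) : O))
    (hTL : TraceDualLambda O K N π) {lam j θ : L} (hS : Sextic j lam) (hj : Transcendental K j)
    (hroot : evZ j θ (modPoly N) = 0) (hgen : IntermediateField.adjoin K {lam, θ} = ⊤) :
    LD (Ideal.span {algebraMap O (chartAlg O L {j}) π}) := by
  have h2L : (2 : L) ≠ 0 := isUnit_two_field h2
  haveI : CharZero L := charZero_of_injective_algebraMap (algebraMap K L).injective
  have htrK : Transcendental K lam := hS.transcendental h2L hj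
  have htrO : Transcendental O lam := transcendental_base htrK
  obtain ⟨hicl, hnoeth, hprime, hpid⟩ := Bplus_props htrO (span_isMaximal hπ)
  have hπB0 : algebraMap O (Bplus O lam) π ≠ 0 := by
    intro h0
    have h1 : algebraMap O L π = 0 := congrArg Subtype.val h0
    have h3 : Function.Injective (algebraMap O L) := by
      rw [IsScalarTower.algebraMap_eq O K L]
      exact (algebraMap K L).injective.comp (IsFractionRing.injective O K)
    exact hπ.ne_zero (h3 (by rw [h1, map_zero]))
  have hπB : Prime (algebraMap O (Bplus O lam) π) :=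
    (Ideal.span_singleton_prime hπB0).mp hprime
  -- `θ` is integral over `B₊`
  have hjB : j ∈ Bplus O lam := hS.j_mem_Bplus h2L
  have hθ : IsIntegral (Bplus O lam) θ := by
    refine ⟨(modPoly N).map (evY (⟨j, hjB⟩ : Bplus O lam)), (modPoly_monic N).map _, ?_⟩
    rw [eval₂_map, comp_evY, ← evZ_eq_eval₂_evY]
    exact hroot
  -- generation
  have hgenB : ∀ S : Subfield L, (∀ b : Bplus O lam, algebraMap (Bplus O lam) L b ∈ S) →
      θ ∈ S → S = ⊤ := by
    intro S hB hθS
    refine subfield_eq_top_of_adjoin (O := O) hgen S (fun a => hB (algebraMap O _ a)) ?_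
    rintro x (rfl | rfl)
    · exact hB ⟨x, lam_mem_Bplus⟩
    · exact hθS
  -- the integral closures agree
  have hRB : ∀ x : L, IsIntegral (chartAlg O L {j}) x ↔ IsIntegral (Bplus O lam) x := fun x =>
    (isIntegral_chartAlg_iff_adjoin x).trans
      (isIntegral_iff_of_le (hS.adjoin_j_le_Bplus h2L)
        (fun y hy => hS.isIntegral_of_mem_Bplus h2 hy) x)
  refine LD_of_hyp_family (π := algebraMap O (Bplus O lam) π) θ hθ.isAlgebraic hgenB ?_ rfl hRB
  intro E _ _ _ _ _ _ _ hgenE
  exact ⟨hπB, exists_basis_lambda N h2 hN hπ.not_isUnit htrO hS hroot hgenE,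
    hTL L lam j θ htrK hS hroot E hgenE⟩

omit [IsDomain O] [IsDiscreteValuationRing O] [CharZero K] [Field K] [Algebra O K]
  [IsFractionRing O K] [Algebra K L] [IsScalarTower O K L] in
/-- `θ` is algebraic over every subalgebra containing `1/j`. -/
theorem isAlgebraic_of_inv_mem {B : Subalgebra O L} {j θ : L} (zB : B) (hz : (zB : L) * j = 1)
    (hroot : evZ j θ (modPoly N) = 0) : IsAlgebraic B θ := by
  have hP := modPoly_monic N
  set P := modPoly N with hPdef
  set D := yDeg P with hD
  have hinj : Function.Injective (algebraMap B L) := Subtype.val_injective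
  set Φ' : B[X] := (revPoly D P).map (evY zB) with hΦ'
  have hzL : algebraMap B L zB = (zB : L) := rfl
  have h1 : Φ'.map (algebraMap B L) = scaleRoots (P.map (evY j)) ((zB : L) ^ D) := by
    rw [hΦ', Polynomial.map_map, comp_evY]
    exact map_revPoly hz P hP
  have hr' : aeval ((zB : L) ^ D * θ) Φ' = 0 := by
    rw [aeval_def, ← eval_map, h1, scaleRoots_eval_mul, ← evZ_eq_eval_map, hroot, mul_zero]
  have hΦ'm : Φ'.Monic := by
    apply monic_of_injective hinj
    rw [h1, monic_scaleRoots_iff]
    exact hP.map _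
  have hθ' : IsIntegral B ((zB : L) ^ D * θ) := ⟨Φ', hΦ'm, hr'⟩
  have hz0 : (zB : L) ≠ 0 := left_ne_zero_of_mul_eq_one hz
  have hzalg : IsAlgebraic B ((zB : L) ^ D) := by
    have : (zB : L) ^ D = algebraMap B L (zB ^ D) := by rw [map_pow, hzL]
    rw [this]
    exact isAlgebraic_algebraMap _
  have : θ = ((zB : L) ^ D)⁻¹ * ((zB : L) ^ D * θ) := by
    rw [inv_mul_cancel_left₀ (pow_ne_zero _ hz0)]
  rw [this]
  exact hzalg.inv.mul hθ'.isAlgebraic

omit [IsDomain O] [IsDiscreteValuationRing O] [CharZero K] [Field K] [Algebra O K]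
  [IsFractionRing O K] [Algebra K L] [IsScalarTower O K L] in
theorem map_u1 {L' : Type*} [Field L'] (φ : L →+* L') (x : L) : φ (u1 x) = u1 (φ x) := by
  simp only [u1, map_div₀, map_pow, map_sub, map_add, map_one]

omit [IsDomain O] [IsDiscreteValuationRing O] [CharZero K] [Field K] [Algebra O K]
  [IsFractionRing O K] [Algebra K L] [IsScalarTower O K L] in
theorem map_uInf {L' : Type*} [Field L'] (φ : L →+* L') (x : L) : φ (uInf x) = uInf (φ x) := by
  simp only [uInf, map_div₀, map_pow, map_sub, map_add, map_one]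

/-- **The chart around the cusp `λ' = 0` upstairs.** -/
theorem LD_cusp0_chart (hπ : Irreducible π) (h2 : IsUnit (2 : O)) (hN : IsUnit ((N : ℕ) : O))
    (hTC : TraceDualCusp O K N π) {lam j θ : L} (hS : Sextic j lam) (hj : Transcendental K j)
    (hroot : evZ j θ (modPoly N) = 0) (hgen : IntermediateField.adjoin K {lam, θ} = ⊤) :
    LD (Ideal.span {algebraMap O (chartAlg O L {(u1 lam * uInf lam)⁻¹, j⁻¹}) π}) := by
  have h2L : (2 : L) ≠ 0 := isUnit_two_field h2
  have h16 : (16 : L) ≠ 0 := by
    have : (16 : L) = 2 ^ 4 := by norm_num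
    rw [this]; exact pow_ne_zero 4 h2L
  have hN0 : N ≠ 0 := NeZero.ne N
  -- the extension `Lc = L(t)`, `16 t^N = λ`
  have hp : (X ^ N - C (lam / 16) : L[X]).degree ≠ 0 := by
    rw [degree_X_pow_sub_C (Nat.pos_of_ne_zero hN0)]
    exact_mod_cast hN0
  obtain ⟨Lc, _, _, _, _, _, _, _, t, ht, hgenc⟩ :=
    exists_root_extension (O := O) (K := K) (X ^ N - C (lam / 16) : L[X]) hp
  haveI : CharZero Lc := charZero_of_injective_algebraMap (algebraMap K Lc).injective
  set φ : L →+* Lc := algebraMap L Lc with hφ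
  have hlam : lamOf t N = φ lam := by
    rw [map_sub, map_pow, aeval_X, aeval_C, sub_eq_zero] at ht
    rw [lamOf_def, ht, ← hφ, map_div₀, map_ofNat, mul_div_cancel₀]
    have : (16 : Lc) = φ 16 := by rw [map_ofNat]
    rw [this]
    exact (map_ne_zero φ).mpr h16
  have h2c : (2 : Lc) ≠ 0 := isUnit_two_field h2
  have hSc : Sextic (φ j) (lamOf t N) := by
    have := congrArg φ hS
    rw [map_jNum, map_mul, map_jDen] at this
    rw [hlam]
    exact this
  have hjc : Transcendental K (φ j) :=
    (transcendental_algebraMap_iff (algebraMap L Lc).injective).mpr hj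
  have hjc0 : φ j ≠ 0 := fun h0 => hjc (h0 ▸ isAlgebraic_zero)
  have hrootc : evZ (φ j) (φ θ) (modPoly N) = 0 := by
    rw [← map_evZ, hroot, map_zero]
  have htrK : Transcendental K t := by
    intro halg
    apply hSc.transcendental h2c hjc
    rw [lamOf_def]
    have h16a : IsAlgebraic K (16 : Lc) := by
      have := isAlgebraic_algebraMap (R := K) (A := Lc) (16 : K)
      rwa [map_ofNat] at this
    exact h16a.mul (halg.pow N)
  have htrO : Transcendental O t := transcendental_base htrK
  obtain ⟨hicl, hnoeth, hprime, hpid⟩ := Bt_props hN0 htrO (span_isMaximal hπ)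
  have hπB0 : algebraMap O (Bt O t N) π ≠ 0 := by
    intro h0
    have h1 : algebraMap O Lc π = 0 := congrArg Subtype.val h0
    have h3 : Function.Injective (algebraMap O Lc) := by
      rw [IsScalarTower.algebraMap_eq O K Lc]
      exact (algebraMap K Lc).injective.comp (IsFractionRing.injective O K)
    exact hπ.ne_zero (h3 (by rw [h1, map_zero]))
  have hπB : Prime (algebraMap O (Bt O t N) π) :=
    (Ideal.span_singleton_prime hπB0).mp hprime
  -- `θ` is algebraic over `B_t`
  have hzB : (φ j)⁻¹ ∈ Bt O t N := hSc.cuspBase_le_Bt h2 hjc0 (inv_j_mem_cuspBase _ _)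
  have hθ : IsAlgebraic (Bt O t N) (φ θ) :=
    isAlgebraic_of_inv_mem N (⟨(φ j)⁻¹, hzB⟩ : Bt O t N) (inv_mul_cancel₀ hjc0) hrootc
  -- generation
  have hgenB : ∀ S : Subfield Lc, (∀ b : Bt O t N, algebraMap (Bt O t N) Lc b ∈ S) →
      φ θ ∈ S → S = ⊤ := by
    intro S hB hθS
    refine hgenc S ?_ (hB ⟨t, t_mem_Bt⟩)
    have htop : S.comap φ = ⊤ := by
      refine subfield_eq_top_of_adjoin (O := O) hgen (S.comap φ) (fun a => ?_) ?_
      · show φ (algebraMap O L a) ∈ S
        rw [hφ, ← IsScalarTower.algebraMap_apply O L Lc]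
        exact hB (algebraMap O _ a)
      · rintro x (rfl | rfl)
        · show φ x ∈ S
          rw [← hlam]
          exact hB ⟨_, lamOf_mem_Bt⟩
        · exact hθS
    intro a
    have : a ∈ S.comap φ := by rw [htop]; exact Subfield.mem_top a
    exact this
  -- the integral closures agree
  set Sc : Set Lc := φ '' {(u1 lam * uInf lam)⁻¹, j⁻¹} with hSc_def
  have hq := hSc.quad_ne_zero h2c hjc0
  have hl1 := hSc.lam_sub_one_ne_zero h2c
  have hu1 : u1 (lamOf t N) ≠ 0 := u1_ne_zero hq hl1
  have huI : uInf (lamOf t N) ≠ 0 := uInf_ne_zero hq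
  have himg : Sc = {(u1 (lamOf t N))⁻¹ * (uInf (lamOf t N))⁻¹, (φ j)⁻¹} := by
    rw [hSc_def, Set.image_pair, map_inv₀, map_inv₀, map_mul, map_u1, map_uInf, ← hlam, mul_inv]
  have hle : Algebra.adjoin O Sc ≤ cuspBase O (φ j) (lamOf t N) := by
    rw [himg]
    apply Algebra.adjoin_le
    rintro x (rfl | rfl)
    · exact mul_mem (inv_u1_mem_cuspBase _ _) (inv_uInf_mem_cuspBase _ _)
    · exact inv_j_mem_cuspBase _ _
  have hfA : (u1 (lamOf t N))⁻¹ * (uInf (lamOf t N))⁻¹ ∈ Algebra.adjoin O Sc :=
    Algebra.subset_adjoin (by rw [himg]; exact Set.mem_insert _ _)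
  have hjA : (φ j)⁻¹ ∈ Algebra.adjoin O Sc :=
    Algebra.subset_adjoin (by rw [himg]; exact Set.mem_insert_of_mem _ rfl)
  have imem : ∀ {y : Lc}, y ∈ Algebra.adjoin O Sc → IsIntegral (Algebra.adjoin O Sc) y :=
    fun {y} hy => isIntegral_algebraMap (R := Algebra.adjoin O Sc) (A := Lc) (x := ⟨y, hy⟩)
  have hint : ∀ x ∈ cuspBase O (φ j) (lamOf t N), IsIntegral (Algebra.adjoin O Sc) x := by
    have hle' : cuspBase O (φ j) (lamOf t N) ≤
        (integralClosure (Algebra.adjoin O Sc) Lc).restrictScalars O := by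
      apply Algebra.adjoin_le
      intro y hy
      simp only [Set.mem_insert_iff, Set.mem_singleton_iff] at hy
      rcases hy with e | e | e
      · rw [e]; exact imem hjA
      · rw [e]
        have : (u1 (lamOf t N))⁻¹ =
            uInf (lamOf t N) * ((u1 (lamOf t N))⁻¹ * (uInf (lamOf t N))⁻¹) := by
          field_simp
        rw [this]
        exact (isIntegral_of_cubic_subalgebra (hSc.uInf_cubic h2c hjc0) hjA).mul (imem hfA)
      · rw [e]
        have : (uInf (lamOf t N))⁻¹ =
            u1 (lamOf t N) * ((u1 (lamOf t N))⁻¹ * (uInf (lamOf t N))⁻¹) := by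
          field_simp
        rw [this]
        exact (isIntegral_of_cubic_subalgebra (hSc.u1_cubic h2c hjc0) hjA).mul (imem hfA)
    exact fun x hx => hle' hx
  have hRB : ∀ x : Lc, IsIntegral (chartAlg O Lc Sc) x ↔ IsIntegral (Bt O t N) x := fun x =>
    ((isIntegral_chartAlg_iff_adjoin x).trans (isIntegral_iff_of_le hle hint x)).trans
      (isIntegral_iff_of_le (hSc.cuspBase_le_Bt h2 hjc0)
        (fun y hy => hSc.isIntegral_of_mem_Bt h2 hjc0 hN0 hy) x)
  have hLDc : LD (Ideal.span {algebraMap O (chartAlg O Lc Sc) π}) := by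
    refine LD_of_hyp_family (π := algebraMap O (Bt O t N) π) (φ θ) hθ hgenB ?_ rfl hRB
    intro E _ _ _ _ _ _ _ hgenE
    exact ⟨hπB, exists_basis_cusp N h2 hN hπ.not_isUnit htrO hSc hjc0 hrootc hgenE,
      hTC Lc t (φ j) (φ θ) htrK hSc hrootc E hgenE⟩
  exact LD_chart_descent (L := Lc) _ π hLDc

omit [IsDomain O] [IsDiscreteValuationRing O] [CharZero K] [Algebra O K]
  [IsFractionRing O K] [Algebra O L] [IsScalarTower O K L] in
theorem adjoin_pair_eq_top_of_mem {x x' θ : L} (h : IntermediateField.adjoin K {x, θ} = ⊤)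
    (hx : x ∈ IntermediateField.adjoin K {x', θ}) : IntermediateField.adjoin K {x', θ} = ⊤ := by
  rw [eq_top_iff, ← h, IntermediateField.adjoin_le_iff]
  rintro y (rfl | rfl)
  · exact hx
  · exact IntermediateField.subset_adjoin K _ (Set.mem_insert_of_mem _ rfl)

/-- **The chart at infinity upstairs.** -/
theorem LD_inf_chart_lambda (hπ : Irreducible π) (h2 : IsUnit (2 : O))
    (hN : IsUnit ((N : ℕ) : O)) (hTL : TraceDualLambda O K N π) (hTC : TraceDualCusp O K N π)
    {lam j θ : L} (hS : Sextic j lam) (hj : Transcendental K j)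
    (hroot : evZ j θ (modPoly N) = 0) (hgen : IntermediateField.adjoin K {lam, θ} = ⊤) :
    LD (Ideal.span {algebraMap O (chartAlg O L {j⁻¹}) π}) := by
  have h2L : (2 : L) ≠ 0 := isUnit_two_field h2
  have hj0 : j ≠ 0 := fun h0 => hj (h0 ▸ isAlgebraic_zero)
  have hq := hS.quad_ne_zero h2L hj0
  have hl := hS.lam_ne_zero h2L
  have hLD0 := LD_lambda_chart N hπ h2 hN hTL hS hj hroot hgen
  refine LD_cusp_chart j hj0 hLD0 ?_
  intro 𝔭 h𝔭 hg
  haveI := h𝔭
  let a : chartAlg O L {j⁻¹} := ⟨u0 lam, mem_chartAlg_iff.mpr (hS.isIntegral_u0 h2L hj0)⟩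
  let b : chartAlg O L {j⁻¹} := ⟨u1 lam, mem_chartAlg_iff.mpr (hS.isIntegral_u1 h2L hj0)⟩
  let c : chartAlg O L {j⁻¹} := ⟨uInf lam, mem_chartAlg_iff.mpr (hS.isIntegral_uInf h2L hj0)⟩
  have hsum : a + b + c = 2 := Subtype.ext (by
    show u0 lam + u1 lam + uInf lam = ((2 : chartAlg O L {j⁻¹}) : L)
    rw [u_sum hq]; norm_cast)
  have hpair : a * b + a * c + b * c = 1 := Subtype.ext (u_pair hq)
  have hprod : a * b * c ∈ 𝔭 := by
    have : a * b * c = 256 * chartGen (O := O) (Set.mem_singleton j⁻¹) := Subtype.ext (by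
      show u0 lam * u1 lam * uInf lam = ((256 : chartAlg O L {j⁻¹}) : L) * j⁻¹
      rw [hS.u_prod h2L hj0]; norm_cast)
    rw [this]
    exact 𝔭.mul_mem_left _ hg
  rcases cubic_prime_cases hsum hpair 𝔭 hprod with ⟨-, hb, hc⟩ | ⟨-, ha, hc⟩ | ⟨-, ha, hb⟩
  · -- the cusp `λ = 0`
    refine ⟨b * c, fun h => ?_, ?_⟩
    · rcases h𝔭.mem_or_mem h with h | h
      · exact not_mem_of_sub_one_mem 𝔭 hb h
      · exact not_mem_of_sub_one_mem 𝔭 hc h
    · exact LD_cusp0_chart N hπ h2 hN hTC hS hj hroot hgen
  · -- the cusp `λ = 1`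
    refine ⟨a * c, fun h => ?_, ?_⟩
    · rcases h𝔭.mem_or_mem h with h | h
      · exact not_mem_of_sub_one_mem 𝔭 ha h
      · exact not_mem_of_sub_one_mem 𝔭 hc h
    · have hgen' : IntermediateField.adjoin K {1 - lam, θ} = ⊤ := by
        refine adjoin_pair_eq_top_of_mem hgen ?_
        have h1 : (1 - lam) ∈ IntermediateField.adjoin K {1 - lam, θ} :=
          IntermediateField.subset_adjoin K _ (Set.mem_insert _ _)
        have h3 : 1 - (1 - lam) ∈ IntermediateField.adjoin K {1 - lam, θ} :=
          sub_mem (one_mem _) h1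
        rwa [sub_sub_cancel] at h3
      have := LD_cusp0_chart N hπ h2 hN hTC hS.one_sub hj hroot hgen'
      rw [u1_one_sub, uInf_one_sub] at this
      exact this
  · -- the cusp `λ = ∞`
    refine ⟨b * a, fun h => ?_, ?_⟩
    · rcases h𝔭.mem_or_mem h with h | h
      · exact not_mem_of_sub_one_mem 𝔭 hb h
      · exact not_mem_of_sub_one_mem 𝔭 ha h
    · have hgen' : IntermediateField.adjoin K {lam⁻¹, θ} = ⊤ := by
        refine adjoin_pair_eq_top_of_mem hgen ?_
        have h1 : lam⁻¹ ∈ IntermediateField.adjoin K {lam⁻¹, θ} :=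
          IntermediateField.subset_adjoin K _ (Set.mem_insert _ _)
        have h3 : (lam⁻¹)⁻¹ ∈ IntermediateField.adjoin K {lam⁻¹, θ} := inv_mem h1
        rwa [inv_inv] at h3
      have := LD_cusp0_chart N hπ h2 hN hTC (hS.inv h2L) hj hroot hgen'
      rw [u1_inv hl, uInf_inv hl] at this
      exact this

end Field

section Main

variable {O K F : Type} [CommRing O] [IsDomain O] [IsDiscreteValuationRing O] [Field K]
  [CharZero K] [Algebra O K] [IsFractionRing O K] [Field F] [Algebra O F] [Algebra K F]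
  [IsScalarTower O K F] (N : ℕ) [NeZero N] {π : O}

omit [IsDomain O] [IsDiscreteValuationRing O] [Algebra O K] [IsFractionRing O K] [Algebra O F]
  [IsScalarTower O K F] [CommRing O] in
/-- The sextic `256 (X² - X + 1)³ - j X² (X - 1)²` is not a nonzero constant. -/
theorem degree_sextic_ne_zero {j : F} (hj : Transcendental K j) :
    (jNumPoly F - C j * jDenPoly F).degree ≠ 0 := by
  haveI : CharZero F := charZero_of_injective_algebraMap (algebraMap K F).injective
  intro h
  have hc := eq_C_of_degree_eq_zero h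
  have e0 := congrArg (eval 0) hc
  have e1 := congrArg (eval (-1)) hc
  rw [eval_C] at e0 e1
  rw [eval_sub, eval_mul, eval_C, eval_jNumPoly, eval_jDenPoly] at e0 e1
  have h1 : jNum (0 : F) - j * jDen 0 = jNum (-1) - j * jDen (-1) := by rw [e0, e1]
  rw [jNum_def, jDen_def, jNum_def, jDen_def] at h1
  have h2 : j = algebraMap K F 1664 := by
    rw [map_ofNat]
    have h4 : (4 : F) ≠ 0 := by norm_num
    apply mul_left_cancel₀ h4
    linear_combination h1
  exact hj (h2 ▸ isAlgebraic_algebraMap _)

/-- **Both special fibres of the `j`-line of `F = K(j, θ)`, `Φ_N(j, θ) = 0`, are reduced and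
locally integral**, for a base in which `2` and `N` are invertible. -/
theorem LD_charts_odd (hπ : Irreducible π) (h2 : IsUnit (2 : O))
    (hN : IsUnit ((N : ℕ) : O)) (hTL : TraceDualLambda O K N π) (hTC : TraceDualCusp O K N π)
    {j θ : F} (hj : Transcendental K j) (hroot : evZ j θ (modPoly N) = 0)
    (hgen : IntermediateField.adjoin K {j, θ} = ⊤) :
    LD (Ideal.span {algebraMap O (chartAlg O F {j}) π}) ∧
      LD (Ideal.span {algebraMap O (chartAlg O F {j⁻¹}) π}) := by
  obtain ⟨L, _, _, _, _, _, _, _, lam, hlam, hgenL⟩ :=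
    exists_root_extension (O := O) (K := K) (jNumPoly F - C j * jDenPoly F)
      (degree_sextic_ne_zero hj)
  set φ : F →+* L := algebraMap F L with hφ
  have h2L : (2 : L) ≠ 0 := isUnit_two_field h2
  have hS : Sextic (φ j) lam := by
    rw [map_sub, map_mul, aeval_C, aeval_jNumPoly, aeval_jDenPoly, sub_eq_zero] at hlam
    exact hlam
  have hjL : Transcendental K (φ j) :=
    (transcendental_algebraMap_iff (algebraMap F L).injective).mpr hj
  have hrootL : evZ (φ j) (φ θ) (modPoly N) = 0 := by
    rw [← map_evZ, hroot, map_zero]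
  have hgenL' : IntermediateField.adjoin K {lam, φ θ} = ⊤ := by
    set M := IntermediateField.adjoin K {lam, φ θ} with hM
    have hlamM : lam ∈ M := IntermediateField.subset_adjoin K _ (Set.mem_insert _ _)
    have hθM : φ θ ∈ M := IntermediateField.subset_adjoin K _ (Set.mem_insert_of_mem _ rfl)
    have hjM : φ j ∈ M := by
      rw [hS.j_eq h2L, jNum_def, jDen_def]
      refine div_mem (mul_mem ?_ (pow_mem (add_mem (sub_mem (pow_mem hlamM 2) hlamM)
        (one_mem _)) 3)) (mul_mem (pow_mem hlamM 2) (pow_mem (sub_mem hlamM (one_mem _)) 2))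
      exact_mod_cast M.natCast_mem 256
    have htop : M.toSubfield.comap φ = ⊤ := by
      refine subfield_eq_top_of_adjoin' hgen _ (fun c => ?_) ?_
      · show φ (algebraMap K F c) ∈ M
        rw [hφ, ← IsScalarTower.algebraMap_apply K F L]
        exact M.algebraMap_mem c
      · rintro x (rfl | rfl)
        · exact hjM
        · exact hθM
    have h1 := hgenL M.toSubfield (fun a => by
      have : a ∈ M.toSubfield.comap φ := by rw [htop]; exact Subfield.mem_top a
      exact this) hlamM
    rw [eq_top_iff]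
    intro x _
    have : x ∈ M.toSubfield := by rw [h1]; exact Subfield.mem_top x
    exact this
  constructor
  · have h1 := LD_lambda_chart N hπ h2 hN hTL hS hjL hrootL hgenL'
    exact LD_chart_descent (L := L) {j} π (LD_chart_congr (Set.image_singleton).symm π h1)
  · have h1 := LD_inf_chart_lambda N hπ h2 hN hTL hTC hS hjL hrootL hgenL'
    refine LD_chart_descent (L := L) {j⁻¹} π (LD_chart_congr ?_ π h1)
    rw [Set.image_singleton, map_inv₀]

end Main

end Fermat.Agent.N4.IrreducibleOdd
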