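/-
N4 block S28a: the special fibres of both charts of the `j`-line of `F = K(j, θ)`, `Φ_N(j, θ) = 0`,
are reduced and locally integral (`LD`), for a base discrete valuation ring `O` in which `3` and
`N` are invertible and which contains a primitive cube root of unity (residue characteristic `2`),
via the Hesse line `j = 27 μ³ (μ³ + 8)³ / (μ³ - 1)³`.

The only input which is not proved here is the characteristic-zero étaleness of the two auxiliary
charts away from the special fibre (`TraceDualHesse`, `TraceDualHesseCusp`).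
-/
import Mathlib
import Fermat.Agent.N4.IrreducibleOdd
import Fermat.Agent.N4.HesseCover

set_option autoImplicit false

open Polynomial IntermediateField

namespace Fermat.Agent.N4.IrreducibleTwo

open Fermat.Agent.N4.EtaleNormalization Fermat.Agent.N4.FibreComponents
  Fermat.Agent.N4.FibreCharts Fermat.Agent.N4.Chart Fermat.Agent.N4.IrreducibleAux
  Fermat.Agent.N4.Hesse Fermat.Agent.N4.Kronecker Fermat.Agent.N4.ModPolyDescent
  Fermat.Agent.N4.TraceDualInputs Fermat.Agent.N4.ChartHyp Fermat.Agent.N4.RootFormBasis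
  Fermat.Agent.N4.IrreducibleOdd

section Field

variable {O K L : Type} [CommRing O] [IsDomain O] [IsDiscreteValuationRing O] [Field K]
  [CharZero K] [Algebra O K] [IsFractionRing O K] [Field L] [Algebra O L] [Algebra K L]
  [IsScalarTower O K L] (N : ℕ) [NeZero N] {π : O}

/-- **The finite chart upstairs.** In a field `L = K(μ, θ)` with `j = j(μ)`, `Φ_N(j, θ) = 0`, the
special fibre of the integral closure of `O[j]` is reduced and locally integral. -/
theorem LD_hesse_chart (hπ : Irreducible π) (h3 : IsUnit (3 : O)) (hN : IsUnit ((N : ℕ) : O))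
    (hTH : TraceDualHesse O K N π) {m j θ : L} (hH : HesseEq j m) (hj : Transcendental K j)
    (hroot : evZ j θ (modPoly N) = 0) (hgen : IntermediateField.adjoin K {m, θ} = ⊤) :
    LD (Ideal.span {algebraMap O (chartAlg O L {j}) π}) := by
  have h3L : (3 : L) ≠ 0 := isUnit_three_field h3
  haveI : CharZero L := charZero_of_injective_algebraMap (algebraMap K L).injective
  have htrK : Transcendental K m := hH.transcendental h3L hj
  have htrO : Transcendental O m := transcendental_base htrK
  obtain ⟨hicl, hnoeth, hprime, hpid⟩ := BplusH_props htrO (span_isMaximal hπ)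
  have hπB0 : algebraMap O (BplusH O m) π ≠ 0 := by
    intro h0
    have h1 : algebraMap O L π = 0 := congrArg Subtype.val h0
    have h4 : Function.Injective (algebraMap O L) := by
      rw [IsScalarTower.algebraMap_eq O K L]
      exact (algebraMap K L).injective.comp (IsFractionRing.injective O K)
    exact hπ.ne_zero (h4 (by rw [h1, map_zero]))
  have hπB : Prime (algebraMap O (BplusH O m) π) :=
    (Ideal.span_singleton_prime hπB0).mp hprime
  have hjB : j ∈ BplusH O m := hH.j_mem_BplusH h3L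
  have hθ : IsIntegral (BplusH O m) θ := by
    refine ⟨(modPoly N).map (evY (⟨j, hjB⟩ : BplusH O m)), (modPoly_monic N).map _, ?_⟩
    rw [eval₂_map, comp_evY, ← evZ_eq_eval₂_evY]
    exact hroot
  have hgenB : ∀ S : Subfield L, (∀ b : BplusH O m, algebraMap (BplusH O m) L b ∈ S) →
      θ ∈ S → S = ⊤ := by
    intro S hB hθS
    refine subfield_eq_top_of_adjoin (O := O) hgen S (fun a => hB (algebraMap O _ a)) ?_
    rintro x (rfl | rfl)
    · exact hB ⟨x, m_mem_BplusH⟩
    · exact hθS
  have hRB : ∀ x : L, IsIntegral (chartAlg O L {j}) x ↔ IsIntegral (BplusH O m) x := fun x =>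
    (isIntegral_chartAlg_iff_adjoin x).trans
      (isIntegral_iff_of_le (hH.adjoin_j_le_BplusH h3L)
        (fun y hy => hH.isIntegral_of_mem_BplusH h3 hy) x)
  refine LD_of_hyp_family (π := algebraMap O (BplusH O m) π) θ hθ.isAlgebraic hgenB ?_ rfl hRB
  intro E _ _ _ _ _ _ _ hgenE
  exact ⟨hπB, exists_basis_hesse N h3 hN hπ.not_isUnit htrO hH hroot hgenE,
    hTH L m j θ htrK hH hroot E hgenE⟩

omit [IsDomain O] [IsDiscreteValuationRing O] [CharZero K] [Field K] [Algebra O K]
  [IsFractionRing O K] [Algebra K L] [IsScalarTower O K L] [CommRing O] [Algebra O L] in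
theorem map_pH {L' : Type*} [Field L'] (φ : L →+* L') (x : L) : φ (pH x) = pH (φ x) := by
  simp only [pH, map_div₀, map_pow, map_sub, map_add, map_one, map_ofNat]

/-- **The chart around the cusp `μ' = ∞` upstairs.** -/
theorem LD_cuspH_chart (hπ : Irreducible π) (h3 : IsUnit (3 : O)) (hN : IsUnit ((N : ℕ) : O))
    (hTC : TraceDualHesseCusp O K N π) {m j θ : L} (hH : HesseEq j m)
    (hj : Transcendental K j) (hroot : evZ j θ (modPoly N) = 0)
    (hgen : IntermediateField.adjoin K {m, θ} = ⊤) :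
    LD (Ideal.span {algebraMap O (chartAlg O L {(pH m)⁻¹, j⁻¹}) π}) := by
  have h3L : (3 : L) ≠ 0 := isUnit_three_field h3
  have hN0 : N ≠ 0 := NeZero.ne N
  have hj0 : j ≠ 0 := fun h0 => hj (h0 ▸ isAlgebraic_zero)
  have hm0 : m ≠ 0 := hH.ne_zero h3L hj0
  -- the extension `Lc = L(t)`, `3 t^N = 1/μ`
  have hp : (X ^ N - C (m⁻¹ / 3) : L[X]).degree ≠ 0 := by
    rw [degree_X_pow_sub_C (Nat.pos_of_ne_zero hN0)]
    exact_mod_cast hN0
  obtain ⟨Lc, _, _, _, _, _, _, _, t, ht, hgenc⟩ :=
    exists_root_extension (O := O) (K := K) (X ^ N - C (m⁻¹ / 3) : L[X]) hp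
  haveI : CharZero Lc := charZero_of_injective_algebraMap (algebraMap K Lc).injective
  set φ : L →+* Lc := algebraMap L Lc with hφ
  have h3c : (3 : Lc) ≠ 0 := isUnit_three_field h3
  have hs : (sOf t N)⁻¹ = φ m := by
    rw [map_sub, map_pow, aeval_X, aeval_C, sub_eq_zero] at ht
    rw [sOf_def, ht, ← hφ, map_div₀, map_ofNat, mul_div_cancel₀ _ h3c, map_inv₀, inv_inv]
  have hHc : HesseEq (φ j) (sOf t N)⁻¹ := by
    have := congrArg φ hH
    rw [map_jNumH, map_mul, map_jDenH] at this
    rw [hs]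
    exact this
  have hjc : Transcendental K (φ j) :=
    (transcendental_algebraMap_iff (algebraMap L Lc).injective).mpr hj
  have hjc0 : φ j ≠ 0 := fun h0 => hjc (h0 ▸ isAlgebraic_zero)
  have hrootc : evZ (φ j) (φ θ) (modPoly N) = 0 := by
    rw [← map_evZ, hroot, map_zero]
  have htrK : Transcendental K t := by
    intro halg
    apply hHc.transcendental h3c hjc
    rw [sOf_def]
    have h3a : IsAlgebraic K (3 : Lc) := by
      have := isAlgebraic_algebraMap (R := K) (A := Lc) (3 : K)
      rwa [map_ofNat] at this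
    exact (h3a.mul (halg.pow N)).inv
  have htrO : Transcendental O t := transcendental_base htrK
  obtain ⟨hicl, hnoeth, hprime, hpid⟩ := BtH_props hN0 htrO (span_isMaximal hπ)
  have hπB0 : algebraMap O (BtH O t N) π ≠ 0 := by
    intro h0
    have h1 : algebraMap O Lc π = 0 := congrArg Subtype.val h0
    have h4 : Function.Injective (algebraMap O Lc) := by
      rw [IsScalarTower.algebraMap_eq O K Lc]
      exact (algebraMap K Lc).injective.comp (IsFractionRing.injective O K)
    exact hπ.ne_zero (h4 (by rw [h1, map_zero]))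
  have hπB : Prime (algebraMap O (BtH O t N) π) :=
    (Ideal.span_singleton_prime hπB0).mp hprime
  have hzB : (φ j)⁻¹ ∈ BtH O t N := hHc.cuspBaseH_le_BtH h3 hjc0 (inv_j_mem_cuspBaseH _ _)
  have hθ : IsAlgebraic (BtH O t N) (φ θ) :=
    isAlgebraic_of_inv_mem N (⟨(φ j)⁻¹, hzB⟩ : BtH O t N) (inv_mul_cancel₀ hjc0) hrootc
  -- generation
  have hgenB : ∀ S : Subfield Lc, (∀ b : BtH O t N, algebraMap (BtH O t N) Lc b ∈ S) →
      φ θ ∈ S → S = ⊤ := by
    intro S hB hθS
    refine hgenc S ?_ (hB ⟨t, t_mem_BtH⟩)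
    have htop : S.comap φ = ⊤ := by
      refine subfield_eq_top_of_adjoin (O := O) hgen (S.comap φ) (fun a => ?_) ?_
      · show φ (algebraMap O L a) ∈ S
        rw [hφ, ← IsScalarTower.algebraMap_apply O L Lc]
        exact hB (algebraMap O _ a)
      · rintro x (rfl | rfl)
        · show φ x ∈ S
          rw [← hs]
          exact S.inv_mem (hB ⟨_, sOf_mem_BtH⟩)
        · exact hθS
    intro a
    have : a ∈ S.comap φ := by rw [htop]; exact Subfield.mem_top a
    exact this
  -- the integral closures agree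
  set Sc : Set Lc := φ '' {(pH m)⁻¹, j⁻¹} with hSc_def
  have himg : Algebra.adjoin O Sc = cuspBaseP O (φ j) (sOf t N)⁻¹ := by
    rw [hSc_def, Set.image_pair, map_inv₀, map_inv₀, map_pH, ← hs, Set.pair_comm]
    rfl
  have hRB : ∀ x : Lc, IsIntegral (chartAlg O Lc Sc) x ↔ IsIntegral (BtH O t N) x := fun x => by
    rw [isIntegral_chartAlg_iff_adjoin x, himg]
    exact isIntegral_iff_of_le (hHc.cuspBaseP_le_BtH h3 hjc0)
      (fun y hy => hHc.isIntegral_of_mem_BtH_P h3 hjc0 hN0 hy) x
  have hLDc : LD (Ideal.span {algebraMap O (chartAlg O Lc Sc) π}) := by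
    refine LD_of_hyp_family (π := algebraMap O (BtH O t N) π) (φ θ) hθ hgenB ?_ rfl hRB
    intro E _ _ _ _ _ _ _ hgenE
    exact ⟨hπB, exists_basis_hesse_cusp N h3 hN hπ.not_isUnit htrO hHc hjc0 hrootc hgenE,
      hTC Lc t (φ j) (φ θ) htrK hHc hrootc E hgenE⟩
  exact LD_chart_descent (L := Lc) _ π hLDc

omit [IsDomain O] [IsDiscreteValuationRing O] [CharZero K] [Field K] [Algebra O K]
  [IsFractionRing O K] [Algebra K L] [IsScalarTower O K L] [CommRing O] [Algebra O L] in
theorem gH_gH {m : L} (h1 : m - 1 ≠ 0) (h3 : (3 : L) ≠ 0) : gH (gH m) = m :=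
  moebius_moebius h1 h3

omit [IsDomain O] [IsDiscreteValuationRing O] [CharZero K] [Algebra O K]
  [IsFractionRing O K] [Algebra O L] [IsScalarTower O K L] [CommRing O] in
/-- `K(g(c μ), θ) = K(μ, θ)` for a nonzero constant `c`. -/
theorem adjoin_gH_eq_top {m θ : L} (c : K) (hc : c ≠ 0) (h1 : algebraMap K L c * m - 1 ≠ 0)
    (h3 : (3 : L) ≠ 0) (hgen : IntermediateField.adjoin K {m, θ} = ⊤) :
    IntermediateField.adjoin K {gH (algebraMap K L c * m), θ} = ⊤ := by
  refine adjoin_pair_eq_top_of_mem hgen ?_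
  set M := IntermediateField.adjoin K {gH (algebraMap K L c * m), θ} with hM
  have hg : gH (algebraMap K L c * m) ∈ M :=
    IntermediateField.subset_adjoin K _ (Set.mem_insert _ _)
  have h2 : algebraMap K L c * m ∈ M := by
    rw [← gH_gH h1 h3]
    have h2' : (2 : L) ∈ M := by exact_mod_cast M.natCast_mem 2
    exact div_mem (add_mem hg h2') (sub_mem hg (one_mem _))
  have hc' : algebraMap K L c ≠ 0 := (_root_.map_ne_zero _).mpr hc
  have : m = (algebraMap K L c)⁻¹ * (algebraMap K L c * m) := by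
    rw [inv_mul_cancel_left₀ hc']
  rw [this]
  exact mul_mem (inv_mem (M.algebraMap_mem c)) h2

/-- **The chart at infinity upstairs.** -/
theorem LD_inf_chart_hesse (hπ : Irreducible π) (h3 : IsUnit (3 : O))
    (hN : IsUnit ((N : ℕ) : O)) (hTH : TraceDualHesse O K N π)
    (hTC : TraceDualHesseCusp O K N π) {z : K} (hz : z ^ 2 + z + 1 = 0)
    {m j θ : L} (hH : HesseEq j m) (hj : Transcendental K j)
    (hroot : evZ j θ (modPoly N) = 0) (hgen : IntermediateField.adjoin K {m, θ} = ⊤) :
    LD (Ideal.span {algebraMap O (chartAlg O L {j⁻¹}) π}) := by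
  have h3L : (3 : L) ≠ 0 := isUnit_three_field h3
  have hj0 : j ≠ 0 := fun h0 => hj (h0 ▸ isAlgebraic_zero)
  have hLD0 := LD_hesse_chart N hπ h3 hN hTH hH hj hroot hgen
  set ζ : L := algebraMap K L z with hζ
  have hζ2 : ζ ^ 2 + ζ + 1 = 0 := by
    have := congrArg (algebraMap K L) hz
    rwa [map_add, map_add, map_pow, map_one, map_zero] at this
  have hζ3 : ζ ^ 3 = 1 := by linear_combination (ζ - 1) * hζ2
  have hζ6 : (ζ ^ 2) ^ 3 = 1 := by
    rw [← pow_mul, show 2 * 3 = 3 * 2 from rfl, pow_mul, hζ3, one_pow]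
  have hz0 : z ≠ 0 := by
    intro h0
    rw [h0] at hz
    norm_num at hz
  -- the four cusps
  have hH1 : HesseEq j (gH m) := hH.gH h3L
  have hH2 : HesseEq j (gH (ζ * m)) := (hH.mul_root hζ3).gH h3L
  have hH3 : HesseEq j (gH (ζ ^ 2 * m)) := (hH.mul_root hζ6).gH h3L
  have hg1 : IntermediateField.adjoin K {gH m, θ} = ⊤ := by
    have := adjoin_gH_eq_top (1 : K) one_ne_zero (m := m) (θ := θ)
      (by rw [map_one, one_mul]; exact hH.sub_one_ne_zero h3L) h3L hgen
    rwa [map_one, one_mul] at this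
  have hg2 : IntermediateField.adjoin K {gH (ζ * m), θ} = ⊤ :=
    adjoin_gH_eq_top z hz0 ((hH.mul_root hζ3).sub_one_ne_zero h3L) h3L hgen
  have hg3 : IntermediateField.adjoin K {gH (ζ ^ 2 * m), θ} = ⊤ := by
    have := adjoin_gH_eq_top (z ^ 2) (pow_ne_zero 2 hz0) (m := m) (θ := θ)
      (by rw [map_pow]; exact (hH.mul_root hζ6).sub_one_ne_zero h3L) h3L hgen
    rwa [map_pow] at this
  refine LD_cusp_chart j hj0 hLD0 ?_
  intro 𝔭 h𝔭 _
  have hmem : ∀ {m' : L}, HesseEq j m' → pH m' ∈ chartAlg O L {j⁻¹} := fun {m'} h =>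
    mem_chartAlg_iff.mpr (h.isIntegral_pH_subalgebra h3L hj0 (Algebra.subset_adjoin rfl))
  let a0 : chartAlg O L {j⁻¹} := ⟨pH m, hmem hH⟩
  let a1 : chartAlg O L {j⁻¹} := ⟨pH (gH m), hmem hH1⟩
  let a2 : chartAlg O L {j⁻¹} := ⟨pH (gH (ζ * m)), hmem hH2⟩
  let a3 : chartAlg O L {j⁻¹} := ⟨pH (gH (ζ ^ 2 * m)), hmem hH3⟩
  have hsum : a0 + a1 + a2 + a3 = 1 := Subtype.ext (hH.sum_pH h3L hj0 hζ2)
  by_cases h0 : a0 ∈ 𝔭
  · by_cases h1 : a1 ∈ 𝔭
    · by_cases h2 : a2 ∈ 𝔭
      · have h3' : a3 ∉ 𝔭 := by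
          intro h3'
          apply h𝔭.ne_top
          rw [Ideal.eq_top_iff_one, ← hsum]
          exact 𝔭.add_mem (𝔭.add_mem (𝔭.add_mem h0 h1) h2) h3'
        exact ⟨a3, h3', LD_cuspH_chart N hπ h3 hN hTC hH3 hj hroot hg3⟩
      · exact ⟨a2, h2, LD_cuspH_chart N hπ h3 hN hTC hH2 hj hroot hg2⟩
    · exact ⟨a1, h1, LD_cuspH_chart N hπ h3 hN hTC hH1 hj hroot hg1⟩
  · exact ⟨a0, h0, LD_cuspH_chart N hπ h3 hN hTC hH hj hroot hgen⟩

end Field

section Main

variable {O K F : Type} [CommRing O] [IsDomain O] [IsDiscreteValuationRing O] [Field K]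
  [CharZero K] [Algebra O K] [IsFractionRing O K] [Field F] [Algebra O F] [Algebra K F]
  [IsScalarTower O K F] (N : ℕ) [NeZero N] {π : O}

omit [IsDomain O] [IsDiscreteValuationRing O] [Algebra O K] [IsFractionRing O K] [Algebra O F]
  [IsScalarTower O K F] [CommRing O] [CharZero K] in
/-- The polynomial `27 X³ (X³ + 8)³ - j (X³ - 1)³` is not a nonzero constant. -/
theorem degree_hesse_ne_zero {j : F} (hj : Transcendental K j) :
    (jNumHPoly F - C j * jDenHPoly F).degree ≠ 0 := by
  intro h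
  have hc := eq_C_of_degree_eq_zero h
  have e0 := congrArg (eval 0) hc
  have e1 := congrArg (eval 1) hc
  rw [eval_C] at e0 e1
  rw [eval_sub, eval_mul, eval_C, eval_jNumHPoly, eval_jDenHPoly] at e0 e1
  have h1 : jNumH (0 : F) - j * jDenH 0 = jNumH 1 - j * jDenH 1 := by rw [e0, e1]
  rw [jNumH_def, jDenH_def, jNumH_def, jDenH_def] at h1
  have h2 : j = algebraMap K F 19683 := by
    rw [map_ofNat]
    linear_combination h1
  exact hj (h2 ▸ isAlgebraic_algebraMap _)

/-- **Both special fibres of the `j`-line of `F = K(j, θ)`, `Φ_N(j, θ) = 0`, are reduced and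
locally integral**, for a base containing a primitive cube root of unity in which `3` and `N` are
invertible. -/
theorem LD_charts_two (hπ : Irreducible π) (h3 : IsUnit (3 : O))
    (hN : IsUnit ((N : ℕ) : O)) (hTH : TraceDualHesse O K N π)
    (hTC : TraceDualHesseCusp O K N π) {z : K} (hz : z ^ 2 + z + 1 = 0)
    {j θ : F} (hj : Transcendental K j) (hroot : evZ j θ (modPoly N) = 0)
    (hgen : IntermediateField.adjoin K {j, θ} = ⊤) :
    LD (Ideal.span {algebraMap O (chartAlg O F {j}) π}) ∧
      LD (Ideal.span {algebraMap O (chartAlg O F {j⁻¹}) π}) := by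
  obtain ⟨L, _, _, _, _, _, _, _, m, hm, hgenL⟩ :=
    exists_root_extension (O := O) (K := K) (jNumHPoly F - C j * jDenHPoly F)
      (degree_hesse_ne_zero hj)
  set φ : F →+* L := algebraMap F L with hφ
  have h3L : (3 : L) ≠ 0 := isUnit_three_field h3
  have hH : HesseEq (φ j) m := by
    rw [map_sub, map_mul, aeval_C, aeval_jNumHPoly, aeval_jDenHPoly, sub_eq_zero] at hm
    exact hm
  have hjL : Transcendental K (φ j) :=
    (transcendental_algebraMap_iff (algebraMap F L).injective).mpr hj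
  have hrootL : evZ (φ j) (φ θ) (modPoly N) = 0 := by
    rw [← map_evZ, hroot, map_zero]
  have hgenL' : IntermediateField.adjoin K {m, φ θ} = ⊤ := by
    set M := IntermediateField.adjoin K {m, φ θ} with hM
    have hmM : m ∈ M := IntermediateField.subset_adjoin K _ (Set.mem_insert _ _)
    have hθM : φ θ ∈ M := IntermediateField.subset_adjoin K _ (Set.mem_insert_of_mem _ rfl)
    have hjM : φ j ∈ M := by
      rw [hH.j_eq h3L, jNumH_def, jDenH_def]
      have h27 : (27 : L) ∈ M := by exact_mod_cast M.natCast_mem 27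
      have h8 : (8 : L) ∈ M := by exact_mod_cast M.natCast_mem 8
      exact div_mem (mul_mem (mul_mem h27 (pow_mem hmM 3)) (pow_mem (add_mem (pow_mem hmM 3) h8) 3))
        (pow_mem (sub_mem (pow_mem hmM 3) (one_mem _)) 3)
    have htop : M.toSubfield.comap φ = ⊤ := by
      refine subfield_eq_top_of_adjoin' hgen _ (fun c => ?_) ?_
      · show φ (algebraMap K F c) ∈ M
        rw [hφ, ← IsScalarTower.algebraMap_apply K F L]
        exact M.algebraMap_mem c
      · rintro x (rfl | rfl)
        · exact hjM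
        · exact hθM
    have h1 := hgenL M.toSubfield (fun a => by
      have : a ∈ M.toSubfield.comap φ := by rw [htop]; exact Subfield.mem_top a
      exact this) hmM
    rw [eq_top_iff]
    intro x _
    have : x ∈ M.toSubfield := by rw [h1]; exact Subfield.mem_top x
    exact this
  constructor
  · have h1 := LD_hesse_chart N hπ h3 hN hTH hH hjL hrootL hgenL'
    exact LD_chart_descent (L := L) {j} π (LD_chart_congr (Set.image_singleton).symm π h1)
  · have h1 := LD_inf_chart_hesse N hπ h3 hN hTH hTC hz hH hjL hrootL hgenL'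
    refine LD_chart_descent (L := L) {j⁻¹} π (LD_chart_congr ?_ π h1)
    rw [Set.image_singleton, map_inv₀]

end Main

end Fermat.Agent.N4.IrreducibleTwo
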