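/-
N4, block L3 (helper6), part 8: the four characteristic-zero étaleness inputs of helper13's S28a
assembly (`N4/TraceDualInputs.lean`) as THEOREMS:
`traceDualLambda`, `traceDualCusp`, `traceDualHesse`, `traceDualHesseCusp`.

Each is: `differentIdeal A₀ C₀ = ⊤` for the chart ring `A₀` over `K` (`N4/Char0Charts.lean`)
+ helper10's two-base package (`N4/TwoBase.lean`: `A₀ = B[1/π]`, `A₀ = K[X][1/f]`)
+ helper11's adapter `EtaleInputs.traceDual_of_differentIdeal_eq_top`.
-/
import Fermat.Agent.N4.Char0Charts
import Fermat.Agent.N4.TwoBase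
import Fermat.Agent.N4.EtaleInputs
import Fermat.Agent.N4.TraceDualInputs

set_option autoImplicit false

namespace Fermat.Agent.N4.Char0

open Polynomial IntermediateField
open Fermat.Agent.N4.EtaleNormalization Fermat.Agent.N4.TraceDualInputs
open Fermat.Agent.N4.ModPolyDescent Fermat.Agent.N4.Kronecker

/-! ### Plumbing: from `Frac B` to `Frac B[1/π]` -/

section Plumbing

variable {B A₀ L : Type*} [CommRing B] [IsDomain B] [CommRing A₀] [IsDomain A₀] [Field L]
  [Algebra B L] [Algebra B A₀] [Algebra A₀ L] [IsScalarTower B A₀ L]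

/-- A fraction field `E` of `B` inside `L` is a fraction field of `A₀ = B[1/π]`, compatibly. -/
theorem exists_algebra_fractionRing (π : B) (hπ0 : π ≠ 0) [IsLocalization.Away π A₀]
    (E : Type*) [Field E] [Algebra B E] [IsFractionRing B E] [Algebra E L]
    [IsScalarTower B E L] :
    ∃ (_ : Algebra A₀ E), IsFractionRing A₀ E ∧ IsScalarTower A₀ E L ∧ IsScalarTower B A₀ E := by
  have hunit : IsUnit (algebraMap B E π) :=
    isUnit_iff_ne_zero.mpr (by simpa using (IsFractionRing.injective B E).ne hπ0)
  letI algAE : Algebra A₀ E := (IsLocalization.Away.lift π (g := algebraMap B E) hunit).toAlgebra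
  haveI hBAE : IsScalarTower B A₀ E := IsScalarTower.of_algebraMap_eq (fun b => by
    rw [RingHom.algebraMap_toAlgebra, IsLocalization.Away.lift_eq])
  haveI hfrac : IsFractionRing A₀ E :=
    IsFractionRing.isFractionRing_of_isDomain_of_isLocalization (Submonoid.powers π) A₀ E
  have htower : IsScalarTower A₀ E L := IsScalarTower.of_algebraMap_eq' (by
    apply IsLocalization.ringHom_ext (Submonoid.powers π)
    ext b
    simp only [RingHom.comp_apply]
    rw [← IsScalarTower.algebraMap_apply B A₀ L, ← IsScalarTower.algebraMap_apply B A₀ E,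
      ← IsScalarTower.algebraMap_apply B E L])
  exact ⟨algAE, hfrac, htower, hBAE⟩

end Plumbing

/-! ### The four provider theorems -/

section Providers

open Fermat.Agent.N4.Lambda Fermat.Agent.N4.Hesse

variable {O K : Type} [CommRing O] [IsDomain O] [IsDiscreteValuationRing O] [Field K] [CharZero K]
  [Algebra O K] [IsFractionRing O K]

/-- **(γ) for the `λ`-chart.** -/
theorem traceDualLambda (N : ℕ) [NeZero N] {π : O} (hπ : Irreducible π) (κ : K →+* ℂ) :
    TraceDualLambda O K N π := by
  intro L _ _ _ _ lam j θ htr hsex hΦ E _ _ _ _ _ _ hθ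
  -- the two chart rings
  letI := TwoBase.algBplus O K lam
  haveI := TwoBase.isScalarTower_Bplus O K lam
  haveI := TwoBase.isLocalization_away_Bplus O K hπ lam
  letI := TwoBase.algPolyBplus K lam
  haveI := TwoBase.isLocalization_away_polyBplus htr
  haveI := TwoBase.isDedekindDomain_Bplus htr
  have hπ0 : algebraMap O (Bplus O lam) π ≠ 0 := by
    intro h0
    apply hπ.ne_zero
    apply TwoBase.algebraMap_RL_injective O K (L := L)
    have := congrArg (fun z : Bplus O lam => (z : L)) h0
    simpa using this
  obtain ⟨i1, i2, i3, i4⟩ := exists_algebra_fractionRing (A₀ := Bplus K lam) (L := L)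
    (algebraMap O (Bplus O lam) π) hπ0 E
  letI := i1
  haveI := i2
  haveI := i3
  haveI := i4
  haveI : CharZero L := charZero_of_injective_algebraMap (algebraMap K L).injective
  haveI : CharZero E := (algebraMap E L).charZero
  -- the integral closure
  haveI : IsDedekindDomain (integralClosure (Bplus K lam) L) :=
    IsIntegralClosure.isDedekindDomain (Bplus K lam) E L _
  haveI : IsFractionRing (integralClosure (Bplus K lam) L) L :=
    IsIntegralClosure.isFractionRing_of_finite_extension (Bplus K lam) E L _
  have hdiff : differentIdeal (Bplus K lam) (integralClosure (Bplus K lam) L) = ⊤ := by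
    refine differentIdeal_eq_top_lambda κ N θ j hθ ?_ hΦ
    rw [TwoBase.algebraMap_polyA_X]
    exact hsex
  exact EtaleInputs.traceDual_of_differentIdeal_eq_top (algebraMap O (Bplus O lam) π)
    (Bplus K lam) (integralClosure (Bplus K lam) L) hdiff

/-- **(γ) for the cusp chart of the `λ`-line.** -/
theorem traceDualCusp (N : ℕ) [NeZero N] {π : O} (hπ : Irreducible π) (κ : K →+* ℂ) :
    TraceDualCusp O K N π := by
  intro L _ _ _ _ t j θ htr hsex hΦ E _ _ _ _ _ _ hθ
  have hN : N ≠ 0 := NeZero.ne N
  letI := TwoBase.algBt O K t N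
  haveI := TwoBase.isScalarTower_Bt O K t N
  haveI := TwoBase.isLocalization_away_Bt O K hπ t N
  letI := TwoBase.algPolyBt K t N
  haveI := TwoBase.isLocalization_away_polyBt hN htr
  haveI := TwoBase.isDedekindDomain_Bt hN htr
  have hπ0 : algebraMap O (Bt O t N) π ≠ 0 := by
    intro h0
    apply hπ.ne_zero
    apply TwoBase.algebraMap_RL_injective O K (L := L)
    have := congrArg (fun z : Bt O t N => (z : L)) h0
    simpa using this
  obtain ⟨i1, i2, i3, i4⟩ := exists_algebra_fractionRing (A₀ := Bt K t N) (L := L)
    (algebraMap O (Bt O t N) π) hπ0 E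
  letI := i1
  haveI := i2
  haveI := i3
  haveI := i4
  haveI : CharZero L := charZero_of_injective_algebraMap (algebraMap K L).injective
  haveI : CharZero E := (algebraMap E L).charZero
  haveI : IsDedekindDomain (integralClosure (Bt K t N) L) :=
    IsIntegralClosure.isDedekindDomain (Bt K t N) E L _
  haveI : IsFractionRing (integralClosure (Bt K t N) L) L :=
    IsIntegralClosure.isFractionRing_of_finite_extension (Bt K t N) E L _
  have hdiff : differentIdeal (Bt K t N) (integralClosure (Bt K t N) L) = ⊤ := by
    refine differentIdeal_eq_top_lambda_t κ N θ j hθ ?_ hΦ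
    rw [TwoBase.algebraMap_polyA_X]
    exact hsex
  exact EtaleInputs.traceDual_of_differentIdeal_eq_top (algebraMap O (Bt O t N) π)
    (Bt K t N) (integralClosure (Bt K t N) L) hdiff

/-- **(γ) for the Hesse chart.** -/
theorem traceDualHesse (N : ℕ) [NeZero N] {π : O} (hπ : Irreducible π) (κ : K →+* ℂ) :
    TraceDualHesse O K N π := by
  intro L _ _ _ _ m j θ htr hhes hΦ E _ _ _ _ _ _ hθ
  letI := TwoBase.algBplusH O K m
  haveI := TwoBase.isScalarTower_BplusH O K m
  haveI := TwoBase.isLocalization_away_BplusH O K hπ m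
  letI := TwoBase.algPolyBplusH K m
  haveI := TwoBase.isLocalization_away_polyBplusH htr
  haveI := TwoBase.isDedekindDomain_BplusH htr
  have hπ0 : algebraMap O (BplusH O m) π ≠ 0 := by
    intro h0
    apply hπ.ne_zero
    apply TwoBase.algebraMap_RL_injective O K (L := L)
    have := congrArg (fun z : BplusH O m => (z : L)) h0
    simpa using this
  obtain ⟨i1, i2, i3, i4⟩ := exists_algebra_fractionRing (A₀ := BplusH K m) (L := L)
    (algebraMap O (BplusH O m) π) hπ0 E
  letI := i1
  haveI := i2
  haveI := i3
  haveI := i4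
  haveI : CharZero L := charZero_of_injective_algebraMap (algebraMap K L).injective
  haveI : CharZero E := (algebraMap E L).charZero
  haveI : IsDedekindDomain (integralClosure (BplusH K m) L) :=
    IsIntegralClosure.isDedekindDomain (BplusH K m) E L _
  haveI : IsFractionRing (integralClosure (BplusH K m) L) L :=
    IsIntegralClosure.isFractionRing_of_finite_extension (BplusH K m) E L _
  have hdiff : differentIdeal (BplusH K m) (integralClosure (BplusH K m) L) = ⊤ := by
    refine differentIdeal_eq_top_hesse κ N θ j hθ ?_ hΦ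
    rw [TwoBase.algebraMap_polyA_X]
    exact hhes
  exact EtaleInputs.traceDual_of_differentIdeal_eq_top (algebraMap O (BplusH O m) π)
    (BplusH K m) (integralClosure (BplusH K m) L) hdiff

/-- **(γ) for the cusp chart of the Hesse line.** -/
theorem traceDualHesseCusp (N : ℕ) [NeZero N] {π : O} (hπ : Irreducible π) (κ : K →+* ℂ) :
    TraceDualHesseCusp O K N π := by
  intro L _ _ _ _ t j θ htr hhes hΦ E _ _ _ _ _ _ hθ
  have hN : N ≠ 0 := NeZero.ne N
  letI := TwoBase.algBtH O K t N
  haveI := TwoBase.isScalarTower_BtH O K t N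
  haveI := TwoBase.isLocalization_away_BtH O K hπ t N
  letI := TwoBase.algPolyBtH K t N
  haveI := TwoBase.isLocalization_away_polyBtH hN htr
  haveI := TwoBase.isDedekindDomain_BtH hN htr
  have hπ0 : algebraMap O (BtH O t N) π ≠ 0 := by
    intro h0
    apply hπ.ne_zero
    apply TwoBase.algebraMap_RL_injective O K (L := L)
    have := congrArg (fun z : BtH O t N => (z : L)) h0
    simpa using this
  obtain ⟨i1, i2, i3, i4⟩ := exists_algebra_fractionRing (A₀ := BtH K t N) (L := L)
    (algebraMap O (BtH O t N) π) hπ0 E
  letI := i1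
  haveI := i2
  haveI := i3
  haveI := i4
  haveI : CharZero L := charZero_of_injective_algebraMap (algebraMap K L).injective
  haveI : CharZero E := (algebraMap E L).charZero
  haveI : IsDedekindDomain (integralClosure (BtH K t N) L) :=
    IsIntegralClosure.isDedekindDomain (BtH K t N) E L _
  haveI : IsFractionRing (integralClosure (BtH K t N) L) L :=
    IsIntegralClosure.isFractionRing_of_finite_extension (BtH K t N) E L _
  have ht0 : t ≠ 0 := by
    rintro rfl
    exact htr (isAlgebraic_zero)
  have hs0 : sOf t N ≠ 0 := by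
    rw [sOf_def]
    have h3 : (3 : L) ≠ 0 := three_ne_zero
    exact mul_ne_zero h3 (pow_ne_zero N ht0)
  have hdiff : differentIdeal (BtH K t N) (integralClosure (BtH K t N) L) = ⊤ := by
    refine differentIdeal_eq_top_hesse_t κ N θ j hθ ?_ hΦ
    rw [TwoBase.algebraMap_polyA_X]
    exact jNumC_eq_of_hesseEq hs0 hhes
  exact EtaleInputs.traceDual_of_differentIdeal_eq_top (algebraMap O (BtH O t N) π)
    (BtH K t N) (integralClosure (BtH K t N) L) hdiff

end Providers

end Fermat.Agent.N4.Char0
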