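/-
N4 block S28a, final assembly: **the special fibres of both charts of the `j`-line of the modular
function field `FF K N` over a good base `(K, O, ℓ)` are integral** (`fibreIdeal` prime), hence
`Setting.StarStatement K N O`:

* for `ℓ` odd: via the Legendre `λ`-line (`IrreducibleOdd.LD_charts_odd`);
* for `ℓ = 2`: via the Hesse line (`IrreducibleTwo.LD_charts_two`), under the hypothesis that `K`
  contains a primitive cube root of unity.

Inputs: the characteristic-zero étaleness of the auxiliary charts (`TraceDualProofs`, helper6),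
the root form of `Φ_N` (`ChartHyp`, helper10/helper12), connectedness (`ChartPrime`, helper8),
`FF K N = K(j, j_N)` (`ModPolySetting`, helper12), the fibre embedding (`FibreEmbedding`, helper9).
The only hypothesis left open is `AlgClosedInFF` (`K` is algebraically closed in `FF K N`).
-/
import Mathlib
import Fermat.Agent.N4.IrreducibleTwo
import Fermat.Agent.N4.TraceDualProofs
import Fermat.Agent.N4.ChartPrime
import Fermat.Agent.N4.ModPolySetting
import Fermat.Agent.N4.FibreEmbedding

set_option autoImplicit false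

open Polynomial IntermediateField

namespace Fermat.Agent.N4.Irreducible

open Fermat.Agent.N4.Setting Fermat.Agent.N4.FibreComponents Fermat.Agent.N4.Chart
  Fermat.Agent.N4.Kronecker Fermat.Agent.N4.ModPolyDescent Fermat.Agent.N4.ModPolySetting
  Fermat.Agent.N4.TraceDualInputs

/-- `K` is algebraically closed in the modular function field `FF K N ⊆ K((q))`. -/
def AlgClosedInFF : Prop :=
  ∀ (K : Type) [Field K] [CharZero K] (N : ℕ) [NeZero N] (x : FF K N),
    IsAlgebraic K x → x ∈ (algebraMap K (FF K N)).range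

section Base

variable {K : Type} [Field K] {N : ℕ} {O : Subring K} [IsLocalRing ↥O] {ℓ : ℕ}

/-- An integer prime to the residue characteristic is a unit of `O`. -/
theorem isUnit_natCast_of_not_dvd (hG : GoodBase K N O ℓ) {m : ℕ} (hm : ¬ ℓ ∣ m) :
    IsUnit ((m : ℕ) : ↥O) := by
  have hcop : Nat.Coprime ℓ m := (Nat.Prime.coprime_iff_not_dvd hG.prime).mpr hm
  by_contra hnu
  have h1 : ((ℓ : ℕ) : ↥O) ∈ IsLocalRing.maximalIdeal ↥O := hG.not_isUnit
  have h2 : ((m : ℕ) : ↥O) ∈ IsLocalRing.maximalIdeal ↥O := hnu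
  have hb : ((ℓ : ℤ) * Nat.gcdA ℓ m + (m : ℤ) * Nat.gcdB ℓ m : ℤ) = 1 := by
    have := Nat.gcd_eq_gcd_ab ℓ m
    rw [hcop] at this
    exact_mod_cast this.symm
  have h3 : (1 : ↥O) ∈ IsLocalRing.maximalIdeal ↥O := by
    have : (1 : ↥O) = ((ℓ : ℕ) : ↥O) * ((Nat.gcdA ℓ m : ℤ) : ↥O) +
        ((m : ℕ) : ↥O) * ((Nat.gcdB ℓ m : ℤ) : ↥O) := by
      have := congrArg (Int.cast : ℤ → ↥O) hb
      push_cast at this
      exact this.symm
    rw [this]
    exact Ideal.add_mem _ (Ideal.mul_mem_right _ _ h1) (Ideal.mul_mem_right _ _ h2)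
  exact (Ideal.ne_top_iff_one _).mp (IsLocalRing.maximalIdeal.isMaximal ↥O).ne_top h3

end Base

section Main

variable (K : Type) [Field K] [CharZero K] [Algebra.IsAlgebraic ℚ K] (N : ℕ) [NeZero N]
  (O : Subring K) [IsDiscreteValuationRing ↥O] {ℓ : ℕ}

/-- **Both special fibres are integral.** -/
theorem isPrime_fibreIdeal (hFF : AlgClosedInFF) (hG : GoodBase K N O ℓ)
    (hω : ℓ = 2 → ∃ z : K, z ^ 2 + z + 1 = 0) :
    (fibreIdeal K N O (Rfin K N O)).IsPrime ∧ (fibreIdeal K N O (Rinf K N O)).IsPrime := by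
  haveI := hG.frac
  obtain ⟨ϖ, hϖ⟩ := IsDiscreteValuationRing.exists_irreducible ↥O
  -- an embedding of `K` into `ℂ`
  let κ : K →+* ℂ := (IsAlgClosed.lift (R := ℚ) (S := K) (M := ℂ)).toRingHom
  have hN : IsUnit ((N : ℕ) : ↥O) := isUnit_natCast_of_not_dvd hG hG.not_dvd
  have hj : Transcendental K (jF K N) := FFAlgebraic.transcendental_jF K N
  have hroot := evZ_modPoly_FF K N
  have hgen := adjoin_jF_jNF_eq_top K N
  have hLD : LD (Ideal.span {algebraMap ↥O (chartAlg ↥O (FF K N) {jF K N}) ϖ}) ∧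
      LD (Ideal.span {algebraMap ↥O (chartAlg ↥O (FF K N) {(jF K N)⁻¹}) ϖ}) := by
    by_cases h2 : ℓ = 2
    · obtain ⟨z, hz⟩ := hω h2
      have h3 : IsUnit (3 : ↥O) := by
        have := isUnit_natCast_of_not_dvd hG (m := 3) (by rw [h2]; norm_num)
        exact_mod_cast this
      exact IrreducibleTwo.LD_charts_two N hϖ h3 hN (Char0.traceDualHesse N hϖ κ)
        (Char0.traceDualHesseCusp N hϖ κ) hz hj hroot hgen
    · have h2' : IsUnit (2 : ↥O) := by
        have := isUnit_natCast_of_not_dvd hG (m := 2) (by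
          intro hd
          exact h2 ((Nat.prime_dvd_prime_iff_eq hG.prime Nat.prime_two).mp hd))
        exact_mod_cast this
      exact IrreducibleOdd.LD_charts_odd N hϖ h2' hN (Char0.traceDualLambda N hϖ κ)
        (Char0.traceDualCusp N hϖ κ) hj hroot hgen
  haveI : FiniteDimensional K⟮jF K N⟯ (FF K N) := finiteDimensional_FF K N
  have hP := ChartPrime.isPrime_fibre_chart (O := ↥O) (K := K) (F := FF K N) (jF K N) hj
    (hFF K N) hϖ hLD.1 hLD.2
  rw [FibreEmbedding.fibreIdeal_eq_span K N O hϖ, FibreEmbedding.fibreIdeal_eq_span K N O hϖ]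
  exact hP

/-- **(∗) for both charts**, for odd residue characteristic, and for residue characteristic `2`
when the base contains a primitive cube root of unity. -/
theorem starStatement (hFF : AlgClosedInFF) (hG : GoodBase K N O ℓ)
    (hω : ℓ = 2 → ∃ z : K, z ^ 2 + z + 1 = 0) : StarStatement K N O := by
  obtain ⟨h1, h2⟩ := isPrime_fibreIdeal K N O hFF hG hω
  exact FibreEmbedding.starStatement_of_goodBase K N O hG h1 h2

end Main

/-- The deliverable of block S28a, with the cube root of unity hypothesis at `ℓ = 2`. -/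
def StarTargetOmega : Prop :=
  ∀ (K : Type) [Field K] [CharZero K] [Algebra.IsAlgebraic ℚ K] (N : ℕ) [NeZero N] (O : Subring K)
    [IsDiscreteValuationRing ↥O] (ℓ : ℕ), GoodBase K N O ℓ →
    (ℓ = 2 → ∃ z : K, z ^ 2 + z + 1 = 0) → StarStatement K N O

theorem starTargetOmega (hFF : AlgClosedInFF) : StarTargetOmega :=
  fun K _ _ _ N _ O _ _ hG hω => starStatement K N O hFF hG hω

end Fermat.Agent.N4.Irreducible
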