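/-
N4 block S28a: auxiliary generic lemmas for the final assembly (`N4/Irreducible*.lean`).

* `isIntegral_iff_of_le` : two subalgebras `A ≤ B` of a field with `B` integral over `A` have the
  same integral elements;
* `isIntegral_chartAlg_iff_adjoin` : integral over the chart = integral over `O[S]`;
* `exists_root_extension` : a simple extension `L = F(x)` with `p(x) = 0`, together with all the
  base algebra structures;
* `subfield_eq_top_of_adjoin` : generation in `Subfield` form;
* `LD_of_hyp_family` : the assembly `Hyp B E L π` for every fraction field `E` of `B` inside `L`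
  `⇒ LD (π R)`, with all the fraction field plumbing internal.
-/
import Mathlib
import Fermat.Agent.N4.FibreCharts

set_option autoImplicit false

open Polynomial IntermediateField

namespace Fermat.Agent.N4.IrreducibleAux

open Fermat.Agent.N4.EtaleNormalization Fermat.Agent.N4.FibreComponents
  Fermat.Agent.N4.FibreCharts Fermat.Agent.N4.Chart

section Integral

variable {O L : Type*} [CommRing O] [Field L] [Algebra O L]

/-- Two subalgebras `A ≤ B` with `B` integral over `A` have the same integral elements. -/
theorem isIntegral_iff_of_le {A B : Subalgebra O L} (hle : A ≤ B)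
    (hint : ∀ x ∈ B, IsIntegral A x) (x : L) : IsIntegral A x ↔ IsIntegral B x := by
  let _ : Algebra A B := (Subalgebra.inclusion hle).toRingHom.toAlgebra
  have : IsScalarTower A B L := IsScalarTower.of_algebraMap_eq (fun _ => rfl)
  constructor
  · intro h
    exact h.tower_top
  · intro h
    have : Algebra.IsIntegral A B := ⟨fun b => by
      have h1 := hint b b.2
      exact (isIntegral_algebraMap_iff (R := A) (A := B) (B := L) Subtype.val_injective).mp h1⟩
    exact isIntegral_trans x h

/-- Integral over the chart = integral over `O[S]`. -/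
theorem isIntegral_chartAlg_iff_adjoin {S : Set L} (x : L) :
    IsIntegral (chartAlg O L S) x ↔ IsIntegral (Algebra.adjoin O S) x :=
  isIntegral_chartAlg_iff.trans mem_chartAlg_iff

end Integral

section Extension

universe u

/-- A simple extension `L = F(x)` of the field `F` in which the non-constant polynomial `p` has
the root `x`. -/
theorem exists_root_extension₀ {F : Type u} [Field F] (p : F[X]) (hp : p.degree ≠ 0) :
    ∃ (L : Type u) (_ : Field L) (_ : Algebra F L) (x : L),
      aeval x p = 0 ∧
        ∀ S : Subfield L, (∀ a : F, algebraMap F L a ∈ S) → x ∈ S → S = ⊤ := by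
  have : Fact (Irreducible p.factor) := ⟨irreducible_factor p⟩
  refine ⟨AdjoinRoot p.factor, inferInstance, inferInstance, AdjoinRoot.root p.factor, ?_, ?_⟩
  · rw [AdjoinRoot.aeval_eq, AdjoinRoot.mk_eq_zero]
    exact factor_dvd_of_degree_ne_zero hp
  · intro S hF hx
    rw [eq_top_iff]
    intro y _
    obtain ⟨q, rfl⟩ := AdjoinRoot.mk_surjective y
    clear * - hF hx
    induction q using Polynomial.induction_on with
    | C a => exact hF a
    | add q r hq hr => rw [map_add]; exact S.add_mem hq hr
    | monomial n a h =>
      rw [pow_succ, ← mul_assoc, map_mul, AdjoinRoot.mk_X]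
      exact S.mul_mem h hx

/-- The same, together with the algebra structures over the bases `O → K → F`. -/
theorem exists_root_extension {O K F : Type u} [CommRing O] [Field K] [Field F] [Algebra O K]
    [Algebra K F] [Algebra O F] [IsScalarTower O K F] (p : F[X]) (hp : p.degree ≠ 0) :
    ∃ (L : Type u) (_ : Field L) (_ : Algebra F L) (_ : Algebra K L) (_ : Algebra O L)
      (_ : IsScalarTower O K L) (_ : IsScalarTower K F L) (_ : IsScalarTower O F L) (x : L),
      aeval x p = 0 ∧
        ∀ S : Subfield L, (∀ a : F, algebraMap F L a ∈ S) → x ∈ S → S = ⊤ := by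
  obtain ⟨L, _, _, x, hx, hgen⟩ := exists_root_extension₀ p hp
  let aK : Algebra K L := ((algebraMap F L).comp (algebraMap K F)).toAlgebra
  let aO : Algebra O L := ((algebraMap F L).comp (algebraMap O F)).toAlgebra
  have t1 : IsScalarTower K F L := IsScalarTower.of_algebraMap_eq (fun _ => rfl)
  have t2 : IsScalarTower O F L := IsScalarTower.of_algebraMap_eq (fun _ => rfl)
  have t3 : IsScalarTower O K L := IsScalarTower.of_algebraMap_eq (fun a => by
    show algebraMap F L (algebraMap O F a) = algebraMap F L (algebraMap K F (algebraMap O K a))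
    rw [← IsScalarTower.algebraMap_apply O K F])
  exact ⟨L, inferInstance, inferInstance, aK, aO, t3, t1, t2, x, hx, hgen⟩

end Extension

section Generation

variable {O K L : Type*} [CommRing O] [Field K] [Algebra O K] [IsFractionRing O K] [Field L]
  [Algebra O L] [Algebra K L] [IsScalarTower O K L]

/-- A subfield containing the image of `O` contains the image of `K = Frac O`. -/
theorem algebraMap_mem_subfield (S : Subfield L) (hO : ∀ a : O, algebraMap O L a ∈ S) (c : K) :
    algebraMap K L c ∈ S := by
  obtain ⟨a, b, -, rfl⟩ := IsFractionRing.div_surjective (A := O) c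
  rw [map_div₀, ← IsScalarTower.algebraMap_apply, ← IsScalarTower.algebraMap_apply]
  exact S.div_mem (hO a) (hO b)

omit [Algebra O K] [IsFractionRing O K] [Algebra O L] [IsScalarTower O K L] in
/-- Generation in `Subfield` form, over the field `K`. -/
theorem subfield_eq_top_of_adjoin' {s : Set L} (h : IntermediateField.adjoin K s = ⊤)
    (S : Subfield L) (hK : ∀ c : K, algebraMap K L c ∈ S) (hs : s ⊆ S) : S = ⊤ := by
  let S' : IntermediateField K L := { S with algebraMap_mem' := hK }
  have h1 : IntermediateField.adjoin K s ≤ S' := IntermediateField.adjoin_le_iff.mpr hs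
  rw [h] at h1
  rw [eq_top_iff]
  intro x _
  exact h1 (IntermediateField.mem_top (F := K) (E := L))

/-- Generation in `Subfield` form. -/
theorem subfield_eq_top_of_adjoin {s : Set L} (h : IntermediateField.adjoin K s = ⊤)
    (S : Subfield L) (hO : ∀ a : O, algebraMap O L a ∈ S) (hs : s ⊆ S) : S = ⊤ :=
  subfield_eq_top_of_adjoin' h S (algebraMap_mem_subfield S hO) hs

end Generation

section Assembly

universe u v

variable {B : Type u} {L : Type v} [CommRing B] [IsDomain B] [IsIntegrallyClosed B]
  [IsNoetherianRing B] [Field L] [CharZero L] [Algebra B L] [FaithfulSMul B L] {π : B}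

/-- **Assembly.** If `(B, E, L, π)` satisfies the hypotheses of the étale normalisation lemma for
every fraction field `E` of `B` inside `L = E(θ)`, then `R/π` is reduced and locally a domain for
every integrally closed `R ⊆ L` with the same integral closure in `L` as `B`. -/
theorem LD_of_hyp_family [IsPrincipalIdealRing (B ⧸ Ideal.span {π})]
    (θ : L) (hθ : IsAlgebraic B θ)
    (hgen : ∀ S : Subfield L, (∀ b : B, algebraMap B L b ∈ S) → θ ∈ S → S = ⊤)
    (hE : ∀ (E : Type u) [Field E] [Algebra B E] [IsFractionRing B E] [Algebra E L]
      [IsScalarTower B E L] [FiniteDimensional E L] [Algebra.IsSeparable E L],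
      E⟮θ⟯ = ⊤ → Hyp B E L π)
    {R : Type*} [CommRing R] [IsDomain R] [IsIntegrallyClosed R] [Algebra R L] [FaithfulSMul R L]
    {πR : R} (hππ : algebraMap B L π = algebraMap R L πR)
    (hRB : ∀ x : L, IsIntegral R x ↔ IsIntegral B x) :
    LD (Ideal.span {πR}) := by
  let E := FractionRing B
  letI algEL : Algebra E L := FractionRing.liftAlgebra B L
  haveI : IsScalarTower B E L := FractionRing.isScalarTower_liftAlgebra B L
  have hθE : IsIntegral E θ :=
    (hθ.extendScalars (S := E) (IsFractionRing.injective B E)).isIntegral
  have hgenE : E⟮θ⟯ = ⊤ := by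
    have h1 := hgen (E⟮θ⟯).toSubfield (fun b => by
      rw [IsScalarTower.algebraMap_apply B E L]
      exact (E⟮θ⟯).algebraMap_mem _) (mem_adjoin_simple_self E θ)
    rw [eq_top_iff]
    intro x _
    have : x ∈ (E⟮θ⟯).toSubfield := by rw [h1]; exact Subfield.mem_top x
    exact this
  haveI : FiniteDimensional E L := by
    have h1 : FiniteDimensional E E⟮θ⟯ := adjoin.finiteDimensional hθE
    rw [hgenE] at h1
    exact LinearEquiv.finiteDimensional (IntermediateField.topEquiv (F := E) (E := L)).toLinearEquiv
  haveI : CharZero E := (algebraMap E L).charZero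
  haveI : Algebra.IsSeparable E L := inferInstance
  exact LD_span_of_hyp hππ (hE E hgenE) hRB

end Assembly

end Fermat.Agent.N4.IrreducibleAux
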