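/-
N4 block S28a over `(ℚ, ℤ_(ℓ))`: the special fibres of both charts of the `j`-line of `FF ℚ N` over
`ℤ_(ℓ)` are integral for every prime `ℓ ∤ N` — directly for `ℓ` odd, and through the base change
`ℤ_(2) ⊆ ℤ_(2)[ω]` (`OmegaBase`) and the descent of `BaseDescent` for `ℓ = 2`.
-/
import Mathlib
import Fermat.Agent.N4.Irreducible
import Fermat.Agent.N4.BaseDescent
import Fermat.Agent.S28.FromStar

set_option autoImplicit false

namespace Fermat.Agent.N4.IrreducibleRat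

open Fermat.Agent.N4.Setting Fermat.Agent.N4.Irreducible

/-- The statement of the base change `ℤ_(2) ⊆ ℤ_(2)[ω]` (`N4/OmegaBase.lean`). -/
def OmegaBaseStatement : Prop :=
  ∀ (N : ℕ) [NeZero N], ¬ 2 ∣ N →
    ∃ (K' : Type) (_ : Field K') (_ : CharZero K') (_ : Algebra.IsAlgebraic ℚ K')
      (O' : Subring K') (_ : IsDiscreteValuationRing ↥O') (f : ℚ →+* K')
      (hOO' : ∀ a ∈ GaloisRep.ratLocalizedAt 2, f a ∈ O'),
      GoodBase K' N O' 2 ∧ (∃ z : K', z ^ 2 + z + 1 = 0) ∧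
        (BaseDescent.oMap f (GaloisRep.ratLocalizedAt 2) O' hOO').IsIntegral ∧
        ∃ ϖ : ↥(GaloisRep.ratLocalizedAt 2), Irreducible ϖ ∧
          Irreducible (BaseDescent.oMap f (GaloisRep.ratLocalizedAt 2) O' hOO' ϖ)

/-- **Both special fibres over `ℤ_(ℓ)` are integral**, for every prime `ℓ ∤ N`. -/
theorem isPrime_fibreIdeal_rat (hFF : AlgClosedInFF) (hΩ : OmegaBaseStatement)
    (N : ℕ) [NeZero N] (ℓ : ℕ) [hℓ : Fact ℓ.Prime] (hℓN : ¬ ℓ ∣ N) :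
    (fibreIdeal ℚ N (GaloisRep.ratLocalizedAt ℓ) (Rfin ℚ N (GaloisRep.ratLocalizedAt ℓ))).IsPrime ∧
      (fibreIdeal ℚ N (GaloisRep.ratLocalizedAt ℓ)
        (Rinf ℚ N (GaloisRep.ratLocalizedAt ℓ))).IsPrime := by
  by_cases h2 : ℓ = 2
  · subst h2
    obtain ⟨K', _, _, _, O', _, f, hOO', hG', hz, hint, ϖ, hϖ, hϖ'⟩ := hΩ N hℓN
    have h := isPrime_fibreIdeal K' N O' hFF hG' (fun _ => hz)
    exact ⟨BaseDescent.isPrime_fibreIdeal_Rfin f N _ O' hOO' hint hϖ hϖ' h.1,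
      BaseDescent.isPrime_fibreIdeal_Rinf f N _ O' hOO' hint hϖ hϖ' h.2⟩
  · exact isPrime_fibreIdeal ℚ N (GaloisRep.ratLocalizedAt ℓ) hFF
      (Fermat.Agent.S28.FromStar.goodBase N ℓ hℓN) (fun h => absurd h h2)

end Fermat.Agent.N4.IrreducibleRat
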