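/-
N4 (S28 at `ℓ = 2`), block **T-ω**: a base `(K', O')` containing a primitive cube root of unity over
which `ℤ_(2)` extends integrally with the same uniformiser: `K' = ℚ(ω)`, `O' = ℤ_(2)[ω]`
(`2` is inert in `ℚ(ω)`).

Proof: pick a valuation subring `𝔸 ⊇ ℤ_(2)` of `L = ℚ(ω)` in which `2` is a nonunit.  Writing elements
of `L` as `u + vω` (`u, v ∈ ℚ`) a parity argument (`1, ω, 1 + ω = -ω²` are units of `𝔸`) shows
`𝔸 = {u + vω : u, v ∈ ℤ_(2)}`, which is integral over `ℤ_(2)`; that `𝔸` is a discrete valuation ring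
with uniformiser `2` is `BigDVR.tower_step` (adjoining a root of unity of order prime to `2`).
-/
import Mathlib
import Fermat.Agent.S28.FromStar
import Fermat.Agent.N4.BigDVR
import Fermat.Agent.N4.BaseDescent

set_option autoImplicit false
set_option linter.style.haveILetI false
set_option linter.unusedSectionVars false

noncomputable section

namespace Fermat.Agent.N4.OmegaBase

open Fermat.Agent.S28.LocalizedInt Fermat.Agent.N4.BigDVR Fermat.Agent.N4.Setting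
open Fermat.Agent.N4

local notation "Z2" => GaloisRep.ratLocalizedAt 2

/-! ### Arithmetic of `ℤ_(2) ⊆ ℚ` -/

theorem mem_Z2_iff (x : ℚ) : x ∈ Z2 ↔ Odd x.den := by
  rw [mem_ratLocalizedAt_iff]
  exact Nat.coprime_two_right

theorem div_mem_Z2 (k : ℤ) {d : ℕ} (hd : Odd d) : (k : ℚ) / (d : ℚ) ∈ Z2 := by
  rw [mem_Z2_iff]
  have h1 : ((Rat.divInt k (d : ℤ)).den : ℤ) ∣ (d : ℤ) := Rat.den_dvd k d
  rw [Rat.divInt_eq_div] at h1
  have h2 : ((k : ℚ) / ((d : ℤ) : ℚ)).den ∣ d := Int.natCast_dvd_natCast.mp h1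
  have h3 : ((k : ℚ) / (d : ℚ)).den ∣ d := by simpa using h2
  exact Odd.of_dvd_nat hd h3

/-- Every element of `ℤ_(2)` is congruent to `0` or `1` modulo `2`. -/
theorem half_mem_or (r : ℚ) (hr : r ∈ Z2) : r / 2 ∈ Z2 ∨ (r - 1) / 2 ∈ Z2 := by
  have hd : Odd r.den := (mem_Z2_iff r).mp hr
  have hden0 : (r.den : ℚ) ≠ 0 := by exact_mod_cast r.den_ne_zero
  have h2 : r * (r.den : ℚ) = (r.num : ℚ) := Rat.mul_den_eq_num r
  rcases Int.even_or_odd' r.num with ⟨k, hk | hk⟩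
  · left
    have h4 : (r.num : ℚ) = 2 * (k : ℚ) := by exact_mod_cast hk
    have : r / 2 = (k : ℚ) / (r.den : ℚ) := by
      rw [eq_div_iff hden0]
      have : r / 2 * (r.den : ℚ) = (r * (r.den : ℚ)) / 2 := by ring
      rw [this, h2, h4]
      ring
    rw [this]
    exact div_mem_Z2 k hd
  · right
    obtain ⟨m, hm⟩ := hd
    have : (r - 1) / 2 = ((k - m : ℤ) : ℚ) / (r.den : ℚ) := by
      rw [eq_div_iff hden0]
      have h3 : (r.den : ℚ) = 2 * (m : ℚ) + 1 := by exact_mod_cast hm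
      have h4 : (r.num : ℚ) = 2 * (k : ℚ) + 1 := by exact_mod_cast hk
      have : (r - 1) / 2 * (r.den : ℚ) = (r * (r.den : ℚ) - (r.den : ℚ)) / 2 := by ring
      rw [this, h2, h4, h3]
      push_cast
      ring
    rw [this]
    exact div_mem_Z2 _ ⟨m, hm⟩

/-- Every rational becomes `2`-integral after multiplication by a power of `2`. -/
theorem exists_pow_mul_mem (u : ℚ) : ∃ n : ℕ, (2 : ℚ) ^ n * u ∈ Z2 := by
  obtain ⟨e, m, hm, hden⟩ := Nat.exists_eq_two_pow_mul_odd u.den_ne_zero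
  refine ⟨e, ?_⟩
  have hm0 : (m : ℚ) ≠ 0 := by
    intro h
    have : m = 0 := by exact_mod_cast h
    subst this
    simp at hm
  have : (2 : ℚ) ^ e * u = (u.num : ℚ) / (m : ℚ) := by
    have h2 : (u.den : ℚ) = 2 ^ e * (m : ℚ) := by exact_mod_cast hden
    rw [eq_div_iff hm0]
    have h3 : u * (u.den : ℚ) = (u.num : ℚ) := Rat.mul_den_eq_num u
    rw [← h3, h2]
    ring
  rw [this]
  exact div_mem_Z2 _ hm

/-! ### A valuation subring of `ℚ(ω)` over `2` -/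

section Field

variable {L : Type*} [Field L] [CharZero L] (𝔸 : ValuationSubring L)
  (hZ : ∀ r ∈ Z2, ((r : ℚ) : L) ∈ 𝔸) (h2 : (2 : L) ∈ 𝔸.nonunits)
  (ζ : L) (hζ : ζ ^ 2 + ζ + 1 = 0)

include hζ in
theorem zeta_pow_three : ζ ^ 3 = 1 := by
  linear_combination (ζ - 1) * hζ

include hζ in
theorem val_zeta : 𝔸.valuation ζ = 1 := by
  have h3 : 𝔸.valuation ζ ^ 3 = 1 := by rw [← map_pow, zeta_pow_three ζ hζ, map_one]
  rcases lt_trichotomy (𝔸.valuation ζ) 1 with h | h | h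
  · exact absurd h3 (ne_of_lt (pow_lt_one₀ zero_le h (by norm_num)))
  · exact h
  · exact absurd h3 (ne_of_gt (one_lt_pow₀ h (by norm_num)))

include hζ in
theorem val_one_add_zeta : 𝔸.valuation (1 + ζ) = 1 := by
  have h : 1 + ζ = -ζ ^ 2 := by linear_combination hζ
  rw [h, Valuation.map_neg, map_pow, val_zeta 𝔸 ζ hζ, one_pow]

include hZ in
theorem val_add_le_one {u w : ℚ} (hu : u ∈ Z2) (hw : w ∈ Z2) (hζ1 : 𝔸.valuation ζ = 1) :
    𝔸.valuation ((u : L) + (w : L) * ζ) ≤ 1 := by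
  refine (Valuation.map_add _ _ _).trans (max_le ?_ ?_)
  · exact (𝔸.valuation_le_one_iff _).mpr (hZ u hu)
  · rw [map_mul, hζ1, mul_one]
    exact (𝔸.valuation_le_one_iff _).mpr (hZ w hw)

include h2 in
/-- `e + 2y` with `e` a unit and `y` integral is a unit. -/
theorem not_lt_one_of_eq {e y x : L} (he : 𝔸.valuation e = 1) (hy : 𝔸.valuation y ≤ 1)
    (hx : 𝔸.valuation x < 1) (h : x = e + 2 * y) : False := by
  have h2' : 𝔸.valuation 2 < 1 := (𝔸.mem_nonunits_iff).mp h2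
  have h2y : 𝔸.valuation (2 * y) < 1 := by
    rw [map_mul]
    exact mul_lt_one_of_nonneg_of_lt_one_left zero_le h2' hy
  have he' : e = x - 2 * y := by rw [h]; ring
  have : 𝔸.valuation e < 1 := by
    rw [he']
    exact lt_of_le_of_lt (Valuation.map_sub _ _ _) (max_lt hx h2y)
  rw [he] at this
  exact lt_irrefl _ this

include hZ h2 hζ in
/-- **Parity.**  If `U + Vω` (`U, V ∈ ℤ_(2)`) is a nonunit of `𝔸` then `U` and `V` are even. -/
theorem half_mem_of_val_lt_one {U V : ℚ} (hU : U ∈ Z2) (hV : V ∈ Z2)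
    (hx : 𝔸.valuation ((U : L) + (V : L) * ζ) < 1) : U / 2 ∈ Z2 ∧ V / 2 ∈ Z2 := by
  have hζ1 := val_zeta 𝔸 ζ hζ
  have hζ2 := val_one_add_zeta 𝔸 ζ hζ
  rcases half_mem_or U hU with hU' | hU' <;> rcases half_mem_or V hV with hV' | hV'
  · exact ⟨hU', hV'⟩
  · exfalso
    refine not_lt_one_of_eq 𝔸 h2 hζ1 (val_add_le_one 𝔸 hZ ζ hU' hV' hζ1) hx ?_
    push_cast
    ring
  · exfalso
    refine not_lt_one_of_eq 𝔸 h2 (map_one _) (val_add_le_one 𝔸 hZ ζ hU' hV' hζ1) hx ?_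
    push_cast
    ring
  · exfalso
    refine not_lt_one_of_eq 𝔸 h2 hζ2 (val_add_le_one 𝔸 hZ ζ hU' hV' hζ1) hx ?_
    push_cast
    ring

include hZ h2 hζ in
theorem mem_of_pow_mul_mem (n : ℕ) : ∀ (u w : ℚ), (2 : ℚ) ^ n * u ∈ Z2 → (2 : ℚ) ^ n * w ∈ Z2 →
    𝔸.valuation ((u : L) + (w : L) * ζ) ≤ 1 → u ∈ Z2 ∧ w ∈ Z2 := by
  induction n with
  | zero =>
    intro u w hu hw _
    simpa using And.intro hu hw
  | succ n ih =>
    intro u w hu hw hx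
    have h2' : 𝔸.valuation 2 < 1 := (𝔸.mem_nonunits_iff).mp h2
    have hlt : 𝔸.valuation ((((2 : ℚ) ^ (n + 1) * u : ℚ) : L) +
        (((2 : ℚ) ^ (n + 1) * w : ℚ) : L) * ζ) < 1 := by
      have : (((2 : ℚ) ^ (n + 1) * u : ℚ) : L) + (((2 : ℚ) ^ (n + 1) * w : ℚ) : L) * ζ =
          (2 : L) ^ (n + 1) * ((u : L) + (w : L) * ζ) := by
        push_cast
        ring
      rw [this, map_mul, map_pow]
      exact mul_lt_one_of_nonneg_of_lt_one_left zero_le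
        (pow_lt_one₀ zero_le h2' (Nat.succ_ne_zero n)) hx
    obtain ⟨h1, h1'⟩ := half_mem_of_val_lt_one 𝔸 hZ h2 ζ hζ hu hw hlt
    refine ih u w ?_ ?_ hx
    · have : (2 : ℚ) ^ n * u = (2 : ℚ) ^ (n + 1) * u / 2 := by rw [pow_succ]; ring
      rw [this]; exact h1
    · have : (2 : ℚ) ^ n * w = (2 : ℚ) ^ (n + 1) * w / 2 := by rw [pow_succ]; ring
      rw [this]; exact h1'

include hZ h2 hζ in
/-- Elements `u + wω` of `𝔸` have `u, w ∈ ℤ_(2)`. -/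
theorem mem_Z2_of_mem {u w : ℚ} (hx : (u : L) + (w : L) * ζ ∈ 𝔸) : u ∈ Z2 ∧ w ∈ Z2 := by
  obtain ⟨n₁, hn₁⟩ := exists_pow_mul_mem u
  obtain ⟨n₂, hn₂⟩ := exists_pow_mul_mem w
  have h2Z : (2 : ℚ) ∈ Z2 := by
    rw [mem_Z2_iff]
    exact ⟨0, by norm_num⟩
  have hu : (2 : ℚ) ^ (n₁ + n₂) * u ∈ Z2 := by
    have : (2 : ℚ) ^ (n₁ + n₂) * u = (2 : ℚ) ^ n₂ * ((2 : ℚ) ^ n₁ * u) := by rw [pow_add]; ring
    rw [this]
    exact Subring.mul_mem _ (Subring.pow_mem _ h2Z _) hn₁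
  have hw : (2 : ℚ) ^ (n₁ + n₂) * w ∈ Z2 := by
    have : (2 : ℚ) ^ (n₁ + n₂) * w = (2 : ℚ) ^ n₁ * ((2 : ℚ) ^ n₂ * w) := by rw [pow_add]; ring
    rw [this]
    exact Subring.mul_mem _ (Subring.pow_mem _ h2Z _) hn₂
  exact mem_of_pow_mul_mem 𝔸 hZ h2 ζ hζ _ u w hu hw ((𝔸.valuation_le_one_iff _).mpr hx)

include hζ in
/-- Every element of `ℚ(ω)` is `u + wω`. -/
theorem exists_rep (hgen : Algebra.adjoin ℚ {ζ} = ⊤) (x : L) :
    ∃ u w : ℚ, x = (u : L) + (w : L) * ζ := by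
  have hx : x ∈ Algebra.adjoin ℚ {ζ} := by rw [hgen]; exact Algebra.mem_top
  induction hx using Algebra.adjoin_induction with
  | mem y hy =>
    rw [Set.mem_singleton_iff] at hy
    exact ⟨0, 1, by rw [hy]; simp⟩
  | algebraMap r => exact ⟨r, 0, by rw [eq_ratCast]; simp⟩
  | add y z _ _ hy hz =>
    obtain ⟨u, w, rfl⟩ := hy
    obtain ⟨u', w', rfl⟩ := hz
    exact ⟨u + u', w + w', by push_cast; ring⟩
  | mul y z _ _ hy hz =>
    obtain ⟨u, w, rfl⟩ := hy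
    obtain ⟨u', w', rfl⟩ := hz
    refine ⟨u * u' - w * w', u * w' + w * u' - w * w', ?_⟩
    push_cast
    linear_combination ((w : L) * (w' : L)) * hζ

end Field

/-! ### The base `(ℚ(ω), 𝔸)` -/

section Base

variable {L : Type} [Field L] [CharZero L]

/-- A valuation subring of `L` containing `ℤ_(2)` in which `2` is a nonunit. -/
theorem exists_valuationSubring_two :
    ∃ 𝔸 : ValuationSubring L, (∀ r ∈ Z2, ((r : ℚ) : L) ∈ 𝔸) ∧ (2 : L) ∈ 𝔸.nonunits := by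
  let R₀ : Subring L := (Z2).map (algebraMap ℚ L)
  have h2Z : (2 : ℚ) ∈ Z2 := by
    rw [mem_Z2_iff]
    exact ⟨0, by norm_num⟩
  have h2mem : (2 : L) ∈ R₀ := ⟨2, h2Z, by simp⟩
  let two : R₀ := ⟨2, h2mem⟩
  have hne : Ideal.span {two} ≠ ⊤ := by
    rw [Ne, Ideal.span_singleton_eq_top]
    intro hunit
    obtain ⟨⟨y, hy⟩, hpy⟩ := isUnit_iff_exists_inv.mp hunit
    obtain ⟨r, hr, rfl⟩ := hy
    have h1 : (2 : L) * algebraMap ℚ L r = 1 := congrArg Subtype.val hpy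
    have h3 : (2 : ℚ) * r = 1 := by
      apply (algebraMap ℚ L).injective
      rw [map_mul, map_one, ← h1]
      simp
    have h4 : r = 1 / 2 := by
      rw [eq_div_iff (by norm_num : (2 : ℚ) ≠ 0), mul_comm]
      exact h3
    have h5 : Odd r.den := (mem_Z2_iff r).mp hr
    rw [h4] at h5
    norm_num at h5
  obtain ⟨𝔸, hle, hA⟩ := Ideal.image_subset_nonunits_valuationSubring _ hne
  refine ⟨𝔸, fun r hr => ?_, ?_⟩
  · have : ((r : ℚ) : L) ∈ R₀ := ⟨r, hr, by rw [eq_ratCast]⟩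
    exact hle this
  · exact hA ⟨two, Ideal.subset_span rfl, rfl⟩

variable (𝔸 : ValuationSubring L)
  (hZ : ∀ r ∈ Z2, ((r : ℚ) : L) ∈ 𝔸) (h2 : (2 : L) ∈ 𝔸.nonunits)
  (ζ : L) (hζ : ζ ^ 2 + ζ + 1 = 0)

include hZ h2 hζ in
theorem mem_tr_rat_iff (x : ℚ) : x ∈ tr 𝔸 ℚ ↔ x ∈ Z2 := by
  rw [mem_tr_iff, eq_ratCast]
  constructor
  · intro h
    have h' : (x : L) + ((0 : ℚ) : L) * ζ ∈ 𝔸 := by simpa using h
    exact (mem_Z2_of_mem 𝔸 hZ h2 ζ hζ h').1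
  · exact hZ x

include hZ h2 hζ in
theorem two_mem_tr : (2 : ℚ) ∈ tr 𝔸 ℚ := by
  rw [mem_tr_rat_iff 𝔸 hZ h2 ζ hζ, mem_Z2_iff]
  exact ⟨0, by norm_num⟩

include hZ h2 hζ in
theorem irreducible_two_tr [IsDiscreteValuationRing (tr 𝔸 ℚ)] :
    Irreducible (⟨2, two_mem_tr 𝔸 hZ h2 ζ hζ⟩ : tr 𝔸 ℚ) := by
  rw [IsDiscreteValuationRing.irreducible_iff_uniformizer]
  apply le_antisymm
  · intro x hx
    rw [← ValuationSubring.coe_mem_nonunits_iff, mem_tr_nonunits_iff, eq_ratCast,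
      ValuationSubring.mem_nonunits_iff] at hx
    have hxZ : (x : ℚ) ∈ Z2 := (mem_tr_rat_iff 𝔸 hZ h2 ζ hζ _).mp x.2
    have h0 : (0 : ℚ) ∈ Z2 := Subring.zero_mem _
    have hx' : 𝔸.valuation ((((x : ℚ)) : L) + ((0 : ℚ) : L) * ζ) < 1 := by simpa using hx
    obtain ⟨h1, -⟩ := half_mem_of_val_lt_one 𝔸 hZ h2 ζ hζ hxZ h0 hx'
    rw [Ideal.mem_span_singleton']
    refine ⟨⟨(x : ℚ) / 2, (mem_tr_rat_iff 𝔸 hZ h2 ζ hζ _).mpr h1⟩, Subtype.ext ?_⟩
    show (x : ℚ) / 2 * 2 = x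
    ring
  · rw [Ideal.span_le, Set.singleton_subset_iff, SetLike.mem_coe,
      ← ValuationSubring.coe_mem_nonunits_iff, mem_tr_nonunits_iff]
    simpa using h2

end Base

/-! ### The deliverable -/

section Final

variable (L : Type) [Field L] [CharZero L] [FiniteDimensional ℚ L]

/-- Generic form: any field `L = ℚ(ζ)`, `ζ² + ζ + 1 = 0`, carries the base. -/
theorem omega_base_of_field (ζ : L) (hζ : ζ ^ 2 + ζ + 1 = 0) (hgen : Algebra.adjoin ℚ {ζ} = ⊤)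
    (N : ℕ) [NeZero N] (hN : ¬ 2 ∣ N) :
    ∃ (O' : Subring L) (_ : IsDiscreteValuationRing ↥O')
      (hOO' : ∀ a ∈ Z2, algebraMap ℚ L a ∈ O'),
      GoodBase L N O' 2 ∧
      (BaseDescent.oMap (algebraMap ℚ L) Z2 O' hOO').IsIntegral ∧
      ∃ ϖ : ↥Z2, Irreducible ϖ ∧
        Irreducible (BaseDescent.oMap (algebraMap ℚ L) Z2 O' hOO' ϖ) := by
  obtain ⟨𝔸, hZ, h2⟩ := exists_valuationSubring_two (L := L)
  haveI : IsDiscreteValuationRing (tr 𝔸 ℚ) :=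
    isDiscreteValuationRing_tr_of_numberField 𝔸 ℚ (ℓ := 2) (by norm_num) (by simpa using h2)
  have hirr := irreducible_two_tr 𝔸 hZ h2 ζ hζ
  have hζ1 := val_zeta 𝔸 ζ hζ
  have h3 : ((3 : ℕ) : L) ∉ 𝔸.nonunits := by
    intro h
    rw [ValuationSubring.mem_nonunits_iff] at h
    exact not_lt_one_of_eq 𝔸 h2 (map_one _) (le_of_eq (map_one _)) h (by push_cast; norm_num)
  obtain ⟨hDVR, hmem, hirr'⟩ := tower_step 𝔸 ℚ L (two_mem_tr 𝔸 hZ h2 ζ hζ) hirr ζ hgen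
    (m := 3) (by norm_num) (zeta_pow_three ζ hζ) h3
  have hmemO : ∀ y : L, y ∈ (tr 𝔸 L).toSubring ↔ y ∈ 𝔸 := by
    intro y
    rw [ValuationSubring.mem_toSubring, mem_tr_iff]
    rfl
  have hOO' : ∀ a ∈ Z2, algebraMap ℚ L a ∈ (tr 𝔸 L).toSubring := by
    intro a ha
    rw [hmemO, eq_ratCast]
    exact hZ a ha
  refine ⟨(tr 𝔸 L).toSubring, hDVR, hOO', ⟨Nat.prime_two, hN,
    inferInstanceAs (IsFractionRing ↥(tr 𝔸 L) L), ?_⟩, ?_, ?_⟩
  · -- `2` is not a unit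
    intro hunit
    obtain ⟨⟨y, hy⟩, hy1⟩ := isUnit_iff_exists_inv.mp hunit
    have h1 : ((2 : ℕ) : L) * y = 1 := congrArg Subtype.val hy1
    have hy' : 𝔸.valuation y ≤ 1 := (𝔸.valuation_le_one_iff _).mpr ((hmemO y).mp hy)
    have h2' : 𝔸.valuation 2 < 1 := (𝔸.mem_nonunits_iff).mp h2
    have : 𝔸.valuation (((2 : ℕ) : L) * y) < 1 := by
      rw [map_mul]
      push_cast
      exact mul_lt_one_of_nonneg_of_lt_one_left zero_le h2' hy'
    rw [h1, map_one] at this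
    exact lt_irrefl _ this
  · -- integrality
    have hζmem : ζ ∈ (tr 𝔸 L).toSubring := by
      rw [hmemO, ← ValuationSubring.valuation_le_one_iff, hζ1]
    set ζ' : ↥(tr 𝔸 L).toSubring := ⟨ζ, hζmem⟩ with hζ'
    set φ := BaseDescent.oMap (algebraMap ℚ L) Z2 (tr 𝔸 L).toSubring hOO' with hφ
    have hζint : φ.IsIntegralElem ζ' := by
      refine ⟨Polynomial.X ^ 3 - Polynomial.C 1, Polynomial.monic_X_pow_sub_C 1 (by norm_num), ?_⟩
      rw [Polynomial.eval₂_sub, Polynomial.eval₂_pow, Polynomial.eval₂_X, Polynomial.eval₂_C,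
        map_one, sub_eq_zero]
      exact Subtype.ext (zeta_pow_three ζ hζ)
    intro b
    obtain ⟨u, w, hb⟩ := exists_rep ζ hζ hgen (b : L)
    have hbA : (u : L) + (w : L) * ζ ∈ 𝔸 := by
      rw [← hb]
      exact (hmemO _).mp b.2
    obtain ⟨hu, hw⟩ := mem_Z2_of_mem 𝔸 hZ h2 ζ hζ hbA
    have hb' : b = φ ⟨u, hu⟩ + φ ⟨w, hw⟩ * ζ' := by
      apply Subtype.ext
      rw [hb]
      show (u : L) + (w : L) * ζ = algebraMap ℚ L u + algebraMap ℚ L w * ζ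
      rw [eq_ratCast, eq_ratCast]
    rw [hb']
    exact RingHom.IsIntegralElem.add φ (RingHom.isIntegralElem_map φ)
      (RingHom.IsIntegralElem.mul φ (RingHom.isIntegralElem_map φ) hζint)
  · -- the uniformiser
    refine ⟨((2 : ℕ) : ↥Z2), irreducible_ell 2, ?_⟩
    have : BaseDescent.oMap (algebraMap ℚ L) Z2 (tr 𝔸 L).toSubring hOO' ((2 : ℕ) : ↥Z2) =
        (⟨algebraMap ℚ L 2, hmem⟩ : tr 𝔸 L) := by
      apply Subtype.ext
      show algebraMap ℚ L (((2 : ℕ) : ↥Z2) : ℚ) = algebraMap ℚ L 2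
      congr 1
    rw [this]
    exact hirr'

end Final

/-! ### Instantiation: `K' = ℚ(ζ₃)` -/

section Cyclo

local notation "Kω" => CyclotomicField 3 ℚ

theorem cyclo_data_aux (a : Algebra ℚ Kω) (ha : a = CyclotomicField.algebra 3 ℚ) :
    ∃ ζ : Kω, ζ ^ 2 + ζ + 1 = 0 ∧ @Algebra.adjoin ℚ Kω _ _ a {ζ} = ⊤ ∧
      @FiniteDimensional ℚ Kω _ _ (@Algebra.toModule ℚ Kω _ _ a) := by
  subst ha
  letI : Algebra ℚ Kω := CyclotomicField.algebra 3 ℚ
  haveI : IsCyclotomicExtension {3} ℚ Kω := CyclotomicField.isCyclotomicExtension 3 ℚ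
  have hprim : IsPrimitiveRoot (IsCyclotomicExtension.zeta 3 ℚ Kω) 3 :=
    IsCyclotomicExtension.zeta_spec 3 ℚ Kω
  refine ⟨IsCyclotomicExtension.zeta 3 ℚ Kω, ?_, ?_, ?_⟩
  · have := hprim.geom_sum_eq_zero (by norm_num)
    simp only [Finset.sum_range_succ, Finset.sum_range_zero, pow_zero, pow_one, zero_add] at this
    linear_combination this
  · exact IsCyclotomicExtension.adjoin_primitive_root_eq_top hprim
  · exact IsCyclotomicExtension.finiteDimensional {3} ℚ Kω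

theorem cyclo_data :
    ∃ ζ : Kω, ζ ^ 2 + ζ + 1 = 0 ∧ @Algebra.adjoin ℚ Kω _ _ DivisionRing.toRatAlgebra {ζ} = ⊤ ∧
      @FiniteDimensional ℚ Kω _ _ (@Algebra.toModule ℚ Kω _ _ DivisionRing.toRatAlgebra) :=
  cyclo_data_aux _ (Subsingleton.elim _ _)

/-- **(T-ω)** The base `(ℚ(ω), ℤ_(2)[ω])`. -/
theorem exists_omega_base (N : ℕ) [NeZero N] (hN : ¬ 2 ∣ N) :
    ∃ (K' : Type) (_ : Field K') (_ : CharZero K') (_ : Algebra.IsAlgebraic ℚ K')
      (O' : Subring K') (_ : IsDiscreteValuationRing ↥O') (f : ℚ →+* K')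
      (hOO' : ∀ a ∈ GaloisRep.ratLocalizedAt 2, f a ∈ O'),
      Setting.GoodBase K' N O' 2 ∧ (∃ z : K', z ^ 2 + z + 1 = 0) ∧
      (BaseDescent.oMap f (GaloisRep.ratLocalizedAt 2) O' hOO').IsIntegral ∧
      ∃ ϖ : ↥(GaloisRep.ratLocalizedAt 2), Irreducible ϖ ∧
        Irreducible (BaseDescent.oMap f (GaloisRep.ratLocalizedAt 2) O' hOO' ϖ) := by
  obtain ⟨ζ, hζ, hgen, hfin⟩ := cyclo_data
  haveI := hfin
  have halg : Algebra.IsAlgebraic ℚ Kω := Algebra.IsAlgebraic.of_finite ℚ Kω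
  obtain ⟨O', hDVR, hOO', hGB, hint, ϖ, hϖ, hϖ'⟩ := omega_base_of_field Kω ζ hζ hgen N hN
  exact ⟨Kω, inferInstance, inferInstance, halg, O', hDVR, _, hOO', hGB, ⟨ζ, hζ⟩, hint, ϖ, hϖ, hϖ'⟩

end Cyclo

end Fermat.Agent.N4.OmegaBase
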