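/-
Sreg piece (SR-2) (helper13 #1066): all closed points of the special fibre are rational when the
residue field of the base local ring is algebraically closed (Zariski's lemma).
-/
import Mathlib

set_option autoImplicit false
set_option linter.style.haveILetI false
set_option linter.unusedSectionVars false

namespace Fermat.Agent.N4.ResidueClosed

/-- **All closed points of the special fibre are rational** when the residue field of the base is
algebraically closed: `O` local with algebraically closed residue field, `C` an `O`-algebra of finite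
type, `R` integral over `C`, `y` a maximal ideal of `R` containing `𝔪_O`.  Then `O → R ⧸ y` is
surjective. -/
theorem exists_sub_mem_of_isAlgClosed {O C R : Type*} [CommRing O] [IsLocalRing O]
    [IsAlgClosed (IsLocalRing.ResidueField O)] [CommRing C] [CommRing R] [Algebra O C] [Algebra O R]
    [Algebra C R] [IsScalarTower O C R] [Algebra.FiniteType O C] [Algebra.IsIntegral C R]
    (y : Ideal R) [y.IsMaximal]
    (hy : ∀ a ∈ IsLocalRing.maximalIdeal O, algebraMap O R a ∈ y) (r : R) :
    ∃ a : O, r - algebraMap O R a ∈ y := by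
  -- the residue fields
  letI : Field (R ⧸ y) := Ideal.Quotient.field y
  set p : Ideal C := y.comap (algebraMap C R) with hp
  haveI hpmax : p.IsMaximal := Ideal.isMaximal_comap_of_isIntegral_of_isMaximal y
  letI : Field (C ⧸ p) := Ideal.Quotient.field p
  -- the maps
  let φ : O →+* R ⧸ y := (Ideal.Quotient.mk y).comp (algebraMap O R)
  have hφ : ∀ a ∈ IsLocalRing.maximalIdeal O, φ a = 0 := fun a ha =>
    Ideal.Quotient.eq_zero_iff_mem.mpr (hy a ha)
  let ψ : IsLocalRing.ResidueField O →+* R ⧸ y :=
    Ideal.Quotient.lift (IsLocalRing.maximalIdeal O) φ hφ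
  let φC : O →+* C ⧸ p := (Ideal.Quotient.mk p).comp (algebraMap O C)
  have hφC : ∀ a ∈ IsLocalRing.maximalIdeal O, φC a = 0 := fun a ha => by
    refine Ideal.Quotient.eq_zero_iff_mem.mpr ?_
    rw [hp, Ideal.mem_comap, ← IsScalarTower.algebraMap_apply]
    exact hy a ha
  let χ : IsLocalRing.ResidueField O →+* C ⧸ p :=
    Ideal.Quotient.lift (IsLocalRing.maximalIdeal O) φC hφC
  let ι : C ⧸ p →+* R ⧸ y := Ideal.quotientMap y (algebraMap C R) le_rfl
  have hcomp : ψ = ι.comp χ := by
    apply Ideal.Quotient.ringHom_ext
    ext a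
    show (Ideal.Quotient.mk y) (algebraMap O R a) =
      Ideal.quotientMap y (algebraMap C R) le_rfl (Ideal.Quotient.mk p (algebraMap O C a))
    rw [Ideal.quotientMap_mk, ← IsScalarTower.algebraMap_apply]
  -- integrality
  have hι : ι.IsIntegral :=
    RingHom.IsIntegral.quotient (algebraMap C R) Algebra.IsIntegral.isIntegral
  have hχft : χ.FiniteType := by
    have h1 : (χ.comp (IsLocalRing.residue O)).FiniteType := by
      have h2 : χ.comp (IsLocalRing.residue O) = φC := by
        ext a; rfl
      rw [h2]
      exact RingHom.FiniteType.comp_surjective (f := algebraMap O C)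
        (RingHom.finiteType_algebraMap.mpr inferInstance) Ideal.Quotient.mk_surjective
    exact RingHom.FiniteType.of_comp_finiteType h1
  have hχ : χ.IsIntegral :=
    (RingHom.finite_iff_finiteType_of_isJacobsonRing.mpr hχft).to_isIntegral
  have hψ : ψ.IsIntegral := by
    rw [hcomp]; exact RingHom.IsIntegral.trans χ ι hχ hι
  obtain ⟨c, hc⟩ := (IsAlgClosed.ringHom_bijective_of_isIntegral ψ hψ).2 (Ideal.Quotient.mk y r)
  obtain ⟨a, rfl⟩ := IsLocalRing.residue_surjective c
  refine ⟨a, ?_⟩
  rw [← Ideal.Quotient.eq_zero_iff_mem, map_sub, sub_eq_zero, ← hc]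
  rfl

end Fermat.Agent.N4.ResidueClosed
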