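/-
N4 / S28a package T-R (helper12, requested by helper13): root data for the modular polynomial
over an arbitrary domain `O` in which `N` is invertible, with reduction modulo a non-unit `π`.

`O' :=` integral closure of `O` in an algebraic closure of `Frac O` (contains a primitive `N`-th
root of unity `u`), `𝔪'` a maximal ideal of `O'` over a maximal ideal of `O` containing `π`,
`W := O'((X))`, `k := (O'/𝔪')((X))`, roots `r c := j(u^{k_c} X^{M e_c})`.
-/
import Mathlib
import Fermat.Agent.N4.PrimitiveDisc

set_option autoImplicit false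

universe u

namespace Fermat.Agent.N4.RootData

open Polynomial ModularCurve MatrixGroups CongruenceSubgroup
open Fermat.Agent.N4.TwistSeries Fermat.Agent.N4.HeckeRoots
open Fermat.Agent.N4.ModPolyDescent Fermat.Agent.N4.PrimitiveDisc
open scoped Fermat.Agent.N4.HeckeRoots

variable (N : ℕ) [NeZero N]

/-- The root form pushed through `X ↦ X^M`:
`Φ_N(j(X^{MN}), T) = ∏_c (T - j(u^{k_c} X^{M e_c}))`. -/
theorem map_qExpand_rootForm {R : Type*} [CommRing R] (u : Rˣ) (h : HasRootForm N R u) (M : ℕ)
    [NeZero M] :
    (modPoly N).map (eval₂RingHom (Int.castRingHom (LaurentSeries R))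
        (qExpand R (M * N) (jqModC R))) =
      ∏ c : SL(2, ℤ) ⧸ Gamma0 N, (X - C (qExpand R M (rootOf N u c))) := by
  have hcomp : eval₂RingHom (Int.castRingHom (LaurentSeries R)) (qExpand R (M * N) (jqModC R)) =
      (qExpand R M).comp (evJ N R) := by
    refine Polynomial.ringHom_ext' (RingHom.ext_int _ _) ?_
    rw [coe_eval₂RingHom, eval₂_X, RingHom.comp_apply, evJ_X, qExpand_qExpand]
  rw [hcomp, ← Polynomial.map_map, h, rootProd, Polynomial.map_prod]
  refine Finset.prod_congr rfl fun c _ => ?_
  rw [Polynomial.map_sub, Polynomial.map_X, Polynomial.map_C]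

/-- **Package T-R.** -/
theorem exists_rootData {O : Type u} [CommRing O] [IsDomain O] {π : O} (hπ : ¬ IsUnit π)
    (hN : IsUnit (N : O)) (M : ℕ) [NeZero M] :
    ∃ (W k : Type u) (_ : CommRing W) (_ : IsDomain W) (_ : CommRing k) (_ : IsDomain k)
      (ext : LaurentSeries O →+* W) (red : W →+* k),
      Function.Injective ext ∧ red (ext (HahnSeries.C π)) = 0 ∧
      ∃ r : (SL(2, ℤ) ⧸ Gamma0 N) → W,
        (modPoly N).map (ext.comp (eval₂RingHom (Int.castRingHom (LaurentSeries O))
          (qExpand O (M * N) (jqModC O)))) = ∏ c, (X - C (r c)) ∧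
        ∀ c c', c ≠ c' → red (r c - r c') ≠ 0 := by
  classical
  -- the big ring `O'`
  let Kbar := AlgebraicClosure (FractionRing O)
  let O' := integralClosure O Kbar
  have hinjK : Function.Injective (algebraMap O Kbar) := by
    rw [IsScalarTower.algebraMap_eq O (FractionRing O) Kbar]
    exact (algebraMap (FractionRing O) Kbar).injective.comp (IsFractionRing.injective O _)
  have hinj : Function.Injective (algebraMap O O') := by
    intro a b hab
    apply hinjK
    have := congrArg (Subtype.val : O' → Kbar) hab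
    exact this
  -- a primitive root of unity
  haveI hNK : NeZero ((N : ℕ) : FractionRing O) := by
    refine ⟨fun h0 => ?_⟩
    have : (algebraMap O (FractionRing O)) (N : O) = 0 := by rw [map_natCast]; exact h0
    rw [map_eq_zero_iff _ (IsFractionRing.injective O _)] at this
    exact hN.ne_zero this
  obtain ⟨ζ, hζ⟩ := HasEnoughRootsOfUnity.exists_primitiveRoot Kbar N
  have hζint : IsIntegral O ζ :=
    ⟨X ^ N - 1, monic_X_pow_sub_C 1 (NeZero.ne N), by
      rw [eval₂_sub, eval₂_pow, eval₂_X, eval₂_one, hζ.pow_eq_one, sub_self]⟩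
  let ζ' : O' := ⟨ζ, hζint⟩
  have hζ'pow : ζ' ^ N = 1 := Subtype.ext (by
    show ζ ^ N = 1
    exact hζ.pow_eq_one)
  let u : O'ˣ := Units.ofPowEqOne ζ' N hζ'pow (NeZero.ne N)
  have hu : IsPrimitiveRoot (u : O') N := by
    have hval : Function.Injective (O'.val : O' →ₐ[O] Kbar) := Subtype.val_injective
    exact (IsPrimitiveRoot.map_iff_of_injective hval).mp hζ
  have hroot : HasRootForm N O' u := hasRootForm_of_isPrimitiveRoot N O' u hu
  -- a maximal ideal above `π`
  obtain ⟨P, hPmax, hπP⟩ := Ideal.exists_le_maximal (Ideal.span {π})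
    (by rwa [Ne, Ideal.span_singleton_eq_top])
  haveI := hPmax
  obtain ⟨Q, hQmax, hQP⟩ := Ideal.exists_ideal_over_maximal_of_isIntegral (S := O') P
    (by rw [(RingHom.injective_iff_ker_eq_bot _).mp hinj]; exact bot_le)
  haveI := hQmax
  let k' := O' ⧸ Q
  let mk : O' →+* k' := Ideal.Quotient.mk Q
  have hπQ : mk (algebraMap O O' π) = 0 := by
    rw [Ideal.Quotient.eq_zero_iff_mem, ← Ideal.mem_comap, hQP]
    exact hπP (Ideal.subset_span rfl)
  -- data over the residue field
  let ubar : k'ˣ := Units.map mk.toMonoidHom u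
  have hubar : (cyclotomic N ℤ).eval₂ (Int.castRingHom k') (ubar : k') = 0 := by
    have h1 : (cyclotomic N ℤ).eval₂ (Int.castRingHom O') (u : O') = 0 := by
      rw [eval₂_eq_eval_map, map_cyclotomic_int]
      exact hu.isRoot_cyclotomic (NeZero.pos N)
    have h2 := congrArg mk h1
    rw [hom_eval₂, map_zero, RingHom.ext_int (mk.comp (Int.castRingHom O')) (Int.castRingHom k')]
      at h2
    exact h2
  have hNk : IsUnit ((N : ℕ) : k') := by
    have := (hN.map (algebraMap O O')).map mk
    rwa [map_natCast, map_natCast] at this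
  have hdist := rootOf_injective N ubar hubar hNk
  refine ⟨LaurentSeries O', LaurentSeries k', inferInstance, inferInstance, inferInstance,
    inferInstance, coeffMap (algebraMap O O'), coeffMap mk, coeffMap_injective _ hinj, ?_,
    fun c => qExpand O' M (rootOf N u c), ?_, ?_⟩
  · have : (HahnSeries.C π : LaurentSeries O) = HahnSeries.single 0 π := rfl
    rw [this, coeffMap_single, coeffMap_single, hπQ]
    exact HahnSeries.single_eq_zero
  · rw [← map_qExpand_rootForm N u hroot M]
    congr 1
    refine Polynomial.ringHom_ext' (RingHom.ext_int _ _) ?_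
    rw [RingHom.comp_apply, coe_eval₂RingHom, eval₂_X, coe_eval₂RingHom, eval₂_X, coeffMap_qExpand,
      coeffMap_jqModC]
  · intro c c' hcc h0
    rw [← map_sub, coeffMap_qExpand, map_sub, coeffMap_rootOf, coeffMap_rootOf] at h0
    rw [← map_zero (qExpand k' M)] at h0
    have h1 := qExpand_injective M h0
    exact hcc (hdist (sub_eq_zero.mp h1))

end Fermat.Agent.N4.RootData
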