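/-
N4 block d, row dSF (helper16): **constants on the special fibre** (abstract form).

`k` algebraically closed, `E ⊇ k` a field, `Fbar : IntermediateField k E`, `B⁺, B⁻ : Subalgebra k E`
Dedekind, `j ∈ B⁺`, `j⁻¹ ∈ B⁻`, `j` transcendental, `B^±` integral over `k[j^{±1}]`,
`Fbar ⊆ Frac B⁺ ∩ Frac B⁻` inside `E`.  Then every `c ∈ Fbar^×` with `Q.ord c = 0` for all prelude
places `Q` of `Fbar/k` is a constant (`const_of_ord_eq_zero`).

* `placeOfPrime K' v : Place k K'` for a nonzero prime `v` of a Dedekind `k`-algebra `R`,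
  `K' = Frac R`;
* `fracToE B : Frac B →ₐ[k] E`, `toFrac hF : Fbar →ₐ[k] Frac B`;
* `restrictPlace hF v x hx0 hx : Place k Fbar` (restriction, `S24/PlaceExtend.restrict`);
* `mem_of_forall_ord_eq_zero`: a function without poles on the Dedekind chart `B` lies in `B`.
-/
import Mathlib
import Fermat.Prelude.Def_AlgebraicCurve_DivisorClassGroup
import Fermat.Agent.S24.PlaceExtend
import Fermat.Agent.N4.IntClosure

set_option autoImplicit false

namespace Fermat.Agent.N4.SpecialFibreConst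

open AlgebraicCurve IsDedekindDomain Polynomial

section FracPlace

variable {k : Type*} [Field k] {R : Type*} [CommRing R] [IsDedekindDomain R] [Algebra k R]
  (K' : Type*) [Field K'] [Algebra R K'] [IsFractionRing R K'] [Algebra k K']
  [IsScalarTower k R K']

/-- The place of `Frac R` over `k` attached to a nonzero prime of the Dedekind `k`-algebra `R`. -/
noncomputable def placeOfPrime (v : HeightOneSpectrum R) : Place k K' where
  toValuationSubring := (v.valuation K').valuationSubring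
  algebraMap_mem' a := by
    rw [Valuation.mem_valuationSubring_iff, IsScalarTower.algebraMap_apply k R K']
    exact v.valuation_le_one _
  ne_top' := by
    simp only [ne_eq, Valuation.valuationSubring_eq_top_iff, not_not]
    infer_instance
  isPrincipalIdealRing' := by
    rw [← HeightOneSpectrum.valuationSubringAtPrime_eq_valuationSubring]
    have : IsDiscreteValuationRing (HeightOneSpectrum.valuationSubringAtPrime K' v) :=
      IsLocalization.AtPrime.isDiscreteValuationRing_of_dedekind_domain R v.ne_bot _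
    infer_instance

theorem mem_placeOfPrime_iff (v : HeightOneSpectrum R) (x : K') :
    x ∈ (placeOfPrime (k := k) K' v).toValuationSubring ↔ v.valuation K' x ≤ 1 :=
  Valuation.mem_valuationSubring_iff _ _

theorem algebraMap_mem_nonunits_placeOfPrime (v : HeightOneSpectrum R) {r : R}
    (hr : r ∈ v.asIdeal) :
    algebraMap R K' r ∈ (placeOfPrime (k := k) K' v).toValuationSubring.nonunits := by
  rw [ValuationSubring.mem_nonunits_iff]
  have h1 : v.valuation K' (algebraMap R K' r) < 1 := (v.valuation_lt_one_iff_mem r).2 hr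
  exact ((Valuation.isEquiv_valuation_valuationSubring (v.valuation K')).lt_one_iff_lt_one).1 h1

end FracPlace

section Restrict

variable {k E : Type*} [Field k] [Field E] [Algebra k E] (Fbar : IntermediateField k E)
  (B : Subalgebra k E)

/-- `Frac B → E`. -/
noncomputable def fracToE : FractionRing ↥B →ₐ[k] E :=
  IsFractionRing.liftAlgHom (g := B.val) (show Function.Injective B.val from Subtype.val_injective)

theorem fracToE_algebraMap (b : ↥B) : fracToE B (algebraMap ↥B (FractionRing ↥B) b) = (b : E) := by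
  unfold fracToE
  rw [IsFractionRing.liftAlgHom_apply, IsFractionRing.lift_algebraMap]
  rfl

variable {Fbar B}

theorem le_range_fracToE (hF : ∀ x ∈ Fbar, ∃ a ∈ B, ∃ b ∈ B, b ≠ 0 ∧ x * b = a) :
    Fbar.toSubalgebra ≤ (fracToE B).range := by
  intro x hx
  obtain ⟨a, ha, b, hb, hb0, hab⟩ := hF x hx
  refine ⟨algebraMap ↥B (FractionRing ↥B) ⟨a, ha⟩ / algebraMap ↥B (FractionRing ↥B) ⟨b, hb⟩, ?_⟩
  show fracToE B _ = x
  rw [map_div₀, fracToE_algebraMap, fracToE_algebraMap, div_eq_iff hb0]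
  exact hab.symm

/-- `Fbar → Frac B`, for `Fbar ⊆ Frac B` inside `E`. -/
noncomputable def toFrac (hF : ∀ x ∈ Fbar, ∃ a ∈ B, ∃ b ∈ B, b ≠ 0 ∧ x * b = a) :
    ↥Fbar →ₐ[k] FractionRing ↥B :=
  ((AlgEquiv.ofInjectiveField (fracToE B)).symm : ↥(fracToE B).range →ₐ[k] FractionRing ↥B).comp
    (Subalgebra.inclusion (le_range_fracToE hF))

theorem fracToE_toFrac (hF : ∀ x ∈ Fbar, ∃ a ∈ B, ∃ b ∈ B, b ≠ 0 ∧ x * b = a) (x : ↥Fbar) :
    fracToE B (toFrac hF x) = (x : E) := by
  have h := (AlgEquiv.ofInjectiveField (fracToE B)).apply_symm_apply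
    (Subalgebra.inclusion (le_range_fracToE hF) x)
  exact congrArg Subtype.val h

theorem toFrac_eq_algebraMap (hF : ∀ x ∈ Fbar, ∃ a ∈ B, ∃ b ∈ B, b ≠ 0 ∧ x * b = a)
    (x : ↥Fbar) (hx : (x : E) ∈ B) :
    toFrac hF x = algebraMap ↥B (FractionRing ↥B) ⟨x, hx⟩ := by
  apply (fracToE B).injective
  show fracToE B _ = fracToE B _
  rw [fracToE_toFrac, fracToE_algebraMap]

/-- A nonzero prime of `B` contains a nonzero element of `k[j]` (`B` integral over `k[j]`). -/
theorem exists_mem_adjoin_of_prime [IsDomain ↥B] {j : E} (hjB : j ∈ B)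
    (hB : ∀ x ∈ B, IsIntegral (Algebra.adjoin k {j}) x) (I : Ideal ↥B) (hI : I ≠ ⊥) :
    ∃ x : E, x ≠ 0 ∧ x ∈ Algebra.adjoin k {j} ∧ ∃ hx : x ∈ B, (⟨x, hx⟩ : ↥B) ∈ I := by
  obtain ⟨b, hbI, hb0⟩ := Submodule.exists_mem_ne_zero_of_ne_bot hI
  have hle : Algebra.adjoin k {j} ≤ B := Algebra.adjoin_le (by
    rintro _ rfl
    exact hjB)
  obtain ⟨P, hP, hPb⟩ := hB b b.2
  set f : ↥(Algebra.adjoin k {j}) →+* ↥B := (Subalgebra.inclusion hle).toRingHom with hf
  have h1 : P.eval₂ f b = 0 := by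
    apply Subtype.val_injective
    have := Polynomial.hom_eval₂ P f (B.val : ↥B →+* E) b
    rw [ZeroMemClass.coe_zero]
    refine Eq.trans ?_ hPb
    exact this
  obtain ⟨i, hi0, hiI⟩ := Ideal.exists_coeff_ne_zero_mem_comap_of_root_mem hb0 hbI hP.ne_zero h1
  refine ⟨(P.coeff i : E), fun h => hi0 (Subtype.ext h), (P.coeff i).2, hle (P.coeff i).2, ?_⟩
  exact hiI

open Fermat.Agent.S24.PlaceExtend in
/-- restriction of the place of `Frac B` at `v` to `Fbar` -/
noncomputable def restrictPlace [IsDedekindDomain ↥B]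
    (hF : ∀ x ∈ Fbar, ∃ a ∈ B, ∃ b ∈ B, b ≠ 0 ∧ x * b = a) (v : HeightOneSpectrum ↥B)
    (x : ↥Fbar) (hx0 : x ≠ 0)
    (hx : toFrac hF x ∈ (placeOfPrime (k := k) (FractionRing ↥B) v).toValuationSubring.nonunits) :
    Place k ↥Fbar :=
  restrict (K := k) (L := k) (F := ↥Fbar) (F' := FractionRing ↥B) (toFrac hF)
    (placeOfPrime (k := k) (FractionRing ↥B) v) x hx0 hx

open Fermat.Agent.S24.PlaceExtend in
theorem mem_restrictPlace_iff [IsDedekindDomain ↥B]
    (hF : ∀ x ∈ Fbar, ∃ a ∈ B, ∃ b ∈ B, b ≠ 0 ∧ x * b = a) (v : HeightOneSpectrum ↥B)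
    (x : ↥Fbar) (hx0 : x ≠ 0)
    (hx : toFrac hF x ∈ (placeOfPrime (k := k) (FractionRing ↥B) v).toValuationSubring.nonunits)
    (f : ↥Fbar) :
    f ∈ (restrictPlace hF v x hx0 hx).toValuationSubring ↔
      v.valuation (FractionRing ↥B) (toFrac hF f) ≤ 1 := by
  unfold restrictPlace
  rw [mem_restrict_iff, mem_placeOfPrime_iff]

open Fermat.Agent.S24.PlaceExtend in
/-- **A function without poles on the Dedekind chart `B` lies in `B`.** -/
theorem mem_of_forall_ord_eq_zero [IsDedekindDomain ↥B] {j : E} (hjF : j ∈ Fbar) (hjB : j ∈ B)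
    (hB : ∀ x ∈ B, IsIntegral (Algebra.adjoin k {j}) x)
    (hF : ∀ x ∈ Fbar, ∃ a ∈ B, ∃ b ∈ B, b ≠ 0 ∧ x * b = a) (c : ↥Fbar) (hc : c ≠ 0)
    (h : ∀ Q : Place k ↥Fbar, Q.ord c = 0) : (c : E) ∈ B := by
  have hval : ∀ v : HeightOneSpectrum ↥B, v.valuation (FractionRing ↥B) (toFrac hF c) ≤ 1 := by
    intro v
    obtain ⟨x, hx0, hxj, hxB, hxv⟩ := exists_mem_adjoin_of_prime hjB hB v.asIdeal v.ne_bot
    have hxF : x ∈ Fbar := by
      have hle : Algebra.adjoin k {j} ≤ Fbar.toSubalgebra := Algebra.adjoin_le (by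
        rintro _ rfl
        exact hjF)
      exact hle hxj
    have hx0' : (⟨x, hxF⟩ : ↥Fbar) ≠ 0 := fun h0 => hx0 (congrArg Subtype.val h0)
    have hnon : toFrac hF ⟨x, hxF⟩ ∈
        (placeOfPrime (k := k) (FractionRing ↥B) v).toValuationSubring.nonunits := by
      rw [toFrac_eq_algebraMap hF ⟨x, hxF⟩ hxB]
      exact algebraMap_mem_nonunits_placeOfPrime _ v hxv
    have h1 := h (restrictPlace hF v ⟨x, hxF⟩ hx0' hnon)
    have h2 : c ∈ (restrictPlace hF v ⟨x, hxF⟩ hx0' hnon).toValuationSubring :=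
      (mem_iff_ord_nonneg _ hc).2 (le_of_eq h1.symm)
    exact (mem_restrictPlace_iff hF v ⟨x, hxF⟩ hx0' hnon c).1 h2
  obtain ⟨b, hb⟩ := HeightOneSpectrum.mem_integers_of_valuation_le_one (FractionRing ↥B) (toFrac hF c) hval
  have h3 := congrArg (fracToE B) hb
  rw [fracToE_toFrac] at h3
  rw [← h3]
  show fracToE B (algebraMap ↥B (FractionRing ↥B) b) ∈ B
  rw [fracToE_algebraMap]
  exact b.2

end Restrict

/-- **Constants on the special fibre**: a function of `Fbar` without zeros or poles (at the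
prelude places of `Fbar/k`) is a constant, when `Fbar` is covered by the two Dedekind charts
`B⁺ ∋ j`, `B⁻ ∋ j⁻¹`, integral over `k[j]`, `k[j⁻¹]`, and `k` is algebraically closed. -/
theorem const_of_ord_eq_zero {k E : Type*} [Field k] [IsAlgClosed k] [Field E] [Algebra k E]
    (Fbar : IntermediateField k E) (Bp Bm : Subalgebra k E) [IsDedekindDomain Bp]
    [IsDedekindDomain Bm] (j : E) (hj : Transcendental k j) (hjF : j ∈ Fbar) (hjp : j ∈ Bp)
    (hjm : j⁻¹ ∈ Bm) (hBp : ∀ x ∈ Bp, IsIntegral (Algebra.adjoin k {j}) x)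
    (hBm : ∀ x ∈ Bm, IsIntegral (Algebra.adjoin k {j⁻¹}) x)
    (hFp : ∀ x ∈ Fbar, ∃ a ∈ Bp, ∃ b ∈ Bp, b ≠ 0 ∧ x * b = a)
    (hFm : ∀ x ∈ Fbar, ∃ a ∈ Bm, ∃ b ∈ Bm, b ≠ 0 ∧ x * b = a) (c : Fbar) (hc : c ≠ 0)
    (h : ∀ Q : AlgebraicCurve.Place k Fbar, Q.ord c = 0) : ∃ a : k, algebraMap k Fbar a = c := by
  have hcp : (c : E) ∈ Bp := mem_of_forall_ord_eq_zero hjF hjp hBp hFp c hc h
  have hcm : (c : E) ∈ Bm := mem_of_forall_ord_eq_zero (inv_mem hjF) hjm hBm hFm c hc h
  have halg : ∀ x : E, IsAlgebraic k x → x ∈ (algebraMap k E).range := by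
    intro x hx
    exact minpoly.mem_range_of_degree_eq_one k x
      (IsAlgClosed.degree_eq_one_of_irreducible k (minpoly.irreducible hx.isIntegral))
  have h1 : (c : E) ∈ Fermat.Agent.N4.Chart.chartAlg k E {j} := hBp c hcp
  have h2 : (c : E) ∈ Fermat.Agent.N4.Chart.chartAlg k E {j⁻¹} := hBm c hcm
  obtain ⟨a, ha⟩ := Fermat.Agent.N4.IntClosure.mem_range_of_mem_chartAlg_of_mem_chartAlg_inv
    (O := k) (K := k) j hj halg h1 h2
  exact ⟨a, Subtype.ext ha⟩

end Fermat.Agent.N4.SpecialFibreConst
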