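/-
N4 block Sreg, part 2 (abstract): rational points of the special fibre of an `O`-algebra, local
generation by the uniformiser and one more element (`LocGenAt`), and its behaviour under
localisation.

* `RatPt π y`      : `y` is a prime of the `O`-algebra `R` containing `π` with residue ring `O/…`
                     (every element of `R` is congruent to a constant modulo `y`);
* `LocGenAt π y`   : `y R_y = (π, s₀) R_y` for some `s₀ ∈ y`;
* `FibreRegular π R` : `LocGenAt` at every rational point of the special fibre;
* `FibreRegular.localization`, `FibreRegular.of_cover` : transfer along localisations away from one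
  element;
* `fibreRegular_of_hyp` : the étale normalisation lemma gives `FibreRegular`.
-/
import Mathlib
import Fermat.Agent.N4.EtaleFibre

set_option autoImplicit false

namespace Fermat.Agent.N4.SmoothCharts

open Fermat.Agent.N4.EtaleNormalization Fermat.Agent.N4.EtaleFibre

section Defs

variable {O : Type*} [CommRing O] {R : Type*} [CommRing R] [Algebra O R]

/-- `y` is a rational point of the special fibre `R/π`: a prime ideal containing `π` modulo which
every element is congruent to a constant. -/
structure RatPt (π : O) (y : Ideal R) : Prop where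
  isPrime : y.IsPrime
  mem : algebraMap O R π ∈ y
  rat : ∀ r : R, ∃ a : O, r - algebraMap O R a ∈ y

/-- `y R_y` is generated by `π` and one more element. -/
def LocGenAt (π : R) (y : Ideal R) : Prop :=
  ∃ s₀ ∈ y, ∀ z ∈ y, ∃ u, u ∉ y ∧ u * z ∈ Ideal.span {π, s₀}

/-- Uniform version of `LocGenAt`. -/
def LocSpanAt (π : R) (x : Ideal R) : Prop :=
  ∃ t ∈ x, ∃ r, r ∉ x ∧ ∀ z ∈ x, r * z ∈ Ideal.span {π, t}

theorem LocSpanAt.locGenAt {π : R} {x : Ideal R} (h : LocSpanAt π x) : LocGenAt π x := by
  obtain ⟨t, ht, r, hr, h⟩ := h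
  exact ⟨t, ht, fun z hz => ⟨r, hr, h z hz⟩⟩

variable (R) in
/-- Every rational point of the special fibre of `R` is a regular point (of a curve). -/
def FibreRegular (π : O) : Prop :=
  ∀ y : Ideal R, RatPt π y → LocGenAt (algebraMap O R π) y

/-- A rational point of the special fibre over a local ring with maximal ideal `(π)` is a maximal
ideal. -/
theorem RatPt.isMaximal [IsLocalRing O] {π : O}
    (hπ : IsLocalRing.maximalIdeal O = Ideal.span {π}) {y : Ideal R} (hy : RatPt π y) :
    y.IsMaximal := by
  have := hy.isPrime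
  refine Ideal.isMaximal_iff.mpr ⟨fun h1 => hy.isPrime.ne_top ((Ideal.eq_top_iff_one y).mpr h1),
    fun J x hJ hxy hxJ => ?_⟩
  obtain ⟨a, ha⟩ := hy.rat x
  have hau : IsUnit a := by
    by_contra hna
    have ham : a ∈ IsLocalRing.maximalIdeal O := (IsLocalRing.mem_maximalIdeal a).mpr hna
    rw [hπ, Ideal.mem_span_singleton] at ham
    obtain ⟨c, rfl⟩ := ham
    apply hxy
    have h1 : algebraMap O R (π * c) ∈ y := by
      rw [map_mul]; exact y.mul_mem_right _ hy.mem
    have h2 : x = (x - algebraMap O R (π * c)) + algebraMap O R (π * c) := by ring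
    rw [h2]
    exact y.add_mem ha h1
  obtain ⟨b, hb⟩ := hau.exists_right_inv
  have h1 : algebraMap O R a ∈ J := by
    have h2 : algebraMap O R a = x - (x - algebraMap O R a) := by ring
    rw [h2]
    exact J.sub_mem hxJ (hJ ha)
  have h3 : (1 : R) = algebraMap O R a * algebraMap O R b := by
    rw [← map_mul, hb, map_one]
  rw [h3]
  exact J.mul_mem_right _ h1

end Defs

section Localization

variable {O : Type*} [CommRing O] {R R' : Type*} [CommRing R] [CommRing R'] [Algebra O R]
  [Algebra O R'] [Algebra R R'] [IsScalarTower O R R'] (M : Submonoid R) [IsLocalization M R']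

omit [IsLocalization M R'] in
/-- Rational points of a localisation contract to rational points. -/
theorem RatPt.comap {π : O} {y' : Ideal R'} (hy' : RatPt π y') :
    RatPt π (y'.comap (algebraMap R R')) := by
  have := hy'.isPrime
  refine ⟨Ideal.comap_isPrime _ _, ?_, fun r => ?_⟩
  · rw [Ideal.mem_comap, ← IsScalarTower.algebraMap_apply]
    exact hy'.mem
  · obtain ⟨a, ha⟩ := hy'.rat (algebraMap R R' r)
    refine ⟨a, ?_⟩
    rw [Ideal.mem_comap, map_sub, ← IsScalarTower.algebraMap_apply]
    exact ha

include M in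
/-- `LocGenAt` passes from a prime of `R` disjoint from `M` to its extension to the
localisation. -/
theorem LocGenAt.map {π : R} {y : Ideal R} [hy : y.IsPrime] (hdisj : Disjoint (M : Set R) y)
    (h : LocGenAt π y) : LocGenAt (algebraMap R R' π) (y.map (algebraMap R R')) := by
  obtain ⟨s₀, hs₀, hgen⟩ := h
  have hcomap : (y.map (algebraMap R R')).comap (algebraMap R R') = y :=
    IsLocalization.under_map_of_isPrime_disjoint M R' hy hdisj
  refine ⟨algebraMap R R' s₀, Ideal.mem_map_of_mem _ hs₀, fun z' hz' => ?_⟩
  obtain ⟨⟨⟨z, hz⟩, m⟩, hzm⟩ := (IsLocalization.mem_map_algebraMap_iff M R').mp hz'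
  simp only at hzm
  obtain ⟨u, hu, huz⟩ := hgen z hz
  refine ⟨algebraMap R R' u, fun hmem => hu ?_, ?_⟩
  · rw [← hcomap]; exact Ideal.mem_comap.mpr hmem
  · obtain ⟨α, β, hαβ⟩ := Ideal.mem_span_pair.mp huz
    have hunit : IsUnit (algebraMap R R' (m : R)) := IsLocalization.map_units R' m
    obtain ⟨v, hv⟩ := hunit.exists_left_inv
    have e : algebraMap R R' u * z' =
        (v * algebraMap R R' α) * algebraMap R R' π + (v * algebraMap R R' β) *
          algebraMap R R' s₀ := by
      calc algebraMap R R' u * z'
          = v * algebraMap R R' (m : R) * (algebraMap R R' u * z') := by rw [hv, one_mul]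
        _ = v * (algebraMap R R' u * (z' * algebraMap R R' (m : R))) := by ring
        _ = v * algebraMap R R' (u * z) := by rw [hzm, map_mul]
        _ = v * algebraMap R R' (α * π + β * s₀) := by rw [hαβ]
        _ = _ := by rw [map_add, map_mul, map_mul]; ring
    rw [e]
    exact Ideal.mem_span_pair.mpr ⟨_, _, rfl⟩

include M in
/-- `LocGenAt` passes from a prime of the localisation to its contraction. -/
theorem LocGenAt.comap {π : R} {y' : Ideal R'} [hy' : y'.IsPrime]
    (h : LocGenAt (algebraMap R R' π) y') : LocGenAt π (y'.comap (algebraMap R R')) := by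
  obtain ⟨s₀', hs₀', hgen⟩ := h
  obtain ⟨⟨s₀, m₀⟩, hs₀m⟩ := IsLocalization.surj M s₀'
  simp only at hs₀m
  have hm₀ : IsUnit (algebraMap R R' (m₀ : R)) := IsLocalization.map_units R' m₀
  obtain ⟨v₀, hv₀⟩ := hm₀.exists_left_inv
  have hs₀y : s₀ ∈ y'.comap (algebraMap R R') := by
    rw [Ideal.mem_comap, ← hs₀m]
    exact y'.mul_mem_right _ hs₀'
  refine ⟨s₀, hs₀y, fun z hz => ?_⟩
  obtain ⟨u', hu', huz'⟩ := hgen (algebraMap R R' z) (Ideal.mem_comap.mp hz)
  obtain ⟨α', β', hαβ⟩ := Ideal.mem_span_pair.mp huz'
  obtain ⟨⟨u, m₁⟩, hum⟩ := IsLocalization.surj M u'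
  obtain ⟨⟨α, m₂⟩, hαm⟩ := IsLocalization.surj M α'
  obtain ⟨⟨β, m₃⟩, hβm⟩ := IsLocalization.surj M β'
  simp only at hum hαm hβm
  -- clear denominators
  have e : algebraMap R R' (u * (m₂ * m₃ * m₀) * z) =
      algebraMap R R' (α * (m₁ * m₃ * m₀) * π + β * (m₁ * m₂) * s₀) := by
    have hs : s₀' * algebraMap R R' (m₀ : R) = algebraMap R R' s₀ := hs₀m
    simp only [map_mul, map_add]
    rw [← hum, ← hαm, ← hβm, ← hs]
    have : u' * algebraMap R R' z = α' * algebraMap R R' π + β' * s₀' := hαβ.symm
    linear_combination (algebraMap R R' (m₁ : R) * algebraMap R R' (m₂ : R) *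
      algebraMap R R' (m₃ : R) * algebraMap R R' (m₀ : R)) * this
  obtain ⟨c, hc⟩ := (IsLocalization.eq_iff_exists M R').mp e
  refine ⟨c * (u * (m₂ * m₃ * m₀)), fun hmem => hu' ?_, ?_⟩
  · -- `u'` is a unit multiple of the image of `c u m₂ m₃ m₀`
    have h1 : algebraMap R R' (c * (u * (m₂ * m₃ * m₀))) ∈ y' := Ideal.mem_comap.mp hmem
    have hunit : IsUnit (algebraMap R R' ((c : R) * (m₁ * m₂ * m₃ * m₀))) := by
      have : (c : R) * (m₁ * m₂ * m₃ * m₀) = ((c * (m₁ * m₂ * m₃ * m₀) : M) : R) := by
        push_cast; ring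
      rw [this]
      exact IsLocalization.map_units R' _
    have h2 : algebraMap R R' (c * (u * (m₂ * m₃ * m₀))) =
        u' * algebraMap R R' ((c : R) * (m₁ * m₂ * m₃ * m₀)) := by
      simp only [map_mul]
      rw [← hum]; ring
    rw [h2] at h1
    rcases hy'.mem_or_mem h1 with h | h
    · exact h
    · exact absurd (y'.eq_top_of_isUnit_mem h hunit) hy'.ne_top
  · have : c * (u * (m₂ * m₃ * m₀)) * z = (c * (α * (m₁ * m₃ * m₀))) * π +
        (c * (β * (m₁ * m₂))) * s₀ := by
      calc c * (u * (m₂ * m₃ * m₀)) * z = c * (u * (m₂ * m₃ * m₀) * z) := by ring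
        _ = c * (α * (m₁ * m₃ * m₀) * π + β * (m₁ * m₂) * s₀) := hc
        _ = _ := by ring
    rw [this]
    exact Ideal.mem_span_pair.mpr ⟨_, _, rfl⟩

include M in
/-- Rational points disjoint from `M` extend to rational points of the localisation. -/
theorem RatPt.map [IsLocalRing O] {π : O} (hπ : IsLocalRing.maximalIdeal O = Ideal.span {π})
    {y : Ideal R} (hy : RatPt π y) (hdisj : Disjoint (M : Set R) y) :
    RatPt π (y.map (algebraMap R R')) := by
  have hyp := hy.isPrime
  have hcomap : (y.map (algebraMap R R')).comap (algebraMap R R') = y :=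
    IsLocalization.under_map_of_isPrime_disjoint M R' hyp hdisj
  refine ⟨IsLocalization.isPrime_of_isPrime_disjoint M R' y hyp hdisj, ?_, fun r' => ?_⟩
  · rw [IsScalarTower.algebraMap_apply O R R']
    exact Ideal.mem_map_of_mem _ hy.mem
  · obtain ⟨⟨r, m⟩, hrm⟩ := IsLocalization.surj M r'
    simp only at hrm
    obtain ⟨a, ha⟩ := hy.rat r
    obtain ⟨c, hc⟩ := hy.rat (m : R)
    have hcu : IsUnit c := by
      by_contra hnc
      have hcm : c ∈ IsLocalRing.maximalIdeal O := (IsLocalRing.mem_maximalIdeal c).mpr hnc
      rw [hπ, Ideal.mem_span_singleton] at hcm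
      obtain ⟨e, rfl⟩ := hcm
      have h1 : algebraMap O R (π * e) ∈ y := by
        rw [map_mul]; exact y.mul_mem_right _ hy.mem
      have h2 : (m : R) = ((m : R) - algebraMap O R (π * e)) + algebraMap O R (π * e) := by ring
      have h3 : (m : R) ∈ y := by rw [h2]; exact y.add_mem hc h1
      exact Set.disjoint_left.mp hdisj m.2 h3
    obtain ⟨d, hd⟩ := hcu.exists_right_inv
    refine ⟨a * d, ?_⟩
    have hunit : IsUnit (algebraMap R R' (m : R)) := IsLocalization.map_units R' m
    -- `(r' - a d) m = (r - a) - a d (m - c) ∈ y R'`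
    have h4 : (r' - algebraMap O R' (a * d)) * algebraMap R R' (m : R) =
        algebraMap R R' ((r - algebraMap O R a) -
          algebraMap O R (a * d) * ((m : R) - algebraMap O R c)) := by
      have hcd : algebraMap O R' a * algebraMap O R' d * algebraMap O R' c = algebraMap O R' a := by
        rw [← map_mul, ← map_mul, mul_assoc, mul_comm d c, hd, mul_one]
      simp only [map_sub, map_mul, ← IsScalarTower.algebraMap_apply O R R']
      rw [← hrm]
      linear_combination (-1 : R') * hcd
    have h5 : (r' - algebraMap O R' (a * d)) * algebraMap R R' (m : R) ∈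
        y.map (algebraMap R R') := by
      rw [h4]
      exact Ideal.mem_map_of_mem _ (y.sub_mem ha (y.mul_mem_left _ hc))
    obtain ⟨v, hv⟩ := hunit.exists_right_inv
    have h6 : r' - algebraMap O R' (a * d) =
        (r' - algebraMap O R' (a * d)) * algebraMap R R' (m : R) * v := by
      rw [mul_assoc, hv, mul_one]
    rw [h6]
    exact Ideal.mul_mem_right _ _ h5

include M in
/-- **`FibreRegular` passes to localisations.** -/
theorem FibreRegular.localization {π : O} (h : FibreRegular R π) : FibreRegular R' π := by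
  intro y' hy'
  have hyp' := hy'.isPrime
  have hy := hy'.comap (R := R)
  have hyp := hy.isPrime
  have hdisj : Disjoint (M : Set R) (y'.comap (algebraMap R R') : Set R) := by
    rw [Set.disjoint_left]
    intro m hm hmy
    exact hyp'.ne_top (y'.eq_top_of_isUnit_mem (Ideal.mem_comap.mp hmy)
      (IsLocalization.map_units R' ⟨m, hm⟩))
  have h1 := (h _ hy).map (R' := R') M hdisj
  rw [IsLocalization.map_under M R', ← IsScalarTower.algebraMap_apply] at h1
  exact h1

include M in
/-- **Local generation can be checked in a localisation.** -/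
theorem locGenAt_of_localization [IsLocalRing O] {π : O}
    (hπ : IsLocalRing.maximalIdeal O = Ideal.span {π}) {y : Ideal R} (hy : RatPt π y)
    (hdisj : Disjoint (M : Set R) y) (h : FibreRegular R' π) :
    LocGenAt (algebraMap O R π) y := by
  have hyp := hy.isPrime
  have hy' := hy.map (R' := R') M hπ hdisj
  have hyp' := hy'.isPrime
  have h1 := h _ hy'
  rw [IsScalarTower.algebraMap_apply O R R'] at h1
  have h2 := h1.comap M
  have hcm : (y.map (algebraMap R R')).comap (algebraMap R R') = y :=
    IsLocalization.under_map_of_isPrime_disjoint M R' hyp hdisj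
  rwa [hcm] at h2

end Localization

section HypToRegular

variable {O : Type*} [CommRing O] [IsLocalRing O] {π : O}
  {B E L : Type*} [CommRing B] [IsDomain B] [IsIntegrallyClosed B] [IsNoetherianRing B]
  [Field E] [Algebra B E] [IsFractionRing B E]
  [Field L] [Algebra E L] [Algebra B L] [IsScalarTower B E L] [FiniteDimensional E L]
  [Algebra.IsSeparable E L]
  {R : Type*} [CommRing R] [Algebra O R] [Algebra R L] [FaithfulSMul R L]

/-- **L2 ⇒ regularity of the special fibre.** If `R ⊆ L` is the integral closure of `B` in `L` and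
`(B, E, L, π)` satisfies the hypotheses of the étale normalisation lemma (`B/π` a principal ideal
domain), then every rational point of `R/π` is a regular point. -/
theorem fibreRegular_of_hyp (hπ : IsLocalRing.maximalIdeal O = Ideal.span {π}) {πB : B}
    (hππ : algebraMap B L πB = algebraMap R L (algebraMap O R π))
    [IsPrincipalIdealRing (B ⧸ Ideal.span {πB})] (h : Hyp B E L πB)
    (hRB : ∀ x : L, x ∈ (algebraMap R L).range ↔ IsIntegral B x) :
    FibreRegular R π := by
  intro y hy
  have hymax : y.IsMaximal := hy.isMaximal hπ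
  have hinj : Function.Injective (algebraMap R L) := FaithfulSMul.algebraMap_injective R L
  let e : R ≃+* (algebraMap R L).range :=
    RingEquiv.ofLeftInverse (Function.leftInverse_invFun hinj)
  let f : B →+* R := e.symm.toRingHom.comp
    ((algebraMap B L).codRestrict (algebraMap R L).range
      (fun b => (hRB _).mpr isIntegral_algebraMap))
  have hf : ∀ b : B, algebraMap R L (f b) = algebraMap B L b := by
    intro b
    have h1 : (e (f b) : L) = algebraMap R L (f b) := rfl
    rw [← h1]
    show ((e (e.symm _) : (algebraMap R L).range) : L) = _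
    rw [RingEquiv.apply_symm_apply]
    rfl
  letI : Algebra B R := f.toAlgebra
  have : IsScalarTower B R L := IsScalarTower.of_algebraMap_eq (fun b => (hf b).symm)
  have : IsIntegralClosure R B L :=
    ⟨hinj, fun {x} => ⟨fun hx => (hRB x).mpr hx, fun hx => (hRB x).mp hx⟩⟩
  have : Module.Finite B R := IsIntegralClosure.finite B E L R
  have hπy : algebraMap B R πB ∈ y := by
    have : algebraMap B R πB = algebraMap O R π := hinj (by
      rw [← IsScalarTower.algebraMap_apply B R L, hππ])
    rw [this]
    exact hy.mem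
  obtain ⟨g, hg, hgen⟩ := locGen_of_hyp R h y hπy
  have hπeq : algebraMap B R πB = algebraMap O R π := hinj (by
    rw [← IsScalarTower.algebraMap_apply B R L, hππ])
  rw [hπeq] at hgen
  exact ⟨algebraMap B R g, hg, hgen⟩

end HypToRegular

section Family

universe u v

variable {O : Type*} [CommRing O] [IsLocalRing O] {π : O}
  {B : Type u} {L : Type v} [CommRing B] [IsDomain B] [IsIntegrallyClosed B]
  [IsNoetherianRing B] [Field L] [CharZero L] [Algebra B L] [FaithfulSMul B L] {πB : B}
  {R : Type*} [CommRing R] [Algebra O R] [Algebra R L] [FaithfulSMul R L]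

open IntermediateField in
/-- **Assembly**, in the shape of `IrreducibleAux.LD_of_hyp_family`. -/
theorem fibreRegular_of_hyp_family (hπ : IsLocalRing.maximalIdeal O = Ideal.span {π})
    [IsPrincipalIdealRing (B ⧸ Ideal.span {πB})]
    (θ : L) (hθ : IsAlgebraic B θ)
    (hgen : ∀ S : Subfield L, (∀ b : B, algebraMap B L b ∈ S) → θ ∈ S → S = ⊤)
    (hE : ∀ (E : Type u) [Field E] [Algebra B E] [IsFractionRing B E] [Algebra E L]
      [IsScalarTower B E L] [FiniteDimensional E L] [Algebra.IsSeparable E L],
      E⟮θ⟯ = ⊤ → Hyp B E L πB)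
    (hππ : algebraMap B L πB = algebraMap R L (algebraMap O R π))
    (hRB : ∀ x : L, x ∈ (algebraMap R L).range ↔ IsIntegral B x) :
    FibreRegular R π := by
  let E := FractionRing B
  letI algEL : Algebra E L := FractionRing.liftAlgebra B L
  haveI : IsScalarTower B E L := FractionRing.isScalarTower_liftAlgebra B L
  have hθE : IsIntegral E θ :=
    (hθ.extendScalars (S := E) (IsFractionRing.injective B E)).isIntegral
  have hgenE : E⟮θ⟯ = ⊤ := by
    have h1 := hgen (E⟮θ⟯).toSubfield (fun b => by
      rw [IsScalarTower.algebraMap_apply B E L]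
      exact (E⟮θ⟯).algebraMap_mem _) (mem_adjoin_simple_self E θ)
    rw [eq_top_iff]
    intro x _
    have : x ∈ (E⟮θ⟯).toSubfield := by rw [h1]; exact Subfield.mem_top x
    exact this
  haveI : FiniteDimensional E L := by
    have h1 : FiniteDimensional E E⟮θ⟯ := adjoin.finiteDimensional hθE
    rw [hgenE] at h1
    exact LinearEquiv.finiteDimensional (IntermediateField.topEquiv (F := E) (E := L)).toLinearEquiv
  haveI : CharZero E := (algebraMap E L).charZero
  haveI : Algebra.IsSeparable E L := inferInstance
  exact fibreRegular_of_hyp hπ hππ (hE E hgenE) hRB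

end Family

end Fermat.Agent.N4.SmoothCharts
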