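/-
N4 block Sreg, part 3 (abstract, chart level): Galois descent of `FibreRegular` between charts.

* `isFractionRing_chartAlg_singleton`, `isFractionRing_of_le` : fraction fields of charts;
* `ratPt_of_isMaximal` : over a base with algebraically closed residue field, every maximal ideal of a
  chart (finitely many generators) containing `π` is a rational point of the special fibre;
* `locSpanAt_chart_of_isGalois` : if `L/F` is finite Galois and the special fibre of the chart
  upstairs is regular at its rational points, then every rational point of the special fibre of the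
  chart downstairs is locally generated by `π` and one more element (Katz–Mazur quotient lemma).
-/
import Mathlib
import Fermat.Agent.N4.SmoothCharts
import Fermat.Agent.N4.GaloisQuotient
import Fermat.Agent.N4.ResidueClosed
import Fermat.Agent.N4.FibreCharts
import Fermat.Agent.N4.ChartPrime

set_option autoImplicit false
set_option linter.style.haveILetI false

open Polynomial IntermediateField

namespace Fermat.Agent.N4.SmoothDescent

open Fermat.Agent.N4.Chart Fermat.Agent.N4.FibreCharts Fermat.Agent.N4.SmoothCharts
  Fermat.Agent.N4.IntClosure Fermat.Agent.N4.ChartPrime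

section FractionRing

variable {O K F : Type*} [CommRing O] [IsDomain O] [Field K] [Algebra O K] [IsFractionRing O K]
  [Field F] [Algebra K F] [Algebra O F] [IsScalarTower O K F]

/-- The fraction field of the chart of a transcendental generator `j` with `F/K(j)` finite. -/
theorem isFractionRing_chartAlg_singleton (j : F) (hj : Transcendental K j)
    [FiniteDimensional K⟮j⟯ F] : IsFractionRing (chartAlg O F {j}) F := by
  letI := algPolyTop (O := O) j
  letI := algPolyMid (O := O) (K := K) j
  letI := algPolyChart (O := O) j
  haveI := isScalarTower_poly (O := O) (K := K) j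
  haveI := isFractionRing_poly (O := O) j hj
  haveI := isScalarTower_polyChart (O := O) j
  haveI := isIntegralClosure_chartAlg (O := O) j
  exact IsIntegralClosure.isFractionRing_of_finite_extension O[X] K⟮j⟯ F (chartAlg O F {j})

omit [IsDomain O] [Field K] [Algebra O K] [IsFractionRing O K] [Algebra K F]
  [IsScalarTower O K F] in
/-- A subalgebra of a field containing a subalgebra with fraction field `F` has fraction field
`F`. -/
theorem isFractionRing_of_le {A A' : Subalgebra O F} (h : A ≤ A') [IsFractionRing A F] :
    IsFractionRing A' F := by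
  haveI : FaithfulSMul A' F := (faithfulSMul_iff_algebraMap_injective A' F).mpr
    Subtype.val_injective
  refine IsFractionRing.of_field A' F fun z => ?_
  obtain ⟨x, y, -, hxy⟩ := IsFractionRing.div_surjective (A := A) z
  exact ⟨⟨x, h x.2⟩, ⟨y, h y.2⟩, hxy.symm⟩

end FractionRing

section Rational

variable {O : Type*} [CommRing O] [IsLocalRing O] [IsAlgClosed (IsLocalRing.ResidueField O)]
  {L : Type*} [Field L] [Algebra O L] {π : O}

/-- **Closed points of the special fibre of a chart are rational**, over a base with algebraically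
closed residue field. -/
theorem ratPt_of_isMaximal (hπ : IsLocalRing.maximalIdeal O = Ideal.span {π}) {S : Set L}
    (hS : S.Finite) (y : Ideal (chartAlg O L S)) [hy : y.IsMaximal]
    (hπy : algebraMap O (chartAlg O L S) π ∈ y) : RatPt π y := by
  refine ⟨hy.isPrime, hπy, fun r => ?_⟩
  letI : Algebra (Algebra.adjoin O S) (chartAlg O L S) :=
    (Subalgebra.inclusion (adjoin_le_chartAlg S)).toRingHom.toAlgebra
  haveI : IsScalarTower O (Algebra.adjoin O S) (chartAlg O L S) :=
    IsScalarTower.of_algebraMap_eq fun a => rfl
  haveI : IsScalarTower (Algebra.adjoin O S) (chartAlg O L S) L :=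
    IsScalarTower.of_algebraMap_eq fun a => rfl
  haveI : Algebra.FiniteType O (Algebra.adjoin O S) := by
    rw [← Subalgebra.fg_iff_finiteType]
    obtain ⟨s, rfl⟩ := hS.exists_finset_coe
    exact Subalgebra.fg_adjoin_finset s
  haveI : Algebra.IsIntegral (Algebra.adjoin O S) (chartAlg O L S) := ⟨fun r => by
    have h1 : IsIntegral (Algebra.adjoin O S) (algebraMap (chartAlg O L S) L r) := r.2
    exact (isIntegral_algebraMap_iff (Subtype.val_injective)).mp h1⟩
  refine ResidueClosed.exists_sub_mem_of_isAlgClosed (C := Algebra.adjoin O S) y (fun a ha => ?_) r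
  rw [hπ, Ideal.mem_span_singleton] at ha
  obtain ⟨c, rfl⟩ := ha
  rw [map_mul]
  exact y.mul_mem_right _ hπy

end Rational

section Descent

variable {O : Type*} [CommRing O] [IsLocalRing O] [IsAlgClosed (IsLocalRing.ResidueField O)]
  {F L : Type*} [Field F] [Algebra O F] [Field L] [Algebra O L] [Algebra F L]
  [IsScalarTower O F L] {π : O}

/-- **Galois descent of the regularity of the special fibre** (Katz–Mazur quotient lemma for
charts). -/
theorem locSpanAt_chart_of_isGalois (hπ : IsLocalRing.maximalIdeal O = Ideal.span {π})
    [FiniteDimensional F L] [IsGalois F L] {S : Set F} (hS : S.Finite)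
    [IsNoetherianRing (chartAlg O F S)] [IsFractionRing (chartAlg O F S) F]
    (h : FibreRegular (chartAlg O L (algebraMap F L '' S)) π)
    (x : Ideal (chartAlg O F S)) (hx : RatPt π x) :
    LocSpanAt (algebraMap O (chartAlg O F S) π) x := by
  have hxmax : x.IsMaximal := hx.isMaximal hπ
  letI : Algebra (chartAlg O F S) (chartAlg O L (algebraMap F L '' S)) :=
    (chartMap (O := O) (L := L) S).toRingHom.toAlgebra
  haveI : IsScalarTower (chartAlg O F S) F L := IsScalarTower.of_algebraMap_eq fun a => rfl
  haveI : IsScalarTower (chartAlg O F S) (chartAlg O L (algebraMap F L '' S)) L :=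
    IsScalarTower.of_algebraMap_eq fun a => rfl
  have hint : Algebra.IsIntegral (chartAlg O F S) (chartAlg O L (algebraMap F L '' S)) :=
    ⟨fun y => isIntegral_chartMap S y⟩
  haveI : IsIntegralClosure (chartAlg O L (algebraMap F L '' S)) (chartAlg O F S) L :=
    ⟨Subtype.val_injective, fun {z} => ⟨fun hz => by
      have h1 : IsIntegral (chartAlg O L (algebraMap F L '' S)) z := hz.tower_top
      exact ⟨⟨z, isIntegral_chartAlg_iff.mp h1⟩, rfl⟩, by
      rintro ⟨y, rfl⟩
      exact (hint.isIntegral y).algebraMap⟩⟩
  have hinj : Function.Injective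
      (algebraMap (chartAlg O F S) (chartAlg O L (algebraMap F L '' S))) := chartMap_injective S
  have hcomm : ∀ a : O, algebraMap (chartAlg O F S) (chartAlg O L (algebraMap F L '' S))
      (algebraMap O (chartAlg O F S) a) = algebraMap O (chartAlg O L (algebraMap F L '' S)) a :=
    fun a => (chartMap (O := O) (L := L) S).commutes a
  -- a prime upstairs
  obtain ⟨y, hymax, hyx⟩ := Ideal.exists_ideal_over_maximal_of_isIntegral
    (S := chartAlg O L (algebraMap F L '' S)) x (by
      rw [(RingHom.injective_iff_ker_eq_bot _).mp hinj]; exact bot_le)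
  have hπy : algebraMap O (chartAlg O L (algebraMap F L '' S)) π ∈ y := by
    have h1 : algebraMap O (chartAlg O F S) π ∈ y.comap
        (algebraMap (chartAlg O F S) (chartAlg O L (algebraMap F L '' S))) := by
      rw [hyx]; exact hx.mem
    rw [Ideal.mem_comap, hcomm] at h1
    exact h1
  have hyrat : RatPt π y := ratPt_of_isMaximal hπ (hS.image _) y hπy
  obtain ⟨s₀, hs₀, hgen⟩ := h y hyrat
  have hyp := hyrat.isPrime
  have hres : ∀ r : chartAlg O L (algebraMap F L '' S), ∃ a : chartAlg O F S,
      r - algebraMap (chartAlg O F S) (chartAlg O L (algebraMap F L '' S)) a ∈ y := by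
    intro r
    obtain ⟨a, ha⟩ := hyrat.rat r
    exact ⟨algebraMap O (chartAlg O F S) a, by rw [hcomm]; exact ha⟩
  exact GaloisQuotient.exists_locally_span_pair_of_isGalois (chartAlg O F S) F L
    (chartAlg O L (algebraMap F L '' S)) x (algebraMap O (chartAlg O F S) π) hx.mem y hyx hres
    s₀ hs₀ (by rw [hcomm]; exact hgen)

end Descent

section Cover

variable {O : Type*} [CommRing O] [IsLocalRing O] {L : Type*} [Field L] [Algebra O L] {π : O}

omit [IsLocalRing O] in
/-- `FibreRegular` of a chart depends only on the generating set. -/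
theorem fibreRegular_chart_congr {S T : Set L} (h : S = T)
    (hFR : FibreRegular (chartAlg O L S) π) : FibreRegular (chartAlg O L T) π := by
  subst h; exact hFR

/-- Local generation at a rational point of a chart can be checked on the localisation of the
chart at an element `f ∉ y`. -/
theorem locGenAt_chart_of_insert (hπ : IsLocalRing.maximalIdeal O = Ideal.span {π}) {S : Set L}
    {y : Ideal (chartAlg O L S)} (hy : RatPt π y) (f : chartAlg O L S) (hf : f ∉ y)
    (hFR : FibreRegular (chartAlg O L (insert (f : L)⁻¹ S)) π) :
    LocGenAt (algebraMap O (chartAlg O L S) π) y := by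
  have hyp := hy.isPrime
  have hf0 : (f : L) ≠ 0 := by
    intro h0
    apply hf
    have : f = 0 := Subtype.ext h0
    rw [this]
    exact y.zero_mem
  letI alg : Algebra (chartAlg O L S) (chartAlg O L (insert (f : L)⁻¹ S)) :=
    (chartIncl (O := O) (Set.subset_insert (f : L)⁻¹ S)).toRingHom.toAlgebra
  haveI : IsScalarTower O (chartAlg O L S) (chartAlg O L (insert (f : L)⁻¹ S)) :=
    IsScalarTower.of_algebraMap_eq fun a => rfl
  haveI loc : IsLocalization.Away f (chartAlg O L (insert (f : L)⁻¹ S)) :=
    isLocalization_away_chartIncl' f hf0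
  have hdisj : Disjoint (Submonoid.powers f : Set (chartAlg O L S)) (y : Set (chartAlg O L S)) := by
    rw [Set.disjoint_left]
    rintro _ ⟨n, rfl⟩ hn
    exact hf (hyp.mem_of_pow_mem n hn)
  exact locGenAt_of_localization (Submonoid.powers f) hπ hy hdisj hFR

/-- **The chart at infinity upstairs is `FibreRegular`** as soon as the finite chart is and every
point over `j = ∞` has a basic open neighbourhood which is. -/
theorem fibreRegular_cusp_chart (hπ : IsLocalRing.maximalIdeal O = Ideal.span {π}) (j' : L)
    (hj' : j' ≠ 0) (hFR0 : FibreRegular (chartAlg O L {j'}) π)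
    (hcusp : ∀ 𝔭 : Ideal (chartAlg O L {j'⁻¹}), 𝔭.IsPrime →
      chartGen (O := O) (Set.mem_singleton j'⁻¹) ∈ 𝔭 →
      ∃ f : chartAlg O L {j'⁻¹}, f ∉ 𝔭 ∧
        FibreRegular (chartAlg O L {(f : L)⁻¹, j'⁻¹}) π) :
    FibreRegular (chartAlg O L {j'⁻¹}) π := by
  intro y hy
  have hyp := hy.isPrime
  by_cases hg : chartGen (O := O) (Set.mem_singleton j'⁻¹) ∈ y
  · obtain ⟨f, hf, hFRf⟩ := hcusp y hyp hg
    exact locGenAt_chart_of_insert hπ hy f hf hFRf
  · refine locGenAt_chart_of_insert hπ hy _ hg ?_
    -- localise the finite chart at `j'`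
    have h2 : FibreRegular (chartAlg O L (insert j'⁻¹ {j'})) π := by
      letI alg0 : Algebra (chartAlg O L {j'}) (chartAlg O L (insert j'⁻¹ {j'})) :=
        (chartIncl (O := O) (Set.subset_insert j'⁻¹ {j'})).toRingHom.toAlgebra
      haveI : IsScalarTower O (chartAlg O L {j'}) (chartAlg O L (insert j'⁻¹ {j'})) :=
        IsScalarTower.of_algebraMap_eq fun a => rfl
      haveI loc0 : IsLocalization.Away (chartGen (O := O) (Set.mem_singleton j'))
          (chartAlg O L (insert j'⁻¹ {j'})) :=
        isLocalization_away_chartIncl (Set.mem_singleton j') hj'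
      exact hFR0.localization (Submonoid.powers (chartGen (O := O) (Set.mem_singleton j')))
    refine fibreRegular_chart_congr ?_ h2
    show insert j'⁻¹ {j'} = insert ((chartGen (O := O) (Set.mem_singleton j'⁻¹) : L))⁻¹ {j'⁻¹}
    show insert j'⁻¹ {j'} = insert (j'⁻¹)⁻¹ {j'⁻¹}
    rw [inv_inv, Set.pair_comm]

end Cover

end Fermat.Agent.N4.SmoothDescent
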