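/-
N4 block Sreg, odd residue characteristic: the closed points of the special fibres of both charts
of the `j`-line of `F = K(j, θ)`, `Φ_N(j, θ) = 0`, are regular points (locally generated by `π` and
one more element), for a base discrete valuation ring `O` with algebraically closed residue field
in which `2` and `N` are invertible and whose fraction field contains the `N`-th roots of unity.

Route: the Legendre `λ`-line upstairs (étale normalisation, `IrreducibleOdd`), the Kummer covers
`16 t^N = λ` at the cusps, and the Katz–Mazur quotient lemma (`SmoothDescent`) for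
`Gal(L(t)/L) ≤ μ_N` and `Gal(F(λ)/F) ≤ S_3`.
-/
import Mathlib
import Fermat.Agent.N4.IrreducibleOdd
import Fermat.Agent.N4.SmoothDescent
import Fermat.Agent.N4.CoverGalois

set_option autoImplicit false
set_option linter.style.haveILetI false

open Polynomial IntermediateField

namespace Fermat.Agent.N4.SmoothOdd

open Fermat.Agent.N4.EtaleNormalization Fermat.Agent.N4.FibreComponents
  Fermat.Agent.N4.FibreCharts Fermat.Agent.N4.Chart Fermat.Agent.N4.IrreducibleAux
  Fermat.Agent.N4.Lambda Fermat.Agent.N4.Kronecker Fermat.Agent.N4.ModPolyDescent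

open Fermat.Agent.N4.TraceDualInputs Fermat.Agent.N4.ChartHyp Fermat.Agent.N4.RootFormBasis
  Fermat.Agent.N4.IrreducibleOdd Fermat.Agent.N4.SmoothCharts Fermat.Agent.N4.SmoothDescent

section Aux

variable {O L : Type*} [CommRing O] [Field L] [Algebra O L]

/-- Membership in the range of a chart, from the comparison of integral closures. -/
theorem range_iff_of_isIntegral_iff {S : Set L} {B : Type*} [CommRing B] [Algebra B L]
    (hRB : ∀ x : L, IsIntegral (chartAlg O L S) x ↔ IsIntegral B x) (x : L) :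
    x ∈ (algebraMap (chartAlg O L S) L).range ↔ IsIntegral B x := by
  constructor
  · rintro ⟨y, rfl⟩
    exact (hRB _).mp isIntegral_algebraMap
  · intro hx
    exact ⟨⟨x, isIntegral_chartAlg_iff.mp ((hRB x).mpr hx)⟩, rfl⟩

end Aux

section FiniteDim

variable {K L : Type*} [Field K] [Field L] [Algebra K L]

/-- `L = K(x, θ)` is finite over `K(j)` if `x` and `θ` are algebraic over `K(j)`. -/
theorem finiteDimensional_of_adjoin_pair {j x θ : L} (hx : IsIntegral K⟮j⟯ x)
    (hθ : IsIntegral K⟮j⟯ θ) (hgen : IntermediateField.adjoin K {x, θ} = ⊤) :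
    FiniteDimensional K⟮j⟯ L := by
  set M : IntermediateField K⟮j⟯ L := IntermediateField.adjoin K⟮j⟯ {x, θ} with hM
  haveI : Finite ({x, θ} : Set L) := ((Set.finite_singleton θ).insert x).to_subtype
  have hfin : FiniteDimensional K⟮j⟯ M := by
    refine IntermediateField.finiteDimensional_adjoin ?_
    rintro y (rfl | rfl)
    · exact hx
    · exact hθ
  have htop : M = ⊤ := by
    rw [eq_top_iff]
    intro y _
    have h1 : IntermediateField.adjoin K {x, θ} ≤ M.restrictScalars K := by
      rw [IntermediateField.adjoin_le_iff]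
      intro z hz
      exact IntermediateField.subset_adjoin K⟮j⟯ _ hz
    have h2 : y ∈ IntermediateField.adjoin K {x, θ} := by rw [hgen]; trivial
    exact h1 h2
  rw [htop] at hfin
  exact LinearEquiv.finiteDimensional
    (IntermediateField.topEquiv (F := K⟮j⟯) (E := L)).toLinearEquiv

variable (N : ℕ) [NeZero N]

/-- A root `θ` of `Φ_N(j, ·)` is integral over `K(j)`. -/
theorem isIntegral_adjoin_of_modPoly {j θ : L} (hroot : evZ j θ (modPoly N) = 0) :
    IsIntegral K⟮j⟯ θ := by
  refine ⟨(modPoly N).map (evY (AdjoinSimple.gen K j)), (modPoly_monic N).map _, ?_⟩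
  rw [eval₂_map, comp_evY, ← evZ_eq_eval₂_evY, AdjoinSimple.algebraMap_gen]
  exact hroot

/-- A solution `λ` of the sextic is integral over `K(j)`. -/
theorem isIntegral_adjoin_of_sextic [CharZero K] {j lam : L} (hS : Sextic j lam) :
    IsIntegral K⟮j⟯ lam := by
  haveI : CharZero K⟮j⟯ := charZero_of_injective_algebraMap (algebraMap K K⟮j⟯).injective
  refine IsAlgebraic.isIntegral ⟨jNumPoly K⟮j⟯ - C (AdjoinSimple.gen K j) * jDenPoly K⟮j⟯, ?_, ?_⟩
  · intro h0
    have e0 := congrArg (eval 0) h0
    rw [eval_sub, eval_mul, eval_C, eval_jNumPoly, eval_jDenPoly, eval_zero, jNum_def,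
      jDen_def] at e0
    norm_num at e0
  · rw [map_sub, map_mul, aeval_C, aeval_jNumPoly, aeval_jDenPoly, AdjoinSimple.algebraMap_gen,
      sub_eq_zero]
    exact hS

end FiniteDim

section Field

variable {O K L : Type} [CommRing O] [IsDomain O] [IsDiscreteValuationRing O] [Field K]
  [CharZero K] [Algebra O K] [IsFractionRing O K] [Field L] [Algebra O L] [Algebra K L]
  [IsScalarTower O K L]

omit [Field K] [CharZero K] [Algebra O K] [IsFractionRing O K] [Field L] [Algebra O L]
  [Algebra K L] [IsScalarTower O K L] in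
theorem maximalIdeal_eq_span {π : O} (hπ : Irreducible π) :
    IsLocalRing.maximalIdeal O = Ideal.span {π} :=
  (IsDiscreteValuationRing.irreducible_iff_uniformizer π).mp hπ

variable (N : ℕ) [NeZero N] {π : O}

/-- **The finite chart upstairs**: every rational point of its special fibre is regular. -/
theorem FR_lambda_chart (hπ : Irreducible π) (h2 : IsUnit (2 : O)) (hN : IsUnit ((N : ℕ) : O))
    (hTL : TraceDualLambda O K N π) {lam j θ : L} (hS : Sextic j lam) (hj : Transcendental K j)
    (hroot : evZ j θ (modPoly N) = 0) (hgen : IntermediateField.adjoin K {lam, θ} = ⊤) :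
    FibreRegular (chartAlg O L {j}) π := by
  have h2L : (2 : L) ≠ 0 := isUnit_two_field h2
  haveI : CharZero L := charZero_of_injective_algebraMap (algebraMap K L).injective
  have htrK : Transcendental K lam := hS.transcendental h2L hj
  have htrO : Transcendental O lam := transcendental_base htrK
  obtain ⟨hicl, hnoeth, hprime, hpid⟩ := Bplus_props htrO (span_isMaximal hπ)
  have hπB0 : algebraMap O (Bplus O lam) π ≠ 0 := by
    intro h0
    have h1 : algebraMap O L π = 0 := congrArg Subtype.val h0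
    have h3 : Function.Injective (algebraMap O L) := by
      rw [IsScalarTower.algebraMap_eq O K L]
      exact (algebraMap K L).injective.comp (IsFractionRing.injective O K)
    exact hπ.ne_zero (h3 (by rw [h1, map_zero]))
  have hπB : Prime (algebraMap O (Bplus O lam) π) :=
    (Ideal.span_singleton_prime hπB0).mp hprime
  have hjB : j ∈ Bplus O lam := hS.j_mem_Bplus h2L
  have hθ : IsIntegral (Bplus O lam) θ := by
    refine ⟨(modPoly N).map (evY (⟨j, hjB⟩ : Bplus O lam)), (modPoly_monic N).map _, ?_⟩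
    rw [eval₂_map, comp_evY, ← evZ_eq_eval₂_evY]
    exact hroot
  have hgenB : ∀ S : Subfield L, (∀ b : Bplus O lam, algebraMap (Bplus O lam) L b ∈ S) →
      θ ∈ S → S = ⊤ := by
    intro S hB hθS
    refine subfield_eq_top_of_adjoin (O := O) hgen S (fun a => hB (algebraMap O _ a)) ?_
    rintro x (rfl | rfl)
    · exact hB ⟨x, lam_mem_Bplus⟩
    · exact hθS
  have hRB : ∀ x : L, IsIntegral (chartAlg O L {j}) x ↔ IsIntegral (Bplus O lam) x := fun x =>
    (isIntegral_chartAlg_iff_adjoin x).trans
      (isIntegral_iff_of_le (hS.adjoin_j_le_Bplus h2L)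
        (fun y hy => hS.isIntegral_of_mem_Bplus h2 hy) x)
  refine fibreRegular_of_hyp_family (maximalIdeal_eq_span hπ)
    (πB := algebraMap O (Bplus O lam) π) θ hθ.isAlgebraic hgenB ?_ rfl
    (range_iff_of_isIntegral_iff hRB)
  intro E _ _ _ _ _ _ _ hgenE
  exact ⟨hπB, exists_basis_lambda N h2 hN hπ.not_isUnit htrO hS hroot hgenE,
    hTL L lam j θ htrK hS hroot E hgenE⟩

/-- `L = K(λ, θ)` is finite over `K(j)`. -/
theorem finiteDimensional_upstairs {lam j θ : L} (hS : Sextic j lam)
    (hroot : evZ j θ (modPoly N) = 0) (hgen : IntermediateField.adjoin K {lam, θ} = ⊤) :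
    FiniteDimensional K⟮j⟯ L :=
  finiteDimensional_of_adjoin_pair (isIntegral_adjoin_of_sextic hS)
    (isIntegral_adjoin_of_modPoly N hroot) hgen

omit [IsDiscreteValuationRing O] in
/-- Noetherianity and fraction field of the localised chart at infinity. -/
theorem chart_inf_props [IsIntegrallyClosed O] [IsNoetherianRing O] {j : L}
    (hj : Transcendental K j) [FiniteDimensional K⟮j⟯ L] (f : chartAlg O L {j⁻¹})
    (hf0 : (f : L) ≠ 0) :
    IsNoetherianRing (chartAlg O L {(f : L)⁻¹, j⁻¹}) ∧
      IsFractionRing (chartAlg O L {(f : L)⁻¹, j⁻¹}) L := by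
  have hjinv : Transcendental K j⁻¹ := fun h => hj (by simpa using h.inv)
  have hL : K⟮j⁻¹⟯ = K⟮j⟯ := by
    apply le_antisymm
    · rw [adjoin_simple_le_iff]
      exact inv_mem (mem_adjoin_simple_self K j)
    · rw [adjoin_simple_le_iff]
      simpa using inv_mem (mem_adjoin_simple_self K j⁻¹)
  haveI : FiniteDimensional K⟮j⁻¹⟯ L := by rw [hL]; infer_instance
  haveI : IsNoetherianRing (chartAlg O L {j⁻¹}) :=
    IntClosure.isNoetherianRing_chartAlg (K := K) j⁻¹ hjinv
  haveI : IsFractionRing (chartAlg O L {j⁻¹}) L :=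
    isFractionRing_chartAlg_singleton (K := K) j⁻¹ hjinv
  constructor
  · letI alg : Algebra (chartAlg O L {j⁻¹}) (chartAlg O L (insert (f : L)⁻¹ {j⁻¹})) :=
      (chartIncl (O := O) (Set.subset_insert (f : L)⁻¹ {j⁻¹})).toRingHom.toAlgebra
    haveI loc : IsLocalization.Away f (chartAlg O L (insert (f : L)⁻¹ {j⁻¹})) :=
      isLocalization_away_chartIncl' f hf0
    exact IsLocalization.isNoetherianRing (Submonoid.powers f) _ inferInstance
  · exact isFractionRing_of_le (chartAlg_mono (Set.subset_insert (f : L)⁻¹ {j⁻¹}))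

/-- **The chart around the cusp `λ' = 0` upstairs**, by Kummer descent from `L(t)`,
`16 t^N = λ`. -/
theorem FR_cusp0_chart [IsAlgClosed (IsLocalRing.ResidueField O)] (hπ : Irreducible π)
    (h2 : IsUnit (2 : O)) (hN : IsUnit ((N : ℕ) : O))
    (hTC : TraceDualCusp O K N π) {ζ : K} (hζ : IsPrimitiveRoot ζ N) {lam j θ : L}
    (hS : Sextic j lam) (hj : Transcendental K j)
    (hroot : evZ j θ (modPoly N) = 0) (hgen : IntermediateField.adjoin K {lam, θ} = ⊤) :
    FibreRegular (chartAlg O L {(u1 lam * uInf lam)⁻¹, j⁻¹}) π := by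
  have h2L : (2 : L) ≠ 0 := isUnit_two_field h2
  have h16 : (16 : L) ≠ 0 := by
    have : (16 : L) = 2 ^ 4 := by norm_num
    rw [this]; exact pow_ne_zero 4 h2L
  have hN0 : N ≠ 0 := NeZero.ne N
  -- the extension `Lc = L(t)`, `16 t^N = λ`
  have hp : (X ^ N - C (lam / 16) : L[X]).degree ≠ 0 := by
    rw [degree_X_pow_sub_C (Nat.pos_of_ne_zero hN0)]
    exact_mod_cast hN0
  obtain ⟨Lc, _, _, _, _, _, _, _, t, ht, hgenc⟩ :=
    exists_root_extension (O := O) (K := K) (X ^ N - C (lam / 16) : L[X]) hp
  haveI : CharZero Lc := charZero_of_injective_algebraMap (algebraMap K Lc).injective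
  haveI : CharZero L := charZero_of_injective_algebraMap (algebraMap K L).injective
  set φ : L →+* Lc := algebraMap L Lc with hφ
  have htN : t ^ N = φ (lam / 16) := by
    rw [map_sub, map_pow, aeval_X, aeval_C, sub_eq_zero] at ht
    exact ht
  have hlam : lamOf t N = φ lam := by
    rw [lamOf_def, htN, map_div₀, map_ofNat, mul_div_cancel₀]
    have : (16 : Lc) = φ 16 := by rw [map_ofNat]
    rw [this]
    exact (map_ne_zero φ).mpr h16
  have h2c : (2 : Lc) ≠ 0 := isUnit_two_field h2
  have hSc : Sextic (φ j) (lamOf t N) := by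
    have := congrArg φ hS
    rw [map_jNum, map_mul, map_jDen] at this
    rw [hlam]
    exact this
  have hjc : Transcendental K (φ j) :=
    (transcendental_algebraMap_iff (algebraMap L Lc).injective).mpr hj
  have hjc0 : φ j ≠ 0 := fun h0 => hjc (h0 ▸ isAlgebraic_zero)
  have hj0 : j ≠ 0 := fun h0 => hj (h0 ▸ isAlgebraic_zero)
  have hrootc : evZ (φ j) (φ θ) (modPoly N) = 0 := by
    rw [← map_evZ, hroot, map_zero]
  have htrK : Transcendental K t := by
    intro halg
    apply hSc.transcendental h2c hjc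
    rw [lamOf_def]
    have h16a : IsAlgebraic K (16 : Lc) := by
      have := isAlgebraic_algebraMap (R := K) (A := Lc) (16 : K)
      rwa [map_ofNat] at this
    exact h16a.mul (halg.pow N)
  have htrO : Transcendental O t := transcendental_base htrK
  obtain ⟨hicl, hnoeth, hprime, hpid⟩ := Bt_props hN0 htrO (span_isMaximal hπ)
  have hπB0 : algebraMap O (Bt O t N) π ≠ 0 := by
    intro h0
    have h1 : algebraMap O Lc π = 0 := congrArg Subtype.val h0
    have h3 : Function.Injective (algebraMap O Lc) := by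
      rw [IsScalarTower.algebraMap_eq O K Lc]
      exact (algebraMap K Lc).injective.comp (IsFractionRing.injective O K)
    exact hπ.ne_zero (h3 (by rw [h1, map_zero]))
  have hπB : Prime (algebraMap O (Bt O t N) π) :=
    (Ideal.span_singleton_prime hπB0).mp hprime
  -- `θ` is algebraic over `B_t`
  have hzB : (φ j)⁻¹ ∈ Bt O t N := hSc.cuspBase_le_Bt h2 hjc0 (inv_j_mem_cuspBase _ _)
  have hθ : IsAlgebraic (Bt O t N) (φ θ) :=
    isAlgebraic_of_inv_mem N (⟨(φ j)⁻¹, hzB⟩ : Bt O t N) (inv_mul_cancel₀ hjc0) hrootc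
  -- generation
  have hgenB : ∀ S : Subfield Lc, (∀ b : Bt O t N, algebraMap (Bt O t N) Lc b ∈ S) →
      φ θ ∈ S → S = ⊤ := by
    intro S hB hθS
    refine hgenc S ?_ (hB ⟨t, t_mem_Bt⟩)
    have htop : S.comap φ = ⊤ := by
      refine subfield_eq_top_of_adjoin (O := O) hgen (S.comap φ) (fun a => ?_) ?_
      · show φ (algebraMap O L a) ∈ S
        rw [hφ, ← IsScalarTower.algebraMap_apply O L Lc]
        exact hB (algebraMap O _ a)
      · rintro x (rfl | rfl)
        · show φ x ∈ S
          rw [← hlam]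
          exact hB ⟨_, lamOf_mem_Bt⟩
        · exact hθS
    intro a
    have : a ∈ S.comap φ := by rw [htop]; exact Subfield.mem_top a
    exact this
  -- the integral closures agree
  set Sc : Set Lc := φ '' {(u1 lam * uInf lam)⁻¹, j⁻¹} with hSc_def
  have hq := hSc.quad_ne_zero h2c hjc0
  have hl1 := hSc.lam_sub_one_ne_zero h2c
  have hu1 : u1 (lamOf t N) ≠ 0 := u1_ne_zero hq hl1
  have huI : uInf (lamOf t N) ≠ 0 := uInf_ne_zero hq
  have himg : Sc = {(u1 (lamOf t N))⁻¹ * (uInf (lamOf t N))⁻¹, (φ j)⁻¹} := by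
    rw [hSc_def, Set.image_pair, map_inv₀, map_inv₀, map_mul, map_u1, map_uInf, ← hlam, mul_inv]
  have hle : Algebra.adjoin O Sc ≤ cuspBase O (φ j) (lamOf t N) := by
    rw [himg]
    apply Algebra.adjoin_le
    rintro x (rfl | rfl)
    · exact mul_mem (inv_u1_mem_cuspBase _ _) (inv_uInf_mem_cuspBase _ _)
    · exact inv_j_mem_cuspBase _ _
  have hfA : (u1 (lamOf t N))⁻¹ * (uInf (lamOf t N))⁻¹ ∈ Algebra.adjoin O Sc :=
    Algebra.subset_adjoin (by rw [himg]; exact Set.mem_insert _ _)
  have hjA : (φ j)⁻¹ ∈ Algebra.adjoin O Sc :=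
    Algebra.subset_adjoin (by rw [himg]; exact Set.mem_insert_of_mem _ rfl)
  have imem : ∀ {y : Lc}, y ∈ Algebra.adjoin O Sc → IsIntegral (Algebra.adjoin O Sc) y :=
    fun {y} hy => isIntegral_algebraMap (R := Algebra.adjoin O Sc) (A := Lc) (x := ⟨y, hy⟩)
  have hint : ∀ x ∈ cuspBase O (φ j) (lamOf t N), IsIntegral (Algebra.adjoin O Sc) x := by
    have hle' : cuspBase O (φ j) (lamOf t N) ≤
        (integralClosure (Algebra.adjoin O Sc) Lc).restrictScalars O := by
      apply Algebra.adjoin_le
      intro y hy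
      simp only [Set.mem_insert_iff, Set.mem_singleton_iff] at hy
      rcases hy with e | e | e
      · rw [e]; exact imem hjA
      · rw [e]
        have : (u1 (lamOf t N))⁻¹ =
            uInf (lamOf t N) * ((u1 (lamOf t N))⁻¹ * (uInf (lamOf t N))⁻¹) := by
          field_simp
        rw [this]
        exact (isIntegral_of_cubic_subalgebra (hSc.uInf_cubic h2c hjc0) hjA).mul (imem hfA)
      · rw [e]
        have : (uInf (lamOf t N))⁻¹ =
            u1 (lamOf t N) * ((u1 (lamOf t N))⁻¹ * (uInf (lamOf t N))⁻¹) := by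
          field_simp
        rw [this]
        exact (isIntegral_of_cubic_subalgebra (hSc.u1_cubic h2c hjc0) hjA).mul (imem hfA)
    exact fun x hx => hle' hx
  have hRB : ∀ x : Lc, IsIntegral (chartAlg O Lc Sc) x ↔ IsIntegral (Bt O t N) x := fun x =>
    ((isIntegral_chartAlg_iff_adjoin x).trans (isIntegral_iff_of_le hle hint x)).trans
      (isIntegral_iff_of_le (hSc.cuspBase_le_Bt h2 hjc0)
        (fun y hy => hSc.isIntegral_of_mem_Bt h2 hjc0 hN0 hy) x)
  have hFRc : FibreRegular (chartAlg O Lc Sc) π := by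
    refine fibreRegular_of_hyp_family (maximalIdeal_eq_span hπ)
      (πB := algebraMap O (Bt O t N) π) (φ θ) hθ hgenB ?_ rfl (range_iff_of_isIntegral_iff hRB)
    intro E _ _ _ _ _ _ _ hgenE
    exact ⟨hπB, exists_basis_cusp N h2 hN hπ.not_isUnit htrO hSc hjc0 hrootc hgenE,
      hTC Lc t (φ j) (φ θ) htrK hSc hrootc E hgenE⟩
  -- the Kummer extension is Galois
  have hζL : IsPrimitiveRoot (algebraMap K L ζ) N :=
    hζ.map_of_injective (algebraMap K L).injective
  obtain ⟨hfd, hgal⟩ := CoverGalois.isGalois_of_pow_eq (F := L) (L := Lc) hN0 hζL htN hgenc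
  -- the chart downstairs
  haveI := finiteDimensional_upstairs N hS hroot hgen
  have hqL := hS.quad_ne_zero h2L hj0
  have hl1L := hS.lam_sub_one_ne_zero h2L
  let b : chartAlg O L {j⁻¹} := ⟨u1 lam, mem_chartAlg_iff.mpr (hS.isIntegral_u1 h2L hj0)⟩
  let c : chartAlg O L {j⁻¹} := ⟨uInf lam, mem_chartAlg_iff.mpr (hS.isIntegral_uInf h2L hj0)⟩
  have hbc0 : ((b * c : chartAlg O L {j⁻¹}) : L) ≠ 0 :=
    mul_ne_zero (u1_ne_zero hqL hl1L) (uInf_ne_zero hqL)
  obtain ⟨hnoethA, hfracA⟩ := chart_inf_props (O := O) (K := K) hj (b * c) hbc0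
  have hbc : ((b * c : chartAlg O L {j⁻¹}) : L) = u1 lam * uInf lam := rfl
  rw [hbc] at hnoethA hfracA
  intro x hx
  have hfin : ({(u1 lam * uInf lam)⁻¹, j⁻¹} : Set L).Finite :=
    (Set.finite_singleton _).insert _
  exact (locSpanAt_chart_of_isGalois (maximalIdeal_eq_span hπ) hfin hFRc x hx).locGenAt

/-- **The chart at infinity upstairs.** -/
theorem FR_inf_chart_lambda [IsAlgClosed (IsLocalRing.ResidueField O)] (hπ : Irreducible π)
    (h2 : IsUnit (2 : O)) (hN : IsUnit ((N : ℕ) : O)) (hTL : TraceDualLambda O K N π)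
    (hTC : TraceDualCusp O K N π) {ζ : K} (hζ : IsPrimitiveRoot ζ N)
    {lam j θ : L} (hS : Sextic j lam) (hj : Transcendental K j)
    (hroot : evZ j θ (modPoly N) = 0) (hgen : IntermediateField.adjoin K {lam, θ} = ⊤) :
    FibreRegular (chartAlg O L {j⁻¹}) π := by
  have h2L : (2 : L) ≠ 0 := isUnit_two_field h2
  have hj0 : j ≠ 0 := fun h0 => hj (h0 ▸ isAlgebraic_zero)
  have hq := hS.quad_ne_zero h2L hj0
  have hl := hS.lam_ne_zero h2L
  have hFR0 := FR_lambda_chart N hπ h2 hN hTL hS hj hroot hgen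
  refine fibreRegular_cusp_chart (maximalIdeal_eq_span hπ) j hj0 hFR0 ?_
  intro 𝔭 h𝔭 hg
  haveI := h𝔭
  let a : chartAlg O L {j⁻¹} := ⟨u0 lam, mem_chartAlg_iff.mpr (hS.isIntegral_u0 h2L hj0)⟩
  let b : chartAlg O L {j⁻¹} := ⟨u1 lam, mem_chartAlg_iff.mpr (hS.isIntegral_u1 h2L hj0)⟩
  let c : chartAlg O L {j⁻¹} := ⟨uInf lam, mem_chartAlg_iff.mpr (hS.isIntegral_uInf h2L hj0)⟩
  have hsum : a + b + c = 2 := Subtype.ext (by
    show u0 lam + u1 lam + uInf lam = ((2 : chartAlg O L {j⁻¹}) : L)
    rw [u_sum hq]; norm_cast)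
  have hpair : a * b + a * c + b * c = 1 := Subtype.ext (u_pair hq)
  have hprod : a * b * c ∈ 𝔭 := by
    have : a * b * c = 256 * chartGen (O := O) (Set.mem_singleton j⁻¹) := Subtype.ext (by
      show u0 lam * u1 lam * uInf lam = ((256 : chartAlg O L {j⁻¹}) : L) * j⁻¹
      rw [hS.u_prod h2L hj0]; norm_cast)
    rw [this]
    exact 𝔭.mul_mem_left _ hg
  rcases cubic_prime_cases hsum hpair 𝔭 hprod with ⟨-, hb, hc⟩ | ⟨-, ha, hc⟩ | ⟨-, ha, hb⟩
  · -- the cusp `λ = 0`
    refine ⟨b * c, fun h => ?_, ?_⟩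
    · rcases h𝔭.mem_or_mem h with h | h
      · exact not_mem_of_sub_one_mem 𝔭 hb h
      · exact not_mem_of_sub_one_mem 𝔭 hc h
    · exact FR_cusp0_chart N hπ h2 hN hTC hζ hS hj hroot hgen
  · -- the cusp `λ = 1`
    refine ⟨a * c, fun h => ?_, ?_⟩
    · rcases h𝔭.mem_or_mem h with h | h
      · exact not_mem_of_sub_one_mem 𝔭 ha h
      · exact not_mem_of_sub_one_mem 𝔭 hc h
    · have hgen' : IntermediateField.adjoin K {1 - lam, θ} = ⊤ := by
        refine adjoin_pair_eq_top_of_mem hgen ?_
        have h1 : (1 - lam) ∈ IntermediateField.adjoin K {1 - lam, θ} :=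
          IntermediateField.subset_adjoin K _ (Set.mem_insert _ _)
        have h3 : 1 - (1 - lam) ∈ IntermediateField.adjoin K {1 - lam, θ} :=
          sub_mem (one_mem _) h1
        rwa [sub_sub_cancel] at h3
      have := FR_cusp0_chart N hπ h2 hN hTC hζ hS.one_sub hj hroot hgen'
      rw [u1_one_sub, uInf_one_sub] at this
      exact this
  · -- the cusp `λ = ∞`
    refine ⟨b * a, fun h => ?_, ?_⟩
    · rcases h𝔭.mem_or_mem h with h | h
      · exact not_mem_of_sub_one_mem 𝔭 hb h
      · exact not_mem_of_sub_one_mem 𝔭 ha h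
    · have hgen' : IntermediateField.adjoin K {lam⁻¹, θ} = ⊤ := by
        refine adjoin_pair_eq_top_of_mem hgen ?_
        have h1 : lam⁻¹ ∈ IntermediateField.adjoin K {lam⁻¹, θ} :=
          IntermediateField.subset_adjoin K _ (Set.mem_insert _ _)
        have h3 : (lam⁻¹)⁻¹ ∈ IntermediateField.adjoin K {lam⁻¹, θ} := inv_mem h1
        rwa [inv_inv] at h3
      have := FR_cusp0_chart N hπ h2 hN hTC hζ (hS.inv h2L) hj hroot hgen'
      rw [u1_inv hl, uInf_inv hl] at this
      exact this

end Field

section Main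

variable {O K F : Type} [CommRing O] [IsDomain O] [IsDiscreteValuationRing O] [Field K]
  [CharZero K] [Algebra O K] [IsFractionRing O K] [Field F] [Algebra O F] [Algebra K F]
  [IsScalarTower O K F] (N : ℕ) [NeZero N] {π : O}

/-- **The rational points of both special fibres of the `j`-line of `F = K(j, θ)`,
`Φ_N(j, θ) = 0`, are regular points**, for a base with algebraically closed residue field in which
`2` and `N` are invertible and which contains the `N`-th roots of unity. -/
theorem LS_charts_odd [IsAlgClosed (IsLocalRing.ResidueField O)] (hπ : Irreducible π)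
    (h2 : IsUnit (2 : O)) (hN : IsUnit ((N : ℕ) : O)) (hTL : TraceDualLambda O K N π)
    (hTC : TraceDualCusp O K N π) {ζ : K} (hζ : IsPrimitiveRoot ζ N)
    {j θ : F} (hj : Transcendental K j) [FiniteDimensional K⟮j⟯ F]
    (hroot : evZ j θ (modPoly N) = 0)
    (hgen : IntermediateField.adjoin K {j, θ} = ⊤) :
    (∀ x : Ideal (chartAlg O F {j}), RatPt π x →
        LocSpanAt (algebraMap O (chartAlg O F {j}) π) x) ∧
      (∀ x : Ideal (chartAlg O F {j⁻¹}), RatPt π x →
        LocSpanAt (algebraMap O (chartAlg O F {j⁻¹}) π) x) := by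
  obtain ⟨L, _, _, _, _, _, _, _, lam, hlam, hgenL⟩ :=
    exists_root_extension (O := O) (K := K) (jNumPoly F - C j * jDenPoly F)
      (degree_sextic_ne_zero hj)
  set φ : F →+* L := algebraMap F L with hφ
  have h2L : (2 : L) ≠ 0 := isUnit_two_field h2
  haveI : CharZero F := charZero_of_injective_algebraMap (algebraMap K F).injective
  have hS : Sextic (φ j) lam := by
    rw [map_sub, map_mul, aeval_C, aeval_jNumPoly, aeval_jDenPoly, sub_eq_zero] at hlam
    exact hlam
  have hjL : Transcendental K (φ j) :=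
    (transcendental_algebraMap_iff (algebraMap F L).injective).mpr hj
  have hrootL : evZ (φ j) (φ θ) (modPoly N) = 0 := by
    rw [← map_evZ, hroot, map_zero]
  have hgenL' : IntermediateField.adjoin K {lam, φ θ} = ⊤ := by
    set M := IntermediateField.adjoin K {lam, φ θ} with hM
    have hlamM : lam ∈ M := IntermediateField.subset_adjoin K _ (Set.mem_insert _ _)
    have hθM : φ θ ∈ M := IntermediateField.subset_adjoin K _ (Set.mem_insert_of_mem _ rfl)
    have hjM : φ j ∈ M := by
      rw [hS.j_eq h2L, jNum_def, jDen_def]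
      refine div_mem (mul_mem ?_ (pow_mem (add_mem (sub_mem (pow_mem hlamM 2) hlamM)
        (one_mem _)) 3)) (mul_mem (pow_mem hlamM 2) (pow_mem (sub_mem hlamM (one_mem _)) 2))
      exact_mod_cast M.natCast_mem 256
    have htop : M.toSubfield.comap φ = ⊤ := by
      refine subfield_eq_top_of_adjoin' hgen _ (fun c => ?_) ?_
      · show φ (algebraMap K F c) ∈ M
        rw [hφ, ← IsScalarTower.algebraMap_apply K F L]
        exact M.algebraMap_mem c
      · rintro x (rfl | rfl)
        · exact hjM
        · exact hθM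
    have h1 := hgenL M.toSubfield (fun a => by
      have : a ∈ M.toSubfield.comap φ := by rw [htop]; exact Subfield.mem_top a
      exact this) hlamM
    rw [eq_top_iff]
    intro x _
    have : x ∈ M.toSubfield := by rw [h1]; exact Subfield.mem_top x
    exact this
  -- `L/F` is Galois
  obtain ⟨hfd, hgal⟩ := CoverGalois.isGalois_of_sextic (F := F) (L := L) hS hgenL
  have hπm := maximalIdeal_eq_span hπ
  have hjinv : Transcendental K j⁻¹ := fun h => hj (by simpa using h.inv)
  have hKL : K⟮j⁻¹⟯ = K⟮j⟯ := by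
    apply le_antisymm
    · rw [adjoin_simple_le_iff]
      exact inv_mem (mem_adjoin_simple_self K j)
    · rw [adjoin_simple_le_iff]
      simpa using inv_mem (mem_adjoin_simple_self K j⁻¹)
  haveI : FiniteDimensional K⟮j⁻¹⟯ F := by rw [hKL]; infer_instance
  haveI : IsNoetherianRing (chartAlg O F {j}) := IntClosure.isNoetherianRing_chartAlg (K := K) j hj
  haveI : IsNoetherianRing (chartAlg O F {j⁻¹}) :=
    IntClosure.isNoetherianRing_chartAlg (K := K) j⁻¹ hjinv
  haveI : IsFractionRing (chartAlg O F {j}) F := isFractionRing_chartAlg_singleton (K := K) j hj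
  haveI : IsFractionRing (chartAlg O F {j⁻¹}) F :=
    isFractionRing_chartAlg_singleton (K := K) j⁻¹ hjinv
  constructor
  · have h1 := FR_lambda_chart N hπ h2 hN hTL hS hjL hrootL hgenL'
    have h1' : FibreRegular (chartAlg O L (algebraMap F L '' {j})) π :=
      fibreRegular_chart_congr (Set.image_singleton).symm h1
    exact fun x hx => locSpanAt_chart_of_isGalois hπm (Set.finite_singleton j) h1' x hx
  · have h1 := FR_inf_chart_lambda N hπ h2 hN hTL hTC hζ hS hjL hrootL hgenL'
    have h1' : FibreRegular (chartAlg O L (algebraMap F L '' {j⁻¹})) π := by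
      refine fibreRegular_chart_congr ?_ h1
      rw [Set.image_singleton, map_inv₀]
    exact fun x hx => locSpanAt_chart_of_isGalois hπm (Set.finite_singleton j⁻¹) h1' x hx

end Main

end Fermat.Agent.N4.SmoothOdd
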