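/-
N4 block Sreg, residue characteristic `2`: the closed points of the special fibres of both charts
of the `j`-line of `F = K(j, θ)`, `Φ_N(j, θ) = 0`, are regular points, for a base discrete
valuation ring `O` with algebraically closed residue field in which `3` and `N` are invertible and
whose fraction field contains the cube roots and the `N`-th roots of unity.

Route: the Hesse line upstairs (`IrreducibleTwo`), the Kummer covers `3 t^N = 1/μ` at the cusps,
and the Katz–Mazur quotient lemma for `Gal(L(t)/L) ≤ μ_N` and `Gal(F(μ)/F) ≤ A_4`.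
-/
import Mathlib
import Fermat.Agent.N4.IrreducibleTwo
import Fermat.Agent.N4.SmoothOdd

set_option autoImplicit false
set_option linter.style.haveILetI false

open Polynomial IntermediateField

namespace Fermat.Agent.N4.SmoothTwo

open Fermat.Agent.N4.EtaleNormalization Fermat.Agent.N4.FibreComponents
  Fermat.Agent.N4.FibreCharts Fermat.Agent.N4.Chart Fermat.Agent.N4.IrreducibleAux
  Fermat.Agent.N4.Hesse Fermat.Agent.N4.Kronecker Fermat.Agent.N4.ModPolyDescent
  Fermat.Agent.N4.TraceDualInputs Fermat.Agent.N4.ChartHyp Fermat.Agent.N4.RootFormBasis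
  Fermat.Agent.N4.IrreducibleOdd Fermat.Agent.N4.IrreducibleTwo Fermat.Agent.N4.SmoothCharts
  Fermat.Agent.N4.SmoothDescent Fermat.Agent.N4.SmoothOdd

section FiniteDim

variable {K L : Type*} [Field K] [Field L] [Algebra K L]

/-- A solution `μ` of the Hesse equation is integral over `K(j)`. -/
theorem isIntegral_adjoin_of_hesseEq [CharZero K] {j m : L} (hH : HesseEq j m) :
    IsIntegral K⟮j⟯ m := by
  haveI : CharZero K⟮j⟯ := charZero_of_injective_algebraMap (algebraMap K K⟮j⟯).injective
  refine IsAlgebraic.isIntegral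
    ⟨jNumHPoly K⟮j⟯ - C (AdjoinSimple.gen K j) * jDenHPoly K⟮j⟯, ?_, ?_⟩
  · intro h0
    have e0 := congrArg (eval 1) h0
    rw [eval_sub, eval_mul, eval_C, eval_jNumHPoly, eval_jDenHPoly, eval_zero, jNumH_def,
      jDenH_def] at e0
    norm_num at e0
  · rw [map_sub, map_mul, aeval_C, aeval_jNumHPoly, aeval_jDenHPoly, AdjoinSimple.algebraMap_gen,
      sub_eq_zero]
    exact hH

end FiniteDim

section Field

variable {O K L : Type} [CommRing O] [IsDomain O] [IsDiscreteValuationRing O] [Field K]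
  [CharZero K] [Algebra O K] [IsFractionRing O K] [Field L] [Algebra O L] [Algebra K L]
  [IsScalarTower O K L] (N : ℕ) [NeZero N] {π : O}

/-- **The finite chart upstairs**: every rational point of its special fibre is regular. -/
theorem FR_hesse_chart (hπ : Irreducible π) (h3 : IsUnit (3 : O)) (hN : IsUnit ((N : ℕ) : O))
    (hTH : TraceDualHesse O K N π) {m j θ : L} (hH : HesseEq j m) (hj : Transcendental K j)
    (hroot : evZ j θ (modPoly N) = 0) (hgen : IntermediateField.adjoin K {m, θ} = ⊤) :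
    FibreRegular (chartAlg O L {j}) π := by
  have h3L : (3 : L) ≠ 0 := isUnit_three_field h3
  haveI : CharZero L := charZero_of_injective_algebraMap (algebraMap K L).injective
  have htrK : Transcendental K m := hH.transcendental h3L hj
  have htrO : Transcendental O m := transcendental_base htrK
  obtain ⟨hicl, hnoeth, hprime, hpid⟩ := BplusH_props htrO (span_isMaximal hπ)
  have hπB0 : algebraMap O (BplusH O m) π ≠ 0 := by
    intro h0
    have h1 : algebraMap O L π = 0 := congrArg Subtype.val h0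
    have h4 : Function.Injective (algebraMap O L) := by
      rw [IsScalarTower.algebraMap_eq O K L]
      exact (algebraMap K L).injective.comp (IsFractionRing.injective O K)
    exact hπ.ne_zero (h4 (by rw [h1, map_zero]))
  have hπB : Prime (algebraMap O (BplusH O m) π) :=
    (Ideal.span_singleton_prime hπB0).mp hprime
  have hjB : j ∈ BplusH O m := hH.j_mem_BplusH h3L
  have hθ : IsIntegral (BplusH O m) θ := by
    refine ⟨(modPoly N).map (evY (⟨j, hjB⟩ : BplusH O m)), (modPoly_monic N).map _, ?_⟩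
    rw [eval₂_map, comp_evY, ← evZ_eq_eval₂_evY]
    exact hroot
  have hgenB : ∀ S : Subfield L, (∀ b : BplusH O m, algebraMap (BplusH O m) L b ∈ S) →
      θ ∈ S → S = ⊤ := by
    intro S hB hθS
    refine subfield_eq_top_of_adjoin (O := O) hgen S (fun a => hB (algebraMap O _ a)) ?_
    rintro x (rfl | rfl)
    · exact hB ⟨x, m_mem_BplusH⟩
    · exact hθS
  have hRB : ∀ x : L, IsIntegral (chartAlg O L {j}) x ↔ IsIntegral (BplusH O m) x := fun x =>
    (isIntegral_chartAlg_iff_adjoin x).trans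
      (isIntegral_iff_of_le (hH.adjoin_j_le_BplusH h3L)
        (fun y hy => hH.isIntegral_of_mem_BplusH h3 hy) x)
  refine fibreRegular_of_hyp_family (maximalIdeal_eq_span hπ)
    (πB := algebraMap O (BplusH O m) π) θ hθ.isAlgebraic hgenB ?_ rfl
    (range_iff_of_isIntegral_iff hRB)
  intro E _ _ _ _ _ _ _ hgenE
  exact ⟨hπB, exists_basis_hesse N h3 hN hπ.not_isUnit htrO hH hroot hgenE,
    hTH L m j θ htrK hH hroot E hgenE⟩

/-- `L = K(μ, θ)` is finite over `K(j)`. -/
theorem finiteDimensional_upstairs_hesse {m j θ : L} (hH : HesseEq j m)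
    (hroot : evZ j θ (modPoly N) = 0) (hgen : IntermediateField.adjoin K {m, θ} = ⊤) :
    FiniteDimensional K⟮j⟯ L :=
  finiteDimensional_of_adjoin_pair (isIntegral_adjoin_of_hesseEq hH)
    (isIntegral_adjoin_of_modPoly N hroot) hgen

/-- **The chart around the cusp `μ' = ∞` upstairs**, by Kummer descent from `L(t)`,
`3 t^N = 1/μ`. -/
theorem FR_cuspH_chart [IsAlgClosed (IsLocalRing.ResidueField O)] (hπ : Irreducible π)
    (h3 : IsUnit (3 : O)) (hN : IsUnit ((N : ℕ) : O))
    (hTC : TraceDualHesseCusp O K N π) {ζ : K} (hζ : IsPrimitiveRoot ζ N) {m j θ : L}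
    (hH : HesseEq j m) (hj : Transcendental K j) (hroot : evZ j θ (modPoly N) = 0)
    (hgen : IntermediateField.adjoin K {m, θ} = ⊤) :
    FibreRegular (chartAlg O L {(pH m)⁻¹, j⁻¹}) π := by
  have h3L : (3 : L) ≠ 0 := isUnit_three_field h3
  have hN0 : N ≠ 0 := NeZero.ne N
  have hj0 : j ≠ 0 := fun h0 => hj (h0 ▸ isAlgebraic_zero)
  have hm0 : m ≠ 0 := hH.ne_zero h3L hj0
  -- the extension `Lc = L(t)`, `3 t^N = 1/μ`
  have hp : (X ^ N - C (m⁻¹ / 3) : L[X]).degree ≠ 0 := by
    rw [degree_X_pow_sub_C (Nat.pos_of_ne_zero hN0)]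
    exact_mod_cast hN0
  obtain ⟨Lc, _, _, _, _, _, _, _, t, ht, hgenc⟩ :=
    exists_root_extension (O := O) (K := K) (X ^ N - C (m⁻¹ / 3) : L[X]) hp
  haveI : CharZero Lc := charZero_of_injective_algebraMap (algebraMap K Lc).injective
  haveI : CharZero L := charZero_of_injective_algebraMap (algebraMap K L).injective
  set φ : L →+* Lc := algebraMap L Lc with hφ
  have h3c : (3 : Lc) ≠ 0 := isUnit_three_field h3
  have htN : t ^ N = φ (m⁻¹ / 3) := by
    rw [map_sub, map_pow, aeval_X, aeval_C, sub_eq_zero] at ht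
    exact ht
  have hs : (sOf t N)⁻¹ = φ m := by
    rw [sOf_def, htN, map_div₀, map_ofNat, mul_div_cancel₀ _ h3c, map_inv₀, inv_inv]
  have hHc : HesseEq (φ j) (sOf t N)⁻¹ := by
    have := congrArg φ hH
    rw [map_jNumH, map_mul, map_jDenH] at this
    rw [hs]
    exact this
  have hjc : Transcendental K (φ j) :=
    (transcendental_algebraMap_iff (algebraMap L Lc).injective).mpr hj
  have hjc0 : φ j ≠ 0 := fun h0 => hjc (h0 ▸ isAlgebraic_zero)
  have hrootc : evZ (φ j) (φ θ) (modPoly N) = 0 := by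
    rw [← map_evZ, hroot, map_zero]
  have htrK : Transcendental K t := by
    intro halg
    apply hHc.transcendental h3c hjc
    rw [sOf_def]
    have h3a : IsAlgebraic K (3 : Lc) := by
      have := isAlgebraic_algebraMap (R := K) (A := Lc) (3 : K)
      rwa [map_ofNat] at this
    exact (h3a.mul (halg.pow N)).inv
  have htrO : Transcendental O t := transcendental_base htrK
  obtain ⟨hicl, hnoeth, hprime, hpid⟩ := BtH_props hN0 htrO (span_isMaximal hπ)
  have hπB0 : algebraMap O (BtH O t N) π ≠ 0 := by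
    intro h0
    have h1 : algebraMap O Lc π = 0 := congrArg Subtype.val h0
    have h4 : Function.Injective (algebraMap O Lc) := by
      rw [IsScalarTower.algebraMap_eq O K Lc]
      exact (algebraMap K Lc).injective.comp (IsFractionRing.injective O K)
    exact hπ.ne_zero (h4 (by rw [h1, map_zero]))
  have hπB : Prime (algebraMap O (BtH O t N) π) :=
    (Ideal.span_singleton_prime hπB0).mp hprime
  have hzB : (φ j)⁻¹ ∈ BtH O t N := hHc.cuspBaseH_le_BtH h3 hjc0 (inv_j_mem_cuspBaseH _ _)
  have hθ : IsAlgebraic (BtH O t N) (φ θ) :=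
    isAlgebraic_of_inv_mem N (⟨(φ j)⁻¹, hzB⟩ : BtH O t N) (inv_mul_cancel₀ hjc0) hrootc
  -- generation
  have hgenB : ∀ S : Subfield Lc, (∀ b : BtH O t N, algebraMap (BtH O t N) Lc b ∈ S) →
      φ θ ∈ S → S = ⊤ := by
    intro S hB hθS
    refine hgenc S ?_ (hB ⟨t, t_mem_BtH⟩)
    have htop : S.comap φ = ⊤ := by
      refine subfield_eq_top_of_adjoin (O := O) hgen (S.comap φ) (fun a => ?_) ?_
      · show φ (algebraMap O L a) ∈ S
        rw [hφ, ← IsScalarTower.algebraMap_apply O L Lc]
        exact hB (algebraMap O _ a)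
      · rintro x (rfl | rfl)
        · show φ x ∈ S
          rw [← hs]
          exact S.inv_mem (hB ⟨_, sOf_mem_BtH⟩)
        · exact hθS
    intro a
    have : a ∈ S.comap φ := by rw [htop]; exact Subfield.mem_top a
    exact this
  -- the integral closures agree
  set Sc : Set Lc := φ '' {(pH m)⁻¹, j⁻¹} with hSc_def
  have himg : Algebra.adjoin O Sc = cuspBaseP O (φ j) (sOf t N)⁻¹ := by
    rw [hSc_def, Set.image_pair, map_inv₀, map_inv₀, map_pH, ← hs, Set.pair_comm]
    rfl
  have hRB : ∀ x : Lc, IsIntegral (chartAlg O Lc Sc) x ↔ IsIntegral (BtH O t N) x := fun x => by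
    rw [isIntegral_chartAlg_iff_adjoin x, himg]
    exact isIntegral_iff_of_le (hHc.cuspBaseP_le_BtH h3 hjc0)
      (fun y hy => hHc.isIntegral_of_mem_BtH_P h3 hjc0 hN0 hy) x
  have hFRc : FibreRegular (chartAlg O Lc Sc) π := by
    refine fibreRegular_of_hyp_family (maximalIdeal_eq_span hπ)
      (πB := algebraMap O (BtH O t N) π) (φ θ) hθ hgenB ?_ rfl (range_iff_of_isIntegral_iff hRB)
    intro E _ _ _ _ _ _ _ hgenE
    exact ⟨hπB, exists_basis_hesse_cusp N h3 hN hπ.not_isUnit htrO hHc hjc0 hrootc hgenE,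
      hTC Lc t (φ j) (φ θ) htrK hHc hrootc E hgenE⟩
  -- the Kummer extension is Galois
  have hζL : IsPrimitiveRoot (algebraMap K L ζ) N :=
    hζ.map_of_injective (algebraMap K L).injective
  obtain ⟨hfd, hgal⟩ := CoverGalois.isGalois_of_pow_eq (F := L) (L := Lc) hN0 hζL htN hgenc
  -- the chart downstairs
  haveI := finiteDimensional_upstairs_hesse N hH hroot hgen
  let a0 : chartAlg O L {j⁻¹} := ⟨pH m, mem_chartAlg_iff.mpr
    (hH.isIntegral_pH_subalgebra h3L hj0 (Algebra.subset_adjoin rfl))⟩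
  have ha0 : ((a0 : chartAlg O L {j⁻¹}) : L) ≠ 0 := by
    show pH m ≠ 0
    rw [pH]
    exact div_ne_zero (hH.cube_sub_one_ne_zero h3L) (hH.cube_add_eight_ne_zero h3L hj0)
  obtain ⟨hnoethA, hfracA⟩ := chart_inf_props (O := O) (K := K) hj a0 ha0
  have ha0' : ((a0 : chartAlg O L {j⁻¹}) : L) = pH m := rfl
  rw [ha0'] at hnoethA hfracA
  intro x hx
  have hfin : ({(pH m)⁻¹, j⁻¹} : Set L).Finite := (Set.finite_singleton _).insert _
  exact (locSpanAt_chart_of_isGalois (maximalIdeal_eq_span hπ) hfin hFRc x hx).locGenAt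

/-- **The chart at infinity upstairs.** -/
theorem FR_inf_chart_hesse [IsAlgClosed (IsLocalRing.ResidueField O)] (hπ : Irreducible π)
    (h3 : IsUnit (3 : O)) (hN : IsUnit ((N : ℕ) : O)) (hTH : TraceDualHesse O K N π)
    (hTC : TraceDualHesseCusp O K N π) {ζN : K} (hζN : IsPrimitiveRoot ζN N)
    {z : K} (hz : z ^ 2 + z + 1 = 0)
    {m j θ : L} (hH : HesseEq j m) (hj : Transcendental K j)
    (hroot : evZ j θ (modPoly N) = 0) (hgen : IntermediateField.adjoin K {m, θ} = ⊤) :
    FibreRegular (chartAlg O L {j⁻¹}) π := by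
  have h3L : (3 : L) ≠ 0 := isUnit_three_field h3
  have hj0 : j ≠ 0 := fun h0 => hj (h0 ▸ isAlgebraic_zero)
  have hFR0 := FR_hesse_chart N hπ h3 hN hTH hH hj hroot hgen
  set ζ : L := algebraMap K L z with hζ
  have hζ2 : ζ ^ 2 + ζ + 1 = 0 := by
    have := congrArg (algebraMap K L) hz
    rwa [map_add, map_add, map_pow, map_one, map_zero] at this
  have hζ3 : ζ ^ 3 = 1 := by linear_combination (ζ - 1) * hζ2
  have hζ6 : (ζ ^ 2) ^ 3 = 1 := by
    rw [← pow_mul, show 2 * 3 = 3 * 2 from rfl, pow_mul, hζ3, one_pow]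
  have hz0 : z ≠ 0 := by
    intro h0
    rw [h0] at hz
    norm_num at hz
  -- the four cusps
  have hH1 : HesseEq j (gH m) := hH.gH h3L
  have hH2 : HesseEq j (gH (ζ * m)) := (hH.mul_root hζ3).gH h3L
  have hH3 : HesseEq j (gH (ζ ^ 2 * m)) := (hH.mul_root hζ6).gH h3L
  have hg1 : IntermediateField.adjoin K {gH m, θ} = ⊤ := by
    have := adjoin_gH_eq_top (1 : K) one_ne_zero (m := m) (θ := θ)
      (by rw [map_one, one_mul]; exact hH.sub_one_ne_zero h3L) h3L hgen
    rwa [map_one, one_mul] at this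
  have hg2 : IntermediateField.adjoin K {gH (ζ * m), θ} = ⊤ :=
    adjoin_gH_eq_top z hz0 ((hH.mul_root hζ3).sub_one_ne_zero h3L) h3L hgen
  have hg3 : IntermediateField.adjoin K {gH (ζ ^ 2 * m), θ} = ⊤ := by
    have := adjoin_gH_eq_top (z ^ 2) (pow_ne_zero 2 hz0) (m := m) (θ := θ)
      (by rw [map_pow]; exact (hH.mul_root hζ6).sub_one_ne_zero h3L) h3L hgen
    rwa [map_pow] at this
  refine fibreRegular_cusp_chart (maximalIdeal_eq_span hπ) j hj0 hFR0 ?_
  intro 𝔭 h𝔭 _
  have hmem : ∀ {m' : L}, HesseEq j m' → pH m' ∈ chartAlg O L {j⁻¹} := fun {m'} h =>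
    mem_chartAlg_iff.mpr (h.isIntegral_pH_subalgebra h3L hj0 (Algebra.subset_adjoin rfl))
  let a0 : chartAlg O L {j⁻¹} := ⟨pH m, hmem hH⟩
  let a1 : chartAlg O L {j⁻¹} := ⟨pH (gH m), hmem hH1⟩
  let a2 : chartAlg O L {j⁻¹} := ⟨pH (gH (ζ * m)), hmem hH2⟩
  let a3 : chartAlg O L {j⁻¹} := ⟨pH (gH (ζ ^ 2 * m)), hmem hH3⟩
  have hsum : a0 + a1 + a2 + a3 = 1 := Subtype.ext (hH.sum_pH h3L hj0 hζ2)
  by_cases h0 : a0 ∈ 𝔭
  · by_cases h1 : a1 ∈ 𝔭
    · by_cases h2 : a2 ∈ 𝔭
      · have h3' : a3 ∉ 𝔭 := by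
          intro h3'
          apply h𝔭.ne_top
          rw [Ideal.eq_top_iff_one, ← hsum]
          exact 𝔭.add_mem (𝔭.add_mem (𝔭.add_mem h0 h1) h2) h3'
        exact ⟨a3, h3', FR_cuspH_chart N hπ h3 hN hTC hζN hH3 hj hroot hg3⟩
      · exact ⟨a2, h2, FR_cuspH_chart N hπ h3 hN hTC hζN hH2 hj hroot hg2⟩
    · exact ⟨a1, h1, FR_cuspH_chart N hπ h3 hN hTC hζN hH1 hj hroot hg1⟩
  · exact ⟨a0, h0, FR_cuspH_chart N hπ h3 hN hTC hζN hH hj hroot hgen⟩

end Field

section Main

variable {O K F : Type} [CommRing O] [IsDomain O] [IsDiscreteValuationRing O] [Field K]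
  [CharZero K] [Algebra O K] [IsFractionRing O K] [Field F] [Algebra O F] [Algebra K F]
  [IsScalarTower O K F] (N : ℕ) [NeZero N] {π : O}

/-- **The rational points of both special fibres of the `j`-line of `F = K(j, θ)`,
`Φ_N(j, θ) = 0`, are regular points**, for a base with algebraically closed residue field in which
`3` and `N` are invertible and which contains the cube roots and the `N`-th roots of unity. -/
theorem LS_charts_two [IsAlgClosed (IsLocalRing.ResidueField O)] (hπ : Irreducible π)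
    (h3 : IsUnit (3 : O)) (hN : IsUnit ((N : ℕ) : O)) (hTH : TraceDualHesse O K N π)
    (hTC : TraceDualHesseCusp O K N π) {ζN : K} (hζN : IsPrimitiveRoot ζN N)
    {z : K} (hz : z ^ 2 + z + 1 = 0)
    {j θ : F} (hj : Transcendental K j) [FiniteDimensional K⟮j⟯ F]
    (hroot : evZ j θ (modPoly N) = 0)
    (hgen : IntermediateField.adjoin K {j, θ} = ⊤) :
    (∀ x : Ideal (chartAlg O F {j}), RatPt π x →
        LocSpanAt (algebraMap O (chartAlg O F {j}) π) x) ∧
      (∀ x : Ideal (chartAlg O F {j⁻¹}), RatPt π x →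
        LocSpanAt (algebraMap O (chartAlg O F {j⁻¹}) π) x) := by
  obtain ⟨L, _, _, _, _, _, _, _, m, hm, hgenL⟩ :=
    exists_root_extension (O := O) (K := K) (jNumHPoly F - C j * jDenHPoly F)
      (degree_hesse_ne_zero hj)
  set φ : F →+* L := algebraMap F L with hφ
  have h3L : (3 : L) ≠ 0 := isUnit_three_field h3
  haveI : CharZero F := charZero_of_injective_algebraMap (algebraMap K F).injective
  have hH : HesseEq (φ j) m := by
    rw [map_sub, map_mul, aeval_C, aeval_jNumHPoly, aeval_jDenHPoly, sub_eq_zero] at hm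
    exact hm
  have hjL : Transcendental K (φ j) :=
    (transcendental_algebraMap_iff (algebraMap F L).injective).mpr hj
  have hjL0 : φ j ≠ 0 := fun h0 => hjL (h0 ▸ isAlgebraic_zero)
  have hrootL : evZ (φ j) (φ θ) (modPoly N) = 0 := by
    rw [← map_evZ, hroot, map_zero]
  have hgenL' : IntermediateField.adjoin K {m, φ θ} = ⊤ := by
    set M := IntermediateField.adjoin K {m, φ θ} with hM
    have hmM : m ∈ M := IntermediateField.subset_adjoin K _ (Set.mem_insert _ _)
    have hθM : φ θ ∈ M := IntermediateField.subset_adjoin K _ (Set.mem_insert_of_mem _ rfl)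
    have hjM : φ j ∈ M := by
      rw [hH.j_eq h3L, jNumH_def, jDenH_def]
      have h27 : (27 : L) ∈ M := by exact_mod_cast M.natCast_mem 27
      have h8 : (8 : L) ∈ M := by exact_mod_cast M.natCast_mem 8
      exact div_mem (mul_mem (mul_mem h27 (pow_mem hmM 3)) (pow_mem (add_mem (pow_mem hmM 3) h8) 3))
        (pow_mem (sub_mem (pow_mem hmM 3) (one_mem _)) 3)
    have htop : M.toSubfield.comap φ = ⊤ := by
      refine subfield_eq_top_of_adjoin' hgen _ (fun c => ?_) ?_
      · show φ (algebraMap K F c) ∈ M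
        rw [hφ, ← IsScalarTower.algebraMap_apply K F L]
        exact M.algebraMap_mem c
      · rintro x (rfl | rfl)
        · exact hjM
        · exact hθM
    have h1 := hgenL M.toSubfield (fun a => by
      have : a ∈ M.toSubfield.comap φ := by rw [htop]; exact Subfield.mem_top a
      exact this) hmM
    rw [eq_top_iff]
    intro x _
    have : x ∈ M.toSubfield := by rw [h1]; exact Subfield.mem_top x
    exact this
  -- `L/F` is Galois
  have hzF : (algebraMap K F z) ^ 2 + algebraMap K F z + 1 = 0 := by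
    have := congrArg (algebraMap K F) hz
    rwa [map_add, map_add, map_pow, map_one, map_zero] at this
  obtain ⟨hfd, hgal⟩ := CoverGalois.isGalois_of_hesseEq (F := F) (L := L) hzF hH hjL0 hgenL
  have hπm := maximalIdeal_eq_span hπ
  have hjinv : Transcendental K j⁻¹ := fun h => hj (by simpa using h.inv)
  have hKL : K⟮j⁻¹⟯ = K⟮j⟯ := by
    apply le_antisymm
    · rw [adjoin_simple_le_iff]
      exact inv_mem (mem_adjoin_simple_self K j)
    · rw [adjoin_simple_le_iff]
      simpa using inv_mem (mem_adjoin_simple_self K j⁻¹)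
  haveI : FiniteDimensional K⟮j⁻¹⟯ F := by rw [hKL]; infer_instance
  haveI : IsNoetherianRing (chartAlg O F {j}) := IntClosure.isNoetherianRing_chartAlg (K := K) j hj
  haveI : IsNoetherianRing (chartAlg O F {j⁻¹}) :=
    IntClosure.isNoetherianRing_chartAlg (K := K) j⁻¹ hjinv
  haveI : IsFractionRing (chartAlg O F {j}) F := isFractionRing_chartAlg_singleton (K := K) j hj
  haveI : IsFractionRing (chartAlg O F {j⁻¹}) F :=
    isFractionRing_chartAlg_singleton (K := K) j⁻¹ hjinv
  constructor
  · have h1 := FR_hesse_chart N hπ h3 hN hTH hH hjL hrootL hgenL'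
    have h1' : FibreRegular (chartAlg O L (algebraMap F L '' {j})) π :=
      fibreRegular_chart_congr (Set.image_singleton).symm h1
    exact fun x hx => locSpanAt_chart_of_isGalois hπm (Set.finite_singleton j) h1' x hx
  · have h1 := FR_inf_chart_hesse N hπ h3 hN hTH hTC hζN hz hH hjL hrootL hgenL'
    have h1' : FibreRegular (chartAlg O L (algebraMap F L '' {j⁻¹})) π := by
      refine fibreRegular_chart_congr ?_ h1
      rw [Set.image_singleton, map_inv₀]
    exact fun x hx => locSpanAt_chart_of_isGalois hπm (Set.finite_singleton j⁻¹) h1' x hx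

end Main

end Fermat.Agent.N4.SmoothTwo
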