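/-
N4 block Sreg, final assembly: **the special fibres of both charts of the `j`-line of the modular
function field `FF K N` over a good base `(K, O, ℓ)` with algebraically closed residue field are
Dedekind domains** (`Setting.SmoothStatement K N O`), when `K` contains the `N`-th roots of unity
(and the cube roots of unity if `ℓ = 2`).

* `ℓ` odd: `SmoothOdd.LS_charts_odd` (Legendre `λ`-line, Kummer covers at the cusps, Katz–Mazur);
* `ℓ = 2`: `SmoothTwo.LS_charts_two` (Hesse line);
* integrality of the fibres: `Irreducible.isPrime_fibreIdeal` (block S28a);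
* `DedekindFibre.isDedekindDomain_quotient` (helper8).
-/
import Mathlib
import Fermat.Agent.N4.SmoothTwo
import Fermat.Agent.N4.Irreducible
import Fermat.Agent.N4.FFAlgClosed
import Fermat.Agent.N4.DedekindFibre

set_option autoImplicit false
set_option linter.style.haveILetI false

open Polynomial IntermediateField

namespace Fermat.Agent.N4.SmoothModel

open Fermat.Agent.N4.Setting Fermat.Agent.N4.FibreComponents Fermat.Agent.N4.Chart
  Fermat.Agent.N4.Kronecker Fermat.Agent.N4.ModPolyDescent Fermat.Agent.N4.ModPolySetting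
  Fermat.Agent.N4.TraceDualInputs Fermat.Agent.N4.Irreducible Fermat.Agent.N4.SmoothCharts
  Fermat.Agent.N4.SmoothDescent

/-- The constants are algebraically closed in the function field. -/
theorem algClosedInFF : AlgClosedInFF :=
  fun K _ _ N _ x hx => FFAlgClosed.algebraic_mem_range K N x hx

section Aux

variable {O F : Type*} [CommRing O] [Field F] [Algebra O F]

/-- A chart with one generator is integral over the subalgebra generated by the generator. -/
theorem isIntegral_adjoin_chartGen (s : F) (a : chartAlg O F {s}) :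
    IsIntegral (Algebra.adjoin O {chartGen (O := O) (Set.mem_singleton s)}) a := by
  let ι : Algebra.adjoin O ({s} : Set F) →ₐ[O] chartAlg O F {s} :=
    Subalgebra.inclusion (adjoin_le_chartAlg {s})
  have hmap : (Algebra.adjoin O {chartGen (O := O) (Set.mem_singleton s)}).map
      (chartAlg O F {s}).val = Algebra.adjoin O ({s} : Set F) := by
    rw [AlgHom.map_adjoin, Set.image_singleton]
    rfl
  have hmem : ∀ c : Algebra.adjoin O ({s} : Set F),
      ι c ∈ Algebra.adjoin O {chartGen (O := O) (Set.mem_singleton s)} := by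
    intro c
    have hc : (c : F) ∈ (Algebra.adjoin O {chartGen (O := O) (Set.mem_singleton s)}).map
        (chartAlg O F {s}).val := by rw [hmap]; exact c.2
    obtain ⟨c', hc', hcc'⟩ := Subalgebra.mem_map.mp hc
    have : ι c = c' := Subtype.ext hcc'.symm
    rw [this]
    exact hc'
  let g : Algebra.adjoin O ({s} : Set F) →+*
      Algebra.adjoin O {chartGen (O := O) (Set.mem_singleton s)} :=
    ι.toRingHom.codRestrict
      (Algebra.adjoin O {chartGen (O := O) (Set.mem_singleton s)}).toSubring hmem
  letI : Algebra (Algebra.adjoin O ({s} : Set F)) (chartAlg O F {s}) := ι.toRingHom.toAlgebra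
  haveI : IsScalarTower (Algebra.adjoin O ({s} : Set F)) (chartAlg O F {s}) F :=
    IsScalarTower.of_algebraMap_eq fun c => rfl
  have h1 : IsIntegral (Algebra.adjoin O ({s} : Set F)) (algebraMap (chartAlg O F {s}) F a) := a.2
  have h2 : IsIntegral (Algebra.adjoin O ({s} : Set F)) a :=
    (isIntegral_algebraMap_iff (Subtype.val_injective)).mp h1
  have h3 := h2.map_of_comp_eq g (RingHom.id (chartAlg O F {s})) (by ext c; rfl)
  simpa using h3

end Aux

section Generic

variable {O : Type*} [CommRing O] [IsLocalRing O] [IsAlgClosed (IsLocalRing.ResidueField O)]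
  {L : Type*} [Field L] [Algebra O L] {π : O}

/-- **The special fibre of a one-generator chart is a Dedekind domain** as soon as it is integral
and regular at its rational points (base with algebraically closed residue field). -/
theorem isDedekindDomain_chart_quotient (hπ : IsLocalRing.maximalIdeal O = Ideal.span {π})
    (hmax : (Ideal.span {π}).IsMaximal) (s : L) [IsNoetherianRing (chartAlg O L {s})]
    (hprime : (Ideal.span {algebraMap O (chartAlg O L {s}) π}).IsPrime)
    (hLS : ∀ x : Ideal (chartAlg O L {s}), RatPt π x →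
      LocSpanAt (algebraMap O (chartAlg O L {s}) π) x) :
    IsDedekindDomain (chartAlg O L {s} ⧸ Ideal.span {algebraMap O (chartAlg O L {s}) π}) := by
  refine DedekindFibre.isDedekindDomain_quotient π hmax
    (chartGen (O := O) (Set.mem_singleton s)) (isIntegral_adjoin_chartGen s) hprime ?_
  intro x hxmax hπx
  haveI := hxmax
  exact hLS x (ratPt_of_isMaximal hπ (Set.finite_singleton _) x hπx)

end Generic

section Main

variable (K : Type) [Field K] [CharZero K] [Algebra.IsAlgebraic ℚ K] (N : ℕ) [NeZero N]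
  (O : Subring K) [IsDiscreteValuationRing ↥O] [IsAlgClosed (IsLocalRing.ResidueField ↥O)]
  {ℓ : ℕ}

/-- **(S): both special fibres are Dedekind domains.** -/
theorem smoothStatement (hG : GoodBase K N O ℓ) (hζ : ∃ ζ : K, IsPrimitiveRoot ζ N)
    (hω : ℓ = 2 → ∃ z : K, z ^ 2 + z + 1 = 0) : SmoothStatement K N O := by
  haveI := hG.frac
  obtain ⟨ϖ, hϖ⟩ := IsDiscreteValuationRing.exists_irreducible ↥O
  obtain ⟨ζ, hζ⟩ := hζ
  let κ : K →+* ℂ := (IsAlgClosed.lift (R := ℚ) (S := K) (M := ℂ)).toRingHom
  have hN : IsUnit ((N : ℕ) : ↥O) := isUnit_natCast_of_not_dvd hG hG.not_dvd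
  have hj : Transcendental K (jF K N) := FFAlgebraic.transcendental_jF K N
  have hroot := evZ_modPoly_FF K N
  have hgen := adjoin_jF_jNF_eq_top K N
  haveI : FiniteDimensional K⟮jF K N⟯ (FF K N) := finiteDimensional_FF K N
  have hLS : (∀ x : Ideal (chartAlg ↥O (FF K N) {jF K N}), RatPt ϖ x →
        LocSpanAt (algebraMap ↥O (chartAlg ↥O (FF K N) {jF K N}) ϖ) x) ∧
      (∀ x : Ideal (chartAlg ↥O (FF K N) {(jF K N)⁻¹}), RatPt ϖ x →
        LocSpanAt (algebraMap ↥O (chartAlg ↥O (FF K N) {(jF K N)⁻¹}) ϖ) x) := by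
    by_cases h2 : ℓ = 2
    · obtain ⟨z, hz⟩ := hω h2
      have h3 : IsUnit (3 : ↥O) := by
        have := isUnit_natCast_of_not_dvd hG (m := 3) (by rw [h2]; norm_num)
        exact_mod_cast this
      exact SmoothTwo.LS_charts_two N hϖ h3 hN (Char0.traceDualHesse N hϖ κ)
        (Char0.traceDualHesseCusp N hϖ κ) hζ hz hj hroot hgen
    · have h2' : IsUnit (2 : ↥O) := by
        have := isUnit_natCast_of_not_dvd hG (m := 2) (by
          intro hd
          exact h2 ((Nat.prime_dvd_prime_iff_eq hG.prime Nat.prime_two).mp hd))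
        exact_mod_cast this
      exact SmoothOdd.LS_charts_odd N hϖ h2' hN (Char0.traceDualLambda N hϖ κ)
        (Char0.traceDualCusp N hϖ κ) hζ hj hroot hgen
  have hP := isPrime_fibreIdeal K N O algClosedInFF hG hω
  rw [FibreEmbedding.fibreIdeal_eq_span K N O hϖ, FibreEmbedding.fibreIdeal_eq_span K N O hϖ] at hP
  have hπm := SmoothOdd.maximalIdeal_eq_span hϖ
  have hmax : (Ideal.span {ϖ}).IsMaximal := IrreducibleOdd.span_isMaximal hϖ
  have hjinv : Transcendental K (jF K N)⁻¹ := fun h => hj (by simpa using h.inv)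
  have hKL : K⟮(jF K N)⁻¹⟯ = K⟮jF K N⟯ := by
    apply le_antisymm
    · rw [adjoin_simple_le_iff]
      exact inv_mem (mem_adjoin_simple_self K (jF K N))
    · rw [adjoin_simple_le_iff]
      simpa using inv_mem (mem_adjoin_simple_self K (jF K N)⁻¹)
  haveI : FiniteDimensional K⟮(jF K N)⁻¹⟯ (FF K N) := by rw [hKL]; infer_instance
  haveI : IsNoetherianRing (chartAlg ↥O (FF K N) {jF K N}) :=
    IntClosure.isNoetherianRing_chartAlg (K := K) (jF K N) hj
  haveI : IsNoetherianRing (chartAlg ↥O (FF K N) {(jF K N)⁻¹}) :=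
    IntClosure.isNoetherianRing_chartAlg (K := K) (jF K N)⁻¹ hjinv
  have hD1 : IsDedekindDomain (Rfin K N O ⧸ Ideal.span {algebraMap ↥O (Rfin K N O) ϖ}) :=
    isDedekindDomain_chart_quotient hπm hmax (jF K N) hP.1 hLS.1
  have hD2 : IsDedekindDomain (Rinf K N O ⧸ Ideal.span {algebraMap ↥O (Rinf K N O) ϖ}) :=
    isDedekindDomain_chart_quotient hπm hmax (jF K N)⁻¹ hP.2 hLS.2
  have e1 := FibreEmbedding.fibreIdeal_eq_span K N O hϖ (Rfin K N O)
  have e2 := FibreEmbedding.fibreIdeal_eq_span K N O hϖ (Rinf K N O)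
  refine ⟨?_, ?_⟩
  · rw [e1]; exact hD1
  · rw [e2]; exact hD2

end Main

/-- The deliverable of block Sreg: `SmoothTarget` for bases containing the `N`-th roots of unity
(and the cube roots of unity at `ℓ = 2`). -/
def SmoothTargetRoots : Prop :=
  ∀ (K : Type) [Field K] [CharZero K] [Algebra.IsAlgebraic ℚ K] (N : ℕ) [NeZero N] (O : Subring K)
    [IsDiscreteValuationRing ↥O] [IsAlgClosed (IsLocalRing.ResidueField ↥O)] (ℓ : ℕ),
    GoodBase K N O ℓ → (∃ ζ : K, IsPrimitiveRoot ζ N) →
    (ℓ = 2 → ∃ z : K, z ^ 2 + z + 1 = 0) → SmoothStatement K N O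

theorem smoothTargetRoots : SmoothTargetRoots :=
  fun K _ _ _ N _ O _ _ _ hG hζ hω => smoothStatement K N O hG hζ hω

/-- The deliverable of block S28a, unconditionally. -/
theorem starTargetOmega : StarTargetOmega := Irreducible.starTargetOmega algClosedInFF

end Fermat.Agent.N4.SmoothModel
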