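/-
N4, block M (helper10), part 8 (package T-B of helper13): the chart rings over the two bases `R`
(a discrete valuation ring with uniformiser `ϖ`) and `K = Frac R`.

For `B = R[s] ⊆ L` and `A₀ = K[s] ⊆ L` (same generating set `s`):
* `algBA` : the inclusion `B → A₀` as an algebra structure, `IsScalarTower B A₀ L`,
  `IsLocalization.Away (algebraMap R B ϖ) A₀` (`A₀ = B[1/ϖ]`);
for `A₀ = K[x, 1/g(x)]`, `x` transcendental over `K`:
* `algPolyA` : the `K[X]`-algebra structure `X ↦ x` on `A₀`, `IsLocalization.Away g A₀`; hence `A₀`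
  is a principal ideal domain and a Dedekind domain.
Then the same for the four chart rings `Bplus`, `Bt`, `BplusH`, `BtH`, together with their ring
properties over a discrete valuation ring.
-/
import Mathlib
import Fermat.Agent.N4.SeriesEmbed

set_option autoImplicit false
set_option linter.unusedSectionVars false
set_option linter.style.haveILetI false

namespace Fermat.Agent.N4.TwoBase

open Polynomial

/-! ### `A₀ = B[1/ϖ]` -/

section BA

variable {R K L : Type*} [CommRing R] [Field K] [Algebra R K] [Field L] [Algebra R L]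
  [Algebra K L] [IsScalarTower R K L]

/-- `R[s] ⊆ K[s]`. -/
theorem adjoin_le_adjoin (s : Set L) {b : L} (hb : b ∈ Algebra.adjoin R s) :
    b ∈ Algebra.adjoin K s := by
  have h : Algebra.adjoin R s ≤ (Algebra.adjoin K s).restrictScalars R :=
    Algebra.adjoin_le (fun x hx => Algebra.subset_adjoin (R := K) hx)
  exact h hb

/-- The inclusion of an `R`-subalgebra into a `K`-subalgebra containing it. -/
def inclHom (B : Subalgebra R L) (A₀ : Subalgebra K L) (h : ∀ b ∈ B, b ∈ A₀) : B →+* A₀ where
  toFun b := ⟨b.1, h b.1 b.2⟩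
  map_one' := rfl
  map_mul' _ _ := rfl
  map_zero' := rfl
  map_add' _ _ := rfl

@[simp] theorem coe_inclHom (B : Subalgebra R L) (A₀ : Subalgebra K L) (h : ∀ b ∈ B, b ∈ A₀)
    (b : B) : ((inclHom B A₀ h b : A₀) : L) = b := rfl

theorem inclHom_injective (B : Subalgebra R L) (A₀ : Subalgebra K L) (h : ∀ b ∈ B, b ∈ A₀) :
    Function.Injective (inclHom B A₀ h) := by
  intro a b hab
  apply Subtype.ext
  have := congrArg (fun z : A₀ => (z : L)) hab
  exact this

/-- The algebra structure `B → A₀` (inclusion). -/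
@[reducible] def algBA (B : Subalgebra R L) (A₀ : Subalgebra K L) (h : ∀ b ∈ B, b ∈ A₀) :
    Algebra B A₀ := (inclHom B A₀ h).toAlgebra

theorem algebraMap_BA (B : Subalgebra R L) (A₀ : Subalgebra K L) (h : ∀ b ∈ B, b ∈ A₀) (b : B) :
    letI := algBA B A₀ h
    ((algebraMap B A₀ b : A₀) : L) = b := rfl

theorem isScalarTower_BA (B : Subalgebra R L) (A₀ : Subalgebra K L) (h : ∀ b ∈ B, b ∈ A₀) :
    letI := algBA B A₀ h
    IsScalarTower B A₀ L :=
  letI := algBA B A₀ h
  IsScalarTower.of_algebraMap_eq (fun _ => rfl)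

theorem isScalarTower_RBA (B : Subalgebra R L) (A₀ : Subalgebra K L) (h : ∀ b ∈ B, b ∈ A₀) :
    letI := algBA B A₀ h
    IsScalarTower R B A₀ :=
  letI := algBA B A₀ h
  IsScalarTower.of_algebraMap_eq (fun _ => rfl)

variable [IsDomain R] [IsDiscreteValuationRing R] [IsFractionRing R K]

/-- `K = R[1/ϖ]`, elementwise. -/
theorem exists_pow_mul_eq {ϖ : R} (hϖ : Irreducible ϖ) (c : K) :
    ∃ (n : ℕ) (a : R), algebraMap R K (ϖ ^ n) * c = algebraMap R K a := by
  obtain ⟨a, b, hb, rfl⟩ := IsFractionRing.div_surjective (A := R) c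
  have hb0 : b ≠ 0 := nonZeroDivisors.ne_zero hb
  obtain ⟨n, u, hu⟩ := IsDiscreteValuationRing.eq_unit_mul_pow_irreducible hb0 hϖ
  refine ⟨n, a * ((u⁻¹ : Rˣ) : R), ?_⟩
  have hbK : algebraMap R K b ≠ 0 := by
    simpa using (IsFractionRing.injective R K).ne hb0
  rw [mul_div_assoc', eq_comm, eq_div_iff hbK, ← map_mul, ← map_mul, hu]
  congr 1
  calc a * ((u⁻¹ : Rˣ) : R) * ((u : R) * ϖ ^ n) = a * ϖ ^ n * (((u⁻¹ : Rˣ) : R) * (u : R)) := by
        ring
    _ = ϖ ^ n * a := by rw [Units.inv_mul, mul_one, mul_comm]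

/-- Clearing denominators in `K[s]`. -/
theorem exists_pow_mul_mem {ϖ : R} (hϖ : Irreducible ϖ) (s : Set L) {z : L}
    (hz : z ∈ Algebra.adjoin K s) :
    ∃ n : ℕ, algebraMap R L (ϖ ^ n) * z ∈ Algebra.adjoin R s := by
  induction hz using Algebra.adjoin_induction with
  | mem x hx => exact ⟨0, by rw [pow_zero, map_one, one_mul]; exact Algebra.subset_adjoin hx⟩
  | algebraMap c =>
    obtain ⟨n, a, ha⟩ := exists_pow_mul_eq hϖ c
    refine ⟨n, ?_⟩
    rw [IsScalarTower.algebraMap_apply R K L, ← map_mul, ha, ← IsScalarTower.algebraMap_apply]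
    exact Subalgebra.algebraMap_mem _ a
  | add x y _ _ hx hy =>
    obtain ⟨n, hn⟩ := hx
    obtain ⟨m, hm⟩ := hy
    refine ⟨n + m, ?_⟩
    have e : algebraMap R L (ϖ ^ (n + m)) * (x + y) =
        algebraMap R L (ϖ ^ m) * (algebraMap R L (ϖ ^ n) * x) +
          algebraMap R L (ϖ ^ n) * (algebraMap R L (ϖ ^ m) * y) := by
      rw [pow_add, map_mul]; ring
    rw [e]
    exact add_mem (mul_mem (Subalgebra.algebraMap_mem _ _) hn)
      (mul_mem (Subalgebra.algebraMap_mem _ _) hm)
  | mul x y _ _ hx hy =>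
    obtain ⟨n, hn⟩ := hx
    obtain ⟨m, hm⟩ := hy
    refine ⟨n + m, ?_⟩
    have e : algebraMap R L (ϖ ^ (n + m)) * (x * y) =
        (algebraMap R L (ϖ ^ n) * x) * (algebraMap R L (ϖ ^ m) * y) := by
      rw [pow_add, map_mul]; ring
    rw [e]
    exact mul_mem hn hm

/-- **`A₀ = B[1/ϖ]`** for `B = R[s]`, `A₀ = K[s]`. -/
theorem isLocalization_away_BA {ϖ : R} (hϖ : Irreducible ϖ) (s : Set L)
    (B : Subalgebra R L) (A₀ : Subalgebra K L) (hB : B = Algebra.adjoin R s)
    (hA : A₀ = Algebra.adjoin K s) (h : ∀ b ∈ B, b ∈ A₀) :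
    letI := algBA B A₀ h
    IsLocalization.Away (algebraMap R B ϖ) A₀ := by
  letI := algBA B A₀ h
  have hϖL : algebraMap R L ϖ ≠ 0 := by
    rw [IsScalarTower.algebraMap_apply R K L]
    have : algebraMap R K ϖ ≠ 0 := by
      simpa using (IsFractionRing.injective R K).ne hϖ.ne_zero
    simpa using this
  rw [IsLocalization.Away, isLocalization_iff]
  refine ⟨?_, ?_, ?_⟩
  · rintro ⟨_, n, rfl⟩
    have hu : IsUnit (algebraMap K A₀ (algebraMap R K (ϖ ^ n))) := by
      apply IsUnit.map
      rw [isUnit_iff_ne_zero, map_pow]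
      apply pow_ne_zero
      simpa using (IsFractionRing.injective R K).ne hϖ.ne_zero
    convert hu using 1
    apply Subtype.ext
    show ((algebraMap R B ϖ ^ n : B) : L) = algebraMap K L (algebraMap R K (ϖ ^ n))
    rw [← IsScalarTower.algebraMap_apply, map_pow]
    rfl
  · intro z
    have hz : (z : L) ∈ Algebra.adjoin K s := hA ▸ z.2
    obtain ⟨n, hn⟩ := exists_pow_mul_mem hϖ s hz
    refine ⟨(⟨algebraMap R L (ϖ ^ n) * z, hB ▸ hn⟩,
      ⟨algebraMap R B ϖ ^ n, n, rfl⟩), ?_⟩
    apply Subtype.ext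
    show (z : L) * ((algebraMap R B ϖ ^ n : B) : L) = algebraMap R L (ϖ ^ n) * z
    rw [mul_comm, map_pow]
    rfl
  · intro a b hab
    exact ⟨1, by rw [inclHom_injective B A₀ h hab]⟩

end BA

/-! ### `A₀ = K[X][1/g]` -/

section PolyA

variable {K L : Type*} [Field K] [Field L] [Algebra K L]

/-- The `K[X]`-algebra structure `X ↦ x` on a subalgebra `A₀ ∋ x`. -/
@[reducible] noncomputable def algPolyA (A₀ : Subalgebra K L) (x : L) (hx : x ∈ A₀) :
    Algebra K[X] A₀ :=
  ((aeval (⟨x, hx⟩ : A₀) : K[X] →ₐ[K] A₀) : K[X] →+* A₀).toAlgebra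

theorem algebraMap_polyA (A₀ : Subalgebra K L) (x : L) (hx : x ∈ A₀) (p : K[X]) :
    letI := algPolyA A₀ x hx
    ((algebraMap K[X] A₀ p : A₀) : L) = aeval x p := by
  letI := algPolyA A₀ x hx
  show ((aeval (⟨x, hx⟩ : A₀) p : A₀) : L) = aeval x p
  rw [← Subalgebra.coe_val, ← aeval_algHom_apply]
  rfl

theorem algebraMap_polyA_X (A₀ : Subalgebra K L) (x : L) (hx : x ∈ A₀) :
    letI := algPolyA A₀ x hx
    algebraMap K[X] A₀ X = ⟨x, hx⟩ := by
  letI := algPolyA A₀ x hx
  show aeval (⟨x, hx⟩ : A₀) X = _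
  rw [aeval_X]

theorem isScalarTower_polyA (A₀ : Subalgebra K L) (x : L) (hx : x ∈ A₀) :
    letI := algPolyA A₀ x hx
    IsScalarTower K K[X] A₀ :=
  letI := algPolyA A₀ x hx
  IsScalarTower.of_algebraMap_eq (fun c => by
    show algebraMap K A₀ c = aeval (⟨x, hx⟩ : A₀) (C c)
    rw [aeval_C])

/-- **`A₀ = K[X][1/g]`** for `A₀ = K[x, 1/g(x)]`, `x` transcendental over `K`. -/
theorem isLocalization_away_polyA (g : K[X]) (hg : g ≠ 0) (x : L) (htr : Transcendental K x)
    (A₀ : Subalgebra K L) (hA : A₀ = Algebra.adjoin K {x, (aeval x g)⁻¹}) (hx : x ∈ A₀) :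
    letI := algPolyA A₀ x hx
    IsLocalization.Away g A₀ := by
  letI := algPolyA A₀ x hx
  subst hA
  have hgx : aeval x g ≠ 0 := fun h =>
    hg ((transcendental_iff_injective.mp htr) (by rw [h, map_zero]))
  let e := PolyAway.equivAdjoin g x hgx htr
  let e' : Localization.Away g ≃ₐ[K[X]] Algebra.adjoin K {x, (aeval x g)⁻¹} :=
    AlgEquiv.ofRingEquiv (f := e.toRingEquiv) (fun p => by
      apply Subtype.ext
      rw [algebraMap_polyA]
      show ((e (algebraMap K[X] (Localization.Away g) p) : Algebra.adjoin K _) : L) = _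
      rw [PolyAway.coe_equivAdjoin, PolyAway.liftField_algebraMap])
  exact IsLocalization.isLocalization_of_algEquiv (Submonoid.powers g) e'

theorem isPrincipalIdealRing_polyA (g : K[X]) (hg : g ≠ 0) (x : L) (htr : Transcendental K x)
    (A₀ : Subalgebra K L) (hA : A₀ = Algebra.adjoin K {x, (aeval x g)⁻¹}) :
    IsPrincipalIdealRing A₀ := by
  have hx : x ∈ A₀ := hA ▸ Algebra.subset_adjoin (by simp)
  letI := algPolyA A₀ x hx
  haveI := isLocalization_away_polyA g hg x htr A₀ hA hx
  exact PolyAway.isPrincipalIdealRing_of_isLocalization (Submonoid.powers g) A₀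

theorem isDedekindDomain_polyA (g : K[X]) (hg : g ≠ 0) (x : L) (htr : Transcendental K x)
    (A₀ : Subalgebra K L) (hA : A₀ = Algebra.adjoin K {x, (aeval x g)⁻¹}) :
    IsDedekindDomain A₀ := by
  haveI := isPrincipalIdealRing_polyA g hg x htr A₀ hA
  infer_instance

end PolyA

/-! ### The four chart rings over `R ⊆ K` -/

section Charts

open Fermat.Agent.N4.Lambda Fermat.Agent.N4.Hesse

variable (R K : Type*) {L : Type*} [CommRing R] [IsDomain R] [Field K] [Algebra R K]
  [IsFractionRing R K] [Field L] [Algebra R L] [Algebra K L] [IsScalarTower R K L]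

include K in
theorem algebraMap_RL_injective : Function.Injective (algebraMap R L) := by
  rw [IsScalarTower.algebraMap_eq R K L]
  exact (algebraMap K L).injective.comp (IsFractionRing.injective R K)

variable {K} in
/-- Transcendence over `K` implies transcendence over `R`. -/
theorem transcendental_base {x : L} (htr : Transcendental K x) : Transcendental R x :=
  htr.restrictScalars (IsFractionRing.injective R K)

theorem span_isMaximal_of_irreducible [IsDiscreteValuationRing R] {ϖ : R} (hϖ : Irreducible ϖ) :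
    (Ideal.span {ϖ}).IsMaximal := by
  rw [← (IsDiscreteValuationRing.irreducible_iff_uniformizer ϖ).mp hϖ]
  infer_instance

include K in
theorem prime_of_span_isPrime {B : Subalgebra R L} {ϖ : R} (hϖ0 : ϖ ≠ 0)
    (h : (Ideal.span {algebraMap R B ϖ}).IsPrime) : Prime (algebraMap R B ϖ) := by
  refine (Ideal.span_singleton_prime ?_).mp h
  intro h0
  apply hϖ0
  apply algebraMap_RL_injective R K (L := L)
  have := congrArg (fun z : B => (z : L)) h0
  simpa using this

/-! #### `Bplus` -/

section BplusS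

variable {lam : L}

theorem Bplus_le {b : L} (hb : b ∈ Bplus R lam) : b ∈ Bplus K lam :=
  adjoin_le_adjoin _ hb

/-- The inclusion `Bplus R lam → Bplus K lam` as an algebra structure. -/
@[reducible] def algBplus (lam : L) : Algebra (Bplus R lam) (Bplus K lam) :=
  algBA (Bplus R lam) (Bplus K lam) (fun _ hb => Bplus_le R K hb)

theorem isScalarTower_Bplus (lam : L) :
    letI := algBplus R K lam
    IsScalarTower (Bplus R lam) (Bplus K lam) L :=
  isScalarTower_BA _ _ _

theorem isLocalization_away_Bplus [IsDiscreteValuationRing R] {ϖ : R} (hϖ : Irreducible ϖ)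
    (lam : L) :
    letI := algBplus R K lam
    IsLocalization.Away (algebraMap R (Bplus R lam) ϖ) (Bplus K lam) :=
  isLocalization_away_BA hϖ _ _ _ rfl rfl _

/-- The `K[X]`-algebra structure `X ↦ λ` on `Bplus K lam`. -/
@[reducible] noncomputable def algPolyBplus (lam : L) : Algebra K[X] (Bplus K lam) :=
  algPolyA (Bplus K lam) lam lam_mem_Bplus

theorem lamDen_ne_zero : lamDen K ≠ 0 := by
  intro h
  have : (lamDen K).coeff 2 = 1 := by
    rw [lamDen]
    have e : (X * (X - 1) : K[X]) = X ^ 2 - X := by ring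
    rw [e, coeff_sub, coeff_X_pow, coeff_X]
    norm_num
  rw [h, coeff_zero] at this
  exact zero_ne_one this

theorem map_lamDen : (lamDen R).map (algebraMap R K) = lamDen K := by
  simp only [lamDen, Polynomial.map_mul, Polynomial.map_sub, Polynomial.map_X, Polynomial.map_one]

variable {K} in
theorem isLocalization_away_polyBplus (htr : Transcendental K lam) :
    letI := algPolyBplus K lam
    IsLocalization.Away (lamDen K) (Bplus K lam) :=
  isLocalization_away_polyA (lamDen K) (lamDen_ne_zero K) lam htr _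
    (Bplus_eq (ne_zero_of_transcendental htr) (sub_one_ne_zero_of_transcendental htr)) _

variable {K} in
theorem isPrincipalIdealRing_Bplus (htr : Transcendental K lam) :
    IsPrincipalIdealRing (Bplus K lam) :=
  isPrincipalIdealRing_polyA (lamDen K) (lamDen_ne_zero K) lam htr _
    (Bplus_eq (ne_zero_of_transcendental htr) (sub_one_ne_zero_of_transcendental htr))

variable {K} in
theorem isDedekindDomain_Bplus (htr : Transcendental K lam) : IsDedekindDomain (Bplus K lam) :=
  isDedekindDomain_polyA (lamDen K) (lamDen_ne_zero K) lam htr _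
    (Bplus_eq (ne_zero_of_transcendental htr) (sub_one_ne_zero_of_transcendental htr))

variable {K} in
/-- Ring properties of `Bplus R lam` over a discrete valuation ring. -/
theorem Bplus_props_dvr [IsDiscreteValuationRing R] (htr : Transcendental K lam) {ϖ : R}
    (hϖ : Irreducible ϖ) :
    IsIntegrallyClosed (Bplus R lam) ∧ IsNoetherianRing (Bplus R lam) ∧
      Prime (algebraMap R (Bplus R lam) ϖ) ∧
      IsPrincipalIdealRing (Bplus R lam ⧸ Ideal.span {algebraMap R (Bplus R lam) ϖ}) := by
  obtain ⟨h1, h2, h3, h4⟩ := Bplus_props (transcendental_base R htr)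
    (span_isMaximal_of_irreducible R hϖ)
  exact ⟨h1, h2, prime_of_span_isPrime R K hϖ.ne_zero h3, h4⟩

end BplusS

/-! #### `Bt` -/

section BtS

variable {t : L} {N : ℕ}

theorem Bt_le {b : L} (hb : b ∈ Bt R t N) : b ∈ Bt K t N :=
  adjoin_le_adjoin _ hb

/-- The inclusion `Bt R t N → Bt K t N` as an algebra structure. -/
@[reducible] def algBt (t : L) (N : ℕ) : Algebra (Bt R t N) (Bt K t N) :=
  algBA (Bt R t N) (Bt K t N) (fun _ hb => Bt_le R K hb)

theorem isScalarTower_Bt (t : L) (N : ℕ) :
    letI := algBt R K t N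
    IsScalarTower (Bt R t N) (Bt K t N) L :=
  isScalarTower_BA _ _ _

theorem isLocalization_away_Bt [IsDiscreteValuationRing R] {ϖ : R} (hϖ : Irreducible ϖ)
    (t : L) (N : ℕ) :
    letI := algBt R K t N
    IsLocalization.Away (algebraMap R (Bt R t N) ϖ) (Bt K t N) :=
  isLocalization_away_BA hϖ _ _ _ rfl rfl _

/-- The `K[X]`-algebra structure `X ↦ t` on `Bt K t N`. -/
@[reducible] noncomputable def algPolyBt (t : L) (N : ℕ) : Algebra K[X] (Bt K t N) :=
  algPolyA (Bt K t N) t t_mem_Bt

variable {K} in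
theorem cuspDen_ne_zero (hN : N ≠ 0) (htr : Transcendental K t) : cuspDen K N ≠ 0 := by
  intro h
  apply aeval_cuspDen_ne_zero hN htr
  rw [h, map_zero]

theorem map_cuspDen (N : ℕ) : (cuspDen R N).map (algebraMap R K) = cuspDen K N := by
  simp only [cuspDen, Polynomial.map_mul, Polynomial.map_sub, Polynomial.map_add,
    Polynomial.map_pow, Polynomial.map_X, Polynomial.map_one, Polynomial.map_ofNat]

variable {K} in
theorem isLocalization_away_polyBt (hN : N ≠ 0) (htr : Transcendental K t) :
    letI := algPolyBt K t N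
    IsLocalization.Away (cuspDen K N) (Bt K t N) :=
  isLocalization_away_polyA (cuspDen K N) (cuspDen_ne_zero hN htr) t htr _
    (Bt_eq_of_transcendental hN htr) _

variable {K} in
theorem isPrincipalIdealRing_Bt (hN : N ≠ 0) (htr : Transcendental K t) :
    IsPrincipalIdealRing (Bt K t N) :=
  isPrincipalIdealRing_polyA (cuspDen K N) (cuspDen_ne_zero hN htr) t htr _
    (Bt_eq_of_transcendental hN htr)

variable {K} in
theorem isDedekindDomain_Bt (hN : N ≠ 0) (htr : Transcendental K t) :
    IsDedekindDomain (Bt K t N) :=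
  isDedekindDomain_polyA (cuspDen K N) (cuspDen_ne_zero hN htr) t htr _
    (Bt_eq_of_transcendental hN htr)

variable {K} in
/-- Ring properties of `Bt R t N` over a discrete valuation ring. -/
theorem Bt_props_dvr [IsDiscreteValuationRing R] (hN : N ≠ 0) (htr : Transcendental K t) {ϖ : R}
    (hϖ : Irreducible ϖ) :
    IsIntegrallyClosed (Bt R t N) ∧ IsNoetherianRing (Bt R t N) ∧
      Prime (algebraMap R (Bt R t N) ϖ) ∧
      IsPrincipalIdealRing (Bt R t N ⧸ Ideal.span {algebraMap R (Bt R t N) ϖ}) := by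
  obtain ⟨h1, h2, h3, h4⟩ := Bt_props hN (transcendental_base R htr)
    (span_isMaximal_of_irreducible R hϖ)
  exact ⟨h1, h2, prime_of_span_isPrime R K hϖ.ne_zero h3, h4⟩

end BtS

/-! #### `BplusH` -/

section BplusHS

variable {m : L}

theorem BplusH_le {b : L} (hb : b ∈ BplusH R m) : b ∈ BplusH K m :=
  adjoin_le_adjoin _ hb

/-- The inclusion `BplusH R m → BplusH K m` as an algebra structure. -/
@[reducible] def algBplusH (m : L) : Algebra (BplusH R m) (BplusH K m) :=
  algBA (BplusH R m) (BplusH K m) (fun _ hb => BplusH_le R K hb)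

theorem isScalarTower_BplusH (m : L) :
    letI := algBplusH R K m
    IsScalarTower (BplusH R m) (BplusH K m) L :=
  isScalarTower_BA _ _ _

theorem isLocalization_away_BplusH [IsDiscreteValuationRing R] {ϖ : R} (hϖ : Irreducible ϖ)
    (m : L) :
    letI := algBplusH R K m
    IsLocalization.Away (algebraMap R (BplusH R m) ϖ) (BplusH K m) :=
  isLocalization_away_BA hϖ _ _ _ rfl rfl _

/-- The `K[X]`-algebra structure `X ↦ m` on `BplusH K m`. -/
@[reducible] noncomputable def algPolyBplusH (m : L) : Algebra K[X] (BplusH K m) :=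
  algPolyA (BplusH K m) m m_mem_BplusH

variable {K} in
theorem hesseDen_ne_zero (htr : Transcendental K m) : hesseDen K ≠ 0 := by
  intro h
  apply aeval_hesseDen_ne_zero htr
  rw [h, map_zero]

theorem map_hesseDen : (hesseDen R).map (algebraMap R K) = hesseDen K := by
  simp only [hesseDen, Polynomial.map_sub, Polynomial.map_pow, Polynomial.map_X,
    Polynomial.map_one]

variable {K} in
theorem isLocalization_away_polyBplusH (htr : Transcendental K m) :
    letI := algPolyBplusH K m
    IsLocalization.Away (hesseDen K) (BplusH K m) :=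
  isLocalization_away_polyA (hesseDen K) (hesseDen_ne_zero htr) m htr _ (BplusH_eq m) _

variable {K} in
theorem isPrincipalIdealRing_BplusH (htr : Transcendental K m) :
    IsPrincipalIdealRing (BplusH K m) :=
  isPrincipalIdealRing_polyA (hesseDen K) (hesseDen_ne_zero htr) m htr _ (BplusH_eq m)

variable {K} in
theorem isDedekindDomain_BplusH (htr : Transcendental K m) : IsDedekindDomain (BplusH K m) :=
  isDedekindDomain_polyA (hesseDen K) (hesseDen_ne_zero htr) m htr _ (BplusH_eq m)

variable {K} in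
/-- Ring properties of `BplusH R m` over a discrete valuation ring. -/
theorem BplusH_props_dvr [IsDiscreteValuationRing R] (htr : Transcendental K m) {ϖ : R}
    (hϖ : Irreducible ϖ) :
    IsIntegrallyClosed (BplusH R m) ∧ IsNoetherianRing (BplusH R m) ∧
      Prime (algebraMap R (BplusH R m) ϖ) ∧
      IsPrincipalIdealRing (BplusH R m ⧸ Ideal.span {algebraMap R (BplusH R m) ϖ}) := by
  obtain ⟨h1, h2, h3, h4⟩ := BplusH_props (transcendental_base R htr)
    (span_isMaximal_of_irreducible R hϖ)
  exact ⟨h1, h2, prime_of_span_isPrime R K hϖ.ne_zero h3, h4⟩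

end BplusHS

/-! #### `BtH` -/

section BtHS

variable {t : L} {N : ℕ}

theorem BtH_le {b : L} (hb : b ∈ BtH R t N) : b ∈ BtH K t N :=
  adjoin_le_adjoin _ hb

/-- The inclusion `BtH R t N → BtH K t N` as an algebra structure. -/
@[reducible] def algBtH (t : L) (N : ℕ) : Algebra (BtH R t N) (BtH K t N) :=
  algBA (BtH R t N) (BtH K t N) (fun _ hb => BtH_le R K hb)

theorem isScalarTower_BtH (t : L) (N : ℕ) :
    letI := algBtH R K t N
    IsScalarTower (BtH R t N) (BtH K t N) L :=
  isScalarTower_BA _ _ _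

theorem isLocalization_away_BtH [IsDiscreteValuationRing R] {ϖ : R} (hϖ : Irreducible ϖ)
    (t : L) (N : ℕ) :
    letI := algBtH R K t N
    IsLocalization.Away (algebraMap R (BtH R t N) ϖ) (BtH K t N) :=
  isLocalization_away_BA hϖ _ _ _ rfl rfl _

/-- The `K[X]`-algebra structure `X ↦ t` on `BtH K t N`. -/
@[reducible] noncomputable def algPolyBtH (t : L) (N : ℕ) : Algebra K[X] (BtH K t N) :=
  algPolyA (BtH K t N) t t_mem_BtH

variable {K} in
theorem cuspDenH_ne_zero (hN : N ≠ 0) (htr : Transcendental K t) : cuspDenH K N ≠ 0 := by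
  intro h
  apply aeval_cuspDenH_ne_zero hN htr
  rw [h, map_zero]

theorem map_cuspDenH (N : ℕ) : (cuspDenH R N).map (algebraMap R K) = cuspDenH K N := by
  simp only [cuspDenH, Polynomial.map_mul, Polynomial.map_sub, Polynomial.map_add,
    Polynomial.map_pow, Polynomial.map_X, Polynomial.map_one, Polynomial.map_ofNat]

variable {K} in
theorem isLocalization_away_polyBtH (hN : N ≠ 0) (htr : Transcendental K t) :
    letI := algPolyBtH K t N
    IsLocalization.Away (cuspDenH K N) (BtH K t N) :=
  isLocalization_away_polyA (cuspDenH K N) (cuspDenH_ne_zero hN htr) t htr _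
    (BtH_eq_of_transcendental hN htr) _

variable {K} in
theorem isPrincipalIdealRing_BtH (hN : N ≠ 0) (htr : Transcendental K t) :
    IsPrincipalIdealRing (BtH K t N) :=
  isPrincipalIdealRing_polyA (cuspDenH K N) (cuspDenH_ne_zero hN htr) t htr _
    (BtH_eq_of_transcendental hN htr)

variable {K} in
theorem isDedekindDomain_BtH (hN : N ≠ 0) (htr : Transcendental K t) :
    IsDedekindDomain (BtH K t N) :=
  isDedekindDomain_polyA (cuspDenH K N) (cuspDenH_ne_zero hN htr) t htr _
    (BtH_eq_of_transcendental hN htr)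

variable {K} in
/-- Ring properties of `BtH R t N` over a discrete valuation ring. -/
theorem BtH_props_dvr [IsDiscreteValuationRing R] (hN : N ≠ 0) (htr : Transcendental K t)
    {ϖ : R} (hϖ : Irreducible ϖ) :
    IsIntegrallyClosed (BtH R t N) ∧ IsNoetherianRing (BtH R t N) ∧
      Prime (algebraMap R (BtH R t N) ϖ) ∧
      IsPrincipalIdealRing (BtH R t N ⧸ Ideal.span {algebraMap R (BtH R t N) ϖ}) := by
  obtain ⟨h1, h2, h3, h4⟩ := BtH_props hN (transcendental_base R htr)
    (span_isMaximal_of_irreducible R hϖ)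
  exact ⟨h1, h2, prime_of_span_isPrime R K hϖ.ne_zero h3, h4⟩

end BtHS

end Charts

end Fermat.Agent.N4.TwoBase
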